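/-
S29 + S42 — Defs.lean (chief architect: helper74).  BINDING interface file of the route
(board topic `S29`, route notes #1728/#1729, lead order #1779).

Objects
* `Qb`, `GQ`, `Zb`                — `ℚ̄`, `Gal(ℚ̄/ℚ)`, `ℤ̄ = integralClosure ℤ ℂ`;
* `Jp N p`                        — the `p`-torsion of `JZero N` as a `ℤ`-submodule;
* `heckeJp N p ℓ`, `galJp N p`    — `T_ℓ` and the Galois action restricted to `Jp N p`;
* `heckeLpar N ℓ hℓ hℓN`          — `T_ℓ` on the parabolic lattice `Lpar N = Hom_par(Γ₀(N), ℤ)`.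

Leaf statements (all `Prop`-valued; block owners prove them, `S29/Plan.lean` consumes them)
* `PSStatement`                   — [PS]  quadratic relation ⇒ 2-dimensional representation;
* `FDStatement`                   — [FD]  every element of a finite level is a power of a Frobenius;
* `CycStatement p 𝔽`              — [Cyc] the mod-`p` cyclotomic character;
* `SpecCoreStatement N p`         — the `hcomm`-free S37 core datum at all `(ℓ, A)`, `ℓ ∤ N p`;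
* `InertiaStatement`, `ESStatement`, `GHStatement`, `FLStatement` — [ES-use], [GH], [FL] on `J[p]`;
* `KStatement N p`                — [K]   injective Hecke-equivariant `θ : Lpar N / p → J[p]`;
* `EigStatement N p g ψ`          — [Eig] eigenvector in `𝔽 ⊗ Lpar N` (`ψ : ℤ̄ →+* 𝔽`);
* `NVStatement N p g ψ`           — [NV]  eigenvector in `𝔽 ⊗ J[p]`  (⇐ [K] + [Eig]);
* `CoreStatement N p g ψ`         — the common core of S29 and S42 over `𝔽`.
-/
import Mathlib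
import Fermat.Statements.S29
import Fermat.Statements.S42
import Fermat.Statements.S37
import Fermat.Agent.S37.Top
import Fermat.Agent.S16.HeckeHom
import Fermat.Agent.S41.Defs
import Fermat.Agent.S41.ParMem

set_option autoImplicit false

open ModularCurve AlgebraicCurve CongruenceSubgroup Polynomial
open scoped TensorProduct MatrixGroups

namespace Fermat.Agent.S29

noncomputable section

/-- `ℚ̄`. -/
abbrev Qb : Type := AlgebraicClosure ℚ

/-- `Gal(ℚ̄/ℚ)`. -/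
abbrev GQ : Type := Qb ≃ₐ[ℚ] Qb

/-- `ℤ̄`, the ring of all algebraic integers in `ℂ`. -/
abbrev Zb : Type := integralClosure ℤ ℂ

/-! ### The `p`-torsion of `J₀(N)` with its operators -/

section Torsion

variable (N p : ℕ) [NeZero N]

/-- `J₀(N)(ℚ̄)[p]` as a `ℤ`-submodule of `JZero N`. -/
abbrev Jp : Submodule ℤ (JZero N) := Submodule.torsionBy ℤ (JZero N) (p : ℤ)

omit [NeZero N] in
theorem mem_Jp_iff (x : JZero N) : x ∈ Jp N p ↔ p • x = 0 := by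
  rw [Submodule.mem_torsionBy_iff, natCast_zsmul]

omit [NeZero N] in
/-- The Galois action commutes with integer multiples. -/
theorem galois_smul_zsmul (σ : GQ) (n : ℤ) (x : JZero N) : σ • (n • x) = n • (σ • x) :=
  map_zsmul (DistribSMul.toAddMonoidHom (JZero N) σ) n x

/-- `T_ℓ` (the frozen `heckeOperatorBar N ℓ`) restricted to the `p`-torsion. -/
def heckeJp (ℓ : Nat.Primes) : Jp N p →ₗ[ℤ] Jp N p :=
  (heckeOperatorBar N ℓ).restrict (p := Jp N p) (q := Jp N p) (fun x hx => by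
    rw [Submodule.mem_torsionBy_iff] at hx ⊢
    rw [← map_zsmul, hx, map_zero])

@[simp]
theorem coe_heckeJp_apply (ℓ : Nat.Primes) (x : Jp N p) :
    ((heckeJp N p ℓ x : Jp N p) : JZero N) = heckeOperatorBar N ℓ (x : JZero N) := rfl

omit [NeZero N] in
theorem galois_smul_mem_Jp (σ : GQ) {x : JZero N} (hx : x ∈ Jp N p) : σ • x ∈ Jp N p := by
  rw [Submodule.mem_torsionBy_iff] at hx ⊢
  rw [← galois_smul_zsmul, hx, smul_zero]

/-- The Galois action on the `p`-torsion, as `ℤ`-linear endomorphisms. -/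
def galJp : GQ →* Module.End ℤ (Jp N p) where
  toFun σ :=
    { toFun := fun x => ⟨σ • (x : JZero N), galois_smul_mem_Jp N p σ x.2⟩
      map_add' := fun x y => Subtype.ext (by simp [smul_add])
      map_smul' := fun n x => Subtype.ext (by
        simp only [Submodule.coe_smul, RingHom.id_apply]
        exact galois_smul_zsmul N σ n (x : JZero N)) }
  map_one' := by
    ext x
    simp
  map_mul' σ τ := by
    ext x
    simp [mul_smul]

omit [NeZero N] in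
@[simp]
theorem coe_galJp_apply (σ : GQ) (x : Jp N p) :
    ((galJp N p σ x : Jp N p) : JZero N) = σ • (x : JZero N) := rfl

end Torsion

/-! ### `T_ℓ` on the parabolic lattice -/

open Fermat.Agent.S16 (heckeTHom tData)
open Fermat.Agent.S41 (Lpar)

/-- `T_ℓ` (`ℓ ∤ N`) on `Lpar N = Hom_par(Γ₀(N), ℤ)` (`S16.heckeTHom`, `S41.ParMem`). -/
def heckeLpar (N ℓ : ℕ) (hℓ : ℓ.Prime) (hℓN : ¬ ℓ ∣ N) : Lpar N →ₗ[ℤ] Lpar N :=
  haveI : Fact ℓ.Prime := ⟨hℓ⟩
  AddMonoidHom.toIntLinearMap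
    { toFun := fun x => ⟨heckeTHom N ℓ hℓN x.1,
        Fermat.Agent.S41.ParMem.isParabolicHom_heckeTHom hℓN x.2⟩
      map_zero' := Subtype.ext (tData N ℓ hℓN).op_zero
      map_add' := fun x y => Subtype.ext ((tData N ℓ hℓN).op_add x.1 y.1) }

theorem coe_heckeLpar_apply (N ℓ : ℕ) (hℓ : ℓ.Prime) (hℓN : ¬ ℓ ∣ N) (x : Lpar N) :
    ((heckeLpar N ℓ hℓ hℓN x : Lpar N) : Additive (Gamma0 N) →+ ℤ) =
      (haveI : Fact ℓ.Prime := ⟨hℓ⟩; heckeTHom N ℓ hℓN x.1) := rfl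

/-! ### Leaf statements -/

/-- **[PS]** (pure algebra).  Over an algebraically closed field, a nonzero finite-dimensional
representation on which every `g` satisfies a quadratic relation `g² − t g + d(g) = 0`
(`d` a character) yields a `2`-dimensional representation with these characteristic polynomials,
trivial at every `g` acting trivially with `d g = 1`.  (The scalar `t` is unique for each `g`.) -/
def PSStatement : Prop :=
  ∀ (F : Type) [Field F] [IsAlgClosed F] (G : Type) [Group G] (V : Type) [AddCommGroup V]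
    [Module F V] [FiniteDimensional F V] [Nontrivial V]
    (π : G →* Module.End F V) (d : G →* Fˣ),
    (∀ g : G, ∃ t : F, π g * π g - t • π g + ((d g : Fˣ) : F) • (1 : Module.End F V) = 0) →
    ∃ ρ : G →* Matrix (Fin 2) (Fin 2) F,
      (∀ (g : G) (t : F), π g * π g - t • π g + ((d g : Fˣ) : F) • (1 : Module.End F V) = 0 →
        (ρ g).charpoly = X ^ 2 - C t * X + C ((d g : Fˣ) : F)) ∧
      (∀ g : G, π g = 1 → d g = 1 → ρ g = 1)

/-- **[FD]** (weak Frobenius density + bridge).  For every finite level `L`, finite set `S` of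
primes and `g ∈ Gal(ℚ̄/ℚ)`, the restriction of `g` to `L` is a power of a Frobenius element at a
prime `ℓ ∉ S`. -/
def FDStatement : Prop :=
  ∀ L : IntermediateField ℚ Qb, FiniteDimensional ℚ L → ∀ (S : Finset ℕ) (g : GQ),
    ∃ (ℓ : ℕ) (A : ValuationSubring Qb) (σ : GQ) (j : ℕ),
      ℓ.Prime ∧ ℓ ∉ S ∧ A.LiesOverPrime ℓ ∧ A.IsFrobeniusAt σ ℓ ∧ ∀ x ∈ L, g x = (σ ^ j) x

/-- **[Cyc]** the mod-`p` cyclotomic character with values in a field `𝔽` of characteristic `p`: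
finite level, `d(Frob_ℓ) = ℓ` and trivial on inertia at `ℓ ≠ p`. -/
def CycStatement (p : ℕ) (𝔽 : Type) [Field 𝔽] : Prop :=
  ∃ d : GQ →* 𝔽ˣ, GaloisFactorsThroughFiniteLevel d ∧
    (∀ ℓ : ℕ, ℓ.Prime → ℓ ≠ p → ∀ A : ValuationSubring Qb, A.LiesOverPrime ℓ →
      ∀ σ : GQ, A.IsFrobeniusAt σ ℓ → ((d σ : 𝔽ˣ) : 𝔽) = (ℓ : 𝔽)) ∧
    (∀ ℓ : ℕ, ℓ.Prime → ℓ ≠ p → ∀ A : ValuationSubring Qb, A.LiesOverPrime ℓ →
      ∀ τ ∈ A.inertiaSubgroupIn ℚ, d τ = 1)

/-- **The S37 input**: the `hcomm`-free core datum `S37Top.SpecCore` at every `(ℓ, A)`, `ℓ ∤ N p`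
(this is what `S37Core.specCore_of_redDatum` produces; NOT the frozen S37 statement). -/
def SpecCoreStatement (N p : ℕ) [NeZero N] : Prop :=
  ∀ (ℓ : ℕ) (hℓ : ℓ.Prime), ¬ ℓ ∣ N * p → ∀ A : ValuationSubring Qb, A.LiesOverPrime ℓ →
    Fermat.Agent.S37Top.SpecCore N p ℓ hℓ A

/-- **[ES-use] (I)**: inertia at `ℓ ∤ N p` acts trivially on `J[p]`. -/
def InertiaStatement (N p : ℕ) [NeZero N] : Prop :=
  ∀ ℓ : ℕ, ℓ.Prime → ¬ ℓ ∣ N * p → ∀ A : ValuationSubring Qb, A.LiesOverPrime ℓ →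
    ∀ τ ∈ A.inertiaSubgroupIn ℚ, ∀ x : JZero N, p • x = 0 → τ • x = x

/-- **[ES-use] (II)**: the Eichler–Shimura relation `σ² − T_ℓ σ + ℓ = 0` on `J[p]` for EVERY
Frobenius element `σ` at every `A` over `ℓ ∤ N p` (`T_ℓ` = the frozen `heckeOperatorBar`). -/
def ESStatement (N p : ℕ) [NeZero N] : Prop :=
  ∀ (ℓ : ℕ) (hℓ : ℓ.Prime), ¬ ℓ ∣ N * p → ∀ A : ValuationSubring Qb, A.LiesOverPrime ℓ →
    ∀ σ : GQ, A.IsFrobeniusAt σ ℓ → ∀ x : JZero N, p • x = 0 →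
      σ • σ • x - heckeOperatorBar N ⟨ℓ, hℓ⟩ (σ • x) + ℓ • x = 0

/-- **[GH]**: Galois commutes with `T_ℓ` (`ℓ ∤ N p`) on `J[p]`. -/
def GHStatement (N p : ℕ) [NeZero N] : Prop :=
  ∀ (ℓ : ℕ) (hℓ : ℓ.Prime), ¬ ℓ ∣ N * p → ∀ (σ : GQ) (x : JZero N), p • x = 0 →
    heckeOperatorBar N ⟨ℓ, hℓ⟩ (σ • x) = σ • heckeOperatorBar N ⟨ℓ, hℓ⟩ x

/-- **[FL]**: every `p`-torsion class is fixed by `Gal(ℚ̄/L)` for a number field `L`. -/
def FLStatement (N p : ℕ) [NeZero N] : Prop :=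
  ∀ x : JZero N, p • x = 0 → ∃ L : IntermediateField ℚ Qb, FiniteDimensional ℚ L ∧
    ∀ σ : GQ, (∀ y ∈ L, σ y = y) → σ • x = x

/-- **[K]** (the analytic comparison): an additive `θ : Lpar N → J₀(N)[p]` with kernel `p·Lpar N`
commuting with `T_ℓ` for all primes `ℓ ∤ N`, `ℓ ≠ p`.
(`θ u` = the class `[(1/p)·div f]` attached to the character `γ ↦ ζ_p^{u γ}` of `Γ₀(N)`.) -/
def KStatement (N p : ℕ) [NeZero N] : Prop :=
  ∃ θ : Lpar N →+ JZero N,
    (∀ u : Lpar N, p • θ u = 0) ∧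
    (∀ u : Lpar N, θ u = 0 → ∃ z : Lpar N, u = (p : ℤ) • z) ∧
    (∀ (ℓ : ℕ) (hℓ : ℓ.Prime) (hℓN : ¬ ℓ ∣ N), ℓ ≠ p → ∀ u : Lpar N,
      θ (heckeLpar N ℓ hℓ hℓN u) = heckeOperatorBar N ⟨ℓ, hℓ⟩ (θ u))

/-- **[Eig]**: the eigensystem of the eigenform `g`, reduced along `ψ : ℤ̄ → 𝔽`, occurs in
`𝔽 ⊗ Lpar N` (all primes `ℓ ∤ N`, `ℓ ≠ p` at once; includes integrality of the `a_ℓ(g)`).
Intended for `𝔽` a field of characteristic `p`. -/
def EigStatement (N p : ℕ) [NeZero N] (g : CuspForm (Gamma0 N) 2) {𝔽 : Type} [Field 𝔽]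
    (ψ : Zb →+* 𝔽) : Prop :=
  ∃ w : 𝔽 ⊗[ℤ] (Lpar N), w ≠ 0 ∧
    ∀ (ℓ : ℕ) (hℓ : ℓ.Prime) (hℓN : ¬ ℓ ∣ N), ℓ ≠ p →
      ∃ a : Zb, (a : ℂ) = ModularFormClass.qCoeff g ℓ ∧
        (heckeLpar N ℓ hℓ hℓN).baseChange 𝔽 w = ψ a • w

/-- **[NV]**: the eigensystem of `g`, reduced along `ψ : ℤ̄ → 𝔽`, occurs in `𝔽 ⊗ J₀(N)[p]`
(⇐ `KStatement` + `EigStatement`). -/
def NVStatement (N p : ℕ) [NeZero N] (g : CuspForm (Gamma0 N) 2) {𝔽 : Type} [Field 𝔽]
    (ψ : Zb →+* 𝔽) : Prop :=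
  ∃ v : 𝔽 ⊗[ℤ] (Jp N p), v ≠ 0 ∧
    ∀ (ℓ : ℕ) (hℓ : ℓ.Prime), ¬ ℓ ∣ N → ℓ ≠ p →
      ∃ a : Zb, (a : ℂ) = ModularFormClass.qCoeff g ℓ ∧
        (heckeJp N p ⟨ℓ, hℓ⟩).baseChange 𝔽 v = ψ a • v

/-- **The common core of S29 and S42** over a field `𝔽` of characteristic `p` with
`ψ : ℤ̄ → 𝔽` (used with `𝔽` algebraically closed, e.g. `𝔽 = ℤ̄ ⧸ 𝔪`, `ψ = mk`; `N ≥ 1`):
a `2`-dimensional representation of finite level with the prescribed Frobenius characteristic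
polynomials at all primes `ℓ ∤ N`, `ℓ ≠ p`, and unramified there. -/
def CoreStatement (N p : ℕ) (g : CuspForm (Gamma0 N) 2) {𝔽 : Type} [Field 𝔽]
    (ψ : Zb →+* 𝔽) : Prop :=
  ∃ ρ : GQ →* Matrix (Fin 2) (Fin 2) 𝔽, GaloisFactorsThroughFiniteLevel ρ ∧
    (∀ ℓ : ℕ, ℓ.Prime → ¬ ℓ ∣ N → ℓ ≠ p → ∀ A : ValuationSubring Qb, A.LiesOverPrime ℓ →
      ∀ σ : GQ, A.IsFrobeniusAt σ ℓ →
        ∃ a : Zb, (a : ℂ) = ModularFormClass.qCoeff g ℓ ∧
          (ρ σ).charpoly = X ^ 2 - C (ψ a) * X + C ((ℓ : 𝔽))) ∧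
    (∀ ℓ : ℕ, ℓ.Prime → ¬ ℓ ∣ N → ℓ ≠ p → ∀ A : ValuationSubring Qb, A.LiesOverPrime ℓ →
      ∀ τ ∈ A.inertiaSubgroupIn ℚ, ρ τ = 1)

end

end Fermat.Agent.S29
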