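/-
S29 / S42 route, block [Cyc] (helper6): the mod-`p` cyclotomic character
`d : Gal(ℚ̄/ℚ) →* 𝔽ˣ` with values in a field of characteristic `p`.

* `frob_root`    : a Frobenius element at `A | ℓ`, `ℓ ≠ p`, raises `p`-th roots of unity to the
                   `ℓ`-th power;
* `inertia_root` : inertia at `A | ℓ`, `ℓ ≠ p`, fixes the `p`-th roots of unity;
* `cycStatement` : `CycStatement p 𝔽` of `S29/Defs.lean` (finite level `ℚ(ζ_p)`,
                   `d(Frob_ℓ) = ℓ`, `d = 1` on inertia at `ℓ ≠ p`).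

Proof: `p`-th roots of unity stay distinct modulo the maximal ideal of a valuation subring of
`ℚ̄` over `ℓ ≠ p` (`residue_pow_eq`, via `1 + η + ⋯ + η^(p-1) = 0`), and `d` is
`IsPrimitiveRoot.autToPow` followed by `ZMod p → 𝔽`.
-/
import Mathlib
import Fermat.Agent.S29.Defs

set_option autoImplicit false

namespace Fermat.Agent.S29.Cyc

open Fermat.Agent.S29

/-! ### Roots of unity modulo a valuation subring -/

theorem pow_eq_pow_mod {R : Type*} [Monoid R] {ζ : R} {p : ℕ} (h : ζ ^ p = 1) (a : ℕ) :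
    ζ ^ a = ζ ^ (a % p) := by
  conv_lhs => rw [← Nat.mod_add_div a p, pow_add, pow_mul, h, one_pow, mul_one]

theorem prim_pow_eq_iff {ζ : Qb} {p : ℕ} (hp : p.Prime) (hζ : IsPrimitiveRoot ζ p) (a b : ℕ) :
    ζ ^ a = ζ ^ b ↔ a % p = b % p := by
  constructor
  · intro h
    rw [pow_eq_pow_mod hζ.pow_eq_one a, pow_eq_pow_mod hζ.pow_eq_one b] at h
    exact hζ.pow_inj (Nat.mod_lt _ hp.pos) (Nat.mod_lt _ hp.pos) h
  · intro h
    rw [pow_eq_pow_mod hζ.pow_eq_one a, pow_eq_pow_mod hζ.pow_eq_one b, h]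

theorem root_mem (A : ValuationSubring Qb) {ζ : Qb} {p : ℕ} (hp : p ≠ 0) (h : ζ ^ p = 1) :
    ζ ∈ A := by
  rcases A.mem_or_inv_mem ζ with h1 | h1
  · exact h1
  · have h2 : ζ = ζ⁻¹ ^ (p - 1) := by
      have hζ0 : ζ ≠ 0 := by
        rintro rfl
        rw [zero_pow hp] at h
        exact zero_ne_one h
      have h3 : ζ ^ (p - 1) * ζ = 1 := by
        rw [← pow_succ, Nat.sub_add_cancel (Nat.pos_of_ne_zero hp), h]
      rw [inv_pow]
      exact eq_inv_of_mul_eq_one_right h3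
    rw [h2]
    exact pow_mem h1 _

theorem natCast_residue_eq_zero (A : ValuationSubring Qb) {ℓ : ℕ} (hℓ : (ℓ : Qb) ∈ A.nonunits) :
    ((ℓ : ℕ) : IsLocalRing.ResidueField A) = 0 := by
  obtain ⟨ha, hmem⟩ := ValuationSubring.mem_nonunits_iff_exists_mem_maximalIdeal.mp hℓ
  have h1 : (⟨(ℓ : Qb), ha⟩ : A) = ((ℓ : ℕ) : A) := Subtype.ext (by simp)
  rw [h1] at hmem
  have h2 := (IsLocalRing.residue_eq_zero_iff _).mpr hmem
  rwa [map_natCast] at h2

/-- a primitive `p`-th root of unity does not reduce to `1` modulo a valuation subring over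
`ℓ ≠ p`. -/
theorem residue_ne_one (A : ValuationSubring Qb) {ℓ p : ℕ} (hℓ : ℓ.Prime) (hp : p.Prime)
    (hℓp : ℓ ≠ p) (hℓA : (ℓ : Qb) ∈ A.nonunits) (η : A)
    (hη : IsPrimitiveRoot (η : Qb) p) : IsLocalRing.residue A η ≠ 1 := by
  intro h1
  have hsum : ∑ i ∈ Finset.range p, η ^ i = 0 := by
    apply Subtype.ext
    have := hη.geom_sum_eq_zero hp.one_lt
    push_cast
    exact this
  have h2 := congrArg (IsLocalRing.residue A) hsum
  rw [map_sum, map_zero] at h2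
  simp only [map_pow, h1, one_pow, Finset.sum_const, Finset.card_range, nsmul_eq_mul,
    mul_one] at h2
  have h3 := natCast_residue_eq_zero A hℓA
  have hcop : IsCoprime (p : ℤ) (ℓ : ℤ) := by
    rw [Nat.isCoprime_iff_coprime]
    exact (Nat.coprime_primes hp hℓ).mpr (Ne.symm hℓp)
  obtain ⟨u, v, huv⟩ := hcop
  have h4 := congrArg (fun n : ℤ => (n : IsLocalRing.ResidueField A)) huv
  simp only [Int.cast_add, Int.cast_mul, Int.cast_natCast, h2, h3, mul_zero, add_zero,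
    Int.cast_one] at h4
  exact zero_ne_one h4

theorem residue_pow_eq (A : ValuationSubring Qb) {ℓ p : ℕ} (hℓ : ℓ.Prime) (hp : p.Prime)
    (hℓp : ℓ ≠ p) (hℓA : (ℓ : Qb) ∈ A.nonunits) (η : A)
    (hη : IsPrimitiveRoot (η : Qb) p) (a b : ℕ)
    (h : IsLocalRing.residue A η ^ a = IsLocalRing.residue A η ^ b) :
    (η : Qb) ^ a = (η : Qb) ^ b := by
  by_contra hne
  have hp1 : ((η : Qb)) ^ p = 1 := hη.pow_eq_one
  have hηp : η ^ p = 1 := Subtype.ext (by push_cast; exact hp1)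
  set η' : A := η ^ a * η ^ (b * (p - 1)) with hη'
  have hb : (η : Qb) ^ b * (η : Qb) ^ (b * (p - 1)) = 1 := by
    have hbp : b + b * (p - 1) = p * b := by
      obtain ⟨q, rfl⟩ : ∃ q, p = q + 1 := ⟨p - 1, (Nat.sub_add_cancel hp.pos).symm⟩
      rw [Nat.add_sub_cancel]; ring
    rw [← pow_add, hbp, pow_mul, hp1, one_pow]
  have hη'1 : (η' : Qb) ≠ 1 := by
    intro h1
    apply hne
    have h2 : (η' : Qb) = (η : Qb) ^ a * (η : Qb) ^ (b * (p - 1)) := by
      rw [hη']; push_cast; rfl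
    rw [h2] at h1
    have h3 : (η : Qb) ^ (b * (p - 1)) ≠ 0 := by
      intro h0
      rw [h0, mul_zero] at h1
      exact zero_ne_one h1
    exact mul_right_cancel₀ h3 (h1.trans hb.symm)
  have hη'p : (η' : Qb) ^ p = 1 := by
    have : η' ^ p = 1 := by
      rw [hη', mul_pow, ← pow_mul, ← pow_mul, mul_comm a p, mul_comm (b * (p - 1)) p, pow_mul,
        pow_mul η p, hηp, one_pow, one_pow, mul_one]
    have h2 := congrArg (fun x : A => (x : Qb)) this
    simpa using h2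
  have hprim : IsPrimitiveRoot (η' : Qb) p := by
    have : Fact p.Prime := ⟨hp⟩
    have h1 := orderOf_eq_prime hη'p hη'1
    rw [← h1]
    exact IsPrimitiveRoot.orderOf _
  apply residue_ne_one A hℓ hp hℓp hℓA η' hprim
  have hbp : b + b * (p - 1) = p * b := by
    obtain ⟨q, rfl⟩ : ∃ q, p = q + 1 := ⟨p - 1, (Nat.sub_add_cancel hp.pos).symm⟩
    rw [Nat.add_sub_cancel]; ring
  rw [hη', map_mul, map_pow, map_pow, h, ← pow_add, hbp, pow_mul, ← map_pow, hηp, map_one,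
    one_pow]

/-- a Frobenius element at `A | ℓ` raises `p`-th roots of unity to the `ℓ`-th power. -/
theorem frob_root (A : ValuationSubring Qb) {ℓ p : ℕ} (hℓ : ℓ.Prime) (hp : p.Prime)
    (hℓp : ℓ ≠ p) (hℓA : (ℓ : Qb) ∈ A.nonunits) {σ : GQ} (hσ : A.IsFrobeniusAt σ ℓ)
    {ζ : Qb} (hζ : IsPrimitiveRoot ζ p) : σ ζ = ζ ^ ℓ := by
  have : NeZero p := ⟨hp.ne_zero⟩
  set j := (hζ.autToPow ℚ σ : ZMod p).val with hj
  have hspec : ζ ^ j = σ ζ := hζ.autToPow_spec ℚ σ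
  have hζA : ζ ∈ A := root_mem A hp.ne_zero hζ.pow_eq_one
  set z : A := ⟨ζ, hζA⟩ with hz
  have h1 := hσ.smul_residue_eq (IsLocalRing.residue A z)
  have h2 : (⟨σ, hσ.mem_decompositionSubgroup⟩ : A.decompositionSubgroup ℚ) • z = z ^ j := by
    apply Subtype.ext
    push_cast
    exact hspec.symm
  rw [← IsLocalRing.ResidueField.residue_smul, h2, map_pow] at h1
  have h3 := residue_pow_eq A hℓ hp hℓp hℓA z hζ j ℓ h1
  rw [← hspec]
  exact h3

/-- inertia at `A | ℓ` fixes the `p`-th roots of unity. -/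
theorem inertia_root (A : ValuationSubring Qb) {ℓ p : ℕ} (hℓ : ℓ.Prime) (hp : p.Prime)
    (hℓp : ℓ ≠ p) (hℓA : (ℓ : Qb) ∈ A.nonunits) {σ : GQ} (hσ : σ ∈ A.inertiaSubgroupIn ℚ)
    {ζ : Qb} (hζ : IsPrimitiveRoot ζ p) : σ ζ = ζ := by
  have : NeZero p := ⟨hp.ne_zero⟩
  obtain ⟨g, hg, rfl⟩ := hσ
  set j := (hζ.autToPow ℚ (g : GQ) : ZMod p).val with hj
  have hspec : ζ ^ j = (g : GQ) ζ := hζ.autToPow_spec ℚ (g : GQ)
  have hζA : ζ ∈ A := root_mem A hp.ne_zero hζ.pow_eq_one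
  set z : A := ⟨ζ, hζA⟩ with hz
  have h1 : g • IsLocalRing.residue A z = IsLocalRing.residue A z := by
    have := congrArg (fun f : RingAut (IsLocalRing.ResidueField A) => f (IsLocalRing.residue A z))
      (MonoidHom.mem_ker.mp hg)
    exact this
  have h2 : g • z = z ^ j := by
    apply Subtype.ext
    push_cast
    exact hspec.symm
  rw [← IsLocalRing.ResidueField.residue_smul, h2, map_pow] at h1
  have h3 := residue_pow_eq A hℓ hp hℓp hℓA z hζ j 1 (by rw [h1, pow_one])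
  rw [pow_one] at h3
  exact hspec.symm.trans h3


/-- **[Cyc]**: the mod-`p` cyclotomic character with values in a field of characteristic `p`. -/
theorem cycStatement (p : ℕ) (hp : p.Prime) (𝔽 : Type) [Field 𝔽] [CharP 𝔽 p] :
    CycStatement p 𝔽 := by
  classical
  have : Fact p.Prime := ⟨hp⟩
  have : NeZero p := ⟨hp.ne_zero⟩
  obtain ⟨ζ, hζ⟩ : ∃ ζ : Qb, IsPrimitiveRoot ζ p :=
    HasEnoughRootsOfUnity.exists_primitiveRoot Qb p
  set d₀ : GQ →* (ZMod p)ˣ := hζ.autToPow ℚ with hd₀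
  set d : GQ →* 𝔽ˣ :=
    (Units.map ((ZMod.castHom (dvd_refl p) 𝔽 : ZMod p →+* 𝔽) : ZMod p →* 𝔽)).comp d₀ with hd
  have hd_pow : ∀ (σ : GQ) (n : ℕ), σ ζ = ζ ^ n → ((d σ : 𝔽ˣ) : 𝔽) = ((n : ℕ) : 𝔽) := by
    intro σ n hσ
    have h1 : ζ ^ (d₀ σ : ZMod p).val = ζ ^ n := (hζ.autToPow_spec ℚ σ).trans hσ
    have h2 := (prim_pow_eq_iff hp hζ _ _).mp h1
    have h3 : ((d₀ σ : (ZMod p)ˣ) : ZMod p) = ((n : ℕ) : ZMod p) := by
      rw [← ZMod.natCast_zmod_val (d₀ σ : ZMod p)]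
      exact (ZMod.natCast_eq_natCast_iff' _ _ _).mpr h2
    show (ZMod.castHom (dvd_refl p) 𝔽) ((d₀ σ : (ZMod p)ˣ) : ZMod p) = _
    rw [h3, map_natCast]
  have hd_fix : ∀ σ : GQ, σ ζ = ζ → d σ = 1 := by
    intro σ hσ
    apply Units.ext
    rw [hd_pow σ 1 (by rw [pow_one]; exact hσ)]
    simp
  have hζint : IsIntegral ℚ ζ := (hζ.isIntegral hp.pos).tower_top
  have hfd : FiniteDimensional ℚ (IntermediateField.adjoin ℚ ({ζ} : Set Qb)) :=
    IntermediateField.adjoin.finiteDimensional hζint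
  refine ⟨d, ⟨IntermediateField.adjoin ℚ ({ζ} : Set Qb), hfd, fun σ hσ =>
    hd_fix σ (hσ ζ (IntermediateField.mem_adjoin_simple_self ℚ ζ))⟩, ?_, ?_⟩
  · intro ℓ hℓ hℓp A hA σ hσ
    exact hd_pow σ ℓ (frob_root A hℓ hp hℓp hA hσ hζ)
  · intro ℓ hℓ hℓp A hA τ hτ
    exact hd_fix τ (inertia_root A hℓ hp hℓp hA hτ hζ)

end Fermat.Agent.S29.Cyc
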