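/-
S29 route, block [ES-use] — ESUse.lean (helper80).

Consequences of S37's INTERNAL core datum `Fermat.Agent.S37Top.SpecCore N p ℓ hℓ A` (one additive
map `sp₀ : JZero N →+ X`, inertia-invariant, killing the Eichler–Shimura element of ONE Frobenius,
injective on `p`-power torsion) on the `p`-power torsion of `JZero N`, for the frozen Hecke
operator `heckeOperatorBar N ℓ` directly (no `HeckeOperatorsCommuteBar`, no `HeckeAlg`-module):

* `inertia_smul_eq`      : the inertia group at `A` acts trivially on `p`-power torsion;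
* `frobenius_smul_eq`    : all Frobenius elements at `A` act in the same way on `p`-power torsion;
* `frobenius_quadratic`  : `σ² x − T_ℓ (σ x) + ℓ x = 0` for EVERY Frobenius `σ` at `A` and every
                           `p`-power torsion `x`.
-/
import Fermat.Agent.S37.Top

set_option autoImplicit false

noncomputable section

open ModularCurve

namespace Fermat.Agent.S29.ESUse

/-- `ℚ̄`. -/
local notation "Qb" => AlgebraicClosure ℚ

/-- `Gal(ℚ̄/ℚ)`. -/
local notation "GQ" => (AlgebraicClosure ℚ ≃ₐ[ℚ] AlgebraicClosure ℚ)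

variable (N p : ℕ)

/-- The action of a Galois element on `JZero N`, as an additive map. -/
def gal (σ : GQ) : JZero N →+ JZero N := DistribSMul.toAddMonoidHom (JZero N) σ

theorem gal_apply (σ : GQ) (x : JZero N) : gal N σ x = σ • x := rfl

/-- Galois translates of `p`-power torsion classes are `p`-power torsion. -/
theorem smul_torsion (σ : GQ) {x : JZero N} (hx : ∃ n : ℕ, p ^ n • x = 0) :
    ∃ n : ℕ, p ^ n • (σ • x) = 0 := by
  obtain ⟨n, hn⟩ := hx
  refine ⟨n, ?_⟩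
  rw [← gal_apply, ← map_nsmul, hn, map_zero]

variable {N p} [NeZero N]

/-- **Inertia acts trivially on `p`-power torsion.** -/
theorem inertia_smul_eq {ℓ : ℕ} {hℓ : ℓ.Prime} {A : ValuationSubring Qb}
    (h : Fermat.Agent.S37Top.SpecCore N p ℓ hℓ A) {σ : GQ}
    (hσ : σ ∈ A.inertiaSubgroupIn ℚ) {x : JZero N} (hx : ∃ n : ℕ, p ^ n • x = 0) :
    σ • x = x := by
  obtain ⟨X, _, sp₀, hI, -, hinj⟩ := h
  obtain ⟨n, hn⟩ := hx
  have hn' : p ^ n • (σ • x) = 0 := by
    rw [← gal_apply, ← map_nsmul, hn, map_zero]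
  have ht : ∃ k : ℕ, p ^ k • (σ • x - x) = 0 :=
    ⟨n, by rw [nsmul_sub, hn', hn, sub_zero]⟩
  have h0 : sp₀ (σ • x - x) = 0 := by
    rw [map_sub, hI σ hσ x, sub_self]
  exact sub_eq_zero.1 (hinj _ ht h0)

/-- **Two Frobenius elements at `A` agree on `p`-power torsion.** -/
theorem frobenius_smul_eq {ℓ : ℕ} {hℓ : ℓ.Prime} {A : ValuationSubring Qb}
    (h : Fermat.Agent.S37Top.SpecCore N p ℓ hℓ A) {φ σ : GQ}
    (hφ : A.IsFrobeniusAt φ ℓ) (hσ : A.IsFrobeniusAt σ ℓ) {x : JZero N}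
    (hx : ∃ n : ℕ, p ^ n • x = 0) : σ • x = φ • x := by
  have hτ := Fermat.Agent.S37Top.inv_mul_mem_inertiaSubgroupIn A hφ hσ
  have h1 := inertia_smul_eq h hτ hx
  have h2 : σ • x = φ • ((φ⁻¹ * σ) • x) := by
    rw [← mul_smul, mul_inv_cancel_left]
  rw [h2, h1]

/-- **The Eichler–Shimura relation on `p`-power torsion**, for every Frobenius element at `A`
and the frozen Hecke operator. -/
theorem frobenius_quadratic {ℓ : ℕ} {hℓ : ℓ.Prime} {A : ValuationSubring Qb}
    (h : Fermat.Agent.S37Top.SpecCore N p ℓ hℓ A) {σ : GQ}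
    (hσ : A.IsFrobeniusAt σ ℓ) {x : JZero N} (hx : ∃ n : ℕ, p ^ n • x = 0) :
    σ • σ • x - heckeOperatorBar N ⟨ℓ, hℓ⟩ (σ • x) + ℓ • x = 0 := by
  have h' := h
  obtain ⟨X, _, sp₀, hI, ⟨φ, hφ, hES⟩, hinj⟩ := h'
  -- replace `σ` by `φ`
  have e1 : σ • x = φ • x := frobenius_smul_eq h hφ hσ hx
  have e2 : σ • (φ • x) = φ • (φ • x) := frobenius_smul_eq h hφ hσ (smul_torsion N p φ hx)
  rw [e1, e2]
  -- the relation element is `p`-power torsion
  obtain ⟨n, hn⟩ := hx
  have t1 : p ^ n • (φ • x) = 0 := by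
    rw [← gal_apply, ← map_nsmul, hn, map_zero]
  have t2 : p ^ n • (φ • φ • x) = 0 := by
    rw [← gal_apply N φ (φ • x), ← map_nsmul, t1, map_zero]
  have t3 : p ^ n • (heckeOperatorBar N ⟨ℓ, hℓ⟩ (φ • x)) = 0 := by
    rw [← map_nsmul, t1, map_zero]
  have t4 : p ^ n • (ℓ • x) = 0 := by
    rw [← mul_nsmul, mul_comm, mul_nsmul, hn, nsmul_zero]
  have ht : ∃ k : ℕ, p ^ k • (φ • φ • x - heckeOperatorBar N ⟨ℓ, hℓ⟩ (φ • x) + ℓ • x) = 0 :=
    ⟨n, by rw [nsmul_add, nsmul_sub, t2, t3, t4, sub_zero, add_zero]⟩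
  exact hinj _ ht (hES x)

end Fermat.Agent.S29.ESUse
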