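/-
S29 block [GH](iii) — FinLevel.lean (helper18): FINITE LEVEL of torsion divisor classes.

For `F̄ = laurentBaseChange ℚ̄ F₀` (e.g. `F₀ = modularFunctionFieldFull N`, `F̄ = F̄_N`):

* `exists_level_series` / `exists_level_function` : every `f ∈ F̄` is fixed (coefficientwise) by
  all `σ ∈ Gal(ℚ̄/ℚ)` fixing a suitable finite extension `L/ℚ` pointwise;
* `exists_level_torsion` : a class `x ∈ Pic⁰(F̄)` killed by `n ≠ 0` is fixed by all such `σ`
  (`x = [D]`, `n·D = div f`, `σ f = f` ⇒ `n·(σD − D) = 0` in `Div` ⇒ `σD = D`);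
* `exists_level_torsion_finset` : one finite **Galois-stable** `L` for finitely many classes;
* `jzero_finiteLevel` : the same for `JZero N`.

The conclusion shape is the binder of the frozen `GaloisFactorsThroughFiniteLevel`.
Mathlib + Prelude only.
-/
import Mathlib
import Fermat.Prelude.Def_ModularCurve_ArithmeticGalois

set_option autoImplicit false

namespace Fermat.Agent.S29.FinLevel

open ModularCurve AlgebraicCurve HahnSeries

local notation "Qb" => AlgebraicClosure ℚ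

theorem isAlgClosure_rat : IsAlgClosure ℚ Qb := by
  have h : (DivisionRing.toRatAlgebra : Algebra ℚ Qb) = AlgebraicClosure.instAlgebra ℚ :=
    Subsingleton.elim _ _
  rw [h]
  infer_instance

theorem isAlgebraic_rat : Algebra.IsAlgebraic ℚ Qb :=
  have := isAlgClosure_rat
  IsAlgClosure.isAlgebraic

theorem normal_rat : Normal ℚ Qb :=
  have := isAlgClosure_rat
  IsAlgClosure.normal ℚ Qb

attribute [local instance] isAlgClosure_rat isAlgebraic_rat normal_rat

/-- **(F0)** every series in `F̄` is fixed coefficientwise by the Galois group of a finite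
extension. -/
theorem exists_level_series (F₀ : IntermediateField ℚ (LaurentSeries ℚ))
    (x : LaurentSeries Qb) (hx : x ∈ laurentBaseChange Qb F₀) :
    ∃ L : IntermediateField ℚ Qb, FiniteDimensional ℚ L ∧
      ∀ σ : Qb ≃ₐ[ℚ] Qb, (∀ a ∈ L, σ a = a) → coeffMap (σ : Qb →+* Qb) x = x := by
  unfold laurentBaseChange at hx
  induction hx using IntermediateField.adjoin_induction with
  | mem x hx =>
    obtain ⟨y, _, rfl⟩ := hx
    exact ⟨⊥, inferInstance, fun σ _ => coeffMap_coeffEmb σ y⟩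
  | algebraMap c =>
    refine ⟨IntermediateField.adjoin ℚ {c},
      IntermediateField.adjoin.finiteDimensional (Algebra.IsIntegral.isIntegral c),
      fun σ hσ => ?_⟩
    rw [coeffMap_algebraMap]
    exact congrArg _ (hσ c (IntermediateField.mem_adjoin_simple_self ℚ c))
  | add x y _ _ hx hy =>
    obtain ⟨L₁, h₁, f₁⟩ := hx
    obtain ⟨L₂, h₂, f₂⟩ := hy
    refine ⟨L₁ ⊔ L₂, IntermediateField.finiteDimensional_sup L₁ L₂, fun σ hσ => ?_⟩
    rw [map_add, f₁ σ fun a ha => hσ a ((le_sup_left : L₁ ≤ L₁ ⊔ L₂) ha),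
      f₂ σ fun a ha => hσ a ((le_sup_right : L₂ ≤ L₁ ⊔ L₂) ha)]
  | inv x _ hx =>
    obtain ⟨L, h, f⟩ := hx
    exact ⟨L, h, fun σ hσ => by rw [map_inv₀, f σ hσ]⟩
  | mul x y _ _ hx hy =>
    obtain ⟨L₁, h₁, f₁⟩ := hx
    obtain ⟨L₂, h₂, f₂⟩ := hy
    refine ⟨L₁ ⊔ L₂, IntermediateField.finiteDimensional_sup L₁ L₂, fun σ hσ => ?_⟩
    rw [map_mul, f₁ σ fun a ha => hσ a ((le_sup_left : L₁ ≤ L₁ ⊔ L₂) ha),
      f₂ σ fun a ha => hσ a ((le_sup_right : L₂ ≤ L₁ ⊔ L₂) ha)]

/-- **(F1)** every function in `F̄` is fixed by the Galois group of a finite extension. -/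
theorem exists_level_function (F₀ : IntermediateField ℚ (LaurentSeries ℚ))
    (f : laurentBaseChange Qb F₀) :
    ∃ L : IntermediateField ℚ Qb, FiniteDimensional ℚ L ∧
      ∀ σ : Qb ≃ₐ[ℚ] Qb, (∀ a ∈ L, σ a = a) → arithmeticGalois F₀ σ • f = f := by
  obtain ⟨L, hL, h⟩ := exists_level_series F₀ (f : LaurentSeries Qb) f.2
  refine ⟨L, hL, fun σ hσ => Subtype.ext ?_⟩
  rw [coe_arithmeticGalois_smul]
  exact h σ hσ

/-- A semilinear automorphism fixing a function `f` fixes every divisor `D` with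
`n · D = div f`, `n ≠ 0`. -/
theorem smul_divisor_eq_of_smul_eq {K F : Type*} [Field K] [Field F] [Algebra K F]
    (g : SemilinearAut K F) (D : Divisor K F) (n : ℕ) (hn : n ≠ 0) (f : F)
    (hf : g • f = f) (hD : ∀ v : Place K F, (n • D) v = v.ord f) : g • D = D := by
  refine Finsupp.ext fun w => ?_
  have h1 : (n • D) (g⁻¹ • w) = (n • D) w := by
    rw [hD, hD]
    have h := SemilinearAut.ord_smul g (g⁻¹ • w) f
    rw [smul_inv_smul, hf] at h
    exact h.symm
  rw [Finsupp.smul_apply, Finsupp.smul_apply, nsmul_eq_mul, nsmul_eq_mul] at h1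
  rw [SemilinearAut.divisor_smul_apply]
  exact mul_left_cancel₀ (Nat.cast_ne_zero.mpr hn) h1

/-- **(F2)** torsion classes have finite level. -/
theorem exists_level_torsion (F₀ : IntermediateField ℚ (LaurentSeries ℚ)) (n : ℕ) (hn : n ≠ 0)
    (x : Pic0 Qb (laurentBaseChange Qb F₀)) (hx : n • x = 0) :
    ∃ L : IntermediateField ℚ Qb, FiniteDimensional ℚ L ∧
      ∀ σ : Qb ≃ₐ[ℚ] Qb, (∀ a ∈ L, σ a = a) → σ • x = x := by
  obtain ⟨D, rfl⟩ := Pic0.mk_surjective x
  have h0 : Pic0.mk (n • D) = 0 := hx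
  have h1 : ((n • D : Divisor.degZero (K := Qb) (F := laurentBaseChange Qb F₀)) :
      Divisor Qb (laurentBaseChange Qb F₀)) ∈ Divisor.principal := by
    have := (QuotientAddGroup.eq_zero_iff _).mp h0
    exact this
  obtain ⟨f, -, hf⟩ := h1
  obtain ⟨L, hL, h⟩ := exists_level_function F₀ f
  refine ⟨L, hL, fun σ hσ => ?_⟩
  rw [galois_smul_pic0_def, SemilinearAut.pic0_smul_mk]
  refine congrArg Pic0.mk (Subtype.ext ?_)
  rw [SemilinearAut.coe_degZeroSMulHom]
  refine smul_divisor_eq_of_smul_eq _ _ n hn f (h σ hσ) fun v => ?_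
  rw [← hf v]
  rfl

/-- A finite extension of `ℚ` inside `ℚ̄` lies in a finite Galois-stable one. -/
theorem exists_stable_ge (L : IntermediateField ℚ Qb) [FiniteDimensional ℚ L] :
    ∃ L' : IntermediateField ℚ Qb, L ≤ L' ∧ FiniteDimensional ℚ L' ∧
      ∀ τ : Qb ≃ₐ[ℚ] Qb, ∀ a ∈ L', τ a ∈ L' := by
  refine ⟨IntermediateField.normalClosure ℚ L Qb, IntermediateField.le_normalClosure L,
    normalClosure.is_finiteDimensional ℚ L Qb, fun τ a ha => ?_⟩
  have : Normal ℚ (IntermediateField.normalClosure ℚ L Qb) := normalClosure.normal ℚ L Qb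
  have h := AlgHom.fieldRange_of_normal (E := IntermediateField.normalClosure ℚ L Qb)
    ((τ : Qb →ₐ[ℚ] Qb).comp (IntermediateField.normalClosure ℚ L Qb).val)
  have h2 : τ a ∈ ((τ : Qb →ₐ[ℚ] Qb).comp
      (IntermediateField.normalClosure ℚ L Qb).val).fieldRange := ⟨⟨a, ha⟩, rfl⟩
  rwa [h] at h2

/-- **(F3)** one finite Galois-stable level for finitely many torsion classes. -/
theorem exists_level_torsion_finset (F₀ : IntermediateField ℚ (LaurentSeries ℚ)) (n : ℕ)
    (hn : n ≠ 0) (s : Finset (Pic0 Qb (laurentBaseChange Qb F₀))) (hs : ∀ x ∈ s, n • x = 0) :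
    ∃ L : IntermediateField ℚ Qb, FiniteDimensional ℚ L ∧
      (∀ τ : Qb ≃ₐ[ℚ] Qb, ∀ a ∈ L, τ a ∈ L) ∧
      ∀ σ : Qb ≃ₐ[ℚ] Qb, (∀ a ∈ L, σ a = a) → ∀ x ∈ s, σ • x = x := by
  classical
  have key : ∃ L : IntermediateField ℚ Qb, FiniteDimensional ℚ L ∧
      ∀ σ : Qb ≃ₐ[ℚ] Qb, (∀ a ∈ L, σ a = a) → ∀ x ∈ s, σ • x = x := by
    induction s using Finset.induction_on with
    | empty => exact ⟨⊥, inferInstance, fun _ _ x hx => absurd hx (Finset.notMem_empty x)⟩
    | insert y t _ ih =>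
      obtain ⟨L₁, h₁, f₁⟩ := ih fun x hx => hs x (Finset.mem_insert_of_mem hx)
      obtain ⟨L₂, h₂, f₂⟩ := exists_level_torsion F₀ n hn y (hs y (Finset.mem_insert_self y t))
      refine ⟨L₁ ⊔ L₂, IntermediateField.finiteDimensional_sup L₁ L₂, fun σ hσ x hx => ?_⟩
      rcases Finset.mem_insert.mp hx with rfl | hx
      · exact f₂ σ fun a ha => hσ a ((le_sup_right : L₂ ≤ L₁ ⊔ L₂) ha)
      · exact f₁ σ (fun a ha => hσ a ((le_sup_left : L₁ ≤ L₁ ⊔ L₂) ha)) x hx
  obtain ⟨L, hL, h⟩ := key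
  obtain ⟨L', hLL', hL', hst⟩ := exists_stable_ge L
  exact ⟨L', hL', hst, fun σ hσ => h σ fun a ha => hσ a (hLL' ha)⟩

/-- **`JZero N`**: finitely many torsion points of `J₀(N)` are fixed by the Galois group of one
finite Galois-stable extension of `ℚ`. -/
theorem jzero_finiteLevel (N : ℕ) (s : Finset (JZero N)) (m : ℕ) (hm : m ≠ 0)
    (hs : ∀ x ∈ s, m • x = 0) :
    ∃ L : IntermediateField ℚ Qb, FiniteDimensional ℚ L ∧
      (∀ τ : Qb ≃ₐ[ℚ] Qb, ∀ a ∈ L, τ a ∈ L) ∧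
      ∀ σ : Qb ≃ₐ[ℚ] Qb, (∀ z ∈ L, σ z = z) → ∀ x ∈ s, σ • x = x :=
  exists_level_torsion_finset (modularFunctionFieldFull N) m hm s hs

/-- **`JZero N`**, one class. -/
theorem jzero_finiteLevel_single (N : ℕ) (x : JZero N) (m : ℕ) (hm : m ≠ 0) (hx : m • x = 0) :
    ∃ L : IntermediateField ℚ Qb, FiniteDimensional ℚ L ∧
      ∀ σ : Qb ≃ₐ[ℚ] Qb, (∀ z ∈ L, σ z = z) → σ • x = x :=
  exists_level_torsion (modularFunctionFieldFull N) m hm x hx

end Fermat.Agent.S29.FinLevel
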