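/-
S29 route, block [GH] — GalHecke.lean (helper80).

**Galois commutes with the Hecke operators on `JZero N`** (coefficientwise Galois action, frozen
operators `heckeOperatorBar N ℓ`):

    `σ • heckeOperatorBar N ℓ x = heckeOperatorBar N ℓ (σ • x)`.

Generic part (any fields `K ⊆ F`, `F'`, `φ : F →ₐ[K] F'` integral, semilinear automorphisms `g` of
`F` and `g'` of `F'` with `SemilinearAut.IntertwinesAlong φ g g'`): restriction of places,
ramification indices, inertia degrees, push-forward, pull-back and correspondences are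
equivariant.  Modular part: the coefficientwise Galois action intertwines the two degeneracy maps
`heckeAlphaBar` (inclusion) and `heckeBetaBar` (`q ↦ q ^ ℓ`).
-/
import Mathlib
import Fermat.Prelude.Def_ModularCurve_HeckeModule
import Fermat.Prelude.Thm_ModularCurve_coeffMap_qExpand
import Fermat.Agent.S24.Defs
import Fermat.Agent.S24.AnDefs
import Fermat.Agent.S24.TranscJ
import Fermat.Agent.S24.AnDegree
import Fermat.Agent.S24.Residue

set_option autoImplicit false

noncomputable section

namespace Fermat.Agent.S29.GalHecke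

open AlgebraicCurve ModularCurve
open scoped Pointwise

/-! ### Generic equivariance -/

section Generic

variable {K F F' : Type*} [Field K] [Field F] [Field F'] [Algebra K F] [Algebra K F']
variable (φ : F →ₐ[K] F') (hφ : φ.toRingHom.IsIntegral)
variable {g : SemilinearAut K F} {g' : SemilinearAut K F'}

theorem restrictAlong_toValuationSubring (w : Place K F') :
    (w.restrictAlong φ hφ).toValuationSubring = w.toValuationSubring.comap φ.toRingHom := rfl

/-- Restriction of places is equivariant. -/
theorem restrictAlong_smul (h : SemilinearAut.IntertwinesAlong (φ : F →+* F') g g')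
    (w : Place K F') : (g' • w).restrictAlong φ hφ = g • w.restrictAlong φ hφ := by
  apply Place.ext
  rw [restrictAlong_toValuationSubring, SemilinearAut.smul_toValuationSubring,
    SemilinearAut.smul_toValuationSubring, restrictAlong_toValuationSubring]
  ext x
  rw [ValuationSubring.mem_comap, ValuationSubring.mem_pointwise_smul_iff_inv_smul_mem,
    ValuationSubring.mem_pointwise_smul_iff_inv_smul_mem, ValuationSubring.mem_comap]
  have hx : g'⁻¹ • (φ.toRingHom x) = φ.toRingHom (g⁻¹ • x) := h.inv x
  rw [hx]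

/-- Orders along `φ` after translation. -/
theorem ord_smul_map (h : SemilinearAut.IntertwinesAlong (φ : F →+* F') g g')
    (w : Place K F') (f : F) : (g' • w).ord (φ (g • f)) = w.ord (φ f) := by
  have hx : g' • (φ f) = φ (g • f) := h f
  rw [← hx, SemilinearAut.ord_smul]

/-- Ramification indices are invariant. -/
theorem ramificationIndexAlong_smul (h : SemilinearAut.IntertwinesAlong (φ : F →+* F') g g')
    (w : Place K F') :
    Place.ramificationIndexAlong φ (g' • w) = Place.ramificationIndexAlong φ w := by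
  have key : ∀ n : ℕ, (∃ f : F, f ≠ 0 ∧ (g' • w).ord (φ f) = n) ↔
      (∃ f : F, f ≠ 0 ∧ w.ord (φ f) = n) := by
    intro n
    constructor
    · rintro ⟨f, hf, hn⟩
      refine ⟨g⁻¹ • f, ?_, ?_⟩
      · intro h0
        apply hf
        have := congrArg (fun y => g • y) h0
        simpa using this
      · rw [← ord_smul_map φ h w (g⁻¹ • f), smul_inv_smul]
        exact hn
    · rintro ⟨f, hf, hn⟩
      refine ⟨g • f, ?_, ?_⟩
      · intro h0
        apply hf
        have := congrArg (fun y => g⁻¹ • y) h0
        simpa using this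
      · rw [ord_smul_map φ h w f]
        exact hn
  show sInf {n : ℕ | 0 < n ∧ ∃ f : F, f ≠ 0 ∧ (g' • w).ord (φ.toRingHom f) = n} =
    sInf {n : ℕ | 0 < n ∧ ∃ f : F, f ≠ 0 ∧ w.ord (φ.toRingHom f) = n}
  congr 1
  ext n
  exact and_congr_right fun _ => key n

theorem deg_restrictAlong_mul_inertiaDegAlong (w : Place K F') :
    (w.restrictAlong φ hφ).deg * w.inertiaDegAlong φ hφ = w.deg := by
  let _ := algebraAlong φ
  have := isScalarTower_along φ
  have := isIntegral_along φ hφ
  exact w.deg_restrict_mul_inertiaDeg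

/-- Inertia degrees are invariant (for places of nonzero degree). -/
theorem inertiaDegAlong_smul (h : SemilinearAut.IntertwinesAlong (φ : F →+* F') g g')
    (w : Place K F') (hdeg : (w.restrictAlong φ hφ).deg ≠ 0) :
    Place.inertiaDegAlong φ hφ (g' • w) = Place.inertiaDegAlong φ hφ w := by
  have h1 := deg_restrictAlong_mul_inertiaDegAlong φ hφ (g' • w)
  have h2 := deg_restrictAlong_mul_inertiaDegAlong φ hφ w
  rw [restrictAlong_smul φ hφ h w, SemilinearAut.deg_smul, SemilinearAut.deg_smul, ← h2] at h1
  exact Nat.eq_of_mul_eq_mul_left (Nat.pos_of_ne_zero hdeg) h1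

/-- Push-forward of divisors is equivariant. -/
theorem pushforwardAlong_smul (h : SemilinearAut.IntertwinesAlong (φ : F →+* F') g g')
    (hdeg : ∀ v : Place K F, v.deg ≠ 0) (D' : Divisor K F') :
    Divisor.pushforwardAlong φ hφ (g' • D') = g • Divisor.pushforwardAlong φ hφ D' := by
  have key : (Divisor.pushforwardAlong φ hφ).comp (DistribSMul.toAddMonoidHom (Divisor K F') g')
      = (DistribSMul.toAddMonoidHom (Divisor K F) g).comp (Divisor.pushforwardAlong φ hφ) := by
    refine Finsupp.addHom_ext fun w n => ?_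
    show Divisor.pushforwardAlong φ hφ (g' • Finsupp.single w n)
      = g • Divisor.pushforwardAlong φ hφ (Finsupp.single w n)
    rw [SemilinearAut.smul_single, Divisor.pushforwardAlong_single,
      Divisor.pushforwardAlong_single, SemilinearAut.smul_single, restrictAlong_smul φ hφ h w,
      inertiaDegAlong_smul φ hφ h w (hdeg _)]
  exact DFunLike.congr_fun key D'

/-- Pull-back of divisors is equivariant. -/
theorem pullbackAlong_smul [HasPrincipalDivisors K F']
    (h : SemilinearAut.IntertwinesAlong (φ : F →+* F') g g') (D : Divisor K F) :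
    Divisor.pullbackAlong φ hφ (g • D) = g' • Divisor.pullbackAlong φ hφ D := by
  ext w
  rw [Divisor.pullbackAlong_apply, SemilinearAut.divisor_smul_apply,
    SemilinearAut.divisor_smul_apply, Divisor.pullbackAlong_apply,
    restrictAlong_smul φ hφ h.inv w, ramificationIndexAlong_smul φ h.inv w]

/-- Correspondences are equivariant. -/
theorem correspondence_smul [HasPrincipalDivisors K F'] (ψ : F →ₐ[K] F')
    (hψ : ψ.toRingHom.IsIntegral)
    (h₁ : SemilinearAut.IntertwinesAlong (φ : F →+* F') g g')
    (h₂ : SemilinearAut.IntertwinesAlong (ψ : F →+* F') g g')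
    (hdeg : ∀ v : Place K F, v.deg ≠ 0) (D : Divisor K F) :
    Divisor.correspondence φ ψ hφ hψ (g • D) = g • Divisor.correspondence φ ψ hφ hψ D := by
  rw [Divisor.correspondence_apply, Divisor.correspondence_apply, pullbackAlong_smul φ hφ h₁,
    pushforwardAlong_smul ψ hψ h₂ hdeg]

/-- Correspondences on `Pic⁰` are equivariant. -/
theorem pic0_correspondence_smul [HasPrincipalDivisors K F'] (ψ : F →ₐ[K] F')
    (hψ : ψ.toRingHom.IsIntegral) (hFI : FundamentalIdentityAlong K φ hφ)
    (hfin : FiniteAlong K ψ) (hN : NormFormulaAlong K ψ hfin)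
    (h₁ : SemilinearAut.IntertwinesAlong (φ : F →+* F') g g')
    (h₂ : SemilinearAut.IntertwinesAlong (ψ : F →+* F') g g')
    (hdeg : ∀ v : Place K F, v.deg ≠ 0) (x : Pic0 K F) :
    Pic0.correspondence φ ψ hφ hψ hFI hfin hN (g • x)
      = g • Pic0.correspondence φ ψ hφ hψ hFI hfin hN x := by
  obtain ⟨D, rfl⟩ := Pic0.mk_surjective x
  rw [SemilinearAut.pic0_smul_mk, Pic0.correspondence_mk, Pic0.correspondence_mk,
    SemilinearAut.pic0_smul_mk]
  refine congrArg Pic0.mk (Subtype.ext ?_)
  rw [Pic0.coe_degZeroCorrespondence, SemilinearAut.coe_degZeroSMulHom,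
    SemilinearAut.coe_degZeroSMulHom, Pic0.coe_degZeroCorrespondence]
  exact correspondence_smul φ hφ ψ hψ h₁ h₂ hdeg _

end Generic

/-! ### The modular instance -/

section Modular

set_option synthInstance.maxHeartbeats 400000

/-- `ℚ̄`. -/
local notation "Qb" => AlgebraicClosure ℚ

/-- `Gal(ℚ̄/ℚ)`. -/
local notation "GQ" => (AlgebraicClosure ℚ ≃ₐ[ℚ] AlgebraicClosure ℚ)

variable (N ℓ : ℕ) [NeZero N] [NeZero ℓ]

/-- The coefficientwise Galois action intertwines the inclusion `F̄_N → F̄_{Nℓ}`. -/
theorem intertwines_heckeAlphaBar (σ : GQ) :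
    SemilinearAut.IntertwinesAlong (heckeAlphaBar Qb N ℓ : _ →+* _)
      (arithmeticGalois (modularFunctionFieldFull N) σ)
      (arithmeticGalois (modularFunctionFieldFull (N * ℓ)) σ) := by
  intro x
  apply Subtype.ext
  show coeffMap (σ : Qb →+* Qb) ((heckeAlphaBar Qb N ℓ x : _) : LaurentSeries Qb)
    = ((heckeAlphaBar Qb N ℓ (arithmeticGalois (modularFunctionFieldFull N) σ • x) : _) :
        LaurentSeries Qb)
  rw [coe_heckeAlphaBar, coe_heckeAlphaBar, coe_arithmeticGalois_smul]

omit [NeZero N] in
/-- The coefficientwise Galois action intertwines `q ↦ q ^ ℓ : F̄_N → F̄_{Nℓ}`. -/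
theorem intertwines_heckeBetaBar (σ : GQ) :
    SemilinearAut.IntertwinesAlong (heckeBetaBar Qb N ℓ : _ →+* _)
      (arithmeticGalois (modularFunctionFieldFull N) σ)
      (arithmeticGalois (modularFunctionFieldFull (N * ℓ)) σ) := by
  intro x
  apply Subtype.ext
  show coeffMap (σ : Qb →+* Qb) ((heckeBetaBar Qb N ℓ x : _) : LaurentSeries Qb)
    = ((heckeBetaBar Qb N ℓ (arithmeticGalois (modularFunctionFieldFull N) σ • x) : _) :
        LaurentSeries Qb)
  rw [coe_heckeBetaBar, coe_heckeBetaBar, coe_arithmeticGalois_smul, coeffMap_qExpand]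

omit [NeZero ℓ] in
/-- Places of `F̄_N` have nonzero degree (in fact degree one). -/
theorem deg_ne_zero (v : Place Qb (modularFunctionFieldBar N)) : v.deg ≠ 0 := by
  have hF : Fermat.Agent.S24.IsFF1 Fermat.Agent.S24.Kb (Fermat.Agent.S24.FN N) :=
    ⟨Fermat.Agent.S24.jF N, Fermat.Agent.S24.transcendental_jF N,
      Fermat.Agent.S24.finiteDimensional_jF N⟩
  rw [Fermat.Agent.S24.place_deg_eq_one hF v]
  exact one_ne_zero

/-- Galois commutes with `heckeOperatorAlong`. -/
theorem galois_smul_heckeOperatorAlong (σ : GQ) (x : JZero N) :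
    σ • heckeOperatorAlong Qb N ℓ x = heckeOperatorAlong Qb N ℓ (σ • x) := by
  by_cases hH : HeckeInputsAlong Qb N ℓ
  · obtain ⟨hα, hβ, hP, hfin, hFI, hN⟩ := hH
    rw [heckeOperatorAlong_eq hα hβ hFI hfin hN, galois_smul_pic0_def, galois_smul_pic0_def]
    exact (pic0_correspondence_smul (heckeBetaBar Qb N ℓ) hβ (heckeAlphaBar Qb N ℓ) hα hFI hfin hN
      (intertwines_heckeBetaBar N ℓ σ) (intertwines_heckeAlphaBar N ℓ σ) (deg_ne_zero N) x).symm
  · rw [heckeOperatorAlong_of_not hH, AddMonoidHom.zero_apply, AddMonoidHom.zero_apply]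
    exact smul_zero (A := JZero N) σ

end Modular

section Final

/-- `ℚ̄`. -/
local notation "Qb" => AlgebraicClosure ℚ

/-- `Gal(ℚ̄/ℚ)`. -/
local notation "GQ" => (AlgebraicClosure ℚ ≃ₐ[ℚ] AlgebraicClosure ℚ)

/-- **[GH] Galois commutes with the frozen Hecke operators on `JZero N`.** -/
theorem galois_smul_heckeOperatorBar (N : ℕ) [NeZero N] (ℓ : Nat.Primes) (σ : GQ)
    (x : JZero N) : σ • heckeOperatorBar N ℓ x = heckeOperatorBar N ℓ (σ • x) := by
  have : NeZero (ℓ : ℕ) := ⟨ℓ.2.ne_zero⟩
  rw [heckeOperatorBar_apply, heckeOperatorBar_apply]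
  exact galois_smul_heckeOperatorAlong N ℓ σ x

end Final

end Fermat.Agent.S29.GalHecke
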