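/-
S29 route, blocks [ES-use] / [GH] / [FL] — ESGH.lean (helper80): the BLOCK DELIVERABLES of
`S29/Defs.lean` (leaf table #1886, item 5), verbatim at the Props of `Defs.lean`:

* `inertiaStatement_of_specCore : SpecCoreStatement N p → InertiaStatement N p`
* `esStatement_of_specCore      : SpecCoreStatement N p → ESStatement N p`
* `ghStatement                  : GHStatement N p`            (unconditional, coefficientwise)
* `ghStatement_of_es            : ESStatement N p → GHStatement N p`   (name of the leaf table)
* `flStatement                  : p ≠ 0 → FLStatement N p`    (helper18's `FinLevel`)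

from `ESUse.lean`, `GalHecke.lean` (helper80) and `FinLevel.lean` (helper18).
-/
import Fermat.Agent.S29.Defs
import Fermat.Agent.S29.ESUse
import Fermat.Agent.S29.GalHecke
import Fermat.Agent.S29.FinLevel

set_option autoImplicit false

open ModularCurve AlgebraicCurve

namespace Fermat.Agent.S29

variable (N p : ℕ) [NeZero N]

/-- **[ES-use] (I)** from the S37 core datum. -/
theorem inertiaStatement_of_specCore (h : SpecCoreStatement N p) : InertiaStatement N p :=
  fun ℓ hℓ hℓNp A hA _ hτ _ hx =>
    ESUse.inertia_smul_eq (h ℓ hℓ hℓNp A hA) hτ ⟨1, by rwa [pow_one]⟩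

/-- **[ES-use] (II)** from the S37 core datum. -/
theorem esStatement_of_specCore (h : SpecCoreStatement N p) : ESStatement N p :=
  fun ℓ hℓ hℓNp A hA _ hσ _ hx =>
    ESUse.frobenius_quadratic (h ℓ hℓ hℓNp A hA) hσ ⟨1, by rwa [pow_one]⟩

/-- **[GH]**, unconditionally (the Galois action is coefficientwise and the degeneracy maps are
defined over `ℚ`). -/
theorem ghStatement : GHStatement N p :=
  fun ℓ hℓ _ σ x _ => (GalHecke.galois_smul_heckeOperatorBar N ⟨ℓ, hℓ⟩ σ x).symm

/-- **[GH]** under the name of the leaf table (the hypothesis is not needed). -/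
theorem ghStatement_of_es (_h : ESStatement N p) : GHStatement N p :=
  ghStatement N p

/-- **[FL]** (`p ≠ 0`). -/
theorem flStatement (hp : p ≠ 0) : FLStatement N p :=
  fun x hx => FinLevel.jzero_finiteLevel_single N x p hp hx

end Fermat.Agent.S29
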