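/-
S29, block [Eig] (owner: helper12): the algebraic core.

For a finitely generated nonzero subgroup `H ⊂ ℂ` and a ring homomorphism `φ` from the ring of
all algebraic integers to a field `k` with maximal kernel, there is a nonzero additive map
`μ : H → k` which is `φ`-semilinear: `μ (a h) = φ a * μ h` whenever `a h ∈ H`.

Proof: Nakayama for the span `M` of `H` over the algebraic integers gives `𝔪 M ≠ M`
(`𝔪 = ker φ`); the quotient `M / 𝔪 M` is a nonzero vector space over the field `𝒪 / 𝔪`, take a
nonzero functional and compose with `𝒪 / 𝔪 → k`.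
-/
import Mathlib

set_option autoImplicit false

namespace Fermat.Agent.S29.Eig

open scoped Pointwise

/-- A module element outside `𝔪 M` (`𝔪` maximal) is detected by a linear functional with values
in the residue field. -/
theorem exists_linearMap_quotient {R : Type*} [CommRing R] (𝔪 : Ideal R) [h𝔪 : 𝔪.IsMaximal]
    {M : Type*} [AddCommGroup M] [Module R M] (x₀ : M)
    (hx₀ : x₀ ∉ 𝔪 • (⊤ : Submodule R M)) :
    ∃ f : M →ₗ[R] (R ⧸ 𝔪), f x₀ ≠ 0 := by
  classical
  letI : Field (R ⧸ 𝔪) := Ideal.Quotient.field 𝔪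
  set v : M ⧸ 𝔪 • (⊤ : Submodule R M) := Submodule.Quotient.mk x₀ with hv
  have hv0 : v ≠ 0 := by
    intro h
    exact hx₀ ((Submodule.Quotient.mk_eq_zero _).mp h)
  have hex : ∃ g : Module.Dual (R ⧸ 𝔪) (M ⧸ 𝔪 • (⊤ : Submodule R M)), g v ≠ 0 := by
    by_contra hc
    push Not at hc
    exact hv0 ((Module.forall_dual_apply_eq_zero_iff (R ⧸ 𝔪) v).mp hc)
  obtain ⟨g, hg⟩ := hex
  refine ⟨{ toFun := fun m => g (Submodule.Quotient.mk m)
            map_add' := fun m m' => by rw [Submodule.Quotient.mk_add, map_add]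
            map_smul' := fun r m => ?_ }, hg⟩
  have h1 : (Submodule.Quotient.mk (r • m) : M ⧸ 𝔪 • (⊤ : Submodule R M)) =
      Ideal.Quotient.mk 𝔪 r • Submodule.Quotient.mk m := rfl
  rw [h1, map_smul, RingHom.id_apply, smul_eq_mul, Algebra.smul_def]
  rfl

/-- **Algebraic core of [Eig].** -/
theorem exists_semilinear (H : AddSubgroup ℂ) (hfg : H.FG) (hne : H ≠ ⊥) {k : Type*} [Field k]
    (φ : integralClosure ℤ ℂ →+* k) (hφ : (RingHom.ker φ).IsMaximal) :
    ∃ μ : H →+ k, (∃ h, μ h ≠ 0) ∧
      ∀ (a : integralClosure ℤ ℂ) (h h' : H), (h' : ℂ) = (a : ℂ) * (h : ℂ) →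
        μ h' = φ a * μ h := by
  classical
  -- the `𝒪`-span of `H`
  set M : Submodule (integralClosure ℤ ℂ) ℂ := Submodule.span (integralClosure ℤ ℂ) (H : Set ℂ)
    with hM
  have hHM : ∀ h : H, (h : ℂ) ∈ M := fun h => Submodule.subset_span h.2
  -- `M` is finitely generated
  have hMfg : M.FG := by
    obtain ⟨S, hS⟩ := hfg
    have h1 : M = Submodule.span (integralClosure ℤ ℂ) (S : Set ℂ) := by
      apply le_antisymm
      · rw [hM, Submodule.span_le]
        intro x hx
        have hx' : x ∈ AddSubgroup.closure (S : Set ℂ) := by rw [hS]; exact hx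
        have hle : AddSubgroup.closure (S : Set ℂ) ≤
            (Submodule.span (integralClosure ℤ ℂ) (S : Set ℂ)).toAddSubgroup := by
          rw [AddSubgroup.closure_le]
          exact Submodule.subset_span
        exact hle hx'
      · apply Submodule.span_mono
        rw [← hS]
        exact AddSubgroup.subset_closure
    rw [h1]
    exact Submodule.fg_span (Finset.finite_toSet S)
  -- Nakayama: `𝔪 M ≠ M`
  have hnak : ¬ M ≤ RingHom.ker φ • M := by
    intro hle
    obtain ⟨r, hr1, hr2⟩ :=
      Submodule.exists_sub_one_mem_and_smul_eq_zero_of_fg_of_le_smul (RingHom.ker φ) M hMfg hle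
    obtain ⟨x, hx, hx0⟩ : ∃ x ∈ H, x ≠ 0 := by
      by_contra hc
      push Not at hc
      apply hne
      rw [eq_bot_iff]
      intro x hx
      rw [AddSubgroup.mem_bot]
      exact hc x hx
    have h2 := hr2 x (Submodule.subset_span hx)
    have h3 : (r : ℂ) * x = 0 := h2
    have h4 : (r : ℂ) = 0 := by
      rcases mul_eq_zero.mp h3 with h | h
      · exact h
      · exact absurd h hx0
    have h5 : r = 0 := Subtype.ext h4
    rw [h5, zero_sub] at hr1
    apply hφ.ne_top
    rw [Ideal.eq_top_iff_one]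
    have := (RingHom.ker φ).neg_mem hr1
    rwa [neg_neg] at this
  -- an element of `M` outside `𝔪 M`, seen in the module `↥M`
  have hex : ∃ x₀ : M, x₀ ∉ RingHom.ker φ • (⊤ : Submodule (integralClosure ℤ ℂ) M) := by
    by_contra hc
    push Not at hc
    apply hnak
    intro x hx
    have h1 := hc ⟨x, hx⟩
    have h2 : M.subtype ⟨x, hx⟩ ∈
        (RingHom.ker φ • (⊤ : Submodule (integralClosure ℤ ℂ) M)).map M.subtype :=
      Submodule.mem_map_of_mem h1
    rw [Submodule.map_smul'', Submodule.map_top, Submodule.range_subtype] at h2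
    exact h2
  obtain ⟨x₀, hx₀⟩ := hex
  haveI := hφ
  obtain ⟨f, hf⟩ := exists_linearMap_quotient (RingHom.ker φ) x₀ hx₀
  -- the map `H → M`
  let ι : H →+ M :=
    { toFun := fun h => ⟨(h : ℂ), hHM h⟩
      map_zero' := rfl
      map_add' := fun _ _ => rfl }
  -- `f` does not vanish on `H`
  have hfH : ∃ h : H, f (ι h) ≠ 0 := by
    by_contra hc
    push Not at hc
    apply hf
    have hspan : Submodule.span (integralClosure ℤ ℂ) (Set.range ι) = ⊤ := by
      rw [eq_top_iff]
      rintro ⟨x, hx⟩ -
      induction hx using Submodule.span_induction with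
      | mem x hx => exact Submodule.subset_span ⟨⟨x, hx⟩, rfl⟩
      | zero => exact Submodule.zero_mem _
      | add x y hx hy hx' hy' => exact Submodule.add_mem _ hx' hy'
      | smul a x hx hx' => exact Submodule.smul_mem _ a hx'
    have h0 : f = 0 := by
      apply LinearMap.ext_on_range hspan
      intro h
      rw [hc h, LinearMap.zero_apply]
    rw [h0, LinearMap.zero_apply]
  obtain ⟨h₁, hh₁⟩ := hfH
  refine ⟨((RingHom.kerLift φ).toAddMonoidHom.comp f.toAddMonoidHom).comp ι, ⟨h₁, ?_⟩, ?_⟩
  · intro h0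
    apply hh₁
    have : RingHom.kerLift φ (f (ι h₁)) = 0 := h0
    exact (RingHom.kerLift_injective φ) (by rw [this, map_zero])
  · intro a h h' hh'
    have h1 : ι h' = a • ι h := by
      apply Subtype.ext
      show (h' : ℂ) = (a : ℂ) * (h : ℂ)
      exact hh'
    show RingHom.kerLift φ (f (ι h')) = φ a * RingHom.kerLift φ (f (ι h))
    rw [h1, map_smul, Algebra.smul_def, map_mul]
    rfl

end Fermat.Agent.S29.Eig
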