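/-
S29, block [Eig] (owner: helper12): a normalized eigenform `g` of level `N` produces a Hecke
eigenvector in `(L_N / p) ⊗ k`, `L_N = Hom_par(Γ₀(N), ℤ)`, with eigenvalues `φ (a_ℓ(g))`, for
every ring homomorphism `φ` from the algebraic integers to a field `k` with maximal kernel.

Route: `ψ := periodMap N g : Γ₀(N) → ℂ` is a nonzero parabolic homomorphism with
`T_ℓ ψ = a_ℓ(g) • ψ`.  Its image `H = ψ(Γ₀(N))` is a nonzero finitely generated subgroup of `ℂ`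
stable under multiplication by every `a_ℓ(g)`; hence the `a_ℓ(g)` are algebraic integers
(`exists_integral_qCoeff`), and for the `φ`-semilinear map `μ : H → k` of
`EigAlg.exists_semilinear` the homomorphism `μ ∘ ψ : Γ₀(N) → k` is a nonzero parabolic
eigenvector (`exists_eigen_hom`).  In coordinates with respect to a `ℤ`-basis `(h_i)` of `H`
with dual coordinates `λ_i`: `y_i := λ_i ∘ ψ ∈ L_N` are independent modulo `p`, and
`c_i := μ (h_i)` is a nonzero left eigenvector of the matrices of the `T_ℓ` on the `y_i`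
(`exists_eigen_coord`).  No commutativity of Hecke operators is used.
-/
import Mathlib
import Fermat.Agent.S16.HeckePeriod
import Fermat.Agent.S21.Main
import Fermat.Agent.S22.GammaFG
import Fermat.Agent.S41.Defs
import Fermat.Agent.S41.FSEigen
import Fermat.Agent.S29.EigAlg
import Fermat.Prelude.Def_FLTPrelim_ModularRep

set_option autoImplicit false

open CongruenceSubgroup ModularCurve ModularCurve.Period
open scoped MatrixGroups

namespace Fermat.Agent.S29.Eig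

open Fermat.Agent.S16 (heckeTHom tData CosetData)
open Fermat.Agent.S41 (Lpar)

/-- If multiplication by `c` preserves a nonzero finitely generated subgroup of `ℂ`, then `c`
is an algebraic integer. -/
theorem isIntegral_of_mul_mem (H : AddSubgroup ℂ) (hfg : H.FG) (hne : H ≠ ⊥) (c : ℂ)
    (hc : ∀ h ∈ H, c * h ∈ H) : IsIntegral ℤ c := by
  refine isIntegral_of_smul_mem_submodule (AddSubgroup.toIntSubmodule H) ?_ ?_ c ?_
  · intro h
    apply hne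
    have h1 := congrArg Submodule.toAddSubgroup h
    rw [AddSubgroup.toIntSubmodule_toAddSubgroup] at h1
    rw [h1]
    rfl
  · rw [Submodule.fg_iff_addSubgroup_fg, AddSubgroup.toIntSubmodule_toAddSubgroup]
    exact hfg
  · intro n hn
    exact hc n hn

/-- The image of a homomorphism `Γ₀(N) → ℂ` is finitely generated. -/
theorem range_fg (N : ℕ) [NeZero N] (ψ : Additive (Gamma0 N) →+ ℂ) :
    (AddMonoidHom.range ψ).FG := by
  have : Group.FG (Gamma0 N) := Fermat.Agent.S22.gamma0_fg N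
  have h2 : AddGroup.FG (AddMonoidHom.range ψ) := AddGroup.fg_range ψ
  exact (AddGroup.fg_iff_addSubgroup_fg _).mp h2

/-- The image of a nonzero homomorphism is nonzero. -/
theorem range_ne_bot (N : ℕ) (ψ : Additive (Gamma0 N) →+ ℂ) (hψ0 : ψ ≠ 0) :
    AddMonoidHom.range ψ ≠ ⊥ := by
  intro hbot
  apply hψ0
  refine AddMonoidHom.ext fun g => ?_
  have h1 : ψ g ∈ AddMonoidHom.range ψ := ⟨g, rfl⟩
  rw [hbot, AddSubgroup.mem_bot] at h1
  rw [h1]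
  rfl

/-- Naturality of `T_ℓ`: the Hecke operator on the corestriction of `ψ` to its image. -/
theorem coe_heckeTHom_rangeRestrict (N : ℕ) [NeZero N] (ψ : Additive (Gamma0 N) →+ ℂ) {ℓ : ℕ}
    [Fact ℓ.Prime] (hℓ : ¬ ℓ ∣ N) (γ : Additive (Gamma0 N)) :
    ((heckeTHom N ℓ hℓ ψ.rangeRestrict γ : AddMonoidHom.range ψ) : ℂ) =
      heckeTHom N ℓ hℓ ψ γ := by
  have hnat : (AddMonoidHom.range ψ).subtype.comp (heckeTHom N ℓ hℓ ψ.rangeRestrict) =
      heckeTHom N ℓ hℓ ψ :=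
    ((tData N ℓ hℓ).op_comp (AddMonoidHom.range ψ).subtype ψ.rangeRestrict).symm
  exact congrArg (fun χ : Additive (Gamma0 N) →+ ℂ => χ γ) hnat

/-- An eigenvalue of `T_ℓ` on a nonzero homomorphism `Γ₀(N) → ℂ` is an algebraic integer. -/
theorem isIntegral_of_heckeTHom_eq (N : ℕ) [NeZero N] (ψ : Additive (Gamma0 N) →+ ℂ)
    (hψ0 : ψ ≠ 0) {ℓ : ℕ} [Fact ℓ.Prime] (hℓ : ¬ ℓ ∣ N) (c : ℂ)
    (hT : heckeTHom N ℓ hℓ ψ = c • ψ) : IsIntegral ℤ c := by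
  refine isIntegral_of_mul_mem (AddMonoidHom.range ψ) (range_fg N ψ) (range_ne_bot N ψ hψ0) c ?_
  rintro _ ⟨γ, rfl⟩
  have h1 : c * ψ γ = heckeTHom N ℓ hℓ ψ γ := by
    rw [hT]
    rfl
  rw [h1, ← coe_heckeTHom_rangeRestrict N ψ hℓ γ]
  exact (heckeTHom N ℓ hℓ ψ.rangeRestrict γ).2

/-- The period homomorphism of a normalized eigenform is a Hecke eigenvector. -/
theorem heckeTHom_periodMap (N : ℕ) [NeZero N] (g : CuspForm (Gamma0 N) 2)
    (hg : g.IsNormalizedEigenform) (ℓ : ℕ) [Fact ℓ.Prime] (hℓ : ¬ ℓ ∣ N) :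
    heckeTHom N ℓ hℓ (periodMap N g) = ModularFormClass.qCoeff g ℓ • periodMap N g := by
  have hℓp : ℓ.Prime := Fact.out
  rw [← Fermat.Agent.S16.periodMap_heckeTLin hℓp hℓ g,
    Fermat.Agent.S41.FSEigen.heckeTLin_eq_smul g hg hℓp hℓ, Fermat.Agent.S21.periodMap_smul]

/-- **(E1)** The Hecke eigenvalues `a_ℓ(g)`, `ℓ ∤ N`, of a normalized eigenform are algebraic
integers. -/
theorem exists_integral_qCoeff (N : ℕ) [NeZero N] (g : CuspForm (Gamma0 N) 2)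
    (hg : g.IsNormalizedEigenform) :
    ∃ a : ℕ → integralClosure ℤ ℂ, ∀ ℓ : ℕ, ℓ.Prime → ¬ ℓ ∣ N →
      (a ℓ : ℂ) = ModularFormClass.qCoeff g ℓ := by
  classical
  have key : ∀ ℓ : ℕ, ℓ.Prime → ¬ ℓ ∣ N →
      ModularFormClass.qCoeff g ℓ ∈ integralClosure ℤ ℂ := by
    intro ℓ hℓ hℓN
    have : Fact ℓ.Prime := ⟨hℓ⟩
    exact isIntegral_of_heckeTHom_eq N (periodMap N g)
      (Fermat.Agent.S41.FSEigen.periodMap_ne_zero g hg.ne_zero) hℓN _
      (heckeTHom_periodMap N g hg ℓ hℓN)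
  refine ⟨fun ℓ => if h : ModularFormClass.qCoeff g ℓ ∈ integralClosure ℤ ℂ then ⟨_, h⟩
    else 0, ?_⟩
  intro ℓ hℓ hℓN
  show ((if h : ModularFormClass.qCoeff g ℓ ∈ integralClosure ℤ ℂ then
    (⟨_, h⟩ : integralClosure ℤ ℂ) else 0 : integralClosure ℤ ℂ) : ℂ) = _
  rw [dif_pos (key ℓ hℓ hℓN)]

/-- The period lattice of a Hecke eigenvector `ψ : Γ₀(N) → ℂ` with algebraic integer
eigenvalues `a ℓ`, together with a `φ`-semilinear functional: `H = ψ(Γ₀(N))`, the corestriction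
`ψ'` of `ψ`, a nonzero additive `μ : H → k`, and for every `ℓ ∤ N` the endomorphism `A` of `H`
(multiplication by `a ℓ`) with `T_ℓ ψ' = A ∘ ψ'` and `μ ∘ A = φ (a ℓ) • μ`. -/
theorem exists_period_lattice (N : ℕ) [NeZero N] (ψ : Additive (Gamma0 N) →+ ℂ)
    (hψpar : IsParabolicHom (Gamma0 N) ψ) (hψ0 : ψ ≠ 0) (a : ℕ → integralClosure ℤ ℂ)
    (hT : ∀ (ℓ : ℕ) [Fact ℓ.Prime] (hℓ : ¬ ℓ ∣ N), heckeTHom N ℓ hℓ ψ = (a ℓ : ℂ) • ψ)
    {k : Type*} [Field k] (φ : integralClosure ℤ ℂ →+* k) (hφ : (RingHom.ker φ).IsMaximal) :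
    ∃ (H : AddSubgroup ℂ) (ψ' : Additive (Gamma0 N) →+ H) (μ : H →+ k),
      H.FG ∧ Function.Surjective ψ' ∧ IsParabolicHom (Gamma0 N) ψ' ∧ (∃ h, μ h ≠ 0) ∧
      ∀ (ℓ : ℕ) [Fact ℓ.Prime] (hℓ : ¬ ℓ ∣ N), ∃ A : H →+ H,
        heckeTHom N ℓ hℓ ψ' = A.comp ψ' ∧ ∀ h, μ (A h) = φ (a ℓ) * μ h := by
  classical
  obtain ⟨μ, hμ1, hμ2⟩ := exists_semilinear (AddMonoidHom.range ψ) (range_fg N ψ)
    (range_ne_bot N ψ hψ0) φ hφ
  refine ⟨AddMonoidHom.range ψ, ψ.rangeRestrict, μ, range_fg N ψ, ψ.rangeRestrict_surjective,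
    ?_, hμ1, ?_⟩
  · intro γ hγ
    apply Subtype.ext
    exact hψpar γ hγ
  · intro ℓ _ hℓ
    have hcoe : ∀ γ, ((heckeTHom N ℓ hℓ ψ.rangeRestrict γ : AddMonoidHom.range ψ) : ℂ) =
        (a ℓ : ℂ) * ψ γ := by
      intro γ
      rw [coe_heckeTHom_rangeRestrict N ψ hℓ γ, hT ℓ hℓ]
      rfl
    have hmem : ∀ h : AddMonoidHom.range ψ, (a ℓ : ℂ) * (h : ℂ) ∈ AddMonoidHom.range ψ := by
      rintro ⟨_, γ, rfl⟩
      rw [← hcoe γ]
      exact (heckeTHom N ℓ hℓ ψ.rangeRestrict γ).2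
    refine ⟨{ toFun := fun h => ⟨(a ℓ : ℂ) * (h : ℂ), hmem h⟩
              map_zero' := Subtype.ext (mul_zero _)
              map_add' := fun x y => Subtype.ext (mul_add _ _ _) }, ?_, ?_⟩
    · refine AddMonoidHom.ext fun γ => ?_
      apply Subtype.ext
      exact hcoe γ
    · intro h
      exact hμ2 (a ℓ) h _ rfl

/-- The eigenvector as a homomorphism `Γ₀(N) → k`, for a general complex eigenvector. -/
theorem exists_eigen_hom_of_hom (N : ℕ) [NeZero N] (ψ : Additive (Gamma0 N) →+ ℂ)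
    (hψpar : IsParabolicHom (Gamma0 N) ψ) (hψ0 : ψ ≠ 0) (a : ℕ → integralClosure ℤ ℂ)
    (hT : ∀ (ℓ : ℕ) [Fact ℓ.Prime] (hℓ : ¬ ℓ ∣ N), heckeTHom N ℓ hℓ ψ = (a ℓ : ℂ) • ψ)
    {k : Type*} [Field k] (φ : integralClosure ℤ ℂ →+* k) (hφ : (RingHom.ker φ).IsMaximal) :
    ∃ E : Additive (Gamma0 N) →+ k, E ≠ 0 ∧ IsParabolicHom (Gamma0 N) E ∧
      ∀ (ℓ : ℕ) [Fact ℓ.Prime] (hℓ : ¬ ℓ ∣ N), heckeTHom N ℓ hℓ E = φ (a ℓ) • E := by
  obtain ⟨H, ψ', μ, -, hsurj, hpar, ⟨h₁, hh₁⟩, hA⟩ :=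
    exists_period_lattice N ψ hψpar hψ0 a hT φ hφ
  refine ⟨μ.comp ψ', ?_, ?_, ?_⟩
  · intro h0
    obtain ⟨γ, rfl⟩ := hsurj h₁
    apply hh₁
    exact congrArg (fun χ : Additive (Gamma0 N) →+ k => χ γ) h0
  · intro γ hγ
    show μ (ψ' (Additive.ofMul γ)) = 0
    rw [hpar γ hγ, map_zero]
  · intro ℓ _ hℓ
    obtain ⟨A, hA1, hA2⟩ := hA ℓ hℓ
    have hnat : heckeTHom N ℓ hℓ (μ.comp ψ') = μ.comp (heckeTHom N ℓ hℓ ψ') :=
      (tData N ℓ hℓ).op_comp μ ψ'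
    rw [hnat, hA1]
    refine AddMonoidHom.ext fun γ => ?_
    show μ (A (ψ' γ)) = φ (a ℓ) * μ (ψ' γ)
    exact hA2 _

/-- The eigenvector in coordinates, for a general complex eigenvector. -/
theorem exists_eigen_coord_of_hom (N : ℕ) [NeZero N] (ψ : Additive (Gamma0 N) →+ ℂ)
    (hψpar : IsParabolicHom (Gamma0 N) ψ) (hψ0 : ψ ≠ 0) (a : ℕ → integralClosure ℤ ℂ)
    (hT : ∀ (ℓ : ℕ) [Fact ℓ.Prime] (hℓ : ¬ ℓ ∣ N), heckeTHom N ℓ hℓ ψ = (a ℓ : ℂ) • ψ)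
    {k : Type*} [Field k] (φ : integralClosure ℤ ℂ →+* k) (hφ : (RingHom.ker φ).IsMaximal)
    (p : ℤ) :
    ∃ (m : ℕ) (y : Fin m → Lpar N) (c : Fin m → k), (∃ i, c i ≠ 0) ∧
      (∀ n : Fin m → ℤ, (∃ z : Lpar N, ∑ i, n i • y i = p • z) → ∀ i, p ∣ n i) ∧
      ∀ (ℓ : ℕ) [Fact ℓ.Prime] (hℓ : ¬ ℓ ∣ N), ∃ M : Matrix (Fin m) (Fin m) ℤ,
        (∀ i, heckeTHom N ℓ hℓ (y i).1 = ∑ j, M i j • (y j).1) ∧
        ∀ j, ∑ i, c i * (M i j : k) = φ (a ℓ) * c j := by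
  classical
  obtain ⟨H, ψ', μ, hfg, hsurj, hpar, ⟨h₁, hh₁⟩, hA⟩ :=
    exists_period_lattice N ψ hψpar hψ0 a hT φ hφ
  -- a `ℤ`-basis of `H`
  have : Module.Finite ℤ H :=
    Module.Finite.iff_addGroup_fg.mpr ((AddGroup.fg_iff_addSubgroup_fg H).mpr hfg)
  have : Module.Free ℤ H := Module.free_of_finite_type_torsion_free'
  set b : Module.Basis (Fin (Module.finrank ℤ H)) ℤ H := Module.finBasis ℤ H with hb
  -- every functional is determined by its values on the basis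
  have hexp : ∀ (f : H →+ k) (h : H), f h = ∑ i, f (b i) * ((b.repr h i : ℤ) : k) := by
    intro f h
    conv_lhs => rw [← b.sum_repr h]
    rw [map_sum]
    refine Finset.sum_congr rfl fun i _ => ?_
    rw [map_zsmul, zsmul_eq_mul, mul_comm]
  have hexpZ : ∀ (f : H →+ ℤ) (h : H), f h = ∑ i, b.repr h i * f (b i) := by
    intro f h
    conv_lhs => rw [← b.sum_repr h]
    rw [map_sum]
    refine Finset.sum_congr rfl fun i _ => ?_
    rw [map_zsmul, smul_eq_mul]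
  -- preimages of the basis vectors
  choose γ hγ using fun i => hsurj (b i)
  -- the lattice vectors
  have hypar : ∀ i, (b.coord i).toAddMonoidHom.comp ψ' ∈ Lpar N := by
    intro i δ hδ
    show b.coord i (ψ' (Additive.ofMul δ)) = 0
    rw [hpar δ hδ, map_zero]
  have hyγ : ∀ i j, ((b.coord i).toAddMonoidHom.comp ψ') (γ j) = if j = i then 1 else 0 := by
    intro i j
    show b.coord i (ψ' (γ j)) = _
    rw [hγ j, Module.Basis.coord_apply, Module.Basis.repr_self, Finsupp.single_apply]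
  refine ⟨Module.finrank ℤ H, fun i => ⟨(b.coord i).toAddMonoidHom.comp ψ', hypar i⟩,
    fun i => μ (b i), ?_, ?_, ?_⟩
  · by_contra hc
    push Not at hc
    apply hh₁
    rw [hexp μ h₁]
    refine Finset.sum_eq_zero fun i _ => ?_
    rw [hc i, zero_mul]
  · rintro n ⟨z, hz⟩ j
    have h1 := congrArg (fun u : Lpar N => (u : Additive (Gamma0 N) →+ ℤ) (γ j)) hz
    simp only [Submodule.coe_sum, Submodule.coe_smul, AddMonoidHom.finsetSum_apply,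
      AddMonoidHom.smul_apply, hyγ, smul_eq_mul, mul_ite, mul_one, mul_zero,
      Finset.sum_ite_eq, Finset.mem_univ, if_true] at h1
    exact ⟨_, h1⟩
  · intro ℓ _ hℓ
    obtain ⟨A, hA1, hA2⟩ := hA ℓ hℓ
    refine ⟨fun i j => b.repr (A (b j)) i, ?_, ?_⟩
    · intro i
      have hnat : heckeTHom N ℓ hℓ ((b.coord i).toAddMonoidHom.comp ψ') =
          (b.coord i).toAddMonoidHom.comp (heckeTHom N ℓ hℓ ψ') :=
        (tData N ℓ hℓ).op_comp (b.coord i).toAddMonoidHom ψ'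
      show heckeTHom N ℓ hℓ ((b.coord i).toAddMonoidHom.comp ψ') =
        ∑ j, b.repr (A (b j)) i • (b.coord j).toAddMonoidHom.comp ψ'
      rw [hnat, hA1]
      refine AddMonoidHom.ext fun δ => ?_
      rw [AddMonoidHom.finsetSum_apply]
      show ((b.coord i).toAddMonoidHom.comp A) (ψ' δ) =
        ∑ j, b.repr (A (b j)) i * b.repr (ψ' δ) j
      rw [hexpZ ((b.coord i).toAddMonoidHom.comp A) (ψ' δ)]
      refine Finset.sum_congr rfl fun j _ => ?_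
      rw [mul_comm]
      rfl
    · intro j
      rw [← hA2 (b j), hexp μ (A (b j))]

/-- **(E2)** The eigenvector as a nonzero parabolic homomorphism `Γ₀(N) → k`. -/
theorem exists_eigen_hom (N : ℕ) [NeZero N] (g : CuspForm (Gamma0 N) 2)
    (hg : g.IsNormalizedEigenform) (a : ℕ → integralClosure ℤ ℂ)
    (ha : ∀ ℓ : ℕ, ℓ.Prime → ¬ ℓ ∣ N → (a ℓ : ℂ) = ModularFormClass.qCoeff g ℓ)
    {k : Type*} [Field k] (φ : integralClosure ℤ ℂ →+* k) (hφ : (RingHom.ker φ).IsMaximal) :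
    ∃ E : Additive (Gamma0 N) →+ k, E ≠ 0 ∧ IsParabolicHom (Gamma0 N) E ∧
      ∀ (ℓ : ℕ) [Fact ℓ.Prime] (hℓ : ¬ ℓ ∣ N), heckeTHom N ℓ hℓ E = φ (a ℓ) • E := by
  refine exists_eigen_hom_of_hom N (periodMap N g)
    (Fermat.Agent.S21.periodMap_mem_parabolicHoms N g)
    (Fermat.Agent.S41.FSEigen.periodMap_ne_zero g hg.ne_zero) a ?_ φ hφ
  intro ℓ _ hℓ
  rw [heckeTHom_periodMap N g hg ℓ hℓ, ha ℓ Fact.out hℓ]

set_option linter.unusedVariables false in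
/-- **(E3)** The eigenvector in coordinates: lattice vectors `y i ∈ L_N`, independent modulo
`p`, and a nonzero coefficient vector `c` which is a left eigenvector, with eigenvalue
`φ (a ℓ)`, of a matrix of `T_ℓ` on the `y i`, for every prime `ℓ ∤ N`.  Then
`∑ i, c i ⊗ (y i mod p)` is a nonzero eigenvector of every `T_ℓ ⊗ 1` in `k ⊗ L_N / p`. -/
theorem exists_eigen_coord (N : ℕ) [NeZero N] (g : CuspForm (Gamma0 N) 2)
    (hg : g.IsNormalizedEigenform) (a : ℕ → integralClosure ℤ ℂ)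
    (ha : ∀ ℓ : ℕ, ℓ.Prime → ¬ ℓ ∣ N → (a ℓ : ℂ) = ModularFormClass.qCoeff g ℓ)
    {k : Type*} [Field k] (φ : integralClosure ℤ ℂ →+* k) (hφ : (RingHom.ker φ).IsMaximal)
    {p : ℕ} (hp : p.Prime) :
    ∃ (m : ℕ) (y : Fin m → Lpar N) (c : Fin m → k), (∃ i, c i ≠ 0) ∧
      (∀ n : Fin m → ℤ, (∃ z : Lpar N, ∑ i, n i • y i = (p : ℤ) • z) → ∀ i, (p : ℤ) ∣ n i) ∧
      ∀ (ℓ : ℕ) [Fact ℓ.Prime] (hℓ : ¬ ℓ ∣ N), ∃ M : Matrix (Fin m) (Fin m) ℤ,
        (∀ i, heckeTHom N ℓ hℓ (y i).1 = ∑ j, M i j • (y j).1) ∧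
        ∀ j, ∑ i, c i * (M i j : k) = φ (a ℓ) * c j := by
  refine exists_eigen_coord_of_hom N (periodMap N g)
    (Fermat.Agent.S21.periodMap_mem_parabolicHoms N g)
    (Fermat.Agent.S41.FSEigen.periodMap_ne_zero g hg.ne_zero) a ?_ φ hφ (p : ℤ)
  intro ℓ _ hℓ
  rw [heckeTHom_periodMap N g hg ℓ hℓ, ha ℓ Fact.out hℓ]

end Fermat.Agent.S29.Eig
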