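/-
S29, block [Eig] + [NV] (owner: helper12): the block deliverable

  `nvStatement_of_k : KStatement N p → NVStatement N p g ψ`

(`Defs.lean`): given the comparison map `θ : Lpar N → J₀(N)[p]` of block [K], the eigensystem of
a normalized eigenform `g`, reduced along `ψ : ℤ̄ → 𝔽` (`𝔽` a field of characteristic `p`), occurs
in `𝔽 ⊗ J₀(N)[p]`.

Route: `Eig.exists_eigen_coord` gives lattice vectors `y i ∈ Lpar N`, independent modulo `p`,
and a nonzero coefficient vector `c` which is a left eigenvector of the matrices of the `T_ℓ`.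
Then `v := ∑ i, c i ⊗ θ (y i)` is nonzero (`sum_tmul_ne_zero`: the `θ (y i)` are
`𝔽_p`-independent because `ker θ = p · Lpar N`) and is an eigenvector of every `T_ℓ ⊗ 1`.
The kernel of `ψ` is maximal because `ℤ̄` is integral over `ℤ` (`ker_isMaximal_of_charP`).
-/
import Mathlib
import Fermat.Agent.S29.Defs
import Fermat.Agent.S29.Eig

set_option autoImplicit false

open ModularCurve AlgebraicCurve CongruenceSubgroup
open scoped TensorProduct MatrixGroups

namespace Fermat.Agent.S29.Eig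

open Fermat.Agent.S16 (heckeTHom tData)
open Fermat.Agent.S41 (Lpar)

/-- A ring homomorphism from the algebraic integers to a field of characteristic `p` has
maximal kernel. -/
theorem ker_isMaximal_of_charP {p : ℕ} (hp : p.Prime) {k : Type*} [Field k] [CharP k p]
    (φ : integralClosure ℤ ℂ →+* k) : (RingHom.ker φ).IsMaximal := by
  have hker : (RingHom.ker φ).IsPrime := RingHom.ker_isPrime φ
  have hprime : ((RingHom.ker φ).comap (algebraMap ℤ (integralClosure ℤ ℂ))).IsPrime :=
    Ideal.comap_isPrime _ _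
  refine Ideal.isMaximal_of_isIntegral_of_isMaximal_comap (R := ℤ) (RingHom.ker φ)
    (hprime.isMaximal ?_)
  intro hbot
  have hmem : (p : ℤ) ∈ (RingHom.ker φ).comap (algebraMap ℤ (integralClosure ℤ ℂ)) := by
    rw [Ideal.mem_comap, RingHom.mem_ker, eq_intCast, Int.cast_natCast, map_natCast,
      CharP.cast_eq_zero]
  rw [hbot, Ideal.mem_bot] at hmem
  exact hp.ne_zero (by exact_mod_cast hmem)

/-- In `k ⊗[ℤ] M` (`k` a field of characteristic `p`, `M` killed by `p`): a combination
`∑ i, c i ⊗ x i` of a family `x` independent modulo `p` with a nonzero coefficient vector `c`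
is nonzero. -/
theorem sum_tmul_ne_zero {p : ℕ} (hp : p.Prime) {k : Type*} [Field k] [CharP k p]
    {M : Type*} [AddCommGroup M] (hM : ∀ x : M, p • x = 0) {m : ℕ} (x : Fin m → M)
    (hx : ∀ n : Fin m → ℤ, ∑ i, n i • x i = 0 → ∀ i, (p : ℤ) ∣ n i)
    (c : Fin m → k) (hc : ∃ i, c i ≠ 0) : (∑ i, c i ⊗ₜ[ℤ] x i : k ⊗[ℤ] M) ≠ 0 := by
  classical
  have : Fact p.Prime := ⟨hp⟩
  obtain ⟨inst⟩ : Nonempty (Module (ZMod p) M) := ⟨AddCommGroup.zmodModule hM⟩
  -- linear independence over `ZMod p`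
  have hli : LinearIndependent (ZMod p) x := by
    rw [Fintype.linearIndependent_iff]
    intro g hg i
    choose n hn using fun i => ZMod.intCast_surjective (g i)
    have h1 : ∑ i, n i • x i = 0 := by
      rw [← hg]
      refine Finset.sum_congr rfl fun i _ => ?_
      rw [← hn i, Int.cast_smul_eq_zsmul]
    have h2 := hx n h1 i
    rw [← hn i]
    exact (ZMod.intCast_zmod_eq_zero_iff_dvd _ _).mpr h2
  -- coordinate functionals
  obtain ⟨g, hg⟩ := (Finsupp.linearCombination (ZMod p) x).exists_leftInverse_of_injective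
    (LinearMap.ker_eq_bot.mpr hli)
  obtain ⟨j, hj⟩ := hc
  have hgx : ∀ i, g (x i) j = if i = j then 1 else 0 := by
    intro i
    have h1 : g (Finsupp.linearCombination (ZMod p) x (Finsupp.single i 1)) =
        Finsupp.single i 1 := by
      have := congrArg (fun f : (Fin m →₀ ZMod p) →ₗ[ZMod p] (Fin m →₀ ZMod p) =>
        f (Finsupp.single i 1)) hg
      exact this
    rw [Finsupp.linearCombination_single, one_smul] at h1
    rw [h1, Finsupp.single_apply]
  let gj : M →+ k :=
    (ZMod.castHom (dvd_refl p) k).toAddMonoidHom.comp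
      ((Finsupp.lapply j ∘ₗ g : M →ₗ[ZMod p] ZMod p).toAddMonoidHom)
  have hgj : ∀ i, gj (x i) = if i = j then 1 else 0 := by
    intro i
    show ZMod.castHom (dvd_refl p) k (g (x i) j) = _
    rw [hgx i]
    split_ifs
    · rw [map_one]
    · rw [map_zero]
  let T : k ⊗[ℤ] M →ₗ[ℤ] k := TensorProduct.lift
    (LinearMap.mk₂ ℤ (fun (a : k) (y : M) => a * gj y)
      (fun a b y => add_mul a b (gj y))
      (fun n a y => smul_mul_assoc n a (gj y))
      (fun a y z => by rw [map_add, mul_add])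
      (fun n a y => by rw [map_zsmul, mul_smul_comm]))
  intro h0
  apply hj
  have h1 : T (∑ i, c i ⊗ₜ[ℤ] x i) = c j := by
    rw [map_sum]
    have h2 : ∀ i, T (c i ⊗ₜ[ℤ] x i) = if i = j then c i else 0 := by
      intro i
      show c i * gj (x i) = _
      rw [hgj i]
      split_ifs
      · rw [mul_one]
      · rw [mul_zero]
    simp only [h2, Finset.sum_ite_eq', Finset.mem_univ, if_true]
  rw [← h1, h0, map_zero]

/-- **Block deliverable [Eig] + [NV]** (`Defs.lean`, item 7 of the leaf table). -/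
theorem nvStatement_of_k (N p : ℕ) [NeZero N] (hp : p.Prime) {g : CuspForm (Gamma0 N) 2}
    (hg : g.IsNormalizedEigenform) {𝔽 : Type} [Field 𝔽] [CharP 𝔽 p] (ψ : Zb →+* 𝔽) :
    KStatement N p → NVStatement N p g ψ := by
  rintro ⟨θ, hθp, hθker, hθT⟩
  classical
  obtain ⟨a, ha⟩ := exists_integral_qCoeff N g hg
  obtain ⟨m, y, c, hc, hy, hMat⟩ :=
    exists_eigen_coord N g hg a ha ψ (ker_isMaximal_of_charP hp ψ) hp
  -- the comparison map, corestricted to the `p`-torsion
  let θ' : Lpar N →+ Jp N p :=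
    { toFun := fun u => ⟨θ u, (mem_Jp_iff N p _).mpr (hθp u)⟩
      map_zero' := Subtype.ext (map_zero θ)
      map_add' := fun u w => Subtype.ext (map_add θ u w) }
  have hθ'coe : ∀ u, ((θ' u : Jp N p) : JZero N) = θ u := fun u => rfl
  have hJp : ∀ x : Jp N p, p • x = 0 := by
    intro x
    apply Subtype.ext
    rw [Submodule.coe_smul_of_tower]
    exact (mem_Jp_iff N p _).mp x.2
  refine ⟨∑ i, c i ⊗ₜ[ℤ] θ' (y i), ?_, ?_⟩
  · refine sum_tmul_ne_zero hp hJp (fun i => θ' (y i)) ?_ c hc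
    intro n hn
    apply hy n
    apply hθker
    have h1 : θ' (∑ i, n i • y i) = 0 := by
      rw [map_sum, ← hn]
      refine Finset.sum_congr rfl fun i _ => ?_
      rw [map_zsmul]
    have h2 := congrArg (fun z : Jp N p => (z : JZero N)) h1
    exact h2
  · intro ℓ hℓ hℓN hℓp
    refine ⟨a ℓ, ha ℓ hℓ hℓN, ?_⟩
    have : Fact ℓ.Prime := ⟨hℓ⟩
    obtain ⟨Mx, hM1, hM2⟩ := hMat ℓ hℓN
    have hcomm : ∀ u, heckeJp N p ⟨ℓ, hℓ⟩ (θ' u) = θ' (heckeLpar N ℓ hℓ hℓN u) := fun u =>
      Subtype.ext (hθT ℓ hℓ hℓN hℓp u).symm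
    have hL : ∀ i, heckeLpar N ℓ hℓ hℓN (y i) = ∑ j, Mx i j • y j := by
      intro i
      apply Subtype.ext
      rw [Submodule.coe_sum]
      exact hM1 i
    have hstep : ∀ i, (heckeJp N p ⟨ℓ, hℓ⟩).baseChange 𝔽 (c i ⊗ₜ[ℤ] θ' (y i)) =
        ∑ j, (c i * (Mx i j : 𝔽)) ⊗ₜ[ℤ] θ' (y j) := by
      intro i
      rw [LinearMap.baseChange_tmul, hcomm, hL i, map_sum, TensorProduct.tmul_sum]
      refine Finset.sum_congr rfl fun j _ => ?_
      rw [map_zsmul, ← TensorProduct.smul_tmul, zsmul_eq_mul, mul_comm]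
    rw [map_sum]
    simp only [hstep]
    rw [Finset.sum_comm, Finset.smul_sum]
    refine Finset.sum_congr rfl fun j _ => ?_
    rw [← TensorProduct.sum_tmul, hM2 j, TensorProduct.smul_tmul', smul_eq_mul]

end Fermat.Agent.S29.Eig
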