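/-
S29 block [FD], hedge route B (helper62): analytic leaf.
(IE) inclusion-exclusion over the prime divisors of `n` for a "Frobenius index" `idx : V → ℕ`;
(AN) two-sided pole estimate for the prime-norm primes of a number field of norm `> B₀`.
-/
import Mathlib
import Fermat.Agent.S14A.ZetaIdeal
import Fermat.Agent.S14Z.NonPrimeNorm
import Fermat.Agent.S14Z.ZetaPole

set_option autoImplicit false

namespace Fermat.Agent.S29.FDB

open NumberField IsDedekindDomain Filter Topology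
open Fermat.Agent.S14A Fermat.Agent.S14Z

/-- the inclusion-exclusion claim, in indicator form. -/
private theorem fdbAn_claim {V : Type*} (a : ℝ → V → ℝ) (idx : V → ℕ) (n : ℕ)
    (hn : 0 < n) (hsum : ∀ s : ℝ, 1 < s → Summable (a s))
    (hH : ∀ d : ℕ, d ∣ n → ∃ C : ℝ, ∀ᶠ s in 𝓝[>] (1 : ℝ),
      |(d : ℝ) * (∑' v, Set.indicator {v | d ∣ idx v} (a s) v) - Real.log (1 / (s - 1))| ≤ C)
    (R : Finset ℕ) : (∀ r ∈ R, r.Prime ∧ r ∣ n) → ∀ d : ℕ, d ∣ n → (∀ r ∈ R, ¬ r ∣ d) →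
      ∃ C : ℝ, ∀ᶠ s in 𝓝[>] (1 : ℝ),
        |(∑' v, Set.indicator {v | d ∣ idx v ∧ ∀ r ∈ R, ¬ r ∣ idx v} (a s) v) -
          1 / (d : ℝ) * (∏ r ∈ R, (1 - 1 / (r : ℝ))) * Real.log (1 / (s - 1))| ≤ C := by
  classical
  induction R using Finset.induction_on with
  | empty =>
    intro _ d hd _
    obtain ⟨C, hC⟩ := hH d hd
    have hd0 : 0 < d := Nat.pos_of_dvd_of_pos hd hn
    have hdR : (0 : ℝ) < d := by exact_mod_cast hd0
    refine ⟨C / d, ?_⟩
    filter_upwards [hC] with s hs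
    have hset : {v | d ∣ idx v ∧ ∀ r ∈ (∅ : Finset ℕ), ¬ r ∣ idx v} = {v | d ∣ idx v} := by
      ext v; simp
    rw [hset, Finset.prod_empty]
    have : (∑' v, Set.indicator {v | d ∣ idx v} (a s) v) - 1 / (d : ℝ) * 1 *
        Real.log (1 / (s - 1)) =
        ((d : ℝ) * (∑' v, Set.indicator {v | d ∣ idx v} (a s) v) - Real.log (1 / (s - 1))) / d := by
      field_simp
    rw [this, abs_div, abs_of_pos hdR]
    exact div_le_div_of_nonneg_right hs hdR.le
  | insert r₀ R hr₀ ih =>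
    intro hR d hd hRd
    have hr₀p : r₀.Prime := (hR r₀ (Finset.mem_insert_self _ _)).1
    have hr₀n : r₀ ∣ n := (hR r₀ (Finset.mem_insert_self _ _)).2
    have hR' : ∀ r ∈ R, r.Prime ∧ r ∣ n := fun r hr => hR r (Finset.mem_insert_of_mem hr)
    have hr₀d : ¬ r₀ ∣ d := hRd r₀ (Finset.mem_insert_self _ _)
    have hcop : Nat.Coprime d r₀ := ((Nat.Prime.coprime_iff_not_dvd hr₀p).2 hr₀d).symm
    have hdr : d * r₀ ∣ n := Nat.Coprime.mul_dvd_of_dvd_of_dvd hcop hd hr₀n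
    have hRd1 : ∀ r ∈ R, ¬ r ∣ d := fun r hr => hRd r (Finset.mem_insert_of_mem hr)
    have hRd2 : ∀ r ∈ R, ¬ r ∣ d * r₀ := by
      intro r hr h
      rcases ((hR' r hr).1.dvd_mul).1 h with h1 | h1
      · exact hRd1 r hr h1
      · have : r = r₀ := (Nat.prime_dvd_prime_iff_eq (hR' r hr).1 hr₀p).1 h1
        exact hr₀ (this ▸ hr)
    obtain ⟨C₁, hC₁⟩ := ih hR' d hd hRd1
    obtain ⟨C₂, hC₂⟩ := ih hR' (d * r₀) hdr hRd2
    have hd0 : 0 < d := Nat.pos_of_dvd_of_pos hd hn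
    have hdR : (0 : ℝ) < d := by exact_mod_cast hd0
    have hrR : (0 : ℝ) < r₀ := by exact_mod_cast hr₀p.pos
    have hiff : ∀ i : ℕ, d * r₀ ∣ i ↔ d ∣ i ∧ r₀ ∣ i := fun i =>
      ⟨fun h => ⟨(dvd_mul_right d r₀).trans h, (dvd_mul_left r₀ d).trans h⟩,
        fun h => Nat.Coprime.mul_dvd_of_dvd_of_dvd hcop h.1 h.2⟩
    refine ⟨C₁ + C₂, ?_⟩
    filter_upwards [hC₁, hC₂, self_mem_nhdsWithin] with s h1 h2 hs
    have hs1 : (1 : ℝ) < s := hs
    have hS := hsum s hs1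
    have hpt : ∀ v, Set.indicator {v | d ∣ idx v ∧ ∀ r ∈ insert r₀ R, ¬ r ∣ idx v} (a s) v =
        Set.indicator {v | d ∣ idx v ∧ ∀ r ∈ R, ¬ r ∣ idx v} (a s) v -
        Set.indicator {v | d * r₀ ∣ idx v ∧ ∀ r ∈ R, ¬ r ∣ idx v} (a s) v := by
      intro v
      by_cases h1 : d ∣ idx v <;> by_cases h2 : ∀ r ∈ R, ¬ r ∣ idx v <;>
        by_cases h3 : r₀ ∣ idx v <;>
        simp [Set.indicator, hiff, h1, h2, h3]
    have htsum : (∑' v, Set.indicator {v | d ∣ idx v ∧ ∀ r ∈ insert r₀ R, ¬ r ∣ idx v} (a s) v) =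
        (∑' v, Set.indicator {v | d ∣ idx v ∧ ∀ r ∈ R, ¬ r ∣ idx v} (a s) v) -
        (∑' v, Set.indicator {v | d * r₀ ∣ idx v ∧ ∀ r ∈ R, ¬ r ∣ idx v} (a s) v) := by
      rw [← (hS.indicator _).tsum_sub (hS.indicator _)]
      exact tsum_congr hpt
    rw [htsum, Finset.prod_insert hr₀]
    have hmain : (∑' v, Set.indicator {v | d ∣ idx v ∧ ∀ r ∈ R, ¬ r ∣ idx v} (a s) v) -
        (∑' v, Set.indicator {v | d * r₀ ∣ idx v ∧ ∀ r ∈ R, ¬ r ∣ idx v} (a s) v) -
        1 / (d : ℝ) * ((1 - 1 / (r₀ : ℝ)) * ∏ r ∈ R, (1 - 1 / (r : ℝ))) *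
          Real.log (1 / (s - 1)) =
        ((∑' v, Set.indicator {v | d ∣ idx v ∧ ∀ r ∈ R, ¬ r ∣ idx v} (a s) v) -
          1 / (d : ℝ) * (∏ r ∈ R, (1 - 1 / (r : ℝ))) * Real.log (1 / (s - 1))) -
        ((∑' v, Set.indicator {v | d * r₀ ∣ idx v ∧ ∀ r ∈ R, ¬ r ∣ idx v} (a s) v) -
          1 / ((d * r₀ : ℕ) : ℝ) * (∏ r ∈ R, (1 - 1 / (r : ℝ))) * Real.log (1 / (s - 1))) := by
      push_cast
      field_simp
      ring
    rw [hmain]
    exact (abs_sub _ _).trans (add_le_add h1 h2)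

/-- (IE) if for every divisor `d` of `n` the indices divisible by `d` carry the proportion `1/d`
of a divergent "mass" `log (1/(s-1))` (two-sided, up to `O(1)`), then some index is coprime to
`n`. -/
theorem exists_coprime_of_divisor_estimates {V : Type*} (a : ℝ → V → ℝ) (idx : V → ℕ) (n : ℕ)
    (hn : 0 < n) (ha0 : ∀ s v, 0 ≤ a s v) (hsum : ∀ s : ℝ, 1 < s → Summable (a s))
    (hH : ∀ d : ℕ, d ∣ n → ∃ C : ℝ, ∀ᶠ s in 𝓝[>] (1 : ℝ),
      |(d : ℝ) * (∑' v : {v : V // d ∣ idx v}, a s v) - Real.log (1 / (s - 1))| ≤ C) :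
    ∃ v : V, Nat.Coprime (idx v) n := by
  classical
  have hH' : ∀ d : ℕ, d ∣ n → ∃ C : ℝ, ∀ᶠ s in 𝓝[>] (1 : ℝ),
      |(d : ℝ) * (∑' v, Set.indicator {v | d ∣ idx v} (a s) v) - Real.log (1 / (s - 1))| ≤ C := by
    intro d hd
    obtain ⟨C, hC⟩ := hH d hd
    refine ⟨C, ?_⟩
    filter_upwards [hC] with s hs
    have := tsum_subtype {v | d ∣ idx v} (a s)
    rw [← this]
    exact hs
  obtain ⟨C, hC⟩ := fdbAn_claim a idx n hn hsum hH' n.primeFactors
    (fun r hr => ⟨Nat.prime_of_mem_primeFactors hr, Nat.dvd_of_mem_primeFactors hr⟩) 1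
    (one_dvd n) (fun r hr h => (Nat.prime_of_mem_primeFactors hr).one_lt.ne' (Nat.dvd_one.1 h))
  set c₀ : ℝ := ∏ r ∈ n.primeFactors, (1 - 1 / (r : ℝ)) with hc₀def
  have hc₀ : 0 < c₀ := by
    refine Finset.prod_pos fun r hr => ?_
    have h2 : (2 : ℝ) ≤ r := by exact_mod_cast (Nat.prime_of_mem_primeFactors hr).two_le
    have : 1 / (r : ℝ) ≤ 1 / 2 := one_div_le_one_div_of_le (by norm_num) h2
    linarith
  have hbig : ∀ᶠ s in 𝓝[>] (1 : ℝ), C / c₀ < Real.log (1 / (s - 1)) :=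
    tendsto_log_one_div_sub_one.eventually_gt_atTop _
  obtain ⟨s, hs1, hs2⟩ := (hC.and hbig).exists
  rw [div_lt_iff₀ hc₀] at hs2
  have hpos : 0 < ∑' v, Set.indicator {v | 1 ∣ idx v ∧ ∀ r ∈ n.primeFactors, ¬ r ∣ idx v}
      (a s) v := by
    have := (abs_le.1 hs1).1
    simp only [Nat.cast_one, div_one, one_mul] at this
    nlinarith
  by_contra hne0
  have hne : ∀ v : V, ¬ Nat.Coprime (idx v) n := fun v h => hne0 ⟨v, h⟩
  have hzero : ∀ v, Set.indicator {v | 1 ∣ idx v ∧ ∀ r ∈ n.primeFactors, ¬ r ∣ idx v}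
      (a s) v = 0 := by
    intro v
    apply Set.indicator_of_notMem
    rintro ⟨-, hv⟩
    obtain ⟨p, hp, hp1, hp2⟩ := Nat.Prime.not_coprime_iff_dvd.1 (hne v)
    exact hv p (Nat.mem_primeFactors.2 ⟨hp, hp2, hn.ne'⟩) hp1
  simp only [hzero, tsum_zero] at hpos
  exact lt_irrefl _ hpos

/-- finiteness of the primes of bounded norm. -/
private theorem fdbAn_finite (E : Type*) [Field E] [NumberField E] (B : ℕ) :
    {v : HeightOneSpectrum (𝓞 E) | Ideal.absNorm v.asIdeal ≤ B}.Finite := by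
  have h1 := Ideal.finite_setOfPred_absNorm_le (S := 𝓞 E) B
  refine Set.Finite.of_finite_image (f := HeightOneSpectrum.asIdeal) (h1.subset ?_) ?_
  · rintro I ⟨v, hv, rfl⟩
    exact hv
  · intro v _ w _ h
    exact HeightOneSpectrum.ext h

/-- (AN) two-sided estimate for the prime-norm primes of norm `> B₀` of a number field. -/
theorem primeNorm_two_sided (E : Type*) [Field E] [NumberField E] (B₀ : ℕ) :
    ∃ C : ℝ, ∀ᶠ s in 𝓝[>] (1 : ℝ),
      |(∑' w : {w : HeightOneSpectrum (𝓞 E) //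
            (Ideal.absNorm w.asIdeal).Prime ∧ B₀ < Ideal.absNorm w.asIdeal},
          (Ideal.absNorm w.1.asIdeal : ℝ) ^ (-s)) - Real.log (1 / (s - 1))| ≤ C := by
  classical
  obtain ⟨c, hc⟩ := log_zetaR_le E
  obtain ⟨cE, CE, hcE, hE⟩ := zetaR_pole E
  set T₀ : Finset (HeightOneSpectrum (𝓞 E)) := (fdbAn_finite E B₀).toFinset with hT₀def
  refine ⟨|Real.log CE| + |Real.log cE| + |c| + c1 E + T₀.card, ?_⟩
  filter_upwards [hE, self_mem_nhdsWithin] with s hsE hs1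
  have hs : (1 : ℝ) < s := hs1
  have hs0 : 0 < s - 1 := by linarith
  set f : HeightOneSpectrum (𝓞 E) → ℝ := fun v => (Ideal.absNorm v.asIdeal : ℝ) ^ (-s) with hf
  set G : Set (HeightOneSpectrum (𝓞 E)) :=
    {w | (Ideal.absNorm w.asIdeal).Prime ∧ B₀ < Ideal.absNorm w.asIdeal} with hG
  have hf0 : ∀ v, 0 ≤ f v := fun v => rpow_neg_nonneg E v s
  have hsumE : Summable f := summable_prime_rpow E hs
  change |(∑' w : G, f w) - Real.log (1 / (s - 1))| ≤ _
  have hpt : ∀ v, f v ≤ G.indicator f v +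
      (nonPrimeNorm E).indicator f v + (T₀ : Set (HeightOneSpectrum (𝓞 E))).indicator f v := by
    intro v
    have e2 := Set.indicator_nonneg (s := G) (f := f) (fun v _ => hf0 v) v
    have e3 := Set.indicator_nonneg (s := nonPrimeNorm E) (f := f) (fun v _ => hf0 v) v
    have e4 := Set.indicator_nonneg (s := (T₀ : Set (HeightOneSpectrum (𝓞 E)))) (f := f)
      (fun v _ => hf0 v) v
    by_cases h2 : v ∈ T₀
    · have : v ∈ (T₀ : Set (HeightOneSpectrum (𝓞 E))) := h2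
      rw [Set.indicator_of_mem this]; linarith
    · by_cases h3 : (Ideal.absNorm v.asIdeal).Prime
      · have hB : B₀ < Ideal.absNorm v.asIdeal := by
          by_contra h
          exact h2 ((fdbAn_finite E B₀).mem_toFinset.mpr (not_lt.mp h))
        have : v ∈ G := ⟨h3, hB⟩
        rw [Set.indicator_of_mem this]; linarith
      · have : v ∈ nonPrimeNorm E := h3
        rw [Set.indicator_of_mem this]; linarith
  have hA : ∑' v, f v ≤ ∑' v : G, f v +
      ∑' v : nonPrimeNorm E, f v + ∑' v : (T₀ : Set (HeightOneSpectrum (𝓞 E))), f v := by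
    have h2 := hsumE.indicator G
    have h3 := hsumE.indicator (nonPrimeNorm E)
    have h4 := hsumE.indicator (T₀ : Set (HeightOneSpectrum (𝓞 E)))
    have := hsumE.tsum_le_tsum hpt ((h2.add h3).add h4)
    rw [(h2.add h3).tsum_add h4, h2.tsum_add h3] at this
    simpa only [tsum_subtype] using this
  have hG_le : ∑' v : G, f v ≤ ∑' v, f v := by
    rw [tsum_subtype]
    exact (hsumE.indicator G).tsum_le_tsum
      (fun v => Set.indicator_le_self' (fun v _ => hf0 v) v) hsumE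
  have hT0 : ∑' v : (T₀ : Set (HeightOneSpectrum (𝓞 E))), f v ≤ T₀.card := by
    rw [Finset.tsum_subtype' T₀ f]
    calc ∑ v ∈ T₀, f v ≤ ∑ _v ∈ T₀, (1 : ℝ) :=
          Finset.sum_le_sum fun v _ => rpow_neg_le_one E v (by linarith)
      _ = T₀.card := by simp
  have hNP : ∑' v : nonPrimeNorm E, f v ≤ c1 E := tsum_nonPrimeNorm_le E hs.le
  have hB : Real.log (zetaR E s) ≤ ∑' v, f v + c := hc s hs
  have hU : ∑' v, f v ≤ Real.log (zetaR E s) := tsum_prime_le_log_zetaR E hs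
  have hD1 : Real.log cE - Real.log (s - 1) ≤ Real.log (zetaR E s) := by
    rw [← Real.log_div hcE.ne' hs0.ne']
    exact Real.log_le_log (div_pos hcE hs0) hsE.1
  have hEpos : 0 < zetaR E s := lt_of_lt_of_le (div_pos hcE hs0) hsE.1
  have hCE : 0 < CE := by
    have := lt_of_lt_of_le hEpos hsE.2
    by_contra h
    have h' : CE ≤ 0 := not_lt.1 h
    have := div_nonpos_of_nonpos_of_nonneg h' hs0.le
    linarith
  have hD2 : Real.log (zetaR E s) ≤ Real.log CE - Real.log (s - 1) := by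
    rw [← Real.log_div hCE.ne' hs0.ne']
    exact Real.log_le_log hEpos hsE.2
  have hlog : Real.log (1 / (s - 1)) = - Real.log (s - 1) := by
    rw [one_div, Real.log_inv]
  rw [hlog]
  have k1 := le_abs_self (Real.log CE)
  have k2 := neg_abs_le (Real.log cE)
  have k3 := le_abs_self c
  have k4 := abs_nonneg (Real.log CE)
  have k5 := abs_nonneg (Real.log cE)
  have k6 := abs_nonneg c
  have k7 := c1_nonneg E
  have k8 : (0 : ℝ) ≤ T₀.card := Nat.cast_nonneg _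
  rw [abs_le]
  constructor <;> linarith

/-- summability of the prime-norm sum on the good primes. -/
theorem summable_good (E : Type*) [Field E] [NumberField E] (B₀ : ℕ) {s : ℝ} (hs : 1 < s) :
    Summable (fun w : {w : HeightOneSpectrum (𝓞 E) //
            (Ideal.absNorm w.asIdeal).Prime ∧ B₀ < Ideal.absNorm w.asIdeal} =>
          (Ideal.absNorm w.1.asIdeal : ℝ) ^ (-s)) :=
  (summable_prime_rpow E hs).comp_injective Subtype.val_injective

end Fermat.Agent.S29.FDB
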