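/-
S29 block [FD], hedge route B (helper62): algebraic core, in the vocabulary of `S41/FL.lean`
(primes `Q` of the ring `Zb` of all algebraic integers, `galZb`, `iota`, `incl`).

* `comap_prime_data`   : a conjugate of `Q` cut down to a subfield on which Frobenius is trivial
                         is a prime of norm `ℓ` over `Q ∩ 𝓞 F`;
* `sub_mem_of_comap_eq`: two conjugates with the same trace on `𝓞 E` agree modulo `Q` on `𝓞 E`;
* `exists_pow_conj`    : transitivity of `⟨τ⟩` on the primes of `𝓞 K` over a prime of the fixed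
                         field (norm argument + prime avoidance);
* `exists_nat_sub_mem_of_absNorm`, `absNorm_comap_incl` : primes of prime norm;
* `cycPoly` and its coefficients (the Galois step for the subgroup `⟨τ ^ d⟩`);
* `exists_order` : the exact order of `τ` on a finite Galois-stable set.
-/
import Mathlib
import Fermat.Prelude.Def_EllipticCurve_FrobeniusTrace
import Fermat.Agent.S54.ValSub
import Fermat.Agent.S54.Frobenius
import Fermat.Agent.S41.AA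
import Fermat.Agent.S41.FrobA
import Fermat.Agent.S41.FL

set_option autoImplicit false

namespace Fermat.Agent.S29.FDB

open NumberField IsDedekindDomain Polynomial
open scoped IntermediateField
open Fermat.Agent.S54 Fermat.Agent.S41 Fermat.Agent.S41.FL

local notation "Qb" => AlgebraicClosure ℚ
local notation "GQ" => (AlgebraicClosure ℚ ≃ₐ[ℚ] AlgebraicClosure ℚ)
local notation "Zb" => integralClosure ℤ (AlgebraicClosure ℚ)

attribute [local instance] isAlgebraic_int_algebraicClosure_rat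

/-! ### 0. powers of automorphisms -/

theorem pow_apply_of_fixed (g : GQ) (x : Qb) (h : g x = x) (m : ℕ) : (g ^ m) x = x := by
  induction m with
  | zero => simp
  | succ m ih => rw [pow_succ, AlgEquiv.mul_apply, h, ih]

theorem pow_mem_of_stable (T : Set Qb) (g : GQ) (hT : ∀ x ∈ T, g x ∈ T) (m : ℕ) :
    ∀ x ∈ T, (g ^ m) x ∈ T := by
  induction m with
  | zero => intro x hx; simpa using hx
  | succ m ih =>
    intro x hx
    rw [pow_succ, AlgEquiv.mul_apply]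
    exact ih _ (hT x hx)

theorem pow_apply_comm (g : GQ) (a b : ℕ) (x : Qb) : (g ^ a) ((g ^ b) x) = (g ^ b) ((g ^ a) x) := by
  rw [← AlgEquiv.mul_apply, ← AlgEquiv.mul_apply, ← pow_add, ← pow_add, add_comm]

/-! ### 1. the fixed fields -/

/-- the fixed field of `τ ^ d` inside `K`. -/
noncomputable def fixE (K : IntermediateField ℚ Qb) (τ : GQ) (d : ℕ) : IntermediateField ℚ Qb :=
  K ⊓ eqField (τ ^ d) 1

theorem mem_fixE {K : IntermediateField ℚ Qb} {τ : GQ} {d : ℕ} {x : Qb} :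
    x ∈ fixE K τ d ↔ x ∈ K ∧ (τ ^ d) x = x := by
  unfold fixE
  rw [IntermediateField.mem_inf, mem_eqField]
  rfl

theorem fixE_le (K : IntermediateField ℚ Qb) (τ : GQ) (d : ℕ) : fixE K τ d ≤ K := inf_le_left

theorem fixE_one_le (K : IntermediateField ℚ Qb) (τ : GQ) (d : ℕ) : fixE K τ 1 ≤ fixE K τ d := by
  intro x hx
  rw [mem_fixE] at hx ⊢
  rw [pow_one] at hx
  exact ⟨hx.1, pow_apply_of_fixed τ x hx.2 d⟩

instance fixE_numberField (K : IntermediateField ℚ Qb) [NumberField K] (τ : GQ) (d : ℕ) :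
    NumberField (fixE K τ d) := by
  have : FiniteDimensional ℚ (fixE K τ d) :=
    FiniteDimensional.of_injective (IntermediateField.inclusion (fixE_le K τ d)).toLinearMap
      (IntermediateField.inclusion (fixE_le K τ d)).injective
  exact numberField_of_fd _

theorem fixE_stable {K : IntermediateField ℚ Qb} {τ : GQ} {d : ℕ}
    (hK : ∀ g : GQ, ∀ x ∈ K, g x ∈ K) (k : ℕ) : ∀ x ∈ fixE K τ d, (τ ^ k) x ∈ fixE K τ d := by
  intro x hx
  rw [mem_fixE] at hx ⊢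
  refine ⟨hK _ x hx.1, ?_⟩
  rw [pow_apply_comm, hx.2]

theorem fixE_stable_inv {K : IntermediateField ℚ Qb} {τ : GQ} {d : ℕ}
    (hK : ∀ g : GQ, ∀ x ∈ K, g x ∈ K) (k : ℕ) :
    ∀ x ∈ fixE K τ d, ((τ ^ k)⁻¹ : GQ) x ∈ fixE K τ d := by
  intro x hx
  rw [mem_fixE] at hx ⊢
  refine ⟨hK _ x hx.1, ?_⟩
  have h1 : (τ ^ k) ((τ ^ d) (((τ ^ k)⁻¹ : GQ) x)) = (τ ^ k) (((τ ^ k)⁻¹ : GQ) x) := by
    rw [pow_apply_comm, ← AlgEquiv.mul_apply (τ ^ k), mul_inv_cancel, AlgEquiv.one_apply, hx.2]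
  exact (τ ^ k).injective h1

theorem fixE_fixed_of_dvd {K : IntermediateField ℚ Qb} {τ : GQ} {d i : ℕ} (hdi : d ∣ i) :
    ∀ x ∈ fixE K τ d, (τ ^ i) x = x := by
  intro x hx
  rw [mem_fixE] at hx
  obtain ⟨m, rfl⟩ := hdi
  rw [pow_mul]
  exact pow_apply_of_fixed _ x hx.2 m

theorem fixE_pow_mod {K : IntermediateField ℚ Qb} {τ : GQ} {d : ℕ} (k : ℕ) :
    ∀ x ∈ fixE K τ d, (τ ^ k) x = (τ ^ (k % d)) x := by
  intro x hx
  conv_lhs => rw [← Nat.mod_add_div k d, pow_add, AlgEquiv.mul_apply]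
  rw [fixE_fixed_of_dvd (dvd_mul_right d (k / d)) x hx]

/-! ### 2. a conjugate of `Q` on a field where Frobenius is trivial -/

theorem comap_prime_data (F E : IntermediateField ℚ Qb) [NumberField F] [NumberField E]
    (hFE : F ≤ E) (g : GQ) (hgE : ∀ x ∈ E, g x ∈ E) (hgF : ∀ x ∈ F, g x = x)
    (ℓ : ℕ) (hℓ : ℓ.Prime) (Q : Ideal Zb) [hQ : Q.IsPrime] (hℓQ : (ℓ : Zb) ∈ Q)
    (hnorm : Ideal.absNorm (Q.comap (iota F)) = ℓ)
    (hE : ∀ c : Zb, (c : Qb) ∈ E → c ^ ℓ - c ∈ Q) :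
    (Q.comap ((galZb g).comp (iota E))).IsPrime ∧ Q.comap ((galZb g).comp (iota E)) ≠ ⊥ ∧
      Ideal.absNorm (Q.comap ((galZb g).comp (iota E))) = ℓ ∧
      (Q.comap ((galZb g).comp (iota E))).comap (incl hFE) = Q.comap (iota F) := by
  classical
  obtain ⟨φ, hφ⟩ : ∃ φ : 𝓞 E →+* Zb, φ = (galZb g).comp (iota E) := ⟨_, rfl⟩
  rw [← hφ]
  have hφcoe : ∀ b : 𝓞 E, ((φ b : Zb) : Qb) = g ((b : E) : Qb) := fun b => by rw [hφ]; rfl
  have hmem : ∀ b : 𝓞 E, b ∈ Q.comap φ ↔ φ b ∈ Q := fun b => Iff.rfl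
  have hprime : (Q.comap φ).IsPrime := Ideal.comap_isPrime φ Q
  have hℓmem : (ℓ : 𝓞 E) ∈ Q.comap φ := by
    rw [hmem, map_natCast]; exact hℓQ
  have hbot : Q.comap φ ≠ ⊥ := fun h => by
    rw [h, Ideal.mem_bot] at hℓmem
    exact hℓ.ne_zero (by exact_mod_cast hℓmem)
  have hφincl : ∀ b : 𝓞 F, φ (incl hFE b) = iota F b := by
    intro b
    apply Subtype.ext
    rw [hφcoe]
    show g (((b : F) : Qb)) = ((b : F) : Qb)
    exact hgF _ (b : F).2
  have hcomap : (Q.comap φ).comap (incl hFE) = Q.comap (iota F) := by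
    ext b
    rw [Ideal.mem_comap, hmem, hφincl, Ideal.mem_comap]
  have hres : ∀ b : 𝓞 E, ∃ n : ℕ, n < ℓ ∧ b - (n : 𝓞 E) ∈ Q.comap φ := by
    intro b
    have hcE : ((φ b : Zb) : Qb) ∈ E := by
      rw [hφcoe]; exact hgE _ (b : E).2
    obtain ⟨n, hn, h⟩ := exists_nat_sub_mem ℓ hℓ Q hℓQ (φ b) (hE _ hcE)
    refine ⟨n, hn, ?_⟩
    rw [hmem, map_sub, map_natCast]
    exact h
  have hN : Ideal.absNorm (Q.comap φ) = ℓ := by
    have hsurj : Function.Surjective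
        (fun n : Fin ℓ => Ideal.Quotient.mk (Q.comap φ) ((n : ℕ) : 𝓞 E)) := by
      intro x
      obtain ⟨b, rfl⟩ := Ideal.Quotient.mk_surjective x
      obtain ⟨n, hn, h⟩ := hres b
      exact ⟨⟨n, hn⟩, (Ideal.Quotient.eq.mpr h).symm⟩
    have hfin : Finite (𝓞 E ⧸ Q.comap φ) := Finite.of_surjective _ hsurj
    have hle : Nat.card (𝓞 E ⧸ Q.comap φ) ≤ ℓ := by
      have h1 := Nat.card_le_card_of_surjective _ hsurj
      simpa using h1
    have hge : ℓ ≤ Nat.card (𝓞 E ⧸ Q.comap φ) := by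
      rw [← hnorm, Ideal.absNorm_apply, Submodule.cardQuot_apply]
      exact Nat.card_le_card_of_injective
        (Ideal.quotientMap (Q.comap φ) (incl hFE) (le_of_eq hcomap.symm))
        (Ideal.quotientMap_injective' (le_of_eq hcomap))
    rw [Ideal.absNorm_apply, Submodule.cardQuot_apply]
    exact le_antisymm hle hge
  exact ⟨hprime, hbot, hN, hcomap⟩

/-! ### 3. two conjugates with the same trace on `𝓞 E` -/

theorem sub_mem_of_comap_eq (E : IntermediateField ℚ Qb) [NumberField E]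
    (g₁ g₂ : GQ) (hg₁E : ∀ x ∈ E, g₁ x ∈ E)
    (ℓ : ℕ) (hℓ : ℓ.Prime) (Q : Ideal Zb) [hQ : Q.IsPrime] (hℓQ : (ℓ : Zb) ∈ Q)
    (hE : ∀ c : Zb, (c : Qb) ∈ E → c ^ ℓ - c ∈ Q)
    (h : Q.comap ((galZb g₁).comp (iota E)) = Q.comap ((galZb g₂).comp (iota E)))
    (b : Zb) (hb : (b : Qb) ∈ E) : galZb g₂ b - galZb g₁ b ∈ Q := by
  obtain ⟨b', rfl⟩ := exists_iota_eq E b hb
  have hcE : ((galZb g₁ (iota E b') : Zb) : Qb) ∈ E := hg₁E _ (b' : E).2
  obtain ⟨a, -, ha⟩ := exists_nat_sub_mem ℓ hℓ Q hℓQ (galZb g₁ (iota E b')) (hE _ hcE)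
  have h1 : b' - (a : 𝓞 E) ∈ Q.comap ((galZb g₁).comp (iota E)) := by
    rw [Ideal.mem_comap, map_sub, map_natCast]
    exact ha
  rw [h, Ideal.mem_comap, map_sub, map_natCast] at h1
  have e : galZb g₂ (iota E b') - galZb g₁ (iota E b') =
      (((galZb g₂).comp (iota E)) b' - (a : Zb)) - (galZb g₁ (iota E b') - (a : Zb)) := by
    rw [RingHom.comp_apply]; ring
  rw [e]
  exact Q.sub_mem h1 ha

/-! ### 4. transitivity on the primes above a prime of the fixed field -/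

theorem exists_pow_conj (F K : IntermediateField ℚ Qb) [NumberField F] [NumberField K]
    (τ : GQ) (n : ℕ) (hn : 0 < n) (hKτ : ∀ x ∈ K, τ x ∈ K) (hτn : ∀ x ∈ K, (τ ^ n) x = x)
    (hF : ∀ x ∈ K, τ x = x → x ∈ F)
    (ℓ : ℕ) (hℓ : ℓ.Prime) (Q Q' : Ideal Zb) [hQ : Q.IsPrime] [hQ' : Q'.IsPrime]
    (hℓQ : (ℓ : Zb) ∈ Q) (hℓQ' : (ℓ : Zb) ∈ Q')
    (hQQ' : Q'.comap (iota F) ≤ Q.comap (iota F)) :
    ∃ k < n, ∀ b : Zb, (b : Qb) ∈ K → (b ∈ Q' ↔ galZb (τ ^ k) b ∈ Q) := by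
  classical
  obtain ⟨φ, hφ⟩ : ∃ φ : ℕ → (𝓞 K →+* Zb), φ = fun k => (galZb (τ ^ k)).comp (iota K) :=
    ⟨_, rfl⟩
  have hφcoe : ∀ k (b : 𝓞 K), ((φ k b : Zb) : Qb) = (τ ^ k) ((b : K) : Qb) := fun k b => by
    rw [hφ]; rfl
  have hprime : ∀ k, (Q.comap (φ k)).IsPrime := fun k => Ideal.comap_isPrime (φ k) Q
  have hbot : ∀ k, Q.comap (φ k) ≠ ⊥ := fun k h => by
    have h1 : (ℓ : 𝓞 K) ∈ Q.comap (φ k) := by
      rw [Ideal.mem_comap, map_natCast]; exact hℓQ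
    rw [h, Ideal.mem_bot] at h1
    exact hℓ.ne_zero (by exact_mod_cast h1)
  have hprime' : (Q'.comap (iota K)).IsPrime := Ideal.comap_isPrime (iota K) Q'
  have hbot' : Q'.comap (iota K) ≠ ⊥ := fun h => by
    have h1 : (ℓ : 𝓞 K) ∈ Q'.comap (iota K) := by
      rw [Ideal.mem_comap, map_natCast]; exact hℓQ'
    rw [h, Ideal.mem_bot] at h1
    exact hℓ.ne_zero (by exact_mod_cast h1)
  have hmax' : (Q'.comap (iota K)).IsMaximal := hprime'.isMaximal hbot'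
  -- the key claim
  have hkey : ∃ k ∈ Finset.range n, Q'.comap (iota K) ≤ Q.comap (φ k) := by
    by_contra hcon
    have hsub : ¬ ((Q'.comap (iota K) : Set (𝓞 K)) ⊆
        ⋃ k ∈ ((Finset.range n : Finset ℕ) : Set ℕ), (Q.comap (φ k) : Set (𝓞 K))) := by
      intro hsub
      exact hcon ((Ideal.subset_union_prime (s := Finset.range n)
        (f := fun k => Q.comap (φ k)) 0 0 (fun k _ _ _ => hprime k)).mp hsub)
    rw [Set.not_subset] at hsub
    obtain ⟨b, hbQ', hbn⟩ := hsub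
    have hbk : ∀ k < n, φ k b ∉ Q := by
      intro k hk hmem
      apply hbn
      simp only [Set.mem_iUnion]
      exact ⟨k, Finset.mem_coe.mpr (Finset.mem_range.mpr hk), hmem⟩
    -- the norm
    obtain ⟨Nm, hNm⟩ : ∃ Nm : Zb, Nm = ∏ k ∈ Finset.range n, φ k b := ⟨_, rfl⟩
    have hNmcoe : (Nm : Qb) = ∏ k ∈ Finset.range n, (τ ^ k) ((b : K) : Qb) := by
      rw [hNm]
      have : ((∏ k ∈ Finset.range n, φ k b : Zb) : Qb) =
          ∏ k ∈ Finset.range n, ((φ k b : Zb) : Qb) :=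
        map_prod (algebraMap Zb Qb) _ _
      rw [this]
      exact Finset.prod_congr rfl fun k _ => hφcoe k b
    have hb0 : ((b : K) : Qb) ≠ 0 := by
      intro h0
      apply hbk 0 hn
      have : φ 0 b = 0 := by
        apply Subtype.ext
        rw [hφcoe, pow_zero, AlgEquiv.one_apply, h0]
        rfl
      rw [this]; exact Q.zero_mem
    have hNmK : (Nm : Qb) ∈ K := by
      rw [hNmcoe]
      exact prod_mem fun k _ => pow_mem_of_stable (K : Set Qb) τ hKτ k _ (b : K).2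
    have hNmτ : τ (Nm : Qb) = (Nm : Qb) := by
      rw [hNmcoe, map_prod]
      have h1 : ∀ k ∈ Finset.range n, τ ((τ ^ k) ((b : K) : Qb)) = (τ ^ (k + 1)) ((b : K) : Qb) := by
        intro k _
        rw [pow_succ', AlgEquiv.mul_apply]
      rw [Finset.prod_congr rfl h1]
      have h2 := Finset.prod_range_succ' (fun k => (τ ^ k) ((b : K) : Qb)) n
      have h3 := Finset.prod_range_succ (fun k => (τ ^ k) ((b : K) : Qb)) n
      rw [h3] at h2
      simp only [pow_zero, AlgEquiv.one_apply] at h2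
      rw [hτn _ (b : K).2] at h2
      exact (mul_right_cancel₀ hb0 h2).symm
    have hNmF : (Nm : Qb) ∈ F := hF _ hNmK hNmτ
    have hNmQ' : Nm ∈ Q' := by
      rw [hNm]
      obtain ⟨m, rfl⟩ : ∃ m, n = m + 1 := ⟨n - 1, by omega⟩
      rw [Finset.prod_range_succ']
      apply Ideal.mul_mem_left
      have : φ 0 b = iota K b := by
        apply Subtype.ext
        rw [hφcoe, pow_zero, AlgEquiv.one_apply]
        rfl
      rw [this]
      exact hbQ'
    obtain ⟨N', hN'⟩ := exists_iota_eq F Nm hNmF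
    have hNmQ : Nm ∈ Q := by
      have h1 : N' ∈ Q'.comap (iota F) := by
        rw [Ideal.mem_comap, hN']; exact hNmQ'
      have h2 := hQQ' h1
      rw [Ideal.mem_comap, hN'] at h2
      exact h2
    rw [hNm, Ideal.IsPrime.prod_mem_iff] at hNmQ
    obtain ⟨k, hk, hkQ⟩ := hNmQ
    exact hbk k (Finset.mem_range.mp hk) hkQ
  obtain ⟨k, hk, hle⟩ := hkey
  have heq : Q'.comap (iota K) = Q.comap (φ k) :=
    hmax'.eq_of_le (hprime k).ne_top hle
  refine ⟨k, Finset.mem_range.mp hk, fun b hb => ?_⟩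
  obtain ⟨b', rfl⟩ := exists_iota_eq K b hb
  have h1 : b' ∈ Q'.comap (iota K) ↔ b' ∈ Q.comap (φ k) := by rw [heq]
  rw [Ideal.mem_comap, Ideal.mem_comap, hφ] at h1
  exact h1

/-! ### 5. primes of prime norm -/

theorem exists_nat_sub_mem_of_absNorm {E : Type*} [Field E] [NumberField E] (w : Ideal (𝓞 E))
    [hw : w.IsPrime] (ℓ : ℕ) (hℓ : ℓ.Prime) (hN : Ideal.absNorm w = ℓ) (b : 𝓞 E) :
    ∃ a : ℕ, a < ℓ ∧ b - (a : 𝓞 E) ∈ w := by
  classical
  have : Fact ℓ.Prime := ⟨hℓ⟩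
  have hℓw : (ℓ : 𝓞 E) ∈ w := by
    have := Ideal.absNorm_mem w
    rwa [hN] at this
  have h0 : ((ℓ : ℕ) : 𝓞 E ⧸ w) = 0 := by
    rw [← map_natCast (Ideal.Quotient.mk w)]
    exact Ideal.Quotient.eq_zero_iff_mem.mpr hℓw
  have : CharP (𝓞 E ⧸ w) ℓ := (CharP.charP_iff_prime_eq_zero hℓ).mpr h0
  have hcard : Nat.card (𝓞 E ⧸ w) = ℓ := by
    rw [← hN, Ideal.absNorm_apply, Submodule.cardQuot_apply]
  have hfin : Finite (𝓞 E ⧸ w) := Nat.finite_of_card_ne_zero (by rw [hcard]; exact hℓ.ne_zero)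
  have hinj : Function.Injective (ZMod.castHom (dvd_refl ℓ) (𝓞 E ⧸ w)) :=
    (ZMod.castHom (dvd_refl ℓ) (𝓞 E ⧸ w)).injective
  have hbij : Function.Bijective (ZMod.castHom (dvd_refl ℓ) (𝓞 E ⧸ w)) := by
    rw [Nat.bijective_iff_injective_and_card]
    exact ⟨hinj, by rw [hcard, Nat.card_zmod]⟩
  obtain ⟨a, ha⟩ := hbij.2 (Ideal.Quotient.mk w b)
  refine ⟨a.val, ZMod.val_lt a, ?_⟩
  rw [← Ideal.Quotient.eq_zero_iff_mem, map_sub, map_natCast, sub_eq_zero, ← ha,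
    ZMod.castHom_apply, ZMod.natCast_val]

theorem absNorm_comap_incl {F E : IntermediateField ℚ Qb} [NumberField F] [NumberField E]
    (hFE : F ≤ E) (w : Ideal (𝓞 E)) [hw : w.IsPrime] (ℓ : ℕ) (hℓ : ℓ.Prime)
    (hN : Ideal.absNorm w = ℓ) : Ideal.absNorm (w.comap (incl hFE)) = ℓ := by
  classical
  have : Fact ℓ.Prime := ⟨hℓ⟩
  have hprime : (w.comap (incl hFE)).IsPrime := Ideal.comap_isPrime _ w
  have hℓw : (ℓ : 𝓞 E) ∈ w := by
    have := Ideal.absNorm_mem w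
    rwa [hN] at this
  have hℓv : (ℓ : 𝓞 F) ∈ w.comap (incl hFE) := by
    rw [Ideal.mem_comap, map_natCast]; exact hℓw
  have hres : ∀ b : 𝓞 F, ∃ a : ℕ, a < ℓ ∧ b - (a : 𝓞 F) ∈ w.comap (incl hFE) := by
    intro b
    obtain ⟨a, ha, h⟩ := exists_nat_sub_mem_of_absNorm w ℓ hℓ hN (incl hFE b)
    refine ⟨a, ha, ?_⟩
    rw [Ideal.mem_comap, map_sub, map_natCast]
    exact h
  have hsurj : Function.Surjective
      (fun n : Fin ℓ => Ideal.Quotient.mk (w.comap (incl hFE)) ((n : ℕ) : 𝓞 F)) := by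
    intro x
    obtain ⟨b, rfl⟩ := Ideal.Quotient.mk_surjective x
    obtain ⟨n, hn, h⟩ := hres b
    exact ⟨⟨n, hn⟩, (Ideal.Quotient.eq.mpr h).symm⟩
  have hfin : Finite (𝓞 F ⧸ w.comap (incl hFE)) := Finite.of_surjective _ hsurj
  have hle : Nat.card (𝓞 F ⧸ w.comap (incl hFE)) ≤ ℓ := by
    have h1 := Nat.card_le_card_of_surjective _ hsurj
    simpa using h1
  have h0 : ((ℓ : ℕ) : 𝓞 F ⧸ w.comap (incl hFE)) = 0 := by
    rw [← map_natCast (Ideal.Quotient.mk (w.comap (incl hFE)))]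
    exact Ideal.Quotient.eq_zero_iff_mem.mpr hℓv
  have : CharP (𝓞 F ⧸ w.comap (incl hFE)) ℓ := (CharP.charP_iff_prime_eq_zero hℓ).mpr h0
  have hge : ℓ ≤ Nat.card (𝓞 F ⧸ w.comap (incl hFE)) := by
    have h1 := Nat.card_le_card_of_injective _
      (ZMod.castHom (dvd_refl ℓ) (𝓞 F ⧸ w.comap (incl hFE))).injective
    rwa [Nat.card_zmod] at h1
  rw [Ideal.absNorm_apply, Submodule.cardQuot_apply]
  exact le_antisymm hle hge

/-! ### 6. the cyclic polynomial of the subgroup `⟨τ ^ d⟩` -/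

/-- `∏_{t < n / d} (X - (τ ^ d) ^ t x₁)`. -/
noncomputable def cycPoly (τ : GQ) (x₁ : Qb) (n d : ℕ) : Qb[X] :=
  ∏ t ∈ Finset.range (n / d), (X - C (((τ ^ d) ^ t) x₁))

theorem cycPoly_coeffs_fixed (τ : GQ) (x₁ : Qb) (n d : ℕ) (hd : d ∣ n) (h : (τ ^ n) x₁ = x₁) :
    ∀ c ∈ (cycPoly τ x₁ n d).coeffs, (τ ^ d) c = c := by
  intro c hc
  obtain ⟨k, -, rfl⟩ := Polynomial.mem_coeffs_iff.mp hc
  have h' : ((τ ^ d) ^ (n / d)) x₁ = x₁ := by
    rw [← pow_mul, Nat.mul_div_cancel' hd]; exact h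
  have h2 := congrArg (fun p : Qb[X] => p.coeff k) (map_prod_pow (τ ^ d) (n / d) x₁ h')
  simp only [Polynomial.coeff_map] at h2
  exact h2

theorem cycPoly_coeffs_mem (T : Subring Qb) (τ : GQ) (x₁ : Qb) (n d : ℕ)
    (hT : ∀ g : GQ, g x₁ ∈ T) : ∀ c ∈ (cycPoly τ x₁ n d).coeffs, c ∈ T := by
  intro c hc
  obtain ⟨k, -, rfl⟩ := Polynomial.mem_coeffs_iff.mp hc
  exact coeff_prod_X_sub_C_mem T (Finset.range (n / d)) (fun t => ((τ ^ d) ^ t) x₁)
    (fun t _ => hT _) k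

theorem exists_pow_of_fix_coeffs (τ : GQ) (x₁ : Qb) (n d : ℕ) (hnd : 0 < n / d) (σ : GQ)
    (hσ : ∀ c ∈ (cycPoly τ x₁ n d).coeffs, σ c = c) :
    ∃ t < n / d, σ x₁ = (τ ^ (d * t)) x₁ := by
  have hmap : (cycPoly τ x₁ n d).map ((σ : Qb →ₐ[ℚ] Qb) : Qb →+* Qb) = cycPoly τ x₁ n d := by
    ext k
    rw [Polynomial.coeff_map]
    by_cases hk : (cycPoly τ x₁ n d).coeff k = 0
    · rw [hk, map_zero]
    · exact hσ _ (Polynomial.coeff_mem_coeffs hk)
  have hroot : (cycPoly τ x₁ n d).eval x₁ = 0 := by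
    unfold cycPoly
    rw [eval_prod]
    apply Finset.prod_eq_zero (Finset.mem_range.mpr hnd)
    simp
  have h2 : (cycPoly τ x₁ n d).eval (σ x₁) = 0 := by
    have h3 : ((cycPoly τ x₁ n d).map ((σ : Qb →ₐ[ℚ] Qb) : Qb →+* Qb)).eval (σ x₁) =
        σ ((cycPoly τ x₁ n d).eval x₁) := by
      rw [Polynomial.eval_map]
      exact Polynomial.eval₂_at_apply ((σ : Qb →ₐ[ℚ] Qb) : Qb →+* Qb) x₁
    rw [hmap, hroot, map_zero] at h3
    exact h3
  unfold cycPoly at h2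
  rw [eval_prod, Finset.prod_eq_zero_iff] at h2
  obtain ⟨t, ht, h4⟩ := h2
  rw [eval_sub, eval_X, eval_C, sub_eq_zero] at h4
  exact ⟨t, Finset.mem_range.mp ht, by rw [h4, pow_mul]⟩

/-! ### 7. the exact order -/

theorem exists_order (S : Finset Qb) (hS : ∀ g : GQ, ∀ x ∈ S, g x ∈ S) (τ : GQ) :
    ∃ n : ℕ, 0 < n ∧ (∀ x ∈ S, (τ ^ n) x = x) ∧
      ∀ a : ℕ, 0 < a → a < n → ¬ ∀ x ∈ S, (τ ^ a) x = x := by
  classical
  have hex : ∃ m : ℕ, 0 < m ∧ ∀ x ∈ S, (τ ^ m) x = x := by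
    let f : ℕ → (S → S) := fun k x => ⟨(τ ^ k) x.1, hS _ _ x.2⟩
    obtain ⟨a, b, hab, hf⟩ := Finite.exists_ne_map_eq_of_infinite f
    have key : ∀ a b : ℕ, a < b → f a = f b → ∃ m : ℕ, 0 < m ∧ ∀ x ∈ S, (τ ^ m) x = x := by
      intro a b hlt hf
      refine ⟨b - a, by omega, fun x hx => ?_⟩
      have h1 : (τ ^ a) x = (τ ^ b) x := congrArg Subtype.val (congrFun hf ⟨x, hx⟩)
      have e : b = a + (b - a) := by omega
      rw [e, pow_add, AlgEquiv.mul_apply] at h1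
      exact ((τ ^ a).injective h1).symm
    rcases lt_or_gt_of_ne hab with h | h
    · exact key a b h hf
    · exact key b a h hf.symm
  refine ⟨Nat.find hex, (Nat.find_spec hex).1, (Nat.find_spec hex).2, fun a ha han hcon => ?_⟩
  exact Nat.find_min hex han ⟨ha, hcon⟩

end Fermat.Agent.S29.FDB
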