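/-
S29 block [FD], hedge route B (helper62): generator-Frobenius density.

For a finite Galois-stable set `S ⊆ ℚ̄` and ANY `τ ∈ Gal(ℚ̄/ℚ)` there are arbitrarily large
primes `ℓ` with a Frobenius element `σ` (at a valuation subring over `ℓ`) such that `τ = σ ^ j`
on `S`.

Route: `n` = exact order of `τ` on `K = ℚ(S)`, `F = K^τ`; every prime-norm prime `v` of `F` of
large norm gets a prime `Q_v` of the ring of all algebraic integers, a Frobenius `σ_v` and an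
index `i(v) < n` with `σ_v = τ ^ i(v)` on `K`.  For `d ∣ n` the prime-norm primes of the fixed
field of `τ ^ d` are in norm-preserving bijection with `{v | d ∣ i(v)} × Fin d`
(`exists_bijection`), hence carry `d` times the mass of `{v | d ∣ i(v)}`; the two-sided pole
estimate and inclusion-exclusion over the primes dividing `n` (`FDBAn.lean`) give a `v` with
`gcd (i(v), n) = 1`.
-/
import Mathlib
import Fermat.Prelude.Def_EllipticCurve_FrobeniusTrace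
import Fermat.Prelude.Def_FLTPrelim_Ramification
import Fermat.Agent.S29.FDBCore
import Fermat.Agent.S29.FDBAn

set_option autoImplicit false

namespace Fermat.Agent.S29.FDB

open NumberField IsDedekindDomain Polynomial Filter Topology
open scoped IntermediateField
open Fermat.Agent.S54 Fermat.Agent.S41 Fermat.Agent.S41.FL

local notation "Qb" => AlgebraicClosure ℚ
local notation "GQ" => (AlgebraicClosure ℚ ≃ₐ[ℚ] AlgebraicClosure ℚ)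
local notation "Zb" => integralClosure ℤ (AlgebraicClosure ℚ)

attribute [local instance] isAlgebraic_int_algebraicClosure_rat

/-- the good primes of a number field: prime norm, norm `> B₀`. -/
abbrev Good (E : Type*) [Field E] [NumberField E] (B₀ : ℕ) : Type _ :=
  {w : HeightOneSpectrum (𝓞 E) //
    (Ideal.absNorm w.asIdeal).Prime ∧ B₀ < Ideal.absNorm w.asIdeal}

theorem coe_mem_nonunits_valSub (Q : Ideal Zb) [hQ : Q.IsPrime] (z : Zb) (hz : z ∈ Q) :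
    (z : Qb) ∈ (valSub Q).nonunits :=
  mem_nonunits_valSub Q z 1 hz ((Ideal.ne_top_iff_one Q).mp hQ.ne_top) (by simp)

/-! ### 1. facts about the coefficients of `cycPoly` -/

section coeffs

variable (K : IntermediateField ℚ Qb) (τ : GQ) (n : ℕ) (x₁ : Qb)

theorem cycPoly_coeff_mem_K (hK : ∀ g : GQ, ∀ x ∈ K, g x ∈ K) (hx₁K : x₁ ∈ K) (d : ℕ) :
    ∀ c ∈ (cycPoly τ x₁ n d).coeffs, c ∈ K :=
  cycPoly_coeffs_mem K.toSubring τ x₁ n d (fun g => hK g x₁ hx₁K)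

theorem cycPoly_coeff_integral (hx₁int : IsIntegral ℤ x₁) (d : ℕ) :
    ∀ c ∈ (cycPoly τ x₁ n d).coeffs, IsIntegral ℤ c :=
  cycPoly_coeffs_mem (integralClosure ℤ Qb).toSubring τ x₁ n d
    (fun g => map_isIntegral_int g hx₁int)

theorem cycPoly_coeff_mem_fixE (hK : ∀ g : GQ, ∀ x ∈ K, g x ∈ K) (hτn : ∀ x ∈ K, (τ ^ n) x = x)
    (hx₁K : x₁ ∈ K) (d : ℕ) (hd : d ∣ n) :
    ∀ c ∈ (cycPoly τ x₁ n d).coeffs, c ∈ fixE K τ d := fun c hc =>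
  mem_fixE.mpr ⟨cycPoly_coeff_mem_K K τ n x₁ hK hx₁K d c hc,
    cycPoly_coeffs_fixed τ x₁ n d hd (hτn x₁ hx₁K) c hc⟩

end coeffs

/-! ### 2. Frobenius is trivial modulo `Q` on the fixed field of `τ ^ d` when `d ∣ i` -/

theorem frob_mem (K : IntermediateField ℚ Qb) (τ : GQ) (d : ℕ) (ℓ : ℕ) (Q : Ideal Zb)
    (σ : GQ) (hσ : ∀ b c : Zb, (c : Qb) = σ b → c - b ^ ℓ ∈ Q)
    (i : ℕ) (hi : ∀ x ∈ K, σ x = (τ ^ i) x) (hdi : d ∣ i) :
    ∀ c : Zb, (c : Qb) ∈ fixE K τ d → c ^ ℓ - c ∈ Q := by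
  intro c hc
  have h1 : (c : Qb) = σ c := by
    rw [hi _ (fixE_le K τ d hc), fixE_fixed_of_dvd hdi _ hc]
  have h2 := hσ c c h1
  have e : c ^ ℓ - c = -(c - c ^ ℓ) := by ring
  rw [e]
  exact Q.neg_mem h2

/-! ### 3. injectivity -/

theorem inj_aux (K : IntermediateField ℚ Qb) [NumberField K] (τ : GQ) (n : ℕ) (x₁ : Qb)
    (D : Finset Qb) (hn : 0 < n) (hK : ∀ g : GQ, ∀ x ∈ K, g x ∈ K)
    (hτn : ∀ x ∈ K, (τ ^ n) x = x) (hx₁K : x₁ ∈ K) (hx₁int : IsIntegral ℤ x₁)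
    (hexact : ∀ a b : ℕ, a < n → b < n → (τ ^ a) x₁ = (τ ^ b) x₁ → a = b)
    (hDstab : ∀ g : GQ, ∀ y ∈ D, g y ∈ D)
    (d : ℕ) (hd : d ∣ n) (hDc : ∀ c ∈ (cycPoly τ x₁ n d).coeffs, c ∈ D)
    (ℓ : ℕ) (hℓ : ℓ.Prime) (Q : Ideal Zb) [hQ : Q.IsPrime] (hℓQ : (ℓ : Zb) ∈ Q)
    (hdist : ∀ y ∈ D, ∀ y' ∈ D, y - y' ∈ (valSub Q).nonunits → y = y')
    (hE : ∀ c : Zb, (c : Qb) ∈ fixE K τ d → c ^ ℓ - c ∈ Q)
    (k k' : ℕ) (hkk' : k < k') (hk'd : k' < d)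
    (h : Q.comap ((galZb (τ ^ k)).comp (iota (fixE K τ d))) =
      Q.comap ((galZb (τ ^ k')).comp (iota (fixE K τ d)))) : False := by
  have hd0 : 0 < d := Nat.pos_of_dvd_of_pos hd hn
  have hdn : d ≤ n := Nat.le_of_dvd hn hd
  have hnd : 0 < n / d := Nat.div_pos hdn hd0
  obtain ⟨m, hm⟩ : ∃ m, m = k' - k := ⟨_, rfl⟩
  have hfix : ∀ c ∈ (cycPoly τ x₁ n d).coeffs, (τ ^ m) c = c := by
    intro c hc
    have hcint := cycPoly_coeff_integral τ n x₁ hx₁int d c hc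
    have hcE := cycPoly_coeff_mem_fixE K τ n x₁ hK hτn hx₁K d hd c hc
    obtain ⟨b, hb⟩ : ∃ b : Zb, b = galZb ((τ ^ k)⁻¹) ⟨c, hcint⟩ := ⟨_, rfl⟩
    have hbcoe : (b : Qb) = ((τ ^ k)⁻¹ : GQ) c := by rw [hb]; rfl
    have hbE : (b : Qb) ∈ fixE K τ d := by
      rw [hbcoe]; exact fixE_stable_inv hK k c hcE
    have h1 := sub_mem_of_comap_eq (fixE K τ d) (τ ^ k) (τ ^ k') (fixE_stable hK k) ℓ hℓ Q hℓQ
      hE h b hbE
    have e1 : ((galZb (τ ^ k) b : Zb) : Qb) = c := by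
      rw [galZb_coe, hbcoe, ← AlgEquiv.mul_apply, mul_inv_cancel, AlgEquiv.one_apply]
    have e2 : ((galZb (τ ^ k') b : Zb) : Qb) = (τ ^ m) c := by
      have e : k' = m + k := by omega
      rw [galZb_coe, hbcoe, e, pow_add, AlgEquiv.mul_apply, ← AlgEquiv.mul_apply (τ ^ k),
        mul_inv_cancel, AlgEquiv.one_apply]
    have h2 := coe_mem_nonunits_valSub Q _ h1
    have h3 : (τ ^ m) c - c ∈ (valSub Q).nonunits := by
      have e : (((galZb (τ ^ k') b - galZb (τ ^ k) b : Zb)) : Qb) = (τ ^ m) c - c := by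
        push_cast; rw [e1, e2]
      rw [← e]; exact h2
    exact hdist _ (hDstab _ c (hDc c hc)) c (hDc c hc) h3
  obtain ⟨t, ht, hx⟩ := exists_pow_of_fix_coeffs τ x₁ n d hnd (τ ^ m) hfix
  have hdt : d * t < n := by
    calc d * t < d * (n / d) := (Nat.mul_lt_mul_left hd0).mpr ht
      _ = n := Nat.mul_div_cancel' hd
  have hmn : m < n := by omega
  have hmt := hexact m (d * t) hmn hdt hx
  rcases Nat.eq_zero_or_pos t with h0 | htpos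
  · rw [h0] at hmt; omega
  · have : d ≤ d * t := Nat.le_mul_of_pos_right d htpos
    omega

/-! ### 4. surjectivity -/

theorem surj_data (K : IntermediateField ℚ Qb) [NumberField K] (τ : GQ) (n : ℕ) (x₁ : Qb)
    (D : Finset Qb) (hn : 0 < n) (hK : ∀ g : GQ, ∀ x ∈ K, g x ∈ K)
    (hτn : ∀ x ∈ K, (τ ^ n) x = x) (hx₁K : x₁ ∈ K) (hx₁int : IsIntegral ℤ x₁)
    (hexact : ∀ a b : ℕ, a < n → b < n → (τ ^ a) x₁ = (τ ^ b) x₁ → a = b)
    (hDstab : ∀ g : GQ, ∀ y ∈ D, g y ∈ D)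
    (d : ℕ) (hd : d ∣ n) (hDc : ∀ c ∈ (cycPoly τ x₁ n d).coeffs, c ∈ D)
    (ℓ : ℕ) (hℓ : ℓ.Prime) (Q : Ideal Zb) [hQ : Q.IsPrime] (hℓQ : (ℓ : Zb) ∈ Q)
    (hdist : ∀ y ∈ D, ∀ y' ∈ D, y - y' ∈ (valSub Q).nonunits → y = y')
    (σ : GQ) (hσ : ∀ b c : Zb, (c : Qb) = σ b → c - b ^ ℓ ∈ Q)
    (i : ℕ) (hin : i < n) (hi : ∀ x ∈ K, σ x = (τ ^ i) x)
    (w : Ideal (𝓞 (fixE K τ d))) [hw : w.IsPrime] (hwN : Ideal.absNorm w = ℓ)
    (hQw : Q.comap (iota (fixE K τ 1)) = w.comap (incl (fixE_one_le K τ d))) :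
    d ∣ i ∧ ∃ k < d, w = Q.comap ((galZb (τ ^ k)).comp (iota (fixE K τ d))) := by
  classical
  have hd0 : 0 < d := Nat.pos_of_dvd_of_pos hd hn
  have hdn : d ≤ n := Nat.le_of_dvd hn hd
  have hnd : 0 < n / d := Nat.div_pos hdn hd0
  -- a prime of `Zb` over `w`
  obtain ⟨Q', hQ'prime, hQ'w⟩ : ∃ Q' : Ideal Zb, Q'.IsPrime ∧ Q'.comap (iota (fixE K τ d)) = w := by
    let _ : Algebra (𝓞 (fixE K τ d)) Zb := (iota (fixE K τ d)).toAlgebra
    have hint : Algebra.IsIntegral (𝓞 (fixE K τ d)) Zb :=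
      ⟨fun z => (Algebra.IsIntegral.isIntegral (R := ℤ) z).tower_top⟩
    obtain ⟨Q', hQ'prime, hQ'v⟩ := Ideal.exists_ideal_over_prime_of_isIntegral_of_isDomain
      (S := Zb) w (by
        show RingHom.ker (iota (fixE K τ d)) ≤ w
        rw [(RingHom.injective_iff_ker_eq_bot _).mp (iota_injective (fixE K τ d))]
        exact bot_le)
    exact ⟨Q', hQ'prime, hQ'v⟩
  have hℓw : (ℓ : 𝓞 (fixE K τ d)) ∈ w := by
    have := Ideal.absNorm_mem w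
    rwa [hwN] at this
  have hℓQ' : (ℓ : Zb) ∈ Q' := by
    rw [← hQ'w, Ideal.mem_comap, map_natCast] at hℓw
    exact hℓw
  have hQQ' : Q'.comap (iota (fixE K τ 1)) ≤ Q.comap (iota (fixE K τ 1)) := by
    rw [hQw]
    intro b hb
    rw [Ideal.mem_comap] at hb ⊢
    rw [← hQ'w, Ideal.mem_comap, iota_incl]
    exact hb
  obtain ⟨k₀, -, hconj⟩ := exists_pow_conj (fixE K τ 1) K τ n hn (fun x hx => hK τ x hx) hτn
    (fun x hx h => mem_fixE.mpr ⟨hx, by rwa [pow_one]⟩) ℓ hℓ Q Q' hℓQ hℓQ' hQQ'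
  have hkd : k₀ % d < d := Nat.mod_lt _ hd0
  have hmemw : ∀ b' : 𝓞 (fixE K τ d),
      b' ∈ w ↔ galZb (τ ^ (k₀ % d)) (iota (fixE K τ d) b') ∈ Q := by
    intro b'
    have e : galZb (τ ^ k₀) (iota (fixE K τ d) b') =
        galZb (τ ^ (k₀ % d)) (iota (fixE K τ d) b') :=
      Subtype.ext (fixE_pow_mod k₀ _ (b' : fixE K τ d).2)
    rw [← hQ'w, Ideal.mem_comap,
      hconj (iota (fixE K τ d) b') (fixE_le K τ d (b' : fixE K τ d).2), e]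
  have hw_eq : w = Q.comap ((galZb (τ ^ (k₀ % d))).comp (iota (fixE K τ d))) :=
    Ideal.ext fun b' => by rw [hmemw]; rfl
  -- `d ∣ i`
  have hfix : ∀ c ∈ (cycPoly τ x₁ n d).coeffs, (τ ^ i) c = c := by
    intro c hc
    have hcint := cycPoly_coeff_integral τ n x₁ hx₁int d c hc
    have hcE := cycPoly_coeff_mem_fixE K τ n x₁ hK hτn hx₁K d hd c hc
    have hcK : c ∈ K := fixE_le K τ d hcE
    obtain ⟨b', hb'⟩ := exists_iota_eq (fixE K τ d) ⟨c, hcint⟩ hcE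
    obtain ⟨a, -, ha⟩ := exists_nat_sub_mem_of_absNorm w ℓ hℓ hwN b'
    obtain ⟨c₁, hc₁⟩ : ∃ c₁ : Zb, c₁ = galZb (τ ^ (k₀ % d)) ⟨c, hcint⟩ := ⟨_, rfl⟩
    have hc₁coe : (c₁ : Qb) = (τ ^ (k₀ % d)) c := by rw [hc₁]; rfl
    have h1 : c₁ - (a : Zb) ∈ Q := by
      have := (hmemw (b' - (a : 𝓞 (fixE K τ d)))).mp ha
      rwa [map_sub, map_natCast, map_sub, map_natCast, hb', ← hc₁] at this
    have h2 := hσ c₁ (galZb σ c₁) rfl
    have h3 : c₁ ^ ℓ - (a : Zb) ^ ℓ ∈ Q := by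
      obtain ⟨u, hu⟩ := sub_dvd_pow_sub_pow c₁ (a : Zb) ℓ
      rw [hu]; exact Q.mul_mem_right _ h1
    have h4 : (a : Zb) - (a : Zb) ^ ℓ ∈ Q := hσ (a : Zb) (a : Zb) (by simp)
    have h5 : galZb σ c₁ - c₁ ∈ Q := by
      have e : galZb σ c₁ - c₁ = (galZb σ c₁ - c₁ ^ ℓ) + (c₁ ^ ℓ - (a : Zb) ^ ℓ) -
          ((a : Zb) - (a : Zb) ^ ℓ) - (c₁ - (a : Zb)) := by ring
      rw [e]
      exact Q.sub_mem (Q.sub_mem (Q.add_mem h2 h3) h4) h1
    have h6 := coe_mem_nonunits_valSub Q _ h5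
    have hc₁D : (τ ^ (k₀ % d)) c ∈ D := hDstab _ c (hDc c hc)
    have h7 : σ ((τ ^ (k₀ % d)) c) = (τ ^ (k₀ % d)) c := by
      apply hdist _ (hDstab σ _ hc₁D) _ hc₁D
      have e : (((galZb σ c₁ - c₁ : Zb)) : Qb) = σ ((τ ^ (k₀ % d)) c) - (τ ^ (k₀ % d)) c := by
        push_cast; rw [galZb_coe, hc₁coe]
      rw [← e]; exact h6
    have h8 : (τ ^ i) ((τ ^ (k₀ % d)) c) = (τ ^ (k₀ % d)) c := by
      rw [← hi _ (hK _ c hcK)]; exact h7
    rw [pow_apply_comm] at h8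
    exact (τ ^ (k₀ % d)).injective h8
  obtain ⟨t, ht, hx⟩ := exists_pow_of_fix_coeffs τ x₁ n d hnd (τ ^ i) hfix
  have hdt : d * t < n := by
    calc d * t < d * (n / d) := (Nat.mul_lt_mul_left hd0).mpr ht
      _ = n := Nat.mul_div_cancel' hd
  have hit := hexact i (d * t) hin hdt hx
  exact ⟨⟨t, hit⟩, k₀ % d, hkd, hw_eq⟩

/-! ### 5. the Frobenius index of a good prime of `F = K^τ` -/

theorem exists_frob_index (K : IntermediateField ℚ Qb) [NumberField K] (τ : GQ) (n : ℕ)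
    (x₁ : Qb) (D : Finset Qb) (hn : 0 < n) (hK : ∀ g : GQ, ∀ x ∈ K, g x ∈ K)
    (hτn : ∀ x ∈ K, (τ ^ n) x = x) (hx₁K : x₁ ∈ K) (hx₁int : IsIntegral ℤ x₁)
    (hprim : ∀ g₁ g₂ : GQ, g₁ x₁ = g₂ x₁ → ∀ x ∈ K, g₁ x = g₂ x)
    (hDstab : ∀ g : GQ, ∀ y ∈ D, g y ∈ D)
    (hDc : ∀ c ∈ (cycPoly τ x₁ n 1).coeffs, c ∈ D)
    (B₀ : ℕ) (hB₀ : ∀ ℓ : ℕ, ℓ.Prime → B₀ < ℓ → ∀ A : ValuationSubring Qb,
      (ℓ : Qb) ∈ A.nonunits → ∀ y ∈ D, ∀ y' ∈ D, y - y' ∈ A.nonunits → y = y')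
    (v : Good (fixE K τ 1) B₀) :
    ∃ (Q : Ideal Zb) (_ : Q.IsPrime) (σ : GQ) (i : ℕ),
      Q.comap (iota (fixE K τ 1)) = v.1.asIdeal ∧
      (∀ b c : Zb, (c : Qb) = σ b → c - b ^ (Ideal.absNorm v.1.asIdeal) ∈ Q) ∧
      (valSub Q).IsFrobeniusAt σ (Ideal.absNorm v.1.asIdeal) ∧
      i < n ∧ ∀ x ∈ K, σ x = (τ ^ i) x := by
  classical
  rcases v with ⟨v, hvp, hvB⟩
  show ∃ (Q : Ideal Zb) (_ : Q.IsPrime) (σ : GQ) (i : ℕ),
      Q.comap (iota (fixE K τ 1)) = v.asIdeal ∧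
      (∀ b c : Zb, (c : Qb) = σ b → c - b ^ (Ideal.absNorm v.asIdeal) ∈ Q) ∧
      (valSub Q).IsFrobeniusAt σ (Ideal.absNorm v.asIdeal) ∧
      i < n ∧ ∀ x ∈ K, σ x = (τ ^ i) x
  obtain ⟨ℓ, hℓdef⟩ : ∃ ℓ : ℕ, ℓ = Ideal.absNorm v.asIdeal := ⟨_, rfl⟩
  rw [← hℓdef] at hvp hvB ⊢
  let _ : Algebra (𝓞 (fixE K τ 1)) Zb := (iota (fixE K τ 1)).toAlgebra
  have hint : Algebra.IsIntegral (𝓞 (fixE K τ 1)) Zb :=
    ⟨fun z => (Algebra.IsIntegral.isIntegral (R := ℤ) z).tower_top⟩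
  have hvprime : v.asIdeal.IsPrime := v.isPrime
  obtain ⟨Q, hQprime, hQv⟩ := Ideal.exists_ideal_over_prime_of_isIntegral_of_isDomain
    (S := Zb) v.asIdeal (by
      show RingHom.ker (iota (fixE K τ 1)) ≤ v.asIdeal
      rw [(RingHom.injective_iff_ker_eq_bot _).mp (iota_injective (fixE K τ 1))]
      exact bot_le)
  have hQv' : Q.comap (iota (fixE K τ 1)) = v.asIdeal := hQv
  have hℓQ : (ℓ : Zb) ∈ Q := by
    have h1 : (ℓ : 𝓞 (fixE K τ 1)) ∈ v.asIdeal := hℓdef ▸ Ideal.absNorm_mem v.asIdeal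
    rw [← hQv', Ideal.mem_comap, map_natCast] at h1
    exact h1
  obtain ⟨σ, hσ, hfrob⟩ := FrobA.exists_frob_valSub ℓ hvp Q hℓQ
  have hdist : ∀ y ∈ D, ∀ y' ∈ D, y - y' ∈ (valSub Q).nonunits → y = y' :=
    hB₀ ℓ hvp hvB (valSub Q) (FrobA.natCast_mem_nonunits_valSub ℓ Q hℓQ)
  have hfix : ∀ c ∈ (cycPoly τ x₁ n 1).coeffs, σ c = c := by
    intro c hc
    have hcint := cycPoly_coeff_integral τ n x₁ hx₁int 1 c hc
    have hcF := cycPoly_coeff_mem_fixE K τ n x₁ hK hτn hx₁K 1 (one_dvd n) c hc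
    obtain ⟨b, hb⟩ := exists_iota_eq (fixE K τ 1) ⟨c, hcint⟩ hcF
    have h1 : (⟨c, hcint⟩ : Zb) ^ ℓ - ⟨c, hcint⟩ ∈ Q := by
      have h := pow_absNorm_sub_mem v b
      rw [← hℓdef, ← hQv', Ideal.mem_comap, map_sub, map_pow, hb] at h
      exact h
    have h2 := hσ ⟨c, hcint⟩ (galZb σ ⟨c, hcint⟩) rfl
    have h3 : galZb σ ⟨c, hcint⟩ - (⟨c, hcint⟩ : Zb) ∈ Q := by
      have e : galZb σ ⟨c, hcint⟩ - (⟨c, hcint⟩ : Zb) =
          (galZb σ ⟨c, hcint⟩ - (⟨c, hcint⟩ : Zb) ^ ℓ) +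
            ((⟨c, hcint⟩ : Zb) ^ ℓ - ⟨c, hcint⟩) := by ring
      rw [e]; exact Q.add_mem h2 h1
    have h4 := coe_mem_nonunits_valSub Q _ h3
    exact hdist (σ c) (hDstab σ c (hDc c hc)) c (hDc c hc) h4
  obtain ⟨t, ht, hx⟩ := exists_pow_of_fix_coeffs τ x₁ n 1 (by rw [Nat.div_one]; exact hn) σ hfix
  rw [Nat.div_one] at ht
  rw [one_mul] at hx
  exact ⟨Q, hQprime, σ, t, hQv', hσ, hfrob, ht, hprim σ (τ ^ t) hx⟩

/-! ### 6. the bijection -/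

theorem exists_bijection (K : IntermediateField ℚ Qb) [NumberField K] (τ : GQ) (n : ℕ)
    (x₁ : Qb) (D : Finset Qb) (hn : 0 < n) (hK : ∀ g : GQ, ∀ x ∈ K, g x ∈ K)
    (hτn : ∀ x ∈ K, (τ ^ n) x = x) (hx₁K : x₁ ∈ K) (hx₁int : IsIntegral ℤ x₁)
    (hexact : ∀ a b : ℕ, a < n → b < n → (τ ^ a) x₁ = (τ ^ b) x₁ → a = b)
    (hDstab : ∀ g : GQ, ∀ y ∈ D, g y ∈ D)
    (d : ℕ) (hd : d ∣ n) (hDc : ∀ c ∈ (cycPoly τ x₁ n d).coeffs, c ∈ D)
    (B₀ : ℕ) (hB₀ : ∀ ℓ : ℕ, ℓ.Prime → B₀ < ℓ → ∀ A : ValuationSubring Qb,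
      (ℓ : Qb) ∈ A.nonunits → ∀ y ∈ D, ∀ y' ∈ D, y - y' ∈ A.nonunits → y = y')
    (Q : Good (fixE K τ 1) B₀ → Ideal Zb) (hQ : ∀ v, (Q v).IsPrime)
    (σ : Good (fixE K τ 1) B₀ → GQ) (idx : Good (fixE K τ 1) B₀ → ℕ)
    (hQv : ∀ v, (Q v).comap (iota (fixE K τ 1)) = v.1.asIdeal)
    (hσ : ∀ v, ∀ b c : Zb, (c : Qb) = σ v b → c - b ^ (Ideal.absNorm v.1.asIdeal) ∈ Q v)
    (hidx : ∀ v, idx v < n) (hi : ∀ v, ∀ x ∈ K, σ v x = (τ ^ idx v) x) :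
    ∃ Φ : {v : Good (fixE K τ 1) B₀ // d ∣ idx v} × Fin d → Good (fixE K τ d) B₀,
      Function.Bijective Φ ∧
        ∀ x, Ideal.absNorm (Φ x).1.asIdeal = Ideal.absNorm x.1.1.1.asIdeal := by
  classical
  have hℓQ : ∀ v : Good (fixE K τ 1) B₀, ((Ideal.absNorm v.1.asIdeal : ℕ) : Zb) ∈ Q v := by
    intro v
    have h1 : ((Ideal.absNorm v.1.asIdeal : ℕ) : 𝓞 (fixE K τ 1)) ∈ v.1.asIdeal :=
      Ideal.absNorm_mem v.1.asIdeal
    have h2 : ((Ideal.absNorm v.1.asIdeal : ℕ) : 𝓞 (fixE K τ 1)) ∈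
        (Q v).comap (iota (fixE K τ 1)) := by rw [hQv v]; exact h1
    rw [Ideal.mem_comap, map_natCast] at h2
    exact h2
  have hnorm : ∀ v : Good (fixE K τ 1) B₀,
      Ideal.absNorm ((Q v).comap (iota (fixE K τ 1))) = Ideal.absNorm v.1.asIdeal := fun v => by
    rw [hQv]
  have hdist : ∀ v : Good (fixE K τ 1) B₀, ∀ y ∈ D, ∀ y' ∈ D,
      y - y' ∈ (valSub (Q v)).nonunits → y = y' := fun v =>
    hB₀ _ v.2.1 v.2.2 (valSub (Q v)) (FrobA.natCast_mem_nonunits_valSub _ (Q v) (hℓQ v))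
  have hE : ∀ v : Good (fixE K τ 1) B₀, d ∣ idx v → ∀ c : Zb, (c : Qb) ∈ fixE K τ d →
      c ^ (Ideal.absNorm v.1.asIdeal) - c ∈ Q v := fun v hdv =>
    frob_mem K τ d _ (Q v) (σ v) (hσ v) (idx v) (hi v) hdv
  have hA : ∀ x : {v : Good (fixE K τ 1) B₀ // d ∣ idx v} × Fin d,
      ((Q x.1.1).comap ((galZb (τ ^ (x.2 : ℕ))).comp (iota (fixE K τ d)))).IsPrime ∧
      (Q x.1.1).comap ((galZb (τ ^ (x.2 : ℕ))).comp (iota (fixE K τ d))) ≠ ⊥ ∧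
      Ideal.absNorm ((Q x.1.1).comap ((galZb (τ ^ (x.2 : ℕ))).comp (iota (fixE K τ d)))) =
        Ideal.absNorm x.1.1.1.asIdeal ∧
      ((Q x.1.1).comap ((galZb (τ ^ (x.2 : ℕ))).comp (iota (fixE K τ d)))).comap
        (incl (fixE_one_le K τ d)) = (Q x.1.1).comap (iota (fixE K τ 1)) := fun x =>
    comap_prime_data (fixE K τ 1) (fixE K τ d) (fixE_one_le K τ d) (τ ^ (x.2 : ℕ))
      (fixE_stable hK _) (fun y hy => fixE_fixed_of_dvd (one_dvd _) y hy) _ x.1.1.2.1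
      (Q x.1.1) (hℓQ x.1.1) (hnorm x.1.1) (hE x.1.1 x.1.2)
  refine ⟨fun x => ⟨⟨_, (hA x).1, (hA x).2.1⟩, by rw [(hA x).2.2.1]; exact x.1.1.2.1,
    by rw [(hA x).2.2.1]; exact x.1.1.2.2⟩, ⟨?_, ?_⟩, fun x => (hA x).2.2.1⟩
  · -- injective
    rintro ⟨⟨v, hv⟩, k⟩ ⟨⟨v', hv'⟩, k'⟩ h
    have h1 : (Q v).comap ((galZb (τ ^ (k : ℕ))).comp (iota (fixE K τ d))) =
        (Q v').comap ((galZb (τ ^ (k' : ℕ))).comp (iota (fixE K τ d))) :=
      congrArg (fun w : Good (fixE K τ d) B₀ => w.1.asIdeal) h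
    have h2 : (Q v).comap (iota (fixE K τ 1)) = (Q v').comap (iota (fixE K τ 1)) := by
      rw [← (hA (⟨v, hv⟩, k)).2.2.2, ← (hA (⟨v', hv'⟩, k')).2.2.2]
      exact congrArg (fun I => Ideal.comap (incl (fixE_one_le K τ d)) I) h1
    rw [hQv, hQv] at h2
    have hvv' : v = v' := Subtype.ext (HeightOneSpectrum.ext h2)
    subst hvv'
    have hkk' : (k : ℕ) = (k' : ℕ) := by
      by_contra hne
      rcases lt_or_gt_of_ne hne with hlt | hlt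
      · exact inj_aux K τ n x₁ D hn hK hτn hx₁K hx₁int hexact hDstab d hd hDc _ v.2.1 (Q v)
          (hℓQ v) (hdist v) (hE v hv) k k' hlt k'.2 h1
      · exact inj_aux K τ n x₁ D hn hK hτn hx₁K hx₁int hexact hDstab d hd hDc _ v.2.1 (Q v)
          (hℓQ v) (hdist v) (hE v hv) k' k hlt k.2 h1.symm
    have : k = k' := Fin.ext hkk'
    subst this
    rfl
  · -- surjective
    rintro ⟨w, hwp, hwB⟩
    have hwprime : w.asIdeal.IsPrime := w.isPrime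
    have hvN : Ideal.absNorm (w.asIdeal.comap (incl (fixE_one_le K τ d))) =
        Ideal.absNorm w.asIdeal :=
      absNorm_comap_incl (fixE_one_le K τ d) w.asIdeal _ hwp rfl
    have hvprime : (w.asIdeal.comap (incl (fixE_one_le K τ d))).IsPrime :=
      Ideal.comap_isPrime _ _
    have hvbot : w.asIdeal.comap (incl (fixE_one_le K τ d)) ≠ ⊥ := by
      intro h
      rw [h, Ideal.absNorm_bot] at hvN
      exact hwp.ne_zero hvN.symm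
    obtain ⟨v, hvdef⟩ : ∃ v : Good (fixE K τ 1) B₀,
        v.1.asIdeal = w.asIdeal.comap (incl (fixE_one_le K τ d)) :=
      ⟨⟨⟨_, hvprime, hvbot⟩, by rw [hvN]; exact hwp, by rw [hvN]; exact hwB⟩, rfl⟩
    have hvw : Ideal.absNorm w.asIdeal = Ideal.absNorm v.1.asIdeal := by
      rw [hvdef, hvN]
    obtain ⟨hdi, k, hkd, hweq⟩ := surj_data K τ n x₁ D hn hK hτn hx₁K hx₁int hexact hDstab d hd
      hDc _ v.2.1 (Q v) (hℓQ v) (hdist v) (σ v) (hσ v) (idx v) (hidx v) (hi v) w.asIdeal hvw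
      (by rw [hQv, hvdef])
    refine ⟨(⟨v, hdi⟩, ⟨k, hkd⟩), ?_⟩
    apply Subtype.ext
    apply HeightOneSpectrum.ext
    exact hweq.symm

/-! ### 7. the mass identity -/

theorem tsum_eq_mul_of_bijective {α β : Type*} (d : ℕ) (Φ : α × Fin d → β)
    (hΦ : Function.Bijective Φ) (f : α → ℝ) (g : β → ℝ) (hfg : ∀ x, g (Φ x) = f x.1)
    (hg : Summable g) : ∑' b, g b = (d : ℝ) * ∑' a, f a := by
  have h1 : ∑' b, g b = ∑' x : α × Fin d, g (Φ x) :=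
    ((Equiv.ofBijective Φ hΦ).tsum_eq g).symm
  have hs : Summable fun x : α × Fin d => g (Φ x) :=
    (Equiv.ofBijective Φ hΦ).summable_iff.mpr hg
  have h2 : ∑' x : α × Fin d, g (Φ x) = ∑' a, ∑' k : Fin d, g (Φ (a, k)) :=
    hs.tsum_prod' (fun a => Summable.of_finite)
  rw [h1, h2, ← tsum_mul_left]
  refine tsum_congr fun a => ?_
  rw [tsum_fintype]
  simp only [hfg, Finset.sum_const, Finset.card_univ, Fintype.card_fin, nsmul_eq_mul]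

/-! ### 8. generator-Frobenius density -/

/-- **[FD]** an arbitrary element `τ` of the absolute Galois group agrees, on a finite
Galois-stable set `S`, with a power of a Frobenius element at an arbitrarily large prime. -/
theorem exists_frobenius_pow (S : Finset (AlgebraicClosure ℚ))
    (hS : ∀ σ : AlgebraicClosure ℚ ≃ₐ[ℚ] AlgebraicClosure ℚ, ∀ x ∈ S, σ x ∈ S)
    (τ : AlgebraicClosure ℚ ≃ₐ[ℚ] AlgebraicClosure ℚ) (B : ℕ) :
    ∃ (ℓ : ℕ) (A : ValuationSubring (AlgebraicClosure ℚ))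
      (σ : AlgebraicClosure ℚ ≃ₐ[ℚ] AlgebraicClosure ℚ) (j : ℕ),
      ℓ.Prime ∧ B < ℓ ∧ (ℓ : AlgebraicClosure ℚ) ∈ A.nonunits ∧ A.IsFrobeniusAt σ ℓ ∧
        ∀ x ∈ S, τ x = (σ ^ j) x := by
  classical
  have h0 : Algebra.IsAlgebraic ℚ Qb := AlgebraicClosure.isAlgebraic ℚ
  obtain ⟨K, hKdef⟩ : ∃ K : IntermediateField ℚ Qb,
      K = IntermediateField.adjoin ℚ (S : Set Qb) := ⟨_, rfl⟩
  have hSK : ∀ x ∈ S, x ∈ K := fun x hx => by
    rw [hKdef]; exact IntermediateField.subset_adjoin ℚ _ hx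
  have hK : ∀ g : GQ, ∀ x ∈ K, g x ∈ K := by
    rw [hKdef]; exact map_mem_adjoin (S : Set Qb) (fun g x hx => hS g x hx)
  have hKfd : FiniteDimensional ℚ K := by
    rw [hKdef]
    exact IntermediateField.finiteDimensional_adjoin (fun x _ => (h0.isAlgebraic x).isIntegral)
  have hKnf : NumberField K := numberField_of_fd K
  -- the order
  obtain ⟨n, hn, hτnS, hmin⟩ := exists_order S hS τ
  have hτn : ∀ x ∈ K, (τ ^ n) x = x := by
    rw [hKdef]; exact eqOn_adjoin (τ ^ n) 1 (S : Set Qb) (fun x hx => hτnS x hx)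
  -- the primitive element
  obtain ⟨x₁, hx₁K, hx₁int, hprim⟩ := exists_primitive_integral S
  rw [← hKdef] at hx₁K hprim
  have hexact0 : ∀ a : ℕ, 0 < a → a < n → (τ ^ a) x₁ ≠ x₁ := fun a ha han h =>
    hmin a ha han (fun x hx => hprim (τ ^ a) 1 h x (hSK x hx))
  have hexact : ∀ a b : ℕ, a < n → b < n → (τ ^ a) x₁ = (τ ^ b) x₁ → a = b := by
    have key : ∀ a b : ℕ, a ≤ b → b < n → (τ ^ a) x₁ = (τ ^ b) x₁ → a = b := by
      intro a b hab hbn h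
      by_contra hne
      have hlt : a < b := lt_of_le_of_ne hab hne
      apply hexact0 (b - a) (by omega) (by omega)
      have e : b = a + (b - a) := by omega
      rw [e, pow_add, AlgEquiv.mul_apply] at h
      exact ((τ ^ a).injective h).symm
    intro a b han hbn h
    rcases le_total a b with hab | hab
    · exact key a b hab hbn h
    · exact (key b a hab han h.symm).symm
  -- the distinctness set and the bound
  obtain ⟨D, hDdef⟩ : ∃ D : Finset Qb,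
      D = conjSet (n.divisors.biUnion fun d => (cycPoly τ x₁ n d).coeffs) := ⟨_, rfl⟩
  have hDstab : ∀ g : GQ, ∀ y ∈ D, g y ∈ D := fun g y hy => by
    rw [hDdef] at hy ⊢; exact conjSet_stable _ g hy
  have hDc : ∀ d, d ∣ n → ∀ c ∈ (cycPoly τ x₁ n d).coeffs, c ∈ D := fun d hd c hc => by
    rw [hDdef]
    exact subset_conjSet _ (Finset.mem_biUnion.mpr
      ⟨d, Nat.mem_divisors.mpr ⟨hd, hn.ne'⟩, hc⟩)
  obtain ⟨B₁, hB₁⟩ := exists_bound_eq_of_sub_mem_nonunits D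
  obtain ⟨B₀, hB₀def⟩ : ∃ B₀ : ℕ, B₀ = max B B₁ := ⟨_, rfl⟩
  have hBB₀ : B ≤ B₀ := by rw [hB₀def]; exact le_max_left _ _
  have hB₀ : ∀ ℓ : ℕ, ℓ.Prime → B₀ < ℓ → ∀ A : ValuationSubring Qb,
      (ℓ : Qb) ∈ A.nonunits → ∀ y ∈ D, ∀ y' ∈ D, y - y' ∈ A.nonunits → y = y' :=
    fun ℓ hℓ hlt => hB₁ ℓ hℓ (lt_of_le_of_lt (by rw [hB₀def]; exact le_max_right _ _) hlt)
  -- the choices
  have hdata := fun v : Good (fixE K τ 1) B₀ =>
    exists_frob_index K τ n x₁ D hn hK hτn hx₁K hx₁int hprim hDstab (hDc 1 (one_dvd n)) B₀ hB₀ v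
  choose Q hQ σ idx hQv hσ hfrob hidx hi using hdata
  -- the divisor estimates
  have hH : ∀ d : ℕ, d ∣ n → ∃ C : ℝ, ∀ᶠ s in 𝓝[>] (1 : ℝ),
      |(d : ℝ) * (∑' v : {v : Good (fixE K τ 1) B₀ // d ∣ idx v},
          (Ideal.absNorm v.1.1.asIdeal : ℝ) ^ (-s)) - Real.log (1 / (s - 1))| ≤ C := by
    intro d hd
    obtain ⟨Φ, hΦ, hΦN⟩ := exists_bijection K τ n x₁ D hn hK hτn hx₁K hx₁int hexact hDstab d hd
      (hDc d hd) B₀ hB₀ Q hQ σ idx hQv hσ hidx hi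
    obtain ⟨C, hC⟩ := primeNorm_two_sided (fixE K τ d) B₀
    refine ⟨C, ?_⟩
    filter_upwards [hC, self_mem_nhdsWithin] with s hs hs1
    have hs1' : (1 : ℝ) < s := hs1
    have key := tsum_eq_mul_of_bijective d Φ hΦ
      (fun v : {v : Good (fixE K τ 1) B₀ // d ∣ idx v} =>
        (Ideal.absNorm v.1.1.asIdeal : ℝ) ^ (-s))
      (fun w : Good (fixE K τ d) B₀ => (Ideal.absNorm w.1.asIdeal : ℝ) ^ (-s))
      (fun x => by simp only [hΦN x]) (summable_good (fixE K τ d) B₀ hs1')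
    rw [← key]
    exact hs
  obtain ⟨v, hv⟩ := exists_coprime_of_divisor_estimates
    (fun (s : ℝ) (v : Good (fixE K τ 1) B₀) => (Ideal.absNorm v.1.asIdeal : ℝ) ^ (-s)) idx n hn
    (fun s v => Real.rpow_nonneg (Nat.cast_nonneg _) _)
    (fun s hs => summable_good (fixE K τ 1) B₀ hs) hH
  -- conclusion
  have hℓQ : ((Ideal.absNorm v.1.asIdeal : ℕ) : Zb) ∈ Q v := by
    have h1 : ((Ideal.absNorm v.1.asIdeal : ℕ) : 𝓞 (fixE K τ 1)) ∈ v.1.asIdeal :=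
      Ideal.absNorm_mem v.1.asIdeal
    have h2 : ((Ideal.absNorm v.1.asIdeal : ℕ) : 𝓞 (fixE K τ 1)) ∈
        (Q v).comap (iota (fixE K τ 1)) := by rw [hQv v]; exact h1
    rw [Ideal.mem_comap, map_natCast] at h2
    exact h2
  have hpow : ∀ m : ℕ, ∀ x ∈ K, ((σ v) ^ m) x = ((τ ^ idx v) ^ m) x := by
    intro m
    induction m with
    | zero => intro x _; simp
    | succ m ih =>
      intro x hx
      rw [pow_succ, pow_succ, AlgEquiv.mul_apply, AlgEquiv.mul_apply, hi v x hx]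
      exact ih _ (hK _ x hx)
  have hj : ∃ j : ℕ, ∀ x ∈ K, τ x = ((σ v) ^ j) x := by
    rcases Nat.lt_or_ge 1 n with hn1 | hn1
    · obtain ⟨j, -, hj⟩ := Nat.exists_mul_mod_eq_one_of_coprime hv hn1
      refine ⟨j, fun x hx => ?_⟩
      rw [hpow j x hx, ← pow_mul]
      have e : idx v * j = n * (idx v * j / n) + 1 := by
        have := Nat.div_add_mod (idx v * j) n
        omega
      rw [e, pow_succ, AlgEquiv.mul_apply, pow_mul]
      exact (pow_apply_of_fixed (τ ^ n) _ (hτn _ (hK τ x hx)) _).symm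
    · have hn1' : n = 1 := by omega
      refine ⟨0, fun x hx => ?_⟩
      have := hτn x hx
      rw [hn1', pow_one] at this
      rw [this]; simp
  obtain ⟨j, hj⟩ := hj
  exact ⟨Ideal.absNorm v.1.asIdeal, valSub (Q v), σ v, j, v.2.1, lt_of_le_of_lt hBB₀ v.2.2,
    FrobA.natCast_mem_nonunits_valSub _ (Q v) hℓQ, hfrob v, fun x hx => hj x (hSK x hx)⟩

/-- **[FD]**, `LiesOverPrime` form. -/
theorem exists_frobenius_pow' (S : Finset (AlgebraicClosure ℚ))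
    (hS : ∀ σ : AlgebraicClosure ℚ ≃ₐ[ℚ] AlgebraicClosure ℚ, ∀ x ∈ S, σ x ∈ S)
    (τ : AlgebraicClosure ℚ ≃ₐ[ℚ] AlgebraicClosure ℚ) (B : ℕ) :
    ∃ (ℓ : ℕ) (A : ValuationSubring (AlgebraicClosure ℚ))
      (σ : AlgebraicClosure ℚ ≃ₐ[ℚ] AlgebraicClosure ℚ) (j : ℕ),
      ℓ.Prime ∧ B < ℓ ∧ A.LiesOverPrime ℓ ∧ A.IsFrobeniusAt σ ℓ ∧
        ∀ x ∈ S, τ x = (σ ^ j) x :=
  exists_frobenius_pow S hS τ B

end Fermat.Agent.S29.FDB
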