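/-
S29 route, block [FD], top wrapper (helper5).

`PowStatement` is the consumer form of [FD] in the shape of the landed `S41/FL` / `S41/FLB`
(`exists_frobenius_of_prime_order` WITHOUT the prime-order hypotheses): for a finite
Galois-stable set `S ⊂ ℚ̄`, `τ ∈ Gal(ℚ̄/ℚ)` and a bound `B` there are a prime `ℓ > B`, a valuation
subring `A` of `ℚ̄` over `ℓ`, a Frobenius element `σ` at `A` and `j` with `τ = σ ^ j` on `S`.

`fdStatement_of_pow : PowStatement → FDStatement` is the wrapper to the block deliverable of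
`S29/Defs.lean` (arbitrary finite-dimensional `L`, arbitrary finite set of excluded primes).
Any route (A: `S29/FD.lean`, B: `S29/FDB*.lean`, C: `S29/FDC*.lean`) that proves `PowStatement`
closes [FD] through it.
-/
import Mathlib
import Fermat.Agent.S29.Defs
import Fermat.Agent.S41.FL

set_option autoImplicit false

namespace Fermat.Agent.S29.FDTop

open Fermat.Agent.S29

/-- [FD], consumer form in the `S41/FL` shape (general order). -/
def PowStatement : Prop :=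
  ∀ (S : Finset (AlgebraicClosure ℚ)),
    (∀ σ : AlgebraicClosure ℚ ≃ₐ[ℚ] AlgebraicClosure ℚ, ∀ x ∈ S, σ x ∈ S) →
    ∀ (τ : AlgebraicClosure ℚ ≃ₐ[ℚ] AlgebraicClosure ℚ) (B : ℕ),
      ∃ (ℓ : ℕ) (A : ValuationSubring (AlgebraicClosure ℚ))
        (σ : AlgebraicClosure ℚ ≃ₐ[ℚ] AlgebraicClosure ℚ) (j : ℕ),
        ℓ.Prime ∧ B < ℓ ∧ A.LiesOverPrime ℓ ∧ A.IsFrobeniusAt σ ℓ ∧
          ∀ x ∈ S, τ x = (σ ^ j) x

/-- the same with `(ℓ : ℚ̄) ∈ A.nonunits` spelled out (definitionally the same statement). -/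
theorem powStatement_iff :
    PowStatement ↔
      ∀ (S : Finset (AlgebraicClosure ℚ)),
        (∀ σ : AlgebraicClosure ℚ ≃ₐ[ℚ] AlgebraicClosure ℚ, ∀ x ∈ S, σ x ∈ S) →
        ∀ (τ : AlgebraicClosure ℚ ≃ₐ[ℚ] AlgebraicClosure ℚ) (B : ℕ),
          ∃ (ℓ : ℕ) (A : ValuationSubring (AlgebraicClosure ℚ))
            (σ : AlgebraicClosure ℚ ≃ₐ[ℚ] AlgebraicClosure ℚ) (j : ℕ),
            ℓ.Prime ∧ B < ℓ ∧ (ℓ : AlgebraicClosure ℚ) ∈ A.nonunits ∧ A.IsFrobeniusAt σ ℓ ∧
              ∀ x ∈ S, τ x = (σ ^ j) x :=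
  Iff.rfl

/-- **[FD] wrapper**: the `S41/FL`-shaped statement implies the block deliverable `FDStatement`. -/
theorem fdStatement_of_pow (h : PowStatement) : FDStatement := by
  classical
  intro L hL S g
  -- `L` is generated by a finite set
  obtain ⟨S₀, hS₀⟩ : ∃ S₀ : Finset Qb, IntermediateField.adjoin ℚ (S₀ : Set Qb) = L := by
    have h1 : L.FG := IntermediateField.essFiniteType_iff.mp inferInstance
    obtain ⟨t, ht, htL⟩ := IntermediateField.fg_def.mp h1
    exact ⟨ht.toFinset, by rw [Set.Finite.coe_toFinset]; exact htL⟩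
  obtain ⟨ℓ, A, σ, j, hℓ, hBℓ, hA, hσ, hτ⟩ :=
    h (Fermat.Agent.S41.FL.conjSet S₀)
      (fun σ x hx => Fermat.Agent.S41.FL.conjSet_stable S₀ σ hx) g (S.sup id)
  refine ⟨ℓ, A, σ, j, hℓ, ?_, hA, hσ, ?_⟩
  · intro hmem
    have : ℓ ≤ S.sup id := Finset.le_sup (f := id) hmem
    omega
  · intro x hx
    rw [← hS₀] at hx
    exact Fermat.Agent.S41.FL.eqOn_adjoin g (σ ^ j) (S₀ : Set Qb)
      (fun y hy => hτ y (Fermat.Agent.S41.FL.subset_conjSet S₀ hy)) x hx

end Fermat.Agent.S29.FDTop
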