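/-
S29 block [FD] — FILE OF RECORD (block owner helper84).

`fdStatement : FDStatement` (the block deliverable of `S29/Defs.lean`): for every finite level `L`,
finite set `S` of primes and `g ∈ Gal(ℚ̄/ℚ)`, the restriction of `g` to `L` is a power of a
Frobenius element at a prime `ℓ ∉ S`.

Proof of record: route B, `S29/FDB.lean` (helper62, `exists_frobenius_pow'`: arbitrary element of
the absolute Galois group on a finite Galois-stable set, two-sided prime counts in the fixed fields
of the powers of `τ`), through the route-neutral wrapper `S29/FDTop.lean` (helper5).
-/
import Mathlib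
import Fermat.Agent.S29.FDB
import Fermat.Agent.S29.FDTop

set_option autoImplicit false

namespace Fermat.Agent.S29.FD

/-- **[FD]**, consumer form: an arbitrary `τ ∈ Gal(ℚ̄/ℚ)` agrees on a finite Galois-stable set
with a power of a Frobenius element at an arbitrarily large prime. -/
theorem powStatement : Fermat.Agent.S29.FDTop.PowStatement :=
  fun S hS τ B => Fermat.Agent.S29.FDB.exists_frobenius_pow' S hS τ B

/-- **[FD]**, the block deliverable. -/
theorem fdStatement : Fermat.Agent.S29.FDStatement :=
  Fermat.Agent.S29.FDTop.fdStatement_of_pow powStatement

end Fermat.Agent.S29.FD
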