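/-
S29 block [PS] — PSBStmt.lean (helper25): the leaf `PSStatement` of `S29/Defs.lean`, verbatim,
from the Mathlib-only core `S29/PSQ.lean`.
-/
import Fermat.Agent.S29.Defs
import Fermat.Agent.S29.PSQ

set_option autoImplicit false

namespace Fermat.Agent.S29.PSQ

open Polynomial

/-- The quadratic form of the relation is equivalent to (R). -/
theorem rel_iff_quad {F : Type*} [Field F] {G : Type*} [Group G] {V : Type*} [AddCommGroup V]
    [Module F V] (π : G →* Module.End F V) (d : G →* Fˣ) (g : G) (t : F) :
    π g * π g - t • π g + ((d g : Fˣ) : F) • (1 : Module.End F V) = 0 ↔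
      π g + (d g : F) • π g⁻¹ = t • (1 : Module.End F V) := by
  constructor
  · intro h
    apply rel_of_quad π d g t
    have h2 : π g * π g + ((d g : Fˣ) : F) • (1 : Module.End F V) =
        (π g * π g - t • π g + ((d g : Fˣ) : F) • (1 : Module.End F V)) + t • π g := by abel
    rw [h2, h, zero_add]
  · intro h
    have hinv : π g⁻¹ * π g = 1 := by rw [← map_mul, inv_mul_cancel, map_one]
    have h2 := congrArg (fun f : Module.End F V => f * π g) h
    simp only [add_mul, smul_mul_assoc, hinv, one_mul] at h2
    rw [← h2]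
    abel

/-- **[PS]** — the leaf `PSStatement` of `S29/Defs.lean`. -/
theorem psStatement : Fermat.Agent.S29.PSStatement := by
  intro F _ _ G _ V _ _ _ _ π d hR
  obtain ⟨ρ, h1, -, h3⟩ := exists_matrix_rep_of_exists π d
    (fun g => (hR g).imp fun t ht => (rel_iff_quad π d g t).mp ht)
  exact ⟨ρ, fun g t ht => (h1 g t ((rel_iff_quad π d g t).mp ht)).2, h3⟩

end Fermat.Agent.S29.PSQ
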