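import Mathlib

/-!
# S29 [Lucas]: from a quadratic relation at `σ` to the relation at `σ ^ j`

Mathlib-only.  If `h * h - a • h + u • 1 = 0` in an `R`-algebra `A`, then for every `j`
`h ^ j * h ^ j - V_j • h ^ j + u ^ j • 1 = 0`, where `V_j = lucasV a u j` is the Lucas sequence
`V_0 = 2`, `V_1 = a`, `V_{j+2} = a V_{j+1} - u V_j`.  No invertibility of `u` is needed: with the
conjugate root `h' := a • 1 - h` one has `h * h' = u • 1` and `h ^ j + h' ^ j = V_j • 1`.

Consumer forms for a monoid hom `r : G →* A`: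
* `map_pow_quadratic` : the quadratic relation at `σ ^ j`;
* `add_smul_inv_of_quadratic` / `quadratic_of_add_smul_inv` : translation between the quadratic
  form and the form `r g + u • r g⁻¹ = t • 1`;
* `map_pow_add_smul_inv` : `r (σ ^ j) + d (σ ^ j) • r (σ ^ j)⁻¹ = V_j • 1` for `d : G →* Rˣ`.
-/

namespace Fermat.Agent.S29.Lucas

variable {R A : Type*} [CommRing R] [Ring A] [Algebra R A]

/-- The Lucas sequence of the second kind: `V 0 = 2`, `V 1 = a`,
`V (j + 2) = a * V (j + 1) - u * V j`. -/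
def lucasV (a u : R) : ℕ → R
  | 0 => 2
  | 1 => a
  | (j + 2) => a * lucasV a u (j + 1) - u * lucasV a u j

@[simp] theorem lucasV_zero (a u : R) : lucasV a u 0 = 2 := by
  simp [lucasV]

@[simp] theorem lucasV_one (a u : R) : lucasV a u 1 = a := by
  simp [lucasV]

theorem lucasV_add_two (a u : R) (j : ℕ) :
    lucasV a u (j + 2) = a * lucasV a u (j + 1) - u * lucasV a u j := by
  simp [lucasV]

theorem lucasV_two (a u : R) : lucasV a u 2 = a * a - u * 2 := by
  rw [lucasV_add_two, lucasV_one, lucasV_zero]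

/-- The Lucas sequence commutes with ring homomorphisms. -/
theorem lucasV_map {S : Type*} [CommRing S] (f : R →+* S) (a u : R) (j : ℕ) :
    f (lucasV a u j) = lucasV (f a) (f u) j := by
  induction j using Nat.twoStepInduction with
  | zero => rw [lucasV_zero, lucasV_zero]; exact map_ofNat f 2
  | one => rw [lucasV_one, lucasV_one]
  | more j ih1 ih2 => rw [lucasV_add_two, lucasV_add_two, map_sub, map_mul, map_mul, ih1, ih2]

section Quadratic

variable (h : A) (a u : R)

/-- `h * (a • 1 - h) = u • 1`. -/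
theorem mul_conj (hq : h * h - a • h + u • (1 : A) = 0) :
    h * (a • (1 : A) - h) = u • (1 : A) := by
  rw [mul_sub, mul_smul_comm, mul_one]
  rw [eq_comm, ← sub_eq_zero, ← hq]
  abel

/-- `(a • 1 - h) * h = u • 1`. -/
theorem conj_mul (hq : h * h - a • h + u • (1 : A) = 0) :
    (a • (1 : A) - h) * h = u • (1 : A) := by
  rw [sub_mul, smul_mul_assoc, one_mul]
  rw [eq_comm, ← sub_eq_zero, ← hq]
  abel

theorem commute_conj : Commute h (a • (1 : A) - h) := by
  rw [← Algebra.algebraMap_eq_smul_one]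
  exact (Algebra.commute_algebraMap_right a h).sub_right (Commute.refl h)

/-- `h ^ j + (a • 1 - h) ^ j = V_j • 1`. -/
theorem pow_add_conj_pow (hq : h * h - a • h + u • (1 : A) = 0) (j : ℕ) :
    h ^ j + (a • (1 : A) - h) ^ j = lucasV a u j • (1 : A) := by
  have hc : Commute h (a • (1 : A) - h) := commute_conj h a
  have h1 : h * (a • (1 : A) - h) = u • (1 : A) := mul_conj h a u hq
  have h2 : (a • (1 : A) - h) * h = u • (1 : A) := conj_mul h a u hq
  induction j using Nat.twoStepInduction with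
  | zero =>
    rw [pow_zero, pow_zero, lucasV_zero, ← two_smul R (1 : A)]
  | one =>
    rw [pow_one, pow_one, lucasV_one]
    abel
  | more j ih1 ih2 =>
    set h' := a • (1 : A) - h with hh'
    -- h^(j+2) + h'^(j+2) = (h + h') (h^(j+1) + h'^(j+1)) - (h h') (h^j + h'^j)
    have key : h ^ (j + 2) + h' ^ (j + 2)
        = (h + h') * (h ^ (j + 1) + h' ^ (j + 1)) - u • (h ^ j + h' ^ j) := by
      have e1 : h * h' ^ (j + 1) = u • h' ^ j := by
        rw [pow_succ', ← mul_assoc, h1, smul_mul_assoc, one_mul]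
      have e2 : h' * h ^ (j + 1) = u • h ^ j := by
        rw [pow_succ', ← mul_assoc, h2, smul_mul_assoc, one_mul]
      rw [add_mul, mul_add, mul_add, e1, e2, smul_add, ← pow_succ', ← pow_succ']
      abel
    have hsum : h + h' = a • (1 : A) := by rw [hh']; abel
    rw [key, hsum, ih2, ih1, lucasV_add_two, smul_mul_assoc, one_mul, smul_smul, smul_smul,
      sub_smul]

/-- `h ^ j * (a • 1 - h) ^ j = u ^ j • 1`. -/
theorem pow_mul_conj_pow (hq : h * h - a • h + u • (1 : A) = 0) (j : ℕ) :
    h ^ j * (a • (1 : A) - h) ^ j = u ^ j • (1 : A) := by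
  rw [← (commute_conj h a).mul_pow, mul_conj h a u hq, smul_pow, one_pow]

/-- **Lucas lemma.** If `h` is killed by `X² - aX + u` then `h ^ j` is killed by
`X² - V_j X + u ^ j`. -/
theorem pow_quadratic (hq : h * h - a • h + u • (1 : A) = 0) (j : ℕ) :
    h ^ j * h ^ j - lucasV a u j • h ^ j + u ^ j • (1 : A) = 0 := by
  have hV : lucasV a u j • h ^ j = (h ^ j + (a • (1 : A) - h) ^ j) * h ^ j := by
    rw [pow_add_conj_pow h a u hq j, smul_mul_assoc, one_mul]
  have hP : u ^ j • (1 : A) = (a • (1 : A) - h) ^ j * h ^ j := by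
    rw [← pow_mul_conj_pow h a u hq j]
    exact ((commute_conj h a).pow_pow j j).eq
  rw [hV, hP, add_mul]
  abel

end Quadratic

section MonoidHom

variable {G : Type*}

/-- The quadratic relation at `σ` gives the quadratic relation at `σ ^ j`. -/
theorem map_pow_quadratic [Monoid G] (r : G →* A) (σ : G) (a u : R)
    (hq : r σ * r σ - a • r σ + u • (1 : A) = 0) (j : ℕ) :
    r (σ ^ j) * r (σ ^ j) - lucasV a u j • r (σ ^ j) + u ^ j • (1 : A) = 0 := by
  rw [map_pow]
  exact pow_quadratic (r σ) a u hq j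

/-- From the quadratic form to the `g + u g⁻¹ = t` form. -/
theorem add_smul_inv_of_quadratic [Group G] (r : G →* A) (g : G) (t u : R)
    (hq : r g * r g - t • r g + u • (1 : A) = 0) :
    r g + u • r g⁻¹ = t • (1 : A) := by
  have hinv : r g * r g⁻¹ = 1 := by rw [← map_mul, mul_inv_cancel, map_one]
  have h0 : (r g * r g - t • r g + u • (1 : A)) * r g⁻¹ = 0 := by rw [hq, zero_mul]
  rw [add_mul, sub_mul, mul_assoc, hinv, mul_one, smul_mul_assoc, hinv, smul_mul_assoc,
    one_mul] at h0
  rw [← sub_eq_zero, ← h0]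
  abel

/-- From the `g + u g⁻¹ = t` form to the quadratic form. -/
theorem quadratic_of_add_smul_inv [Group G] (r : G →* A) (g : G) (t u : R)
    (hR : r g + u • r g⁻¹ = t • (1 : A)) :
    r g * r g - t • r g + u • (1 : A) = 0 := by
  have hinv : r g⁻¹ * r g = 1 := by rw [← map_mul, inv_mul_cancel, map_one]
  have h0 : (r g + u • r g⁻¹) * r g = t • r g := by rw [hR, smul_mul_assoc, one_mul]
  rw [add_mul, smul_mul_assoc, hinv] at h0
  rw [← h0]
  abel

/-- **Consumer form.** A quadratic relation at `σ` with constant term `d σ` gives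
`r g + d g • r g⁻¹ = V_j • 1` at `g = σ ^ j`. -/
theorem map_pow_add_smul_inv [Group G] (r : G →* A) (d : G →* Rˣ) (σ : G) (a : R)
    (hq : r σ * r σ - a • r σ + ((d σ : Rˣ) : R) • (1 : A) = 0) (j : ℕ) :
    r (σ ^ j) + ((d (σ ^ j) : Rˣ) : R) • r (σ ^ j)⁻¹
      = lucasV a ((d σ : Rˣ) : R) j • (1 : A) := by
  apply add_smul_inv_of_quadratic
  rw [map_pow d, Units.val_pow_eq_pow_val]
  exact map_pow_quadratic r σ a _ hq j

end MonoidHom

end Fermat.Agent.S29.Lucas
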