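/-
S29 — leaf [MOD] (helper32): the Galois module of the route, abstractly.

Input: an abelian group `M` (in the application `J₀(N)(ℚ̄)[p]`) with an action of
`G_ℚ = Gal(ℚ̄/ℚ)` by additive maps, every element of `M` being fixed by the Galois group of a
number field ("finite level"); additive operators `TM i` commuting with the action; a field `k`
and a nonzero simultaneous eigenvector `v ∈ k ⊗[ℤ] M` of the `TM i` with eigenvalues `lam i`.

Output: a nonzero finite-dimensional `k`-representation `r` of `G_ℚ` (the `k`-span of the Galois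
orbit of `v`) which factors through a finite level, on which every `σ` acting trivially on `M`
acts trivially, and on which every relation `σ² − TM i ∘ σ + c = 0` valid on `M` becomes
`r σ² − lam i • r σ + c = 0`.
-/
import Mathlib
import Fermat.Prelude.Def_GaloisRep_Residual

set_option autoImplicit false

open scoped TensorProduct

namespace Fermat.Agent.S29.ModOrbit

local notation "GQ" => (AlgebraicClosure ℚ ≃ₐ[ℚ] AlgebraicClosure ℚ)

section Core

variable {M : Type} [AddCommGroup M] (act : GQ →* AddMonoid.End M)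
variable (k : Type) [Field k]

/-- The base change to `k` of the action of `σ`. -/
noncomputable def actK (σ : GQ) : k ⊗[ℤ] M →ₗ[k] k ⊗[ℤ] M :=
  LinearMap.baseChange k (act σ).toIntLinearMap

theorem actK_tmul (σ : GQ) (a : k) (m : M) : actK act k σ (a ⊗ₜ[ℤ] m) = a ⊗ₜ[ℤ] act σ m := by
  rw [actK, LinearMap.baseChange_tmul]
  rfl

theorem actK_one (x : k ⊗[ℤ] M) : actK act k 1 x = x := by
  induction x using TensorProduct.induction_on with
  | zero => simp
  | tmul a m => rw [actK_tmul, map_one]; rfl
  | add x y hx hy => rw [map_add, hx, hy]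

theorem actK_mul (σ τ : GQ) (x : k ⊗[ℤ] M) :
    actK act k (σ * τ) x = actK act k σ (actK act k τ x) := by
  induction x using TensorProduct.induction_on with
  | zero => simp
  | tmul a m => rw [actK_tmul, actK_tmul, actK_tmul, map_mul]; rfl
  | add x y hx hy => rw [map_add, hx, hy, map_add, map_add]

variable {act}

/-- Every element of `k ⊗ M` has finite level. -/
theorem exists_level
    (hFL : ∀ m : M, ∃ L : IntermediateField ℚ (AlgebraicClosure ℚ), FiniteDimensional ℚ L ∧
      ∀ σ : GQ, (∀ z ∈ L, σ z = z) → act σ m = m)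
    (x : k ⊗[ℤ] M) :
    ∃ L : IntermediateField ℚ (AlgebraicClosure ℚ), FiniteDimensional ℚ L ∧
      ∀ σ : GQ, (∀ z ∈ L, σ z = z) → actK act k σ x = x := by
  induction x using TensorProduct.induction_on with
  | zero => exact ⟨⊥, inferInstance, fun σ _ => map_zero _⟩
  | tmul a m =>
    obtain ⟨L, hL, h⟩ := hFL m
    exact ⟨L, hL, fun σ hσ => by rw [actK_tmul, h σ hσ]⟩
  | add x y hx hy =>
    obtain ⟨L₁, hL₁, h₁⟩ := hx
    obtain ⟨L₂, hL₂, h₂⟩ := hy
    refine ⟨L₁ ⊔ L₂, inferInstance, fun σ hσ => ?_⟩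
    rw [map_add, h₁ σ fun z hz => hσ z ((le_sup_left : L₁ ≤ L₁ ⊔ L₂) hz),
      h₂ σ fun z hz => hσ z ((le_sup_right : L₂ ≤ L₁ ⊔ L₂) hz)]

/-- A finite set of elements of `k ⊗ M` has a common finite level. -/
theorem exists_level_finset
    (hFL : ∀ m : M, ∃ L : IntermediateField ℚ (AlgebraicClosure ℚ), FiniteDimensional ℚ L ∧
      ∀ σ : GQ, (∀ z ∈ L, σ z = z) → act σ m = m)
    (S : Finset (k ⊗[ℤ] M)) :
    ∃ L : IntermediateField ℚ (AlgebraicClosure ℚ), FiniteDimensional ℚ L ∧
      ∀ σ : GQ, (∀ z ∈ L, σ z = z) → ∀ x ∈ S, actK act k σ x = x := by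
  classical
  induction S using Finset.induction_on with
  | empty => exact ⟨⊥, inferInstance, fun σ _ x hx => absurd hx (Finset.notMem_empty x)⟩
  | insert a S _ ih =>
    obtain ⟨L₁, hL₁, h₁⟩ := exists_level k hFL a
    obtain ⟨L₂, hL₂, h₂⟩ := ih
    refine ⟨L₁ ⊔ L₂, inferInstance, fun σ hσ x hx => ?_⟩
    rcases Finset.mem_insert.mp hx with rfl | hx
    · exact h₁ σ fun z hz => hσ z ((le_sup_left : L₁ ≤ L₁ ⊔ L₂) hz)
    · exact h₂ σ (fun z hz => hσ z ((le_sup_right : L₂ ≤ L₁ ⊔ L₂) hz)) x hx

/-- The Galois orbit of an element of `k ⊗ M` is finite. -/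
theorem finite_orbit
    (hFL : ∀ m : M, ∃ L : IntermediateField ℚ (AlgebraicClosure ℚ), FiniteDimensional ℚ L ∧
      ∀ σ : GQ, (∀ z ∈ L, σ z = z) → act σ m = m)
    (x : k ⊗[ℤ] M) : (Set.range fun σ : GQ => actK act k σ x).Finite := by
  classical
  obtain ⟨L, hL, h⟩ := exists_level k hFL x
  -- the orbit map factors through the restriction to `L`
  let res : GQ → (L →ₐ[ℚ] AlgebraicClosure ℚ) := fun σ => (σ : AlgebraicClosure ℚ →ₐ[ℚ]
    AlgebraicClosure ℚ).comp L.val
  have hfac : ∀ σ τ : GQ, res σ = res τ → actK act k σ x = actK act k τ x := by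
    intro σ τ hστ
    have hfix : ∀ z ∈ L, (τ⁻¹ * σ) z = z := by
      intro z hz
      have h1 : σ z = τ z := DFunLike.congr_fun hστ ⟨z, hz⟩
      rw [AlgEquiv.mul_apply, h1]
      exact τ.symm_apply_apply z
    have h2 := h (τ⁻¹ * σ) hfix
    have h3 : actK act k σ x = actK act k τ (actK act k (τ⁻¹ * σ) x) := by
      rw [← actK_mul, mul_inv_cancel_left]
    rw [h3, h2]
  have hsub : (Set.range fun σ : GQ => actK act k σ x) ⊆
      Set.range fun q : Set.range res => actK act k (Classical.choose q.2) x := by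
    rintro _ ⟨σ, rfl⟩
    refine ⟨⟨res σ, σ, rfl⟩, ?_⟩
    exact hfac _ _ (Classical.choose_spec (⟨σ, rfl⟩ : ∃ τ, res τ = res σ))
  exact (Set.finite_range _).subset hsub

end Core

/-- **[MOD]** the orbit-span module. -/
theorem exists_orbit_module {M : Type} [AddCommGroup M]
    (act : (AlgebraicClosure ℚ ≃ₐ[ℚ] AlgebraicClosure ℚ) →* AddMonoid.End M)
    (hFL : ∀ m : M, ∃ L : IntermediateField ℚ (AlgebraicClosure ℚ), FiniteDimensional ℚ L ∧
      ∀ σ : AlgebraicClosure ℚ ≃ₐ[ℚ] AlgebraicClosure ℚ, (∀ z ∈ L, σ z = z) → act σ m = m)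
    {k : Type} [Field k] {I : Type*} (TM : I → (M →+ M)) (lam : I → k)
    (hGH : ∀ (i : I) (σ : AlgebraicClosure ℚ ≃ₐ[ℚ] AlgebraicClosure ℚ) (m : M),
      act σ (TM i m) = TM i (act σ m))
    (v : k ⊗[ℤ] M) (hv0 : v ≠ 0)
    (hv : ∀ i, LinearMap.baseChange k (TM i).toIntLinearMap v = lam i • v) :
    ∃ (V : Type) (_ : AddCommGroup V) (_ : Module k V) (_ : Module.Finite k V)
      (_ : Nontrivial V)
      (r : (AlgebraicClosure ℚ ≃ₐ[ℚ] AlgebraicClosure ℚ) →* Module.End k V),
      GaloisFactorsThroughFiniteLevel r ∧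
      (∀ σ : AlgebraicClosure ℚ ≃ₐ[ℚ] AlgebraicClosure ℚ, (∀ m : M, act σ m = m) → r σ = 1) ∧
      (∀ (σ : AlgebraicClosure ℚ ≃ₐ[ℚ] AlgebraicClosure ℚ) (i : I) (c : ℤ),
        (∀ m : M, act σ (act σ m) - TM i (act σ m) + c • m = 0) →
          r σ * r σ - lam i • r σ + (c : k) • (1 : Module.End k V) = 0) := by
  classical
  -- the span of the orbit
  set O : Set (k ⊗[ℤ] M) := Set.range fun σ : GQ => actK act k σ v with hO
  have hOfin : O.Finite := finite_orbit k hFL v
  set W : Submodule k (k ⊗[ℤ] M) := Submodule.span k O with hW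
  have hvW : v ∈ W := Submodule.subset_span ⟨1, actK_one act k v⟩
  -- stability
  have hstab : ∀ σ : GQ, ∀ w ∈ W, actK act k σ w ∈ W := by
    intro σ w hw
    induction hw using Submodule.span_induction with
    | mem x hx =>
      obtain ⟨τ, rfl⟩ := hx
      exact Submodule.subset_span ⟨σ * τ, actK_mul act k σ τ v⟩
    | zero => rw [map_zero]; exact W.zero_mem
    | add x y _ _ hx hy => rw [map_add]; exact W.add_mem hx hy
    | smul a x _ hx => rw [map_smul]; exact W.smul_mem a hx
  -- the operators `TM i ⊗ 1`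
  let TK : I → (k ⊗[ℤ] M →ₗ[k] k ⊗[ℤ] M) := fun i =>
    LinearMap.baseChange k (TM i).toIntLinearMap
  have hTK_tmul : ∀ (i : I) (a : k) (m : M), TK i (a ⊗ₜ[ℤ] m) = a ⊗ₜ[ℤ] TM i m := by
    intro i a m
    simp [TK]
  have hcomm : ∀ (i : I) (σ : GQ) (x : k ⊗[ℤ] M),
      actK act k σ (TK i x) = TK i (actK act k σ x) := by
    intro i σ x
    induction x using TensorProduct.induction_on with
    | zero => simp
    | tmul a m => rw [hTK_tmul, actK_tmul, actK_tmul, hTK_tmul, hGH]
    | add x y hx hy => rw [map_add, map_add, hx, hy, map_add, map_add]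
  have hTW : ∀ (i : I), ∀ w ∈ W, TK i w = lam i • w := by
    intro i w hw
    induction hw using Submodule.span_induction with
    | mem x hx =>
      obtain ⟨τ, rfl⟩ := hx
      show TK i (actK act k τ v) = lam i • actK act k τ v
      rw [← hcomm, show TK i v = lam i • v from hv i, map_smul]
    | zero => rw [map_zero, smul_zero]
    | add x y _ _ hx hy => rw [map_add, hx, hy, smul_add]
    | smul a x _ hx => rw [map_smul, hx, smul_comm]
  -- the representation
  let r : GQ →* Module.End k W :=
    { toFun := fun σ => (actK act k σ).restrict (hstab σ)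
      map_one' := by
        refine LinearMap.ext fun w => Subtype.ext ?_
        simp [LinearMap.restrict_apply, actK_one]
      map_mul' := fun σ τ => by
        refine LinearMap.ext fun w => Subtype.ext ?_
        simp [LinearMap.restrict_apply, actK_mul] }
  have hr : ∀ (σ : GQ) (w : W), ((r σ w : W) : k ⊗[ℤ] M) = actK act k σ (w : k ⊗[ℤ] M) :=
    fun σ w => rfl
  have hWfin : Module.Finite k W := Module.Finite.span_of_finite k hOfin
  have hWnt : Nontrivial W :=
    ⟨⟨⟨v, hvW⟩, 0, fun h => hv0 (congrArg Subtype.val h)⟩⟩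
  refine ⟨W, inferInstance, inferInstance, hWfin, hWnt, r, ?_, ?_, ?_⟩
  · -- finite level
    obtain ⟨L, hL, h⟩ := exists_level_finset k hFL hOfin.toFinset
    refine ⟨L, hL, fun σ hσ => ?_⟩
    have hall : ∀ w ∈ W, actK act k σ w = w := by
      intro w hw
      induction hw using Submodule.span_induction with
      | mem x hx => exact h σ hσ x (hOfin.mem_toFinset.mpr hx)
      | zero => rw [map_zero]
      | add x y _ _ hx hy => rw [map_add, hx, hy]
      | smul a x _ hx => rw [map_smul, hx]
    refine LinearMap.ext fun w => Subtype.ext ?_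
    rw [hr, hall _ w.2]
    rfl
  · -- trivial action
    intro σ hσ
    have hone : act σ = 1 := by
      ext m
      exact hσ m
    refine LinearMap.ext fun w => Subtype.ext ?_
    rw [hr]
    have : actK act k σ = actK act k 1 := by
      unfold actK
      rw [hone, map_one]
    rw [this, actK_one]
    rfl
  · -- relations
    intro σ i c hrel
    have hrelK : ∀ x : k ⊗[ℤ] M,
        actK act k σ (actK act k σ x) - TK i (actK act k σ x) + (c : k) • x = 0 := by
      intro x
      induction x using TensorProduct.induction_on with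
      | zero => simp
      | tmul a m =>
        rw [actK_tmul, actK_tmul, hTK_tmul]
        have h1 : (c : k) • (a ⊗ₜ[ℤ] m) = a ⊗ₜ[ℤ] (c • m) := by
          rw [Int.cast_smul_eq_zsmul, TensorProduct.tmul_smul]
        rw [h1, ← TensorProduct.tmul_sub, ← TensorProduct.tmul_add, hrel m, TensorProduct.tmul_zero]
      | add x y hx hy =>
        have : actK act k σ (actK act k σ (x + y)) - TK i (actK act k σ (x + y)) +
            (c : k) • (x + y) =
            (actK act k σ (actK act k σ x) - TK i (actK act k σ x) + (c : k) • x) +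
            (actK act k σ (actK act k σ y) - TK i (actK act k σ y) + (c : k) • y) := by
          simp only [map_add, smul_add]
          abel
        rw [this, hx, hy, add_zero]
    refine LinearMap.ext fun w => Subtype.ext ?_
    have h1 := hrelK (w : k ⊗[ℤ] M)
    rw [hTW i _ (hstab σ _ w.2)] at h1
    simpa [hr] using h1

end Fermat.Agent.S29.ModOrbit
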