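/-
S29 + S42 (residual Galois representation attached to a weight-2 eigenform): integration plan.
Owner: helper85 (integration captain).  Interface file: `S29/Defs.lean` (helper74).

Chain (board 'S29', leaf table #1886):

  [K] + [Eig]                ⇒ `NVStatement`   (eigenvector in `𝔽 ⊗ J[p]`)
  S37 core (`SpecCore`)      ⇒ `InertiaStatement`, `ESStatement` ⇒ `GHStatement`;  `FLStatement`
  NV + Inertia + ES + GH + FL ⇒ `ModStatement`  (this file, via `S29/ModOrbit.lean`)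
  Mod + [PS] + [FD] + [Cyc]  ⇒ `CoreStatement` (this file, via `S29/Lucas.lean`)
  Core                       ⇒ S29 (`Top29Statement`) and S42 (`Top42Statement`)

Proved here: `modStatement_of_nv`, `coreStatement_of_mod`, `coreStatement_of_leaves` and the two
tops `s29_of_leaves`, `s42_of_leaves` from the named leaf statements.
-/
import Mathlib
import Fermat.Agent.S29.Defs
import Fermat.Agent.S29.ModOrbit
import Fermat.Agent.S29.Lucas

set_option autoImplicit false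

noncomputable section

open Polynomial CongruenceSubgroup ModularCurve AlgebraicCurve
open scoped TensorProduct

namespace Fermat.Agent.S29.Plan

open Fermat.Agent.S29

/-! ### The Galois module -/

/-- **[Mod]** the Galois module of the route: a nonzero finite-dimensional `𝔽`-representation of
`G_ℚ` of finite level on which every Frobenius element at `ℓ ∤ N`, `ℓ ≠ p` satisfies the
Eichler–Shimura relation with `t = ψ(a_ℓ(g))`, and on which inertia at these `ℓ` acts trivially. -/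
def ModStatement (N p : ℕ) (g : CuspForm (Gamma0 N) 2) {𝔽 : Type} [Field 𝔽]
    (ψ : Zb →+* 𝔽) : Prop :=
  ∃ (V : Type) (_ : AddCommGroup V) (_ : Module 𝔽 V) (_ : Module.Finite 𝔽 V) (_ : Nontrivial V)
    (r : GQ →* Module.End 𝔽 V),
    GaloisFactorsThroughFiniteLevel r ∧
    (∀ ℓ : ℕ, ℓ.Prime → ¬ ℓ ∣ N → ℓ ≠ p → ∀ A : ValuationSubring Qb, A.LiesOverPrime ℓ →
      ∀ σ : GQ, A.IsFrobeniusAt σ ℓ → ∃ a : Zb, (a : ℂ) = ModularFormClass.qCoeff g ℓ ∧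
        r σ * r σ - ψ a • r σ + (ℓ : 𝔽) • (1 : Module.End 𝔽 V) = 0) ∧
    (∀ ℓ : ℕ, ℓ.Prime → ¬ ℓ ∣ N → ℓ ≠ p → ∀ A : ValuationSubring Qb, A.LiesOverPrime ℓ →
      ∀ τ ∈ A.inertiaSubgroupIn ℚ, r τ = 1)

theorem not_dvd_mul_of_prime {N p ℓ : ℕ} (hp : p.Prime) (hℓ : ℓ.Prime) (hℓN : ¬ ℓ ∣ N)
    (hℓp : ℓ ≠ p) : ¬ ℓ ∣ N * p := by
  intro h
  rcases hℓ.dvd_mul.mp h with h | h
  · exact hℓN h
  · exact hℓp ((Nat.prime_dvd_prime_iff_eq hℓ hp).mp h)

/-- **NV + Inertia + ES + GH + FL ⇒ Mod.** -/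
theorem modStatement_of_nv (N p : ℕ) [NeZero N] (hp : p.Prime) (g : CuspForm (Gamma0 N) 2)
    {𝔽 : Type} [Field 𝔽] (ψ : Zb →+* 𝔽)
    (hNV : NVStatement N p g ψ) (hIn : InertiaStatement N p) (hES : ESStatement N p)
    (hGH : GHStatement N p) (hFL : FLStatement N p) : ModStatement N p g ψ := by
  classical
  obtain ⟨v, hv0, hv⟩ := hNV
  -- the action by additive maps
  let act : GQ →* AddMonoid.End (Jp N p) :=
    { toFun := fun σ => (galJp N p σ).toAddMonoidHom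
      map_one' := by rw [map_one]; rfl
      map_mul' := fun σ τ => by rw [map_mul]; rfl }
  have hact : ∀ (σ : GQ) (m : Jp N p), ((act σ m : Jp N p) : JZero N) = σ • (m : JZero N) :=
    fun _ _ => rfl
  have hm : ∀ m : Jp N p, p • (m : JZero N) = 0 := fun m => (mem_Jp_iff N p _).mp m.2
  -- index set: the good primes
  let I : Type := {ℓ : ℕ // ℓ.Prime ∧ ¬ ℓ ∣ N ∧ ℓ ≠ p}
  have hIdvd : ∀ i : I, ¬ i.1 ∣ N * p := fun i =>
    not_dvd_mul_of_prime hp i.2.1 i.2.2.1 i.2.2.2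
  let TM : I → (Jp N p →+ Jp N p) := fun i => (heckeJp N p ⟨i.1, i.2.1⟩).toAddMonoidHom
  have hTM : ∀ (i : I) (m : Jp N p),
      ((TM i m : Jp N p) : JZero N) = heckeOperatorBar N ⟨i.1, i.2.1⟩ (m : JZero N) :=
    fun _ _ => rfl
  choose a ha hav using fun i : I => hv i.1 i.2.1 i.2.2.1 i.2.2.2
  obtain ⟨V, i1, i2, i3, i4, r, hfin, htriv, hquad⟩ :=
    ModOrbit.exists_orbit_module act
      (fun m => by
        obtain ⟨L, hL, hfix⟩ := hFL (m : JZero N) (hm m)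
        exact ⟨L, hL, fun σ hσ => Subtype.ext (hfix σ hσ)⟩)
      TM (fun i => ψ (a i))
      (fun i σ m => Subtype.ext (by
        rw [hact, hTM, hTM, hact]
        exact (hGH i.1 i.2.1 (hIdvd i) σ (m : JZero N) (hm m)).symm))
      v hv0
      (fun i => by
        have e : (TM i).toIntLinearMap = heckeJp N p ⟨i.1, i.2.1⟩ := LinearMap.ext fun _ => rfl
        rw [e]
        exact hav i)
  refine ⟨V, i1, i2, i3, i4, r, hfin, ?_, ?_⟩
  · intro ℓ hℓ hℓN hℓp A hA σ hσ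
    let i : I := ⟨ℓ, hℓ, hℓN, hℓp⟩
    refine ⟨a i, ha i, ?_⟩
    have h := hquad σ i (ℓ : ℤ) (fun m => Subtype.ext (by
      have h1 := hES ℓ hℓ (hIdvd i) A hA σ hσ (m : JZero N) (hm m)
      rw [Submodule.coe_add, Submodule.coe_sub, Submodule.coe_smul, hact, hact, hTM, hact,
        natCast_zsmul]
      exact h1))
    rwa [Int.cast_natCast] at h
  · intro ℓ hℓ hℓN hℓp A hA τ hτ
    refine htriv τ (fun m => Subtype.ext ?_)
    rw [hact]
    exact hIn ℓ hℓ (not_dvd_mul_of_prime hp hℓ hℓN hℓp) A hA τ hτ (m : JZero N) (hm m)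

/-! ### From the module to the two-dimensional representation -/

/-- If `g` and `σ ^ j` agree on a field of definition `L` of a finite-level homomorphism `f`,
then `f g = f (σ ^ j)`. -/
theorem map_eq_of_eqOn {M : Type} [Monoid M] (f : GQ →* M) (L : IntermediateField ℚ Qb)
    (hL : ∀ σ : GQ, (∀ x ∈ L, σ x = x) → f σ = 1) (g h : GQ)
    (hgh : ∀ x ∈ L, g x = h x) : f g = f h := by
  have h1 : f (g⁻¹ * h) = 1 := by
    apply hL
    intro x hx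
    rw [AlgEquiv.mul_apply, ← hgh x hx]
    exact AlgEquiv.symm_apply_apply g x
  have h2 : f g = f g * f (g⁻¹ * h) := by rw [h1, mul_one]
  rw [h2, ← map_mul, mul_inv_cancel_left]

/-- **Mod + [PS] + [FD] + [Cyc] ⇒ Core.** -/
theorem coreStatement_of_mod (hPS : PSStatement) (hFD : FDStatement) {N p : ℕ} (hN : N ≠ 0)
    (g : CuspForm (Gamma0 N) 2) {𝔽 : Type} [Field 𝔽] [IsAlgClosed 𝔽] (ψ : Zb →+* 𝔽)
    (hCyc : CycStatement p 𝔽) (hMod : ModStatement N p g ψ) : CoreStatement N p g ψ := by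
  classical
  obtain ⟨V, i1, i2, i3, i4, r, ⟨L₁, hL₁fd, hL₁⟩, hES, hI⟩ := hMod
  obtain ⟨d, ⟨L₂, hL₂fd, hL₂⟩, hdF, hdI⟩ := hCyc
  have := hL₁fd
  have := hL₂fd
  have hLfd : FiniteDimensional ℚ ↥(L₁ ⊔ L₂) := inferInstance
  have hr1 : ∀ σ : GQ, (∀ x ∈ L₁ ⊔ L₂, σ x = x) → r σ = 1 := fun σ hσ =>
    hL₁ σ (fun x hx => hσ x (le_sup_left (a := L₁) hx))
  have hd1 : ∀ σ : GQ, (∀ x ∈ L₁ ⊔ L₂, σ x = x) → d σ = 1 := fun σ hσ =>
    hL₂ σ (fun x hx => hσ x (le_sup_right (b := L₂) hx))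
  -- the bad set
  let S : Finset ℕ := insert p N.divisors
  have hS : ∀ ℓ : ℕ, ℓ ∉ S → ¬ ℓ ∣ N ∧ ℓ ≠ p := by
    intro ℓ hℓ
    simp only [S, Finset.mem_insert, Nat.mem_divisors, not_or, not_and] at hℓ
    exact ⟨fun h => hℓ.2 h hN, hℓ.1⟩
  -- the quadratic relation at every element
  have hR : ∀ τ : GQ, ∃ t : 𝔽,
      r τ * r τ - t • r τ + ((d τ : 𝔽ˣ) : 𝔽) • (1 : Module.End 𝔽 V) = 0 := by
    intro τ
    obtain ⟨ℓ, A, σ, j, hℓ, hℓS, hA, hσ, hτσ⟩ := hFD (L₁ ⊔ L₂) hLfd S τ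
    obtain ⟨hℓN, hℓp⟩ := hS ℓ hℓS
    obtain ⟨a, -, hq⟩ := hES ℓ hℓ hℓN hℓp A hA σ hσ
    have e1 : r τ = r (σ ^ j) := map_eq_of_eqOn r (L₁ ⊔ L₂) hr1 τ (σ ^ j) hτσ
    have e2 : d τ = d (σ ^ j) := map_eq_of_eqOn d (L₁ ⊔ L₂) hd1 τ (σ ^ j) hτσ
    have e3 : ((d τ : 𝔽ˣ) : 𝔽) = (ℓ : 𝔽) ^ j := by
      rw [e2, map_pow, Units.val_pow_eq_pow_val, hdF ℓ hℓ hℓp A hA σ hσ]
    refine ⟨Lucas.lucasV (ψ a) (ℓ : 𝔽) j, ?_⟩
    rw [e1, e3]
    exact Lucas.map_pow_quadratic r σ (ψ a) (ℓ : 𝔽) hq j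
  obtain ⟨ρ, hchar, htriv⟩ := hPS 𝔽 GQ V r d hR
  refine ⟨ρ, ⟨L₁ ⊔ L₂, hLfd, fun σ hσ => htriv σ (hr1 σ hσ) (hd1 σ hσ)⟩, ?_, ?_⟩
  · intro ℓ hℓ hℓN hℓp A hA σ hσ
    obtain ⟨a, ha, hq⟩ := hES ℓ hℓ hℓN hℓp A hA σ hσ
    refine ⟨a, ha, ?_⟩
    have hdσ := hdF ℓ hℓ hℓp A hA σ hσ
    rw [hchar σ (ψ a) (by rw [hdσ]; exact hq), hdσ]
  · intro ℓ hℓ hℓN hℓp A hA τ hτ
    exact htriv τ (hI ℓ hℓ hℓN hℓp A hA τ hτ) (hdI ℓ hℓ hℓp A hA τ hτ)

/-- **The core from the block leaves**, at one `(N, p, g, 𝔽, ψ)`. -/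
theorem coreStatement_of_leaves (hPS : PSStatement) (hFD : FDStatement) (N p : ℕ) [NeZero N]
    (hp : p.Prime) (g : CuspForm (Gamma0 N) 2) {𝔽 : Type} [Field 𝔽] [IsAlgClosed 𝔽]
    (ψ : Zb →+* 𝔽) (hCyc : CycStatement p 𝔽)
    (hIn : InertiaStatement N p) (hES : ESStatement N p) (hGH : GHStatement N p)
    (hFL : FLStatement N p) (hNV : NVStatement N p g ψ) : CoreStatement N p g ψ :=
  coreStatement_of_mod hPS hFD (NeZero.ne N) g ψ hCyc
    (modStatement_of_nv N p hp g ψ hNV hIn hES hGH hFL)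

/-! ### The tops -/

/-- The core at all eigenforms of level `N` in residue characteristic `p`, over every
algebraically closed field of characteristic `p`. -/
def CoreAt (N p : ℕ) : Prop :=
  ∀ g : CuspForm (Gamma0 N) 2, g.IsNormalizedEigenform →
    ∀ (𝔽 : Type) [Field 𝔽] [IsAlgClosed 𝔽] [CharP 𝔽 p] (ψ : Zb →+* 𝔽), CoreStatement N p g ψ

/-- **[Top29]** S29 from the core (`𝔽 := Zb ⧸ ker φ`, which is algebraically closed; matrices are
mapped along `Zb ⧸ ker φ → k`; the level-zero case is trivial). -/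
def Top29Statement : Prop :=
  (∀ N p : ℕ, N ≠ 0 → p.Prime → CoreAt N p) →
    ∀ {N : ℕ} {g : CuspForm (Gamma0 N) 2}, g.IsNormalizedEigenform →
      ∀ {p : ℕ}, p.Prime → ∀ {k : Type} [Field k] [CharP k p] (φ : Zb →+* k),
        ∃ ρ : ResidualGaloisRep k, ρ.IsAttachedTo g φ ∧
          ∀ ℓ : ℕ, ℓ.Prime → ¬ ℓ ∣ N * p → ρ.IsUnramifiedAt ℓ

/-- **[Top42]** S42 from the core in residue characteristic `≥ 5` (`𝔽 := Zb ⧸ 𝔪`; trace and
determinant from the characteristic polynomial; the number field is the normal closure of the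
level of `ρ` and the field of the Frey `p`-torsion). -/
def Top42Statement : Prop :=
  (∀ N p : ℕ, N ≠ 0 → p.Prime → 5 ≤ p → CoreAt N p) →
    ∀ P : FreyPackage, ∀ M : ℕ, 0 < M → P.EigenformResidualAttachmentAt M

/-- **The core from the block leaves**, at all `(g, 𝔽, ψ)`. -/
theorem coreAt_of_leaves (hPS : PSStatement) (hFD : FDStatement) (N p : ℕ) [NeZero N]
    (hp : p.Prime)
    (hCyc : ∀ (𝔽 : Type) [Field 𝔽] [CharP 𝔽 p], CycStatement p 𝔽)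
    (hIn : InertiaStatement N p) (hES : ESStatement N p) (hGH : GHStatement N p)
    (hFL : FLStatement N p)
    (hNV : ∀ {g : CuspForm (Gamma0 N) 2}, g.IsNormalizedEigenform →
      ∀ {𝔽 : Type} [Field 𝔽] [CharP 𝔽 p] (ψ : Zb →+* 𝔽), NVStatement N p g ψ) :
    CoreAt N p := by
  intro g hg 𝔽 _ _ _ ψ
  exact coreStatement_of_leaves hPS hFD N p hp g ψ (hCyc 𝔽) hIn hES hGH hFL (hNV hg ψ)

/-- **S29 from the leaves.** -/
theorem s29_of_leaves (hTop : Top29Statement) (hPS : PSStatement) (hFD : FDStatement)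
    (hCyc : ∀ p : ℕ, p.Prime → ∀ (𝔽 : Type) [Field 𝔽] [CharP 𝔽 p], CycStatement p 𝔽)
    (hIn : ∀ (N p : ℕ) [NeZero N], p.Prime → InertiaStatement N p)
    (hES : ∀ (N p : ℕ) [NeZero N], p.Prime → ESStatement N p)
    (hGH : ∀ (N p : ℕ) [NeZero N], p.Prime → GHStatement N p)
    (hFL : ∀ (N p : ℕ) [NeZero N], p.Prime → FLStatement N p)
    (hNV : ∀ (N p : ℕ) [NeZero N], p.Prime → ∀ {g : CuspForm (Gamma0 N) 2},
      g.IsNormalizedEigenform → ∀ {𝔽 : Type} [Field 𝔽] [CharP 𝔽 p] (ψ : Zb →+* 𝔽),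
        NVStatement N p g ψ)
    {N : ℕ} {g : CuspForm (Gamma0 N) 2} (hg : g.IsNormalizedEigenform)
    {p : ℕ} (hp : p.Prime) {k : Type} [Field k] [CharP k p]
    (φ : integralClosure ℤ ℂ →+* k) :
    ∃ ρ : ResidualGaloisRep k, ρ.IsAttachedTo g φ ∧
      ∀ ℓ : ℕ, ℓ.Prime → ¬ ℓ ∣ N * p → ρ.IsUnramifiedAt ℓ := by
  refine hTop (fun N p hN hp => ?_) hg hp φ
  haveI : NeZero N := ⟨hN⟩
  exact coreAt_of_leaves hPS hFD N p hp (hCyc p hp) (hIn N p hp) (hES N p hp) (hGH N p hp)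
    (hFL N p hp) (hNV N p hp)

/-- **S42 from the leaves** (every leaf is only needed in residue characteristic `≥ 5`). -/
theorem s42_of_leaves (hTop : Top42Statement) (hPS : PSStatement) (hFD : FDStatement)
    (hCyc : ∀ p : ℕ, p.Prime → 5 ≤ p → ∀ (𝔽 : Type) [Field 𝔽] [CharP 𝔽 p], CycStatement p 𝔽)
    (hIn : ∀ (N p : ℕ) [NeZero N], p.Prime → 5 ≤ p → InertiaStatement N p)
    (hES : ∀ (N p : ℕ) [NeZero N], p.Prime → 5 ≤ p → ESStatement N p)
    (hGH : ∀ (N p : ℕ) [NeZero N], p.Prime → 5 ≤ p → GHStatement N p)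
    (hFL : ∀ (N p : ℕ) [NeZero N], p.Prime → 5 ≤ p → FLStatement N p)
    (hNV : ∀ (N p : ℕ) [NeZero N], p.Prime → 5 ≤ p → ∀ {g : CuspForm (Gamma0 N) 2},
      g.IsNormalizedEigenform → ∀ {𝔽 : Type} [Field 𝔽] [CharP 𝔽 p] (ψ : Zb →+* 𝔽),
        NVStatement N p g ψ)
    (P : FreyPackage) : ∀ M : ℕ, 0 < M → P.EigenformResidualAttachmentAt M := by
  refine hTop (fun N p hN hp hp5 => ?_) P
  haveI : NeZero N := ⟨hN⟩
  exact coreAt_of_leaves hPS hFD N p hp (hCyc p hp hp5) (hIn N p hp hp5) (hES N p hp hp5)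
    (hGH N p hp hp5) (hFL N p hp hp5) (hNV N p hp hp5)

end Fermat.Agent.S29.Plan
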