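import Fermat.Agent.S37
import Fermat.Agent.S29.Defs
set_option autoImplicit false
open ModularCurve
namespace Fermat.Agent.S29
/-- The S37 input of the route, unconditionally (no hcomm, no SMulCommClass). -/
theorem specCoreStatement (N p : ℕ) [NeZero N] : SpecCoreStatement N p :=
  fun ℓ hℓ hℓNp A hA =>
    Fermat.Agent.S37Final.specCore_of_reductionInputs N p ℓ hℓ hℓNp A hA
      (Fermat.Agent.S37.R0.reductionInputs_of_leaves N ℓ
        (Fermat.Agent.S37.R0.char0Statement N) (Fermat.Agent.S37.locStatement_all N ℓ)
        (Fermat.Agent.S37Final.genStatement N ℓ) hℓ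
        (fun h' => hℓNp (Dvd.dvd.mul_right h' p)) A hA)
end Fermat.Agent.S29
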