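import Mathlib
import Fermat.Prelude.Def_GaloisRep_Residual

/-!
# S29 / S42 route, leaf [TOP-ALG] (owner: helper90)

Algebraic top glue, independent of every other block:

* `ker_isMaximal`        : the kernel of `φ : ℤ̄ →+* k`, `char k = p`, is a maximal ideal;
* `isAlgClosed_quotient` : `ℤ̄ ⧸ 𝔪` is algebraically closed (`𝔪` maximal);
* `charP_quotient`       : `ℤ̄ ⧸ 𝔪` has characteristic `p` if `p ∈ 𝔪`;
* `ofMatrix`             : a matrix representation `G_ℚ →* M₂(k)` of finite level as a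
                           `ResidualGaloisRep k`, with `charpoly_ofMatrix`, `ofMatrix_eq_one`;
* `mapMatrixHom`         : push a matrix representation along a ring hom, with finite level and
                           `charpoly_mapMatrixHom`.
-/

set_option autoImplicit false

open Polynomial

namespace Fermat.Agent.S29.TopAlg

local notation "Qb" => AlgebraicClosure ℚ
local notation "GQ" => (AlgebraicClosure ℚ ≃ₐ[ℚ] AlgebraicClosure ℚ)
local notation "Zb" => integralClosure ℤ ℂ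

/-! ### (T1) the residue fields of `ℤ̄` -/

/-- **(T1a)** the kernel of a ring hom from `ℤ̄` to a field of characteristic `p` is maximal. -/
theorem ker_isMaximal {p : ℕ} (hp : p.Prime) {k : Type*} [Field k] [CharP k p] (φ : Zb →+* k) :
    (RingHom.ker φ).IsMaximal := by
  have : (RingHom.ker φ).IsPrime := RingHom.ker_isPrime φ
  refine Ideal.isMaximal_of_isIntegral_of_isMaximal_comap (R := ℤ) (RingHom.ker φ) ?_
  have hpmax : (Ideal.span {(p : ℤ)}).IsMaximal :=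
    PrincipalIdealRing.isMaximal_of_irreducible (Nat.prime_iff_prime_int.mp hp).irreducible
  have hle : Ideal.span {(p : ℤ)} ≤ (RingHom.ker φ).comap (algebraMap ℤ Zb) := by
    rw [Ideal.span_le, Set.singleton_subset_iff]
    change (algebraMap ℤ Zb (p : ℤ)) ∈ RingHom.ker φ
    rw [RingHom.mem_ker]
    have : φ (algebraMap ℤ Zb (p : ℤ)) = ((p : ℕ) : k) := by simp
    rw [this, CharP.cast_eq_zero]
  have hne : (RingHom.ker φ).comap (algebraMap ℤ Zb) ≠ ⊤ :=
    (Ideal.IsPrime.comap (algebraMap ℤ Zb)).ne_top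
  rw [← hpmax.eq_of_le hne hle]
  exact hpmax

/-- **(T1b)** `ℤ̄ ⧸ 𝔪` is algebraically closed. -/
theorem isAlgClosed_quotient (𝔪 : Ideal Zb) [h𝔪 : 𝔪.IsMaximal] :
    @IsAlgClosed (Zb ⧸ 𝔪) (Ideal.Quotient.field 𝔪) := by
  let _ : Field (Zb ⧸ 𝔪) := Ideal.Quotient.field 𝔪
  refine IsAlgClosed.of_exists_root _ fun q hq hirr => ?_
  -- lift to a monic polynomial over `ℤ̄`
  have hsurj : Function.Surjective (Ideal.Quotient.mk 𝔪) := Ideal.Quotient.mk_surjective
  have hlift : q ∈ Polynomial.lifts (Ideal.Quotient.mk 𝔪) :=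
    (Polynomial.mem_lifts q).mpr (Polynomial.map_surjective _ hsurj q)
  obtain ⟨Q, hQmap, hQdeg, hQmonic⟩ := Polynomial.lifts_and_natDegree_eq_and_monic hlift hq
  -- a complex root of `Q`
  have hdeg : (Q.map (algebraMap Zb ℂ)).degree ≠ 0 := by
    rw [Polynomial.degree_map_eq_of_injective (FaithfulSMul.algebraMap_injective Zb ℂ),
      Polynomial.degree_eq_natDegree hQmonic.ne_zero, hQdeg]
    have := hirr.natDegree_pos
    exact_mod_cast this.ne'
  obtain ⟨z, hz⟩ := IsAlgClosed.exists_root (Q.map (algebraMap Zb ℂ)) hdeg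
  have hzint : IsIntegral Zb z := ⟨Q, hQmonic, by
    rw [Polynomial.eval₂_eq_eval_map]; exact hz⟩
  have hzZ : IsIntegral ℤ z := isIntegral_trans z hzint
  let z' : Zb := ⟨z, hzZ⟩
  have hz' : Q.eval z' = 0 := by
    apply FaithfulSMul.algebraMap_injective Zb ℂ
    rw [map_zero, ← Polynomial.eval₂_at_apply, Polynomial.eval₂_eq_eval_map]
    exact hz
  refine ⟨Ideal.Quotient.mk 𝔪 z', ?_⟩
  rw [← hQmap, Polynomial.eval_map, Polynomial.eval₂_at_apply, hz', map_zero]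

/-- **(T1c)** `ℤ̄ ⧸ 𝔪` has characteristic `p` when `p ∈ 𝔪`. -/
theorem charP_quotient (𝔪 : Ideal Zb) [h𝔪 : 𝔪.IsMaximal] {p : ℕ} (hp : p.Prime)
    (hp𝔪 : (p : Zb) ∈ 𝔪) : CharP (Zb ⧸ 𝔪) p := by
  let _ : Field (Zb ⧸ 𝔪) := Ideal.Quotient.field 𝔪
  obtain ⟨q, hq⟩ := CharP.exists (Zb ⧸ 𝔪)
  have h0 : ((p : ℕ) : Zb ⧸ 𝔪) = 0 := by
    have : (Ideal.Quotient.mk 𝔪) (p : Zb) = 0 := Ideal.Quotient.eq_zero_iff_mem.mpr hp𝔪
    simpa using this
  have hdvd : q ∣ p := (CharP.cast_eq_zero_iff (Zb ⧸ 𝔪) q p).mp h0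
  rcases (Nat.dvd_prime hp).mp hdvd with h1 | h1
  · exact absurd h1 (CharP.char_ne_one (Zb ⧸ 𝔪) q)
  · exact h1 ▸ hq

/-! ### Matrix representations as `ResidualGaloisRep` -/

/-- A matrix representation `G_ℚ →* M₂(k)` of finite level, as a `ResidualGaloisRep k`
(on `Fin 2 → k`). -/
noncomputable def ofMatrix {k : Type} [Field k] (ρ : GQ →* Matrix (Fin 2) (Fin 2) k)
    (h : GaloisFactorsThroughFiniteLevel ρ) : ResidualGaloisRep k where
  V := Fin 2 → k
  finrank_eq := by simp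
  ρ := (Matrix.toLinAlgEquiv' : Matrix (Fin 2) (Fin 2) k ≃ₐ[k] _).toAlgHom.toMonoidHom.comp ρ
  factorsThroughFiniteLevel := by
    obtain ⟨L, hL, h1⟩ := h
    exact ⟨L, hL, fun σ hσ => by rw [MonoidHom.comp_apply, h1 σ hσ, map_one]⟩

theorem ofMatrix_apply {k : Type} [Field k] (ρ : GQ →* Matrix (Fin 2) (Fin 2) k)
    (h : GaloisFactorsThroughFiniteLevel ρ) (σ : GQ) :
    (ofMatrix ρ h).ρ σ = Matrix.toLin' (ρ σ) := rfl

theorem charpoly_ofMatrix {k : Type} [Field k] (ρ : GQ →* Matrix (Fin 2) (Fin 2) k)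
    (h : GaloisFactorsThroughFiniteLevel ρ) (σ : GQ) :
    LinearMap.charpoly ((ofMatrix ρ h).ρ σ) = (ρ σ).charpoly := by
  rw [ofMatrix_apply]
  exact Matrix.charpoly_toLin' (ρ σ)

theorem ofMatrix_eq_one {k : Type} [Field k] (ρ : GQ →* Matrix (Fin 2) (Fin 2) k)
    (h : GaloisFactorsThroughFiniteLevel ρ) {σ : GQ} (hσ : ρ σ = 1) :
    (ofMatrix ρ h).ρ σ = 1 := by
  rw [ofMatrix_apply, hσ]
  exact Matrix.toLin'_one

/-- Push a matrix representation along a ring homomorphism of the coefficients. -/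
noncomputable def mapMatrixHom {K k : Type} [Field K] [Field k] (ι : K →+* k)
    (ρ : GQ →* Matrix (Fin 2) (Fin 2) K) : GQ →* Matrix (Fin 2) (Fin 2) k :=
  (ι.mapMatrix (m := Fin 2)).toMonoidHom.comp ρ

theorem mapMatrixHom_apply {K k : Type} [Field K] [Field k] (ι : K →+* k)
    (ρ : GQ →* Matrix (Fin 2) (Fin 2) K) (σ : GQ) :
    mapMatrixHom ι ρ σ = (ρ σ).map ι := rfl

theorem charpoly_mapMatrixHom {K k : Type} [Field K] [Field k] (ι : K →+* k)
    (ρ : GQ →* Matrix (Fin 2) (Fin 2) K) (σ : GQ) :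
    (mapMatrixHom ι ρ σ).charpoly = (ρ σ).charpoly.map ι := by
  rw [mapMatrixHom_apply]
  exact Matrix.charpoly_map (ρ σ) ι

theorem mapMatrixHom_eq_one {K k : Type} [Field K] [Field k] (ι : K →+* k)
    (ρ : GQ →* Matrix (Fin 2) (Fin 2) K) {σ : GQ} (hσ : ρ σ = 1) :
    mapMatrixHom ι ρ σ = 1 := by
  rw [mapMatrixHom, MonoidHom.comp_apply, hσ, map_one]

theorem factorsThroughFiniteLevel_mapMatrixHom {K k : Type} [Field K] [Field k] (ι : K →+* k)
    (ρ : GQ →* Matrix (Fin 2) (Fin 2) K) (h : GaloisFactorsThroughFiniteLevel ρ) :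
    GaloisFactorsThroughFiniteLevel (mapMatrixHom ι ρ) := by
  obtain ⟨L, hL, h1⟩ := h
  exact ⟨L, hL, fun σ hσ => mapMatrixHom_eq_one ι ρ (h1 σ hσ)⟩

/-- The trivial matrix representation. -/
theorem factorsThroughFiniteLevel_one {M : Type} [Monoid M] :
    GaloisFactorsThroughFiniteLevel (1 : GQ →* M) :=
  ⟨⊥, inferInstance, fun _ _ => rfl⟩

end Fermat.Agent.S29.TopAlg
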