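import Mathlib
import Fermat.Agent.S29.Plan
import Fermat.Agent.S29.TopAlg

/-!
# S29 / S42 route: the top of S29 (owner: helper90)

`top29Statement : Plan.Top29Statement` — the frozen S29 statement from the matrix-valued core
`Plan.CoreAt N p` at all levels `N ≠ 0` and all primes `p`.

* `N = 0`: the trivial representation on `k²` (both clauses of S29 are vacuous).
* `N ≠ 0`: `𝔪 := ker φ` is maximal, `𝔽 := ℤ̄ ⧸ 𝔪` is an algebraically closed field of
  characteristic `p` (`TopAlg`), the core at `ψ := Ideal.Quotient.mk 𝔪` gives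
  `ρ₀ : G_ℚ →* M₂(𝔽)`; push it along `RingHom.kerLift φ : 𝔽 →+* k` and view it on `Fin 2 → k`.
-/

set_option autoImplicit false

open Polynomial CongruenceSubgroup

namespace Fermat.Agent.S29.Top29

open Fermat.Agent.S29

theorem top29Statement : Plan.Top29Statement := by
  intro hcore N g hg p hp k _ _ φ
  by_cases hN : N = 0
  · subst hN
    refine ⟨TopAlg.ofMatrix 1 TopAlg.factorsThroughFiniteLevel_one, ?_, ?_⟩
    · intro ℓ hℓ hℓN
      exact absurd (dvd_zero ℓ) hℓN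
    · intro ℓ hℓ hℓN
      exact absurd (by rw [zero_mul]; exact dvd_zero ℓ) hℓN
  · have hmax : (RingHom.ker φ).IsMaximal := TopAlg.ker_isMaximal hp φ
    let _ : Field (Zb ⧸ RingHom.ker φ) := Ideal.Quotient.field _
    have : IsAlgClosed (Zb ⧸ RingHom.ker φ) := TopAlg.isAlgClosed_quotient _
    have hpker : (p : Zb) ∈ RingHom.ker φ := by
      rw [RingHom.mem_ker, map_natCast, CharP.cast_eq_zero]
    have : CharP (Zb ⧸ RingHom.ker φ) p := TopAlg.charP_quotient _ hp hpker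
    obtain ⟨ρ₀, hfin, hchar, hin⟩ :=
      hcore N p hN hp g hg (Zb ⧸ RingHom.ker φ) (Ideal.Quotient.mk _)
    let ι : (Zb ⧸ RingHom.ker φ) →+* k := RingHom.kerLift φ
    refine ⟨TopAlg.ofMatrix (TopAlg.mapMatrixHom ι ρ₀)
      (TopAlg.factorsThroughFiniteLevel_mapMatrixHom ι ρ₀ hfin), ?_, ?_⟩
    · intro ℓ hℓ hℓN hℓk A hA σ hσ
      have hℓp : ℓ ≠ p := by
        rintro rfl
        exact hℓk (CharP.cast_eq_zero k ℓ)
      obtain ⟨a, ha, hc⟩ := hchar ℓ hℓ hℓN hℓp A hA σ hσ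
      refine ⟨a, ha, ?_⟩
      rw [TopAlg.charpoly_ofMatrix, TopAlg.charpoly_mapMatrixHom, hc]
      have hιa : ι (Ideal.Quotient.mk (RingHom.ker φ) a) = φ a := RingHom.kerLift_mk φ a
      simp [hιa]
    · intro ℓ hℓ hℓNp A hA τ hτ
      have hℓN : ¬ ℓ ∣ N := fun h => hℓNp (dvd_mul_of_dvd_left h p)
      have hℓp : ℓ ≠ p := by
        rintro rfl
        exact hℓNp (dvd_mul_left _ _)
      exact TopAlg.ofMatrix_eq_one _ _
        (TopAlg.mapMatrixHom_eq_one ι ρ₀ (hin ℓ hℓ hℓN hℓp A hA τ hτ))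

end Fermat.Agent.S29.Top29
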