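import Mathlib
import Fermat.Prelude.Def_FreyPackage_EigenformResidualAttachment
import Fermat.Prelude.Def_GaloisRep_Residual
import Fermat.Agent.S13.CardBound

/-!
# S29 / S42 route, leaf [S42-GLUE] (owner: helper90)

`S42` (the prelude property `FreyPackage.EigenformResidualAttachmentAt M`) from the first clause of
`S29` (existence of a `ResidualGaloisRep` attached to every normalised eigenform of level `M`).

* `exists_numberField_of_finiteLevel` : a monoid hom out of the absolute Galois group that factors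
  through a finite level factors, together with the mod-`p` representation of the Frey curve,
  through the Galois group of one finite Galois number field (normal closure of the compositum of
  the level field with the field generated by the coordinates of the finitely many `p`-torsion
  points of the Frey curve; finiteness is the landed `S13.CardBound.frey_tors_finite`).
* `trace_eq_of_charpoly`, `det_eq_of_charpoly` : trace and determinant from a quadratic
  characteristic polynomial on a 2-dimensional space.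
* `attachmentAt_of_residual`, `attachmentAt_of_forall` : the glue.
-/

set_option autoImplicit false

open Polynomial WeierstrassCurve.Affine WeierstrassCurve.Affine.Point

namespace Fermat.Agent.S29.S42Glue

local notation "Qb" => AlgebraicClosure ℚ
local notation "GQ" => (AlgebraicClosure ℚ ≃ₐ[ℚ] AlgebraicClosure ℚ)
local notation "Zb" => integralClosure ℤ ℂ

theorem isAlgClosure_rat : IsAlgClosure ℚ Qb := by
  have h : (DivisionRing.toRatAlgebra : Algebra ℚ Qb) = AlgebraicClosure.instAlgebra ℚ :=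
    Subsingleton.elim _ _
  rw [h]
  infer_instance

attribute [local instance] isAlgClosure_rat

/-- The coordinates of a point of an affine Weierstrass curve, as a finite set. -/
def coords {K : Type*} [Field K] {W : WeierstrassCurve.Affine K} : W.Point → Set K
  | .zero => ∅
  | .some x y _ => {x, y}

theorem coords_finite {K : Type*} [Field K] {W : WeierstrassCurve.Affine K} (pt : W.Point) :
    (coords pt).Finite := by
  cases pt with
  | zero => exact Set.finite_empty
  | some x y h => exact Set.toFinite {x, y}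

/-- A field automorphism fixing the coordinates of a point fixes the point. -/
theorem smul_eq_of_coords [DecidableEq Qb] (W : WeierstrassCurve ℚ) (σ : GQ)
    (pt : (W⁄Qb).Point) (h : ∀ z ∈ coords pt, σ z = z) : σ • pt = pt := by
  rw [algEquiv_smul_def]
  cases pt with
  | zero => rfl
  | some x y hxy =>
    have hx : σ x = x := h x (by simp [coords])
    have hy : σ y = y := h y (by simp [coords])
    rw [WeierstrassCurve.Affine.Point.map_some]
    congr 1

/-- kernel of restriction to a normal subextension fixes it pointwise. -/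
theorem apply_eq_of_mem_ker (F : Type) [Field F] [Algebra ℚ F] [Algebra F Qb]
    [IsScalarTower ℚ F Qb] [Normal ℚ F] (σ : GQ)
    (hσ : σ ∈ (AlgEquiv.restrictNormalHom (F := ℚ) (K₁ := Qb) F).ker) (x : F) :
    σ (algebraMap F Qb x) = algebraMap F Qb x := by
  have h1 : AlgEquiv.restrictNormalHom (F := ℚ) (K₁ := Qb) F σ = 1 := hσ
  have h2 := AlgEquiv.restrictNormal_commutes σ F x
  have h3 : σ.restrictNormal F = 1 := h1
  rw [h3] at h2
  exact h2.symm

/-- All `ℚ`-algebra structures on a field agree: transport of `IsGalois` / `IsScalarTower`. -/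
theorem transport_algebra {F : Type} [Field F] [Algebra F Qb] (a b : Algebra ℚ F)
    (h1 : @IsGalois ℚ _ F _ a) (h2 : @IsScalarTower ℚ F Qb a.toSMul _ _) :
    @IsGalois ℚ _ F _ b ∧ @IsScalarTower ℚ F Qb b.toSMul _ _ := by
  obtain rfl : a = b := Subsingleton.elim _ _
  exact ⟨h1, h2⟩

/-- **(G1)** finite level for the Frey representation and `ρ` simultaneously, as one Galois number
field. -/
theorem exists_numberField_of_finiteLevel [inst : DecidableEq Qb] (P : FreyPackage)
    {M : Type} [Monoid M] (ρ : GQ →* M) (hρ : GaloisFactorsThroughFiniteLevel ρ) :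
    ∃ (F : Type) (_ : Field F) (_ : NumberField F) (_ : IsGalois ℚ F)
      (_ : Algebra F Qb) (_ : IsScalarTower ℚ F Qb),
      (AlgEquiv.restrictNormalHom (F := ℚ) (K₁ := Qb) F).ker ≤
        (galoisRepModuleEnd (S := ℚ) (K := Qb) P.freyCurve P.p).ker ⊓ ρ.ker := by
  obtain ⟨L, hL, hLρ⟩ := hρ
  have hfin : Finite (Submodule.torsionBy ℤ (P.freyCurve⁄Qb).Point P.p) := by
    obtain rfl : inst = instDecEqAlgebraicClosureRat := Subsingleton.elim _ _
    exact Fermat.Agent.S13.CardBound.frey_tors_finite P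
  -- the finite set of coordinates of the torsion points
  let S : Set Qb := ⋃ t : Submodule.torsionBy ℤ (P.freyCurve⁄Qb).Point P.p, coords t.1
  have hS : S.Finite := Set.finite_iUnion (fun t => coords_finite _)
  have hSfin : Finite S := hS.to_subtype
  let L₂ : IntermediateField ℚ Qb := IntermediateField.adjoin ℚ S
  have hL₂ : FiniteDimensional ℚ L₂ :=
    IntermediateField.finiteDimensional_adjoin
      (fun x _ => ((isAlgClosure_rat.isAlgebraic).isAlgebraic x).isIntegral)
  let L₃ : IntermediateField ℚ Qb := L ⊔ L₂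
  have hL₃ : FiniteDimensional ℚ L₃ := IntermediateField.finiteDimensional_sup L L₂
  let N : IntermediateField ℚ Qb := IntermediateField.normalClosure ℚ L₃ Qb
  have hLN : L₃ ≤ N := IntermediateField.le_normalClosure L₃
  have hNfd : FiniteDimensional ℚ N := normalClosure.is_finiteDimensional ℚ L₃ Qb
  have hNnormal : Normal ℚ N := normalClosure.normal ℚ L₃ Qb
  have nf : NumberField N := NumberField.of_module_finite ℚ N
  have hgal0 : IsGalois ℚ ↥N := IsGalois.mk
  have htow0 : IsScalarTower ℚ ↥N Qb := inferInstance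
  have key : ∀ (a : Algebra ℚ ↥N),
      @IsGalois ℚ _ ↥N _ a ∧ @IsScalarTower ℚ ↥N Qb a.toSMul _ _ :=
    fun a => transport_algebra _ a hgal0 htow0
  refine ⟨↥N, inferInstance, nf, (key _).1, inferInstance, (key _).2, ?_⟩
  intro σ hσ
  have hfix : ∀ x ∈ N, σ x = x := by
    intro x hx
    exact @apply_eq_of_mem_ker ↥N _ _ _ _ _ σ hσ ⟨x, hx⟩
  refine Subgroup.mem_inf.mpr ⟨MonoidHom.mem_ker.mpr ?_, MonoidHom.mem_ker.mpr ?_⟩
  · -- Frey representation
    refine LinearMap.ext fun t => Subtype.ext ?_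
    change σ • (t : (P.freyCurve⁄Qb).Point) = t
    refine smul_eq_of_coords _ σ _ fun z hz => hfix z (hLN ?_)
    have hzS : z ∈ S := Set.mem_iUnion.mpr ⟨t, hz⟩
    exact (le_sup_right : L₂ ≤ L₃) (IntermediateField.subset_adjoin ℚ S hzS)
  · exact hLρ σ fun x hx => hfix x (hLN ((le_sup_left : L ≤ L₃) hx))

/-- trace from a quadratic characteristic polynomial on a 2-dimensional space. -/
theorem trace_eq_of_charpoly {K V : Type*} [Field K] [AddCommGroup V] [Module K V]
    [Module.Finite K V]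
    (h2 : Module.finrank K V = 2) (f : V →ₗ[K] V) (t d : K)
    (hf : LinearMap.charpoly f = X ^ 2 - C t * X + C d) : LinearMap.trace K V f = t := by
  let b := Module.finBasisOfFinrankEq K V h2
  rw [LinearMap.trace_eq_matrix_trace K b f, Matrix.trace_eq_neg_charpoly_coeff,
    LinearMap.charpoly_toMatrix, hf]
  simp [coeff_C]

/-- determinant from a quadratic characteristic polynomial on a 2-dimensional space. -/
theorem det_eq_of_charpoly {K V : Type*} [Field K] [AddCommGroup V] [Module K V]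
    [Module.Finite K V]
    (h2 : Module.finrank K V = 2) (f : V →ₗ[K] V) (t d : K)
    (hf : LinearMap.charpoly f = X ^ 2 - C t * X + C d) : LinearMap.det f = d := by
  rw [LinearMap.det_eq_sign_charpoly_coeff, h2, hf]
  simp [coeff_X, coeff_C]

/-- **(G2)** `S42` at level `M` from attached residual representations (any coefficient field of
characteristic `p`, any `ψ` killing `𝔪`). -/
theorem attachmentAt_of_residual (P : FreyPackage) (M : ℕ)
    (h : ∀ g : CuspForm (CongruenceSubgroup.Gamma0 M) 2, g.IsNormalizedEigenform →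
      ∀ 𝔪 : Ideal Zb, 𝔪.IsMaximal → (P.p : Zb) ∈ 𝔪 →
        ∃ (K : Type) (_ : Field K) (_ : CharP K P.p) (ψ : Zb →+* K) (ρ : ResidualGaloisRep K),
          𝔪 ≤ RingHom.ker ψ ∧ ρ.IsAttachedTo g ψ) :
    P.EigenformResidualAttachmentAt M := by
  intro g hg 𝔪 h𝔪 hp𝔪
  obtain ⟨K, instK, instC, ψ, ρ, hψ, hatt⟩ := h g hg 𝔪 h𝔪 hp𝔪
  obtain ⟨F, i1, i2, i3, i4, i5, hF⟩ :=
    exists_numberField_of_finiteLevel P ρ.ρ ρ.factorsThroughFiniteLevel
  have hne : ∀ ℓ : ℕ, ℓ.Prime → ℓ ≠ P.p → (ℓ : K) ≠ 0 := by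
    intro ℓ hℓ hℓp h0
    have hdvd : P.p ∣ ℓ := (CharP.cast_eq_zero_iff K P.p ℓ).mp h0
    exact hℓp ((Nat.prime_dvd_prime_iff_eq P.pp hℓ).mp hdvd).symm
  refine ⟨K, instK, ZMod.algebra K P.p, ρ.V, inferInstance, inferInstance, ρ.ρ, ψ,
    F, i1, i2, i3, i4, i5, hψ, ρ.finrank_eq, hF, ?_, ?_⟩
  · intro ℓ hℓ hℓM hℓp A hA τ hτ
    obtain ⟨a, ha, hchar⟩ := hatt ℓ hℓ hℓM (hne ℓ hℓ hℓp) A hA τ hτ
    exact ⟨a, ha, trace_eq_of_charpoly ρ.finrank_eq _ _ _ hchar⟩
  · intro ℓ hℓ hℓM hℓp A hA τ hτ
    obtain ⟨a, -, hchar⟩ := hatt ℓ hℓ hℓM (hne ℓ hℓ hℓp) A hA τ hτ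
    exact det_eq_of_charpoly ρ.finrank_eq _ _ _ hchar

/-- **(G2′)** `S42` at level `M` from the first clause of `S29` at level `M`, verbatim. -/
theorem attachmentAt_of_forall (P : FreyPackage) (M : ℕ)
    (h : ∀ g : CuspForm (CongruenceSubgroup.Gamma0 M) 2, g.IsNormalizedEigenform →
      ∀ (k : Type) [Field k] [CharP k P.p] (φ : Zb →+* k),
        ∃ ρ : ResidualGaloisRep k, ρ.IsAttachedTo g φ) :
    P.EigenformResidualAttachmentAt M := by
  refine attachmentAt_of_residual P M fun g hg 𝔪 h𝔪 hp𝔪 => ?_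
  let _ : Field (Zb ⧸ 𝔪) := Ideal.Quotient.field 𝔪
  have hchar : CharP (Zb ⧸ 𝔪) P.p := by
    obtain ⟨q, hq⟩ := CharP.exists (Zb ⧸ 𝔪)
    have h0 : ((P.p : ℕ) : Zb ⧸ 𝔪) = 0 := by
      have : (Ideal.Quotient.mk 𝔪) (P.p : Zb) = 0 := Ideal.Quotient.eq_zero_iff_mem.mpr hp𝔪
      simpa using this
    have hdvd : q ∣ P.p := (CharP.cast_eq_zero_iff (Zb ⧸ 𝔪) q P.p).mp h0
    rcases (Nat.dvd_prime P.pp).mp hdvd with h1 | h1
    · exact absurd h1 (CharP.char_ne_one (Zb ⧸ 𝔪) q)
    · exact h1 ▸ hq
  obtain ⟨ρ, hρ⟩ := h g hg (Zb ⧸ 𝔪) (Ideal.Quotient.mk 𝔪)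
  exact ⟨Zb ⧸ 𝔪, inferInstance, hchar, Ideal.Quotient.mk 𝔪, ρ, by simp, hρ⟩

/-- **(G3)** the frozen `S42` statement from the frozen `S29` statement (as a hypothesis). -/
theorem s42_of_s29
    (hS29 : ∀ {N : ℕ} {g : CuspForm (CongruenceSubgroup.Gamma0 N) 2}
      (_ : g.IsNormalizedEigenform) {p : ℕ} (_ : p.Prime) {k : Type} [Field k] [CharP k p]
      (φ : Zb →+* k),
      ∃ ρ : ResidualGaloisRep k, ρ.IsAttachedTo g φ ∧
        ∀ ℓ : ℕ, ℓ.Prime → ¬ ℓ ∣ N * p → ρ.IsUnramifiedAt ℓ)
    (P : FreyPackage) : ∀ M : ℕ, 0 < M → P.EigenformResidualAttachmentAt M :=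
  fun M _ => attachmentAt_of_forall P M fun _ hg _ _ _ φ =>
    let ⟨ρ, h, _⟩ := hS29 hg P.pp φ
    ⟨ρ, h⟩

end Fermat.Agent.S29.S42Glue
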