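import Mathlib
import Fermat.Agent.S29.Plan
import Fermat.Agent.S29.S42Glue

/-!
# S29 / S42 route, leaf [Top42] (owner: helper120)

`top42Statement : Plan.Top42Statement` — the frozen S42 property
`FreyPackage.EigenformResidualAttachmentAt M` from the matrix-valued core `Plan.CoreAt` in residue
characteristic `≥ 5`.

* `exists_root_Zb` : every monic polynomial of nonzero degree over `ℤ̄ = integralClosure ℤ ℂ` has a
  root in `ℤ̄` (`ℂ` is algebraically closed; a root of a monic polynomial over `ℤ̄` is integral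
  over `ℤ̄`, hence over `ℤ`).
* `isAlgClosed_quotient` : `ℤ̄ ⧸ 𝔪` is algebraically closed for a maximal ideal `𝔪`.
* `charP_quotient` : `ℤ̄ ⧸ 𝔪` has characteristic `p` if `p ∈ 𝔪`, `p` prime.
* `toRep` : a matrix-valued homomorphism as a `Representation` on `Fin 2 → K`.
* `top42Statement` : the top.  The coefficient field is `K := ℤ̄ ⧸ 𝔪` with `ψ := mk`, the space is
  `Fin 2 → K`, the number field is the one of `S42Glue.exists_numberField_of_finiteLevel`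
  (helper90), trace and determinant are read off the characteristic polynomial.
-/

set_option autoImplicit false

noncomputable section

open Polynomial

namespace Fermat.Agent.S29.Top42

open Fermat.Agent.S29

/-- Every monic polynomial of nonzero degree over `ℤ̄` has a root in `ℤ̄`. -/
theorem exists_root_Zb (q : Zb[X]) (hq : q.Monic) (hdeg : q.degree ≠ 0) :
    ∃ z : Zb, q.eval z = 0 := by
  have h1 : (q.map (algebraMap Zb ℂ)).degree ≠ 0 := by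
    rw [hq.degree_map]
    exact hdeg
  obtain ⟨z, hz⟩ := IsAlgClosed.exists_root (q.map (algebraMap Zb ℂ)) h1
  have hint : IsIntegral Zb z := ⟨q, hq, by rwa [IsRoot.def, eval_map] at hz⟩
  have hz' : z ∈ integralClosure ℤ ℂ := isIntegral_trans (R := ℤ) (A := Zb) z hint
  refine ⟨⟨z, hz'⟩, ?_⟩
  have hinj : Function.Injective (algebraMap Zb ℂ) := Subtype.coe_injective
  apply hinj
  rw [map_zero, ← eval₂_at_apply, ← eval_map]
  exact hz

/-- `ℤ̄ ⧸ 𝔪` is an algebraically closed field. -/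
theorem isAlgClosed_quotient (𝔪 : Ideal Zb) [𝔪.IsMaximal] :
    @IsAlgClosed (Zb ⧸ 𝔪) (Ideal.Quotient.field 𝔪) := by
  let _ : Field (Zb ⧸ 𝔪) := Ideal.Quotient.field 𝔪
  refine IsAlgClosed.of_exists_root _ fun f hf hirr => ?_
  have hlift : f ∈ lifts (Ideal.Quotient.mk 𝔪) :=
    (mem_lifts f).mpr (map_surjective _ Ideal.Quotient.mk_surjective f)
  obtain ⟨q, hqf, hqdeg, hq⟩ := lifts_and_degree_eq_and_monic hlift hf
  have hdeg : q.degree ≠ 0 := by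
    rw [hqdeg]
    exact fun h0 => hirr.not_isUnit (isUnit_iff_degree_eq_zero.mpr h0)
  obtain ⟨z, hz⟩ := exists_root_Zb q hq hdeg
  refine ⟨Ideal.Quotient.mk 𝔪 z, ?_⟩
  rw [← hqf, eval_map, eval₂_at_apply, hz, map_zero]

/-- `ℤ̄ ⧸ 𝔪` has characteristic `p` as soon as the prime `p` lies in `𝔪`. -/
theorem charP_quotient (𝔪 : Ideal Zb) [𝔪.IsMaximal] {p : ℕ} (hp : p.Prime)
    (hp𝔪 : (p : Zb) ∈ 𝔪) : CharP (Zb ⧸ 𝔪) p := by
  let _ : Field (Zb ⧸ 𝔪) := Ideal.Quotient.field 𝔪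
  obtain ⟨q, hq⟩ := CharP.exists (Zb ⧸ 𝔪)
  have h0 : ((p : ℕ) : Zb ⧸ 𝔪) = 0 := by
    have : (Ideal.Quotient.mk 𝔪) (p : Zb) = 0 := Ideal.Quotient.eq_zero_iff_mem.mpr hp𝔪
    simpa using this
  have hdvd : q ∣ p := (CharP.cast_eq_zero_iff (Zb ⧸ 𝔪) q p).mp h0
  rcases (Nat.dvd_prime hp).mp hdvd with h1 | h1
  · exact absurd h1 (CharP.char_ne_one (Zb ⧸ 𝔪) q)
  · exact h1 ▸ hq

/-- A matrix-valued homomorphism as a representation on `Fin 2 → K`. -/
def toRep {K : Type} [Field K] {G : Type} [Monoid G] (ρ : G →* Matrix (Fin 2) (Fin 2) K) :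
    Representation K G (Fin 2 → K) :=
  ((Matrix.toLinAlgEquiv' : Matrix (Fin 2) (Fin 2) K ≃ₐ[K] _) : _ →* _).comp ρ

theorem toRep_apply {K : Type} [Field K] {G : Type} [Monoid G]
    (ρ : G →* Matrix (Fin 2) (Fin 2) K) (g : G) : toRep ρ g = Matrix.toLin' (ρ g) := rfl

theorem toRep_finiteLevel {K : Type} [Field K] (ρ : GQ →* Matrix (Fin 2) (Fin 2) K)
    (h : GaloisFactorsThroughFiniteLevel ρ) : GaloisFactorsThroughFiniteLevel (toRep ρ) := by
  obtain ⟨L, hL, hρ⟩ := h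
  refine ⟨L, hL, fun σ hσ => ?_⟩
  rw [toRep_apply, hρ σ hσ]
  exact map_one (Matrix.toLinAlgEquiv' : Matrix (Fin 2) (Fin 2) K ≃ₐ[K] _)

/-- **[Top42]** the frozen S42 property from the core in residue characteristic `≥ 5`. -/
theorem top42Statement : Plan.Top42Statement := by
  classical
  intro hcore P M hM g hg 𝔪 h𝔪 hp𝔪
  let _ : Field (Zb ⧸ 𝔪) := Ideal.Quotient.field 𝔪
  have hAC : IsAlgClosed (Zb ⧸ 𝔪) := isAlgClosed_quotient 𝔪
  have hchar : CharP (Zb ⧸ 𝔪) P.p := charP_quotient 𝔪 P.pp hp𝔪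
  obtain ⟨ρ, hfin, hfrob, -⟩ :=
    hcore M P.p hM.ne' P.pp P.hp5 g hg (Zb ⧸ 𝔪) (Ideal.Quotient.mk 𝔪)
  obtain ⟨F, i1, i2, i3, i4, i5, hF⟩ :=
    S42Glue.exists_numberField_of_finiteLevel P (toRep ρ) (toRep_finiteLevel ρ hfin)
  have h2 : Module.finrank (Zb ⧸ 𝔪) (Fin 2 → Zb ⧸ 𝔪) = 2 := by
    rw [Module.finrank_fin_fun]
  refine ⟨Zb ⧸ 𝔪, inferInstance, ZMod.algebra (Zb ⧸ 𝔪) P.p, Fin 2 → Zb ⧸ 𝔪, inferInstance,
    inferInstance, toRep ρ, Ideal.Quotient.mk 𝔪, F, i1, i2, i3, i4, i5, ?_, h2, hF, ?_, ?_⟩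
  · rw [Ideal.mk_ker]
  · intro ℓ hℓ hℓM hℓp A hA τ hτ
    obtain ⟨a, ha, hchar⟩ := hfrob ℓ hℓ hℓM hℓp A hA τ hτ
    refine ⟨a, ha, ?_⟩
    refine S42Glue.trace_eq_of_charpoly h2 _ _ (ℓ : Zb ⧸ 𝔪) ?_
    rw [toRep_apply, Matrix.charpoly_toLin']
    exact hchar
  · intro ℓ hℓ hℓM hℓp A hA τ hτ
    obtain ⟨a, -, hchar⟩ := hfrob ℓ hℓ hℓM hℓp A hA τ hτ
    refine S42Glue.det_eq_of_charpoly h2 _ (Ideal.Quotient.mk 𝔪 a) _ ?_
    rw [toRep_apply, Matrix.charpoly_toLin']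
    exact hchar

end Fermat.Agent.S29.Top42
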