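/-
S29 + S42 — Asm.lean (helper85, integration captain): the assembly of every landed block.

Both frozen statements are reduced to the single remaining block [K]
(`KStatement N p`, the Hecke-equivariant injection `Lpar N / p → J₀(N)[p]`):

* `s29_of_k` : `(∀ N p [NeZero N], p.Prime → KStatement N p)` ⟹ the frozen S29 statement;
* `s42_of_k` : `(∀ N p [NeZero N], p.Prime → 5 ≤ p → KStatement N p)` ⟹ the frozen S42 statement.

Blocks used (all on main, sorry-free): `Plan` (tops, module and core glue), `Top29`, `Top42`,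
`PSQ.psStatement` ([PS]), `FD.fdStatement` ([FD]), `Cyc.cycStatement` ([Cyc]),
`specCoreStatement` (S37 input), `ESGH` ([ES-use], [GH], [FL]), `Eig.nvStatement_of_k` ([Eig]).
-/
import Mathlib
import Fermat.Agent.S29.Plan
import Fermat.Agent.S29.Top29
import Fermat.Agent.S29.Top42
import Fermat.Agent.S29.PSBStmt
import Fermat.Agent.S29.FD
import Fermat.Agent.S29.Cyc
import Fermat.Agent.S29.SpecCoreS37
import Fermat.Agent.S29.ESGH
import Fermat.Agent.S29.EigNV

set_option autoImplicit false

open CongruenceSubgroup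

namespace Fermat.Agent.S29.Asm

open Fermat.Agent.S29

/-- **S29 from [K].** -/
theorem s29_of_k (hK : ∀ (N p : ℕ) [NeZero N], p.Prime → KStatement N p)
    {N : ℕ} {g : CuspForm (Gamma0 N) 2} (hg : g.IsNormalizedEigenform)
    {p : ℕ} (hp : p.Prime) {k : Type} [Field k] [CharP k p]
    (φ : integralClosure ℤ ℂ →+* k) :
    ∃ ρ : ResidualGaloisRep k, ρ.IsAttachedTo g φ ∧
      ∀ ℓ : ℕ, ℓ.Prime → ¬ ℓ ∣ N * p → ρ.IsUnramifiedAt ℓ :=
  Plan.s29_of_leaves Top29.top29Statement PSQ.psStatement FD.fdStatement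
    (fun p hp 𝔽 _ _ => Cyc.cycStatement p hp 𝔽)
    (fun N p _ _ => inertiaStatement_of_specCore N p (specCoreStatement N p))
    (fun N p _ _ => esStatement_of_specCore N p (specCoreStatement N p))
    (fun N p _ _ => ghStatement N p)
    (fun N p _ hp => flStatement N p hp.ne_zero)
    (fun N p _ hp _ hg _ _ _ ψ => Eig.nvStatement_of_k N p hp hg ψ (hK N p hp))
    hg hp φ

/-- **S42 from [K]** (only residue characteristics `≥ 5` are needed). -/
theorem s42_of_k (hK : ∀ (N p : ℕ) [NeZero N], p.Prime → 5 ≤ p → KStatement N p)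
    (P : FreyPackage) : ∀ M : ℕ, 0 < M → P.EigenformResidualAttachmentAt M :=
  Plan.s42_of_leaves Top42.top42Statement PSQ.psStatement FD.fdStatement
    (fun p hp _ 𝔽 _ _ => Cyc.cycStatement p hp 𝔽)
    (fun N p _ _ _ => inertiaStatement_of_specCore N p (specCoreStatement N p))
    (fun N p _ _ _ => esStatement_of_specCore N p (specCoreStatement N p))
    (fun N p _ _ _ => ghStatement N p)
    (fun N p _ hp _ => flStatement N p hp.ne_zero)
    (fun N p _ hp hp5 _ hg _ _ _ ψ => Eig.nvStatement_of_k N p hp hg ψ (hK N p hp hp5))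
    P

end Fermat.Agent.S29.Asm
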