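import Mathlib
import Fermat.Agent.LevelOne.JDef
import Fermat.Agent.LevelOne.PolyInJ

/-!
# S29 block [K], leaf (K1a): level-one invariant quotients are rational functions of `j`

OWNER: helper15 (only the owner edits this file).

* `exists_analyticOnNhd_mul_eq`, `exists_mdiff_mul_eq` (L0): holomorphic division. If `F, b` are
  holomorphic on the upper half plane, `b` is not identically zero and the order of `b` is at most
  the order of `F` at every point, then `F = h * b` with `h` holomorphic.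
* `ordH`, `ordH_mul`, `ordH_pow`, `ordH_eq_zero`, `ordH_ne_top`, `ordH_comp_smul` (L2),
  `ordH_le_of_norm_le`: the order of vanishing of a holomorphic function on the upper half plane
  and its basic calculus (products, transport under `SL(2, ℤ)`, comparison from a norm bound).
* `exists_polynomial_of_invariant_quot` (L1): if `a, b` are holomorphic on the upper half plane,
  `b` is not identically zero, `a / b` is `SL(2, ℤ)`-invariant and `Δ ^ m * a = O(b)` at `i∞`,
  then `a * Q(j) = b * P(j)` for polynomials `P`, `Q` with `Q ≠ 0`.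
-/

set_option autoImplicit false

namespace Fermat.Agent.S29.InvRat

open UpperHalfPlane ModularForm EisensteinSeries CongruenceSubgroup Filter Topology Asymptotics
open scoped MatrixGroups ModularForm Manifold Modular
open Fermat.Agent.LevelOne

local notation "Δ" => ModularForm.discriminant

/-! ### Holomorphic division on an open connected subset of `ℂ` -/

theorem exists_analyticOnNhd_mul_eq {U : Set ℂ} (hU : IsOpen U) (hUc : IsPreconnected U)
    {F b : ℂ → ℂ} (hF : AnalyticOnNhd ℂ F U) (hb : AnalyticOnNhd ℂ b U)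
    (hb0 : ∃ z ∈ U, b z ≠ 0)
    (hord : ∀ z ∈ U, analyticOrderAt b z ≤ analyticOrderAt F z) :
    ∃ h : ℂ → ℂ, AnalyticOnNhd ℂ h U ∧ ∀ z ∈ U, h z * b z = F z := by
  have key : ∀ z ∈ U, ∃ q : ℂ → ℂ, AnalyticAt ℂ q z ∧ (∀ᶠ w in 𝓝 z, q w * b w = F w) ∧
      (∀ᶠ w in 𝓝[≠] z, b w ≠ 0) := by
    intro z hz
    have hne : analyticOrderAt b z ≠ ⊤ := by
      intro htop
      obtain ⟨z₁, hz₁, hbz₁⟩ := hb0
      exact hbz₁ (hb.eqOn_zero_of_preconnected_of_eventuallyEq_zero hUc hz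
        (analyticOrderAt_eq_top.mp htop) hz₁)
    obtain ⟨g, hg, hgz, hbg⟩ := (hb z hz).analyticOrderAt_ne_top.1 hne
    have hle : ((analyticOrderNatAt b z : ℕ) : ℕ∞) ≤ analyticOrderAt F z := by
      rw [Nat.cast_analyticOrderNatAt hne]
      exact hord z hz
    obtain ⟨G, hG, hFG⟩ := (natCast_le_analyticOrderAt (hF z hz)).mp hle
    have hgne : ∀ᶠ w in 𝓝 z, g w ≠ 0 := hg.continuousAt.eventually_ne hgz
    refine ⟨fun w => G w / g w, hG.div hg hgz, ?_, ?_⟩
    · filter_upwards [hbg, hFG, hgne] with w h1 h2 h3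
      rw [h1, h2]
      simp only [smul_eq_mul]
      field_simp
    · rw [eventually_nhdsWithin_iff]
      filter_upwards [hbg, hgne] with w h1 h3 hw
      rw [h1]
      simp only [smul_eq_mul]
      exact mul_ne_zero (pow_ne_zero _ (sub_ne_zero.mpr hw)) h3
  choose! q hqa hqe hqb using key
  have hmul : ∀ z ∈ U, q z z * b z = F z := fun z hz => (hqe z hz).self_of_nhds
  refine ⟨fun z => q z z, fun z hz => ?_, hmul⟩
  refine (hqa z hz).congr ?_
  have h1 : ∀ᶠ w in 𝓝[≠] z, q z w = q w w := by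
    have hUz : ∀ᶠ w in 𝓝[≠] z, w ∈ U := (hU.mem_nhds hz |> fun h => nhdsWithin_le_nhds h)
    filter_upwards [hUz, (hqe z hz).filter_mono nhdsWithin_le_nhds, hqb z hz] with w hwU hw1 hw2
    exact mul_right_cancel₀ hw2 (hw1.trans (hmul w hwU).symm)
  rw [EventuallyEq, ← nhdsNE_sup_pure z, eventually_sup]
  exact ⟨h1, by simp⟩

/-! ### Orders of holomorphic functions on the upper half plane -/

/-- The order of vanishing at `z` of a function on the upper half plane. -/
noncomputable def ordH (f : ℍ → ℂ) (z : ℍ) : ℕ∞ := analyticOrderAt (f ∘ ofComplex) (z : ℂ)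

theorem analyticOnNhd_comp_ofComplex {f : ℍ → ℂ} (hf : MDiff f) :
    AnalyticOnNhd ℂ (f ∘ ofComplex) {z : ℂ | 0 < z.im} :=
  (UpperHalfPlane.mdifferentiable_iff.mp hf).analyticOnNhd isOpen_upperHalfPlaneSet

theorem analyticAt_comp_ofComplex {f : ℍ → ℂ} (hf : MDiff f) (z : ℍ) :
    AnalyticAt ℂ (f ∘ ofComplex) (z : ℂ) :=
  analyticOnNhd_comp_ofComplex hf z z.im_pos

theorem isPreconnected_upperHalfPlaneSet : IsPreconnected {z : ℂ | 0 < z.im} :=
  (Complex.isConnected_of_upperHalfPlane subset_rfl (by grind)).isPreconnected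

theorem eq_zero_of_eventually {f : ℍ → ℂ} (hf : MDiff f) {τ : ℍ} (h : ∀ᶠ z in 𝓝 τ, f z = 0) :
    f = 0 :=
  UpperHalfPlane.eq_zero_of_frequently hf (h.filter_mono nhdsWithin_le_nhds).frequently

theorem mul_eq_zero_of_mdiff {f g : ℍ → ℂ} (hf : MDiff f) (hg : MDiff g)
    (h : ∀ z, f z * g z = 0) : f = 0 ∨ g = 0 := by
  by_cases hg0 : g = 0
  · exact Or.inr hg0
  left
  obtain ⟨z₀, hz₀⟩ : ∃ z₀, g z₀ ≠ 0 := by
    by_contra hcon
    simp only [not_exists, not_not] at hcon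
    exact hg0 (funext hcon)
  refine eq_zero_of_eventually hf (τ := z₀) ?_
  filter_upwards [hg.continuous.continuousAt.eventually_ne hz₀] with z hz
  exact (mul_eq_zero.mp (h z)).resolve_right hz

theorem ordH_mul {f g : ℍ → ℂ} (hf : MDiff f) (hg : MDiff g) (z : ℍ) :
    ordH (f * g) z = ordH f z + ordH g z :=
  analyticOrderAt_mul (analyticAt_comp_ofComplex hf z) (analyticAt_comp_ofComplex hg z)

theorem ordH_pow {f : ℍ → ℂ} (hf : MDiff f) (n : ℕ) (z : ℍ) :
    ordH (f ^ n) z = n • ordH f z :=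
  analyticOrderAt_pow (analyticAt_comp_ofComplex hf z) n

theorem ordH_eq_zero {f : ℍ → ℂ} (hf : MDiff f) (z : ℍ) : ordH f z = 0 ↔ f z ≠ 0 := by
  rw [ordH, (analyticAt_comp_ofComplex hf z).analyticOrderAt_eq_zero, Function.comp_apply,
    ofComplex_apply]

theorem ordH_ne_top {f : ℍ → ℂ} (hf : MDiff f) (hf0 : ∃ z, f z ≠ 0) (z : ℍ) : ordH f z ≠ ⊤ := by
  intro htop
  obtain ⟨z₁, hz₁⟩ := hf0
  have h := (analyticOnNhd_comp_ofComplex hf).eqOn_zero_of_preconnected_of_eventuallyEq_zero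
    isPreconnected_upperHalfPlaneSet z.im_pos (analyticOrderAt_eq_top.mp htop) z₁.im_pos
  apply hz₁
  simpa [ofComplex_apply] using h

theorem mdiff_comp_smul {f : ℍ → ℂ} (hf : MDiff f) (γ : SL(2, ℤ)) :
    MDiff (fun w : ℍ => f (γ • w)) := by
  have h : MDiff (fun τ : ℍ => ((γ : SL(2, ℤ)) : GL (Fin 2) ℝ) • τ) :=
    UpperHalfPlane.mdifferentiable_smul (by simp)
  exact hf.comp h

theorem ordH_comp_smul_ge {f : ℍ → ℂ} (hf : MDiff f) (γ : SL(2, ℤ)) (z : ℍ) :
    ordH f (γ • z) ≤ ordH (fun w => f (γ • w)) z := by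
  set g : ℂ → ℂ := fun x => ((γ • ofComplex x : ℍ) : ℂ) with hg
  have hgd : MDiff (fun τ : ℍ => ((γ • τ : ℍ) : ℂ)) := mdiff_comp_smul mdifferentiable_coe γ
  have hga : AnalyticAt ℂ g z := analyticAt_comp_ofComplex hgd z
  have hgz : g z = ((γ • z : ℍ) : ℂ) := by simp [hg, ofComplex_apply]
  have hcomp : (fun w => f (γ • w)) ∘ ofComplex = (f ∘ ofComplex) ∘ g := by
    funext x
    simp [hg, ofComplex_apply]
  have hfa : AnalyticAt ℂ (f ∘ ofComplex) (g z) := hgz ▸ analyticAt_comp_ofComplex hf (γ • z)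
  rw [ordH, ordH, hcomp, hfa.analyticOrderAt_comp hga, hgz]
  have hk : analyticOrderAt (fun x => g x - ((γ • z : ℍ) : ℂ)) (z : ℂ) ≠ 0 := by
    rw [analyticOrderAt_ne_zero]
    exact ⟨hga.sub analyticAt_const, by rw [hgz, sub_self]⟩
  exact le_mul_of_one_le_right' (Order.one_le_iff_ne_zero.mpr hk)

theorem ordH_comp_smul {f : ℍ → ℂ} (hf : MDiff f) (γ : SL(2, ℤ)) (z : ℍ) :
    ordH (fun w => f (γ • w)) z = ordH f (γ • z) := by
  refine le_antisymm ?_ (ordH_comp_smul_ge hf γ z)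
  have h := ordH_comp_smul_ge (mdiff_comp_smul hf γ) γ⁻¹ (γ • z)
  simpa using h

theorem analyticOrderAt_le_of_norm_le {A b : ℂ → ℂ} {w : ℂ} (hA : AnalyticAt ℂ A w)
    (hb : AnalyticAt ℂ b w) {C : ℝ} (h : ∀ᶠ x in 𝓝 w, ‖A x‖ ≤ C * ‖b x‖) :
    analyticOrderAt b w ≤ analyticOrderAt A w := by
  by_cases hAtop : analyticOrderAt A w = ⊤
  · rw [hAtop]; exact le_top
  by_cases hbtop : analyticOrderAt b w = ⊤
  · exfalso
    apply hAtop
    rw [analyticOrderAt_eq_top] at hbtop ⊢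
    filter_upwards [h, hbtop] with x hx hbx
    rw [hbx, norm_zero, mul_zero] at hx
    exact norm_le_zero_iff.mp hx
  obtain ⟨A₁, hA₁, hA₁w, hAe⟩ := hA.analyticOrderAt_ne_top.1 hAtop
  obtain ⟨b₁, hb₁, hb₁w, hbe⟩ := hb.analyticOrderAt_ne_top.1 hbtop
  rw [← Nat.cast_analyticOrderNatAt hAtop, ← Nat.cast_analyticOrderNatAt hbtop, Nat.cast_le]
  set l := analyticOrderNatAt A w
  set k := analyticOrderNatAt b w
  by_contra hlk
  have hlk' : l < k := not_le.mp hlk
  have h1 : ∀ᶠ x in 𝓝[≠] w, ‖A₁ x‖ ≤ C * (‖x - w‖ ^ (k - l) * ‖b₁ x‖) := by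
    rw [eventually_nhdsWithin_iff]
    filter_upwards [h, hAe, hbe] with x hx hAx hbx hxw
    have hxw' : 0 < ‖x - w‖ := norm_pos_iff.mpr (sub_ne_zero.mpr hxw)
    rw [hAx, hbx] at hx
    simp only [smul_eq_mul, norm_mul, norm_pow] at hx
    have hk : ‖x - w‖ ^ k = ‖x - w‖ ^ l * ‖x - w‖ ^ (k - l) := by
      rw [← pow_add]; congr 1; omega
    rw [hk] at hx
    have h' : ‖x - w‖ ^ l * ‖A₁ x‖ ≤ ‖x - w‖ ^ l * (C * (‖x - w‖ ^ (k - l) * ‖b₁ x‖)) := by
      calc ‖x - w‖ ^ l * ‖A₁ x‖ ≤ C * (‖x - w‖ ^ l * ‖x - w‖ ^ (k - l) * ‖b₁ x‖) := hx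
        _ = ‖x - w‖ ^ l * (C * (‖x - w‖ ^ (k - l) * ‖b₁ x‖)) := by ring
    exact le_of_mul_le_mul_left h' (pow_pos hxw' l)
  have h2 : Tendsto (fun x => ‖A₁ x‖) (𝓝[≠] w) (𝓝 ‖A₁ w‖) :=
    (hA₁.continuousAt.norm).tendsto.mono_left nhdsWithin_le_nhds
  have h3 : Tendsto (fun x => C * (‖x - w‖ ^ (k - l) * ‖b₁ x‖)) (𝓝[≠] w)
      (𝓝 (C * (‖w - w‖ ^ (k - l) * ‖b₁ w‖))) := by
    have hc : ContinuousAt (fun x => C * (‖x - w‖ ^ (k - l) * ‖b₁ x‖)) w := by
      have hb₁c := hb₁.continuousAt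
      fun_prop
    exact hc.tendsto.mono_left nhdsWithin_le_nhds
  have h4 := le_of_tendsto_of_tendsto h2 h3 h1
  rw [sub_self, norm_zero, zero_pow (by omega), zero_mul, mul_zero] at h4
  exact hA₁w (norm_le_zero_iff.mp h4)

theorem ordH_le_of_norm_le {A b : ℍ → ℂ} (hA : MDiff A) (hb : MDiff b) {C : ℝ} {w : ℍ}
    (h : ∀ᶠ x in 𝓝 w, ‖A x‖ ≤ C * ‖b x‖) : ordH b w ≤ ordH A w := by
  refine analyticOrderAt_le_of_norm_le (analyticAt_comp_ofComplex hA w)
    (analyticAt_comp_ofComplex hb w) (C := C) ?_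
  rw [← isOpenEmbedding_coe.map_nhds_eq, eventually_map]
  filter_upwards [h] with x hx
  simpa [ofComplex_apply] using hx

/-- Holomorphic division on the upper half plane. -/
theorem exists_mdiff_mul_eq {F b : ℍ → ℂ} (hF : MDiff F) (hb : MDiff b) (hb0 : ∃ z, b z ≠ 0)
    (hord : ∀ z : ℍ, ordH b z ≤ ordH F z) : ∃ h : ℍ → ℂ, MDiff h ∧ ∀ z, h z * b z = F z := by
  obtain ⟨z₀, hz₀⟩ := hb0
  obtain ⟨hc, hca, hce⟩ := exists_analyticOnNhd_mul_eq isOpen_upperHalfPlaneSet
    isPreconnected_upperHalfPlaneSet (analyticOnNhd_comp_ofComplex hF)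
    (analyticOnNhd_comp_ofComplex hb) ⟨z₀, z₀.im_pos, by simpa [ofComplex_apply] using hz₀⟩
    (fun z hz => hord ⟨z, hz⟩)
  refine ⟨fun z => hc z, ?_, fun z => ?_⟩
  · rw [UpperHalfPlane.mdifferentiable_iff]
    refine hca.differentiableOn.congr (fun x hx => ?_)
    simp [Function.comp_apply, ofComplex_apply_of_im_pos hx]
  · have := hce z z.im_pos
    simpa [ofComplex_apply] using this

theorem mdiff_eval_jFun (p : Polynomial ℂ) : MDiff (fun z : ℍ => p.eval (jFun z)) := by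
  have hj := UpperHalfPlane.mdifferentiable_iff.mp jFun_mdifferentiable
  rw [UpperHalfPlane.mdifferentiable_iff]
  exact p.differentiable.comp_differentiableOn hj

theorem mdiff_discriminant_pow (m : ℕ) : MDiff (fun z : ℍ => Δ z ^ m) :=
  (ModularFormClass.holo CuspForm.discriminant).pow m

theorem isBoundedAtImInfty_discriminant_mul_sub (c : ℂ) :
    IsBoundedAtImInfty (fun z : ℍ => Δ z * (jFun z - c)) := by
  have h : (fun z : ℍ => Δ z * (jFun z - c)) =
      (fun z : ℍ => E₄ z) * (fun z : ℍ => E₄ z) * (fun z : ℍ => E₄ z)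
        + (fun _ : ℍ => -c) * (fun z : ℍ => Δ z) := by
    funext z
    have := jFun_mul_discriminant z
    simp only [Pi.add_apply, Pi.mul_apply]
    linear_combination this
  rw [h]
  have h4 : IsBoundedAtImInfty (fun z : ℍ => E₄ z) := ModularFormClass.bdd_at_infty E₄
  have hΔ : IsBoundedAtImInfty (fun z : ℍ => Δ z) :=
    ModularFormClass.bdd_at_infty CuspForm.discriminant
  exact ((h4.mul h4).mul h4).add ((const_boundedAtFilter atImInfty (-c)).mul hΔ)

theorem isBoundedAtImInfty_prod (s : Finset ℍ) :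
    IsBoundedAtImInfty (fun z : ℍ => ∏ w ∈ s, (Δ z * (jFun z - jFun w))) := by
  classical
  induction s using Finset.induction_on with
  | empty =>
    simp only [Finset.prod_empty]
    exact const_boundedAtFilter atImInfty (1 : ℂ)
  | insert w s hw ih =>
    have h : (fun z : ℍ => ∏ w' ∈ insert w s, (Δ z * (jFun z - jFun w'))) =
        (fun z : ℍ => Δ z * (jFun z - jFun w)) *
          (fun z : ℍ => ∏ w' ∈ s, (Δ z * (jFun z - jFun w'))) := by
      funext z
      simp [Finset.prod_insert hw]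
    rw [h]
    exact (isBoundedAtImInfty_discriminant_mul_sub _).mul ih

/-- **Level one, meromorphic case.** If `a, b` are holomorphic on the upper half plane, `b ≠ 0`,
the quotient `a / b` is `SL(2, ℤ)`-invariant and `a / b = O(|q| ^ (-m))` at `i∞`, then `a / b` is
a rational function of `j`. -/
theorem exists_polynomial_of_invariant_quot {a b : ℍ → ℂ} (ha : MDiff a) (hb : MDiff b)
    (hb0 : ∃ z, b z ≠ 0)
    (hinv : ∀ (γ : SL(2, ℤ)) (z : ℍ), a (γ • z) * b z = a z * b (γ • z))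
    (m : ℕ) (hbdd : (fun z => Δ z ^ m * a z) =O[atImInfty] b) :
    ∃ P Q : Polynomial ℂ, Q ≠ 0 ∧ ∀ z : ℍ, a z * Q.eval (jFun z) = b z * P.eval (jFun z) := by
  classical
  obtain ⟨C, hC⟩ := hbdd.bound
  obtain ⟨Y₀, hY₀⟩ := (atImInfty_mem _).mp hC
  have hZfin : {z : ℍ | z ∈ ModularGroup.truncatedFundamentalDomain Y₀ ∧ b z = 0}.Finite := by
    by_contra hinf
    obtain ⟨τ, -, hτ⟩ := Set.Infinite.exists_accPt_of_subset_isCompact hinf
      (ModularGroup.isCompact_truncatedFundamentalDomain Y₀) (fun z hz => hz.1)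
    have hfreq : ∃ᶠ z in 𝓝[≠] τ, b z = 0 :=
      (accPt_iff_frequently_nhdsNE.mp hτ).mono (fun z hz => hz.2)
    obtain ⟨z, hz⟩ := hb0
    exact hz (congrFun (UpperHalfPlane.eq_zero_of_frequently hb hfreq) z)
  set s : Finset ℍ := hZfin.toFinset with hs
  set n : ℕ := s.sup (fun w => (ordH b w).toNat) with hn
  set Q₀ : Polynomial ℂ := ∏ w ∈ s, (Polynomial.X - Polynomial.C (jFun w)) with hQ₀
  have hQ₀eval : ∀ z : ℍ, Q₀.eval (jFun z) = ∏ w ∈ s, (jFun z - jFun w) := by
    intro z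
    simp [hQ₀, Polynomial.eval_prod]
  set F : ℍ → ℂ := fun z => (Q₀ ^ n).eval (jFun z) * a z with hF
  have hQj : MDiff (fun z : ℍ => Q₀.eval (jFun z)) := mdiff_eval_jFun Q₀
  have hQnj : MDiff (fun z : ℍ => (Q₀ ^ n).eval (jFun z)) := mdiff_eval_jFun _
  have hFd : MDiff F := hQnj.mul ha
  -- orders at the points of the fundamental domain
  have hfd : ∀ w ∈ 𝒟, ordH b w ≤ ordH F w := by
    intro w hw
    have hFord : ordH F w = ordH (fun z : ℍ => (Q₀ ^ n).eval (jFun z)) w + ordH a w :=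
      ordH_mul hQnj ha w
    by_cases him : w.im ≤ Y₀
    · by_cases hbw : b w = 0
      · have hws : w ∈ s := by
          rw [hs, Set.Finite.mem_toFinset]
          exact ⟨⟨hw, him⟩, hbw⟩
        have h1 : (1 : ℕ∞) ≤ ordH (fun z : ℍ => Q₀.eval (jFun z)) w := by
          rw [Order.one_le_iff_ne_zero, Ne, ordH_eq_zero hQj, not_not, hQ₀eval]
          exact Finset.prod_eq_zero hws (sub_self _)
        have h2 : ordH (fun z : ℍ => (Q₀ ^ n).eval (jFun z)) w =
            n • ordH (fun z : ℍ => Q₀.eval (jFun z)) w := by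
          have h' : (fun z : ℍ => (Q₀ ^ n).eval (jFun z)) =
              (fun z : ℍ => Q₀.eval (jFun z)) ^ n := by
            funext z
            simp [Polynomial.eval_pow]
          rw [h', ordH_pow hQj]
        have h3 : ordH b w = ((ordH b w).toNat : ℕ∞) :=
          (ENat.natCast_toNat (ordH_ne_top hb hb0 w)).symm
        have h4 : (ordH b w).toNat ≤ n := Finset.le_sup (f := fun w => (ordH b w).toNat) hws
        calc ordH b w = ((ordH b w).toNat : ℕ∞) := h3
          _ ≤ (n : ℕ∞) := by exact_mod_cast h4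
          _ = n • (1 : ℕ∞) := by simp
          _ ≤ n • ordH (fun z : ℍ => Q₀.eval (jFun z)) w := nsmul_le_nsmul_right h1 n
          _ = ordH (fun z : ℍ => (Q₀ ^ n).eval (jFun z)) w := h2.symm
          _ ≤ ordH F w := by rw [hFord]; exact le_self_add
      · rw [(ordH_eq_zero hb w).mpr hbw]
        exact zero_le
    · have him' : Y₀ < w.im := not_le.mp him
      have hev : ∀ᶠ x in 𝓝 w, ‖Δ x ^ m * a x‖ ≤ C * ‖b x‖ := by
        have hlt : ∀ᶠ x in 𝓝 w, Y₀ < x.im :=
          (UpperHalfPlane.continuous_im.continuousAt).eventually (lt_mem_nhds him')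
        filter_upwards [hlt] with x hx
        exact hY₀ x hx.le
      have hΔm : MDiff (fun z : ℍ => Δ z ^ m) := mdiff_discriminant_pow m
      have h1 := ordH_le_of_norm_le (A := fun x => Δ x ^ m * a x) (hΔm.mul ha) hb hev
      have h2 : ordH (fun x => Δ x ^ m * a x) w = ordH (fun z : ℍ => Δ z ^ m) w + ordH a w :=
        ordH_mul hΔm ha w
      have h3 : ordH (fun z : ℍ => Δ z ^ m) w = 0 :=
        (ordH_eq_zero hΔm w).mpr (pow_ne_zero m (discriminant_ne_zero w))
      rw [h2, h3, zero_add] at h1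
      rw [hFord]
      exact h1.trans le_add_self
  -- transport to all points
  have hFinv : ∀ (γ : SL(2, ℤ)) (x : ℍ), F (γ • x) * b x = F x * b (γ • x) := by
    intro γ x
    simp only [hF, jFun_smul]
    linear_combination ((Q₀ ^ n).eval (jFun x)) * hinv γ x
  have hord : ∀ z : ℍ, ordH b z ≤ ordH F z := by
    intro z
    obtain ⟨γ, hγ⟩ := ModularGroup.exists_smul_mem_fd z
    have h1 := hfd _ hγ
    have hFγ := mdiff_comp_smul hFd γ
    have hbγ := mdiff_comp_smul hb γ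
    have h2 : ordH (fun x => F (γ • x)) z + ordH b z
        = ordH F z + ordH (fun x => b (γ • x)) z := by
      rw [← ordH_mul hFγ hb, ← ordH_mul hFd hbγ]
      congr 1
      funext x
      exact hFinv γ x
    rw [ordH_comp_smul hFd γ z, ordH_comp_smul hb γ z] at h2
    have hfin : ordH b (γ • z) ≠ ⊤ := ordH_ne_top hb hb0 _
    have h3 : ordH b z + ordH b (γ • z) ≤ ordH F z + ordH b (γ • z) := by
      rw [← h2, add_comm]
      gcongr
    exact (ENat.add_le_add_iff_right hfin).mp h3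
  obtain ⟨h, hh, hhb⟩ := exists_mdiff_mul_eq hFd hb hb0 hord
  -- invariance of the quotient
  have hhinv : ∀ (γ : SL(2, ℤ)) (z : ℍ), h (γ • z) = h z := by
    intro γ
    have hbγ := mdiff_comp_smul hb γ
    have hhγ := mdiff_comp_smul hh γ
    have key : ∀ z : ℍ, (h (γ • z) - h z) * (b z * b (γ • z)) = 0 := by
      intro z
      have e1 := hhb (γ • z)
      have e2 := hhb z
      have e3 := hFinv γ z
      linear_combination b z * e1 - b (γ • z) * e2 + e3
    rcases mul_eq_zero_of_mdiff (hhγ.sub hh) (hb.mul hbγ) key with h0 | h0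
    · intro z
      exact sub_eq_zero.mp (congrFun h0 z)
    · exfalso
      rcases mul_eq_zero_of_mdiff hb hbγ (fun z => congrFun h0 z) with h1 | h1
      · obtain ⟨z, hz⟩ := hb0
        exact hz (congrFun h1 z)
      · obtain ⟨z, hz⟩ := hb0
        have h2 := congrFun h1 (γ⁻¹ • z)
        simp only [smul_inv_smul, Pi.zero_apply] at h2
        exact hz h2
  -- growth at infinity
  obtain ⟨B, A₁, hB⟩ := isBoundedAtImInfty_iff.mp (isBoundedAtImInfty_prod s)
  set M : ℕ := m + s.card * n with hM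
  have hident : ∀ z : ℍ, Δ z ^ M * h z * b z =
      (∏ w ∈ s, (Δ z * (jFun z - jFun w))) ^ n * (Δ z ^ m * a z) := by
    intro z
    rw [mul_assoc, hhb z]
    simp only [hF, Polynomial.eval_pow, hQ₀eval, Finset.prod_mul_distrib, Finset.prod_const, hM]
    ring
  have hgrow : ∀ z : ℍ, max Y₀ A₁ < z.im → ‖Δ z ^ M * h z‖ ≤ B ^ n * C := by
    intro z₁ hz₁
    by_contra hcon
    have hlt : B ^ n * C < ‖Δ z₁ ^ M * h z₁‖ := not_le.mp hcon
    have hg : MDiff (fun z : ℍ => Δ z ^ M * h z) := (mdiff_discriminant_pow M).mul hh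
    have hev1 : ∀ᶠ z in 𝓝 z₁, B ^ n * C < ‖Δ z ^ M * h z‖ :=
      (hg.continuous.norm.continuousAt).eventually (lt_mem_nhds hlt)
    have hev2 : ∀ᶠ z in 𝓝 z₁, max Y₀ A₁ < z.im :=
      (UpperHalfPlane.continuous_im.continuousAt).eventually (lt_mem_nhds hz₁)
    have hbz : ∀ᶠ z in 𝓝 z₁, b z = 0 := by
      filter_upwards [hev1, hev2] with z h1 h2
      by_contra hbz
      have hbpos : 0 < ‖b z‖ := norm_pos_iff.mpr hbz
      have hY : Y₀ ≤ z.im := (le_max_left _ _).trans h2.le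
      have hA : A₁ ≤ z.im := (le_max_right _ _).trans h2.le
      have e1 : ‖Δ z ^ M * h z‖ * ‖b z‖ =
          ‖∏ w ∈ s, (Δ z * (jFun z - jFun w))‖ ^ n * ‖Δ z ^ m * a z‖ := by
        rw [← norm_mul, hident z, norm_mul, norm_pow]
      have e2 : ‖∏ w ∈ s, (Δ z * (jFun z - jFun w))‖ ^ n * ‖Δ z ^ m * a z‖
          ≤ B ^ n * (C * ‖b z‖) :=
        mul_le_mul (pow_le_pow_left₀ (norm_nonneg _) (hB z hA) n) (hY₀ z hY) (norm_nonneg _)
          (pow_nonneg ((norm_nonneg _).trans (hB z hA)) n)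
      have e3 : ‖Δ z ^ M * h z‖ * ‖b z‖ ≤ (B ^ n * C) * ‖b z‖ := by
        rw [e1]
        linarith [e2]
      exact absurd (le_of_mul_le_mul_right e3 hbpos) (not_le.mpr h1)
    obtain ⟨z, hz⟩ := hb0
    exact hz (congrFun (eq_zero_of_eventually hb hbz) z)
  have hbddh : IsBoundedAtImInfty (fun z : ℍ => Δ z ^ M * h z) := by
    rw [isBoundedAtImInfty_iff]
    exact ⟨B ^ n * C, max Y₀ A₁ + 1, fun z hz => hgrow z (by linarith)⟩
  obtain ⟨P, -, hP⟩ := exists_polynomial_of_invariant hh hhinv M hbddh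
  refine ⟨P, Q₀ ^ n, ?_, fun z => ?_⟩
  · exact (Polynomial.Monic.pow (Polynomial.monic_prod_of_monic _ _
      (fun w _ => Polynomial.monic_X_sub_C _)) n).ne_zero
  · have h1 := hhb z
    rw [hP z] at h1
    simp only [hF] at h1
    linear_combination -h1

end Fermat.Agent.S29.InvRat
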