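/-
S29 [K] leaf (owner: helper74): the EXACT local order of `j - j(z)` at EVERY point `z` of the
upper half plane.

`jE c = 3, 2, 1` according to `c = 0`, `c = 1728`, otherwise, and
`analyticOrderAt (fun w => jFun (ofComplex w) - jFun z) z = jE (jFun z)` for all `z : ℍ`
(`LevelOne/JFun` has the generic case for all `z` and the cases `0`, `1728` only at `ρ`, `i`).
Used by the `j`-weighted divisibility property of block [K] (and for the bound `≤ 3`).
-/
import Fermat.Agent.LevelOne.JFun

set_option autoImplicit false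

namespace Fermat.Agent.S29.JOrd

open UpperHalfPlane hiding I
open ModularForm EisensteinSeries Filter Topology Complex
open scoped MatrixGroups Real Manifold
open Fermat.Agent.LevelOne

/-- The ramification index of `j : ℍ → ℂ` over the value `c`. -/
noncomputable def jE (c : ℂ) : ℕ := if c = 0 then 3 else if c = 1728 then 2 else 1

@[simp] theorem jE_zero : jE 0 = 3 := if_pos rfl

@[simp] theorem jE_1728 : jE 1728 = 2 := by
  unfold jE
  rw [if_neg (by norm_num), if_pos rfl]

theorem jE_of_ne {c : ℂ} (h0 : c ≠ 0) (h1 : c ≠ 1728) : jE c = 1 := by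
  unfold jE
  rw [if_neg h0, if_neg h1]

theorem jE_pos (c : ℂ) : 0 < jE c := by
  unfold jE
  split_ifs <;> norm_num

theorem jE_le_three (c : ℂ) : jE c ≤ 3 := by
  unfold jE
  split_ifs <;> norm_num

/-- `jE` is invariant under every ring endomorphism of `ℂ` (`0`, `1728` are rational). -/
theorem jE_map (σ : ℂ →+* ℂ) (c : ℂ) : jE (σ c) = jE c := by
  have hinj : Function.Injective σ := σ.injective
  have h0 : σ c = 0 ↔ c = 0 := by
    constructor
    · intro h; exact hinj (h.trans (map_zero σ).symm)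
    · intro h; rw [h, map_zero]
  have h1728 : σ (1728 : ℂ) = 1728 := map_ofNat σ 1728
  have h1 : σ c = 1728 ↔ c = 1728 := by
    constructor
    · intro h; exact hinj (h.trans h1728.symm)
    · intro h; rw [h, h1728]
  unfold jE
  simp only [h0, h1]

/-- `j` has a zero of exact order `3` at every zero of `E₄`. -/
theorem analyticOrderAt_jFun_of_E4 (z : ℍ) (hz : E₄ z = 0) :
    analyticOrderAt (fun w : ℂ => jFun (ofComplex w)) (z : ℂ) = 3 := by
  have h1 : analyticOrderAt (⇑E₄ ∘ ofComplex) (z : ℂ) = 1 :=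
    (jf_analyticAt_E4 z).analyticOrderAt_eq_one_of_zero_deriv_ne_zero
      (by simp [hz]) (Fermat.Agent.S20.pa_E4_simple' z hz)
  have e2 : ((fun z : ℍ => E₄ z ^ 3) ∘ ofComplex) = (⇑E₄ ∘ ofComplex) ^ 3 := rfl
  have h2 := jf_order_aux 0 (fun z : ℍ => E₄ z ^ 3) (fun z => by rw [sub_zero]; rfl) z
    (by rw [e2]; exact (jf_analyticAt_E4 z).pow 3)
  have e : (fun w : ℂ => jFun (ofComplex w) - 0) = fun w : ℂ => jFun (ofComplex w) := by
    funext w; rw [sub_zero]
  rw [e] at h2
  rw [h2]
  rw [e2, analyticOrderAt_pow (jf_analyticAt_E4 z), h1]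
  rfl

/-- `j - 1728` has a zero of exact order `2` at every zero of `E₆`. -/
theorem analyticOrderAt_jFun_of_E6 (z : ℍ) (hz : E₆ z = 0) :
    analyticOrderAt (fun w : ℂ => jFun (ofComplex w) - 1728) (z : ℂ) = 2 := by
  have h1 : analyticOrderAt (⇑E₆ ∘ ofComplex) (z : ℂ) = 1 :=
    (jf_analyticAt_E6 z).analyticOrderAt_eq_one_of_zero_deriv_ne_zero
      (by simp [hz]) (Fermat.Agent.S20.pa_E6_simple' z hz)
  have e2 : ((fun z : ℍ => E₆ z ^ 2) ∘ ofComplex) = (⇑E₆ ∘ ofComplex) ^ 2 := rfl
  have h2 := jf_order_aux 1728 (fun z : ℍ => E₆ z ^ 2) (fun z => jFun_sub_1728 z) z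
    (by rw [e2]; exact (jf_analyticAt_E6 z).pow 2)
  rw [h2]
  rw [e2, analyticOrderAt_pow (jf_analyticAt_E6 z), h1]
  rfl

/-- **Exact local order of `j`**: for every `z : ℍ`, `j - j(z)` vanishes at `z` to order
`jE (j z)` (`3` over `0`, `2` over `1728`, `1` elsewhere). -/
theorem analyticOrderAt_jFun_sub (z : ℍ) :
    analyticOrderAt (fun w : ℂ => jFun (ofComplex w) - jFun z) (z : ℂ) = (jE (jFun z) : ℕ∞) := by
  by_cases h0 : jFun z = 0
  · have hz : E₄ z = 0 := (jFun_eq_zero_iff z).mp h0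
    have e : (fun w : ℂ => jFun (ofComplex w) - jFun z) = fun w : ℂ => jFun (ofComplex w) := by
      funext w; rw [h0, sub_zero]
    rw [e, analyticOrderAt_jFun_of_E4 z hz, h0, jE_zero]
    rfl
  · by_cases h1 : jFun z = 1728
    · have hz : E₆ z = 0 := (jFun_eq_1728_iff z).mp h1
      rw [h1, analyticOrderAt_jFun_of_E6 z hz, jE_1728]
      rfl
    · rw [analyticOrderAt_jFun_generic z h0 h1, jE_of_ne h0 h1]
      rfl

/-- The local order of `j - j(z)` at `z` is at most `3`. -/
theorem analyticOrderAt_jFun_sub_le (z : ℍ) :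
    analyticOrderAt (fun w : ℂ => jFun (ofComplex w) - jFun z) (z : ℂ) ≤ 3 := by
  rw [analyticOrderAt_jFun_sub]
  exact_mod_cast jE_le_three (jFun z)

/-- The local order of `j - j(z)` at `z` is positive and finite. -/
theorem analyticOrderAt_jFun_sub_ne_zero (z : ℍ) :
    analyticOrderAt (fun w : ℂ => jFun (ofComplex w) - jFun z) (z : ℂ) ≠ 0 := by
  rw [analyticOrderAt_jFun_sub]
  exact_mod_cast (jE_pos (jFun z)).ne'

end Fermat.Agent.S29.JOrd
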