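import Mathlib
import Fermat.Prelude.Def_ModularCurve_ArithmeticGalois
import Fermat.Agent.S20.Basic
import Fermat.Agent.S23.Basic

/-!
# S29 block [K]: analytic definitions (quotients of multiplier forms, via q-expansions)

* `MFchi N w χ` : holomorphic weight-`w` forms on `Γ₀(N)` with multiplier `χ`, bounded at all cusps
  (for `χ = 1` this is `S20.MF N w`).
* `qx A` : the q-expansion of `A : ℍ → ℂ` as a Laurent series.
* `Mchi N χ ⊆ ℂ((q))` : q-expansions of quotients `A / B`, `A ∈ MFchi N w χ`, `0 ≠ B ∈ MF N w`.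
* `FC N` : the function field `ℂ(j(q^d) : d ∣ N) ⊆ ℂ((q))`.
* `jC`, `DeltaC` : the q-expansions of `j` (formal) and of `Δ`.
* `Vchi N χ` : the q-expansions `F / Δ`, `F ∈ MFchi N 12 χ` (the descent space `V(χ)`), and
  `VchiSub N χ` its `ℂ`-span (equal to it when `χ(T) = 1`).
-/

set_option autoImplicit false

namespace Fermat.Agent.S29.K

open UpperHalfPlane ModularForm CongruenceSubgroup ModularCurve
open scoped MatrixGroups ModularForm Manifold

/-- Holomorphic weight-`w` forms of level `Γ₀(N)` with multiplier `χ`, bounded at all cusps. -/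
def MFchi (N : ℕ) (w : ℤ) (χ : ↥(Gamma0 N) →* ℂˣ) : Submodule ℂ (ℍ → ℂ) where
  carrier := {A | MDiff A ∧
    (∀ γ : ↥(Gamma0 N), A ∣[w] (γ : SL(2, ℤ)) = ((χ γ : ℂˣ) : ℂ) • A) ∧
    ∀ g : SL(2, ℤ), IsBoundedAtImInfty (A ∣[w] g)}
  add_mem' := by
    rintro A B ⟨hA1, hA2, hA3⟩ ⟨hB1, hB2, hB3⟩
    refine ⟨hA1.add hB1, fun γ => ?_, fun g => ?_⟩
    · rw [SlashAction.add_slash, hA2, hB2, smul_add]
    · rw [SlashAction.add_slash]
      exact (hA3 g).add (hB3 g)
  zero_mem' := by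
    refine ⟨mdifferentiable_const, fun γ => ?_, fun g => ?_⟩
    · rw [SlashAction.zero_slash, smul_zero]
    · rw [SlashAction.zero_slash]
      exact Filter.const_boundedAtFilter _ (0 : ℂ)
  smul_mem' := by
    rintro c A ⟨hA1, hA2, hA3⟩
    refine ⟨hA1.const_smul c, fun γ => ?_, fun g => ?_⟩
    · rw [ModularForm.SL_smul_slash, hA2, smul_comm]
    · rw [ModularForm.SL_smul_slash]
      exact (hA3 g).const_smul_left c

theorem mem_MFchi {N : ℕ} {w : ℤ} {χ : ↥(Gamma0 N) →* ℂˣ} {A : ℍ → ℂ} :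
    A ∈ MFchi N w χ ↔ MDiff A ∧
      (∀ γ : ↥(Gamma0 N), A ∣[w] (γ : SL(2, ℤ)) = ((χ γ : ℂˣ) : ℂ) • A) ∧
      ∀ g : SL(2, ℤ), IsBoundedAtImInfty (A ∣[w] g) := Iff.rfl

/-- The q-expansion (at `i∞`, period `1`) of a function on `ℍ`, as a Laurent series. -/
noncomputable def qx (A : ℍ → ℂ) : LaurentSeries ℂ :=
  HahnSeries.ofPowerSeries ℤ ℂ (qExpansion 1 A)

/-- q-expansions of quotients `A / B` with `A` a form with multiplier `χ` and `B ≠ 0` a form
with trivial multiplier of the same weight. -/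
def Mchi (N : ℕ) (χ : ↥(Gamma0 N) →* ℂˣ) : Set (LaurentSeries ℂ) :=
  {x | ∃ (w : ℤ) (A B : ℍ → ℂ), A ∈ MFchi N w χ ∧ B ∈ S20.MF N w ∧ B ≠ 0 ∧ x * qx B = qx A}

/-- The function field of `X₀(N)` over `ℂ`, inside `ℂ((q))`. -/
noncomputable abbrev FC (N : ℕ) : IntermediateField ℂ (LaurentSeries ℂ) :=
  laurentBaseChange ℂ (modularFunctionFieldFull N)

/-- The formal `j`-invariant over `ℂ`. -/
noncomputable def jC : LaurentSeries ℂ := coeffEmb ℂ jq

/-- The q-expansion of the discriminant `Δ`, as a Laurent series. -/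
noncomputable def DeltaC : LaurentSeries ℂ := qx ModularForm.discriminant

/-- The descent space `V(χ)`: q-expansions of `F / Δ` with `F` of weight `12` and multiplier `χ`. -/
def Vchi (N : ℕ) (χ : ↥(Gamma0 N) →* ℂˣ) : Set (LaurentSeries ℂ) :=
  {x | ∃ F : ℍ → ℂ, F ∈ MFchi N 12 χ ∧ x * DeltaC = qx F}

/-- The `ℂ`-span of `Vchi N χ` (equal to `Vchi N χ` itself when `χ(T) = 1`). -/
noncomputable def VchiSub (N : ℕ) (χ : ↥(Gamma0 N) →* ℂˣ) : Submodule ℂ (LaurentSeries ℂ) :=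
  Submodule.span ℂ (Vchi N χ)

/-- The translation `T = [[1,1],[0,1]]` as an element of `Γ₀(N)`. -/
def TG (N : ℕ) : ↥(Gamma0 N) :=
  ⟨ModularGroup.T, by rw [Gamma0_mem]; simp [ModularGroup.T]⟩

/-- `-1` as an element of `Γ₀(N)`. -/
def negOneG (N : ℕ) : ↥(Gamma0 N) :=
  ⟨-1, by rw [Gamma0_mem]; simp⟩

end Fermat.Agent.S29.K
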