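import Mathlib
import Fermat.Agent.S29.KDefs
import Fermat.Agent.S20.LevelOneBP
import Fermat.Agent.S24.Bridge

/-!
# S29 block [K], leaf [K1LevelOne]: ratios of level-one forms are rational functions of `j`

OWNER: helper37.

* `K1LevelOne.qx_eq_aeval_mul_pow` : for `s ∈ S20.LF (12 * k)` there is a polynomial `P` of degree
  at most `k` with `qx s = P(jC) * DeltaC ^ k`  (`LF(12k) = ℂ[j]_{≤ k} · Δ^k` on q-expansions).
* `levelOne_ratio_mem` : for `s, t ∈ S20.LF W`, `t ≠ 0`, the ratio of the q-expansions lies in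
  `ℂ(jC)`.

The few basic facts on `qx` needed here (additivity, multiplicativity on nice functions,
injectivity) are proved locally in the namespace `K1LevelOne`.
-/

set_option autoImplicit false

namespace Fermat.Agent.S29.K

open UpperHalfPlane ModularForm CongruenceSubgroup ModularCurve Filter Topology
open scoped MatrixGroups ModularForm Manifold

namespace K1LevelOne

local notation "Δ" => ModularForm.discriminant

theorem mem_niceSub_of_mem_LF {W : ℤ} {s : ℍ → ℂ} (hs : s ∈ S20.LF W) : s ∈ S23.niceSub := by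
  obtain ⟨F, rfl⟩ := hs
  exact S24.AnBridge.levelOne_mem_niceSub F

theorem qx_eq_Phi {s : ℍ → ℂ} (hs : s ∈ S23.niceSub) : qx s = S24.AnBridge.Phi ⟨s, hs⟩ := rfl

theorem qx_mul {s t : ℍ → ℂ} (hs : s ∈ S23.niceSub) (ht : t ∈ S23.niceSub) :
    qx (s * t) = qx s * qx t := by
  rw [qx_eq_Phi hs, qx_eq_Phi ht, ← map_mul]
  rfl

theorem qx_add {s t : ℍ → ℂ} (hs : s ∈ S23.niceSub) (ht : t ∈ S23.niceSub) :
    qx (s + t) = qx s + qx t := by
  rw [qx_eq_Phi hs, qx_eq_Phi ht, ← map_add]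
  rfl

theorem qx_pow {s : ℍ → ℂ} (hs : s ∈ S23.niceSub) (n : ℕ) : qx (s ^ n) = qx s ^ n := by
  rw [qx_eq_Phi hs, ← map_pow]
  rfl

theorem qx_const (c : ℂ) : qx (fun _ : ℍ => c) = algebraMap ℂ (LaurentSeries ℂ) c := by
  rw [← S24.AnBridge.Phi_algebraMap]
  rfl

theorem qx_smul (c : ℂ) {s : ℍ → ℂ} (hs : s ∈ S23.niceSub) :
    qx (c • s) = algebraMap ℂ (LaurentSeries ℂ) c * qx s := by
  have h : c • s = (fun _ : ℍ => c) * s := by
    ext z
    simp
  have hc : (fun _ : ℍ => c) ∈ S23.niceSub := S23.niceSub.algebraMap_mem c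
  rw [h, qx_mul hc hs, qx_const]

theorem qx_eq_zero_iff {s : ℍ → ℂ} (hs : s ∈ S23.niceSub) : qx s = 0 ↔ s = 0 := by
  rw [qx_eq_Phi hs]
  constructor
  · intro h
    have h2 : (⟨s, hs⟩ : S23.niceSub) = 0 :=
      S24.AnBridge.Phi_injective (by rw [h, map_zero])
    exact congrArg Subtype.val h2
  · intro h
    have h2 : (⟨s, hs⟩ : S23.niceSub) = 0 := Subtype.ext h
    rw [h2, map_zero]

/-- The formal identity `j · Δ = E₄³` in the vocabulary of `KDefs`. -/
theorem jC_mul_DeltaC : jC * DeltaC = qx (E₄ : ℍ → ℂ) ^ 3 := S24.jRel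

theorem DeltaC_ne_zero : DeltaC ≠ 0 := by
  intro h
  have h2 := (qx_eq_zero_iff S24.AnBridge.discriminant_mem_niceSub).mp h
  have := congrFun h2 UpperHalfPlane.I
  exact ModularForm.discriminant_ne_zero _ this

/-- `LF(12k) = ℂ[j]_{≤ k} · Δ^k`, on q-expansions. -/
theorem qx_eq_aeval_mul_pow (k : ℕ) {s : ℍ → ℂ} (hs : s ∈ S20.LF (12 * (k : ℤ))) :
    ∃ P : Polynomial ℂ, P.natDegree ≤ k ∧ qx s = Polynomial.aeval jC P * DeltaC ^ k := by
  induction k generalizing s with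
  | zero =>
    have hs0 : s ∈ S20.LF 0 := by simpa using hs
    obtain ⟨c, rfl⟩ := S20.mem_LF_zero_iff.mp hs0
    refine ⟨Polynomial.C c, by simp, ?_⟩
    rw [qx_const, Polynomial.aeval_C, pow_zero, mul_one]
  | succ k ih =>
    obtain ⟨c, hc⟩ := S20.LF_tendsto hs
    have he : (⇑E₄ : ℍ → ℂ) ^ (3 * (k + 1)) ∈ S20.LF (12 * ((k + 1 : ℕ) : ℤ)) := by
      have h := S20.pow_mem_LF S20.E4_mem_LF (3 * (k + 1))
      have hw : ((3 * (k + 1) : ℕ) : ℤ) * 4 = 12 * ((k + 1 : ℕ) : ℤ) := by push_cast; ring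
      rwa [hw] at h
    have hte : Tendsto ((⇑E₄ : ℍ → ℂ) ^ (3 * (k + 1))) atImInfty (𝓝 1) := by
      have h := S20.tendsto_E4.pow (3 * (k + 1))
      rw [one_pow] at h
      exact h
    set r : ℍ → ℂ := s - c • (⇑E₄ : ℍ → ℂ) ^ (3 * (k + 1)) with hr
    have hrm : r ∈ S20.LF (12 * ((k + 1 : ℕ) : ℤ)) :=
      Submodule.sub_mem _ hs (Submodule.smul_mem _ c he)
    have hr0 : Tendsto r atImInfty (𝓝 0) := by
      have h := hc.sub (hte.const_smul c)
      have h2 : (fun z : ℍ => s z - c • ((⇑E₄ : ℍ → ℂ) ^ (3 * (k + 1))) z) = r := by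
        ext z
        simp [hr]
      rw [h2] at h
      simpa using h
    obtain ⟨s', hs', hrs⟩ := S20.LF_cusp hrm hr0
    have hw : 12 * ((k + 1 : ℕ) : ℤ) - 12 = 12 * (k : ℤ) := by push_cast; ring
    rw [hw] at hs'
    obtain ⟨P', hP', hq⟩ := ih hs'
    have hs_eq : s = c • (⇑E₄ : ℍ → ℂ) ^ (3 * (k + 1)) + Δ * s' := by
      rw [← hrs, hr]
      abel
    have hE4 : (⇑E₄ : ℍ → ℂ) ∈ S23.niceSub := mem_niceSub_of_mem_LF S20.E4_mem_LF
    have hD : (Δ : ℍ → ℂ) ∈ S23.niceSub := S24.AnBridge.discriminant_mem_niceSub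
    have hs'n : s' ∈ S23.niceSub := mem_niceSub_of_mem_LF hs'
    have hen : (⇑E₄ : ℍ → ℂ) ^ (3 * (k + 1)) ∈ S23.niceSub := S23.niceSub.pow_mem hE4 _
    refine ⟨Polynomial.C c * Polynomial.X ^ (k + 1) + P', ?_, ?_⟩
    · refine (Polynomial.natDegree_add_le _ _).trans (max_le ?_ (hP'.trans (Nat.le_succ k)))
      exact Polynomial.natDegree_C_mul_X_pow_le c (k + 1)
    · rw [hs_eq, qx_add (S23.niceSub.smul_mem hen c) (S23.niceSub.mul_mem hD hs'n),
        qx_smul c hen, qx_pow hE4, qx_mul hD hs'n, hq, pow_mul, ← jC_mul_DeltaC]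
      simp only [map_add, map_mul, Polynomial.aeval_C, Polynomial.aeval_X_pow]
      show _ * (jC * DeltaC) ^ (k + 1) + DeltaC * _ = _
      ring

end K1LevelOne

open K1LevelOne in
/-- Leaf [K1LevelOne]: the ratio of two level-one forms of the same weight is a rational function
of `j`, on q-expansions. -/
theorem levelOne_ratio_mem {W : ℤ} {s t : ℍ → ℂ} (hs : s ∈ S20.LF W) (ht : t ∈ S20.LF W)
    (ht0 : t ≠ 0) :
    ∃ c ∈ IntermediateField.adjoin ℂ ({jC} : Set (LaurentSeries ℂ)), c * qx t = qx s := by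
  have hW : 0 ≤ W := by
    by_contra hneg
    have hbot := S20.LF_neg (not_le.mp hneg)
    rw [hbot] at ht
    exact ht0 ((Submodule.mem_bot ℂ).mp ht)
  obtain ⟨k, rfl⟩ := Int.eq_ofNat_of_zero_le hW
  have hsn : s ∈ S23.niceSub := mem_niceSub_of_mem_LF hs
  have htn : t ∈ S23.niceSub := mem_niceSub_of_mem_LF ht
  have ht11 : t ^ 11 ∈ S20.LF (((11 : ℕ) : ℤ) * (k : ℤ)) := S20.pow_mem_LF ht 11
  have hw : (k : ℤ) + ((11 : ℕ) : ℤ) * (k : ℤ) = 12 * (k : ℤ) := by push_cast; ring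
  have ha : s * t ^ 11 ∈ S20.LF (12 * (k : ℤ)) := by
    have h := S20.mul_mem_LF hs ht11
    rwa [hw] at h
  have hb : t * t ^ 11 ∈ S20.LF (12 * (k : ℤ)) := by
    have h := S20.mul_mem_LF ht ht11
    rwa [hw] at h
  obtain ⟨Pa, -, hPa⟩ := qx_eq_aeval_mul_pow k ha
  obtain ⟨Pb, -, hPb⟩ := qx_eq_aeval_mul_pow k hb
  have ht11n : t ^ 11 ∈ S23.niceSub := S23.niceSub.pow_mem htn 11
  rw [qx_mul hsn ht11n, qx_pow htn] at hPa
  rw [qx_mul htn ht11n, qx_pow htn] at hPb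
  have hqt : qx t ≠ 0 := fun h => ht0 ((qx_eq_zero_iff htn).mp h)
  have hPb0 : Polynomial.aeval jC Pb ≠ 0 := by
    intro h
    rw [h, zero_mul] at hPb
    exact mul_ne_zero hqt (pow_ne_zero 11 hqt) hPb
  have hmem : ∀ P : Polynomial ℂ,
      Polynomial.aeval jC P ∈ IntermediateField.adjoin ℂ ({jC} : Set (LaurentSeries ℂ)) :=
    fun P => IntermediateField.algebra_adjoin_le_adjoin ℂ _
      (Polynomial.aeval_mem_adjoin_singleton ℂ jC)
  refine ⟨Polynomial.aeval jC Pa / Polynomial.aeval jC Pb,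
    (IntermediateField.adjoin ℂ _).div_mem (hmem Pa) (hmem Pb), ?_⟩
  have hD := pow_ne_zero k DeltaC_ne_zero
  have h11 := pow_ne_zero 11 hqt
  have key : (Polynomial.aeval jC Pa / Polynomial.aeval jC Pb * qx t) * qx t ^ 11 =
      qx s * qx t ^ 11 := by
    rw [hPa, div_mul_eq_mul_div, div_mul_eq_mul_div, div_eq_iff hPb0]
    have : Polynomial.aeval jC Pa * qx t * qx t ^ 11 =
        Polynomial.aeval jC Pa * (qx t * qx t ^ 11) := by ring
    rw [this, hPb]
    ring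
  exact mul_right_cancel₀ h11 key

end Fermat.Agent.S29.K
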