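import Mathlib
import Fermat.Agent.S29.KDefs
import Fermat.Agent.S20.FreeBase
import Fermat.Agent.S24.AnBridge
import Fermat.Agent.S24.Bridge
import Fermat.Agent.S24.AnTaylorHom
import Fermat.Agent.S24.AnCusp
import Fermat.Agent.S24.AnEmbCore

/-!
# S29 block [K]: basic lemmas on `MFchi`, `qx`, `Mchi`, `Vchi` (owner: helper17)

Shared basics for the (K1)/(K2) leaves of board post #1922.
-/

set_option autoImplicit false

namespace Fermat.Agent.S29.K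

open UpperHalfPlane ModularForm CongruenceSubgroup ModularCurve
open scoped MatrixGroups ModularForm Manifold

variable {N : ℕ}

/-! ### forms with multiplier -/

theorem MFchi_one [NeZero N] (w : ℤ) : MFchi N w 1 = S20.MF N w := by
  ext A
  rw [S20.mem_MF_iff', mem_MFchi]
  constructor
  · rintro ⟨h1, h2, h3⟩
    refine ⟨h1, fun γ hγ => ?_, h3⟩
    have := h2 ⟨γ, hγ⟩
    simpa using this
  · rintro ⟨h1, h2, h3⟩
    refine ⟨h1, fun γ => ?_, h3⟩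
    have := h2 γ γ.2
    simpa using this

theorem mem_MFchi_one_iff [NeZero N] {w : ℤ} {A : ℍ → ℂ} : A ∈ MFchi N w 1 ↔ A ∈ S20.MF N w := by
  rw [MFchi_one]

theorem mdiff_of_mem_MFchi {w : ℤ} {χ : ↥(Gamma0 N) →* ℂˣ} {A : ℍ → ℂ}
    (hA : A ∈ MFchi N w χ) : MDiff A := hA.1

theorem slash_of_mem_MFchi {w : ℤ} {χ : ↥(Gamma0 N) →* ℂˣ} {A : ℍ → ℂ}
    (hA : A ∈ MFchi N w χ) (γ : ↥(Gamma0 N)) :
    A ∣[w] (γ : SL(2, ℤ)) = ((χ γ : ℂˣ) : ℂ) • A := hA.2.1 γ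

theorem isBoundedAtImInfty_slash_of_mem_MFchi {w : ℤ} {χ : ↥(Gamma0 N) →* ℂˣ} {A : ℍ → ℂ}
    (hA : A ∈ MFchi N w χ) (g : SL(2, ℤ)) : IsBoundedAtImInfty (A ∣[w] g) := hA.2.2 g

theorem isBoundedAtImInfty_of_mem_MFchi {w : ℤ} {χ : ↥(Gamma0 N) →* ℂˣ} {A : ℍ → ℂ}
    (hA : A ∈ MFchi N w χ) : IsBoundedAtImInfty A := by
  have := hA.2.2 1
  rwa [SlashAction.slash_one] at this

/-- The transformation law in pointwise form. -/
theorem apply_smul_of_mem_MFchi {w : ℤ} {χ : ↥(Gamma0 N) →* ℂˣ} {A : ℍ → ℂ}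
    (hA : A ∈ MFchi N w χ) (γ : ↥(Gamma0 N)) (z : ℍ) :
    A ((γ : SL(2, ℤ)) • z) = ((χ γ : ℂˣ) : ℂ) * denom (γ : SL(2, ℤ)) z ^ w * A z := by
  have h := congrFun (hA.2.1 γ) z
  rw [SL_slash_apply, Pi.smul_apply, smul_eq_mul] at h
  have hd : denom (γ : SL(2, ℤ)) z ≠ 0 := denom_ne_zero _ z
  have hd' : denom (γ : SL(2, ℤ)) z ^ w ≠ 0 := zpow_ne_zero _ hd
  calc A ((γ : SL(2, ℤ)) • z)
      = A ((γ : SL(2, ℤ)) • z) * denom (γ : SL(2, ℤ)) z ^ (-w) * denom (γ : SL(2, ℤ)) z ^ w := by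
        rw [mul_assoc, ← zpow_add₀ hd, neg_add_cancel, zpow_zero, mul_one]
    _ = ((χ γ : ℂˣ) : ℂ) * denom (γ : SL(2, ℤ)) z ^ w * A z := by
        rw [h]; ring

/-- A form with multiplier trivial on `T` is `1`-periodic. -/
theorem vadd_one_of_mem_MFchi {w : ℤ} {χ : ↥(Gamma0 N) →* ℂˣ} (hT : χ (TG N) = 1)
    {A : ℍ → ℂ} (hA : A ∈ MFchi N w χ) (z : ℍ) : A ((1 : ℝ) +ᵥ z) = A z := by
  have h := apply_smul_of_mem_MFchi hA (TG N) z
  have h1 : ((TG N : ↥(Gamma0 N)) : SL(2, ℤ)) = ModularGroup.T := rfl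
  rw [h1, modular_T_smul, hT] at h
  have hd : denom ModularGroup.T z = 1 := by
    simp [denom]
  rw [hd, one_zpow] at h
  simpa using h

theorem mem_niceSub_of_mem_MFchi {w : ℤ} {χ : ↥(Gamma0 N) →* ℂˣ} (hT : χ (TG N) = 1)
    {A : ℍ → ℂ} (hA : A ∈ MFchi N w χ) : A ∈ S23.niceSub := by
  refine ⟨?_, hA.1, isBoundedAtImInfty_of_mem_MFchi hA⟩
  have h := Fermat.Agent.S24.periodic_comp_ofComplex_of_vadd (N := 1) (f := A)
    (fun z => by simpa using vadd_one_of_mem_MFchi hT hA z)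
  simpa using h

theorem mem_niceSub_of_mem_MF [NeZero N] {w : ℤ} {A : ℍ → ℂ} (hA : A ∈ S20.MF N w) :
    A ∈ S23.niceSub :=
  mem_niceSub_of_mem_MFchi (χ := 1) (by simp) (mem_MFchi_one_iff.mpr hA)

theorem mul_mem_MFchi {w w' : ℤ} {χ χ' : ↥(Gamma0 N) →* ℂˣ} {A B : ℍ → ℂ}
    (hA : A ∈ MFchi N w χ) (hB : B ∈ MFchi N w' χ') : A * B ∈ MFchi N (w + w') (χ * χ') := by
  obtain ⟨hA1, hA2, hA3⟩ := hA
  obtain ⟨hB1, hB2, hB3⟩ := hB
  refine ⟨hA1.mul hB1, fun γ => ?_, fun g => ?_⟩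
  · rw [mul_slash_SL2, hA2, hB2, smul_mul_smul_comm]
    simp
  · rw [mul_slash_SL2]
    exact (hA3 g).mul (hB3 g)

theorem one_mem_MFchi : (1 : ℍ → ℂ) ∈ MFchi N 0 1 := by
  refine ⟨mdifferentiable_const, fun γ => ?_, fun g => ?_⟩
  · rw [ModularForm.is_invariant_one]; simp
  · rw [ModularForm.is_invariant_one]
    exact Filter.const_boundedAtFilter _ (1 : ℂ)

theorem pow_mem_MFchi {w : ℤ} {χ : ↥(Gamma0 N) →* ℂˣ} {A : ℍ → ℂ}
    (hA : A ∈ MFchi N w χ) (n : ℕ) : A ^ n ∈ MFchi N (n * w) (χ ^ n) := by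
  induction n with
  | zero =>
    have h := one_mem_MFchi (N := N)
    have e : ((0 : ℕ) : ℤ) * w = 0 := by simp
    have e' : χ ^ (0 : ℕ) = 1 := pow_zero χ
    have e'' : A ^ (0 : ℕ) = 1 := pow_zero A
    rw [e'', e', e]
    exact h
  | succ n ih =>
    have h := mul_mem_MFchi ih hA
    have e : ((n : ℤ) * w + w) = ((n + 1 : ℕ) : ℤ) * w := by push_cast; ring
    have e' : χ ^ n * χ = χ ^ (n + 1) := (pow_succ χ n).symm
    rw [pow_succ]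
    exact e ▸ e' ▸ h

theorem MFchi_congr_weight {w w' : ℤ} (h : w = w') {χ : ↥(Gamma0 N) →* ℂˣ} {A : ℍ → ℂ}
    (hA : A ∈ MFchi N w χ) : A ∈ MFchi N w' χ := h ▸ hA

theorem MFchi_congr_char {w : ℤ} {χ χ' : ↥(Gamma0 N) →* ℂˣ} (h : χ = χ') {A : ℍ → ℂ}
    (hA : A ∈ MFchi N w χ) : A ∈ MFchi N w χ' := h ▸ hA

/-! ### holomorphic functions on `ℍ` have no zero divisors -/

theorem eq_zero_or_eq_zero_of_mul_eq_zero {A B : ℍ → ℂ} (hA : MDiff A) (hB : MDiff B)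
    (h : A * B = 0) : A = 0 ∨ B = 0 := by
  have h1 : (⟨A, hA⟩ * ⟨B, hB⟩ : S24.holSub) = 0 := Subtype.ext h
  have h2 := congrArg (S24.taylorHom UpperHalfPlane.I) h1
  rw [map_mul, map_zero, mul_eq_zero] at h2
  rcases h2 with h2 | h2
  · left
    have := S24.taylorHom_injective UpperHalfPlane.I (a₁ := ⟨A, hA⟩) (a₂ := 0) (by rw [h2, map_zero])
    exact congrArg Subtype.val this
  · right
    have := S24.taylorHom_injective UpperHalfPlane.I (a₁ := ⟨B, hB⟩) (a₂ := 0) (by rw [h2, map_zero])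
    exact congrArg Subtype.val this

theorem mul_ne_zero_of_mdiff {A B : ℍ → ℂ} (hA : MDiff A) (hB : MDiff B) (hA0 : A ≠ 0)
    (hB0 : B ≠ 0) : A * B ≠ 0 := fun h =>
  (eq_zero_or_eq_zero_of_mul_eq_zero hA hB h).elim hA0 hB0

theorem pow_ne_zero_of_mdiff {A : ℍ → ℂ} (hA : MDiff A) (hA0 : A ≠ 0) (n : ℕ) : A ^ n ≠ 0 := by
  induction n with
  | zero =>
    rw [pow_zero]
    intro h
    have := congrFun h UpperHalfPlane.I
    simp at this
  | succ n ih =>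
    rw [pow_succ]
    exact mul_ne_zero_of_mdiff (hA.pow n) hA ih hA0

/-! ### the q-expansion map -/

theorem qx_eq_Phi {A : ℍ → ℂ} (hA : A ∈ S23.niceSub) : qx A = S24.AnBridge.Phi ⟨A, hA⟩ := by
  rw [S24.AnBridge.Phi_apply]; rfl

theorem qx_add {A B : ℍ → ℂ} (hA : A ∈ S23.niceSub) (hB : B ∈ S23.niceSub) :
    qx (A + B) = qx A + qx B := by
  rw [qx_eq_Phi hA, qx_eq_Phi hB, ← map_add, qx_eq_Phi (S23.niceSub.add_mem hA hB)]; rfl

theorem qx_mul {A B : ℍ → ℂ} (hA : A ∈ S23.niceSub) (hB : B ∈ S23.niceSub) :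
    qx (A * B) = qx A * qx B := by
  rw [qx_eq_Phi hA, qx_eq_Phi hB, ← map_mul, qx_eq_Phi (S23.niceSub.mul_mem hA hB)]; rfl

theorem qx_zero : qx (0 : ℍ → ℂ) = 0 := by
  rw [qx_eq_Phi S23.niceSub.zero_mem]
  exact map_zero _

theorem qx_one : qx (1 : ℍ → ℂ) = 1 := by
  rw [qx_eq_Phi S23.niceSub.one_mem]
  exact map_one _

theorem qx_neg {A : ℍ → ℂ} (hA : A ∈ S23.niceSub) : qx (-A) = -qx A := by
  rw [qx_eq_Phi hA, ← map_neg, qx_eq_Phi (S23.niceSub.neg_mem hA)]; rfl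

theorem qx_sub {A B : ℍ → ℂ} (hA : A ∈ S23.niceSub) (hB : B ∈ S23.niceSub) :
    qx (A - B) = qx A - qx B := by
  rw [qx_eq_Phi hA, qx_eq_Phi hB, ← map_sub, qx_eq_Phi (S23.niceSub.sub_mem hA hB)]; rfl

theorem qx_pow {A : ℍ → ℂ} (hA : A ∈ S23.niceSub) (n : ℕ) : qx (A ^ n) = qx A ^ n := by
  rw [qx_eq_Phi hA, ← map_pow, qx_eq_Phi (S23.niceSub.pow_mem hA n)]; rfl

theorem qx_const (c : ℂ) : qx (fun _ : ℍ => c) = HahnSeries.C c := by
  have h : (fun _ : ℍ => c) = ((algebraMap ℂ S23.niceSub c : S23.niceSub) : ℍ → ℂ) := by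
    ext z; simp
  have hm : (fun _ : ℍ => c) ∈ S23.niceSub := h ▸ (algebraMap ℂ S23.niceSub c).2
  rw [qx_eq_Phi hm]
  have : (⟨fun _ : ℍ => c, hm⟩ : S23.niceSub) = algebraMap ℂ S23.niceSub c := Subtype.ext h
  rw [this, S24.AnBridge.Phi_algebraMap]
  exact Fermat.Agent.S24.AnEmbCore.algebraMap_C_laurent c

theorem qx_smul (c : ℂ) {A : ℍ → ℂ} (hA : A ∈ S23.niceSub) : qx (c • A) = c • qx A := by
  have h : c • A = (fun _ : ℍ => c) * A := by ext z; simp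
  have hc : (fun _ : ℍ => c) ∈ S23.niceSub := by
    have h' : (fun _ : ℍ => c) = ((algebraMap ℂ S23.niceSub c : S23.niceSub) : ℍ → ℂ) := by
      ext z; simp
    exact h' ▸ (algebraMap ℂ S23.niceSub c).2
  rw [h, qx_mul hc hA, qx_const]
  rw [HahnSeries.C_mul_eq_smul]

theorem qx_eq_zero_iff {A : ℍ → ℂ} (hA : A ∈ S23.niceSub) : qx A = 0 ↔ A = 0 := by
  constructor
  · intro h
    rw [qx_eq_Phi hA] at h
    have := S24.AnBridge.Phi_injective (a₁ := ⟨A, hA⟩) (a₂ := 0) (by rw [h, map_zero])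
    exact congrArg Subtype.val this
  · rintro rfl
    exact qx_zero

theorem qx_ne_zero {A : ℍ → ℂ} (hA : A ∈ S23.niceSub) (h0 : A ≠ 0) : qx A ≠ 0 :=
  fun h => h0 ((qx_eq_zero_iff hA).mp h)

theorem qx_injOn {A B : ℍ → ℂ} (hA : A ∈ S23.niceSub) (hB : B ∈ S23.niceSub)
    (h : qx A = qx B) : A = B := by
  have h1 : qx (A - B) = 0 := by rw [qx_sub hA hB, h, sub_self]
  have := (qx_eq_zero_iff (S23.niceSub.sub_mem hA hB)).mp h1
  exact sub_eq_zero.mp this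

/-! ### the discriminant -/

theorem discriminant_mem_MF (N : ℕ) : (ModularForm.discriminant : ℍ → ℂ) ∈ S20.MF N 12 :=
  Fermat.Agent.S20.Base.LF_le_MF N 12 Fermat.Agent.S20.Base.discriminant_mem_LF

theorem discriminant_ne_zero : (ModularForm.discriminant : ℍ → ℂ) ≠ 0 := by
  intro h
  have := congrFun h UpperHalfPlane.I
  exact ModularForm.discriminant_ne_zero UpperHalfPlane.I this

theorem DeltaC_ne_zero : DeltaC ≠ 0 :=
  qx_ne_zero S24.AnBridge.discriminant_mem_niceSub discriminant_ne_zero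

theorem jC_mul_DeltaC : jC * DeltaC = qx (⇑E₄ : ℍ → ℂ) ^ 3 := Fermat.Agent.S24.jRel

end Fermat.Agent.S29.K
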