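import Mathlib

/-!
# S29 block [K], leaf [KPInv], route D (B-copy): the Newton-polygon step

OWNER: helper37.

For an order function `v` on a commutative ring (an additive valuation with values in `ℕ∞`),
the orders of the coefficients of a split monic polynomial `∏ (X - r i)` determine which orders a
root of ANY polynomial with the same coefficient orders can have:

* `exists_order_eq` : if `v' (e' k) = v (e_k (r))` for all `k` (elementary symmetric functions)
  and `∑ (-1)^k e' k y^(n-k) = 0`, then `v' y = v (r i)` for some `i`.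
-/

set_option autoImplicit false

namespace Fermat.Agent.S29.NewtonRoot

open Finset

/-- An order function on a commutative ring: an additive valuation with values in `ℕ∞`. -/
structure IsOrd {A : Type*} [CommRing A] (v : A → ℕ∞) : Prop where
  map_zero : v 0 = ⊤
  map_one : v 1 = 0
  map_mul : ∀ x y, v (x * y) = v x + v y
  map_add : ∀ x y, min (v x) (v y) ≤ v (x + y)
  map_neg : ∀ x, v (-x) = v x

namespace IsOrd

variable {A : Type*} [CommRing A] {v : A → ℕ∞}

theorem map_pow (hv : IsOrd v) (x : A) (n : ℕ) : v (x ^ n) = n • v x := by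
  induction n with
  | zero => simp [hv.map_one]
  | succ n ih => rw [pow_succ, hv.map_mul, ih, succ_nsmul]

theorem map_neg_one_pow (hv : IsOrd v) (k : ℕ) : v ((-1) ^ k) = 0 := by
  rw [hv.map_pow, hv.map_neg, hv.map_one, smul_zero]

theorem map_prod (hv : IsOrd v) {ι : Type*} (s : Finset ι) (f : ι → A) :
    v (∏ i ∈ s, f i) = ∑ i ∈ s, v (f i) := by
  classical
  induction s using Finset.induction_on with
  | empty => simp [hv.map_one]
  | insert a s ha ih => rw [prod_insert ha, sum_insert ha, hv.map_mul, ih]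

/-- If every term satisfies `b ≤ v (f i) + c`, so does the sum. -/
theorem le_map_sum_add (hv : IsOrd v) {ι : Type*} (s : Finset ι) (f : ι → A) (b c : ℕ∞)
    (h : ∀ i ∈ s, b ≤ v (f i) + c) : b ≤ v (∑ i ∈ s, f i) + c := by
  classical
  induction s using Finset.induction_on with
  | empty => simp [hv.map_zero]
  | insert a s ha ih =>
    rw [sum_insert ha]
    have h1 := h a (mem_insert_self a s)
    have h2 := ih (fun i hi => h i (mem_insert_of_mem hi))
    have h3 := hv.map_add (f a) (∑ i ∈ s, f i)
    calc b ≤ min (v (f a) + c) (v (∑ i ∈ s, f i) + c) := le_min h1 h2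
      _ = min (v (f a)) (v (∑ i ∈ s, f i)) + c := min_add_add_right _ _ _
      _ ≤ v (f a + ∑ i ∈ s, f i) + c := by gcongr

theorem le_map_sum (hv : IsOrd v) {ι : Type*} (s : Finset ι) (f : ι → A) (b : ℕ∞)
    (h : ∀ i ∈ s, b ≤ v (f i)) : b ≤ v (∑ i ∈ s, f i) := by
  have := hv.le_map_sum_add s f b 0 (fun i hi => by simpa using h i hi)
  simpa using this

theorem map_add_eq_of_lt (hv : IsOrd v) {x y : A} (h : v x < v y) : v (x + y) = v x := by
  apply le_antisymm
  · by_contra hlt
    rw [not_le] at hlt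
    have h1 := hv.map_add (x + y) (-y)
    rw [add_neg_cancel_right, hv.map_neg] at h1
    exact absurd (lt_of_lt_of_le (lt_min hlt h) h1) (lt_irrefl _)
  · have h1 := hv.map_add x y
    rwa [min_eq_left h.le] at h1

end IsOrd

/-- **Newton-polygon step.**  Let `r i` be elements of finite order of `A`, and let
`y ∈ A'` be a root of finite order of a polynomial `∑ (-1)^k e' k Y^(n-k)` whose coefficients
have the same orders as the elementary symmetric functions of the `r i`.  Then the order of `y`
is the order of one of the `r i`. -/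
theorem exists_order_eq {A A' : Type*} [CommRing A] [CommRing A'] {v : A → ℕ∞} {v' : A' → ℕ∞}
    (hv : IsOrd v) (hv' : IsOrd v') {ι : Type*} [Fintype ι] [DecidableEq ι] (r : ι → A)
    (hr : ∀ i, v (r i) ≠ ⊤) (e' : ℕ → A')
    (he : ∀ k ≤ Fintype.card ι,
      v' (e' k) = v (∑ s ∈ powersetCard k (univ : Finset ι), ∏ i ∈ s, r i))
    (y : A') (hy0 : v' y ≠ ⊤)
    (hy : ∑ k ∈ range (Fintype.card ι + 1), (-1) ^ k * e' k * y ^ (Fintype.card ι - k) = 0) :
    ∃ i, v' y = v (r i) := by
  by_contra hcon
  simp only [not_exists] at hcon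
  obtain ⟨a, ha⟩ := ENat.ne_top_iff_exists.mp hy0
  choose α hα using fun i => ENat.ne_top_iff_exists.mp (hr i)
  have hne : ∀ i, α i ≠ a := by
    intro i h
    apply hcon i
    rw [← ha, ← hα i, h]
  set n := Fintype.card ι with hn
  set S₀ : Finset ι := univ.filter (fun i => α i < a) with hS₀
  set M : ℕ := ∑ i, min a (α i) with hM
  -- the weight of a subset
  have hW : ∀ s : Finset ι,
      ∑ i ∈ s, α i + (n - s.card) * a = ∑ i, if i ∈ s then α i else a := by
    intro s
    rw [Finset.sum_ite, Finset.filter_mem_eq_inter, Finset.univ_inter, Finset.sum_const,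
      smul_eq_mul]
    congr 2
    rw [hn, ← Finset.card_compl]
    congr 1
    ext i
    simp
  have hWle : ∀ s : Finset ι, M ≤ ∑ i ∈ s, α i + (n - s.card) * a := by
    intro s
    rw [hW s, hM]
    refine Finset.sum_le_sum fun i _ => ?_
    split_ifs
    · exact min_le_right _ _
    · exact min_le_left _ _
  have hWlt : ∀ s : Finset ι, s ≠ S₀ → M < ∑ i ∈ s, α i + (n - s.card) * a := by
    intro s hs
    rw [hW s, hM]
    refine Finset.sum_lt_sum (fun i _ => ?_) ?_
    · split_ifs
      · exact min_le_right _ _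
      · exact min_le_left _ _
    · have hex : ∃ i, ¬ (i ∈ s ↔ i ∈ S₀) := by
        by_contra hall
        simp only [not_exists, not_not] at hall
        exact hs (Finset.ext hall)
      obtain ⟨i, hi⟩ := hex
      refine ⟨i, mem_univ i, ?_⟩
      by_cases his : i ∈ s
      · have hi0 : i ∉ S₀ := fun h => hi ⟨fun _ => h, fun _ => his⟩
        rw [if_pos his]
        have h1 : ¬ α i < a := fun h => hi0 (by rw [hS₀]; simp [h])
        have h2 : a < α i := lt_of_le_of_ne (not_lt.mp h1) (hne i).symm
        rw [min_eq_left h2.le]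
        exact h2
      · have hi0 : i ∈ S₀ := by
          by_contra h
          exact hi ⟨fun h' => absurd h' his, fun h' => absurd h' h⟩
        rw [if_neg his]
        have h1 : α i < a := by
          rw [hS₀] at hi0
          simpa using hi0
        rw [min_eq_right h1.le]
        exact h1
  have hWeq : ∑ i ∈ S₀, α i + (n - S₀.card) * a = M := by
    rw [hW S₀, hM]
    refine Finset.sum_congr rfl fun i _ => ?_
    split_ifs with h
    · have h1 : α i < a := by
        rw [hS₀] at h
        simpa using h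
      rw [min_eq_right h1.le]
    · have h1 : ¬ α i < a := fun h' => h (by rw [hS₀]; simp [h'])
      rw [min_eq_left (not_lt.mp h1)]
  -- orders of subset products
  have hT : ∀ s : Finset ι, v (∏ i ∈ s, r i) = ((∑ i ∈ s, α i : ℕ) : ℕ∞) := by
    intro s
    rw [hv.map_prod, Nat.cast_sum]
    exact Finset.sum_congr rfl fun i _ => (hα i).symm
  have hcn : S₀.card ≤ n := Finset.card_le_univ S₀
  -- orders of the elementary symmetric functions, shifted
  have hE2 : ∀ k, k ≠ S₀.card → ((M + 1 : ℕ) : ℕ∞) ≤
      v (∑ s ∈ powersetCard k (univ : Finset ι), ∏ i ∈ s, r i) + (((n - k) * a : ℕ) : ℕ∞) := by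
    intro k hk
    refine hv.le_map_sum_add _ _ _ _ fun s hs => ?_
    have hsc : s.card = k := (mem_powersetCard.mp hs).2
    have hs0 : s ≠ S₀ := by
      rintro rfl
      exact hk hsc.symm
    have h1 := hWlt s hs0
    rw [hsc] at h1
    rw [hT s, ← Nat.cast_add, Nat.cast_le]
    omega
  have hE3 : v (∑ s ∈ powersetCard S₀.card (univ : Finset ι), ∏ i ∈ s, r i) +
      (((n - S₀.card) * a : ℕ) : ℕ∞) = (M : ℕ∞) := by
    have hmem : S₀ ∈ powersetCard S₀.card (univ : Finset ι) :=
      mem_powersetCard.mpr ⟨subset_univ _, rfl⟩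
    rw [← Finset.add_sum_erase _ _ hmem]
    have hX : v (∏ i ∈ S₀, r i) = ((∑ i ∈ S₀, α i : ℕ) : ℕ∞) := hT S₀
    have hY : ((M + 1 : ℕ) : ℕ∞) ≤
        v (∑ s ∈ (powersetCard S₀.card (univ : Finset ι)).erase S₀, ∏ i ∈ s, r i) +
          (((n - S₀.card) * a : ℕ) : ℕ∞) := by
      refine hv.le_map_sum_add _ _ _ _ fun s hs => ?_
      have hs' := mem_erase.mp hs
      have hsc : s.card = S₀.card := (mem_powersetCard.mp hs'.2).2
      have h1 := hWlt s hs'.1
      rw [hsc] at h1
      rw [hT s, ← Nat.cast_add, Nat.cast_le]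
      omega
    have hlt : v (∏ i ∈ S₀, r i) <
        v (∑ s ∈ (powersetCard S₀.card (univ : Finset ι)).erase S₀, ∏ i ∈ s, r i) := by
      rw [hX]
      by_contra hge
      rw [not_lt] at hge
      obtain ⟨b, hb⟩ := ENat.ne_top_iff_exists.mp
        (ne_top_of_le_ne_top (ENat.natCast_ne_top _) hge)
      rw [← hb, ← Nat.cast_add, Nat.cast_le] at hY
      rw [← hb, Nat.cast_le] at hge
      omega
    rw [hv.map_add_eq_of_lt hlt, hX, ← Nat.cast_add, Nat.cast_inj]
    exact hWeq
  -- the terms of the relation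
  have ht : ∀ k ≤ n, v' ((-1) ^ k * e' k * y ^ (n - k)) =
      v (∑ s ∈ powersetCard k (univ : Finset ι), ∏ i ∈ s, r i) + (((n - k) * a : ℕ) : ℕ∞) := by
    intro k hk
    rw [hv'.map_mul, hv'.map_mul, hv'.map_neg_one_pow, zero_add, he k hk, hv'.map_pow, ← ha]
    congr 1
  have hcmem : S₀.card ∈ range (n + 1) := mem_range.mpr (Nat.lt_succ_of_le hcn)
  rw [← Finset.add_sum_erase _ _ hcmem] at hy
  have hrest : ((M + 1 : ℕ) : ℕ∞) ≤
      v' (∑ k ∈ (range (n + 1)).erase S₀.card, (-1) ^ k * e' k * y ^ (n - k)) := by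
    refine hv'.le_map_sum _ _ _ fun k hk => ?_
    have hk' := mem_erase.mp hk
    rw [ht k (Nat.lt_succ_iff.mp (mem_range.mp hk'.2))]
    exact hE2 k hk'.1
  have hmain : v' ((-1) ^ S₀.card * e' S₀.card * y ^ (n - S₀.card)) = (M : ℕ∞) := by
    rw [ht S₀.card hcn]
    exact hE3
  have hlt : v' ((-1) ^ S₀.card * e' S₀.card * y ^ (n - S₀.card)) <
      v' (∑ k ∈ (range (n + 1)).erase S₀.card, (-1) ^ k * e' k * y ^ (n - k)) := by
    rw [hmain]
    refine lt_of_lt_of_le ?_ hrest
    exact_mod_cast Nat.lt_succ_self M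
  have hfin := hv'.map_add_eq_of_lt hlt
  rw [hy, hv'.map_zero, hmain] at hfin
  exact ENat.natCast_ne_top M hfin.symm

end Fermat.Agent.S29.NewtonRoot
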