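/-
S29 block [K], ℂ-side existence chain (WE) — SigmaFix.lean (helper16).

The coefficientwise action `coeffMap φ` of a ring endomorphism `φ` of `ℂ` on `ℂ((q))`:
* fixes the formal `j`-invariant `jC` and the `q`-expansion `DeltaC` of `Δ`
  (both have rational coefficients);
* preserves the function field `FC N` (for ring automorphisms);
* preserves integrality over `ℂ[t]` for every `t` fixed by it (in particular over `ℂ[jC]` and
  `ℂ[jC⁻¹]`), hence the integrality conditions of the dictionary `K1Int` / `K1IntConv`.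
-/
import Mathlib
import Fermat.Agent.S29.KDefs
import Fermat.Agent.S24.JFormal
import Fermat.Agent.S24.JFormalE4

set_option autoImplicit false

noncomputable section

namespace Fermat.Agent.S29.SigmaFix

open ModularCurve UpperHalfPlane
open Fermat.Agent.S29.K

/-- ring endomorphisms of `ℂ` fix the rational numbers. -/
theorem comp_algebraMap_rat (φ : ℂ →+* ℂ) : φ.comp (algebraMap ℚ ℂ) = algebraMap ℚ ℂ :=
  RingHom.ext fun q => by simp

/-- `coeffMap φ` fixes every series with rational coefficients. -/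
theorem coeffMap_coeffEmb (φ : ℂ →+* ℂ) (y : LaurentSeries ℚ) :
    coeffMap φ (coeffEmb ℂ y) = coeffEmb ℂ y := by
  rw [coeffEmb, coeffMap_coeffMap, comp_algebraMap_rat]

/-- `coeffMap φ` fixes the formal `j`-invariant. -/
theorem coeffMap_jC (φ : ℂ →+* ℂ) : coeffMap φ jC = jC :=
  coeffMap_coeffEmb φ jq

/-- `coeffMap φ` fixes the inverse of the formal `j`-invariant. -/
theorem coeffMap_jC_inv (φ : ℂ →+* ℂ) : coeffMap φ jC⁻¹ = jC⁻¹ := by
  rw [map_inv₀, coeffMap_jC]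

/-- `coeffMap φ` fixes power series with integer coefficients. -/
theorem coeffMap_ofPowerSeries_int (φ : ℂ →+* ℂ) (P : PowerSeries ℤ) :
    coeffMap φ (HahnSeries.ofPowerSeries ℤ ℂ (P.map (Int.castRingHom ℂ))) =
      HahnSeries.ofPowerSeries ℤ ℂ (P.map (Int.castRingHom ℂ)) := by
  rw [Fermat.Agent.S24.JFormalE4.coeffMap_ofPowerSeries]
  congr 1
  ext n
  simp

/-- the `q`-expansion of `Δ` has integer coefficients. -/
theorem DeltaC_eq :
    DeltaC = HahnSeries.ofPowerSeries ℤ ℂ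
      ((PowerSeries.X * ModularCurve.dedekindEtaUnit).map (Int.castRingHom ℂ)) := by
  rw [DeltaC, qx, Fermat.Agent.S24.JFormal.qExpansion_discriminant]
  congr 1
  rw [map_mul, PowerSeries.map_X]

/-- `coeffMap φ` fixes the `q`-expansion of `Δ`. -/
theorem coeffMap_DeltaC (φ : ℂ →+* ℂ) : coeffMap φ DeltaC = DeltaC := by
  rw [DeltaC_eq, coeffMap_ofPowerSeries_int]

/-- a ring automorphism of `ℂ`, as a `ℚ`-algebra automorphism. -/
def toRatAlgEquiv (σ : ℂ ≃+* ℂ) : ℂ ≃ₐ[ℚ] ℂ :=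
  AlgEquiv.ofRingEquiv (f := σ) (fun q => by simp)

theorem coe_toRatAlgEquiv (σ : ℂ ≃+* ℂ) :
    ((toRatAlgEquiv σ : ℂ ≃ₐ[ℚ] ℂ) : ℂ →+* ℂ) = (σ : ℂ →+* ℂ) :=
  RingHom.ext fun _ => rfl

/-- `coeffMap σ` preserves the function field `FC N`. -/
theorem coeffMap_mem_FC (N : ℕ) (σ : ℂ ≃+* ℂ) {x : LaurentSeries ℂ} (hx : x ∈ FC N) :
    coeffMap (σ : ℂ →+* ℂ) x ∈ FC N := by
  have h := coeffMap_mem_laurentBaseChange (F₀ := modularFunctionFieldFull N)
    (toRatAlgEquiv σ) hx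
  rwa [coeffMap_congr (coe_toRatAlgEquiv σ)] at h

/-- `coeffMap φ` maps `ℂ[t]` into itself when it fixes `t`. -/
theorem coeffMap_mem_adjoin (φ : ℂ →+* ℂ) {t : LaurentSeries ℂ} (ht : coeffMap φ t = t)
    {a : LaurentSeries ℂ} (ha : a ∈ Algebra.adjoin ℂ ({t} : Set (LaurentSeries ℂ))) :
    coeffMap φ a ∈ Algebra.adjoin ℂ ({t} : Set (LaurentSeries ℂ)) := by
  induction ha using Algebra.adjoin_induction with
  | mem y hy =>
    rw [Set.mem_singleton_iff] at hy
    rw [hy, ht]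
    exact Algebra.subset_adjoin rfl
  | algebraMap c =>
    rw [coeffMap_algebraMap]
    exact Subalgebra.algebraMap_mem _ _
  | add y z _ _ hy hz =>
    rw [map_add]
    exact add_mem hy hz
  | mul y z _ _ hy hz =>
    rw [map_mul]
    exact mul_mem hy hz

/-- **integrality transport**: `coeffMap φ` preserves integrality over `ℂ[t]` when it fixes
`t`. -/
theorem isIntegral_coeffMap (φ : ℂ →+* ℂ) {t : LaurentSeries ℂ} (ht : coeffMap φ t = t)
    {x : LaurentSeries ℂ} (hx : IsIntegral (Algebra.adjoin ℂ ({t} : Set (LaurentSeries ℂ))) x) :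
    IsIntegral (Algebra.adjoin ℂ ({t} : Set (LaurentSeries ℂ))) (coeffMap φ x) := by
  let A := Algebra.adjoin ℂ ({t} : Set (LaurentSeries ℂ))
  let τ₀ : A →+* A :=
    ((coeffMap φ).comp (algebraMap A (LaurentSeries ℂ))).codRestrict A.toSubring
      (fun a => coeffMap_mem_adjoin φ ht a.2)
  have hcomp : (algebraMap A (LaurentSeries ℂ)).comp τ₀ =
      (coeffMap φ).comp (algebraMap A (LaurentSeries ℂ)) := RingHom.ext fun a => rfl
  exact hx.map_of_comp_eq τ₀ (coeffMap φ) hcomp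

/-- integrality over `ℂ[jC]` is preserved by `coeffMap φ`. -/
theorem isIntegral_jC_coeffMap (φ : ℂ →+* ℂ) {x : LaurentSeries ℂ}
    (hx : IsIntegral (Algebra.adjoin ℂ ({jC} : Set (LaurentSeries ℂ))) x) :
    IsIntegral (Algebra.adjoin ℂ ({jC} : Set (LaurentSeries ℂ))) (coeffMap φ x) :=
  isIntegral_coeffMap φ (coeffMap_jC φ) hx

/-- integrality over `ℂ[jC⁻¹]` is preserved by `coeffMap φ`. -/
theorem isIntegral_jC_inv_coeffMap (φ : ℂ →+* ℂ) {x : LaurentSeries ℂ}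
    (hx : IsIntegral (Algebra.adjoin ℂ ({jC⁻¹} : Set (LaurentSeries ℂ))) x) :
    IsIntegral (Algebra.adjoin ℂ ({jC⁻¹} : Set (LaurentSeries ℂ))) (coeffMap φ x) :=
  isIntegral_coeffMap φ (coeffMap_jC_inv φ) hx

/-- **the dictionary conditions of `K1Int` are stable under `coeffMap σ`.** -/
theorem dict_coeffMap (N : ℕ) (σ : ℂ ≃+* ℂ) (m : ℕ) {x : LaurentSeries ℂ}
    (h : x ∈ FC N ∧ IsIntegral (Algebra.adjoin ℂ ({jC} : Set (LaurentSeries ℂ))) x ∧
      IsIntegral (Algebra.adjoin ℂ ({jC⁻¹} : Set (LaurentSeries ℂ))) (x * jC⁻¹ ^ m)) :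
    coeffMap (σ : ℂ →+* ℂ) x ∈ FC N ∧
      IsIntegral (Algebra.adjoin ℂ ({jC} : Set (LaurentSeries ℂ))) (coeffMap (σ : ℂ →+* ℂ) x) ∧
      IsIntegral (Algebra.adjoin ℂ ({jC⁻¹} : Set (LaurentSeries ℂ)))
        (coeffMap (σ : ℂ →+* ℂ) x * jC⁻¹ ^ m) := by
  refine ⟨coeffMap_mem_FC N σ h.1, isIntegral_jC_coeffMap _ h.2.1, ?_⟩
  have := isIntegral_jC_inv_coeffMap (σ : ℂ →+* ℂ) h.2.2
  rwa [map_mul, map_pow, coeffMap_jC_inv] at this

/-- transport of the defining relation `x * DeltaC ^ m = s`. -/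
theorem coeffMap_mul_DeltaC_pow (φ : ℂ →+* ℂ) (m : ℕ) {x s : LaurentSeries ℂ}
    (h : x * DeltaC ^ m = s) : coeffMap φ x * DeltaC ^ m = coeffMap φ s := by
  rw [← h, map_mul, map_pow, coeffMap_DeltaC]

/-- the ring hom underlying a `Qb`-algebra automorphism of `ℂ` is that of its ring
equivalence. -/
theorem coe_algEquiv_eq {k : Type*} [Field k] [Algebra k ℂ] (σ : ℂ ≃ₐ[k] ℂ) :
    ((σ : ℂ ≃ₐ[k] ℂ) : ℂ →+* ℂ) = ((σ.toRingEquiv : ℂ ≃+* ℂ) : ℂ →+* ℂ) :=
  RingHom.ext fun _ => rfl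

end Fermat.Agent.S29.SigmaFix
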