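import Mathlib
import Fermat.Agent.S29.KBasic
import Fermat.Agent.S29.K1LevelOne
import Fermat.Agent.S29.SigmaFix
import Fermat.Agent.S29.InvRat
import Fermat.Agent.S29.JOrd
import Fermat.Agent.S29.NewtonRoot
import Fermat.Agent.S20.Sym
import Fermat.Agent.LevelOne.JSurj

/-!
# S29 block [K], leaf [KPInv], route D (B-copy): the Newton-polygon proof

OWNER: helper37.

For `G, G' ∈ M_{12m}(Γ₀(N))`, `G ≠ 0`, whose q-expansions are conjugate under a ring automorphism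
`σ` of `ℂ`, every zero order of `G'` on the upper half plane is a zero order of `G`
(`exists_analyticOrderAt_eq`); in particular divisibility of all zero orders by `p` is preserved
(`kpInv`).

Proof: `G` is a root of `∏_q (X - cj G q)`, whose coefficients are level-one forms
`C_k(j) Δ^{mk}`; hence `G'` is a root of the `σ`-conjugate polynomial, whose coefficients have
the same orders at `z₁` as the original ones at a point `z` with `j(z₁) = σ(j(z))`; the
Newton-polygon step `NewtonRoot.exists_order_eq` then gives a conjugate `cj G q` whose order at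
`z` is the order of `G'` at `z₁`.
-/

set_option autoImplicit false

namespace Fermat.Agent.S29.KPInvNP

open UpperHalfPlane ModularForm CongruenceSubgroup ModularCurve Filter Topology
open scoped MatrixGroups ModularForm Manifold
open Fermat.Agent.S29.K Fermat.Agent.LevelOne Fermat.Agent.S29.InvRat

local notation "Δ" => ModularForm.discriminant

/-- The function `P(j) · Δ^K` on the upper half plane. -/
noncomputable def sPK (P : Polynomial ℂ) (K : ℕ) : ℍ → ℂ := fun z => P.eval (jFun z) * Δ z ^ K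

theorem sPK_apply (P : Polynomial ℂ) (K : ℕ) (z : ℍ) : sPK P K z = P.eval (jFun z) * Δ z ^ K :=
  rfl

theorem mdiff_sPK (P : Polynomial ℂ) (K : ℕ) : MDiff (sPK P K) :=
  (mdiff_eval_jFun P).mul (mdiff_discriminant_pow K)

theorem sPK_zero (K : ℕ) : sPK 0 K = 0 := by
  funext z
  simp [sPK]

/-- `P(j) Δ^K` is a nice function for `deg P ≤ K`, with q-expansion `P(jC) · DeltaC^K`. -/
theorem sPK_nice (P : Polynomial ℂ) (K : ℕ) (hP : P.natDegree ≤ K) :
    sPK P K ∈ S23.niceSub ∧ qx (sPK P K) = Polynomial.aeval jC P * DeltaC ^ K := by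
  have hE4 : (⇑E₄ : ℍ → ℂ) ∈ S23.niceSub := S24.AnBridge.levelOne_mem_niceSub E₄
  have hD : (Δ : ℍ → ℂ) ∈ S23.niceSub := S24.AnBridge.discriminant_mem_niceSub
  set E4n : S23.niceSub := ⟨(⇑E₄ : ℍ → ℂ), hE4⟩ with hE4n
  set Dn : S23.niceSub := ⟨(Δ : ℍ → ℂ), hD⟩ with hDn
  set S : S23.niceSub := ∑ i ∈ Finset.range (K + 1),
    algebraMap ℂ S23.niceSub (P.coeff i) * (E4n ^ (3 * i) * Dn ^ (K - i)) with hS
  have hcoe : (S : ℍ → ℂ) = sPK P K := by
    funext z
    rw [hS, AddSubmonoidClass.coe_finsetSum, Finset.sum_apply, sPK_apply,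
      Polynomial.eval_eq_sum_range' (Nat.lt_succ_of_le hP), Finset.sum_mul]
    refine Finset.sum_congr rfl fun i hi => ?_
    have hiK : i ≤ K := Nat.lt_succ_iff.mp (Finset.mem_range.mp hi)
    have h1 : ((algebraMap ℂ S23.niceSub (P.coeff i) * (E4n ^ (3 * i) * Dn ^ (K - i)) :
        S23.niceSub) : ℍ → ℂ) z = P.coeff i * (E₄ z ^ (3 * i) * Δ z ^ (K - i)) := by
      simp [hE4n, hDn]
    rw [h1, pow_mul, ← jFun_mul_discriminant, mul_pow]
    have h2 : Δ z ^ K = Δ z ^ i * Δ z ^ (K - i) := by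
      rw [← pow_add, Nat.add_sub_cancel' hiK]
    rw [h2]
    ring
  have hmem : sPK P K ∈ S23.niceSub := hcoe ▸ S.2
  refine ⟨hmem, ?_⟩
  have hSeq : (⟨sPK P K, hmem⟩ : S23.niceSub) = S := Subtype.ext hcoe.symm
  rw [qx_eq_Phi hmem, hSeq, hS, map_sum, Polynomial.aeval_eq_sum_range' (Nat.lt_succ_of_le hP),
    Finset.sum_mul]
  refine Finset.sum_congr rfl fun i hi => ?_
  have hiK : i ≤ K := Nat.lt_succ_iff.mp (Finset.mem_range.mp hi)
  rw [map_mul, map_mul, map_pow, map_pow, S24.AnBridge.Phi_algebraMap]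
  have h3 : S24.AnBridge.Phi E4n = qx (⇑E₄ : ℍ → ℂ) := (qx_eq_Phi hE4).symm
  have h4 : S24.AnBridge.Phi Dn = DeltaC := (qx_eq_Phi hD).symm
  rw [h3, h4, pow_mul, ← jC_mul_DeltaC, mul_pow, Algebra.smul_def]
  have h2 : DeltaC ^ K = DeltaC ^ i * DeltaC ^ (K - i) := by
    rw [← pow_add, Nat.add_sub_cancel' hiK]
  rw [h2]
  ring

/-- Level-one forms of weight `12K` are of the form `P(j) Δ^K` with `deg P ≤ K`. -/
theorem exists_eq_sPK (K : ℕ) {s : ℍ → ℂ} (hs : s ∈ S20.LF (12 * (K : ℤ))) :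
    ∃ P : Polynomial ℂ, P.natDegree ≤ K ∧ s = sPK P K := by
  obtain ⟨P, hP, hq⟩ := K1LevelOne.qx_eq_aeval_mul_pow K hs
  obtain ⟨hmem, hq'⟩ := sPK_nice P K hP
  exact ⟨P, hP, qx_injOn (K1LevelOne.mem_niceSub_of_mem_LF hs) hmem (hq.trans hq'.symm)⟩

/-- `coeffMap φ` acts on polynomials in `jC` through the coefficients. -/
theorem coeffMap_aeval_jC (φ : ℂ →+* ℂ) (P : Polynomial ℂ) :
    coeffMap φ (Polynomial.aeval jC P) = Polynomial.aeval jC (P.map φ) := by
  rw [Polynomial.aeval_def, Polynomial.hom_eval₂, SigmaFix.coeffMap_jC, Polynomial.aeval_def,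
    Polynomial.eval₂_map]
  congr 1
  exact RingHom.ext fun c => coeffMap_algebraMap φ c

/-! ### Orders -/

theorem ordH_zero (z : ℍ) : ordH (0 : ℍ → ℂ) z = ⊤ := by
  rw [ordH, analyticOrderAt_eq_top]
  exact Eventually.of_forall fun _ => rfl

theorem ordH_jFun_sub (z : ℍ) :
    ordH (fun w : ℍ => jFun w - jFun z) z = (JOrd.jE (jFun z) : ℕ∞) :=
  JOrd.analyticOrderAt_jFun_sub z

theorem mdiff_jFun_sub (c : ℂ) : MDiff (fun w : ℍ => jFun w - c) :=
  jFun_mdifferentiable.sub mdifferentiable_const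

/-- The order at `z` of `((X - j(z))^e Q)(j) Δ^K` for `Q(j(z)) ≠ 0`. -/
theorem ordH_sPK_factor (z : ℍ) (e : ℕ) (Q : Polynomial ℂ) (hQ : Q.eval (jFun z) ≠ 0) (K : ℕ) :
    ordH (sPK ((Polynomial.X - Polynomial.C (jFun z)) ^ e * Q) K) z =
      ((e * JOrd.jE (jFun z) : ℕ) : ℕ∞) := by
  have h1 : sPK ((Polynomial.X - Polynomial.C (jFun z)) ^ e * Q) K =
      (fun w : ℍ => jFun w - jFun z) ^ e * sPK Q K := by
    funext w
    simp only [sPK_apply, Pi.mul_apply, Pi.pow_apply, Polynomial.eval_mul, Polynomial.eval_pow,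
      Polynomial.eval_sub, Polynomial.eval_X, Polynomial.eval_C]
    ring
  have h2 : ordH (sPK Q K) z = 0 := by
    rw [ordH_eq_zero (mdiff_sPK Q K), sPK_apply]
    exact mul_ne_zero hQ (pow_ne_zero K (ModularForm.discriminant_ne_zero z))
  rw [h1, ordH_mul ((mdiff_jFun_sub (jFun z)).pow e) (mdiff_sPK Q K),
    ordH_pow (mdiff_jFun_sub (jFun z)), ordH_jFun_sub, h2, add_zero, nsmul_eq_mul]
  push_cast
  rfl

/-- **Transfer of orders**: the coefficient `P^σ(j) Δ^K` has at `z₁` the order of `P(j) Δ^K`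
at `z`, whenever `j(z₁) = σ(j(z))`. -/
theorem ordH_sPK_map (σ : ℂ ≃+* ℂ) (P : Polynomial ℂ) (K : ℕ) (z z₁ : ℍ)
    (hz : jFun z₁ = σ (jFun z)) :
    ordH (sPK (P.map (σ : ℂ →+* ℂ)) K) z₁ = ordH (sPK P K) z := by
  by_cases hP : P = 0
  · rw [hP, Polynomial.map_zero, sPK_zero, ordH_zero, ordH_zero]
  · obtain ⟨Q, hPQ, hQ⟩ :=
      Polynomial.exists_eq_pow_rootMultiplicity_mul_and_not_dvd P hP (jFun z)
    obtain ⟨e, he⟩ : ∃ e, e = P.rootMultiplicity (jFun z) := ⟨_, rfl⟩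
    rw [← he] at hPQ
    have hQ0 : Q.eval (jFun z) ≠ 0 := fun h => hQ (Polynomial.dvd_iff_isRoot.mpr h)
    have hQ1 : (Q.map (σ : ℂ →+* ℂ)).eval (jFun z₁) ≠ 0 := by
      rw [hz]
      have : (Q.map (σ : ℂ →+* ℂ)).eval ((σ : ℂ →+* ℂ) (jFun z)) = (σ : ℂ →+* ℂ) (Q.eval (jFun z)) :=
        Polynomial.eval_map_apply _ _
      rw [show σ (jFun z) = (σ : ℂ →+* ℂ) (jFun z) from rfl, this]
      exact (map_ne_zero _).mpr hQ0
    have hmap : P.map (σ : ℂ →+* ℂ) =
        (Polynomial.X - Polynomial.C (jFun z₁)) ^ e * Q.map (σ : ℂ →+* ℂ) := by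
      rw [hPQ, Polynomial.map_mul, Polynomial.map_pow, Polynomial.map_sub, Polynomial.map_X,
        Polynomial.map_C, hz]
      rfl
    rw [hmap, ordH_sPK_factor z₁ e _ hQ1 K, hPQ, ordH_sPK_factor z e Q hQ0 K, hz]
    have := JOrd.jE_map (σ : ℂ →+* ℂ) (jFun z)
    rw [show σ (jFun z) = (σ : ℂ →+* ℂ) (jFun z) from rfl, this]

/-! ### The order function on holomorphic functions -/

theorem isOrd_ordH (u : ℍ) :
    NewtonRoot.IsOrd (fun f : S24.holSub => ordH (f : ℍ → ℂ) u) where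
  map_zero := ordH_zero u
  map_one := (ordH_eq_zero (f := (1 : ℍ → ℂ)) mdifferentiable_const u).mpr one_ne_zero
  map_mul := fun f g => ordH_mul f.2 g.2 u
  map_add := fun _ _ => le_analyticOrderAt_add
  map_neg := fun f => by
    have h : ((-f : S24.holSub) : ℍ → ℂ) = (fun _ : ℍ => (-1 : ℂ)) * (f : ℍ → ℂ) := by
      funext w
      simp
    show ordH ((-f : S24.holSub) : ℍ → ℂ) u = ordH (f : ℍ → ℂ) u
    rw [h, ordH_mul mdifferentiable_const f.2,
      (ordH_eq_zero (f := fun _ : ℍ => (-1 : ℂ)) mdifferentiable_const u).mpr (by norm_num),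
      zero_add]

/-- The order of a slash translate. -/
theorem ordH_slash {w : ℤ} {G : ℍ → ℂ} (hG : MDiff G) (γ : SL(2, ℤ)) (z : ℍ) :
    ordH (G ∣[w] γ) z = ordH G (γ • z) := by
  have hd : MDiff (fun u : ℍ => denom (γ : GL (Fin 2) ℝ) u ^ (-w)) :=
    UpperHalfPlane.mdifferentiable_denom_zpow _ _
  have h : G ∣[w] γ = (fun u : ℍ => G (γ • u)) * (fun u : ℍ => denom (γ : GL (Fin 2) ℝ) u ^ (-w)) := by
    funext u
    rw [Pi.mul_apply]
    exact ModularForm.SL_slash_apply G γ u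
  rw [h, ordH_mul (mdiff_comp_smul hG γ) hd, ordH_comp_smul hG γ z,
    (ordH_eq_zero hd z).mpr (zpow_ne_zero _ (denom_ne_zero _ _)), add_zero]

variable {N : ℕ} [NeZero N]

omit [NeZero N] in
theorem exists_cj_ne_zero {w : ℤ} {G : ℍ → ℂ} (hG0 : G ≠ 0) (q : S20.Q N) :
    ∃ z, S20.cj N w G q z ≠ 0 := by
  obtain ⟨z₂, hz₂⟩ := Function.ne_iff.mp hG0
  refine ⟨Quotient.out q • z₂, ?_⟩
  unfold S20.cj
  rw [ModularForm.SL_slash_apply, inv_smul_smul]
  exact mul_ne_zero hz₂ (zpow_ne_zero _ (denom_ne_zero _ _))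

/-! ### The relation -/

/-- `G` is a root of the polynomial of its conjugates. -/
theorem sum_esymQ_mul_pow {w : ℤ} {G : ℍ → ℂ} (hG : S20.IsInv N w G) (z : ℍ) :
    ∑ k ∈ Finset.range (Fintype.card (S20.Q N) + 1),
      (-1) ^ k * S20.esymQ N w G k z * G z ^ (Fintype.card (S20.Q N) - k) = 0 := by
  classical
  set s : Multiset ℂ := Finset.univ.val.map fun q : S20.Q N => S20.cj N w G q z with hs
  have hcard : Multiset.card s = Fintype.card (S20.Q N) := by
    rw [hs, Multiset.card_map]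
    rfl
  have hmem : G z ∈ s := by
    rw [hs, Multiset.mem_map]
    exact ⟨((1 : SL(2, ℤ)) : S20.Q N), Finset.mem_univ_val _, by rw [S20.cj_one hG]⟩
  have hprod := Multiset.prod_X_sub_X_eq_sum_esymm s
  have hroot : Polynomial.eval (G z) (s.map fun t => Polynomial.X - Polynomial.C t).prod = 0 := by
    have hdvd : (Polynomial.X - Polynomial.C (G z)) ∣
        (s.map fun t => Polynomial.X - Polynomial.C t).prod :=
      Multiset.dvd_prod (Multiset.mem_map.mpr ⟨G z, hmem, rfl⟩)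
    obtain ⟨g, hg⟩ := hdvd
    rw [hg]
    simp
  rw [hprod, Polynomial.eval_finsetSum, hcard] at hroot
  rw [← hroot]
  refine Finset.sum_congr rfl fun k _ => ?_
  simp only [Polynomial.eval_mul, Polynomial.eval_pow, Polynomial.eval_neg, Polynomial.eval_one,
    Polynomial.eval_C, Polynomial.eval_X, S20.esymQ, hs]
  ring

theorem coe_sum_niceSub (n : ℕ) (a : ℕ → S23.niceSub) (g : S23.niceSub) (z : ℍ) :
    ((∑ k ∈ Finset.range (n + 1), (-1) ^ k * a k * g ^ (n - k) : S23.niceSub) : ℍ → ℂ) z =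
      ∑ k ∈ Finset.range (n + 1), (-1) ^ k * (a k : ℍ → ℂ) z * (g : ℍ → ℂ) z ^ (n - k) := by
  rw [AddSubmonoidClass.coe_finsetSum, Finset.sum_apply]
  refine Finset.sum_congr rfl fun k _ => ?_
  simp

/-- The conjugate relation: `G'` is a root of the `σ`-conjugate of the polynomial of `G`. -/
theorem sum_sPK_map_mul_pow (σ : ℂ ≃+* ℂ) (m : ℕ) {G G' : ℍ → ℂ}
    (hG : G ∈ S20.MF N (12 * m)) (hG' : G' ∈ S20.MF N (12 * m))
    (hσ : qx G' = coeffMap (σ : ℂ →+* ℂ) (qx G))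
    (C : ℕ → Polynomial ℂ) (hCdeg : ∀ k, (C k).natDegree ≤ m * k)
    (hC : ∀ k, S20.esymQ N (12 * m) G k = sPK (C k) (m * k)) (z : ℍ) :
    ∑ k ∈ Finset.range (Fintype.card (S20.Q N) + 1),
      (-1) ^ k * sPK ((C k).map (σ : ℂ →+* ℂ)) (m * k) z *
        G' z ^ (Fintype.card (S20.Q N) - k) = 0 := by
  set n := Fintype.card (S20.Q N) with hn
  have hGn : G ∈ S23.niceSub := mem_niceSub_of_mem_MF hG
  have hG'n : G' ∈ S23.niceSub := mem_niceSub_of_mem_MF hG'
  have hGi : S20.IsInv N (12 * m) G := (S20.mem_MF_iff.mp hG).2.1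
  have he : ∀ k, sPK (C k) (m * k) ∈ S23.niceSub ∧
      qx (sPK (C k) (m * k)) = Polynomial.aeval jC (C k) * DeltaC ^ (m * k) :=
    fun k => sPK_nice _ _ (hCdeg k)
  have he' : ∀ k, sPK ((C k).map (σ : ℂ →+* ℂ)) (m * k) ∈ S23.niceSub ∧
      qx (sPK ((C k).map (σ : ℂ →+* ℂ)) (m * k)) =
        Polynomial.aeval jC ((C k).map (σ : ℂ →+* ℂ)) * DeltaC ^ (m * k) :=
    fun k => sPK_nice _ _ ((Polynomial.natDegree_map_le).trans (hCdeg k))
  -- the relation for `G` in `niceSub`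
  have hR : (∑ k ∈ Finset.range (n + 1),
      (-1) ^ k * (⟨sPK (C k) (m * k), (he k).1⟩ : S23.niceSub) *
        (⟨G, hGn⟩ : S23.niceSub) ^ (n - k) : S23.niceSub) = 0 := by
    refine Subtype.ext (funext fun u => ?_)
    rw [coe_sum_niceSub]
    have h := sum_esymQ_mul_pow hGi u
    simp only [hC] at h
    exact h
  -- apply the q-expansion map
  have hΦ := congrArg S24.AnBridge.Phi hR
  simp only [map_sum, map_mul, map_pow, map_neg, map_one, map_zero] at hΦ
  -- apply `coeffMap σ`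
  have hΨ := congrArg (coeffMap (σ : ℂ →+* ℂ)) hΦ
  simp only [map_sum, map_mul, map_pow, map_neg, map_one, map_zero] at hΨ
  -- the relation for `G'` in `niceSub`
  have hR' : (∑ k ∈ Finset.range (n + 1),
      (-1) ^ k * (⟨sPK ((C k).map (σ : ℂ →+* ℂ)) (m * k), (he' k).1⟩ : S23.niceSub) *
        (⟨G', hG'n⟩ : S23.niceSub) ^ (n - k) : S23.niceSub) = 0 := by
    apply S24.AnBridge.Phi_injective
    simp only [map_sum, map_mul, map_pow, map_neg, map_one, map_zero]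
    rw [← hΨ]
    refine Finset.sum_congr rfl fun k _ => ?_
    rw [← qx_eq_Phi (he' k).1, ← qx_eq_Phi hG'n, ← qx_eq_Phi (he k).1, ← qx_eq_Phi hGn,
      (he' k).2, (he k).2, hσ, map_mul, map_pow, coeffMap_aeval_jC, SigmaFix.coeffMap_DeltaC]
  have h := congrFun (congrArg Subtype.val hR') z
  rw [coe_sum_niceSub] at h
  exact h

/-! ### The main theorem -/

/-- **Order transport.**  Every zero order of `G'` on the upper half plane is a zero order of `G`,
when the q-expansions of `G, G' ∈ M_{12m}(Γ₀(N))` are conjugate under a ring automorphism of `ℂ`. -/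
theorem exists_analyticOrderAt_eq (N : ℕ) [NeZero N] (σ : ℂ ≃+* ℂ) (m : ℕ) {G G' : ℍ → ℂ}
    (hG : G ∈ S20.MF N (12 * m)) (hG' : G' ∈ S20.MF N (12 * m)) (hG0 : G ≠ 0)
    (hσ : qx G' = coeffMap (σ : ℂ →+* ℂ) (qx G)) (z₁ : ℍ) :
    ∃ z : ℍ, jFun z₁ = σ (jFun z) ∧
      analyticOrderAt (fun w : ℂ => G' (ofComplex w)) (z₁ : ℂ) =
        analyticOrderAt (fun w : ℂ => G (ofComplex w)) (z : ℂ) := by
  classical
  obtain ⟨hGd, hGi, -⟩ := S20.mem_MF_iff.mp hG
  obtain ⟨hG'd, -, -⟩ := S20.mem_MF_iff.mp hG'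
  -- the coefficient polynomials
  have hex : ∀ k : ℕ, ∃ P : Polynomial ℂ, P.natDegree ≤ m * k ∧
      S20.esymQ N (12 * m) G k = sPK P (m * k) := by
    intro k
    have h1 := S20.esymQ_mem_LF hG k
    have hw : (k : ℤ) * (12 * (m : ℤ)) = 12 * ((m * k : ℕ) : ℤ) := by
      push_cast
      ring
    rw [hw] at h1
    exact exists_eq_sPK (m * k) h1
  choose C hCdeg hC using hex
  -- the point `z`
  obtain ⟨z, hz⟩ := jFun_surjective (σ.symm (jFun z₁))
  have hz' : jFun z₁ = σ (jFun z) := by rw [hz, RingEquiv.apply_symm_apply]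
  -- `G' ≠ 0`
  have hG'0 : G' ≠ 0 := by
    intro h
    have h1 : qx G' = 0 := by
      rw [h]
      exact qx_zero
    rw [hσ] at h1
    have h2 : qx G = 0 := by
      have hinj : Function.Injective (coeffMap (σ : ℂ →+* ℂ)) := RingHom.injective _
      exact hinj (by rw [h1, map_zero])
    exact hG0 ((qx_eq_zero_iff (mem_niceSub_of_mem_MF hG)).mp h2)
  -- the Newton-polygon step
  have key := NewtonRoot.exists_order_eq (isOrd_ordH z) (isOrd_ordH z₁)
    (fun q : S20.Q N => (⟨S20.cj N (12 * m) G q, S24.mem_holSub.mpr (S20.mdiff_cj hGd q)⟩ : S24.holSub))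
    (fun q => ordH_ne_top (S20.mdiff_cj hGd q) (exists_cj_ne_zero hG0 q) z)
    (fun k => (⟨sPK ((C k).map (σ : ℂ →+* ℂ)) (m * k), S24.mem_holSub.mpr (mdiff_sPK _ _)⟩ : S24.holSub))
    (fun k _ => by
      show ordH (sPK ((C k).map (σ : ℂ →+* ℂ)) (m * k)) z₁ =
        ordH ((∑ s ∈ Finset.powersetCard k (Finset.univ : Finset (S20.Q N)),
          ∏ q ∈ s, (⟨S20.cj N (12 * m) G q, S24.mem_holSub.mpr (S20.mdiff_cj hGd q)⟩ : S24.holSub) : S24.holSub) :
            ℍ → ℂ) z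
      have hcoe : ((∑ s ∈ Finset.powersetCard k (Finset.univ : Finset (S20.Q N)),
          ∏ q ∈ s, (⟨S20.cj N (12 * m) G q, S24.mem_holSub.mpr (S20.mdiff_cj hGd q)⟩ : S24.holSub) : S24.holSub) :
            ℍ → ℂ) = sPK (C k) (m * k) := by
        rw [← hC k, S20.Sym.esymQ_eq_sum, AddSubmonoidClass.coe_finsetSum]
        refine Finset.sum_congr rfl fun s _ => ?_
        rw [SubmonoidClass.coe_finsetProd]
      rw [hcoe]
      exact ordH_sPK_map σ (C k) (m * k) z z₁ hz')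
    (⟨G', S24.mem_holSub.mpr hG'd⟩ : S24.holSub)
    (ordH_ne_top hG'd (Function.ne_iff.mp hG'0) z₁)
    (by
      refine Subtype.ext (funext fun u => ?_)
      rw [AddSubmonoidClass.coe_finsetSum, Finset.sum_apply]
      have h := sum_sPK_map_mul_pow σ m hG hG' hσ C hCdeg hC u
      refine Eq.trans (Finset.sum_congr rfl fun k _ => ?_) h
      simp)
  obtain ⟨q, hq⟩ := key
  refine ⟨(Quotient.out q)⁻¹ • z, ?_, ?_⟩
  · rw [jFun_smul]
    exact hz'
  · have h1 : ordH G' z₁ = ordH (S20.cj N (12 * m) G q) z := hq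
    have h2 : ordH (S20.cj N (12 * m) G q) z = ordH G ((Quotient.out q)⁻¹ • z) :=
      ordH_slash hGd _ z
    exact h1.trans h2

/-- **[KPInv]**: divisibility by `p` of all zero orders on the upper half plane is preserved by
ring automorphisms of `ℂ` acting on q-expansions (every `p`). -/
theorem kpInv (N p : ℕ) [NeZero N] (σ : ℂ ≃+* ℂ) (m : ℕ) (G G' : ℍ → ℂ)
    (hG : G ∈ S20.MF N (12 * m)) (hG' : G' ∈ S20.MF N (12 * m)) (hG0 : G ≠ 0)
    (hσ : qx G' = coeffMap (σ : ℂ →+* ℂ) (qx G))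
    (hord : ∀ z₀ : ℍ, ∃ n : ℕ,
      analyticOrderAt (fun z : ℂ => G (ofComplex z)) (z₀ : ℂ) = ((p * n : ℕ) : ℕ∞)) :
    ∀ z₀ : ℍ, ∃ n : ℕ,
      analyticOrderAt (fun z : ℂ => G' (ofComplex z)) (z₀ : ℂ) = ((p * n : ℕ) : ℕ∞) := by
  intro z₁
  obtain ⟨z, -, hz⟩ := exists_analyticOrderAt_eq N σ m hG hG' hG0 hσ z₁
  obtain ⟨n, hn⟩ := hord z
  exact ⟨n, by rw [hz, hn]⟩

end Fermat.Agent.S29.KPInvNP
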