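/-
S29 block [K], leaf [K1Deg] of helper17's table (#1922) — K1Deg.lean (helper50).

Every element `x` of `Mchi N 1` (a quotient `qx A / qx B` of forms of level `Γ₀(N)` with trivial
multiplier) is a root of a nonzero polynomial of degree `≤ μ = [SL(2, ℤ) : Γ₀(N)]` over
`ℂ(j) ⊆ ℂ((q))`.   (= [K1Sym] + [K1LevelOne].)
-/
import Mathlib
import Fermat.Prelude.Thm_CongruenceSubgroup_one_mem_strictPeriods_Gamma0
import Fermat.Agent.S29.KDefs
import Fermat.Agent.S29.K1Sym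
import Fermat.Agent.S29.K1LevelOne
import Fermat.Agent.S24.AnBridge

set_option autoImplicit false

noncomputable section

namespace Fermat.Agent.S29.K

open UpperHalfPlane ModularForm CongruenceSubgroup ModularCurve Polynomial
open scoped MatrixGroups ModularForm Manifold

namespace K1Deg

/-- Forms of level `Γ₀(N)` are nice functions. -/
theorem nice_of_mem_MF {N : ℕ} {k : ℤ} {G : ℍ → ℂ} (hG : G ∈ S20.MF N k) : G ∈ S23.niceSub := by
  obtain ⟨G', rfl⟩ := hG
  have hΓ := CongruenceSubgroup.one_mem_strictPeriods_Gamma0 N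
  have : Fact (IsCusp OnePoint.infty ((Gamma0 N : Subgroup SL(2, ℤ)) : Subgroup (GL (Fin 2) ℝ))) :=
    ⟨Subgroup.isCusp_of_mem_strictPeriods one_pos hΓ⟩
  exact ⟨SlashInvariantFormClass.periodic_comp_ofComplex G' hΓ, ModularFormClass.holo G',
    ModularFormClass.bdd_at_infty G'⟩

/-- Level-one forms are nice functions. -/
theorem nice_of_mem_LF {k : ℤ} {F : ℍ → ℂ} (hF : F ∈ S20.LF k) : F ∈ S23.niceSub := by
  obtain ⟨F', rfl⟩ := hF
  exact S24.AnBridge.levelOne_mem_niceSub F'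

/-- `qx` on nice functions is the ring homomorphism `S24.AnBridge.Phi`. -/
theorem qx_eq_Phi {F : ℍ → ℂ} (hF : F ∈ S23.niceSub) : qx F = S24.AnBridge.Phi ⟨F, hF⟩ := rfl

theorem qx_ne_zero {F : ℍ → ℂ} (hF : F ∈ S23.niceSub) (h0 : F ≠ 0) : qx F ≠ 0 := by
  rw [qx_eq_Phi hF]
  intro h
  apply h0
  have h1 : (⟨F, hF⟩ : S23.niceSub) = 0 :=
    S24.AnBridge.Phi_injective (by rw [h, map_zero])
  exact congrArg Subtype.val h1

/-- Forms with trivial multiplier are the forms of `S20.MF`. -/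
theorem mem_MF_of_mem_MFchi_one {N : ℕ} [NeZero N] {w : ℤ} {A : ℍ → ℂ}
    (hA : A ∈ MFchi N w 1) : A ∈ S20.MF N w := by
  obtain ⟨h1, h2, h3⟩ := hA
  refine S20.mem_MF_iff'.mpr ⟨h1, fun γ hγ => ?_, h3⟩
  have := h2 ⟨γ, hγ⟩
  simpa using this

/-- The algebraic core: a level-one relation of degree `μ` for `(A, B)` gives a polynomial of
degree `≤ μ` over `ℂ(j)` killing `x = qx A / qx B`. -/
theorem exists_polynomial_of_relation {A B : ℍ → ℂ} {x : LaurentSeries ℂ}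
    (hAn : A ∈ S23.niceSub) (hBn : B ∈ S23.niceSub) (hB0 : B ≠ 0) (hxAB : x * qx B = qx A)
    (μ : ℕ) (W : ℤ) (s : Fin (μ + 1) → ℍ → ℂ) (hs : ∀ r, s r ∈ S20.LF W)
    (hs0 : s (Fin.last μ) ≠ 0)
    (hrel : ∑ r, s r * A ^ (r : ℕ) * B ^ (μ - (r : ℕ)) = 0) :
    ∃ P : Polynomial ↥(IntermediateField.adjoin ℂ ({jC} : Set (LaurentSeries ℂ))),
      P ≠ 0 ∧ P.natDegree ≤ μ ∧ Polynomial.aeval x P = 0 := by
  classical
  have hsn : ∀ r, s r ∈ S23.niceSub := fun r => nice_of_mem_LF (hs r)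
  -- the relation in `niceSub`
  have hrel' : ∑ r : Fin (μ + 1), (⟨s r, hsn r⟩ : S23.niceSub) * (⟨A, hAn⟩ : S23.niceSub) ^ (r : ℕ)
      * (⟨B, hBn⟩ : S23.niceSub) ^ (μ - (r : ℕ)) = 0 := by
    apply Subtype.ext
    rw [Subalgebra.coe_zero, ← hrel]
    exact map_sum (S23.niceSub).val _ _
  -- apply the q-expansion
  have hq := congrArg S24.AnBridge.Phi hrel'
  rw [map_sum, map_zero] at hq
  have hq' : ∑ r : Fin (μ + 1), qx (s r) * qx A ^ (r : ℕ) * qx B ^ (μ - (r : ℕ)) = 0 := by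
    rw [← hq]
    refine Finset.sum_congr rfl fun r _ => ?_
    rw [map_mul, map_mul, map_pow, map_pow]
    rfl
  have hqB : qx B ≠ 0 := qx_ne_zero hBn hB0
  have hq2 : (∑ r : Fin (μ + 1), qx (s r) * x ^ (r : ℕ)) * qx B ^ μ = 0 := by
    rw [← hq', Finset.sum_mul]
    refine Finset.sum_congr rfl fun r _ => ?_
    have hr : (r : ℕ) ≤ μ := Nat.lt_succ_iff.mp r.2
    have hpow : qx B ^ μ = qx B ^ (r : ℕ) * qx B ^ (μ - (r : ℕ)) := by
      rw [← pow_add, Nat.add_sub_cancel' hr]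
    rw [← hxAB, mul_pow, hpow]
    ring
  have hq3 : ∑ r : Fin (μ + 1), qx (s r) * x ^ (r : ℕ) = 0 :=
    (mul_eq_zero.mp hq2).resolve_right (pow_ne_zero _ hqB)
  -- divide by the leading coefficient
  have hlast : qx (s (Fin.last μ)) ≠ 0 := qx_ne_zero (hsn _) hs0
  choose c hc hcs using fun r : Fin (μ + 1) => levelOne_ratio_mem (hs r) (hs (Fin.last μ)) hs0
  have hclast : c (Fin.last μ) = 1 := by
    have h1 := hcs (Fin.last μ)
    have h2 : (c (Fin.last μ) - 1) * qx (s (Fin.last μ)) = 0 := by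
      rw [sub_mul, h1, one_mul, sub_self]
    exact sub_eq_zero.mp ((mul_eq_zero.mp h2).resolve_right hlast)
  have hq4 : ∑ r : Fin (μ + 1), c r * x ^ (r : ℕ) = 0 := by
    have h1 : (∑ r : Fin (μ + 1), c r * x ^ (r : ℕ)) * qx (s (Fin.last μ)) = 0 := by
      rw [← hq3, Finset.sum_mul]
      refine Finset.sum_congr rfl fun r _ => ?_
      rw [← hcs r]
      ring
    exact (mul_eq_zero.mp h1).resolve_right hlast
  -- the polynomial
  let K := IntermediateField.adjoin ℂ ({jC} : Set (LaurentSeries ℂ))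
  let P : Polynomial K := ∑ r : Fin (μ + 1), C (⟨c r, hc r⟩ : K) * X ^ (r : ℕ)
  refine ⟨P, ?_, ?_, ?_⟩
  · intro hP
    have h1 : P.coeff μ = 1 := by
      show (∑ r : Fin (μ + 1), C (⟨c r, hc r⟩ : K) * X ^ (r : ℕ)).coeff μ = 1
      rw [finsetSum_coeff]
      rw [Finset.sum_eq_single (Fin.last μ)]
      · rw [coeff_C_mul, coeff_X_pow, Fin.val_last, if_pos rfl, mul_one]
        exact Subtype.ext hclast
      · intro r _ hr
        rw [coeff_C_mul, coeff_X_pow, if_neg, mul_zero]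
        intro h
        exact hr (Fin.ext (by rw [Fin.val_last]; exact h.symm))
      · intro h
        exact absurd (Finset.mem_univ _) h
    rw [hP, coeff_zero] at h1
    exact zero_ne_one h1
  · refine natDegree_sum_le_of_forall_le _ _ fun r _ => ?_
    refine (natDegree_C_mul_le _ _).trans ((natDegree_X_pow_le _).trans ?_)
    exact Nat.lt_succ_iff.mp r.2
  · show Polynomial.aeval x (∑ r : Fin (μ + 1), C (⟨c r, hc r⟩ : K) * X ^ (r : ℕ)) = 0
    rw [map_sum, ← hq4]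
    refine Finset.sum_congr rfl fun r _ => ?_
    rw [map_mul, aeval_C, map_pow, aeval_X]
    rfl

end K1Deg

/-- **[K1Deg]** Every element of `Mchi N 1` is a root of a nonzero polynomial of degree at most
`[SL(2, ℤ) : Γ₀(N)]` over `ℂ(j)`. -/
theorem exists_polynomial_of_mem_Mchi_one {N : ℕ} [NeZero N] {x : LaurentSeries ℂ}
    (hx : x ∈ Mchi N 1) :
    ∃ P : Polynomial ↥(IntermediateField.adjoin ℂ ({jC} : Set (LaurentSeries ℂ))),
      P ≠ 0 ∧ P.natDegree ≤ Nat.card (S20.Q N) ∧ Polynomial.aeval x P = 0 := by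
  obtain ⟨w, A, B, hA, hB, hB0, hxAB⟩ := hx
  have hA' : A ∈ S20.MF N w := K1Deg.mem_MF_of_mem_MFchi_one hA
  obtain ⟨s, hs, hs0, hrel⟩ := exists_levelOne_relation hA' hB hB0
  exact K1Deg.exists_polynomial_of_relation (K1Deg.nice_of_mem_MF hA') (K1Deg.nice_of_mem_MF hB)
    hB0 hxAB _ _ s hs hs0 hrel

end Fermat.Agent.S29.K
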