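/-
S29 block [K], leaf [K1Gen] of helper17's table — K1Gen.lean (helper93).

The generators `j(q^d)`, `d ∣ N`, of the function field `F_ℂ = ℂ(j(q^d) : d ∣ N)` are
q-expansions of quotients of modular forms of level `Γ₀(N)`:

  `j(q^d) · qx (Δ(d·)) = qx (E₄(d·)³)`,   `E₄(d·)³, Δ(d·) ∈ M₁₂(Γ₀(N))`.

Ingredients: `S24.jRel` (the formal identity `j · Δ = E₄³`),
`S24.AnBridge.ofPowerSeries_qExpansion_scale` (q-expansion of `F(d·)`),
`S16.WMem.comp_mulN_mem_MF` (`F(d·) ∈ M_k(Γ₀(d))` for `F` of level one) and `Γ₀(N) ≤ Γ₀(d)`.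
-/
import Mathlib
import Fermat.Agent.S29.KDefs
import Fermat.Agent.S24.Bridge
import Fermat.Agent.S16.WMem

set_option autoImplicit false

namespace Fermat.Agent.S29.K

open UpperHalfPlane ModularForm CongruenceSubgroup ModularCurve
open scoped MatrixGroups ModularForm Manifold

namespace K1Gen

/-- `Γ₀(N) ≤ Γ₀(d)` for `d ∣ N`. -/
theorem Gamma0_le_of_dvd {d N : ℕ} (hd : d ∣ N) : Gamma0 N ≤ Gamma0 d := by
  intro γ hγ
  rw [Gamma0_mem] at hγ ⊢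
  rw [ZMod.intCast_zmod_eq_zero_iff_dvd] at hγ ⊢
  exact dvd_trans (Int.natCast_dvd_natCast.mpr hd) hγ

/-- Forms of level `Γ₀(d)` are forms of level `Γ₀(N)` for `d ∣ N`. -/
theorem MF_le_of_dvd {d N : ℕ} [NeZero d] [NeZero N] (hd : d ∣ N) (w : ℤ) :
    S20.MF d w ≤ S20.MF N w := by
  intro f hf
  rw [S20.mem_MF_iff'] at hf ⊢
  exact ⟨hf.1, fun γ hγ => hf.2.1 γ (Gamma0_le_of_dvd hd hγ), hf.2.2⟩

/-- Forms of level `Γ₀(N)` have the trivial multiplier. -/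
theorem mem_MFchi_one_of_mem_MF {N : ℕ} [NeZero N] {w : ℤ} {A : ℍ → ℂ} (hA : A ∈ S20.MF N w) :
    A ∈ MFchi N w 1 := by
  rw [S20.mem_MF_iff'] at hA
  refine ⟨hA.1, fun γ => ?_, hA.2.2⟩
  rw [MonoidHom.one_apply, Units.val_one, one_smul]
  exact hA.2.1 γ γ.2

/-- `E₄ ∈ M₄(SL₂(ℤ))`. -/
theorem E4_mem_LF : (E₄ : ℍ → ℂ) ∈ S20.LF 4 := ⟨E₄, rfl⟩

/-- `Δ ∈ M₁₂(SL₂(ℤ))`. -/
theorem discriminant_mem_LF : (ModularForm.discriminant : ℍ → ℂ) ∈ S20.LF 12 := by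
  rw [S20.mem_LF_iff]
  refine ⟨CuspForm.discriminant.holo', fun γ => ?_, ?_⟩
  · exact SlashInvariantForm.slash_action_eqn CuspForm.discriminant _ ⟨γ, rfl⟩
  · exact ModularForm.discriminant_isZeroAtImInfty.isBoundedAtImInfty

/-- `Δ(d·) ∈ M₁₂(Γ₀(N))` for `d ∣ N`. -/
theorem discriminant_scale_mem_MF {N : ℕ} [NeZero N] (d : ℕ) [NeZero d] (hd : d ∣ N) :
    (fun z => ModularForm.discriminant (S23.mulN d z)) ∈ S20.MF N 12 :=
  MF_le_of_dvd hd 12 (S16.WMem.comp_mulN_mem_MF d discriminant_mem_LF)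

/-- `E₄(d·)³ ∈ M₁₂(Γ₀(N))` for `d ∣ N`. -/
theorem E4_scale_cube_mem_MF {N : ℕ} [NeZero N] (d : ℕ) [NeZero d] (hd : d ∣ N) :
    (fun z => E₄ (S23.mulN d z)) ^ 3 ∈ S20.MF N 12 := by
  have h := S20.pow_mem_MF (MF_le_of_dvd hd 4 (S16.WMem.comp_mulN_mem_MF d E4_mem_LF)) 3
  have e : ((3 : ℕ) : ℤ) * 4 = 12 := by norm_num
  rwa [e] at h

/-- `Δ(d·)` is not the zero function. -/
theorem discriminant_scale_ne_zero (d : ℕ) [NeZero d] :
    (fun z => ModularForm.discriminant (S23.mulN d z)) ≠ 0 := by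
  intro h
  exact ModularForm.discriminant_ne_zero _ (congrFun h UpperHalfPlane.I)

/-- The q-expansion identity `j(q^d) · qx (Δ(d·)) = qx (E₄(d·)³)`. -/
theorem jd_mul_qx (d : ℕ) [NeZero d] :
    coeffEmb ℂ (qExpand ℚ d jq) * qx (fun z => ModularForm.discriminant (S23.mulN d z)) =
      qx ((fun z => E₄ (S23.mulN d z)) ^ 3) := by
  have hΔ := S24.AnBridge.discriminant_mem_niceSub
  have hE := S24.AnBridge.levelOne_mem_niceSub E₄
  have hE4 := S24.AnBridge.scale_mem_niceSub d hE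
  have hJ : coeffMap (algebraMap ℚ ℂ) jq *
      HahnSeries.ofPowerSeries ℤ ℂ (qExpansion 1 (ModularForm.discriminant : ℍ → ℂ)) =
    HahnSeries.ofPowerSeries ℤ ℂ (qExpansion 1 (E₄ : ℍ → ℂ)) ^ 3 := S24.jRel
  have h1 : coeffEmb ℂ (qExpand ℚ d jq) = qExpand ℂ d (coeffMap (algebraMap ℚ ℂ) jq) := by
    rw [coeffEmb, coeffMap_qExpand]
  have h2 : qx ((fun z => E₄ (S23.mulN d z)) ^ 3) =
      qx (fun z => E₄ (S23.mulN d z)) ^ 3 := by
    unfold qx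
    have h := map_pow S23.qHom (⟨_, hE4⟩ : S23.niceSub) 3
    rw [S23.qHom_apply, S23.qHom_apply] at h
    rw [← map_pow]
    exact congrArg _ h
  rw [h1, h2]
  unfold qx
  rw [S24.AnBridge.ofPowerSeries_qExpansion_scale d hΔ,
    S24.AnBridge.ofPowerSeries_qExpansion_scale d hE, ← map_mul, ← map_pow]
  exact congrArg _ hJ

end K1Gen

/-- **[K1Gen]** The generator `j(q^d)` (`d ∣ N`) of `F_ℂ` is the q-expansion of the quotient
`E₄(d·)³ / Δ(d·)` of two forms of weight `12` and level `Γ₀(N)`. -/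
theorem jd_mem_Mchi_one {N : ℕ} [NeZero N] (d : ℕ) [NeZero d] (hd : d ∣ N) :
    coeffEmb ℂ (qExpand ℚ d jq) ∈ Mchi N 1 :=
  ⟨12, (fun z => E₄ (S23.mulN d z)) ^ 3, fun z => ModularForm.discriminant (S23.mulN d z),
    K1Gen.mem_MFchi_one_of_mem_MF (K1Gen.E4_scale_cube_mem_MF d hd),
    K1Gen.discriminant_scale_mem_MF d hd, K1Gen.discriminant_scale_ne_zero d,
    K1Gen.jd_mul_qx d⟩

end Fermat.Agent.S29.K
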