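/-
S29 block [K], leaf [K1Field] of helper17's table #1922 (helper69).

`Mchi N 1` — the set of `q`-series `x ∈ ℂ((q))` with `x · qx B = qx A`, `A, B` modular forms of
the same weight on `Γ₀(N)`, `B ≠ 0` — is (the carrier of) an intermediate field of `ℂ((q))/ℂ`.
-/
import Mathlib
import Fermat.Agent.S29.KDefs
import Fermat.Agent.S24.AnBridge
import Fermat.Prelude.Thm_CongruenceSubgroup_one_mem_strictPeriods_Gamma0

set_option autoImplicit false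

namespace Fermat.Agent.S29.K

open UpperHalfPlane ModularForm CongruenceSubgroup ModularCurve
open scoped MatrixGroups ModularForm Manifold

section K1Field

variable {N : ℕ}

/-- Modular forms on `Γ₀(N)` are nice functions (`1`-periodic, holomorphic, bounded at `i∞`). -/
theorem k1f_nice {w : ℤ} {G : ℍ → ℂ} (hG : G ∈ S20.MF N w) : G ∈ S23.niceSub := by
  obtain ⟨G', rfl⟩ := hG
  have hΓ := CongruenceSubgroup.one_mem_strictPeriods_Gamma0 N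
  have : Fact (IsCusp OnePoint.infty
      ((CongruenceSubgroup.Gamma0 N : Subgroup SL(2, ℤ)) : Subgroup (GL (Fin 2) ℝ))) :=
    ⟨Subgroup.isCusp_of_mem_strictPeriods one_pos hΓ⟩
  exact ⟨SlashInvariantFormClass.periodic_comp_ofComplex G' hΓ, ModularFormClass.holo G',
    ModularFormClass.bdd_at_infty G'⟩

theorem k1f_qx_eq {A : ℍ → ℂ} (hA : A ∈ S23.niceSub) :
    qx A = S24.AnBridge.Phi ⟨A, hA⟩ := rfl

theorem k1f_qx_mul {A B : ℍ → ℂ} (hA : A ∈ S23.niceSub) (hB : B ∈ S23.niceSub) :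
    qx (A * B) = qx A * qx B := by
  rw [k1f_qx_eq hA, k1f_qx_eq hB, k1f_qx_eq (S23.niceSub.mul_mem hA hB), ← map_mul]
  rfl

theorem k1f_qx_add {A B : ℍ → ℂ} (hA : A ∈ S23.niceSub) (hB : B ∈ S23.niceSub) :
    qx (A + B) = qx A + qx B := by
  rw [k1f_qx_eq hA, k1f_qx_eq hB, k1f_qx_eq (S23.niceSub.add_mem hA hB), ← map_add]
  rfl

theorem k1f_qx_neg {A : ℍ → ℂ} (hA : A ∈ S23.niceSub) : qx (-A) = -qx A := by
  rw [k1f_qx_eq hA, k1f_qx_eq (S23.niceSub.neg_mem hA), ← map_neg]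
  rfl

theorem k1f_qx_zero : qx (0 : ℍ → ℂ) = 0 := by
  rw [k1f_qx_eq S23.niceSub.zero_mem]
  exact map_zero _

theorem k1f_qx_one : qx (1 : ℍ → ℂ) = 1 := by
  rw [k1f_qx_eq S23.niceSub.one_mem]
  exact map_one _

theorem k1f_qx_const (c : ℂ) :
    qx (algebraMap ℂ (ℍ → ℂ) c) = algebraMap ℂ (LaurentSeries ℂ) c := by
  rw [k1f_qx_eq (S23.niceSub.algebraMap_mem c), ← S24.AnBridge.Phi_algebraMap]
  rfl

theorem k1f_qx_ne_zero {A : ℍ → ℂ} (hA : A ∈ S23.niceSub) (h0 : A ≠ 0) : qx A ≠ 0 := by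
  rw [k1f_qx_eq hA]
  intro h
  apply h0
  have h1 : (⟨A, hA⟩ : S23.niceSub) = 0 := S24.AnBridge.Phi_injective (by rw [h, map_zero])
  exact congrArg Subtype.val h1

/-- Products of modular forms (weights add). -/
theorem k1f_mul_mem {a b c : ℤ} {A B : ℍ → ℂ} (hA : A ∈ S20.MF N a) (hB : B ∈ S20.MF N b)
    (h : c = a + b) : A * B ∈ S20.MF N c := by
  subst h
  obtain ⟨F, rfl⟩ := hA
  obtain ⟨G, rfl⟩ := hB
  exact ⟨F.mul G, rfl⟩

theorem k1f_one_mem : (1 : ℍ → ℂ) ∈ S20.MF N 0 :=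
  ⟨1, ModularForm.one_coe_eq_one⟩

theorem k1f_const_mem (c : ℂ) : algebraMap ℂ (ℍ → ℂ) c ∈ S20.MF N 0 := by
  have h : algebraMap ℂ (ℍ → ℂ) c = c • (1 : ℍ → ℂ) := by
    ext z
    simp
  rw [h]
  exact (S20.MF N 0).smul_mem c k1f_one_mem

/-- For the trivial multiplier, `MFchi` is the space of modular forms. -/
theorem k1f_mem_MFchi_one [NeZero N] {w : ℤ} {A : ℍ → ℂ} :
    A ∈ MFchi N w 1 ↔ A ∈ S20.MF N w := by
  rw [mem_MFchi, S20.mem_MF_iff']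
  refine and_congr_right fun _ => and_congr_left fun _ => ?_
  constructor
  · intro h γ hγ
    have := h ⟨γ, hγ⟩
    simpa using this
  · intro h γ
    have := h γ.1 γ.2
    simpa using this

theorem k1f_mem_Mchi_one_iff [NeZero N] {x : LaurentSeries ℂ} :
    x ∈ Mchi N 1 ↔ ∃ (w : ℤ) (A B : ℍ → ℂ), A ∈ S20.MF N w ∧ B ∈ S20.MF N w ∧ B ≠ 0 ∧
      x * qx B = qx A := by
  constructor
  · rintro ⟨w, A, B, hA, hB, hB0, h⟩
    exact ⟨w, A, B, k1f_mem_MFchi_one.mp hA, hB, hB0, h⟩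
  · rintro ⟨w, A, B, hA, hB, hB0, h⟩
    exact ⟨w, A, B, k1f_mem_MFchi_one.mpr hA, hB, hB0, h⟩

theorem k1f_mul_ne_zero {a b : ℤ} {A B : ℍ → ℂ} (hA : A ∈ S20.MF N a) (hB : B ∈ S20.MF N b)
    (hA0 : A ≠ 0) (hB0 : B ≠ 0) : A * B ≠ 0 := by
  intro h
  have h1 := k1f_qx_mul (k1f_nice hA) (k1f_nice hB)
  rw [h, k1f_qx_zero] at h1
  exact mul_ne_zero (k1f_qx_ne_zero (k1f_nice hA) hA0) (k1f_qx_ne_zero (k1f_nice hB) hB0) h1.symm

theorem k1f_algebraMap_mem [NeZero N] (c : ℂ) :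
    algebraMap ℂ (LaurentSeries ℂ) c ∈ Mchi N 1 := by
  rw [k1f_mem_Mchi_one_iff]
  refine ⟨0, algebraMap ℂ (ℍ → ℂ) c, 1, k1f_const_mem c, k1f_one_mem, one_ne_zero, ?_⟩
  rw [k1f_qx_one, mul_one, k1f_qx_const]

theorem k1f_add_mem [NeZero N] {x y : LaurentSeries ℂ} (hx : x ∈ Mchi N 1) (hy : y ∈ Mchi N 1) :
    x + y ∈ Mchi N 1 := by
  rw [k1f_mem_Mchi_one_iff] at hx hy ⊢
  obtain ⟨w, A, B, hA, hB, hB0, h⟩ := hx
  obtain ⟨w', A', B', hA', hB', hB0', h'⟩ := hy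
  have h1 : A * B' ∈ S20.MF N (w + w') := k1f_mul_mem hA hB' rfl
  have h2 : A' * B ∈ S20.MF N (w + w') := k1f_mul_mem hA' hB (add_comm w w')
  refine ⟨w + w', A * B' + A' * B, B * B', (S20.MF N (w + w')).add_mem h1 h2,
    k1f_mul_mem hB hB' rfl, k1f_mul_ne_zero hB hB' hB0 hB0', ?_⟩
  rw [k1f_qx_mul (k1f_nice hB) (k1f_nice hB'), k1f_qx_add (k1f_nice h1) (k1f_nice h2),
    k1f_qx_mul (k1f_nice hA) (k1f_nice hB'), k1f_qx_mul (k1f_nice hA') (k1f_nice hB), ← h, ← h']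
  ring

theorem k1f_neg_mem [NeZero N] {x : LaurentSeries ℂ} (hx : x ∈ Mchi N 1) : -x ∈ Mchi N 1 := by
  rw [k1f_mem_Mchi_one_iff] at hx ⊢
  obtain ⟨w, A, B, hA, hB, hB0, h⟩ := hx
  refine ⟨w, -A, B, (S20.MF N w).neg_mem hA, hB, hB0, ?_⟩
  rw [k1f_qx_neg (k1f_nice hA), ← h]
  ring

theorem k1f_mul_mem_Mchi [NeZero N] {x y : LaurentSeries ℂ} (hx : x ∈ Mchi N 1)
    (hy : y ∈ Mchi N 1) : x * y ∈ Mchi N 1 := by
  rw [k1f_mem_Mchi_one_iff] at hx hy ⊢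
  obtain ⟨w, A, B, hA, hB, hB0, h⟩ := hx
  obtain ⟨w', A', B', hA', hB', hB0', h'⟩ := hy
  refine ⟨w + w', A * A', B * B', k1f_mul_mem hA hA' rfl, k1f_mul_mem hB hB' rfl,
    k1f_mul_ne_zero hB hB' hB0 hB0', ?_⟩
  rw [k1f_qx_mul (k1f_nice hB) (k1f_nice hB'), k1f_qx_mul (k1f_nice hA) (k1f_nice hA'), ← h, ← h']
  ring

theorem k1f_inv_mem [NeZero N] {x : LaurentSeries ℂ} (hx : x ∈ Mchi N 1) : x⁻¹ ∈ Mchi N 1 := by
  by_cases hx0 : x = 0
  · rw [hx0, inv_zero]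
    have := k1f_algebraMap_mem (N := N) 0
    rwa [map_zero] at this
  rw [k1f_mem_Mchi_one_iff] at hx ⊢
  obtain ⟨w, A, B, hA, hB, hB0, h⟩ := hx
  have hqB : qx B ≠ 0 := k1f_qx_ne_zero (k1f_nice hB) hB0
  have hA0 : A ≠ 0 := by
    rintro rfl
    rw [k1f_qx_zero] at h
    exact mul_ne_zero hx0 hqB h
  refine ⟨w, B, A, hB, hA, hA0, ?_⟩
  rw [← h, ← mul_assoc, inv_mul_cancel₀ hx0, one_mul]

/-- **[K1Field]** `Mchi N 1` is an intermediate field of `ℂ((q))/ℂ`. -/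
theorem exists_intermediateField_Mchi_one [NeZero N] :
    ∃ L : IntermediateField ℂ (LaurentSeries ℂ), (L : Set (LaurentSeries ℂ)) = Mchi N 1 := by
  refine ⟨{ toSubalgebra :=
              { carrier := Mchi N 1
                mul_mem' := fun hx hy => k1f_mul_mem_Mchi hx hy
                add_mem' := fun hx hy => k1f_add_mem hx hy
                algebraMap_mem' := fun c => k1f_algebraMap_mem c }
            inv_mem' := fun x hx => k1f_inv_mem hx }, rfl⟩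

end K1Field

end Fermat.Agent.S29.K
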