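/-
S29 block [K], leaf [K1Prim] of helper17's table (helper69).  Mathlib-only.

`eq_of_degree_le`: if `F ≤ L` are intermediate fields of `E/k` (`char k = 0`), `F` contains `μ`
`k`-linearly independent elements and every element of `L` is a root of a nonzero polynomial of
degree `≤ μ` over `k`, then `L = F`.

Proof: for `x ∈ L` the subextension `M = k(b₀, …, b_{μ-1}, x) ≤ L` is finite and separable, hence
`M = k(θ)` (primitive element), `θ ∈ L`, so `[M : k] ≤ μ`; the `μ`-dimensional span of `b` inside
`M` is therefore all of `M`, and `x ∈ span b ⊆ F`.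
-/
import Mathlib

set_option autoImplicit false

namespace Fermat.Agent.S29.K1Prim

open IntermediateField Polynomial

/-- A finite extension in characteristic zero all of whose elements have degree `≤ μ` has
degree `≤ μ` (primitive element theorem). -/
theorem finrank_le_of_degree_le {k E : Type*} [Field k] [Field E] [Algebra k E] [CharZero k]
    (M : IntermediateField k E) [FiniteDimensional k M] (μ : ℕ)
    (hdeg : ∀ x ∈ M, ∃ P : Polynomial k, P ≠ 0 ∧ P.natDegree ≤ μ ∧ Polynomial.aeval x P = 0) :
    Module.finrank k M ≤ μ := by
  obtain ⟨α, hα⟩ := Field.exists_primitive_element k M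
  have hint : IsIntegral k α := IsIntegral.of_finite k α
  have h1 : Module.finrank k M = (minpoly k α).natDegree := by
    rw [← IntermediateField.adjoin.finrank hint, hα, IntermediateField.finrank_top']
  obtain ⟨P, hP0, hPd, hPx⟩ := hdeg (α : E) α.2
  have hPα : Polynomial.aeval α P = 0 := by
    have h2 : algebraMap M E (Polynomial.aeval α P) = 0 := by
      rw [← Polynomial.aeval_algebraMap_apply]
      exact hPx
    exact (injective_iff_map_eq_zero (algebraMap M E)).mp (algebraMap M E).injective _ h2
  have hdvd := minpoly.dvd k α hPα
  rw [h1]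
  exact (Polynomial.natDegree_le_of_dvd hdvd hP0).trans hPd

/-- **[K1Prim]** (statement of helper17's table #1922, verbatim). -/
theorem eq_of_degree_le {k E : Type*} [Field k] [Field E] [Algebra k E] [CharZero k]
    (F L : IntermediateField k E) (hFL : F ≤ L) (μ : ℕ) (b : Fin μ → E) (hb : ∀ i, b i ∈ F)
    (hli : LinearIndependent k b)
    (hdeg : ∀ x ∈ L, ∃ P : Polynomial k, P ≠ 0 ∧ P.natDegree ≤ μ ∧ Polynomial.aeval x P = 0) :
    L = F := by
  refine le_antisymm (fun x hx => ?_) hFL
  have hSfin : (insert x (Set.range b)).Finite := (Set.finite_range b).insert x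
  have hSL : insert x (Set.range b) ⊆ (L : Set E) := by
    rintro y (rfl | ⟨i, rfl⟩)
    · exact hx
    · exact hFL (hb i)
  have hSint : ∀ y ∈ insert x (Set.range b), IsIntegral k y := by
    intro y hy
    obtain ⟨P, hP0, -, hPy⟩ := hdeg y (hSL hy)
    have halg : IsAlgebraic k y := ⟨P, hP0, hPy⟩
    exact halg.isIntegral
  have : Finite (insert x (Set.range b) : Set E) := hSfin.to_subtype
  have hMfin : FiniteDimensional k (IntermediateField.adjoin k (insert x (Set.range b))) :=
    IntermediateField.finiteDimensional_adjoin hSint
  have hML : IntermediateField.adjoin k (insert x (Set.range b)) ≤ L :=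
    IntermediateField.adjoin_le_iff.mpr hSL
  have hfin : Module.finrank k (IntermediateField.adjoin k (insert x (Set.range b))) ≤ μ :=
    finrank_le_of_degree_le _ μ (fun y hy => hdeg y (hML hy))
  have hWM : Submodule.span k (Set.range b) ≤
      (IntermediateField.adjoin k (insert x (Set.range b))).toSubalgebra.toSubmodule := by
    rw [Submodule.span_le]
    rintro _ ⟨i, rfl⟩
    exact IntermediateField.subset_adjoin k _ (Set.mem_insert_of_mem _ ⟨i, rfl⟩)
  have hWrank : Module.finrank k (Submodule.span k (Set.range b)) = μ := by
    rw [finrank_span_eq_card hli, Fintype.card_fin]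
  have : FiniteDimensional k
      ((IntermediateField.adjoin k (insert x (Set.range b))).toSubalgebra.toSubmodule) := hMfin
  have hEq : Submodule.span k (Set.range b) =
      (IntermediateField.adjoin k (insert x (Set.range b))).toSubalgebra.toSubmodule := by
    apply Submodule.eq_of_le_of_finrank_le hWM
    rw [hWrank]
    exact hfin
  have hxW : x ∈ Submodule.span k (Set.range b) := by
    rw [hEq]
    exact IntermediateField.subset_adjoin k _ (Set.mem_insert _ _)
  have hWF : Submodule.span k (Set.range b) ≤ F.toSubalgebra.toSubmodule := by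
    rw [Submodule.span_le]
    rintro _ ⟨i, rfl⟩
    exact hb i
  exact hWF hxW

end Fermat.Agent.S29.K1Prim
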