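import Mathlib
import Fermat.Agent.S29.KDefs
import Fermat.Agent.S29.K1Field
import Fermat.Agent.S29.K1Prim

/-!
# S29 block [K]: top glue of (K1), hypothesis-shaped (owner: helper17)

`Mchi N 1 = F_ℂ`: quotients of modular forms of level `Γ₀(N)` with trivial multiplier are exactly
the elements of the function field `F_ℂ = ℂ · ℚ(j(dτ) : d ∣ N)`.

This file proves the statement from the three leaves of board post #1922 that are not yet on main
(K1Gen, K1Deg, K1Rank), taken as hypotheses, and the landed leaves K1Field and K1Prim.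
-/

set_option autoImplicit false

namespace Fermat.Agent.S29.K

open UpperHalfPlane ModularForm CongruenceSubgroup ModularCurve
open scoped MatrixGroups ModularForm Manifold

variable {N : ℕ}

/-- `jC ∈ F_ℂ`. -/
theorem jC_mem_FC (N : ℕ) [NeZero N] : jC ∈ FC N := by
  have h := coeffEmb_mem_laurentBaseChange ℂ (jqd_mem_full N (one_dvd N))
  rwa [qExpand_one_apply] at h

/-- `ℂ(jC) ≤ F_ℂ`. -/
theorem adjoin_jC_le_FC (N : ℕ) [NeZero N] :
    IntermediateField.adjoin ℂ ({jC} : Set (LaurentSeries ℂ)) ≤ FC N := by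
  rw [IntermediateField.adjoin_le_iff]
  rintro x hx
  rw [Set.mem_singleton_iff] at hx
  subst hx
  exact jC_mem_FC N

/-- If an intermediate field `L` of `ℂ((q))/ℂ` contains the generators `j(q^d)`, `d ∣ N`, then it
contains `F_ℂ`. -/
theorem FC_le_of_gen [NeZero N] (L : IntermediateField ℂ (LaurentSeries ℂ))
    (hGen : ∀ (d : ℕ) [NeZero d], d ∣ N → coeffEmb ℂ (qExpand ℚ d jq) ∈ L) : FC N ≤ L := by
  unfold FC laurentBaseChange
  rw [IntermediateField.adjoin_le_iff]
  rintro _ ⟨x, hx, rfl⟩
  have hx' : x ∈ IntermediateField.adjoin ℚ (divisorExpansions N) := hx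
  induction hx' using IntermediateField.adjoin_induction with
  | mem y hy =>
    obtain ⟨d, hd0, hd, rfl⟩ := hy
    exact hGen d hd
  | algebraMap c =>
    have h : coeffEmb ℂ (algebraMap ℚ (LaurentSeries ℚ) c) = algebraMap ℚ (LaurentSeries ℂ) c :=
      RingHom.map_rat_algebraMap _ c
    show coeffEmb ℂ (algebraMap ℚ (LaurentSeries ℚ) c) ∈ L
    rw [h, eq_ratCast]
    exact SubfieldClass.ratCast_mem L c
  | add y z _ _ hy hz =>
    show coeffEmb ℂ (y + z) ∈ L
    rw [map_add]
    exact L.add_mem (hy (by assumption)) (hz (by assumption))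
  | inv y _ hy =>
    show coeffEmb ℂ y⁻¹ ∈ L
    rw [map_inv₀]
    exact L.inv_mem (hy (by assumption))
  | mul y z _ _ hy hz =>
    show coeffEmb ℂ (y * z) ∈ L
    rw [map_mul]
    exact L.mul_mem (hy (by assumption)) (hz (by assumption))

/-- **(K1), hypothesis-shaped**: from the leaves K1Gen, K1Deg, K1Rank. -/
theorem Mchi_one_eq_of [NeZero N]
    (hGen : ∀ (d : ℕ) [NeZero d], d ∣ N → coeffEmb ℂ (qExpand ℚ d jq) ∈ Mchi N 1)
    (hDeg : ∀ x ∈ Mchi N 1,
      ∃ P : Polynomial ↥(IntermediateField.adjoin ℂ ({jC} : Set (LaurentSeries ℂ))),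
        P ≠ 0 ∧ P.natDegree ≤ Nat.card (S20.Q N) ∧ Polynomial.aeval x P = 0)
    (hRank : ∃ b : Fin (Nat.card (S20.Q N)) → LaurentSeries ℂ, (∀ i, b i ∈ FC N) ∧
      LinearIndependent ↥(IntermediateField.adjoin ℂ ({jC} : Set (LaurentSeries ℂ))) b) :
    Mchi N 1 = (FC N : Set (LaurentSeries ℂ)) := by
  obtain ⟨L, hL⟩ := exists_intermediateField_Mchi_one (N := N)
  have h1 : FC N ≤ L := FC_le_of_gen L (fun d _ hd => by
    have := hGen d hd
    rw [← hL] at this
    exact this)
  have hk : IntermediateField.adjoin ℂ ({jC} : Set (LaurentSeries ℂ)) ≤ FC N := adjoin_jC_le_FC N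
  have hkL : IntermediateField.adjoin ℂ ({jC} : Set (LaurentSeries ℂ)) ≤ L := hk.trans h1
  obtain ⟨b, hb, hli⟩ := hRank
  have hFL : IntermediateField.extendScalars hk ≤ IntermediateField.extendScalars hkL :=
    fun x hx => h1 hx
  have key := K1Prim.eq_of_degree_le (IntermediateField.extendScalars hk)
    (IntermediateField.extendScalars hkL) hFL (Nat.card (S20.Q N)) b (fun i => hb i) hli
    (fun x hx => hDeg x (by
      have hx' : x ∈ L := hx
      rw [← hL]
      exact hx'))
  rw [← hL]
  have := congrArg (fun M : IntermediateField _ (LaurentSeries ℂ) => (M : Set (LaurentSeries ℂ))) key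
  simpa using this

end Fermat.Agent.S29.K
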