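/-
S29 block [K], leaf (R5a) (helper69): descent of membership in the base-changed function field.

For fields `K → L` (via `φ`) and `F₀ ⊆ ℚ((q))`:
  `coeffMap φ x ∈ laurentBaseChange L F₀ ↔ x ∈ laurentBaseChange K F₀`     (`x ∈ K((q))`).
In the route: `K = ℚ̄`, `L = ℂ`, `F₀ = modularFunctionFieldFull N`:
  `F_ℂ ∩ ℚ̄((q)) = F̄_N`.

Proof of the descent: `coeffMap φ x = a / b` with `a`, `b` in the `L`-span `M_L` of the image of
`F₀`; for every `K`-linear functional `l : L → K` the coefficientwise map `l_*` satisfies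
`l_* (coeffMap φ y * z) = y * l_* z` for `z ∈ M_L` and `l_* z ∈ M_K`; choose `l` with
`l_* b ≠ 0`; then `x = l_* a / l_* b`.
-/
import Mathlib
import Fermat.Prelude.Def_ModularCurve_LaurentCoeff
import Fermat.Prelude.Def_ModularCurve_ArithmeticGalois

set_option autoImplicit false

noncomputable section

namespace Fermat.Agent.S29.RatDescent

open ModularCurve

section Functional

variable {K L : Type*} [Field K] [Field L]

/-- Coefficientwise application of an additive map `L → K` to a Laurent series over `L`. -/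
def coeffAdd (l : L →+ K) : LaurentSeries L →+ LaurentSeries K where
  toFun x := x.map l
  map_zero' := by
    ext n
    simp
  map_add' x y := by
    ext n
    simp

@[simp]
theorem coeffAdd_coeff (l : L →+ K) (x : LaurentSeries L) (n : ℤ) :
    (coeffAdd l x).coeff n = l (x.coeff n) :=
  rfl

theorem smul_eq_C_mul (a : L) (x : LaurentSeries L) : a • x = HahnSeries.C a * x :=
  HahnSeries.C_mul_eq_smul.symm

theorem mul_smul' (a : L) (x y : LaurentSeries L) : x * (a • y) = a • (x * y) := by
  rw [smul_eq_C_mul, smul_eq_C_mul, mul_left_comm]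

theorem smul_mul' (a : L) (x y : LaurentSeries L) : (a • x) * y = a • (x * y) := by
  rw [smul_eq_C_mul, smul_eq_C_mul, mul_assoc]

theorem algebraMap_eq_smul_one' (a : L) :
    algebraMap L (LaurentSeries L) a = a • (1 : LaurentSeries L) := by
  rw [smul_eq_C_mul, mul_one, algebraMap_laurentSeries_eq_single]
  rfl

/-- `l : L → K` is `K`-linear, where `L` is a `K`-vector space through `φ`. -/
def KLin (φ : K →+* L) (l : L →+ K) : Prop :=
  ∀ (c : K) (t : L), l (φ c * t) = c * l t

theorem KLin.comp_mulLeft {φ : K →+* L} {l : L →+ K} (hl : KLin φ l) (a : L) :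
    KLin φ (l.comp (AddMonoidHom.mulLeft a)) := by
  intro c t
  simp only [AddMonoidHom.coe_comp, Function.comp_apply, AddMonoidHom.coe_mulLeft]
  rw [mul_left_comm, hl]

theorem coeffAdd_smul (l : L →+ K) (a : L) (w : LaurentSeries L) :
    coeffAdd l (a • w) = coeffAdd (l.comp (AddMonoidHom.mulLeft a)) w := by
  ext n
  simp

theorem coeffAdd_smul_coeffMap {φ : K →+* L} {l : L →+ K} (hl : KLin φ l) (c : L)
    (y : LaurentSeries K) :
    coeffAdd l (c • coeffMap φ y) = l c • y := by
  ext n
  simp only [coeffAdd_coeff, HahnSeries.coeff_smul, coeffMap_coeff, smul_eq_mul]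
  rw [mul_comm c, hl, mul_comm]

/-- Functionals separate points: for `t ≠ 0` in `L` there is a `K`-linear `l` with `l t ≠ 0`. -/
theorem exists_kLin_ne_zero (φ : K →+* L) {t : L} (ht : t ≠ 0) :
    ∃ l : L →+ K, KLin φ l ∧ l t ≠ 0 := by
  let _ := φ.toAlgebra
  obtain ⟨f, hf⟩ : ∃ f : Module.Dual K L, f t ≠ 0 := by
    by_contra hcon
    push Not at hcon
    exact ht ((Module.forall_dual_apply_eq_zero_iff K t).mp hcon)
  refine ⟨f.toAddMonoidHom, ?_, hf⟩
  intro c x
  have h := f.map_smul c x
  rw [Algebra.smul_def, smul_eq_mul] at h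
  exact h

end Functional

section Descent

variable {K L : Type*} [Field K] [Field L] [Algebra ℚ K] [Algebra ℚ L] (φ : K →+* L)
variable (F₀ : IntermediateField ℚ (LaurentSeries ℚ))

/-- **(D0)** coefficient maps are compatible with the embeddings of `ℚ((q))`. -/
theorem coeffMap_coeffEmb (y : LaurentSeries ℚ) : coeffMap φ (coeffEmb K y) = coeffEmb L y := by
  rw [coeffEmb, coeffMap_coeffMap]
  exact coeffMap_congr (Subsingleton.elim _ _) y

omit [Algebra ℚ K] [Algebra ℚ L] in
theorem coeffMap_algebraMap (c : K) :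
    coeffMap φ (algebraMap K (LaurentSeries K) c) = algebraMap L (LaurentSeries L) (φ c) := by
  rw [algebraMap_laurentSeries_eq_single, algebraMap_laurentSeries_eq_single, coeffMap_single]

/-- **(D1)** base change of membership (easy direction). -/
theorem coeffMap_mem_laurentBaseChange {x : LaurentSeries K} (hx : x ∈ laurentBaseChange K F₀) :
    coeffMap φ x ∈ laurentBaseChange L F₀ := by
  rw [mem_laurentBaseChange_iff] at hx
  induction hx using Subfield.closure_induction with
  | mem y hy =>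
      rcases hy with ⟨a, rfl⟩ | ⟨z, hz, rfl⟩
      · rw [coeffMap_algebraMap]
        exact (laurentBaseChange L F₀).algebraMap_mem _
      · rw [coeffMap_coeffEmb]
        exact coeffEmb_mem_laurentBaseChange L hz
  | one => rw [map_one]; exact one_mem _
  | add x y _ _ hx hy => rw [map_add]; exact add_mem hx hy
  | neg x _ hx => rw [map_neg]; exact neg_mem hx
  | inv x _ hx => rw [map_inv₀]; exact inv_mem hx
  | mul x y _ _ hx hy => rw [map_mul]; exact mul_mem hx hy

/-- The `L`-span of the image of `F₀` in `L((q))`. -/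
def spanL (L : Type*) [Field L] [Algebra ℚ L] (F₀ : IntermediateField ℚ (LaurentSeries ℚ)) :
    Submodule L (LaurentSeries L) :=
  Submodule.span L (⇑(coeffEmb L) '' (F₀ : Set (LaurentSeries ℚ)))

theorem coeffEmb_mem_spanL {y : LaurentSeries ℚ} (hy : y ∈ F₀) : coeffEmb L y ∈ spanL L F₀ :=
  Submodule.subset_span ⟨y, hy, rfl⟩

theorem one_mem_spanL : (1 : LaurentSeries L) ∈ spanL L F₀ := by
  have h := coeffEmb_mem_spanL (L := L) F₀ (one_mem F₀)
  rwa [map_one] at h

theorem mul_mem_spanL {u v : LaurentSeries L} (hu : u ∈ spanL L F₀) (hv : v ∈ spanL L F₀) :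
    u * v ∈ spanL L F₀ := by
  refine Submodule.span_induction (p := fun u _ => u * v ∈ spanL L F₀) ?_ ?_ ?_ ?_ hu
  · rintro _ ⟨f, hf, rfl⟩
    refine Submodule.span_induction (p := fun v _ => coeffEmb L f * v ∈ spanL L F₀) ?_ ?_ ?_ ?_ hv
    · rintro _ ⟨g, hg, rfl⟩
      rw [← map_mul]
      exact coeffEmb_mem_spanL F₀ (mul_mem hf hg)
    · rw [mul_zero]
      exact zero_mem _
    · intro x y _ _ hx hy
      rw [mul_add]
      exact add_mem hx hy
    · intro a x _ hx
      rw [mul_smul']
      exact Submodule.smul_mem _ _ hx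
  · rw [zero_mul]
    exact zero_mem _
  · intro x y _ _ hx hy
    rw [add_mul]
    exact add_mem hx hy
  · intro a x _ hx
    rw [smul_mul']
    exact Submodule.smul_mem _ _ hx

theorem spanL_le : (spanL L F₀ : Set (LaurentSeries L)) ⊆ laurentBaseChange L F₀ := by
  intro z hz
  refine Submodule.span_induction (p := fun z _ => z ∈ laurentBaseChange L F₀) ?_ ?_ ?_ ?_ hz
  · rintro _ ⟨y, hy, rfl⟩
    exact coeffEmb_mem_laurentBaseChange L hy
  · exact zero_mem _
  · intro x y _ _ hx hy
    exact add_mem hx hy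
  · intro a x _ hx
    have hC : HahnSeries.C a = algebraMap L (LaurentSeries L) a := by
      rw [algebraMap_laurentSeries_eq_single]
      rfl
    rw [smul_eq_C_mul, hC]
    exact mul_mem ((laurentBaseChange L F₀).algebraMap_mem a) hx

/-- Every element of `laurentBaseChange L F₀` is a quotient of two elements of the `L`-span of
the image of `F₀`. -/
theorem exists_frac_spanL {z : LaurentSeries L} (hz : z ∈ laurentBaseChange L F₀) :
    ∃ a ∈ spanL L F₀, ∃ b ∈ spanL L F₀, b ≠ 0 ∧ z * b = a := by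
  rw [mem_laurentBaseChange_iff] at hz
  induction hz using Subfield.closure_induction with
  | mem y hy =>
      rcases hy with ⟨c, rfl⟩ | ⟨w, hw, rfl⟩
      · refine ⟨algebraMap L (LaurentSeries L) c, ?_, 1, one_mem_spanL F₀, one_ne_zero, mul_one _⟩
        rw [algebraMap_eq_smul_one']
        exact Submodule.smul_mem _ _ (one_mem_spanL F₀)
      · exact ⟨_, coeffEmb_mem_spanL F₀ hw, 1, one_mem_spanL F₀, one_ne_zero, mul_one _⟩
  | one => exact ⟨1, one_mem_spanL F₀, 1, one_mem_spanL F₀, one_ne_zero, mul_one _⟩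
  | add x y _ _ hx hy =>
      obtain ⟨a, ha, b, hb, hb0, hab⟩ := hx
      obtain ⟨a', ha', b', hb', hb0', hab'⟩ := hy
      refine ⟨a * b' + a' * b, add_mem (mul_mem_spanL F₀ ha hb') (mul_mem_spanL F₀ ha' hb),
        b * b', mul_mem_spanL F₀ hb hb', mul_ne_zero hb0 hb0', ?_⟩
      rw [← hab, ← hab']
      ring
  | neg x _ hx =>
      obtain ⟨a, ha, b, hb, hb0, hab⟩ := hx
      exact ⟨-a, neg_mem ha, b, hb, hb0, by rw [neg_mul, hab]⟩
  | inv x _ hx =>
      obtain ⟨a, ha, b, hb, hb0, hab⟩ := hx
      by_cases ha0 : a = 0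
      · have hx0 : x = 0 := by
          rw [ha0] at hab
          exact (mul_eq_zero.mp hab).resolve_right hb0
        exact ⟨0, zero_mem _, 1, one_mem_spanL F₀, one_ne_zero, by rw [hx0, inv_zero, zero_mul]⟩
      · have hx0 : x ≠ 0 := by
          rintro rfl
          rw [zero_mul] at hab
          exact ha0 hab.symm
        refine ⟨b, hb, a, ha, ha0, ?_⟩
        rw [← hab]
        field_simp
  | mul x y _ _ hx hy =>
      obtain ⟨a, ha, b, hb, hb0, hab⟩ := hx
      obtain ⟨a', ha', b', hb', hb0', hab'⟩ := hy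
      refine ⟨a * a', mul_mem_spanL F₀ ha ha', b * b', mul_mem_spanL F₀ hb hb',
        mul_ne_zero hb0 hb0', ?_⟩
      rw [← hab, ← hab']
      ring

/-- Key lemma: on the `L`-span of the image of `F₀`, coefficientwise `K`-linear functionals are
`K((q))`-linear and land in the `K`-span of the image of `F₀`. -/
theorem coeffAdd_spanL {z : LaurentSeries L} (hz : z ∈ spanL L F₀) :
    ∀ l : L →+ K, KLin φ l →
      (∀ y : LaurentSeries K, coeffAdd l (coeffMap φ y * z) = y * coeffAdd l z) ∧
        coeffAdd l z ∈ spanL K F₀ := by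
  refine Submodule.span_induction
    (p := fun z _ => ∀ l : L →+ K, KLin φ l →
      (∀ y : LaurentSeries K, coeffAdd l (coeffMap φ y * z) = y * coeffAdd l z) ∧
        coeffAdd l z ∈ spanL K F₀) ?_ ?_ ?_ ?_ hz
  · rintro _ ⟨f, hf, rfl⟩ l hl
    have h1 : ∀ e : LaurentSeries K, coeffAdd l (coeffMap φ e) = l 1 • e := by
      intro e
      have := coeffAdd_smul_coeffMap hl 1 e
      rwa [one_smul] at this
    rw [← coeffMap_coeffEmb φ f]
    refine ⟨fun y => ?_, ?_⟩
    · rw [← map_mul, h1, h1, mul_smul']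
    · rw [h1]
      exact Submodule.smul_mem _ _ (coeffEmb_mem_spanL F₀ hf)
  · intro l _
    refine ⟨fun y => ?_, ?_⟩
    · rw [mul_zero, map_zero, mul_zero]
    · rw [map_zero]
      exact zero_mem _
  · intro u v _ _ hu hv l hl
    obtain ⟨hu1, hu2⟩ := hu l hl
    obtain ⟨hv1, hv2⟩ := hv l hl
    refine ⟨fun y => ?_, ?_⟩
    · rw [mul_add, map_add, map_add, hu1, hv1, mul_add]
    · rw [map_add]
      exact add_mem hu2 hv2
  · intro a u _ hu l hl
    obtain ⟨hu1, hu2⟩ := hu _ (hl.comp_mulLeft a)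
    refine ⟨fun y => ?_, ?_⟩
    · rw [mul_smul', coeffAdd_smul, coeffAdd_smul, hu1]
    · rw [coeffAdd_smul]
      exact hu2

/-- **(D2)** THE DESCENT: a Laurent series over `K` whose base change to `L` lies in the
base-changed field `laurentBaseChange L F₀` already lies in `laurentBaseChange K F₀`. -/
theorem mem_laurentBaseChange_of_coeffMap_mem {x : LaurentSeries K}
    (hx : coeffMap φ x ∈ laurentBaseChange L F₀) : x ∈ laurentBaseChange K F₀ := by
  obtain ⟨a, ha, b, hb, hb0, hab⟩ := exists_frac_spanL F₀ hx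
  obtain ⟨n, hn⟩ : ∃ n : ℤ, b.coeff n ≠ 0 := by
    by_contra hcon
    push Not at hcon
    exact hb0 (HahnSeries.ext (funext hcon))
  obtain ⟨l, hl, hln⟩ := exists_kLin_ne_zero φ hn
  obtain ⟨hb1, hb2⟩ := coeffAdd_spanL φ F₀ hb l hl
  obtain ⟨-, ha2⟩ := coeffAdd_spanL φ F₀ ha l hl
  have hne : coeffAdd l b ≠ 0 := by
    intro h0
    apply hln
    have := congrArg (fun s : LaurentSeries K => s.coeff n) h0
    simpa using this
  have hrel : x * coeffAdd l b = coeffAdd l a := by
    rw [← hb1 x, hab]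
  have hxe : x = coeffAdd l a / coeffAdd l b := by
    rw [eq_div_iff hne, hrel]
  rw [hxe]
  exact div_mem (spanL_le F₀ ha2) (spanL_le F₀ hb2)

/-- **(D3)** `coeffMap φ x ∈ laurentBaseChange L F₀ ↔ x ∈ laurentBaseChange K F₀`. -/
theorem coeffMap_mem_laurentBaseChange_iff {x : LaurentSeries K} :
    coeffMap φ x ∈ laurentBaseChange L F₀ ↔ x ∈ laurentBaseChange K F₀ :=
  ⟨mem_laurentBaseChange_of_coeffMap_mem φ F₀, coeffMap_mem_laurentBaseChange φ F₀⟩

end Descent

section Modular

variable {L : Type*} [Field L] [Algebra ℚ L] (φ : AlgebraicClosure ℚ →+* L)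

/-- **The route instance** (`L = ℂ`, `φ` any embedding `ℚ̄ → ℂ`, e.g. `S24.embC`):
`F_ℂ ∩ ℚ̄((q)) = F̄_N`. -/
theorem coeffMap_mem_iff_mem_modularFunctionFieldBar (N : ℕ)
    (y : LaurentSeries (AlgebraicClosure ℚ)) :
    coeffMap φ y ∈ laurentBaseChange L (modularFunctionFieldFull N) ↔
      y ∈ modularFunctionFieldBar N :=
  coeffMap_mem_laurentBaseChange_iff φ _

/-- `p`-th power form used by the descent step: if `y` has `ℚ̄`-coefficients and the `p`-th power
of its base change lies in `F_L`, then `y ^ p` lies in `F̄_N`. -/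
theorem pow_mem_modularFunctionFieldBar (N : ℕ) (p : ℕ)
    (y : LaurentSeries (AlgebraicClosure ℚ))
    (h : coeffMap φ y ^ p ∈ laurentBaseChange L (modularFunctionFieldFull N)) :
    y ^ p ∈ modularFunctionFieldBar N := by
  rw [← map_pow] at h
  exact (coeffMap_mem_iff_mem_modularFunctionFieldBar φ N (y ^ p)).mp h

end Modular

end Fermat.Agent.S29.RatDescent
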