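/-
S29 block [K], leaf [K1Rank] of helper17's table (owner: helper72).

`F_ℂ = ℂ(j(q^d) : d ∣ N) ⊆ ℂ((q))` contains `μ = [SL₂(ℤ) : Γ₀(N)]` elements which are linearly
independent over `ℂ(j)`:

  theorem exists_linearIndependent_FC :
      ∃ b : Fin (Nat.card (S20.Q N)) → LaurentSeries ℂ, (∀ i, b i ∈ FC N) ∧
        LinearIndependent ↥(IntermediateField.adjoin ℂ {jC}) b

Route: S24 gives `[F̄_N : ℚ̄(j)] = ψ(N) = #(SL₂(ℤ)/Γ₀(N))` (`finrank_jF_of_hasCuspEmb`, `S20.card_Q`);
for a `ℚ̄(j)`-basis `B` of `F̄_N` the family `j ^ n * B i` is `ℚ̄`-linearly independent (`j` is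
transcendental), hence `ℂ`-linearly independent after base change of coefficients
(`S24.BaseChangeLI.linearIndependent_coeffMap`), hence the `coeffMap embC (B i)` are linearly
independent over `ℂ(j)` (clear denominators).
-/
import Mathlib
import Fermat.Agent.S20.Cosets
import Fermat.Agent.S24.AnDegreeMain
import Fermat.Agent.S24.AnEmbCusp
import Fermat.Agent.S24.BaseChangeLI
import Fermat.Agent.S24.TranscJ
import Fermat.Agent.S29.RatDescent
import Fermat.Agent.S29.KDefs

set_option autoImplicit false

noncomputable section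

namespace Fermat.Agent.S29.K

open ModularCurve IntermediateField Polynomial
open Fermat.Agent.S24

namespace K1Rank

/-! ### Abstract steps -/

/-- The powers of a transcendental element are linearly independent. -/
theorem linearIndependent_pow_of_transcendental {K E : Type*} [Field K] [Ring E] [Algebra K E]
    {x : E} (hx : Transcendental K x) : LinearIndependent K (fun n : ℕ => x ^ n) := by
  have h1 := (Polynomial.basisMonomials K).linearIndependent
  have h2 := h1.map' (Polynomial.aeval x).toLinearMap
    (LinearMap.ker_eq_bot.mpr (transcendental_iff_injective.mp hx))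
  have e : (⇑(Polynomial.aeval x).toLinearMap ∘ ⇑(Polynomial.basisMonomials K)) =
      fun n : ℕ => x ^ n := by
    funext n
    simp [Polynomial.aeval_monomial]
  rw [e] at h2
  exact h2

/-- **Clearing denominators.**  If the family `x ^ n * b i` is linearly independent over `k`,
then the family `b` is linearly independent over the field `k(x)`. -/
theorem linearIndependent_adjoin_simple_of_pow_mul {k E : Type*} [Field k] [Field E] [Algebra k E]
    (x : E) {μ : ℕ} (b : Fin μ → E)
    (h : LinearIndependent k (fun p : ℕ × Fin μ => x ^ p.1 * b p.2)) :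
    LinearIndependent ↥(IntermediateField.adjoin k ({x} : Set E)) b := by
  classical
  -- polynomial coefficients
  have key : ∀ P : Fin μ → k[X], ∑ i, Polynomial.aeval x (P i) * b i = 0 → ∀ i, P i = 0 := by
    intro P hP
    obtain ⟨D, hD⟩ : ∃ D : ℕ, ∀ i, (P i).natDegree < D :=
      ⟨(Finset.univ.sup fun i => (P i).natDegree) + 1, fun i =>
        Nat.lt_succ_of_le (Finset.le_sup (f := fun i => (P i).natDegree) (Finset.mem_univ i))⟩
    have hsum : ∑ p ∈ Finset.range D ×ˢ (Finset.univ : Finset (Fin μ)),
        (P p.2).coeff p.1 • (x ^ p.1 * b p.2) = 0 := by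
      rw [Finset.sum_product_right]
      rw [← hP]
      refine Finset.sum_congr rfl fun i _ => ?_
      rw [Polynomial.aeval_eq_sum_range' (hD i) x, Finset.sum_mul]
      refine Finset.sum_congr rfl fun n _ => ?_
      rw [smul_mul_assoc]
    have h0 := (linearIndependent_iff'.mp h) (Finset.range D ×ˢ Finset.univ)
      (fun p => (P p.2).coeff p.1) hsum
    intro i
    ext n
    rw [Polynomial.coeff_zero]
    by_cases hn : n < D
    · exact h0 (n, i) (Finset.mem_product.mpr ⟨Finset.mem_range.mpr hn, Finset.mem_univ i⟩)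
    · exact Polynomial.coeff_eq_zero_of_natDegree_lt (lt_of_lt_of_le (hD i) (not_lt.mp hn))
  rw [Fintype.linearIndependent_iff]
  intro g hg
  -- write `g i = r i / s i`
  have hrs : ∀ i, ∃ r s : k[X], Polynomial.aeval x s ≠ 0 ∧
      ((g i : ↥(IntermediateField.adjoin k ({x} : Set E))) : E) * Polynomial.aeval x s =
        Polynomial.aeval x r := by
    intro i
    obtain ⟨r, s, hrs⟩ := (IntermediateField.mem_adjoin_simple_iff k _).mp (g i).2
    by_cases hs : Polynomial.aeval x s = 0
    · refine ⟨0, 1, by simp, ?_⟩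
      rw [hrs, hs, div_zero, zero_mul, map_zero]
    · exact ⟨r, s, hs, by rw [hrs, div_mul_cancel₀ _ hs]⟩
  choose r s hs hrs using hrs
  have hS : ∏ i, Polynomial.aeval x (s i) ≠ 0 := Finset.prod_ne_zero_iff.mpr fun i _ => hs i
  have hP : ∀ i, Polynomial.aeval x (r i * ∏ l ∈ Finset.univ.erase i, s l) =
      ((g i : ↥(IntermediateField.adjoin k ({x} : Set E))) : E) *
        ∏ l, Polynomial.aeval x (s l) := by
    intro i
    rw [map_mul, map_prod, ← hrs i, mul_assoc,
      Finset.mul_prod_erase Finset.univ (fun l => Polynomial.aeval x (s l)) (Finset.mem_univ i)]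
  have hrel : ∑ i, Polynomial.aeval x (r i * ∏ l ∈ Finset.univ.erase i, s l) * b i = 0 := by
    have h1 : ∑ i, Polynomial.aeval x (r i * ∏ l ∈ Finset.univ.erase i, s l) * b i =
        (∏ l, Polynomial.aeval x (s l)) *
          ∑ i, ((g i : ↥(IntermediateField.adjoin k ({x} : Set E))) : E) * b i := by
      rw [Finset.mul_sum]
      refine Finset.sum_congr rfl fun i _ => ?_
      rw [hP i]
      ring
    have h2 : ∑ i, ((g i : ↥(IntermediateField.adjoin k ({x} : Set E))) : E) * b i = 0 := by
      rw [← hg]
      refine Finset.sum_congr rfl fun i _ => ?_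
      rfl
    rw [h1, h2, mul_zero]
  intro i
  have h3 := key (fun i => r i * ∏ l ∈ Finset.univ.erase i, s l) hrel i
  have h4 := hP i
  rw [h3, map_zero] at h4
  have h5 : ((g i : ↥(IntermediateField.adjoin k ({x} : Set E))) : E) = 0 := by
    rcases mul_eq_zero.mp h4.symm with h | h
    · exact h
    · exact absurd h hS
  exact Subtype.ext h5

/-! ### The modular case -/

/-- The two `L`-module structures on `L((q))` (through the algebra structure, and the
coefficientwise one) agree. -/
theorem algebra_toModule_eq {L : Type*} [Field L] :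
    (Algebra.toModule : Module L (LaurentSeries L)) = HahnSeries.instModule := by
  refine Module.ext' _ _ fun c x => ?_
  have h : (Algebra.toSMul : SMul L (LaurentSeries L)).smul c x =
      algebraMap L (LaurentSeries L) c * x := Algebra.smul_def c x
  have h' : (Algebra.toSMul : SMul L (LaurentSeries L)).smul c x = c • x := by
    rw [h, RatDescent.algebraMap_eq_smul_one', RatDescent.smul_mul', one_mul]
  exact h'

theorem coeffMap_embC_coe_jF (N : ℕ) :
    coeffMap embC ((jF N : FN N) : LaurentSeries Kb) = jC := by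
  rw [coe_jF]
  exact RatDescent.coeffMap_coeffEmb embC jq

end K1Rank

section Modular

variable {N : ℕ}

/-- **[K1Rank]** `F_ℂ` contains `[SL₂(ℤ) : Γ₀(N)]` elements linearly independent over `ℂ(j)`. -/
theorem exists_linearIndependent_FC [NeZero N] :
    ∃ b : Fin (Nat.card (S20.Q N)) → LaurentSeries ℂ, (∀ i, b i ∈ FC N) ∧
      LinearIndependent ↥(IntermediateField.adjoin ℂ ({jC} : Set (LaurentSeries ℂ))) b := by
  classical
  have hfin : FiniteDimensional ↥Kb⟮jF N⟯ (FN N) := finiteDimensional_jF N
  have hfree : Module.Free ↥Kb⟮jF N⟯ (FN N) := Module.Free.of_divisionRing _ _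
  have hrank : Module.finrank ↥Kb⟮jF N⟯ (FN N) = Nat.card (S20.Q N) := by
    rw [finrank_jF_of_hasCuspEmb (hasCuspEmb N)]
    exact (Fermat.Agent.S20.card_Q N).symm
  let B : Module.Basis (Fin (Nat.card (S20.Q N))) ↥Kb⟮jF N⟯ (FN N) :=
    Module.finBasisOfFinrankEq _ _ hrank
  -- the generator `j` of `ℚ̄(j)` is transcendental
  have hgen : Transcendental Kb (IntermediateField.AdjoinSimple.gen Kb (jF N)) := by
    have h := transcendental_jF N
    rw [← IntermediateField.AdjoinSimple.algebraMap_gen Kb (jF N)] at h
    exact (transcendental_algebraMap_iff (algebraMap ↥Kb⟮jF N⟯ (FN N)).injective).mp h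
  have hpow := K1Rank.linearIndependent_pow_of_transcendental hgen
  -- the family `j ^ n • B i` in `F̄_N`
  have h1 : LinearIndependent Kb
      (fun p : ℕ × Fin (Nat.card (S20.Q N)) =>
        (IntermediateField.AdjoinSimple.gen Kb (jF N)) ^ p.1 • B p.2) :=
    linearIndependent_smul hpow B.linearIndependent
  -- as Laurent series over `ℚ̄`
  let ι : FN N →ₗ[Kb] LaurentSeries Kb :=
    { toFun := fun x => (x : LaurentSeries Kb)
      map_add' := fun _ _ => rfl
      map_smul' := fun c x => by
        change ((c • x : FN N) : LaurentSeries Kb) = c • (x : LaurentSeries Kb)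
        rw [Algebra.smul_def, RatDescent.smul_eq_C_mul]
        change algebraMap Kb (LaurentSeries Kb) c * (x : LaurentSeries Kb) = _
        rw [RatDescent.algebraMap_eq_smul_one', RatDescent.smul_eq_C_mul, mul_one] }
  have h2 : LinearIndependent Kb
      (fun p : ℕ × Fin (Nat.card (S20.Q N)) =>
        (((IntermediateField.AdjoinSimple.gen Kb (jF N)) ^ p.1 • B p.2 : FN N) :
          LaurentSeries Kb)) :=
    h1.map' ι (LinearMap.ker_eq_bot.mpr fun x y h => Subtype.ext h)
  -- base change to `ℂ`
  have h3 := linearIndependent_coeffMap embC h2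
  have e : (fun p : ℕ × Fin (Nat.card (S20.Q N)) =>
      coeffMap embC (((IntermediateField.AdjoinSimple.gen Kb (jF N)) ^ p.1 • B p.2 : FN N) :
        LaurentSeries Kb)) =
      fun p : ℕ × Fin (Nat.card (S20.Q N)) =>
        jC ^ p.1 * coeffMap embC ((B p.2 : FN N) : LaurentSeries Kb) := by
    funext p
    have e1 : (((IntermediateField.AdjoinSimple.gen Kb (jF N)) ^ p.1 • B p.2 : FN N) :
        LaurentSeries Kb) = ((jF N : FN N) : LaurentSeries Kb) ^ p.1 *
          ((B p.2 : FN N) : LaurentSeries Kb) := rfl
    rw [e1, map_mul, map_pow, K1Rank.coeffMap_embC_coe_jF]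
  rw [e] at h3
  have h3' : @LinearIndependent _ ℂ (LaurentSeries ℂ)
      (fun p : ℕ × Fin (Nat.card (S20.Q N)) =>
        jC ^ p.1 * coeffMap embC ((B p.2 : FN N) : LaurentSeries Kb)) _ _ Algebra.toModule := by
    rw [K1Rank.algebra_toModule_eq]
    exact h3
  refine ⟨fun i => coeffMap embC ((B i : FN N) : LaurentSeries Kb), fun i => ?_, ?_⟩
  · exact RatDescent.coeffMap_mem_laurentBaseChange embC (modularFunctionFieldFull N) (B i).2
  · exact K1Rank.linearIndependent_adjoin_simple_of_pow_mul jC _ h3'

end Modular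

end Fermat.Agent.S29.K
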