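import Mathlib
import Fermat.Agent.S29.KDefs
import Fermat.Agent.S29.K1Glue
import Fermat.Agent.S29.K1Gen
import Fermat.Agent.S29.K1Deg
import Fermat.Agent.S29.K1Rank

/-!
# S29 block [K]: (K1), field form (owner: helper17)

`Mchi N 1 = F_ℂ`: the quotients of modular forms of level `Γ₀(N)` (same weight, trivial
multiplier) are exactly the elements of the function field `F_ℂ = ℂ · ℚ(j(dτ) : d ∣ N)`.
-/

set_option autoImplicit false

namespace Fermat.Agent.S29.K

open UpperHalfPlane ModularForm CongruenceSubgroup ModularCurve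
open scoped MatrixGroups ModularForm Manifold

variable {N : ℕ}

/-- **(K1)**, field form. -/
theorem Mchi_one_eq [NeZero N] : Mchi N 1 = (FC N : Set (LaurentSeries ℂ)) :=
  Mchi_one_eq_of (fun d _ hd => jd_mem_Mchi_one d hd)
    (fun _ hx => exists_polynomial_of_mem_Mchi_one hx) exists_linearIndependent_FC

theorem mem_Mchi_one_iff [NeZero N] {x : LaurentSeries ℂ} : x ∈ Mchi N 1 ↔ x ∈ FC N := by
  rw [Mchi_one_eq]
  rfl

end Fermat.Agent.S29.K
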