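/-
S29 block [K], leaf (R2a-IC) — HolIC.lean (owner: helper48).

The algebra `holSub` of holomorphic functions on the upper half plane is an INTEGRALLY CLOSED
domain ("`a / b` integral over `hol` ⇒ `a / b` is holomorphic"), in cleared-denominator form:

* `isDomain_holSub`              : `holSub` is a domain (a theorem, not a global instance);
* `exists_mul_eq_of_order_le`    : holomorphic division — if `ord_z b ≤ ord_z a` at every point
                                   (orders of the Taylor expansions `S24.taylorHom z`), then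
                                   `a = h * b` with `h` holomorphic;
* `exists_mul_eq_of_scaleRoots`  : if `a / b` is a root of a monic polynomial over `holSub`
                                   (`(P.scaleRoots b).eval a = 0`), then `a = h * b`;
* `exists_mul_eq_of_sum`         : the same with explicit coefficients;
* `isIntegrallyClosed_holSub`    : `IsIntegrallyClosed holSub`.
-/
import Mathlib
import Fermat.Agent.S24.AnDefs
import Fermat.Agent.S24.AnTaylorHom
import Fermat.Agent.S24.AnTaylorOrd

set_option autoImplicit false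

namespace Fermat.Agent.S29.HolIC

open UpperHalfPlane Polynomial Filter Topology Fermat.Agent.S24
open scoped Manifold

/-! ### A generic lemma on integrally closed domains -/

/-- In an integrally closed domain, if `a / b` is a root of the monic polynomial `P` (in the
cleared form `(P.scaleRoots b).eval a = 0`), then `b ∣ a`. -/
theorem dvd_of_scaleRoots_eval_eq_zero {R : Type*} [CommRing R] [IsDomain R]
    [IsIntegrallyClosed R] {a b : R} (hb : b ≠ 0) {P : R[X]} (hP : P.Monic)
    (h : (P.scaleRoots b).eval a = 0) : b ∣ a := by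
  have hinj := IsFractionRing.injective R (FractionRing R)
  have hbK : algebraMap R (FractionRing R) b ≠ 0 := fun h0 =>
    hb (hinj (h0.trans (map_zero _).symm))
  have h1 := scaleRoots_eval₂_mul (p := P) (algebraMap R (FractionRing R))
    (algebraMap R (FractionRing R) a / algebraMap R (FractionRing R) b) b
  rw [mul_div_cancel₀ _ hbK] at h1
  have h2 : eval₂ (algebraMap R (FractionRing R)) (algebraMap R (FractionRing R) a)
      (P.scaleRoots b) = 0 := by
    rw [eval₂_at_apply, h, map_zero]
  rw [h2] at h1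
  have h3 : eval₂ (algebraMap R (FractionRing R))
      (algebraMap R (FractionRing R) a / algebraMap R (FractionRing R) b) P = 0 :=
    (mul_eq_zero.mp h1.symm).resolve_left (pow_ne_zero _ hbK)
  have hint : IsIntegral R
      (algebraMap R (FractionRing R) a / algebraMap R (FractionRing R) b) := ⟨P, hP, h3⟩
  obtain ⟨c, hc⟩ := IsIntegrallyClosed.isIntegral_iff.mp hint
  refine ⟨c, hinj ?_⟩
  rw [map_mul, hc, mul_div_cancel₀ _ hbK]

/-! ### `holSub` is a domain -/

/-- The algebra of holomorphic functions on the upper half plane is a domain. -/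
theorem isDomain_holSub : IsDomain holSub :=
  (taylorHom_injective UpperHalfPlane.I).isDomain (taylorHom UpperHalfPlane.I).toRingHom

/-! ### Holomorphic division -/

/-- **Holomorphic division.** If the order of `b ≠ 0` is at most the order of `a` at every point
of the upper half plane, then `a = h * b` with `h` holomorphic. -/
theorem exists_mul_eq_of_order_le (a b : holSub) (hb : b ≠ 0)
    (hord : ∀ z₀ : ℍ, (taylorHom z₀ b).order ≤ (taylorHom z₀ a).order) :
    ∃ h : holSub, h * b = a := by
  set A : ℂ → ℂ := fun z => (a : ℍ → ℂ) (ofComplex z) with hA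
  set B : ℂ → ℂ := fun z => (b : ℍ → ℂ) (ofComplex z) with hB
  have hU : IsOpen {z : ℂ | 0 < z.im} := UpperHalfPlane.isOpen_upperHalfPlaneSet
  have hAan : ∀ z : ℂ, 0 < z.im → AnalyticAt ℂ A z := fun z hz =>
    (UpperHalfPlane.mdifferentiable_iff.mp a.2).analyticAt (hU.mem_nhds hz)
  have hBan : ∀ z : ℂ, 0 < z.im → AnalyticAt ℂ B z := fun z hz =>
    (UpperHalfPlane.mdifferentiable_iff.mp b.2).analyticAt (hU.mem_nhds hz)
  -- local factorisations
  have hloc : ∀ z : ℂ, 0 < z.im → ∃ (m : ℕ) (A₁ B₁ : ℂ → ℂ), AnalyticAt ℂ A₁ z ∧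
      AnalyticAt ℂ B₁ z ∧ B₁ z ≠ 0 ∧ (∀ᶠ y in 𝓝 z, A y = (y - z) ^ m • A₁ y) ∧
      ∀ᶠ y in 𝓝 z, B y = (y - z) ^ m • B₁ y := by
    intro z hz
    have h1 := hord ⟨z, hz⟩
    rw [taylorHom_apply, taylorHom_apply, order_taylorAt a.2, order_taylorAt b.2] at h1
    have hBne : analyticOrderAt B z ≠ ⊤ := by
      intro htop
      have h2 : (taylorHom ⟨z, hz⟩ b).order = ⊤ := by
        rw [taylorHom_apply, order_taylorAt b.2]
        exact htop
      have h3 : taylorHom ⟨z, hz⟩ b = 0 := PowerSeries.order_eq_top.mp h2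
      exact hb (taylorHom_injective _ (h3.trans (map_zero _).symm))
    obtain ⟨m, hm⟩ := ENat.ne_top_iff_exists.mp hBne
    obtain ⟨B₁, hB₁, hB₁z, hBeq⟩ := ((hBan z hz).analyticOrderAt_eq_natCast).mp hm.symm
    have h4 : (m : ℕ∞) ≤ analyticOrderAt A z := by
      rw [hm]
      exact h1
    obtain ⟨A₁, hA₁, hAeq⟩ := (natCast_le_analyticOrderAt (hAan z hz)).mp h4
    exact ⟨m, A₁, B₁, hA₁, hB₁, hB₁z, hAeq, hBeq⟩
  -- the quotient, in meromorphic normal form
  set f : ℂ → ℂ := fun y => A y / B y with hf
  have hfm : MeromorphicOn f {z : ℂ | 0 < z.im} := fun z hz =>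
    (hAan z hz).meromorphicAt.div (hBan z hz).meromorphicAt
  set g : ℂ → ℂ := toMeromorphicNFOn f {z : ℂ | 0 < z.im} with hg
  have hgNF : MeromorphicNFOn g {z : ℂ | 0 < z.im} :=
    meromorphicNFOn_toMeromorphicNFOn f {z : ℂ | 0 < z.im}
  -- punctured-neighbourhood facts at a point
  have hpt : ∀ z : ℂ, 0 < z.im → ∃ φ : ℂ → ℂ, AnalyticAt ℂ φ z ∧ g =ᶠ[𝓝[≠] z] φ ∧
      ∀ᶠ y in 𝓝[≠] z, g y * B y = A y := by
    intro z hz
    obtain ⟨m, A₁, B₁, hA₁, hB₁, hB₁z, hAeq, hBeq⟩ := hloc z hz
    have e1 : g =ᶠ[𝓝[≠] z] f := hfm.toMeromorphicNFOn_eq_self_on_nhdsNE hz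
    have hB₁ne : ∀ᶠ y in 𝓝 z, B₁ y ≠ 0 := hB₁.continuousAt.eventually_ne hB₁z
    have hne : ∀ᶠ y in 𝓝[≠] z, y ≠ z := eventually_nhdsWithin_of_forall fun y hy => hy
    refine ⟨fun y => A₁ y / B₁ y, hA₁.div hB₁ hB₁z, ?_, ?_⟩
    · filter_upwards [e1, eventually_nhdsWithin_of_eventually_nhds hAeq,
        eventually_nhdsWithin_of_eventually_nhds hBeq,
        eventually_nhdsWithin_of_eventually_nhds hB₁ne, hne] with y hy1 hy2 hy3 hy4 hy5
      have hpow : (y - z) ^ m ≠ 0 := pow_ne_zero _ (sub_ne_zero.mpr hy5)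
      rw [hy1, hf]
      simp only
      rw [hy2, hy3, smul_eq_mul, smul_eq_mul, mul_div_mul_left _ _ hpow]
    · filter_upwards [e1, eventually_nhdsWithin_of_eventually_nhds hBeq,
        eventually_nhdsWithin_of_eventually_nhds hB₁ne, hne] with y hy1 hy3 hy4 hy5
      have hpow : (y - z) ^ m ≠ 0 := pow_ne_zero _ (sub_ne_zero.mpr hy5)
      have hBy : B y ≠ 0 := by
        rw [hy3, smul_eq_mul]
        exact mul_ne_zero hpow hy4
      rw [hy1, hf]
      simp only
      rw [div_mul_cancel₀ _ hBy]
  have hgan : ∀ z : ℂ, 0 < z.im → AnalyticAt ℂ g z := by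
    intro z hz
    obtain ⟨φ, hφ, hgφ, -⟩ := hpt z hz
    rw [← (hgNF hz).meromorphicOrderAt_nonneg_iff_analyticAt, meromorphicOrderAt_congr hgφ]
    exact hφ.meromorphicOrderAt_nonneg
  have hgB : ∀ z : ℂ, 0 < z.im → g z * B z = A z := by
    intro z hz
    obtain ⟨-, -, -, hev⟩ := hpt z hz
    have hc1 : ContinuousAt (fun y => g y * B y) z :=
      ((hgan z hz).continuousAt).mul ((hBan z hz).continuousAt)
    have hc2 : ContinuousAt A z := (hAan z hz).continuousAt
    have := (hc1.eventuallyEq_nhds_iff_eventuallyEq_nhdsNE hc2).mp hev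
    exact this.self_of_nhds
  -- the quotient as an element of `holSub`
  refine ⟨⟨fun w : ℍ => g (w : ℂ), ?_⟩, ?_⟩
  · rw [mem_holSub, UpperHalfPlane.mdifferentiable_iff]
    intro z hz
    have heq : ((fun w : ℍ => g (w : ℂ)) ∘ ofComplex) =ᶠ[𝓝 z] g := by
      filter_upwards [hU.mem_nhds hz] with y hy
      simp only [Function.comp_apply]
      rw [ofComplex_apply_of_im_pos hy]
    exact ((hgan z hz).differentiableAt.congr_of_eventuallyEq heq).differentiableWithinAt
  · apply Subtype.ext
    funext w
    have h1 := hgB (w : ℂ) w.im_pos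
    simp only [hA, hB, ofComplex_apply] at h1
    exact h1

/-! ### Integral closedness -/

/-- **`a / b` integral over `hol` ⇒ holomorphic** (cleared form): if `a / b` is a root of a
monic polynomial with holomorphic coefficients, then `a = h * b` with `h` holomorphic. -/
theorem exists_mul_eq_of_scaleRoots (a b : holSub) (hb : b ≠ 0) (P : Polynomial holSub)
    (hP : P.Monic) (h0 : (P.scaleRoots b).eval a = 0) : ∃ h : holSub, h * b = a := by
  refine exists_mul_eq_of_order_le a b hb fun z₀ => ?_
  set T : holSub →+* PowerSeries ℂ := (taylorHom z₀).toRingHom with hT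
  have hTb : T b ≠ 0 := fun h1 => hb (taylorHom_injective z₀ (h1.trans (map_zero _).symm))
  have hPm : (P.map T).Monic := hP.map T
  have hroot : ((P.map T).scaleRoots (T b)).eval (T a) = 0 := by
    rw [← map_scaleRoots P b T (by rw [hP.leadingCoeff, map_one]; exact one_ne_zero),
      eval_map, eval₂_at_apply, h0, map_zero]
  obtain ⟨c, hc⟩ := dvd_of_scaleRoots_eval_eq_zero hTb hPm hroot
  have h1 : (taylorHom z₀ a) = (taylorHom z₀ b) * c := hc
  rw [h1, PowerSeries.order_mul]
  exact le_self_add

/-- The same with explicit coefficients: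
`a ^ n + ∑_{i < n} c i * a ^ i * b ^ (n - i) = 0`, `b ≠ 0` ⇒ `a = h * b`. -/
theorem exists_mul_eq_of_sum (a b : holSub) (hb : b ≠ 0) (c : ℕ → holSub) (n : ℕ)
    (h0 : a ^ n + ∑ i ∈ Finset.range n, c i * a ^ i * b ^ (n - i) = 0) :
    ∃ h : holSub, h * b = a := by
  have := isDomain_holSub
  set P : Polynomial holSub := X ^ n + ∑ i ∈ Finset.range n, C (c i) * X ^ i with hP
  have hdeg : (∑ i ∈ Finset.range n, C (c i) * X ^ i : Polynomial holSub).degree < n := by
    rw [degree_lt_iff_coeff_zero]
    intro m hm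
    rw [finsetSum_coeff]
    refine Finset.sum_eq_zero fun i hi => ?_
    rw [coeff_C_mul, coeff_X_pow, if_neg, mul_zero]
    exact fun h => absurd (h ▸ Finset.mem_range.mp hi) (not_lt.mpr hm)
  have hmonic : P.Monic := monic_X_pow_add hdeg
  have hnat : P.natDegree = n := by
    rw [hP, natDegree_add_eq_left_of_degree_lt (by rwa [degree_X_pow]), natDegree_X_pow]
  have hcoeff : ∀ i, i < n → P.coeff i = c i := by
    intro i hi
    rw [hP, coeff_add, coeff_X_pow, if_neg hi.ne, zero_add, finsetSum_coeff]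
    rw [Finset.sum_eq_single i]
    · rw [coeff_C_mul, coeff_X_pow, if_pos rfl, mul_one]
    · intro j _ hji
      rw [coeff_C_mul, coeff_X_pow, if_neg (Ne.symm hji), mul_zero]
    · intro hi'
      exact absurd (Finset.mem_range.mpr hi) hi'
  refine exists_mul_eq_of_scaleRoots a b hb P hmonic ?_
  rw [eval_eq_sum_range, natDegree_scaleRoots, hnat, Finset.sum_range_succ]
  simp only [coeff_scaleRoots, hnat]
  rw [← hnat, hmonic.coeff_natDegree, hnat, Nat.sub_self, pow_zero, mul_one, one_mul, add_comm]
  rw [← h0]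
  congr 1
  refine Finset.sum_congr rfl fun i hi => ?_
  rw [hcoeff i (Finset.mem_range.mp hi)]
  ring

/-- **`holSub` is integrally closed.** -/
theorem isIntegrallyClosed_holSub :
    letI := isDomain_holSub
    IsIntegrallyClosed holSub := by
  let _ := isDomain_holSub
  refine (isIntegrallyClosed_iff (FractionRing holSub)).mpr ?_
  intro x hx
  obtain ⟨P, hP, hPx⟩ := hx
  obtain ⟨a, b, hb0, rfl⟩ := IsFractionRing.div_surjective (A := holSub) x
  have hb : b ≠ 0 := nonZeroDivisors.ne_zero hb0
  have h1 : (P.scaleRoots b).eval a = 0 := by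
    have h2 := scaleRoots_aeval_eq_zero_of_aeval_div_eq_zero
      (IsFractionRing.injective holSub (FractionRing holSub)) hPx hb0
    rw [aeval_algebraMap_apply_eq_algebraMap_eval] at h2
    exact IsFractionRing.injective holSub (FractionRing holSub) (h2.trans (map_zero _).symm)
  obtain ⟨h, hh⟩ := exists_mul_eq_of_scaleRoots a b hb P hP h1
  refine ⟨h, ?_⟩
  have hbK : algebraMap holSub (FractionRing holSub) b ≠ 0 := fun h0 =>
    hb (IsFractionRing.injective holSub (FractionRing holSub) (h0.trans (map_zero _).symm))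
  rw [eq_div_iff hbK, ← map_mul, hh]

end Fermat.Agent.S29.HolIC
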