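import Mathlib
import Fermat.Agent.S29.KDefs
import Fermat.Agent.S29.KBasic
import Fermat.Agent.S29.InvRat

/-!
# S29 block [K]: the invariance half of the backward dictionary `[K1IntConv]`

OWNER: helper38 (only the owner edits this file).

If `h` is a holomorphic function on `ℍ` with `h · B = A` for two forms `A`, `B ≠ 0` of the same
weight on `Γ₀(N)`, then `h` is `Γ₀(N)`-invariant; if moreover `Δ ^ m · (h ∘ g)` is bounded at
`i∞` for every `g ∈ SL(2, ℤ)`, then `Δ ^ m · h` is a modular form of weight `12 m` on `Γ₀(N)`.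

* `slash_discriminant_pow_mul` : `(Δ^m · h) ∣[12 m] g = Δ^m · (h ∘ g)`;
* `apply_smul_eq_of_mul_eq`    : `h (γ • z) = h z` for `γ ∈ Γ₀(N)`;
* `mem_MF_of_quotient`         : `Δ^m · h ∈ MF N (12 m)`.
-/

set_option autoImplicit false

namespace Fermat.Agent.S29.K1IntAux

open UpperHalfPlane ModularForm CongruenceSubgroup Filter Topology
open Fermat.Agent.LevelOne Fermat.Agent.S29.K
open scoped MatrixGroups ModularForm Manifold

/-- `(Δ ^ m · h) ∣[12 m] g = Δ ^ m · (h ∘ g)` for every `g ∈ SL(2, ℤ)` and every function `h`. -/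
theorem slash_discriminant_pow_mul (h : ℍ → ℂ) (m : ℕ) (g : SL(2, ℤ)) :
    (fun z => ModularForm.discriminant z ^ m * h z) ∣[12 * (m : ℤ)] g =
      fun z => ModularForm.discriminant z ^ m * h (g • z) := by
  ext z
  rw [SL_slash_apply, discriminant_apply_smul]
  have hd : denom g z ≠ 0 := denom_ne_zero g z
  have e : (denom g z ^ (12 : ℤ)) ^ m * denom g z ^ (-(12 * (m : ℤ))) = 1 := by
    rw [← zpow_natCast, ← zpow_mul, ← zpow_add₀ hd]
    simp
  calc (ModularForm.discriminant z * denom g z ^ (12 : ℤ)) ^ m * h (g • z)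
        * denom g z ^ (-(12 * (m : ℤ)))
      = ModularForm.discriminant z ^ m * h (g • z) *
          ((denom g z ^ (12 : ℤ)) ^ m * denom g z ^ (-(12 * (m : ℤ)))) := by ring
    _ = ModularForm.discriminant z ^ m * h (g • z) := by rw [e, mul_one]

/-- A holomorphic quotient of two forms of the same weight on `Γ₀(N)` is `Γ₀(N)`-invariant. -/
theorem apply_smul_eq_of_mul_eq {N : ℕ} [NeZero N] {w : ℤ} {A B h : ℍ → ℂ}
    (hA : A ∈ S20.MF N w) (hB : B ∈ S20.MF N w) (hB0 : B ≠ 0) (hh : MDiff h)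
    (hmul : ∀ z, h z * B z = A z) {γ : SL(2, ℤ)} (hγ : γ ∈ Gamma0 N) (z : ℍ) :
    h (γ • z) = h z := by
  obtain ⟨-, hAinv, -⟩ := S20.mem_MF_iff'.mp hA
  obtain ⟨hBd, hBinv, -⟩ := S20.mem_MF_iff'.mp hB
  have key : (fun z : ℍ => h (γ • z) - h z) * B = 0 := by
    funext u
    have h1 := congrFun (hAinv γ hγ) u
    have h2 := congrFun (hBinv γ hγ) u
    rw [SL_slash_apply] at h1 h2
    have h3 := hmul (γ • u)
    have h4 := hmul u
    show (h (γ • u) - h u) * B u = 0
    rw [sub_mul, h4, ← h1, ← h3, ← h2]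
    ring
  have hd : MDiff (fun z : ℍ => h (γ • z) - h z) := (InvRat.mdiff_comp_smul hh γ).sub hh
  rcases eq_zero_or_eq_zero_of_mul_eq_zero hd hBd key with h0 | h0
  · have := congrFun h0 z
    exact sub_eq_zero.mp this
  · exact absurd h0 hB0

/-- **[INV].** If `h` is holomorphic with `h · B = A` for forms `A`, `B ≠ 0` of the same weight
on `Γ₀(N)`, and `Δ ^ m · (h ∘ g)` is bounded at `i∞` for every `g ∈ SL(2, ℤ)`, then `Δ ^ m · h`
is a modular form of weight `12 m` on `Γ₀(N)`. -/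
theorem mem_MF_of_quotient {N : ℕ} [NeZero N] {w : ℤ} {A B h : ℍ → ℂ}
    (hA : A ∈ S20.MF N w) (hB : B ∈ S20.MF N w) (hB0 : B ≠ 0) (hh : MDiff h)
    (hmul : ∀ z, h z * B z = A z) (m : ℕ)
    (hbdd : ∀ g : SL(2, ℤ),
      IsBoundedAtImInfty (fun z => ModularForm.discriminant z ^ m * h (g • z))) :
    (fun z => ModularForm.discriminant z ^ m * h z) ∈ S20.MF N (12 * (m : ℤ)) := by
  rw [S20.mem_MF_iff']
  refine ⟨(InvRat.mdiff_discriminant_pow m).mul hh, fun γ hγ => ?_, fun g => ?_⟩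
  · rw [slash_discriminant_pow_mul]
    funext z
    rw [apply_smul_eq_of_mul_eq hA hB hB0 hh hmul hγ z]
  · rw [slash_discriminant_pow_mul]
    exact hbdd g

end Fermat.Agent.S29.K1IntAux
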