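import Mathlib
import Fermat.Agent.LevelOne.JDef
import Fermat.Agent.LevelOne.JCusp

/-!
# S29 block [K], leaf (K1IntGrowth): integrality over `ℂ[1/j]` gives the sharp cusp bound

OWNER: helper38 (only the owner edits this file).

The growth half of the backward dictionary `[K1IntConv]` (helper17's table): if a function
`h : ℍ → ℂ` is such that `h / j ^ m` is a root of a monic polynomial whose coefficients are
polynomials in `1 / j`, then `Δ ^ m * (h ∘ g)` is bounded at `i∞` for every `g ∈ SL(2, ℤ)`,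
i.e. `h` has a pole of order at most `m` (in `q`) at every cusp.

* `norm_le_of_monic_root` : the elementary root bound `‖y‖ ≤ max 1 (∑ ‖c k‖)`;
* `isBoundedAtImInfty_of_eventually_root` : the core (coefficients eventually bounded);
* `isBoundedAtImInfty_of_root` (G1) : coefficients `d k (1 / j)`;
* `isBoundedAtImInfty_of_cleared` (G2) : cleared-denominator form, no division.
-/

set_option autoImplicit false

namespace Fermat.Agent.S29.K1IntGrowth

open UpperHalfPlane ModularForm EisensteinSeries Filter Topology Fermat.Agent.LevelOne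
open scoped MatrixGroups ModularForm Manifold

/-- Elementary root bound: a root `y` of `Y ^ n + ∑_{k < n} c k * Y ^ k` satisfies
`‖y‖ ≤ max 1 (∑ ‖c k‖)`. -/
theorem norm_le_of_monic_root {n : ℕ} (c : Fin n → ℂ) (y : ℂ)
    (h : y ^ n + ∑ k : Fin n, c k * y ^ (k : ℕ) = 0) :
    ‖y‖ ≤ max 1 (∑ k : Fin n, ‖c k‖) := by
  by_contra hlt
  rw [not_le] at hlt
  have h1 : 1 < ‖y‖ := lt_of_le_of_lt (le_max_left _ _) hlt
  have h2 : ∑ k : Fin n, ‖c k‖ < ‖y‖ := lt_of_le_of_lt (le_max_right _ _) hlt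
  rcases Nat.eq_zero_or_pos n with hn | hn
  · subst hn
    simp at h
  have hy : y ^ n = -∑ k : Fin n, c k * y ^ (k : ℕ) := eq_neg_of_add_eq_zero_left h
  have h3 : ‖y‖ ^ n ≤ (∑ k : Fin n, ‖c k‖) * ‖y‖ ^ (n - 1) := by
    calc ‖y‖ ^ n = ‖y ^ n‖ := (norm_pow _ _).symm
      _ = ‖∑ k : Fin n, c k * y ^ (k : ℕ)‖ := by rw [hy, norm_neg]
      _ ≤ ∑ k : Fin n, ‖c k * y ^ (k : ℕ)‖ := norm_sum_le _ _
      _ ≤ ∑ k : Fin n, ‖c k‖ * ‖y‖ ^ (n - 1) := by
          refine Finset.sum_le_sum fun k _ => ?_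
          rw [norm_mul, norm_pow]
          refine mul_le_mul_of_nonneg_left ?_ (norm_nonneg _)
          exact pow_le_pow_right₀ h1.le (Nat.le_sub_one_of_lt k.2)
      _ = (∑ k : Fin n, ‖c k‖) * ‖y‖ ^ (n - 1) := by rw [Finset.sum_mul]
  have h4 : ‖y‖ ^ n = ‖y‖ * ‖y‖ ^ (n - 1) := by
    rw [← pow_succ']
    congr 1
    omega
  have hpos : 0 < ‖y‖ ^ (n - 1) := pow_pos (lt_trans one_pos h1) _
  rw [h4] at h3
  have h5 : ‖y‖ * ‖y‖ ^ (n - 1) < ‖y‖ * ‖y‖ ^ (n - 1) :=
    lt_of_le_of_lt h3 (mul_lt_mul_of_pos_right h2 hpos)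
  exact lt_irrefl _ h5

/-- A polynomial of degree at most `E` is bounded by `(∑ ‖coeff‖) * ‖w‖ ^ E` for `1 ≤ ‖w‖`. -/
theorem norm_eval_le_of_one_le (P : Polynomial ℂ) {E : ℕ} (hP : P.natDegree ≤ E) {w : ℂ}
    (hw : 1 ≤ ‖w‖) :
    ‖P.eval w‖ ≤ (∑ i ∈ Finset.range (E + 1), ‖P.coeff i‖) * ‖w‖ ^ E := by
  rw [Polynomial.eval_eq_sum_range' (Nat.lt_succ_of_le hP), Finset.sum_mul]
  refine (norm_sum_le _ _).trans (Finset.sum_le_sum fun i hi => ?_)
  rw [norm_mul, norm_pow]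
  refine mul_le_mul_of_nonneg_left ?_ (norm_nonneg _)
  exact pow_le_pow_right₀ hw (Nat.lt_succ_iff.mp (Finset.mem_range.mp hi))

/-- A polynomial is bounded by the sum of the norms of its coefficients on the closed unit
disc. -/
theorem norm_eval_le_of_le_one (P : Polynomial ℂ) {w : ℂ} (hw : ‖w‖ ≤ 1) :
    ‖P.eval w‖ ≤ ∑ i ∈ Finset.range (P.natDegree + 1), ‖P.coeff i‖ := by
  rw [Polynomial.eval_eq_sum_range]
  refine (norm_sum_le _ _).trans (Finset.sum_le_sum fun i _ => ?_)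
  rw [norm_mul, norm_pow]
  calc ‖P.coeff i‖ * ‖w‖ ^ i ≤ ‖P.coeff i‖ * 1 :=
        mul_le_mul_of_nonneg_left (pow_le_one₀ (norm_nonneg _) hw) (norm_nonneg _)
    _ = ‖P.coeff i‖ := mul_one _

/-- `E₄ ^ k` is bounded at `i∞`. -/
theorem isBoundedAtImInfty_E4_pow (k : ℕ) : IsBoundedAtImInfty (fun z : ℍ => E₄ z ^ k) := by
  have ht : Tendsto (fun z : ℍ => E₄ z ^ k) atImInfty (𝓝 (1 ^ k)) := JCusp.tendsto_E4.pow k
  exact ht.isBigO_one ℝ

/-- Eventually at `i∞`, `1 ≤ ‖j‖`. -/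
theorem eventually_one_le_norm_jFun : ∀ᶠ z : ℍ in atImInfty, 1 ≤ ‖jFun z‖ :=
  tendsto_norm_jFun.eventually_ge_atTop 1

/-- **Core.** If, near `i∞`, `h / j ^ m` is a root of a monic polynomial whose lower
coefficients `c k z` have `∑ ‖c k z‖ ≤ C`, then `Δ ^ m * h` is bounded at `i∞`. -/
theorem isBoundedAtImInfty_of_eventually_root {h : ℍ → ℂ} (m n : ℕ) (c : Fin n → ℍ → ℂ)
    (C : ℝ) (hc : ∀ᶠ z in atImInfty, ∑ k : Fin n, ‖c k z‖ ≤ C)
    (hrel : ∀ᶠ z in atImInfty, (h z / jFun z ^ m) ^ n +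
      ∑ k : Fin n, c k z * (h z / jFun z ^ m) ^ (k : ℕ) = 0) :
    IsBoundedAtImInfty (fun z => ModularForm.discriminant z ^ m * h z) := by
  have hE : IsBoundedAtImInfty (fun z : ℍ => E₄ z ^ (3 * m)) := isBoundedAtImInfty_E4_pow _
  refine Asymptotics.IsBigO.trans (Asymptotics.IsBigO.of_bound (max 1 C) ?_) hE
  filter_upwards [hc, hrel, eventually_one_le_norm_jFun] with z hcz hz hj
  have hj0 : jFun z ≠ 0 := by
    intro h0
    rw [h0, norm_zero] at hj
    linarith
  have hy := norm_le_of_monic_root (fun k => c k z) (h z / jFun z ^ m) hz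
  have hy' : ‖h z / jFun z ^ m‖ ≤ max 1 C := hy.trans (max_le_max le_rfl hcz)
  have hid : ModularForm.discriminant z ^ m * h z = (h z / jFun z ^ m) * E₄ z ^ (3 * m) := by
    rw [pow_mul, ← jFun_mul_discriminant z, mul_pow]
    field_simp
  rw [hid, norm_mul]
  exact mul_le_mul_of_nonneg_right hy' (norm_nonneg _)

/-- **(G1).** If `h / j ^ m` is a root of a monic polynomial with coefficients `d k (1 / j)`
(at every point where `j ≠ 0`), then `Δ ^ m * (h ∘ g)` is bounded at `i∞` for every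
`g ∈ SL(2, ℤ)`. -/
theorem isBoundedAtImInfty_of_root {h : ℍ → ℂ} (m n : ℕ) (d : Fin n → Polynomial ℂ)
    (hrel : ∀ z : ℍ, jFun z ≠ 0 → (h z / jFun z ^ m) ^ n +
      ∑ k : Fin n, (d k).eval (jFun z)⁻¹ * (h z / jFun z ^ m) ^ (k : ℕ) = 0)
    (g : SL(2, ℤ)) :
    IsBoundedAtImInfty (fun z => ModularForm.discriminant z ^ m * h (g • z)) := by
  refine isBoundedAtImInfty_of_eventually_root (h := fun z => h (g • z)) m n
    (fun k z => (d k).eval (jFun z)⁻¹)
    (∑ k : Fin n, ∑ i ∈ Finset.range ((d k).natDegree + 1), ‖(d k).coeff i‖) ?_ ?_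
  · filter_upwards [eventually_one_le_norm_jFun] with z hj
    refine Finset.sum_le_sum fun k _ => norm_eval_le_of_le_one (d k) ?_
    rw [norm_inv]
    exact inv_le_one_of_one_le₀ hj
  · filter_upwards [eventually_one_le_norm_jFun] with z hj
    have hj0 : jFun z ≠ 0 := by
      intro h0
      rw [h0, norm_zero] at hj
      linarith
    have := hrel (g • z) (by rwa [jFun_smul])
    rw [jFun_smul] at this
    exact this

/-- **(G2).** Cleared-denominator form: if
`j ^ E * h ^ n + ∑_{k < n} e k (j) * j ^ (m * (n - k)) * h ^ k = 0` on `ℍ` with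
`deg (e k) ≤ E`, then `Δ ^ m * (h ∘ g)` is bounded at `i∞` for every `g ∈ SL(2, ℤ)`. -/
theorem isBoundedAtImInfty_of_cleared {h : ℍ → ℂ} (m n E : ℕ) (e : Fin n → Polynomial ℂ)
    (he : ∀ k, (e k).natDegree ≤ E)
    (hrel : ∀ z : ℍ, jFun z ^ E * h z ^ n +
      ∑ k : Fin n, (e k).eval (jFun z) * jFun z ^ (m * (n - (k : ℕ))) * h z ^ (k : ℕ) = 0)
    (g : SL(2, ℤ)) :
    IsBoundedAtImInfty (fun z => ModularForm.discriminant z ^ m * h (g • z)) := by
  refine isBoundedAtImInfty_of_eventually_root (h := fun z => h (g • z)) m n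
    (fun k z => (e k).eval (jFun z) / jFun z ^ E)
    (∑ k : Fin n, ∑ i ∈ Finset.range (E + 1), ‖(e k).coeff i‖) ?_ ?_
  · filter_upwards [eventually_one_le_norm_jFun] with z hj
    refine Finset.sum_le_sum fun k _ => ?_
    have hpos : 0 < ‖jFun z‖ ^ E := pow_pos (lt_of_lt_of_le one_pos hj) _
    rw [norm_div, norm_pow, div_le_iff₀ hpos]
    exact norm_eval_le_of_one_le (e k) (he k) hj
  · filter_upwards [eventually_one_le_norm_jFun] with z hj
    have hj0 : jFun z ≠ 0 := by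
      intro h0
      rw [h0, norm_zero] at hj
      linarith
    have h1 := hrel (g • z)
    rw [jFun_smul] at h1
    have hne : jFun z ^ (E + m * n) ≠ 0 := pow_ne_zero _ hj0
    have key : ((h (g • z) / jFun z ^ m) ^ n +
        ∑ k : Fin n, (e k).eval (jFun z) / jFun z ^ E * (h (g • z) / jFun z ^ m) ^ (k : ℕ)) *
          jFun z ^ (E + m * n) =
        jFun z ^ E * h (g • z) ^ n +
          ∑ k : Fin n, (e k).eval (jFun z) * jFun z ^ (m * (n - (k : ℕ))) *
            h (g • z) ^ (k : ℕ) := by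
      rw [add_mul, Finset.sum_mul]
      congr 1
      · rw [div_pow, ← pow_mul, pow_add]
        field_simp
      · refine Finset.sum_congr rfl fun k _ => ?_
        have hk : m * n = m * (n - (k : ℕ)) + m * (k : ℕ) := by
          rw [← Nat.mul_add, Nat.sub_add_cancel k.2.le]
        rw [div_pow, ← pow_mul, pow_add, hk, pow_add]
        field_simp
    rw [h1] at key
    exact (mul_eq_zero.mp key).resolve_right hne

end Fermat.Agent.S29.K1IntGrowth
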