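import Mathlib
import Fermat.Prelude.Thm_CongruenceSubgroup_one_mem_strictPeriods_Gamma0
import Fermat.Agent.S29.KDefs
import Fermat.Agent.S29.HolIC
import Fermat.Agent.S29.K1IntGrowth
import Fermat.Agent.S29.K1IntAux
import Fermat.Agent.S24.Bridge
import Fermat.Agent.S24.NormPoly
import Fermat.Agent.S24.TranscJ
import Fermat.Agent.S20.Basic
import Fermat.Agent.S23.Main

/-!
# S29 block [K], leaf [K1IntConv]: the dictionary, backward direction

An element `x` of the witness class `Mchi N 1` (quotients of forms of level `Γ₀(N)`) which is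
integral over `ℂ[j]`, and such that `x / j ^ m` is integral over `ℂ[1 / j]`, is of the form
`qx G / DeltaC ^ m` for a modular form `G` of weight `12 m` and level `Γ₀(N)`.

* `transport`: a polynomial relation over `ℂ[jC]` satisfied by a q-series `x = qx A / qx B`
  becomes a pointwise relation between the functions `A`, `B` and `jFun`.
* `exists_quotient`: integrality over `ℂ[jC]` gives a holomorphic quotient `h` with `h * B = A`
  (helper48's `HolIC`), and every relation over `ℂ[jC]` for `x` holds pointwise for `h`.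
* `exists_form_of_isIntegral_of_mem_Mchi_of_growth`: the leaf, with the growth input (the cusp
  bound from a relation over `ℂ[1 / j]`, helper38's `K1IntGrowth`) as a hypothesis.
-/

set_option autoImplicit false

namespace Fermat.Agent.S29.K1IntConv

open UpperHalfPlane ModularForm CongruenceSubgroup ModularCurve Polynomial
open Fermat.Agent.S29.K Fermat.Agent.S24 Fermat.Agent.LevelOne
open scoped MatrixGroups ModularForm Manifold

local notation "Δ" => ModularForm.discriminant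

/-! ### Basics on `qx` and nice functions -/

theorem mem_niceSub_of_mem_MF {N : ℕ} {w : ℤ} {A : ℍ → ℂ} (hA : A ∈ S20.MF N w) :
    A ∈ S23.niceSub := by
  obtain ⟨F, rfl⟩ := hA
  exact S23.MainAux.coe_mem_niceSub (CongruenceSubgroup.one_mem_strictPeriods_Gamma0 N) F

theorem qx_eq_Phi {A : ℍ → ℂ} (hA : A ∈ S23.niceSub) : qx A = AnBridge.Phi ⟨A, hA⟩ := rfl

theorem jC_mul_DeltaC : jC * DeltaC = qx (E₄ : ℍ → ℂ) ^ 3 := jRel

theorem jC_ne_zero : jC ≠ 0 := by
  intro h
  have ht := transcendental_coeffEmb_jq ℂ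
  apply ht
  have : coeffEmb ℂ jq = 0 := h
  rw [this]
  exact isAlgebraic_zero

/-- The element `Δ` of `niceSub`. -/
noncomputable def Dn : S23.niceSub := ⟨Δ, AnBridge.discriminant_mem_niceSub⟩

/-- The element `E₄` of `niceSub`. -/
noncomputable def En : S23.niceSub := ⟨(E₄ : ℍ → ℂ), AnBridge.levelOne_mem_niceSub E₄⟩

theorem Phi_Dn : AnBridge.Phi Dn = DeltaC := rfl

theorem Phi_En : AnBridge.Phi En = qx (E₄ : ℍ → ℂ) := rfl

/-- Evaluation at a point, as a ring homomorphism on `niceSub`. -/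
noncomputable def evalN (z : ℍ) : S23.niceSub →+* ℂ :=
  (Pi.evalRingHom (fun _ : ℍ => ℂ) z).comp (S23.niceSub.subtype : S23.niceSub →+* (ℍ → ℂ))

theorem evalN_apply (z : ℍ) (F : S23.niceSub) : evalN z F = (F : ℍ → ℂ) z := rfl

theorem evalN_algebraMap (z : ℍ) (c : ℂ) : evalN z (algebraMap ℂ S23.niceSub c) = c := rfl

/-- The homogenisation `∑ᵢ pᵢ E₄^{3i} Δ^{D-i}` of `p(j) Δ^D`. -/
noncomputable def hom (D : ℕ) (p : ℂ[X]) : S23.niceSub :=
  ∑ i ∈ Finset.range (D + 1), algebraMap ℂ S23.niceSub (p.coeff i) * En ^ (3 * i) * Dn ^ (D - i)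

theorem Phi_hom (D : ℕ) (p : ℂ[X]) (hp : p.natDegree ≤ D) :
    AnBridge.Phi (hom D p) = aeval jC p * DeltaC ^ D := by
  rw [aeval_eq_sum_range' (Nat.lt_succ_of_le hp), hom, map_sum, Finset.sum_mul]
  refine Finset.sum_congr rfl fun i hi => ?_
  have hi' : i ≤ D := Nat.lt_succ_iff.mp (Finset.mem_range.mp hi)
  rw [map_mul, map_mul, map_pow, map_pow, AnBridge.Phi_algebraMap, Phi_Dn, Phi_En, pow_mul,
    ← jC_mul_DeltaC, mul_pow, Algebra.smul_def]
  have : DeltaC ^ D = DeltaC ^ i * DeltaC ^ (D - i) := by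
    rw [← pow_add, Nat.add_sub_cancel' hi']
  rw [this]
  ring

theorem evalN_hom (D : ℕ) (p : ℂ[X]) (hp : p.natDegree ≤ D) (z : ℍ) :
    evalN z (hom D p) = p.eval (jFun z) * Δ z ^ D := by
  rw [eval_eq_sum_range' (Nat.lt_succ_of_le hp), hom, map_sum, Finset.sum_mul]
  refine Finset.sum_congr rfl fun i hi => ?_
  have hi' : i ≤ D := Nat.lt_succ_iff.mp (Finset.mem_range.mp hi)
  rw [map_mul, map_mul, map_pow, map_pow, evalN_algebraMap]
  have h1 : evalN z En = E₄ z := rfl
  have h2 : evalN z Dn = Δ z := rfl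
  rw [h1, h2, pow_mul, ← jFun_mul_discriminant, mul_pow]
  have : Δ z ^ D = Δ z ^ i * Δ z ^ (D - i) := by
    rw [← pow_add, Nat.add_sub_cancel' hi']
  rw [this]
  ring

/-! ### Transport of polynomial relations from q-series to functions -/

/-- **Transport.** If `x * qx B = qx A` with `A`, `B` nice, then every polynomial relation
`∑ₖ pₖ(jC) xᵏ = 0` gives the pointwise relation `∑ₖ pₖ(j(z)) A(z)ᵏ B(z)ⁿ⁻ᵏ = 0`. -/
theorem transport {A B : ℍ → ℂ} (hA : A ∈ S23.niceSub) (hB : B ∈ S23.niceSub)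
    {x : LaurentSeries ℂ} (hx : x * qx B = qx A) (n : ℕ) (p : ℕ → ℂ[X])
    (hrel : ∑ k ∈ Finset.range (n + 1), aeval jC (p k) * x ^ k = 0) (z : ℍ) :
    ∑ k ∈ Finset.range (n + 1), (p k).eval (jFun z) * A z ^ k * B z ^ (n - k) = 0 := by
  set D : ℕ := (Finset.range (n + 1)).sup fun k => (p k).natDegree with hD
  have hpD : ∀ k ∈ Finset.range (n + 1), (p k).natDegree ≤ D := fun k hk =>
    Finset.le_sup (f := fun k => (p k).natDegree) hk
  set a : S23.niceSub := ⟨A, hA⟩ with ha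
  set b : S23.niceSub := ⟨B, hB⟩ with hb
  set Φ : S23.niceSub := ∑ k ∈ Finset.range (n + 1), hom D (p k) * a ^ k * b ^ (n - k) with hΦ
  have hxa : x * AnBridge.Phi b = AnBridge.Phi a := hx
  have h0 : AnBridge.Phi Φ = 0 := by
    have h1 : AnBridge.Phi Φ = DeltaC ^ D * AnBridge.Phi b ^ n *
        ∑ k ∈ Finset.range (n + 1), aeval jC (p k) * x ^ k := by
      rw [hΦ, map_sum, Finset.mul_sum]
      refine Finset.sum_congr rfl fun k hk => ?_
      have hk' : k ≤ n := Nat.lt_succ_iff.mp (Finset.mem_range.mp hk)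
      rw [map_mul, map_mul, map_pow, map_pow, Phi_hom D (p k) (hpD k hk), ← hxa, mul_pow]
      have : AnBridge.Phi b ^ n = AnBridge.Phi b ^ k * AnBridge.Phi b ^ (n - k) := by
        rw [← pow_add, Nat.add_sub_cancel' hk']
      rw [this]
      ring
    rw [h1, hrel, mul_zero]
  have hΦ0 : Φ = 0 := AnBridge.Phi_injective (h0.trans (map_zero _).symm)
  have hz : evalN z Φ = 0 := by rw [hΦ0, map_zero]
  have h2 : evalN z Φ = Δ z ^ D *
      ∑ k ∈ Finset.range (n + 1), (p k).eval (jFun z) * A z ^ k * B z ^ (n - k) := by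
    rw [hΦ, map_sum, Finset.mul_sum]
    refine Finset.sum_congr rfl fun k hk => ?_
    rw [map_mul, map_mul, map_pow, map_pow, evalN_hom D (p k) (hpD k hk)]
    have h3 : evalN z a = A z := rfl
    have h4 : evalN z b = B z := rfl
    rw [h3, h4]
    ring
  rw [h2] at hz
  exact (mul_eq_zero.mp hz).resolve_left (pow_ne_zero _ (ModularForm.discriminant_ne_zero z))

/-- Unpacking integrality over `ℂ[t]`: a monic relation with coefficients polynomials in `t`. -/
theorem exists_rel_of_isIntegral {t x : LaurentSeries ℂ}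
    (h : IsIntegral (Algebra.adjoin ℂ ({t} : Set (LaurentSeries ℂ))) x) :
    ∃ (n : ℕ) (c : ℕ → ℂ[X]), c n = 1 ∧
      ∑ k ∈ Finset.range (n + 1), aeval t (c k) * x ^ k = 0 := by
  obtain ⟨P, hP, hPx⟩ := h
  have hc : ∀ k : ℕ, ∃ c : ℂ[X], aeval t c = ((P.coeff k : Algebra.adjoin ℂ ({t} : Set (LaurentSeries ℂ))) : LaurentSeries ℂ) := by
    intro k
    have hmem : ((P.coeff k : Algebra.adjoin ℂ ({t} : Set (LaurentSeries ℂ))) : LaurentSeries ℂ) ∈
        (aeval (R := ℂ) t).range := by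
      rw [← Algebra.adjoin_singleton_eq_range_aeval]
      exact (P.coeff k).2
    exact hmem
  choose c0 hc0 using hc
  refine ⟨P.natDegree, fun k => if k = P.natDegree then 1 else c0 k, if_pos rfl, ?_⟩
  rw [eval₂_eq_sum_range] at hPx
  rw [← hPx]
  refine Finset.sum_congr rfl fun k _ => ?_
  beta_reduce
  by_cases hk : k = P.natDegree
  · rw [if_pos hk, hk, hP.coeff_natDegree]
    simp
  · rw [if_neg hk, hc0 k]
    rfl

theorem aeval_reflect {t : LaurentSeries ℂ} (ht : t ≠ 0) (E : ℕ) (f : ℂ[X])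
    (hf : f.natDegree ≤ E) : aeval t (reflect E f) = t ^ E * aeval t⁻¹ f := by
  let _ : Invertible (t⁻¹) := invertibleOfNonzero (inv_ne_zero ht)
  have h := eval₂_reflect_mul_pow (algebraMap ℂ (LaurentSeries ℂ)) t⁻¹ E f hf
  rw [invOf_eq_inv, inv_inv] at h
  have h1 : t⁻¹ ^ E * t ^ E = 1 := by rw [← mul_pow, inv_mul_cancel₀ ht, one_pow]
  rw [aeval_def, aeval_def, ← h, mul_comm (t ^ E), mul_assoc, h1, mul_one]

/-! ### Holomorphic functions: evaluation and polynomials in `j` -/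

/-- Evaluation at a point, as an algebra homomorphism on `holSub`. -/
noncomputable def evalH (z : ℍ) : holSub →ₐ[ℂ] ℂ :=
  (Pi.evalAlgHom ℂ (fun _ : ℍ => ℂ) z).comp holSub.val

theorem evalH_apply (z : ℍ) (F : holSub) : evalH z F = (F : ℍ → ℂ) z := rfl

theorem holSub_ext {F G : holSub} (h : ∀ z, evalH z F = evalH z G) : F = G :=
  Subtype.ext (funext h)

/-- The function `j` as an element of `holSub`. -/
noncomputable def jH : holSub := ⟨jFun, jFun_mdifferentiable⟩

/-- The function `z ↦ p (j z)` as an element of `holSub`. -/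
noncomputable def pj (p : ℂ[X]) : holSub := aeval jH p

theorem evalH_pj (z : ℍ) (p : ℂ[X]) : evalH z (pj p) = p.eval (jFun z) := by
  rw [pj, ← aeval_algHom_apply]
  have : evalH z jH = jFun z := rfl
  rw [this, coe_aeval_eq_eval]

/-! ### The holomorphic quotient -/

/-- **Holomorphic quotient.** If `x = qx A / qx B` (with `A`, `B` nice, `B ≠ 0`) is integral over
`ℂ[jC]`, then `A = h * B` for a holomorphic `h`, and every polynomial relation over `ℂ[jC]`
satisfied by `x` holds pointwise for `h` and the function `j`. -/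
theorem exists_quotient {A B : ℍ → ℂ} (hA : A ∈ S23.niceSub) (hB : B ∈ S23.niceSub) (hB0 : B ≠ 0)
    {x : LaurentSeries ℂ} (hx : x * qx B = qx A)
    (h1 : IsIntegral (Algebra.adjoin ℂ ({jC} : Set (LaurentSeries ℂ))) x) :
    ∃ h : ℍ → ℂ, MDiff h ∧ (∀ z, h z * B z = A z) ∧
      ∀ (n : ℕ) (p : ℕ → ℂ[X]), ∑ k ∈ Finset.range (n + 1), aeval jC (p k) * x ^ k = 0 →
        ∀ z, ∑ k ∈ Finset.range (n + 1), (p k).eval (jFun z) * h z ^ k = 0 := by
  have := HolIC.isDomain_holSub
  obtain ⟨n, c, hcn, hrel⟩ := exists_rel_of_isIntegral h1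
  have ht := transport hA hB hx n c hrel
  set a : holSub := ⟨A, hA.2.1⟩ with ha
  set b : holSub := ⟨B, hB.2.1⟩ with hb
  have hb0 : b ≠ 0 := fun h => hB0 (congrArg Subtype.val h)
  have h0 : a ^ n + ∑ i ∈ Finset.range n, pj (c i) * a ^ i * b ^ (n - i) = 0 := by
    apply holSub_ext
    intro z
    have hz := ht z
    rw [Finset.sum_range_succ, hcn] at hz
    simp only [eval_one, one_mul, Nat.sub_self, pow_zero, mul_one] at hz
    rw [map_zero, map_add, map_sum, map_pow, ← hz, add_comm]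
    congr 1
    refine Finset.sum_congr rfl fun i _ => ?_
    rw [map_mul, map_mul, map_pow, map_pow, evalH_pj]
    rfl
  obtain ⟨h, hh⟩ := HolIC.exists_mul_eq_of_sum a b hb0 (fun i => pj (c i)) n h0
  have hmul : ∀ z, (h : ℍ → ℂ) z * B z = A z := fun z => by
    have := congrArg (evalH z) hh
    rwa [map_mul] at this
  refine ⟨h, h.2, hmul, ?_⟩
  intro n' p hrel' z
  have ht' := transport hA hB hx n' p hrel'
  set Ψ : holSub := ∑ k ∈ Finset.range (n' + 1), pj (p k) * h ^ k with hΨ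
  have hΨ0 : b ^ n' * Ψ = 0 := by
    apply holSub_ext
    intro z'
    rw [map_zero, ← ht' z', hΨ, map_mul, map_sum, map_pow, Finset.mul_sum]
    refine Finset.sum_congr rfl fun k hk => ?_
    have hk' : k ≤ n' := Nat.lt_succ_iff.mp (Finset.mem_range.mp hk)
    rw [map_mul, map_pow, evalH_pj, ← hmul z', mul_pow]
    have e1 : evalH z' b = B z' := rfl
    have e2 : evalH z' h = (h : ℍ → ℂ) z' := rfl
    have e3 : B z' ^ n' = B z' ^ k * B z' ^ (n' - k) := by
      rw [← pow_add, Nat.add_sub_cancel' hk']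
    rw [e1, e2, e3]
    ring
  have hΨ1 : Ψ = 0 := (mul_eq_zero.mp hΨ0).resolve_left (pow_ne_zero _ hb0)
  have := congrArg (evalH z) hΨ1
  rw [hΨ, map_sum, map_zero] at this
  rw [← this]
  refine Finset.sum_congr rfl fun k _ => ?_
  rw [map_mul, map_pow, evalH_pj]
  rfl

/-! ### The leaf -/

/-- **[K1IntConv], core form.** An element `x` of `Mchi N 1` which is integral over `ℂ[jC]` and
such that `x * jC⁻¹ ^ m` is integral over `ℂ[jC⁻¹]` is `qx G / DeltaC ^ m` for a modular form `G`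
of weight `12 m` and level `Γ₀(N)`. -/
theorem exists_form_of_isIntegral_of_mem_Mchi {N : ℕ} [NeZero N] (m : ℕ) {x : LaurentSeries ℂ}
    (hx : x ∈ Mchi N 1)
    (h1 : IsIntegral (Algebra.adjoin ℂ ({jC} : Set (LaurentSeries ℂ))) x)
    (h2 : IsIntegral (Algebra.adjoin ℂ ({jC⁻¹} : Set (LaurentSeries ℂ))) (x * jC⁻¹ ^ m)) :
    ∃ G : ℍ → ℂ, G ∈ S20.MF N (12 * m) ∧ x * DeltaC ^ m = qx G := by
  obtain ⟨w, A, B, hA, hB, hB0, hxAB⟩ := hx
  have hA' : A ∈ S20.MF N w := by
    obtain ⟨hA1, hA2, hA3⟩ := hA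
    refine S20.mem_MF_iff'.mpr ⟨hA1, fun γ hγ => ?_, hA3⟩
    have := hA2 ⟨γ, hγ⟩
    simpa using this
  have hAn := mem_niceSub_of_mem_MF hA'
  have hBn := mem_niceSub_of_mem_MF hB
  obtain ⟨h, hh, hmul, hrelh⟩ := exists_quotient hAn hBn hB0 hxAB h1
  obtain ⟨n, d, hdn, hreld⟩ := exists_rel_of_isIntegral h2
  set E : ℕ := (Finset.range (n + 1)).sup fun k => (d k).natDegree with hE
  have hdE : ∀ k ∈ Finset.range (n + 1), (d k).natDegree ≤ E := fun k hk =>
    Finset.le_sup (f := fun k => (d k).natDegree) hk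
  -- the relation over `ℂ[jC⁻¹]`, cleared of denominators
  have hrel' : ∑ k ∈ Finset.range (n + 1),
      aeval jC (reflect E (d k) * X ^ (m * (n - k))) * x ^ k = 0 := by
    have h3 : ∑ k ∈ Finset.range (n + 1), aeval jC (reflect E (d k) * X ^ (m * (n - k))) * x ^ k
        = jC ^ (E + m * n) *
          ∑ k ∈ Finset.range (n + 1), aeval jC⁻¹ (d k) * (x * jC⁻¹ ^ m) ^ k := by
      rw [Finset.mul_sum]
      refine Finset.sum_congr rfl fun k hk => ?_
      have hk' : k ≤ n := Nat.lt_succ_iff.mp (Finset.mem_range.mp hk)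
      rw [map_mul, aeval_reflect jC_ne_zero E (d k) (hdE k hk), map_pow, aeval_X]
      have e1 : jC ^ (E + m * n) = jC ^ E * jC ^ (m * (n - k)) * jC ^ (m * k) := by
        rw [← pow_add, ← pow_add]
        congr 1
        rw [add_assoc, ← Nat.mul_add, Nat.sub_add_cancel hk']
      have e2 : jC ^ (m * k) * jC⁻¹ ^ (m * k) = 1 := by
        rw [← mul_pow, mul_inv_cancel₀ jC_ne_zero, one_pow]
      rw [e1, mul_pow, ← pow_mul]
      linear_combination (-(jC ^ E * jC ^ (m * (n - k)) * (aeval jC⁻¹) (d k) * x ^ k)) * e2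
    rw [h3, hreld, mul_zero]
  have hz := hrelh n (fun k => reflect E (d k) * X ^ (m * (n - k))) hrel'
  -- the shape of `K1IntGrowth.isBoundedAtImInfty_of_cleared`
  have hG2 : ∀ z : ℍ, jFun z ^ E * h z ^ n +
      ∑ k : Fin n, (reflect E (d k)).eval (jFun z) * jFun z ^ (m * (n - (k : ℕ))) * h z ^ (k : ℕ)
        = 0 := by
    intro z
    have h4 := hz z
    rw [Finset.sum_range_succ, hdn] at h4
    rw [Fin.sum_univ_eq_sum_range
      (fun k => (reflect E (d k)).eval (jFun z) * jFun z ^ (m * (n - k)) * h z ^ k) n, add_comm]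
    rw [← h4]
    congr 1
    · refine Finset.sum_congr rfl fun k _ => ?_
      rw [eval_mul, eval_pow, eval_X]
    · rw [← C_1, reflect_C, eval_mul, eval_mul, eval_pow, eval_pow, eval_X, eval_C, Nat.sub_self,
        Nat.mul_zero, pow_zero, one_mul, mul_one]
  have he : ∀ k : Fin n, (reflect E (d k)).natDegree ≤ E := fun k =>
    natDegree_reflect_le.trans (max_le le_rfl
      (hdE k (Finset.mem_range.mpr (Nat.lt_succ_of_lt k.2))))
  have hbdd : ∀ g : SL(2, ℤ), IsBoundedAtImInfty (fun z : ℍ => Δ z ^ m * h (g • z)) := fun g =>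
    K1IntGrowth.isBoundedAtImInfty_of_cleared m n E (fun k : Fin n => reflect E (d k)) he hG2 g
  have hG : (fun z : ℍ => Δ z ^ m * h z) ∈ S20.MF N (12 * (m : ℤ)) :=
    K1IntAux.mem_MF_of_quotient hA' hB hB0 hh hmul m hbdd
  refine ⟨fun z : ℍ => Δ z ^ m * h z, hG, ?_⟩
  -- the q-series identity
  have hGn := mem_niceSub_of_mem_MF hG
  have e3 : (⟨fun z : ℍ => Δ z ^ m * h z, hGn⟩ : S23.niceSub) * ⟨B, hBn⟩ = ⟨A, hAn⟩ * Dn ^ m := by
    apply Subtype.ext
    funext z
    show Δ z ^ m * h z * B z = A z * Δ z ^ m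
    rw [← hmul z]
    ring
  have e4 := congrArg AnBridge.Phi e3
  rw [map_mul, map_mul, map_pow, Phi_Dn] at e4
  have e5 : qx (fun z : ℍ => Δ z ^ m * h z) * qx B = qx A * DeltaC ^ m := e4
  have hqB : qx B ≠ 0 := by
    intro h0
    have h00 : AnBridge.Phi ⟨B, hBn⟩ = 0 := h0
    have := AnBridge.Phi_injective (h00.trans (map_zero _).symm)
    exact hB0 (congrArg Subtype.val this)
  apply mul_right_cancel₀ hqB
  rw [e5, ← hxAB]
  ring

/-- **[K1IntConv]**, in the `FC` form of the leaf table, from the identification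
`Mchi N 1 = FC N` (leaf [K1] top, `Mchi_one_eq`). -/
theorem exists_form_of_isIntegral_of_eq {N : ℕ} [NeZero N]
    (hM : Mchi N 1 = (FC N : Set (LaurentSeries ℂ))) (m : ℕ) {x : LaurentSeries ℂ}
    (hx : x ∈ FC N)
    (h1 : IsIntegral (Algebra.adjoin ℂ ({jC} : Set (LaurentSeries ℂ))) x)
    (h2 : IsIntegral (Algebra.adjoin ℂ ({jC⁻¹} : Set (LaurentSeries ℂ))) (x * jC⁻¹ ^ m)) :
    ∃ G : ℍ → ℂ, G ∈ S20.MF N (12 * m) ∧ x * DeltaC ^ m = qx G :=
  exists_form_of_isIntegral_of_mem_Mchi m (hM ▸ (show x ∈ (FC N : Set (LaurentSeries ℂ)) from hx))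
    h1 h2

end Fermat.Agent.S29.K1IntConv
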