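import Mathlib
import Fermat.Agent.S29.K1
import Fermat.Agent.S29.K1IntConv

/-!
# S29 block [K], leaf [K1IntConv]: the dictionary, backward direction (`FC` form)

The statement of the leaf table: an element `x` of the function field `FC N` which is integral
over `ℂ[jC]`, and such that `x * jC⁻¹ ^ m` is integral over `ℂ[jC⁻¹]`, is `qx G / DeltaC ^ m`
for a modular form `G` of weight `12 m` and level `Γ₀(N)`.
(`K1IntConv.exists_form_of_isIntegral_of_mem_Mchi` + `Mchi_one_eq`.)
-/

set_option autoImplicit false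

namespace Fermat.Agent.S29.K

open UpperHalfPlane ModularForm CongruenceSubgroup ModularCurve
open scoped MatrixGroups ModularForm Manifold

/-- **[K1IntConv]** (dictionary, backward). -/
theorem exists_form_of_isIntegral {N : ℕ} [NeZero N] (m : ℕ) {x : LaurentSeries ℂ}
    (hx : x ∈ FC N)
    (h1 : IsIntegral (Algebra.adjoin ℂ ({jC} : Set (LaurentSeries ℂ))) x)
    (h2 : IsIntegral (Algebra.adjoin ℂ ({jC⁻¹} : Set (LaurentSeries ℂ))) (x * jC⁻¹ ^ m)) :
    ∃ G : ℍ → ℂ, G ∈ S20.MF N (12 * m) ∧ x * DeltaC ^ m = qx G :=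
  K1IntConv.exists_form_of_isIntegral_of_mem_Mchi m (mem_Mchi_one_iff.mpr hx) h1 h2

end Fermat.Agent.S29.K
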