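import Mathlib
import Fermat.Agent.S29.KDefs
import Fermat.Agent.S24.AnTaylorHom

/-!
# S29 block [K], leaf [K2Sep]: the multiplier of a nonzero witness series is unique

`eq_of_mem_Mchi_of_mem_Mchi`: a nonzero `x ∈ ℂ((q))` lying in both witness classes `Mchi N χ` and
`Mchi N χ'` (with `χ(T) = χ'(T) = 1`) forces `χ = χ'`.

The sub-namespace `K2Sep` contains the basic facts used here and in the leaves [K2Mul], [K2Div]:
forms with multiplier trivial at `T` are nice (`1`-periodic, holomorphic, bounded at `i∞`),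
products of multiplier forms, `qx` is multiplicative and injective on nice functions, and
holomorphic functions on `ℍ` have no zero divisors.
-/

set_option autoImplicit false

namespace Fermat.Agent.S29.K

open UpperHalfPlane ModularForm CongruenceSubgroup ModularCurve
open scoped MatrixGroups ModularForm Manifold

namespace K2Sep

variable {N : ℕ} {w w' : ℤ} {χ χ' : ↥(Gamma0 N) →* ℂˣ} {A B : ℍ → ℂ}

/-- `1`-periodicity of a multiplier form whose multiplier is trivial at `T`. -/
theorem vadd_eq_of_mem (hT : χ (TG N) = 1) (hA : A ∈ MFchi N w χ) (z : ℍ) :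
    A ((1 : ℝ) +ᵥ z) = A z := by
  have h := congrFun (hA.2.1 (TG N)) z
  rw [hT] at h
  simp only [Units.val_one, one_smul] at h
  have h2 := (ModularForm.slash_action_eq'_iff w A (TG N : SL(2, ℤ)) z).mp h
  rw [← UpperHalfPlane.modular_T_smul]
  have h3 : ((TG N : ↥(Gamma0 N)) : SL(2, ℤ)) = ModularGroup.T := rfl
  rw [h3] at h2
  rw [h2]
  simp [ModularGroup.T]

theorem periodic_of_mem (hT : χ (TG N) = 1) (hA : A ∈ MFchi N w χ) :
    Function.Periodic (A ∘ ofComplex) 1 := by
  intro u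
  have h := vadd_eq_of_mem hT hA
  by_cases hu : 0 < u.im
  · have hu' : 0 < (u + 1).im := by simpa using hu
    simp only [Function.comp_apply, ofComplex_apply_of_im_pos hu', ofComplex_apply_of_im_pos hu]
    rw [← h ⟨u, hu⟩]
    congr 1
    apply UpperHalfPlane.ext
    simp [add_comm]
  · have hu0 : u.im ≤ 0 := not_lt.mp hu
    have hu' : (u + 1).im ≤ 0 := by simpa using hu0
    simp only [Function.comp_apply, ofComplex_apply_of_im_nonpos hu',
      ofComplex_apply_of_im_nonpos hu0]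

/-- A multiplier form whose multiplier is trivial at `T` is a nice function. -/
theorem mem_niceSub_of_mem (hT : χ (TG N) = 1) (hA : A ∈ MFchi N w χ) : A ∈ S23.niceSub := by
  refine ⟨periodic_of_mem hT hA, hA.1, ?_⟩
  have h := hA.2.2 1
  rwa [SlashAction.slash_one] at h

/-- The trivial multiplier gives back the forms of level `Γ₀(N)`. -/
theorem MFchi_one_eq (N : ℕ) [NeZero N] (w : ℤ) : MFchi N w 1 = S20.MF N w := by
  ext A
  rw [S20.mem_MF_iff', mem_MFchi]
  constructor
  · rintro ⟨h1, h2, h3⟩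
    refine ⟨h1, fun γ hγ => ?_, h3⟩
    have := h2 ⟨γ, hγ⟩
    simpa using this
  · rintro ⟨h1, h2, h3⟩
    refine ⟨h1, fun γ => ?_, h3⟩
    have := h2 γ γ.2
    simpa using this

theorem mem_niceSub_of_mem_MF [NeZero N] (hB : B ∈ S20.MF N w) : B ∈ S23.niceSub := by
  rw [← MFchi_one_eq] at hB
  exact mem_niceSub_of_mem (χ := 1) rfl hB

/-- Products of multiplier forms. -/
theorem mul_mem (hA : A ∈ MFchi N w χ) (hB : B ∈ MFchi N w' χ') :
    A * B ∈ MFchi N (w + w') (χ * χ') := by
  refine ⟨hA.1.mul hB.1, fun γ => ?_, fun g => ?_⟩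
  · rw [mul_slash_SL2, hA.2.1 γ, hB.2.1 γ]
    ext z
    simp only [Pi.mul_apply, Pi.smul_apply, smul_eq_mul, MonoidHom.mul_apply, Units.val_mul]
    ring
  · rw [mul_slash_SL2]
    exact (hA.2.2 g).mul (hB.2.2 g)

/-- Powers of multiplier forms. -/
theorem pow_mem (hA : A ∈ MFchi N w χ) (n : ℕ) : A ^ n ∈ MFchi N (n * w) (χ ^ n) := by
  induction n with
  | zero =>
    simp only [pow_zero, Nat.cast_zero, zero_mul]
    refine ⟨mdifferentiable_const, fun γ => ?_, fun g => ?_⟩
    · rw [ModularForm.is_invariant_one]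
      simp
    · rw [ModularForm.is_invariant_one]
      exact Filter.const_boundedAtFilter _ (1 : ℂ)
  | succ n ih =>
    have h := mul_mem ih hA
    have hw : ((n + 1 : ℕ) : ℤ) * w = (n : ℤ) * w + w := by push_cast; ring
    rw [hw, pow_succ A, pow_succ χ]
    exact h

theorem qx_mul (hA : A ∈ S23.niceSub) (hB : B ∈ S23.niceSub) : qx (A * B) = qx A * qx B := by
  have h : qExpansion 1 (A * B) = qExpansion 1 A * qExpansion 1 B :=
    qExpansion_mul (S23.analyticAt_cuspFunction_of_mem_niceSub hA)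
      (S23.analyticAt_cuspFunction_of_mem_niceSub hB)
  unfold qx
  rw [h, map_mul]

theorem qx_eq_zero_iff (hA : A ∈ S23.niceSub) : qx A = 0 ↔ A = 0 := by
  unfold qx
  constructor
  · intro h
    have h1 : qExpansion 1 A = 0 := by
      apply HahnSeries.ofPowerSeries_injective (Γ := ℤ) (R := ℂ)
      rw [h, map_zero]
    have h2 : S23.qHom ⟨A, hA⟩ = S23.qHom 0 := by
      rw [map_zero]
      exact h1
    have h3 := S23.qHom_injective h2
    exact congrArg Subtype.val h3
  · rintro rfl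
    rw [qExpansion_zero, map_zero]

theorem qx_injOn {A B : ℍ → ℂ} (hA : A ∈ S23.niceSub) (hB : B ∈ S23.niceSub)
    (h : qx A = qx B) : A = B := by
  unfold qx at h
  have h1 : qExpansion 1 A = qExpansion 1 B :=
    HahnSeries.ofPowerSeries_injective (Γ := ℤ) (R := ℂ) h
  have h2 : S23.qHom ⟨A, hA⟩ = S23.qHom ⟨B, hB⟩ := h1
  exact congrArg Subtype.val (S23.qHom_injective h2)

/-- Holomorphic functions on `ℍ` have no zero divisors. -/
theorem eq_zero_or_eq_zero_of_mul {A B : ℍ → ℂ} (hA : MDiff A) (hB : MDiff B)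
    (h : A * B = 0) : A = 0 ∨ B = 0 := by
  let a : S24.holSub := ⟨A, hA⟩
  let b : S24.holSub := ⟨B, hB⟩
  have hab : a * b = 0 := Subtype.ext h
  have h1 : S24.taylorHom UpperHalfPlane.I a * S24.taylorHom UpperHalfPlane.I b = 0 := by
    rw [← map_mul, hab, map_zero]
  rcases mul_eq_zero.mp h1 with h2 | h2
  · left
    have : a = 0 := S24.taylorHom_injective _ (by rw [h2, map_zero])
    exact congrArg Subtype.val this
  · right
    have : b = 0 := S24.taylorHom_injective _ (by rw [h2, map_zero])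
    exact congrArg Subtype.val this

end K2Sep

open K2Sep in
/-- **[K2Sep]** A nonzero series lying in two witness classes determines the multiplier. -/
theorem eq_of_mem_Mchi_of_mem_Mchi {N : ℕ} [NeZero N] {χ χ' : ↥(Gamma0 N) →* ℂˣ}
    (hT : χ (TG N) = 1) (hT' : χ' (TG N) = 1) {x : LaurentSeries ℂ}
    (hx : x ∈ Mchi N χ) (hx' : x ∈ Mchi N χ') (h0 : x ≠ 0) : χ = χ' := by
  obtain ⟨w, A, B, hA, hB, hB0, hAB⟩ := hx
  obtain ⟨w', A', B', hA', hB', hB0', hAB'⟩ := hx'
  have hAn := mem_niceSub_of_mem hT hA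
  have hBn := mem_niceSub_of_mem_MF hB
  have hAn' := mem_niceSub_of_mem hT' hA'
  have hBn' := mem_niceSub_of_mem_MF hB'
  -- `A * B' = A' * B`
  have hq : qx (A * B') = qx (A' * B) := by
    rw [qx_mul hAn hBn', qx_mul hAn' hBn, ← hAB, ← hAB']
    ring
  have hfun : A * B' = A' * B :=
    qx_injOn (S23.niceSub.mul_mem hAn hBn') (S23.niceSub.mul_mem hAn' hBn) hq
  -- `A ≠ 0`
  have hA0 : A ≠ 0 := by
    intro h
    have h1 : qx A = 0 := (qx_eq_zero_iff hAn).mpr h
    rw [h1] at hAB
    rcases mul_eq_zero.mp hAB with h2 | h2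
    · exact h0 h2
    · exact hB0 ((qx_eq_zero_iff hBn).mp h2)
  have hBm := (S20.mem_MF_iff' (N := N)).mp hB
  have hBm' := (S20.mem_MF_iff' (N := N)).mp hB'
  have hprod : A * B' ≠ 0 := by
    intro h
    rcases eq_zero_or_eq_zero_of_mul hA.1 hBm'.1 h with h1 | h1
    · exact hA0 h1
    · exact hB0' h1
  obtain ⟨z, hz⟩ : ∃ z, (A * B') z ≠ 0 := by
    by_contra hcon
    apply hprod
    funext z
    by_contra hz
    exact hcon ⟨z, hz⟩
  ext γ
  -- slash both sides of `A * B' = A' * B` by `γ`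
  have h1 : (A * B') ∣[w + w'] (γ : SL(2, ℤ)) = ((χ γ : ℂˣ) : ℂ) • (A * B') := by
    rw [mul_slash_SL2, hA.2.1 γ, hBm'.2.1 γ γ.2]
    ext z
    simp only [Pi.mul_apply, Pi.smul_apply, smul_eq_mul]
    ring
  have h2 : (A' * B) ∣[w' + w] (γ : SL(2, ℤ)) = ((χ' γ : ℂˣ) : ℂ) • (A' * B) := by
    rw [mul_slash_SL2, hA'.2.1 γ, hBm.2.1 γ γ.2]
    ext z
    simp only [Pi.mul_apply, Pi.smul_apply, smul_eq_mul]
    ring
  rw [add_comm w' w, ← hfun, h1] at h2
  have h3 := congrFun h2 z
  simp only [Pi.smul_apply, smul_eq_mul] at h3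
  exact mul_right_cancel₀ hz h3

end Fermat.Agent.S29.K
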