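import Mathlib
import Fermat.Agent.S29.K2Sep

/-!
# S29 block [K], leaf [K2Mul]: the witness classes are closed under products and inverses

* `mul_mem_Mchi` : `x ∈ Mchi N χ`, `y ∈ Mchi N χ'` ⟹ `x * y ∈ Mchi N (χ * χ')`.
* `inv_mem_Mchi` : `0 ≠ x ∈ Mchi N χ`, `χ ^ n = 1` ⟹ `x⁻¹ ∈ Mchi N χ⁻¹`.
* `div_mem_Mchi_one` : `x, y ∈ Mchi N χ`, `y ≠ 0`, `χ ^ n = 1` ⟹ `x / y ∈ Mchi N 1`
  (the input of leaf [K2Div]).
-/

set_option autoImplicit false

namespace Fermat.Agent.S29.K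

open UpperHalfPlane ModularForm CongruenceSubgroup ModularCurve
open scoped MatrixGroups ModularForm Manifold

namespace K2Mul

/-- Powers of a nonzero holomorphic function on `ℍ` are nonzero. -/
theorem pow_ne_zero_of_mdiff {A : ℍ → ℂ} (hA : MDiff A) (hA0 : A ≠ 0) (n : ℕ) : A ^ n ≠ 0 := by
  intro h
  let a : S24.holSub := ⟨A, hA⟩
  have ha : a ^ n = 0 := Subtype.ext h
  have h1 : S24.taylorHom UpperHalfPlane.I a ^ n = 0 := by
    rw [← map_pow, ha, map_zero]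
  have h2 : S24.taylorHom UpperHalfPlane.I a = 0 := pow_eq_zero_iff (n := n) (by
    rintro rfl
    rw [pow_zero] at h1
    exact one_ne_zero h1) |>.mp h1
  have h3 : a = 0 := S24.taylorHom_injective _ (by rw [h2, map_zero])
  exact hA0 (congrArg Subtype.val h3)

end K2Mul

open K2Sep in
/-- **[K2Mul]** The witness classes are closed under products. -/
theorem mul_mem_Mchi {N : ℕ} [NeZero N] {χ χ' : ↥(Gamma0 N) →* ℂˣ}
    (hT : χ (TG N) = 1) (hT' : χ' (TG N) = 1) {x y : LaurentSeries ℂ}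
    (hx : x ∈ Mchi N χ) (hy : y ∈ Mchi N χ') : x * y ∈ Mchi N (χ * χ') := by
  obtain ⟨w, A, B, hA, hB, hB0, hAB⟩ := hx
  obtain ⟨w', A', B', hA', hB', hB0', hAB'⟩ := hy
  have hAn := mem_niceSub_of_mem hT hA
  have hBn := mem_niceSub_of_mem_MF hB
  have hAn' := mem_niceSub_of_mem hT' hA'
  have hBn' := mem_niceSub_of_mem_MF hB'
  have hBm := (S20.mem_MF_iff' (N := N)).mp hB
  have hBm' := (S20.mem_MF_iff' (N := N)).mp hB'
  refine ⟨w + w', A * A', B * B', mul_mem hA hA', S20.mul_mem_MF hB hB', ?_, ?_⟩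
  · intro h
    rcases eq_zero_or_eq_zero_of_mul hBm.1 hBm'.1 h with h1 | h1
    · exact hB0 h1
    · exact hB0' h1
  · rw [qx_mul hBn hBn', qx_mul hAn hAn', ← hAB, ← hAB']
    ring

open K2Sep in
/-- **[K2Mul]** The inverse of a nonzero element of a witness class with multiplier of finite
order lies in the witness class of the inverse multiplier. -/
theorem inv_mem_Mchi {N : ℕ} [NeZero N] {χ : ↥(Gamma0 N) →* ℂˣ} (hT : χ (TG N) = 1)
    {n : ℕ} (hn : 0 < n) (hχ : χ ^ n = 1) {x : LaurentSeries ℂ}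
    (hx : x ∈ Mchi N χ) (h0 : x ≠ 0) : x⁻¹ ∈ Mchi N χ⁻¹ := by
  obtain ⟨w, A, B, hA, hB, hB0, hAB⟩ := hx
  obtain ⟨k, rfl⟩ : ∃ k, n = k + 1 := ⟨n - 1, by omega⟩
  have hAn := mem_niceSub_of_mem hT hA
  have hBn := mem_niceSub_of_mem_MF hB
  have hA0 : A ≠ 0 := by
    intro h
    have h1 : qx A = 0 := (qx_eq_zero_iff hAn).mpr h
    rw [h1] at hAB
    rcases mul_eq_zero.mp hAB with h2 | h2
    · exact h0 h2
    · exact hB0 ((qx_eq_zero_iff hBn).mp h2)
  have hB1 : B ∈ MFchi N w 1 := by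
    rw [MFchi_one_eq]
    exact hB
  have hnum : B * A ^ k ∈ MFchi N (w + k * w) (1 * χ ^ k) := mul_mem hB1 (pow_mem hA k)
  have hχk : (1 : ↥(Gamma0 N) →* ℂˣ) * χ ^ k = χ⁻¹ := by
    apply MonoidHom.ext
    intro γ
    have h1 : χ γ ^ (k + 1) = 1 := by
      have := DFunLike.congr_fun hχ γ
      simpa using this
    have h2 : χ γ ^ k = (χ γ)⁻¹ := eq_inv_of_mul_eq_one_left (by rw [← pow_succ]; exact h1)
    simpa using h2
  rw [hχk] at hnum
  have hden : A ^ (k + 1) ∈ S20.MF N (w + k * w) := by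
    have h := pow_mem hA (k + 1)
    rw [hχ, MFchi_one_eq] at h
    have hw : ((k + 1 : ℕ) : ℤ) * w = w + k * w := by push_cast; ring
    rw [hw] at h
    exact h
  have hAkn : A ^ k ∈ S23.niceSub := S23.niceSub.pow_mem hAn k
  refine ⟨w + k * w, B * A ^ k, A ^ (k + 1), hnum, hden,
    K2Mul.pow_ne_zero_of_mdiff hA.1 hA0 (k + 1), ?_⟩
  rw [pow_succ, qx_mul hAkn hAn, qx_mul hBn hAkn, ← hAB]
  field_simp

/-- Input of leaf [K2Div]: quotients of two elements of one witness class have trivial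
multiplier. -/
theorem div_mem_Mchi_one {N : ℕ} [NeZero N] {χ : ↥(Gamma0 N) →* ℂˣ} (hT : χ (TG N) = 1)
    {n : ℕ} (hn : 0 < n) (hχ : χ ^ n = 1) {x y : LaurentSeries ℂ}
    (hx : x ∈ Mchi N χ) (hy : y ∈ Mchi N χ) (h0 : y ≠ 0) : x / y ∈ Mchi N 1 := by
  have hT' : χ⁻¹ (TG N) = 1 := by
    rw [MonoidHom.inv_apply, hT, inv_one]
  have h := mul_mem_Mchi hT hT' hx (inv_mem_Mchi hT hn hχ hy h0)
  have h1 : χ * χ⁻¹ = 1 := by
    apply MonoidHom.ext
    intro γ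
    simp
  rw [h1] at h
  rw [div_eq_mul_inv]
  exact h

end Fermat.Agent.S29.K
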