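/-
S29 block [K] — KPlanDefs.lean (owner: helper56; ruling of the [K] sub-captain helper98, 05:47Z).

Definitions and leaf statements of the TOP ASSEMBLY of block [K]
(`KStatement N p` of `S29/Defs.lean` from named leaves; the proof is in `S29/KPlan.lean`).

* `zetaU p`, `chiU p u`  — `ζ_p = exp(2πi/p)` and the character `γ ↦ ζ_p^{u γ}` of `Γ₀(N)`;
* `Wit N p u y`          — `y ∈ ℚ̄((q))` is a witness for `u`: `y ≠ 0` and its base change to `ℂ`
                           lies in the witness class `K.Mchi N (chiU p u)`;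
* leaf statements `WEStatement`, `WQStatement`, `WHStatement` (descent, ramification, Hecke) and
  `K1Statement`, `K2SubStatement`, `K2VMStatement`, `K2MulStatement`, `K2DivStatement`,
  `K2SepStatement` (= rows of the (K1)/(K2) table, board #1922, verbatim with explicit binders).
-/
import Mathlib
import Fermat.Agent.S29.Defs
import Fermat.Agent.S29.KDefs
import Fermat.Agent.S24.AnDefs
import Fermat.Agent.S24.Rot

set_option autoImplicit false

open ModularCurve AlgebraicCurve CongruenceSubgroup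
open scoped MatrixGroups

namespace Fermat.Agent.S29.KPlan

open Fermat.Agent.S29.K
open Fermat.Agent.S41 (Lpar)
open Fermat.Agent.S24 (embC rotHom)

noncomputable section

/-- `ζ_p = exp(2πi/p)` as a unit of `ℂ`. -/
def zetaU (p : ℕ) : ℂˣ :=
  Units.mk0 (Complex.exp (2 * Real.pi * Complex.I / p)) (Complex.exp_ne_zero _)

@[simp]
theorem coe_zetaU (p : ℕ) : ((zetaU p : ℂˣ) : ℂ) = Complex.exp (2 * Real.pi * Complex.I / p) :=
  rfl

theorem zetaU_pow (p : ℕ) (hp : p ≠ 0) : zetaU p ^ p = 1 := by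
  apply Units.ext
  rw [Units.val_pow_eq_pow_val, coe_zetaU, Units.val_one]
  exact (Complex.isPrimitiveRoot_exp p hp).pow_eq_one

theorem zetaU_zpow_eq_one_iff (p : ℕ) (hp : p ≠ 0) (k : ℤ) :
    zetaU p ^ k = 1 ↔ (p : ℤ) ∣ k := by
  have h := (Complex.isPrimitiveRoot_exp p hp).zpow_eq_one_iff_dvd k
  rw [← h, Units.ext_iff, Units.val_zpow_eq_zpow_val, coe_zetaU, Units.val_one]

theorem norm_zetaU_zpow (p : ℕ) (k : ℤ) : ‖((zetaU p ^ k : ℂˣ) : ℂ)‖ = 1 := by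
  rw [Units.val_zpow_eq_zpow_val, coe_zetaU, norm_zpow]
  have h : ‖Complex.exp (2 * Real.pi * Complex.I / p)‖ = 1 := by
    have e : (2 * Real.pi * Complex.I / p : ℂ) = ((2 * Real.pi / p : ℝ) : ℂ) * Complex.I := by
      push_cast
      ring
    rw [e, Complex.norm_exp_ofReal_mul_I]
  rw [h, one_zpow]

/-- The character `χ_u : γ ↦ ζ_p^{u γ}` of `Γ₀(N)` attached to `u : Γ₀(N) → ℤ`. -/
def chiU {N : ℕ} (p : ℕ) (u : Additive (Gamma0 N) →+ ℤ) : ↥(Gamma0 N) →* ℂˣ where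
  toFun γ := zetaU p ^ u (Additive.ofMul γ)
  map_one' := by
    rw [ofMul_one, map_zero, zpow_zero]
  map_mul' a b := by
    rw [ofMul_mul, map_add, zpow_add]

theorem chiU_apply {N : ℕ} (p : ℕ) (u : Additive (Gamma0 N) →+ ℤ) (γ : ↥(Gamma0 N)) :
    chiU p u γ = zetaU p ^ u (Additive.ofMul γ) := rfl

theorem chiU_zero {N : ℕ} (p : ℕ) : chiU (N := N) p 0 = 1 := by
  ext γ
  rw [chiU_apply, AddMonoidHom.zero_apply, zpow_zero, MonoidHom.one_apply]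

theorem chiU_add {N : ℕ} (p : ℕ) (u u' : Additive (Gamma0 N) →+ ℤ) :
    chiU p (u + u') = chiU p u * chiU p u' := by
  ext γ
  rw [MonoidHom.mul_apply, chiU_apply, chiU_apply, chiU_apply, AddMonoidHom.add_apply, zpow_add]

theorem chiU_pow {N : ℕ} (p : ℕ) (hp : p ≠ 0) (u : Additive (Gamma0 N) →+ ℤ) :
    chiU p u ^ p = 1 := by
  ext γ
  rw [MonoidHom.pow_apply, chiU_apply, MonoidHom.one_apply, ← zpow_natCast, ← zpow_mul, mul_comm,
    zpow_mul, zpow_natCast, zetaU_pow p hp, one_zpow]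

theorem chiU_eq_one_iff {N : ℕ} (p : ℕ) (hp : p ≠ 0) (u : Additive (Gamma0 N) →+ ℤ) :
    chiU p u = 1 ↔ ∀ γ : ↥(Gamma0 N), (p : ℤ) ∣ u (Additive.ofMul γ) := by
  constructor
  · intro h γ
    have h1 := DFunLike.congr_fun h γ
    rw [chiU_apply, MonoidHom.one_apply] at h1
    exact (zetaU_zpow_eq_one_iff p hp _).mp h1
  · intro h
    ext γ
    rw [chiU_apply, MonoidHom.one_apply, (zetaU_zpow_eq_one_iff p hp _).mpr (h γ)]

theorem norm_chiU {N : ℕ} (p : ℕ) (u : Additive (Gamma0 N) →+ ℤ) (γ : ↥(Gamma0 N)) :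
    ‖((chiU p u γ : ℂˣ) : ℂ)‖ = 1 :=
  norm_zetaU_zpow p _

/-- `χ_u` is trivial on parabolic elements (and on `±1`) for `u ∈ Lpar N`. -/
theorem chiU_eq_one_of_trace {N : ℕ} (p : ℕ) (u : Lpar N) (γ : ↥(Gamma0 N))
    (hγ : ((γ : SL(2, ℤ)) : Matrix (Fin 2) (Fin 2) ℤ).trace ^ 2 = 4) :
    chiU p (u : Additive (Gamma0 N) →+ ℤ) γ = 1 := by
  rw [chiU_apply, u.2 γ hγ, zpow_zero]

/-- `χ_u(γ) = 1` for upper triangular `γ ∈ Γ₀(N)` (`u ∈ Lpar N`): the `hpar` of the table. -/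
theorem chiU_eq_one_of_lower_left {N : ℕ} (p : ℕ) (u : Lpar N) (γ : ↥(Gamma0 N))
    (hγ : (γ : SL(2, ℤ)) 1 0 = 0) : chiU p (u : Additive (Gamma0 N) →+ ℤ) γ = 1 := by
  apply chiU_eq_one_of_trace
  have hdet := (γ : SL(2, ℤ)).det_coe
  rw [Matrix.det_fin_two] at hdet
  have h10 : ((γ : SL(2, ℤ)) : Matrix (Fin 2) (Fin 2) ℤ) 1 0 = 0 := hγ
  rw [h10, mul_zero, sub_zero] at hdet
  rw [Matrix.trace_fin_two]
  rcases Int.eq_one_or_neg_one_of_mul_eq_one' hdet with ⟨h1, h2⟩ | ⟨h1, h2⟩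
  · rw [h1, h2]; norm_num
  · rw [h1, h2]; norm_num

theorem chiU_TG {N : ℕ} (p : ℕ) (u : Lpar N) :
    chiU p (u : Additive (Gamma0 N) →+ ℤ) (TG N) = 1 :=
  chiU_eq_one_of_lower_left p u (TG N) (by simp [TG, ModularGroup.T])

/-- Torsion elements of `Γ₀(N)` are killed by `χ_u` (for any `u`). -/
theorem chiU_eq_one_of_pow_eq_one {N : ℕ} (p : ℕ) (u : Additive (Gamma0 N) →+ ℤ)
    (γ : ↥(Gamma0 N)) {n : ℕ} (hn : n ≠ 0) (hγ : γ ^ n = 1) : chiU p u γ = 1 := by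
  have h1 : (n : ℤ) * u (Additive.ofMul γ) = 0 := by
    have h2 : u (Additive.ofMul (γ ^ n)) = n • u (Additive.ofMul γ) := by
      rw [ofMul_pow, map_nsmul]
    rw [hγ, ofMul_one, map_zero] at h2
    rw [← nsmul_eq_mul]
    exact h2.symm
  have h3 : u (Additive.ofMul γ) = 0 := by
    rcases mul_eq_zero.mp h1 with h | h
    · exact absurd (by exact_mod_cast h) hn
    · exact h
  rw [chiU_apply, h3, zpow_zero]

/-- `y ∈ ℚ̄((q))` is a WITNESS for `u`: it is nonzero and its base change to `ℂ` is the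
`q`-expansion of a quotient `A / B` of forms with `A` of multiplier `χ_u` (`K.Mchi`). -/
def Wit (N p : ℕ) (u : Additive (Gamma0 N) →+ ℤ) (y : LaurentSeries Qb) : Prop :=
  y ≠ 0 ∧ coeffMap embC y ∈ Mchi N (chiU p u)

/-- The graph of `θ`: `x = [(1/p)·div(y^p)]` for a witness `y` of `u`. -/
def Theta (N p : ℕ) (u : Additive (Gamma0 N) →+ ℤ) (x : JZero N) : Prop :=
  ∃ (y : LaurentSeries Qb) (f : ↥(modularFunctionFieldBar N))
    (D : Divisor.degZero (K := Qb) (F := ↥(modularFunctionFieldBar N))),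
    Wit N p u y ∧ (f : LaurentSeries Qb) = y ^ p ∧
    (∀ P : Place Qb ↥(modularFunctionFieldBar N),
      (p : ℤ) * (D : Divisor Qb ↥(modularFunctionFieldBar N)) P = P.ord f) ∧
    x = Pic0.mk D

/-! ### Leaf statements of the top assembly -/

/-- **(WE)** existence of a `ℚ̄`-rational element of the descent space `V(χ_u)`
(owner: the `ℂ`-side chain: Eisenstein + Sturm + 𝒫 + p-th roots + Aut(ℂ/ℚ̄)-echelon). -/
def WEStatement (N p : ℕ) : Prop :=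
  ∀ u : Lpar N, ∃ y : LaurentSeries Qb, y ≠ 0 ∧
    coeffMap embC y ∈ VchiSub N (chiU p (u : Additive (Gamma0 N) →+ ℤ))

/-- **(WQ)** = [K-Q]: for an existence-type witness (`y·Δ = q-expansion of F`, `F` of weight `12`
with multiplier `χ_u`), the function `y^p ∈ F̄_N` has all its orders divisible by `p`, at EVERY
place of `F̄_N` (S24 dictionary: elliptic points and cusps). -/
def WQStatement (N p : ℕ) : Prop :=
  ∀ (u : Lpar N) (y : LaurentSeries Qb), y ≠ 0 →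
    coeffMap embC y ∈ Vchi N (chiU p (u : Additive (Gamma0 N) →+ ℤ)) →
    ∀ f : ↥(modularFunctionFieldBar N), (f : LaurentSeries Qb) = y ^ p →
      ∀ P : Place Qb ↥(modularFunctionFieldBar N), (p : ℤ) ∣ P.ord f

/-- **(WH)** = (K6): Hecke products of witnesses.  For a prime `ℓ ∤ N` and a primitive `ℓ`-th
root of unity `ζ ∈ ℚ̄`, a witness `y` for `u` yields a witness `y'` for `T_ℓ u` with
`y'(q^ℓ) = y(q^{ℓ²}) · ∏_{i<ℓ} y(ζ^i q)`. -/
def WHStatement (N p : ℕ) : Prop :=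
  ∀ (ℓ : ℕ) (hℓ : ℓ.Prime) (hℓN : ¬ ℓ ∣ N), ℓ ≠ p →
    ∀ (ζ : Qb) (_ : IsPrimitiveRoot ζ ℓ) (hz : ∀ i : ℕ, ζ ^ i ≠ 0)
      (u : Lpar N) (y : LaurentSeries Qb),
      Wit N p (u : Additive (Gamma0 N) →+ ℤ) y →
      ∃ y' : LaurentSeries Qb,
        Wit N p ((heckeLpar N ℓ hℓ hℓN u : Lpar N) : Additive (Gamma0 N) →+ ℤ) y' ∧
        (haveI : NeZero ℓ := ⟨hℓ.ne_zero⟩
         qExpand Qb ℓ y' = qExpand Qb ℓ (qExpand Qb ℓ y) *
          ∏ i ∈ Finset.range ℓ, rotHom (ζ ^ i) (hz i) y)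

/-- **(K1)** `Mchi N 1 = F_ℂ` (row [K1, top] of #1922). -/
def K1Statement (N : ℕ) : Prop :=
  Mchi N 1 = (FC N : Set (LaurentSeries ℂ))

/-- **(K2Sub-a)** `VchiSub N χ = Vchi N χ` when `χ(T) = 1`. -/
def K2SubStatement (N : ℕ) : Prop :=
  ∀ χ : ↥(Gamma0 N) →* ℂˣ, χ (TG N) = 1 →
    (VchiSub N χ : Set (LaurentSeries ℂ)) = Vchi N χ

/-- **(K2Sub-b)** `Vchi N χ ⊆ Mchi N χ`. -/
def K2VMStatement (N : ℕ) : Prop :=
  ∀ χ : ↥(Gamma0 N) →* ℂˣ, Vchi N χ ⊆ Mchi N χ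

/-- **(K2Mul)** products of witnesses. -/
def K2MulStatement (N : ℕ) : Prop :=
  ∀ χ χ' : ↥(Gamma0 N) →* ℂˣ, χ (TG N) = 1 → χ' (TG N) = 1 →
    ∀ x y : LaurentSeries ℂ, x ∈ Mchi N χ → y ∈ Mchi N χ' → x * y ∈ Mchi N (χ * χ')

/-- **(K2Div)** two witnesses with the same multiplier differ by an element of `F_ℂ`. -/
def K2DivStatement (N : ℕ) : Prop :=
  ∀ χ : ↥(Gamma0 N) →* ℂˣ, χ (TG N) = 1 → ∀ n : ℕ, 0 < n → χ ^ n = 1 →
    ∀ x y : LaurentSeries ℂ, x ∈ Mchi N χ → y ∈ Mchi N χ → y ≠ 0 → x / y ∈ FC N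

/-- **(K2Sep)** a nonzero witness determines its multiplier. -/
def K2SepStatement (N : ℕ) : Prop :=
  ∀ χ χ' : ↥(Gamma0 N) →* ℂˣ, χ (TG N) = 1 → χ' (TG N) = 1 →
    ∀ x : LaurentSeries ℂ, x ∈ Mchi N χ → x ∈ Mchi N χ' → x ≠ 0 → χ = χ'

end

end Fermat.Agent.S29.KPlan
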