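import Mathlib
import Fermat.Agent.S29.KPlanDefs
import Fermat.Agent.S29.K2Mul

/-!
# S29 block [K]: the leaves [K2Sep], [K2Mul] in the shape of the top assembly (`KPlanDefs`)
-/

set_option autoImplicit false

namespace Fermat.Agent.S29.K.K2Stmt

open CongruenceSubgroup

/-- **(K2Sep)** in the shape of `KPlan.K2SepStatement`. -/
theorem k2SepStatement (N : ℕ) [NeZero N] : KPlan.K2SepStatement N :=
  fun _ _ hT hT' _ hx hx' h0 => eq_of_mem_Mchi_of_mem_Mchi hT hT' hx hx' h0

/-- **(K2Mul)** in the shape of `KPlan.K2MulStatement`. -/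
theorem k2MulStatement (N : ℕ) [NeZero N] : KPlan.K2MulStatement N :=
  fun _ _ hT hT' _ _ hx hy => mul_mem_Mchi hT hT' hx hy

/-- **(K2Div)** in the shape of `KPlan.K2DivStatement`, from **(K1)**. -/
theorem k2DivStatement_of_k1 (N : ℕ) [NeZero N] (h1 : KPlan.K1Statement N) :
    KPlan.K2DivStatement N := by
  intro χ hT n hn hχ x y hx hy h0
  have h := div_mem_Mchi_one hT hn hχ hx hy h0
  have h1' : Mchi N 1 = (FC N : Set (LaurentSeries ℂ)) := h1
  rw [h1'] at h
  exact h

end Fermat.Agent.S29.K.K2Stmt
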