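import Mathlib
import Fermat.Agent.S29.KPlanDefs
import Fermat.Agent.S29.K2Stmt
import Fermat.Agent.S29.K1Glue
import Fermat.Agent.S29.K1Gen
import Fermat.Agent.S29.K1Deg
import Fermat.Agent.S29.K1Rank

/-!
# S29 block [K], leaf [K2Div]: two witnesses with the same multiplier differ by an element of `F_ℂ`

`div_mem_FC`: for `x, y ∈ Mchi N χ`, `y ≠ 0`, `χ` of finite order and trivial at `T`, the quotient
`x / y` lies in `FC N`.  (`x / y ∈ Mchi N 1` by [K2Mul], and `Mchi N 1 = FC N` is (K1), assembled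
here from the landed leaves K1Gen, K1Deg, K1Rank through `K1Glue.Mchi_one_eq_of`.)
-/

set_option autoImplicit false

namespace Fermat.Agent.S29.K

open CongruenceSubgroup

namespace K2Div

/-- **(K1)** `Mchi N 1 = F_ℂ`, assembled from the landed leaves. -/
theorem mchi_one_eq_FC (N : ℕ) [NeZero N] : Mchi N 1 = (FC N : Set (LaurentSeries ℂ)) :=
  Mchi_one_eq_of (fun d _ hd => jd_mem_Mchi_one d hd)
    (fun _ hx => exists_polynomial_of_mem_Mchi_one hx) exists_linearIndependent_FC

/-- **(K1)** in the shape of `KPlan.K1Statement`. -/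
theorem k1Statement (N : ℕ) [NeZero N] : KPlan.K1Statement N := mchi_one_eq_FC N

/-- **(K2Div)** in the shape of `KPlan.K2DivStatement`. -/
theorem k2DivStatement (N : ℕ) [NeZero N] : KPlan.K2DivStatement N :=
  K2Stmt.k2DivStatement_of_k1 N (k1Statement N)

end K2Div

/-- **[K2Div]** Two witnesses with the same multiplier differ by an element of `F_ℂ`. -/
theorem div_mem_FC {N : ℕ} [NeZero N] {χ : ↥(Gamma0 N) →* ℂˣ} (hT : χ (TG N) = 1)
    {n : ℕ} (hn : 0 < n) (hχ : χ ^ n = 1) {x y : LaurentSeries ℂ}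
    (hx : x ∈ Mchi N χ) (hy : y ∈ Mchi N χ) (h0 : y ≠ 0) : x / y ∈ FC N :=
  K2Div.k2DivStatement N χ hT n hn hχ x y hx hy h0

end Fermat.Agent.S29.K
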