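/-
S29 block [K], leaf [K2Sub] of helper17's table — K2Sub.lean (helper93).

* `coe_VchiSub` : when `χ(T) = 1`, the descent set `Vchi N χ` (q-expansions of `F / Δ`,
  `F` of weight `12` with multiplier `χ`) is already a `ℂ`-subspace of `ℂ((q))`, i.e. it is the
  carrier of its span `VchiSub N χ`;
* `Vchi_subset_Mchi` : `V(χ)` is contained in the witness class `Mchi N χ`
  (take `w = 12`, `A = F`, `B = Δ`).

By-products (public, used by the consumers of `V(χ)`): `mem_niceSub_of_MFchi`,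
`discriminant_mem_MF`, `qx_zero'`, `qx_add'`, `qx_smul'`, `zero_mem_Vchi`, `add_mem_Vchi`,
`smul_mem_Vchi`.
-/
import Mathlib
import Fermat.Agent.S29.KDefs

set_option autoImplicit false

namespace Fermat.Agent.S29.K

open UpperHalfPlane ModularForm CongruenceSubgroup ModularCurve
open scoped MatrixGroups ModularForm Manifold

namespace K2Sub

variable {N : ℕ}

/-- A form with multiplier `χ`, `χ(T) = 1`, is a nice function (`1`-periodic, holomorphic, bounded
at `i∞`). -/
theorem mem_niceSub_of_MFchi {w : ℤ} {χ : ↥(Gamma0 N) →* ℂˣ} (hT : χ (TG N) = 1) {A : ℍ → ℂ}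
    (hA : A ∈ MFchi N w χ) : A ∈ S23.niceSub := by
  obtain ⟨h1, h2, h3⟩ := hA
  refine ⟨?_, h1, ?_⟩
  · intro z
    by_cases hz : 0 < z.im
    · have hz' : 0 < (z + 1).im := by simpa using hz
      simp only [Function.comp_apply, ofComplex_apply_of_im_pos hz', ofComplex_apply_of_im_pos hz]
      have h := congrFun (h2 (TG N)) ⟨z, hz⟩
      rw [hT] at h
      have hTs : ((TG N : ↥(Gamma0 N)) : SL(2, ℤ)) = ModularGroup.T := rfl
      rw [hTs, ModularForm.SL_slash_apply] at h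
      have hd : denom (ModularGroup.T : SL(2, ℤ)) (⟨z, hz⟩ : ℍ) = 1 := by
        rw [ModularGroup.denom_apply]
        simp [ModularGroup.T]
      rw [hd, one_zpow, mul_one, Units.val_one, Pi.smul_apply, one_smul] at h
      rw [← h]
      congr 1
      apply UpperHalfPlane.ext
      rw [UpperHalfPlane.modular_T_smul]
      simp [add_comm]
    · have hz0 : z.im ≤ 0 := not_lt.mp hz
      have hz' : (z + 1).im ≤ 0 := by simpa using hz0
      simp [ofComplex_apply_of_im_nonpos hz', ofComplex_apply_of_im_nonpos hz0]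
  · have h := h3 1
    rwa [SlashAction.slash_one] at h

/-- The discriminant is a modular form of weight `12` and level `Γ₀(N)`. -/
theorem discriminant_mem_MF (N : ℕ) [NeZero N] : ModularForm.discriminant ∈ S20.MF N 12 := by
  apply S20.LF_le_MF N 12
  rw [S20.mem_LF_iff]
  refine ⟨CuspForm.discriminant.holo', fun γ => ?_, ?_⟩
  · exact SlashInvariantForm.slash_action_eqn CuspForm.discriminant _ ⟨γ, rfl⟩
  · exact ModularForm.discriminant_isZeroAtImInfty.isBoundedAtImInfty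

/-- The discriminant is not the zero function. -/
theorem discriminant_ne_zero' : (ModularForm.discriminant : ℍ → ℂ) ≠ 0 := by
  intro h
  exact ModularForm.discriminant_ne_zero UpperHalfPlane.I (congrFun h _)

theorem qx_zero' : qx (0 : ℍ → ℂ) = 0 := by
  unfold qx
  rw [qExpansion_zero, map_zero]

theorem qx_add' {A B : ℍ → ℂ} (hA : A ∈ S23.niceSub) (hB : B ∈ S23.niceSub) :
    qx (A + B) = qx A + qx B := by
  unfold qx
  rw [qExpansion_add (S23.analyticAt_cuspFunction_of_mem_niceSub hA)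
    (S23.analyticAt_cuspFunction_of_mem_niceSub hB), map_add]

theorem qx_smul' (c : ℂ) {A : ℍ → ℂ} (hA : A ∈ S23.niceSub) :
    qx (c • A) = c • qx A := by
  unfold qx
  rw [qExpansion_smul (S23.analyticAt_cuspFunction_of_mem_niceSub hA)]
  rw [← HahnSeries.C_mul_eq_smul, PowerSeries.smul_eq_C_mul, map_mul]
  congr 1
  exact HahnSeries.ofPowerSeries_C c

theorem zero_mem_Vchi (N : ℕ) (χ : ↥(Gamma0 N) →* ℂˣ) : (0 : LaurentSeries ℂ) ∈ Vchi N χ :=
  ⟨0, zero_mem _, by rw [zero_mul, qx_zero']⟩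

theorem add_mem_Vchi {χ : ↥(Gamma0 N) →* ℂˣ} (hT : χ (TG N) = 1) {x y : LaurentSeries ℂ}
    (hx : x ∈ Vchi N χ) (hy : y ∈ Vchi N χ) : x + y ∈ Vchi N χ := by
  obtain ⟨F, hF, hxF⟩ := hx
  obtain ⟨G, hG, hyG⟩ := hy
  refine ⟨F + G, add_mem hF hG, ?_⟩
  rw [add_mul, hxF, hyG, qx_add' (mem_niceSub_of_MFchi hT hF) (mem_niceSub_of_MFchi hT hG)]

theorem smul_mem_Vchi {χ : ↥(Gamma0 N) →* ℂˣ} (hT : χ (TG N) = 1) (c : ℂ) {x : LaurentSeries ℂ}
    (hx : x ∈ Vchi N χ) : c • x ∈ Vchi N χ := by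
  obtain ⟨F, hF, hxF⟩ := hx
  refine ⟨c • F, Submodule.smul_mem _ c hF, ?_⟩
  rw [← HahnSeries.C_mul_eq_smul, mul_assoc, hxF, HahnSeries.C_mul_eq_smul,
    qx_smul' c (mem_niceSub_of_MFchi hT hF)]

end K2Sub

variable {N : ℕ}

/-- **[K2Sub]** When `χ(T) = 1`, the set `Vchi N χ` is a `ℂ`-subspace: it is the carrier of
`VchiSub N χ`. -/
theorem coe_VchiSub (χ : ↥(Gamma0 N) →* ℂˣ) (hT : χ (TG N) = 1) :
    (VchiSub N χ : Set (LaurentSeries ℂ)) = Vchi N χ := by
  apply Set.Subset.antisymm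
  · intro x hx
    have hx' : x ∈ Submodule.span ℂ (Vchi N χ) := hx
    induction hx' using Submodule.span_induction with
    | mem y hy => exact hy
    | zero => exact K2Sub.zero_mem_Vchi N χ
    | add y z _ _ hy hz => exact K2Sub.add_mem_Vchi hT (hy ‹_›) (hz ‹_›)
    | smul c y _ hy => exact K2Sub.smul_mem_Vchi hT c (hy ‹_›)
  · exact Submodule.subset_span

/-- **[K2Sub]** `V(χ) ⊆ M_χ`: the witness is `(w, A, B) = (12, F, Δ)`. -/
theorem Vchi_subset_Mchi [NeZero N] (χ : ↥(Gamma0 N) →* ℂˣ) : Vchi N χ ⊆ Mchi N χ := by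
  rintro x ⟨F, hF, hx⟩
  exact ⟨12, F, ModularForm.discriminant, hF, K2Sub.discriminant_mem_MF N,
    K2Sub.discriminant_ne_zero', hx⟩

end Fermat.Agent.S29.K
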