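/-
S29 / S42, block [K], leaf (K6)-multiplier (owner: helper37).

For a function `w` on the upper half plane with multiplier `c` on `Γ₀(N)`
(`w (γ • z) = c γ * w z`), the product `W z = ∏ x, w (α_x • z)` over the prelude coset
representatives `α_x = heckeRep q x` of `T_q` (`q ∤ N`) has multiplier
`γ ↦ ∏ x, c (γ'_x)`, where `α_x γ = γ'_x α_{σ x}` is the coset data of `S16/HeckeHom`.
For `c γ = ζ ^ (u γ)` with `u : Γ₀(N) → ℤ` additive this is `ζ ^ (heckeTHom N q hqN u γ)`: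
the multiplier of the `T_q`-product is the `T_q`-transform of the character.
-/
import Mathlib
import Fermat.Agent.S16.HeckeHom

set_option autoImplicit false

noncomputable section

namespace Fermat.Agent.S29.HeckeMult

open CongruenceSubgroup Matrix.SpecialLinearGroup UpperHalfPlane
open scoped MatrixGroups
open P2MW.S_ModularForm_heckeT_slash_eq_self_of_mem_Gamma0.ModularForm.HeckeSlashInvariance
open Fermat.Agent.S16

variable (N q : ℕ) [Fact q.Prime] (hqN : ¬ q ∣ N)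

/-- the `SL(2,ℤ)`-action on `ℍ` is the `GL(2,ℝ)`-action through `mapGL ℝ`. -/
theorem mapGL_smul (g : SL(2, ℤ)) (z : ℍ) : (mapGL ℝ g) • z = g • z := rfl

/-- moving `γ ∈ Γ₀(N)` through the coset representative `α_x`. -/
theorem heckeRep_smul_smul (γ : Gamma0 N) (x : OnePoint (ZMod q)) (z : ℍ) :
    heckeRep q x • ((γ : SL(2, ℤ)) • z) =
      (((tData N q hqN).part γ x : Gamma0 N) : SL(2, ℤ)) •
        (heckeRep q ((tData N q hqN).perm γ x) • z) := by
  rw [← mapGL_smul, ← mapGL_smul, ← mul_smul, ← mul_smul, tData_spec hqN γ x]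

variable {M : Type*} [CommMonoid M]

/-- **(K6)-multiplier, general form.** -/
theorem prod_heckeRep_smul (w : ℍ → M) (c : Gamma0 N → M)
    (hw : ∀ (γ : Gamma0 N) (z : ℍ), w ((γ : SL(2, ℤ)) • z) = c γ * w z)
    (γ : Gamma0 N) (z : ℍ) :
    ∏ x : OnePoint (ZMod q), w (heckeRep q x • ((γ : SL(2, ℤ)) • z)) =
      (∏ x : OnePoint (ZMod q), c ((tData N q hqN).part γ x)) *
        ∏ x : OnePoint (ZMod q), w (heckeRep q x • z) := by
  have h1 : ∀ x : OnePoint (ZMod q), w (heckeRep q x • ((γ : SL(2, ℤ)) • z)) =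
      c ((tData N q hqN).part γ x) * w (heckeRep q ((tData N q hqN).perm γ x) • z) := by
    intro x
    rw [heckeRep_smul_smul N q hqN γ x z, hw]
  simp only [h1, Finset.prod_mul_distrib]
  congr 1
  exact Equiv.prod_comp ((tData N q hqN).perm γ) (fun x => w (heckeRep q x • z))

/-- a product of integer powers of a unit is the power with the summed exponent. -/
theorem prod_units_zpow {ι : Type*} (s : Finset ι) (ζ : Mˣ) (f : ι → ℤ) :
    ∏ i ∈ s, ((ζ ^ f i : Mˣ) : M) = ((ζ ^ ∑ i ∈ s, f i : Mˣ) : M) := by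
  classical
  induction s using Finset.induction_on with
  | empty => simp
  | insert a s ha ih =>
    rw [Finset.prod_insert ha, Finset.sum_insert ha, ih, zpow_add, Units.val_mul]

/-- **(K6)-multiplier, character form.**  If `w` has the multiplier `γ ↦ ζ ^ u γ` on `Γ₀(N)`
(`u : Γ₀(N) → ℤ` additive, `ζ` a unit), then `W z = ∏ x, w (α_x • z)` has the multiplier
`γ ↦ ζ ^ (T_q u) γ`, `T_q = S16.heckeTHom`. -/
theorem prod_heckeRep_smul_zpow (w : ℍ → M) (ζ : Mˣ) (u : Additive (Gamma0 N) →+ ℤ)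
    (hw : ∀ (γ : Gamma0 N) (z : ℍ),
      w ((γ : SL(2, ℤ)) • z) = ((ζ ^ u (Additive.ofMul γ) : Mˣ) : M) * w z)
    (γ : Gamma0 N) (z : ℍ) :
    ∏ x : OnePoint (ZMod q), w (heckeRep q x • ((γ : SL(2, ℤ)) • z)) =
      ((ζ ^ heckeTHom N q hqN u (Additive.ofMul γ) : Mˣ) : M) *
        ∏ x : OnePoint (ZMod q), w (heckeRep q x • z) := by
  rw [prod_heckeRep_smul N q hqN w (fun γ => ((ζ ^ u (Additive.ofMul γ) : Mˣ) : M)) hw γ z,
    heckeTHom_apply, prod_units_zpow]

/-- the same for complex-valued functions and a nonzero complex number `ζ`. -/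
theorem prod_heckeRep_smul_zpow_complex (w : ℍ → ℂ) {ζ : ℂ} (hζ : ζ ≠ 0)
    (u : Additive (Gamma0 N) →+ ℤ)
    (hw : ∀ (γ : Gamma0 N) (z : ℍ),
      w ((γ : SL(2, ℤ)) • z) = ζ ^ u (Additive.ofMul γ) * w z)
    (γ : Gamma0 N) (z : ℍ) :
    ∏ x : OnePoint (ZMod q), w (heckeRep q x • ((γ : SL(2, ℤ)) • z)) =
      ζ ^ heckeTHom N q hqN u (Additive.ofMul γ) *
        ∏ x : OnePoint (ZMod q), w (heckeRep q x • z) := by
  have h := prod_heckeRep_smul_zpow N q hqN w (Units.mk0 ζ hζ) u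
    (fun γ z => by rw [hw γ z]; simp) γ z
  rw [h]
  simp

include hqN in
/-- the `T_q`-product of a `Γ₀(N)`-invariant function is `Γ₀(N)`-invariant. -/
theorem prod_heckeRep_smul_of_invariant (w : ℍ → M)
    (hw : ∀ (γ : Gamma0 N) (z : ℍ), w ((γ : SL(2, ℤ)) • z) = w z)
    (γ : Gamma0 N) (z : ℍ) :
    ∏ x : OnePoint (ZMod q), w (heckeRep q x • ((γ : SL(2, ℤ)) • z)) =
      ∏ x : OnePoint (ZMod q), w (heckeRep q x • z) := by
  rw [prod_heckeRep_smul N q hqN w (fun _ => 1) (fun γ z => by rw [hw γ z, one_mul]) γ z]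
  simp

end Fermat.Agent.S29.HeckeMult
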