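/-
S29 block [K], leaf (K6) — HeckeProd.lean (helper96): ANALYTIC SIDE of the Hecke product
`W z = ∏_x w (α_x • z)` over the prelude coset representatives `α_x = heckeRep q x`
(`x : OnePoint (ZMod q)`); the multiplier of `W` is in `S29/HeckeMult.lean` (helper37).

* `mdifferentiable_prod_heckeRep` : `W` is holomorphic on `ℍ` if `w` is;
* `isBigO_prod_heckeRep`          : if every `SL₂(ℤ)`-translate of `w` is `O(exp (2π n im z))` at
                                    `i∞` (meromorphic at every cusp), so is every translate of `W`;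
* `exists_isBoundedAtImInfty_prod_heckeRep` : the same in the `S24` currency
                                    `∃ k, IsBoundedAtImInfty (Δ ^ k * w ∘ g)`;
* conversion lemmas between the two currencies.
-/
import Mathlib
import Fermat.Agent.S29.HeckeMult
import Fermat.Agent.S23.Distinct

set_option autoImplicit false

noncomputable section

namespace Fermat.Agent.S29.HeckeProd

open CongruenceSubgroup UpperHalfPlane Matrix.SpecialLinearGroup Fermat.Agent.S16 Filter
open scoped MatrixGroups Manifold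
open P2MW.S_ModularForm_heckeT_slash_eq_self_of_mem_Gamma0.ModularForm.HeckeSlashInvariance
open ModularForm

local notation "Δ" => ModularForm.discriminant

/-! ### The coset representatives on `ℍ` -/

theorem det_heckeRep_pos (q : ℕ) [NeZero q] (x : OnePoint (ZMod q)) :
    0 < ((heckeRep q x).det : ℝ) := by
  induction x using OnePoint.rec with
  | infty => exact det_heckeDiagMatrix_pos q
  | coe j => exact det_heckeMatrix_pos q j.val

theorem im_heckeRep_infty_smul (q : ℕ) [NeZero q] (z : ℍ) :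
    (heckeRep q (OnePoint.infty) • z).im = q * z.im := by
  have h := coe_heckeDiagMatrix_smul (NeZero.ne q) z
  have h2 := congrArg Complex.im h
  rw [UpperHalfPlane.coe_im] at h2
  change (heckeDiagMatrix q • z).im = q * z.im
  rw [h2]
  simp

theorem im_heckeRep_coe_smul (q : ℕ) [NeZero q] (j : ZMod q) (z : ℍ) :
    (heckeRep q (j : OnePoint (ZMod q)) • z).im = z.im / q := by
  have h := coe_heckeMatrix_smul (NeZero.ne q) j.val z
  have h2 := congrArg Complex.im h
  rw [UpperHalfPlane.coe_im] at h2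
  change (heckeMatrix q j.val • z).im = z.im / q
  rw [h2]
  have e : ((z : ℂ) + (j.val : ℂ)) / (q : ℂ) = (((z : ℂ) + (j.val : ℂ)) / ((q : ℝ) : ℂ)) := by
    push_cast; rfl
  rw [e, Complex.div_ofReal_im, Complex.add_im, Complex.natCast_im, add_zero,
    UpperHalfPlane.coe_im]

theorem im_heckeRep_smul_le (q : ℕ) [NeZero q] (x : OnePoint (ZMod q)) (z : ℍ) :
    (heckeRep q x • z).im ≤ q * z.im := by
  have hq1 : (1 : ℝ) ≤ q := by exact_mod_cast Nat.one_le_iff_ne_zero.mpr (NeZero.ne q)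
  have hqpos : (0 : ℝ) < q := by linarith
  have hz : 0 < z.im := z.im_pos
  induction x using OnePoint.rec with
  | infty => rw [im_heckeRep_infty_smul]
  | coe j =>
    rw [im_heckeRep_coe_smul, div_le_iff₀ hqpos]
    have hqq : (1 : ℝ) ≤ q * q := by nlinarith
    calc z.im = z.im * 1 := (mul_one _).symm
      _ ≤ z.im * (q * q) := mul_le_mul_of_nonneg_left hqq hz.le
      _ = q * z.im * q := by ring

theorem im_le_heckeRep_smul (q : ℕ) [NeZero q] (x : OnePoint (ZMod q)) (z : ℍ) :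
    z.im / q ≤ (heckeRep q x • z).im := by
  have hq1 : (1 : ℝ) ≤ q := by exact_mod_cast Nat.one_le_iff_ne_zero.mpr (NeZero.ne q)
  have hqpos : (0 : ℝ) < q := by linarith
  have hz : 0 < z.im := z.im_pos
  induction x using OnePoint.rec with
  | infty =>
    rw [im_heckeRep_infty_smul, div_le_iff₀ hqpos]
    have hqq : (1 : ℝ) ≤ q * q := by nlinarith
    calc z.im = z.im * 1 := (mul_one _).symm
      _ ≤ z.im * (q * q) := mul_le_mul_of_nonneg_left hqq hz.le
      _ = q * z.im * q := by ring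
  | coe j => rw [im_heckeRep_coe_smul]

theorem tendsto_heckeRep_smul_atImInfty (q : ℕ) [NeZero q] (x : OnePoint (ZMod q)) :
    Tendsto (fun z : ℍ => heckeRep q x • z) atImInfty atImInfty := by
  have hqpos : (0 : ℝ) < q := by exact_mod_cast Nat.pos_of_ne_zero (NeZero.ne q)
  rw [atImInfty_basis.tendsto_iff atImInfty_basis]
  intro A _
  refine ⟨A * q, trivial, fun z hz => ?_⟩
  have hz' : A * q ≤ z.im := hz
  show A ≤ (heckeRep q x • z).im
  refine le_trans ?_ (im_le_heckeRep_smul q x z)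
  rw [le_div_iff₀ hqpos]
  exact hz'

/-! ### Holomorphy -/

/-- `z ↦ w (α_x • z)` is holomorphic if `w` is. -/
theorem mdifferentiable_comp_heckeRep (q : ℕ) [NeZero q] (x : OnePoint (ZMod q)) (w : ℍ → ℂ)
    (hw : MDiff w) : MDiff (fun z : ℍ => w (heckeRep q x • z)) :=
  hw.comp (mdifferentiable_smul (det_heckeRep_pos q x))

/-- Holomorphy of the Hecke product. -/
theorem mdifferentiable_prod_heckeRep (q : ℕ) [NeZero q] (w : ℍ → ℂ) (hw : MDiff w) :
    MDiff (fun z : ℍ => ∏ x : OnePoint (ZMod q), w (heckeRep q x • z)) := by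
  classical
  have h2 : ∀ s : Finset (OnePoint (ZMod q)),
      MDiff (fun z : ℍ => ∏ x ∈ s, w (heckeRep q x • z)) := by
    intro s
    induction s using Finset.induction_on with
    | empty => simpa using (mdifferentiable_const : MDiff (fun _ : ℍ => (1 : ℂ)))
    | insert a s ha ih =>
      have : (fun z : ℍ => ∏ x ∈ insert a s, w (heckeRep q x • z)) =
          (fun z : ℍ => w (heckeRep q a • z)) * fun z : ℍ => ∏ x ∈ s, w (heckeRep q x • z) := by
        funext z
        rw [Finset.prod_insert ha, Pi.mul_apply]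
      rw [this]
      exact (mdifferentiable_comp_heckeRep q a w hw).mul ih
  exact h2 Finset.univ

/-! ### Growth at the cusps: `exp`-currency -/

/-- The coset relation for an arbitrary element of `SL₂(ℤ)` (level one). -/
theorem exists_heckeRep_mul (q : ℕ) [Fact q.Prime] (g : SL(2, ℤ)) (x : OnePoint (ZMod q)) :
    ∃ g' : SL(2, ℤ), heckeRep q x * mapGL ℝ g = mapGL ℝ g' * heckeRep q (redMatrix q g • x) := by
  have hq1 : ¬ q ∣ 1 := fun h => (Fact.out : q.Prime).one_lt.ne' (Nat.dvd_one.mp h)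
  obtain ⟨g', _, h⟩ := heckeRep_mul (N := 1) hq1 g (by simp) x
  exact ⟨g', h⟩

/-- Growth at all cusps: if every `SL₂(ℤ)`-translate of `w` is `O(exp (2π n · im z))` at `i∞`,
so is every translate of the Hecke product. -/
theorem isBigO_prod_heckeRep (q : ℕ) [Fact q.Prime] (w : ℍ → ℂ)
    (hw : ∀ g : SL(2, ℤ), ∃ n : ℕ, (fun z : ℍ => w (g • z)) =O[atImInfty]
      fun z : ℍ => Real.exp (2 * Real.pi * n * z.im)) (g : SL(2, ℤ)) :
    ∃ n : ℕ, (fun z : ℍ => ∏ x : OnePoint (ZMod q), w (heckeRep q x • (g • z))) =O[atImInfty]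
      fun z : ℍ => Real.exp (2 * Real.pi * n * z.im) := by
  classical
  choose g' hg' using exists_heckeRep_mul q g
  choose n hn using fun x : OnePoint (ZMod q) => hw (g' x)
  refine ⟨∑ x : OnePoint (ZMod q), n x * q, ?_⟩
  have hfac : ∀ x : OnePoint (ZMod q),
      (fun z : ℍ => w (heckeRep q x • (g • z))) =O[atImInfty]
        fun z : ℍ => Real.exp (2 * Real.pi * ((n x * q : ℕ) : ℝ) * z.im) := by
    intro x
    have e : ∀ z : ℍ, heckeRep q x • (g • z) = g' x • (heckeRep q (redMatrix q g • x) • z) := by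
      intro z
      rw [← HeckeMult.mapGL_smul, ← HeckeMult.mapGL_smul, ← mul_smul, ← mul_smul, hg' x]
    have h1 := (hn x).comp_tendsto (tendsto_heckeRep_smul_atImInfty q (redMatrix q g • x))
    have h2 : (fun z : ℍ => Real.exp (2 * Real.pi * (n x) *
          (heckeRep q (redMatrix q g • x) • z).im)) =O[atImInfty]
        fun z : ℍ => Real.exp (2 * Real.pi * ((n x * q : ℕ) : ℝ) * z.im) := by
      apply Asymptotics.IsBigO.of_bound 1
      refine Filter.Eventually.of_forall fun z => ?_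
      rw [Real.norm_eq_abs, Real.norm_eq_abs, abs_of_pos (Real.exp_pos _),
        abs_of_pos (Real.exp_pos _), one_mul, Real.exp_le_exp]
      have := im_heckeRep_smul_le q (redMatrix q g • x) z
      have hn0 : (0 : ℝ) ≤ 2 * Real.pi * (n x) := by positivity
      push_cast
      calc 2 * Real.pi * (n x) * (heckeRep q (redMatrix q g • x) • z).im
          ≤ 2 * Real.pi * (n x) * (q * z.im) := mul_le_mul_of_nonneg_left this hn0
        _ = 2 * Real.pi * ((n x : ℝ) * q) * z.im := by ring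
    have h3 := h1.trans h2
    refine h3.congr_left fun z => ?_
    simp only [Function.comp_apply]
    rw [e z]
  have hprod := Asymptotics.IsBigO.finsetProd (s := Finset.univ) (fun x _ => hfac x)
  refine (hprod.congr_right fun z => ?_)
  rw [← Real.exp_sum]
  congr 1
  push_cast
  rw [Finset.mul_sum, Finset.sum_mul]

/-! ### The two currencies for "meromorphic at `i∞`" -/

/-- `Δ ^ k * f` bounded at `i∞` ⇒ `f = O(exp (2π k im z))`. -/
theorem isBigO_exp_of_isBoundedAtImInfty {f : ℍ → ℂ} {k : ℕ}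
    (h : IsBoundedAtImInfty (fun z : ℍ => Δ z ^ k * f z)) :
    f =O[atImInfty] fun z : ℍ => Real.exp (2 * Real.pi * k * z.im) := by
  rw [IsBoundedAtImInfty, BoundedAtFilter, Asymptotics.isBigO_iff] at h
  obtain ⟨C, hC⟩ := h
  rw [Asymptotics.isBigO_iff]
  refine ⟨|C| * 2 ^ k, ?_⟩
  filter_upwards [hC, Fermat.Agent.S23.eventually_discriminant_bounds] with z hz hΔ
  simp only [Pi.one_apply, norm_one, mul_one] at hz
  rw [norm_mul, norm_pow] at hz
  rw [Real.norm_eq_abs, abs_of_pos (Real.exp_pos _)]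
  have hE : Real.exp (2 * Real.pi * k * z.im) * Real.exp (-2 * Real.pi * z.im) ^ k = 1 := by
    rw [← Real.exp_nat_mul, ← Real.exp_add]
    have : 2 * Real.pi * k * z.im + k * (-2 * Real.pi * z.im) = 0 := by ring
    rw [this, Real.exp_zero]
  have hlow : (Real.exp (-2 * Real.pi * z.im) / 2) ^ k ≤ ‖Δ z‖ ^ k :=
    pow_le_pow_left₀ (by positivity) hΔ.1 k
  have hpos : 0 < (Real.exp (-2 * Real.pi * z.im) / 2) ^ k := by positivity
  -- ‖f z‖ * (exp(-2π im)/2)^k ≤ ‖Δ‖^k * ‖f‖ ≤ C
  have h1 : ‖f z‖ * (Real.exp (-2 * Real.pi * z.im) / 2) ^ k ≤ |C| := by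
    calc ‖f z‖ * (Real.exp (-2 * Real.pi * z.im) / 2) ^ k
        ≤ ‖f z‖ * ‖Δ z‖ ^ k := mul_le_mul_of_nonneg_left hlow (norm_nonneg _)
      _ = ‖Δ z‖ ^ k * ‖f z‖ := mul_comm _ _
      _ ≤ C := hz
      _ ≤ |C| := le_abs_self C
  have h2 : (Real.exp (-2 * Real.pi * z.im) / 2) ^ k * (2 ^ k * Real.exp (2 * Real.pi * k * z.im))
      = 1 := by
    rw [div_pow]
    have h2k : (2 : ℝ) ^ k ≠ 0 := by positivity
    calc Real.exp (-2 * Real.pi * z.im) ^ k / 2 ^ k * (2 ^ k * Real.exp (2 * Real.pi * k * z.im))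
        = (2 ^ k / 2 ^ k) *
          (Real.exp (2 * Real.pi * k * z.im) * Real.exp (-2 * Real.pi * z.im) ^ k) := by ring
      _ = 1 := by rw [hE, div_self h2k, mul_one]
  calc ‖f z‖ = ‖f z‖ * ((Real.exp (-2 * Real.pi * z.im) / 2) ^ k *
        (2 ^ k * Real.exp (2 * Real.pi * k * z.im))) := by rw [h2, mul_one]
    _ = (‖f z‖ * (Real.exp (-2 * Real.pi * z.im) / 2) ^ k) *
        (2 ^ k * Real.exp (2 * Real.pi * k * z.im)) := by ring
    _ ≤ |C| * (2 ^ k * Real.exp (2 * Real.pi * k * z.im)) :=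
        mul_le_mul_of_nonneg_right h1 (by positivity)
    _ = |C| * 2 ^ k * Real.exp (2 * Real.pi * k * z.im) := by ring

/-- `f = O(exp (2π n im z))` ⇒ `Δ ^ n * f` bounded at `i∞`. -/
theorem isBoundedAtImInfty_of_isBigO_exp {f : ℍ → ℂ} {n : ℕ}
    (h : f =O[atImInfty] fun z : ℍ => Real.exp (2 * Real.pi * n * z.im)) :
    IsBoundedAtImInfty (fun z : ℍ => Δ z ^ n * f z) := by
  rw [Asymptotics.isBigO_iff] at h
  obtain ⟨C, hC⟩ := h
  rw [IsBoundedAtImInfty, BoundedAtFilter, Asymptotics.isBigO_iff]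
  refine ⟨2 ^ n * |C|, ?_⟩
  filter_upwards [hC, Fermat.Agent.S23.eventually_discriminant_bounds] with z hz hΔ
  simp only [Pi.one_apply, norm_one, mul_one]
  rw [Real.norm_eq_abs, abs_of_pos (Real.exp_pos _)] at hz
  rw [norm_mul, norm_pow]
  have hE : Real.exp (-2 * Real.pi * z.im) ^ n * Real.exp (2 * Real.pi * n * z.im) = 1 := by
    rw [← Real.exp_nat_mul, ← Real.exp_add]
    have : n * (-2 * Real.pi * z.im) + 2 * Real.pi * n * z.im = 0 := by ring
    rw [this, Real.exp_zero]
  have hup : ‖Δ z‖ ^ n ≤ (2 * Real.exp (-2 * Real.pi * z.im)) ^ n :=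
    pow_le_pow_left₀ (norm_nonneg _) hΔ.2 n
  have hz' : ‖f z‖ ≤ |C| * Real.exp (2 * Real.pi * n * z.im) :=
    hz.trans (mul_le_mul_of_nonneg_right (le_abs_self C) (Real.exp_pos _).le)
  calc ‖Δ z‖ ^ n * ‖f z‖
      ≤ (2 * Real.exp (-2 * Real.pi * z.im)) ^ n * (|C| * Real.exp (2 * Real.pi * n * z.im)) :=
        mul_le_mul hup hz' (norm_nonneg _) (by positivity)
    _ = 2 ^ n * |C| * (Real.exp (-2 * Real.pi * z.im) ^ n * Real.exp (2 * Real.pi * n * z.im)) := by
        rw [mul_pow]; ring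
    _ = 2 ^ n * |C| := by rw [hE, mul_one]

/-- The two currencies agree. -/
theorem exists_isBoundedAtImInfty_iff_exists_isBigO_exp (f : ℍ → ℂ) :
    (∃ k : ℕ, IsBoundedAtImInfty (fun z : ℍ => Δ z ^ k * f z)) ↔
      ∃ n : ℕ, f =O[atImInfty] fun z : ℍ => Real.exp (2 * Real.pi * n * z.im) :=
  ⟨fun ⟨k, h⟩ => ⟨k, isBigO_exp_of_isBoundedAtImInfty h⟩,
    fun ⟨n, h⟩ => ⟨n, isBoundedAtImInfty_of_isBigO_exp h⟩⟩

/-! ### Growth at the cusps: `Δ`-currency (the `S24` shape) -/

/-- Meromorphy at every cusp is inherited by the Hecke product (`S24` currency). -/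
theorem exists_isBoundedAtImInfty_prod_heckeRep (q : ℕ) [Fact q.Prime] (w : ℍ → ℂ)
    (hw : ∀ g : SL(2, ℤ), ∃ k : ℕ, IsBoundedAtImInfty (fun z : ℍ => Δ z ^ k * w (g • z)))
    (g : SL(2, ℤ)) :
    ∃ k : ℕ, IsBoundedAtImInfty
      (fun z : ℍ => Δ z ^ k * ∏ x : OnePoint (ZMod q), w (heckeRep q x • (g • z))) := by
  have hw' : ∀ g : SL(2, ℤ), ∃ n : ℕ, (fun z : ℍ => w (g • z)) =O[atImInfty]
      fun z : ℍ => Real.exp (2 * Real.pi * n * z.im) := fun g =>
    (exists_isBoundedAtImInfty_iff_exists_isBigO_exp (fun z : ℍ => w (g • z))).mp (hw g)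
  obtain ⟨n, hn⟩ := isBigO_prod_heckeRep q w hw' g
  exact ⟨n, isBoundedAtImInfty_of_isBigO_exp hn⟩

end Fermat.Agent.S29.HeckeProd
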