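/-
S29 block [K], leaf (K6a) — HeckeProdMem.lean (helper26): the HECKE PRODUCT OF A MULTIPLIER FORM,
in the vocabulary of `S29/KDefs.lean`.

For a prime `q ∤ N`, the prelude coset representatives `α_x = heckeRep q x`
(`x : OnePoint (ZMod q)`) and a character `χ : Γ₀(N) →* ℂˣ`:

* `heckeChar N q hqN χ`   : the `T_q`-transform of `χ`, `γ ↦ ∏ x, χ (γ'_x)`
                            (`α_x γ = γ'_x α_{σ x}` = the coset data `S16.tData`);
                            for `χ = ζ ^ u` it is `ζ ^ (S16.heckeTHom N q hqN u)`;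
* `prod_slash_heckeRep_mem` : `A ∈ MFchi N w χ ⇒ ∏ x, A ∣[w] α_x ∈ MFchi N (w * (q + 1)) (T_q χ)`;
* `prod_slash_heckeRep_mem_MF` : the same for `χ = 1`, in `S20.MF`;
* `prod_slash_heckeRep_ne_zero` : the product is nonzero if `A` is holomorphic and nonzero.
-/
import Mathlib
import Fermat.Agent.S29.KDefs
import Fermat.Agent.S29.HeckeProd
import Fermat.Agent.S29.HolIC

set_option autoImplicit false

noncomputable section

namespace Fermat.Agent.S29.HeckeProdMem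

open CongruenceSubgroup UpperHalfPlane Matrix.SpecialLinearGroup Fermat.Agent.S16 Filter
open scoped MatrixGroups Manifold ModularForm
open P2MW.S_ModularForm_heckeT_slash_eq_self_of_mem_Gamma0.ModularForm.HeckeSlashInvariance
open ModularForm

variable (N q : ℕ) [Fact q.Prime] (hqN : ¬ q ∣ N)

/-! ### The `T_q`-transform of a character -/

/-- The `T_q`-transform of a character of `Γ₀(N)`: `γ ↦ ∏ x, χ (γ'_x)`, where
`α_x γ = γ'_x α_{σ x}` is the coset data `S16.tData N q hqN`. -/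
def heckeChar (χ : ↥(Gamma0 N) →* ℂˣ) : ↥(Gamma0 N) →* ℂˣ :=
  MonoidHom.mk' (fun γ => ∏ x : OnePoint (ZMod q), χ ((tData N q hqN).part γ x)) (by
    intro γ δ
    have h : ∀ x : OnePoint (ZMod q), χ ((tData N q hqN).part (γ * δ) x) =
        χ ((tData N q hqN).part γ x) * χ ((tData N q hqN).part δ ((tData N q hqN).perm γ x)) := by
      intro x
      rw [(tData N q hqN).part_mul, map_mul]
    simp only [h, Finset.prod_mul_distrib]
    congr 1
    exact Equiv.prod_comp ((tData N q hqN).perm γ) (fun x => χ ((tData N q hqN).part δ x)))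

/-- a product of integer powers of a group element is the power with the summed exponent. -/
theorem prod_zpow_sum {ι G : Type*} [CommGroup G] (s : Finset ι) (ζ : G) (f : ι → ℤ) :
    ∏ i ∈ s, ζ ^ f i = ζ ^ ∑ i ∈ s, f i := by
  classical
  induction s using Finset.induction_on with
  | empty => simp
  | insert a s ha ih => rw [Finset.prod_insert ha, Finset.sum_insert ha, ih, zpow_add]

theorem heckeChar_apply (χ : ↥(Gamma0 N) →* ℂˣ) (γ : ↥(Gamma0 N)) :
    heckeChar N q hqN χ γ = ∏ x : OnePoint (ZMod q), χ ((tData N q hqN).part γ x) := rfl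

theorem heckeChar_one : heckeChar N q hqN (1 : ↥(Gamma0 N) →* ℂˣ) = 1 := by
  ext γ
  simp [heckeChar_apply]

theorem heckeChar_mul (χ χ' : ↥(Gamma0 N) →* ℂˣ) :
    heckeChar N q hqN (χ * χ') = heckeChar N q hqN χ * heckeChar N q hqN χ' := by
  ext γ
  simp [heckeChar_apply, Finset.prod_mul_distrib]

/-- **Character form.**  If `χ = ζ ^ u` for an additive `u : Γ₀(N) → ℤ`, then
`T_q χ = ζ ^ (T_q u)`, `T_q u = S16.heckeTHom N q hqN u`. -/
theorem heckeChar_apply_of_zpow (χ : ↥(Gamma0 N) →* ℂˣ) (ζ : ℂˣ) (u : Additive (Gamma0 N) →+ ℤ)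
    (hχ : ∀ γ : ↥(Gamma0 N), χ γ = ζ ^ u (Additive.ofMul γ)) (γ : ↥(Gamma0 N)) :
    heckeChar N q hqN χ γ = ζ ^ heckeTHom N q hqN u (Additive.ofMul γ) := by
  rw [heckeChar_apply, heckeTHom_apply]
  simp only [hχ]
  exact prod_zpow_sum Finset.univ ζ _

/-- **Character form**, as an equality of characters. -/
theorem heckeChar_eq_of_zpow (χ χ' : ↥(Gamma0 N) →* ℂˣ) (ζ : ℂˣ) (u : Additive (Gamma0 N) →+ ℤ)
    (hχ : ∀ γ : ↥(Gamma0 N), χ γ = ζ ^ u (Additive.ofMul γ))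
    (hχ' : ∀ γ : ↥(Gamma0 N), χ' γ = ζ ^ heckeTHom N q hqN u (Additive.ofMul γ)) :
    heckeChar N q hqN χ = χ' := by
  ext γ
  rw [heckeChar_apply_of_zpow N q hqN χ ζ u hχ γ, hχ' γ]

/-! ### The slash action through the coset representatives -/

variable {N q}

theorem card_onePoint_zmod : (Finset.univ : Finset (OnePoint (ZMod q))).card = q + 1 := by
  have : NeZero q := ⟨(Fact.out : q.Prime).ne_zero⟩
  rw [Finset.card_univ]
  change Fintype.card (Option (ZMod q)) = q + 1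
  rw [Fintype.card_option, ZMod.card]

/-- Slashing a product over the `q + 1` coset representatives by an element of `SL₂(ℤ)`. -/
theorem prod_slash_SL (w : ℤ) (f : OnePoint (ZMod q) → ℍ → ℂ) (g : SL(2, ℤ)) :
    (∏ x : OnePoint (ZMod q), f x) ∣[w * ((q : ℤ) + 1)] g =
      ∏ x : OnePoint (ZMod q), (f x) ∣[w] g := by
  have h := ModularForm.prod_slash (k := w) (g := (mapGL ℝ g)) (f := f)
    (s := (Finset.univ : Finset (OnePoint (ZMod q))))
  rw [card_onePoint_zmod] at h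
  push_cast at h
  change (∏ x : OnePoint (ZMod q), f x) ∣[w * ((q : ℤ) + 1)] (mapGL ℝ g) =
    ∏ x : OnePoint (ZMod q), (f x) ∣[w] (mapGL ℝ g)
  rw [h]
  simp

/-- Moving `γ ∈ Γ₀(N)` through `α_x` at the level of slashes. -/
theorem slash_heckeRep_slash (w : ℤ) (A : ℍ → ℂ) (γ : ↥(Gamma0 N)) (x : OnePoint (ZMod q)) :
    (A ∣[w] heckeRep q x) ∣[w] (γ : SL(2, ℤ)) =
      (A ∣[w] (((tData N q hqN).part γ x : ↥(Gamma0 N)) : SL(2, ℤ))) ∣[w]
        heckeRep q ((tData N q hqN).perm γ x) := by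
  change (A ∣[w] heckeRep q x) ∣[w] (mapGL ℝ (γ : SL(2, ℤ))) = _
  rw [← SlashAction.slash_mul, tData_spec hqN γ x, SlashAction.slash_mul]
  rfl

/-- Scalars pass through the slash by a coset representative (positive determinant). -/
theorem smul_slash_heckeRep (w : ℤ) (c : ℂ) (A : ℍ → ℂ) (x : OnePoint (ZMod q)) :
    (c • A) ∣[w] heckeRep q x = c • (A ∣[w] heckeRep q x) := by
  have : NeZero q := ⟨(Fact.out : q.Prime).ne_zero⟩
  rw [ModularForm.smul_slash]
  have hd : 0 < (heckeRep q x : Matrix (Fin 2) (Fin 2) ℝ).det := by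
    simpa using HeckeProd.det_heckeRep_pos q x
  have h : σ (heckeRep q x) c = c := by
    simp [σ, hd]
  rw [h]

/-! ### The Hecke product of a multiplier form -/

/-- **(K6a)**: the Hecke product `∏ x, A ∣[w] α_x` of a form `A` of weight `w` and multiplier
`χ` on `Γ₀(N)` is a form of weight `w (q + 1)` with multiplier `T_q χ` (holomorphic, bounded at
all cusps). -/
theorem prod_slash_heckeRep_mem {w : ℤ} {χ : ↥(Gamma0 N) →* ℂˣ} {A : ℍ → ℂ}
    (hA : A ∈ K.MFchi N w χ) :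
    (∏ x : OnePoint (ZMod q), A ∣[w] heckeRep q x) ∈
      K.MFchi N (w * ((q : ℤ) + 1)) (heckeChar N q hqN χ) := by
  have : NeZero q := ⟨(Fact.out : q.Prime).ne_zero⟩
  obtain ⟨hA1, hA2, hA3⟩ := hA
  refine ⟨?_, fun γ => ?_, fun g => ?_⟩
  · exact MDifferentiable.prod (fun x _ => hA1.slash w _)
  · rw [prod_slash_SL]
    have h1 : ∀ x : OnePoint (ZMod q), (A ∣[w] heckeRep q x) ∣[w] (γ : SL(2, ℤ)) =
        ((χ ((tData N q hqN).part γ x) : ℂˣ) : ℂ) •
          (A ∣[w] heckeRep q ((tData N q hqN).perm γ x)) := by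
      intro x
      rw [slash_heckeRep_slash hqN, hA2, smul_slash_heckeRep]
    simp only [h1]
    rw [Finset.prod_smul, heckeChar_apply, Units.coe_prod]
    congr 1
    exact Equiv.prod_comp ((tData N q hqN).perm γ) (fun x => A ∣[w] heckeRep q x)
  · rw [prod_slash_SL]
    refine BoundedAtFilter.prod _ (fun x _ => ?_)
    obtain ⟨g', hg'⟩ := HeckeProd.exists_heckeRep_mul q g x
    change IsBoundedAtImInfty ((A ∣[w] heckeRep q x) ∣[w] (mapGL ℝ g))
    rw [← SlashAction.slash_mul, hg', SlashAction.slash_mul]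
    exact (hA3 g').slash w (heckeRep_apply_one_zero' q _)

/-- **(K6a), definition-free consumer shape** (leaf table of the (K6) owner): any character `χ'`
with `χ' γ = ∏ x, χ (γ'_x)` will do. -/
theorem prod_slash_heckeRep_mem_of_char (N ℓ : ℕ) [Fact ℓ.Prime] (hℓN : ¬ ℓ ∣ N) (w : ℤ)
    (χ χ' : ↥(Gamma0 N) →* ℂˣ) (A : ℍ → ℂ)
    (hχ : ∀ γ : ↥(Gamma0 N), χ' γ = ∏ x : OnePoint (ZMod ℓ), χ ((tData N ℓ hℓN).part γ x))
    (hA : A ∈ K.MFchi N w χ) :
    (∏ x : OnePoint (ZMod ℓ), A ∣[w] heckeRep ℓ x) ∈ K.MFchi N (w * (ℓ + 1)) χ' := by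
  have h : χ' = heckeChar N ℓ hℓN χ := by
    ext γ
    rw [hχ γ, heckeChar_apply]
  rw [h]
  exact prod_slash_heckeRep_mem hℓN hA

/-- **(K6a), character form**: `χ = ζ ^ u`, `χ' = ζ ^ (T_q u)`. -/
theorem prod_slash_heckeRep_mem_of_zpow {w : ℤ} {χ χ' : ↥(Gamma0 N) →* ℂˣ} {A : ℍ → ℂ}
    (ζ : ℂˣ) (u : Additive (Gamma0 N) →+ ℤ)
    (hχ : ∀ γ : ↥(Gamma0 N), χ γ = ζ ^ u (Additive.ofMul γ))
    (hχ' : ∀ γ : ↥(Gamma0 N), χ' γ = ζ ^ heckeTHom N q hqN u (Additive.ofMul γ))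
    (hA : A ∈ K.MFchi N w χ) :
    (∏ x : OnePoint (ZMod q), A ∣[w] heckeRep q x) ∈ K.MFchi N (w * ((q : ℤ) + 1)) χ' := by
  rw [← heckeChar_eq_of_zpow N q hqN χ χ' ζ u hχ hχ']
  exact prod_slash_heckeRep_mem hqN hA

/-! ### Trivial multiplier: `S20.MF` -/

/-- `S20.MF N w` is `MFchi N w 1`. -/
theorem mem_MF_iff_mem_MFchi_one [NeZero N] {w : ℤ} {B : ℍ → ℂ} :
    B ∈ S20.MF N w ↔ B ∈ K.MFchi N w 1 := by
  rw [S20.mem_MF_iff', K.mem_MFchi]
  constructor
  · rintro ⟨h1, h2, h3⟩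
    exact ⟨h1, fun γ => by rw [h2 _ γ.2]; simp, h3⟩
  · rintro ⟨h1, h2, h3⟩
    exact ⟨h1, fun γ hγ => by simpa using h2 ⟨γ, hγ⟩, h3⟩

include hqN in
/-- **(K6a) for the denominators**: the Hecke product of a form with trivial multiplier is a
form with trivial multiplier. -/
theorem prod_slash_heckeRep_mem_MF [NeZero N] {w : ℤ} {B : ℍ → ℂ} (hB : B ∈ S20.MF N w) :
    (∏ x : OnePoint (ZMod q), B ∣[w] heckeRep q x) ∈ S20.MF N (w * ((q : ℤ) + 1)) := by
  rw [mem_MF_iff_mem_MFchi_one] at hB ⊢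
  have h := prod_slash_heckeRep_mem hqN hB
  rwa [heckeChar_one] at h

/-! ### Nonvanishing -/

/-- The Hecke product of a nonzero holomorphic function is nonzero. -/
theorem prod_slash_heckeRep_ne_zero (ℓ : ℕ) [NeZero ℓ] (w : ℤ) {B : ℍ → ℂ} (hB : MDiff B)
    (hB0 : B ≠ 0) : (∏ x : OnePoint (ZMod ℓ), B ∣[w] heckeRep ℓ x) ≠ 0 := by
  classical
  have := HolIC.isDomain_holSub
  have hmem : ∀ x : OnePoint (ZMod ℓ), B ∣[w] heckeRep ℓ x ∈ S24.holSub := fun x =>
    S24.mem_holSub.mpr (hB.slash w _)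
  have hne : ∀ x : OnePoint (ZMod ℓ),
      (⟨B ∣[w] heckeRep ℓ x, hmem x⟩ : S24.holSub) ≠ 0 := by
    intro x h
    have h' : B ∣[w] heckeRep ℓ x = 0 := congrArg Subtype.val h
    rw [SlashAction.slash_eq_zero_iff] at h'
    exact hB0 h'
  have hprod : (∏ x : OnePoint (ZMod ℓ), (⟨B ∣[w] heckeRep ℓ x, hmem x⟩ : S24.holSub)) ≠ 0 :=
    Finset.prod_ne_zero_iff.mpr (fun x _ => hne x)
  intro h
  apply hprod
  apply Subtype.ext
  rw [SubmonoidClass.coe_finsetProd]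
  exact h

/-- The Hecke product of a nonzero form with trivial multiplier is nonzero. -/
theorem prod_slash_heckeRep_ne_zero_of_mem_MF (N ℓ : ℕ) [NeZero N] [NeZero ℓ] {w : ℤ} {B : ℍ → ℂ}
    (hB : B ∈ S20.MF N w) (hB0 : B ≠ 0) :
    (∏ x : OnePoint (ZMod ℓ), B ∣[w] heckeRep ℓ x) ≠ 0 :=
  prod_slash_heckeRep_ne_zero ℓ w (S20.mem_MF_iff'.mp hB).1 hB0

end Fermat.Agent.S29.HeckeProdMem
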