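/-
S29 block [K], leaf (K6b), B-copy (helper104; A = helper127's `HeckeProdQx.lean`):
the q-expansion of the slash Hecke product.

For a nice function `A` on `ℍ` (`1`-periodic, holomorphic, bounded at `i∞`) and the prelude
coset representatives `α_x = heckeRep ℓ x` (`x : OnePoint (ZMod ℓ)`), the product
`∏ x, A ∣[w] α_x` has q-expansion `c • kronT ζ ℓ (qx A)` with `ζ = exp (2πi/ℓ)` and the nonzero
constant `c = ℓ^(w-1) · ℓ^(-ℓ)`; here `kronT ζ ℓ y = y(q^ℓ) · (∏_{i<ℓ} y(ζ^i q))(q^{1/ℓ})` is the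
formal operator of `S37/KC`.

Route (independent of the A-copy): `HasSum`-level shift law for period-one q-expansions
(`hasSum_qExpansion` + uniqueness of q-expansion coefficients), the scaling law of `S24/AnBridge`,
and injectivity of `q ↦ q^ℓ`.
-/
import Mathlib
import Fermat.Agent.S29.KDefs
import Fermat.Agent.S29.KBasic
import Fermat.Agent.S29.HeckeProd
import Fermat.Agent.S24.AnBridge
import Fermat.Agent.S24.AnCuspShift
import Fermat.Agent.S37.KC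

set_option autoImplicit false

noncomputable section

namespace Fermat.Agent.S29.HeckeProdQxB

open UpperHalfPlane ModularForm ModularCurve Filter Function
open scoped MatrixGroups ModularForm Manifold Real
open P2MW.S_ModularForm_heckeT_slash_eq_self_of_mem_Gamma0.ModularForm.HeckeSlashInvariance
open Fermat.Agent.S29.K Fermat.Agent.S37

local notation "𝕢" => Function.Periodic.qParam

/-! ### Real translates of nice functions -/

/-- A nice function is invariant under `z ↦ 1 + z`. -/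
theorem vadd_one_of_mem_niceSub {A : ℍ → ℂ} (hA : A ∈ S23.niceSub) (z : ℍ) :
    A ((1 : ℝ) +ᵥ z) = A z := by
  have h := hA.1 (z : ℂ)
  simp only [comp_apply] at h
  have hz : 0 < ((z : ℂ) + 1).im := by simpa using z.im_pos
  rw [ofComplex_apply_of_im_pos hz, ofComplex_apply] at h
  rw [← h]
  congr 1
  ext
  simp [add_comm]

/-- A nice function is invariant under `z ↦ n + z`, `n : ℕ`. -/
theorem vadd_nat_of_mem_niceSub {A : ℍ → ℂ} (hA : A ∈ S23.niceSub) (n : ℕ) (z : ℍ) :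
    A ((n : ℝ) +ᵥ z) = A z := by
  induction n with
  | zero => simp
  | succ n ih =>
    have e : (((n + 1 : ℕ) : ℝ) +ᵥ z : ℍ) = (1 : ℝ) +ᵥ ((n : ℝ) +ᵥ z) := by
      ext
      simp
      ring
    rw [e, vadd_one_of_mem_niceSub hA, ih]

/-- The real translate of a nice function is nice. -/
theorem shift_mem_niceSub (t : ℝ) {A : ℍ → ℂ} (hA : A ∈ S23.niceSub) :
    (fun z : ℍ => A (t +ᵥ z)) ∈ S23.niceSub := by
  refine ⟨?_, S24.anCuspShift_mdiff hA.2.1 t, S24.anCuspShift_bdd hA.2.2 t⟩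
  have h := S24.anCuspShift_periodic (h := 1) (f := fun z : ℍ => A (t +ᵥ z))
    (fun z => by
      show A (t +ᵥ ((1 : ℝ) +ᵥ z)) = A (t +ᵥ z)
      rw [vadd_comm, vadd_one_of_mem_niceSub hA])
  simpa using h

/-- The unit `exp (2πi t)`. -/
def expUnit (t : ℝ) : ℂˣ := Units.mk0 (Complex.exp (2 * π * Complex.I * t)) (Complex.exp_ne_zero _)

@[simp] theorem coe_expUnit (t : ℝ) :
    ((expUnit t : ℂˣ) : ℂ) = Complex.exp (2 * π * Complex.I * t) := rfl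

theorem qParam_vadd (t : ℝ) (τ : ℍ) :
    𝕢 (1 : ℝ) ((t +ᵥ τ : ℍ) : ℂ) = Complex.exp (2 * π * Complex.I * t) * 𝕢 (1 : ℝ) (τ : ℂ) := by
  have h : ((t +ᵥ τ : ℍ) : ℂ) = (t : ℂ) + (τ : ℂ) := by
    rw [UpperHalfPlane.coe_vadd]
  rw [h]
  unfold Function.Periodic.qParam
  rw [← Complex.exp_add]
  congr 1
  push_cast
  ring

/-- **Shift law** for period-one q-expansions: `A(t + z)` has `n`-th coefficient
`exp(2πi t)^n` times that of `A`. -/
theorem qExpansion_shift_coeff (t : ℝ) {A : ℍ → ℂ} (hA : A ∈ S23.niceSub) (n : ℕ) :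
    (qExpansion 1 (fun z : ℍ => A (t +ᵥ z))).coeff n
      = Complex.exp (2 * π * Complex.I * t) ^ n * (qExpansion 1 A).coeff n := by
  have hg := shift_mem_niceSub t hA
  have hgan : AnalyticAt ℂ (cuspFunction 1 (fun z : ℍ => A (t +ᵥ z))) 0 :=
    S23.analyticAt_cuspFunction_of_mem_niceSub hg
  have hsum : ∀ τ : ℍ, HasSum (fun m : ℕ =>
      (Complex.exp (2 * π * Complex.I * t) ^ m * (qExpansion 1 A).coeff m)
        • 𝕢 (1 : ℝ) (τ : ℂ) ^ m) (A (t +ᵥ τ)) := by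
    intro τ
    have h1 := hasSum_qExpansion one_pos hA.1 hA.2.1 hA.2.2 (t +ᵥ τ)
    rw [qParam_vadd] at h1
    convert h1 using 2 with m
    simp only [smul_eq_mul]
    ring
  exact (S24.anCuspShift_coeff_unique one_pos hgan hsum n).symm

/-- Laurent-series form of the shift law. -/
theorem qx_shift (t : ℝ) {A : ℍ → ℂ} (hA : A ∈ S23.niceSub) :
    qx (fun z : ℍ => A (t +ᵥ z)) = KC.twist (expUnit t) (qx A) := by
  ext n
  rw [KC.twist_coeff]
  rcases lt_or_ge n 0 with hn | hn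
  · rw [qx, qx, ofPowerSeries_coeff_of_neg _ hn, ofPowerSeries_coeff_of_neg _ hn, mul_zero]
  · obtain ⟨m, rfl⟩ := Int.eq_ofNat_of_zero_le hn
    rw [qx, qx, HahnSeries.ofPowerSeries_apply_coeff, HahnSeries.ofPowerSeries_apply_coeff,
      qExpansion_shift_coeff t hA, zpow_natCast, Units.val_pow_eq_pow_val, coe_expUnit]

/-! ### Finite products of nice functions -/

/-- `qx` is multiplicative on finite products of nice functions. -/
theorem prod_mem_niceSub_and_qx {ι : Type*} (s : Finset ι) (F : ι → ℍ → ℂ)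
    (hF : ∀ i ∈ s, F i ∈ S23.niceSub) :
    (∏ i ∈ s, F i) ∈ S23.niceSub ∧ qx (∏ i ∈ s, F i) = ∏ i ∈ s, qx (F i) := by
  classical
  induction s using Finset.induction_on with
  | empty =>
    simp only [Finset.prod_empty]
    exact ⟨S23.niceSub.one_mem, qx_one⟩
  | insert a s ha ih =>
    have h1 := ih (fun i hi => hF i (Finset.mem_insert_of_mem hi))
    have ha' := hF a (Finset.mem_insert_self a s)
    rw [Finset.prod_insert ha, Finset.prod_insert ha]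
    exact ⟨S23.niceSub.mul_mem ha' h1.1, by rw [qx_mul ha' h1.1, h1.2]⟩

/-! ### The two kinds of coset representatives -/

theorem heckeDiagMatrix_smul_eq (ℓ : ℕ) [NeZero ℓ] (z : ℍ) :
    heckeDiagMatrix ℓ • z = S23.mulN ℓ z := by
  ext
  rw [coe_heckeDiagMatrix_smul (NeZero.ne ℓ), S23.coe_mulN]

theorem heckeMatrix_smul_mulN (ℓ : ℕ) [NeZero ℓ] (j : ℕ) (z : ℍ) :
    heckeMatrix ℓ j • S23.mulN ℓ z = ((j : ℝ) / ℓ) +ᵥ z := by
  have hℓ : (ℓ : ℂ) ≠ 0 := Nat.cast_ne_zero.mpr (NeZero.ne ℓ)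
  ext
  rw [coe_heckeMatrix_smul (NeZero.ne ℓ), S23.coe_mulN, UpperHalfPlane.coe_vadd]
  push_cast
  field_simp
  ring

theorem val_add_one (ℓ : ℕ) [NeZero ℓ] (j : ZMod ℓ) :
    ℓ * ((j.val + 1) / ℓ) + (j + 1).val = j.val + 1 := by
  rw [ZMod.val_add, ZMod.val_one_eq_one_mod, Nat.add_mod_mod]
  exact Nat.div_add_mod _ _

theorem heckeMatrix_smul_vadd_one (ℓ : ℕ) [NeZero ℓ] (j : ZMod ℓ) (z : ℍ) :
    heckeMatrix ℓ j.val • ((1 : ℝ) +ᵥ z) =
      ((((j.val + 1) / ℓ : ℕ) : ℝ)) +ᵥ (heckeMatrix ℓ (j + 1).val • z) := by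
  have hℓ : (ℓ : ℂ) ≠ 0 := Nat.cast_ne_zero.mpr (NeZero.ne ℓ)
  have h := congrArg (Nat.cast : ℕ → ℂ) (val_add_one ℓ j)
  push_cast at h
  ext
  rw [coe_heckeMatrix_smul (NeZero.ne ℓ), UpperHalfPlane.coe_vadd, UpperHalfPlane.coe_vadd,
    coe_heckeMatrix_smul (NeZero.ne ℓ)]
  push_cast
  field_simp
  linear_combination -h

/-- The `U`-part of the Hecke product: `z ↦ ∏_{j mod ℓ} A ((z + j)/ℓ)`. -/
def uProd (ℓ : ℕ) [NeZero ℓ] (A : ℍ → ℂ) : ℍ → ℂ :=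
  fun z => ∏ j : ZMod ℓ, A (heckeMatrix ℓ j.val • z)

theorem uProd_vadd_one (ℓ : ℕ) [NeZero ℓ] {A : ℍ → ℂ} (hA : A ∈ S23.niceSub) (z : ℍ) :
    uProd ℓ A ((1 : ℝ) +ᵥ z) = uProd ℓ A z := by
  unfold uProd
  have h1 : ∀ j : ZMod ℓ, A (heckeMatrix ℓ j.val • ((1 : ℝ) +ᵥ z)) =
      A (heckeMatrix ℓ (j + 1).val • z) := by
    intro j
    rw [heckeMatrix_smul_vadd_one, vadd_nat_of_mem_niceSub hA]
  simp only [h1]
  exact Equiv.prod_comp (Equiv.addRight (1 : ZMod ℓ)) (fun j => A (heckeMatrix ℓ j.val • z))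

theorem isBoundedAtImInfty_comp_heckeRep (ℓ : ℕ) [NeZero ℓ] (x : OnePoint (ZMod ℓ)) {A : ℍ → ℂ}
    (hA : IsBoundedAtImInfty A) : IsBoundedAtImInfty (fun z : ℍ => A (heckeRep ℓ x • z)) := by
  have h := Asymptotics.IsBigO.comp_tendsto hA (HeckeProd.tendsto_heckeRep_smul_atImInfty ℓ x)
  exact h

theorem uProd_mem_niceSub (ℓ : ℕ) [NeZero ℓ] {A : ℍ → ℂ} (hA : A ∈ S23.niceSub) :
    uProd ℓ A ∈ S23.niceSub := by
  classical
  have hfac : ∀ j : ZMod ℓ, MDiff (fun z : ℍ => A (heckeMatrix ℓ j.val • z)) ∧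
      IsBoundedAtImInfty (fun z : ℍ => A (heckeMatrix ℓ j.val • z)) := fun j =>
    ⟨HeckeProd.mdifferentiable_comp_heckeRep ℓ (j : OnePoint (ZMod ℓ)) A hA.2.1,
      isBoundedAtImInfty_comp_heckeRep ℓ (j : OnePoint (ZMod ℓ)) hA.2.2⟩
  have h2 : ∀ s : Finset (ZMod ℓ),
      MDiff (fun z : ℍ => ∏ j ∈ s, A (heckeMatrix ℓ j.val • z)) ∧
      IsBoundedAtImInfty (fun z : ℍ => ∏ j ∈ s, A (heckeMatrix ℓ j.val • z)) := by
    intro s
    induction s using Finset.induction_on with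
    | empty =>
      simp only [Finset.prod_empty]
      exact ⟨mdifferentiable_const, Filter.const_boundedAtFilter _ (1 : ℂ)⟩
    | insert a s ha ih =>
      have e : (fun z : ℍ => ∏ j ∈ insert a s, A (heckeMatrix ℓ j.val • z)) =
          (fun z : ℍ => A (heckeMatrix ℓ a.val • z)) *
            fun z : ℍ => ∏ j ∈ s, A (heckeMatrix ℓ j.val • z) := by
        funext z
        rw [Finset.prod_insert ha, Pi.mul_apply]
      rw [e]
      exact ⟨(hfac a).1.mul ih.1, (hfac a).2.mul ih.2⟩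
  refine ⟨?_, (h2 Finset.univ).1, (h2 Finset.univ).2⟩
  have h := S24.anCuspShift_periodic (h := 1) (f := uProd ℓ A) (uProd_vadd_one ℓ hA)
  simpa using h

/-- The primitive `ℓ`-th root of unity `exp (2πi/ℓ)`, as a unit. -/
def zetaUnit (ℓ : ℕ) : ℂˣ := expUnit ((1 : ℝ) / ℓ)

theorem isPrimitiveRoot_zetaUnit (ℓ : ℕ) [NeZero ℓ] : IsPrimitiveRoot ((zetaUnit ℓ : ℂˣ) : ℂ) ℓ := by
  have h := Complex.isPrimitiveRoot_exp ℓ (NeZero.ne ℓ)
  have e : ((zetaUnit ℓ : ℂˣ) : ℂ) = Complex.exp (2 * π * Complex.I / ℓ) := by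
    rw [zetaUnit, coe_expUnit]
    congr 1
    push_cast
    ring
  rw [e]
  exact h

theorem expUnit_nat_div (ℓ : ℕ) (j : ℕ) : expUnit ((j : ℝ) / ℓ) = zetaUnit ℓ ^ j := by
  apply Units.ext
  rw [Units.val_pow_eq_pow_val, zetaUnit, coe_expUnit, coe_expUnit, ← Complex.exp_nat_mul]
  congr 1
  push_cast
  ring

theorem prod_zmod_val {M : Type*} [CommMonoid M] (ℓ : ℕ) [NeZero ℓ] (f : ℕ → M) :
    ∏ j : ZMod ℓ, f j.val = ∏ i ∈ Finset.range ℓ, f i := by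
  obtain ⟨n, rfl⟩ := Nat.exists_eq_succ_of_ne_zero (NeZero.ne ℓ)
  exact Fin.prod_univ_eq_prod_range f (n + 1)

/-- The q-expansion of the `U`-part. -/
theorem qx_uProd (ℓ : ℕ) [NeZero ℓ] {A : ℍ → ℂ} (hA : A ∈ S23.niceSub) :
    qx (uProd ℓ A) =
      KC.qContract ℓ (∏ i ∈ Finset.range ℓ, KC.twist (zetaUnit ℓ ^ i) (qx A)) := by
  have hP := uProd_mem_niceSub ℓ hA
  have h1 : qx (fun z => uProd ℓ A (S23.mulN ℓ z)) = qExpand ℂ ℓ (qx (uProd ℓ A)) :=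
    S24.AnBridge.ofPowerSeries_qExpansion_scale ℓ hP
  have h2 : (fun z => uProd ℓ A (S23.mulN ℓ z)) =
      ∏ j : ZMod ℓ, fun z : ℍ => A (((j.val : ℝ) / ℓ) +ᵥ z) := by
    funext z
    rw [Finset.prod_apply]
    unfold uProd
    refine Finset.prod_congr rfl fun j _ => ?_
    rw [heckeMatrix_smul_mulN]
  have h3 := (prod_mem_niceSub_and_qx Finset.univ
    (fun (j : ZMod ℓ) (z : ℍ) => A (((j.val : ℝ) / ℓ) +ᵥ z))
    (fun j _ => shift_mem_niceSub _ hA)).2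
  have h4 : ∏ j : ZMod ℓ, qx (fun z : ℍ => A (((j.val : ℝ) / ℓ) +ᵥ z)) =
      ∏ i ∈ Finset.range ℓ, KC.twist (zetaUnit ℓ ^ i) (qx A) := by
    rw [← prod_zmod_val ℓ (fun i => KC.twist (zetaUnit ℓ ^ i) (qx A))]
    refine Finset.prod_congr rfl fun j _ => ?_
    rw [qx_shift _ hA, expUnit_nat_div]
  rw [h2, h3, h4] at h1
  rw [h1, KC.qContract_qExpand]

/-! ### The slash Hecke product -/

/-- The constant `ℓ^(w-1) · ℓ^(-ℓ)` relating the slash product to the plain product. -/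
def slashConst (ℓ : ℕ) (w : ℤ) : ℂ := (ℓ : ℂ) ^ (w - 1) * ((ℓ : ℂ)⁻¹) ^ ℓ

theorem slashConst_ne_zero (ℓ : ℕ) [NeZero ℓ] (w : ℤ) : slashConst ℓ w ≠ 0 := by
  have hℓ : (ℓ : ℂ) ≠ 0 := Nat.cast_ne_zero.mpr (NeZero.ne ℓ)
  exact mul_ne_zero (zpow_ne_zero _ hℓ) (pow_ne_zero _ (inv_ne_zero hℓ))

/-- The slash Hecke product in terms of the dilation and the `U`-part. -/
theorem prod_slash_heckeRep_eq (ℓ : ℕ) [NeZero ℓ] (w : ℤ) (A : ℍ → ℂ) :
    (∏ x : OnePoint (ZMod ℓ), A ∣[w] heckeRep ℓ x) =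
      slashConst ℓ w • ((fun z => A (S23.mulN ℓ z)) * uProd ℓ A) := by
  funext z
  rw [Finset.prod_apply, Pi.smul_apply, Pi.mul_apply, smul_eq_mul]
  have h := Fintype.prod_option (fun x : OnePoint (ZMod ℓ) => (A ∣[w] heckeRep ℓ x) z)
  refine h.trans ?_
  have h1 : (A ∣[w] heckeRep ℓ (none : OnePoint (ZMod ℓ))) z =
      (ℓ : ℂ) ^ (w - 1) * A (S23.mulN ℓ z) := by
    show (A ∣[w] heckeDiagMatrix ℓ) z = _
    rw [slash_heckeDiagMatrix_apply w (NeZero.ne ℓ), heckeDiagMatrix_smul_eq]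
  have h2 : ∀ j : ZMod ℓ, (A ∣[w] heckeRep ℓ (some j : OnePoint (ZMod ℓ))) z =
      (ℓ : ℂ)⁻¹ * A (heckeMatrix ℓ j.val • z) := by
    intro j
    show (A ∣[w] heckeMatrix ℓ j.val) z = _
    rw [slash_heckeMatrix_apply w (NeZero.ne ℓ)]
  simp only [h1, h2, Finset.prod_mul_distrib, Finset.prod_const, Finset.card_univ, ZMod.card]
  unfold uProd slashConst
  ring

/-- **(K6b)**, explicit form: the q-expansion of the slash Hecke product of a nice function. -/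
theorem qx_prod_slash_heckeRep (ℓ : ℕ) [NeZero ℓ] (w : ℤ) {A : ℍ → ℂ} (hA : A ∈ S23.niceSub) :
    qx (∏ x : OnePoint (ZMod ℓ), A ∣[w] heckeRep ℓ x) =
      slashConst ℓ w • KC.kronT (zetaUnit ℓ) ℓ (qx A) := by
  have hD : (fun z => A (S23.mulN ℓ z)) ∈ S23.niceSub := S24.AnBridge.scale_mem_niceSub ℓ hA
  have hP := uProd_mem_niceSub ℓ hA
  have hDq : qx (fun z => A (S23.mulN ℓ z)) = qExpand ℂ ℓ (qx A) :=
    S24.AnBridge.ofPowerSeries_qExpansion_scale ℓ hA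
  rw [prod_slash_heckeRep_eq, qx_smul _ (S23.niceSub.mul_mem hD hP), qx_mul hD hP, hDq,
    qx_uProd ℓ hA]
  rfl

/-- **(K6b)**, consumer shape of the (K6) table (board #2015). -/
theorem exists_qx_prod_slash_heckeRep (ℓ : ℕ) [NeZero ℓ] (_hℓ : ℓ.Prime) (w : ℤ) :
    ∃ (c : ℂ) (ζ : ℂˣ), c ≠ 0 ∧ IsPrimitiveRoot (ζ : ℂ) ℓ ∧
      ∀ A ∈ S23.niceSub, qx (∏ x : OnePoint (ZMod ℓ), A ∣[w] heckeRep ℓ x) =
        c • KC.kronT ζ ℓ (qx A) :=
  ⟨slashConst ℓ w, zetaUnit ℓ, slashConst_ne_zero ℓ w, isPrimitiveRoot_zetaUnit ℓ,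
    fun _ hA => qx_prod_slash_heckeRep ℓ w hA⟩

end Fermat.Agent.S29.HeckeProdQxB

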