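/-
S29 block [K], leaf (K6) = (WH) — K6Hecke.lean (helper88): the GLUE of the Hecke product.

The witness class `K.Mchi N χ` (q-expansions of quotients `A / B`, `A` a form with multiplier
`χ`, `B ≠ 0` a form with trivial multiplier of the same weight) is stable under the formal
Hecke product `KC.kronT ζ ℓ` (`y ↦ y(q^ℓ) · (∏_{i<ℓ} y(ζ^i q))(q^{1/ℓ})`), with the multiplier
`χ' γ = ∏_x χ (γ'_x)` (the `T_ℓ`-transform of `χ`, coset data of `S16/HeckeHom`).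

The two analytic inputs are isolated as `Prop`s (consumer shapes, board #2015):

* `ProdMemStatement N ℓ hℓN` (K6a): `A ∈ MFchi N w χ ⇒ ∏_x A ∣[w] α_x ∈ MFchi N (w (ℓ+1)) χ'`;
* `ProdQxStatement ℓ`        (K6b): `qx (∏_x A ∣[w] α_x) = c • kronT ζ₀ ℓ (qx A)`, `c ≠ 0`.

Results (conditional on these two `Prop`s):

* `kronT_eq_of_isPrimitiveRoot` : `kronT ζ ℓ` does not depend on the primitive root `ζ`;
* `kronT_mul`, `kronT_ne_zero`  : `kronT` is multiplicative and preserves `≠ 0`;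
* `kronT_mem_Mchi`              : `x ∈ Mchi N χ ⇒ kronT ζ ℓ x ∈ Mchi N χ'`;
* `hecke_wit`                   : the `ℚ̄`-form = leaf (WH) / `KTheta.Inputs.hecke`;
* `prodMemStatement`            : (K6a) holds (`S29/HeckeProdMem.lean`, helper26);
* `whStatement_of_qx`           : `KPlan.WHStatement N p` from (K6b) alone (any `p`);
* `prodQxStatement`             : (K6b) holds (`S29/HeckeProdQxB.lean`, helper104);
* `whStatement`                 : **`KPlan.WHStatement N p`**, unconditionally, for every `p`.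
-/
import Mathlib
import Fermat.Agent.S29.KDefs
import Fermat.Agent.S29.KBasic
import Fermat.Agent.S37.KC
import Fermat.Agent.S16.HeckeHom
import Fermat.Agent.S24.AnDefs
import Fermat.Agent.S29.HeckeProdMem
import Fermat.Agent.S29.HeckeProdQxB
import Fermat.Agent.S29.KPlanDefs

set_option autoImplicit false

noncomputable section

namespace Fermat.Agent.S29.K6Hecke

open CongruenceSubgroup Matrix.SpecialLinearGroup UpperHalfPlane ModularCurve HahnSeries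
open scoped MatrixGroups ModularForm Manifold
open P2MW.S_ModularForm_heckeT_slash_eq_self_of_mem_Gamma0.ModularForm.HeckeSlashInvariance
open Fermat.Agent.S16 Fermat.Agent.S37 Fermat.Agent.S24

local notation "Qb" => AlgebraicClosure ℚ

/-! ### The two analytic inputs (consumer shapes) -/

/-- Consumer shape of (K6a): the slash-product over the coset representatives of `T_ℓ` of a
form with multiplier `χ` is a form with multiplier `χ' = T_ℓ χ`, of weight `w (ℓ + 1)`. -/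
def ProdMemStatement (N ℓ : ℕ) [Fact ℓ.Prime] (hℓN : ¬ ℓ ∣ N) : Prop :=
  ∀ (w : ℤ) (χ χ' : ↥(Gamma0 N) →* ℂˣ) (A : ℍ → ℂ),
    (∀ γ : ↥(Gamma0 N), χ' γ = ∏ x : OnePoint (ZMod ℓ), χ ((tData N ℓ hℓN).part γ x)) →
    A ∈ K.MFchi N w χ →
    (∏ x : OnePoint (ZMod ℓ), A ∣[w] heckeRep ℓ x) ∈ K.MFchi N (w * (ℓ + 1)) χ'

/-- Consumer shape of (K6b): the q-expansion of the slash-product of a nice function is a
nonzero constant times the formal Hecke product of its q-expansion. -/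
def ProdQxStatement (ℓ : ℕ) [NeZero ℓ] : Prop :=
  ∀ w : ℤ, ∃ (c : ℂ) (ζ : ℂˣ), c ≠ 0 ∧ IsPrimitiveRoot (ζ : ℂ) ℓ ∧
    ∀ A ∈ S23.niceSub,
      K.qx (∏ x : OnePoint (ZMod ℓ), A ∣[w] heckeRep ℓ x) = c • KC.kronT ζ ℓ (K.qx A)

/-! ### Formal properties of `kronT` -/

section Formal

variable {R : Type*} [CommRing R] [IsDomain R]

/-- The set of powers `ζ^i`, `i < ℓ`, of a primitive `ℓ`-th root of unity contains every
`ℓ`-th root of unity. -/
theorem pow_mem_image_of_isPrimitiveRoot [DecidableEq Rˣ] {ζ ζ' : Rˣ} {ℓ : ℕ} [NeZero ℓ]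
    (hζ : IsPrimitiveRoot (ζ : R) ℓ) (hζ' : (ζ' : R) ^ ℓ = 1) (i : ℕ) :
    ζ' ^ i ∈ (Finset.range ℓ).image (fun j => ζ ^ j) := by
  have h1 : (((ζ' ^ i : Rˣ) : R)) ^ ℓ = 1 := by
    rw [Units.val_pow_eq_pow_val, ← pow_mul, mul_comm, pow_mul, hζ', one_pow]
  obtain ⟨j, hj, hj'⟩ := hζ.eq_pow_of_pow_eq_one h1
  refine Finset.mem_image.mpr ⟨j, Finset.mem_range.mpr hj, ?_⟩
  exact Units.ext (by rw [Units.val_pow_eq_pow_val]; exact hj')

/-- The sets of powers of two primitive `ℓ`-th roots of unity coincide. -/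
theorem image_pow_eq_of_isPrimitiveRoot [DecidableEq Rˣ] {ζ ζ' : Rˣ} {ℓ : ℕ} [NeZero ℓ]
    (hζ : IsPrimitiveRoot (ζ : R) ℓ) (hζ' : IsPrimitiveRoot (ζ' : R) ℓ) :
    (Finset.range ℓ).image (fun j => ζ ^ j) = (Finset.range ℓ).image (fun j => ζ' ^ j) := by
  apply Finset.Subset.antisymm
  · intro a ha
    obtain ⟨i, _, rfl⟩ := Finset.mem_image.mp ha
    exact pow_mem_image_of_isPrimitiveRoot hζ' hζ.pow_eq_one i
  · intro a ha
    obtain ⟨i, _, rfl⟩ := Finset.mem_image.mp ha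
    exact pow_mem_image_of_isPrimitiveRoot hζ hζ'.pow_eq_one i

/-- A product over the powers of a primitive root does not depend on the primitive root. -/
theorem prod_pow_eq_of_isPrimitiveRoot {M : Type*} [CommMonoid M] {ζ ζ' : Rˣ} {ℓ : ℕ} [NeZero ℓ]
    (hζ : IsPrimitiveRoot (ζ : R) ℓ) (hζ' : IsPrimitiveRoot (ζ' : R) ℓ) (f : Rˣ → M) :
    ∏ i ∈ Finset.range ℓ, f (ζ ^ i) = ∏ i ∈ Finset.range ℓ, f (ζ' ^ i) := by
  classical
  have hinj : ∀ {ξ : Rˣ}, IsPrimitiveRoot (ξ : R) ℓ →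
      Set.InjOn (fun j => ξ ^ j) (Finset.range ℓ : Set ℕ) := by
    intro ξ hξ i hi j hj hij
    have hi' : i < ℓ := Finset.mem_range.mp hi
    have hj' : j < ℓ := Finset.mem_range.mp hj
    refine hξ.pow_inj hi' hj' ?_
    have := congrArg (fun u : Rˣ => (u : R)) hij
    simpa [Units.val_pow_eq_pow_val] using this
  rw [← Finset.prod_image (f := f) (hinj hζ), ← Finset.prod_image (f := f) (hinj hζ'),
    image_pow_eq_of_isPrimitiveRoot hζ hζ']

/-- `kronT ζ ℓ` does not depend on the primitive `ℓ`-th root of unity `ζ`. -/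
theorem kronT_eq_of_isPrimitiveRoot {ζ ζ' : Rˣ} {ℓ : ℕ} [NeZero ℓ]
    (hζ : IsPrimitiveRoot (ζ : R) ℓ) (hζ' : IsPrimitiveRoot (ζ' : R) ℓ) (y : LaurentSeries R) :
    KC.kronT ζ ℓ y = KC.kronT ζ' ℓ y := by
  unfold KC.kronT
  rw [prod_pow_eq_of_isPrimitiveRoot hζ hζ' (fun ξ => KC.twist ξ y)]

/-- `kronT` is multiplicative. -/
theorem kronT_mul {ζ : Rˣ} {ℓ : ℕ} [NeZero ℓ] (hζ : IsPrimitiveRoot (ζ : R) ℓ)
    (x y : LaurentSeries R) : KC.kronT ζ ℓ (x * y) = KC.kronT ζ ℓ x * KC.kronT ζ ℓ y := by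
  apply qExpand_injective (R := R) (N := ℓ)
  rw [map_mul, KC.qExpand_kronT hζ, KC.qExpand_kronT hζ, KC.qExpand_kronT hζ]
  simp only [map_mul, Finset.prod_mul_distrib]
  ring

end Formal

section FormalField

variable {F : Type*} [Field F]

/-- `kronT` of a nonzero series is nonzero. -/
theorem kronT_ne_zero {ζ : Fˣ} {ℓ : ℕ} [NeZero ℓ] (hζ : IsPrimitiveRoot (ζ : F) ℓ)
    {y : LaurentSeries F} (hy : y ≠ 0) : KC.kronT ζ ℓ y ≠ 0 := by
  intro h
  have h1 := KC.qExpand_kronT hζ y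
  rw [h, map_zero] at h1
  have h2 : qExpand F ℓ (qExpand F ℓ y) ≠ 0 := by
    intro h0
    exact hy (qExpand_injective (R := F) (N := ℓ)
      (qExpand_injective (R := F) (N := ℓ) (by rw [h0, map_zero, map_zero])))
  have h3 : ∏ i ∈ Finset.range ℓ, KC.twist (ζ ^ i) y ≠ 0 := by
    refine Finset.prod_ne_zero_iff.mpr fun i _ h0 => hy ?_
    exact KC.twist_injective (ζ ^ i) (by rw [h0, map_zero])
  exact mul_ne_zero h2 h3 h1.symm

end FormalField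

/-! ### The witness class is stable under the Hecke product -/

section Glue

variable {N ℓ : ℕ} [NeZero N] [Fact ℓ.Prime] [NeZero ℓ] {hℓN : ¬ ℓ ∣ N}

/-- **(K6), ℂ-form.**  If `x ∈ Mchi N χ` (`χ (T) = 1`) then `kronT ζ ℓ x ∈ Mchi N χ'`, where
`χ' γ = ∏_x χ (γ'_x)` is the `T_ℓ`-transform of the multiplier. -/
theorem kronT_mem_Mchi (hMem : ProdMemStatement N ℓ hℓN) (hQx : ProdQxStatement ℓ)
    {χ χ' : ↥(Gamma0 N) →* ℂˣ} (hT : χ (K.TG N) = 1)
    (hχ : ∀ γ : ↥(Gamma0 N), χ' γ = ∏ x : OnePoint (ZMod ℓ), χ ((tData N ℓ hℓN).part γ x))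
    {ζ : ℂˣ} (hζ : IsPrimitiveRoot (ζ : ℂ) ℓ) {x : LaurentSeries ℂ} (hx : x ∈ K.Mchi N χ) :
    KC.kronT ζ ℓ x ∈ K.Mchi N χ' := by
  obtain ⟨w, A, B, hA, hB, hB0, hxAB⟩ := hx
  obtain ⟨c, ζ₀, hc, hζ₀, hq⟩ := hQx w
  have hAn : A ∈ S23.niceSub := K.mem_niceSub_of_mem_MFchi hT hA
  have hBn : B ∈ S23.niceSub := K.mem_niceSub_of_mem_MF hB
  have hA' := hMem w χ χ' A hχ hA
  have hB' := hMem w 1 1 B (fun γ => by simp) (K.mem_MFchi_one_iff.mpr hB)
  have hB'MF := K.mem_MFchi_one_iff.mp hB'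
  have hqA := hq A hAn
  have hqB := hq B hBn
  have hB'0 : (∏ x : OnePoint (ZMod ℓ), B ∣[w] heckeRep ℓ x) ≠ 0 := by
    intro h0
    rw [h0, K.qx_zero, ← HahnSeries.C_mul_eq_smul] at hqB
    rcases mul_eq_zero.mp hqB.symm with h | h
    · exact HahnSeries.C_ne_zero hc h
    · exact kronT_ne_zero hζ₀ (K.qx_ne_zero hBn hB0) h
  refine ⟨w * (ℓ + 1), _, _, hA', hB'MF, hB'0, ?_⟩
  rw [hqA, hqB, kronT_eq_of_isPrimitiveRoot hζ hζ₀, ← HahnSeries.C_mul_eq_smul,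
    ← HahnSeries.C_mul_eq_smul, ← hxAB, kronT_mul hζ₀]
  ring

/-- An integer power with a summed exponent is the product of the powers. -/
theorem zpow_finset_sum_eq {G ι : Type*} [CommGroup G] (a : G) (s : Finset ι) (f : ι → ℤ) :
    a ^ ∑ i ∈ s, f i = ∏ i ∈ s, a ^ f i := by
  classical
  induction s using Finset.induction_on with
  | empty => simp
  | insert b s hb ih => rw [Finset.sum_insert hb, Finset.prod_insert hb, zpow_add, ih]

omit [NeZero N] in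
/-- The `T_ℓ`-transform of the multiplier `γ ↦ ζ_p ^ (u γ)` is `γ ↦ ζ_p ^ ((T_ℓ u) γ)`. -/
theorem char_hecke_of_zpow (ζp : ℂˣ) (u : Additive (Gamma0 N) →+ ℤ)
    {χ χ' : ↥(Gamma0 N) →* ℂˣ} (h : ∀ γ : ↥(Gamma0 N), χ γ = ζp ^ u (Additive.ofMul γ))
    (h' : ∀ γ : ↥(Gamma0 N), χ' γ = ζp ^ (heckeTHom N ℓ hℓN u) (Additive.ofMul γ))
    (γ : ↥(Gamma0 N)) :
    χ' γ = ∏ x : OnePoint (ZMod ℓ), χ ((tData N ℓ hℓN).part γ x) := by
  rw [h', heckeTHom_apply, zpow_finset_sum_eq]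
  exact Finset.prod_congr rfl fun x _ => (h _).symm

/-- **(K6) = (WH), `ℚ̄`-form.**  If `y ≠ 0` is a `ℚ̄`-rational witness for the multiplier `χ`
(`χ (T) = 1`), then `y' := kronT ζ ℓ y` is a nonzero `ℚ̄`-rational witness for `χ' = T_ℓ χ`, and
`y' (q^ℓ) = y (q^{ℓ²}) · ∏_{i<ℓ} y (ζ^i q)` — the formal norm shape of `K6Alg.hecke_root`. -/
theorem hecke_wit (hMem : ProdMemStatement N ℓ hℓN) (hQx : ProdQxStatement ℓ)
    {χ χ' : ↥(Gamma0 N) →* ℂˣ} (hT : χ (K.TG N) = 1)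
    (hχ : ∀ γ : ↥(Gamma0 N), χ' γ = ∏ x : OnePoint (ZMod ℓ), χ ((tData N ℓ hℓN).part γ x))
    (ζ : Qb) (hζ : IsPrimitiveRoot ζ ℓ) (hz : ∀ i : ℕ, ζ ^ i ≠ 0)
    {y : LaurentSeries Qb} (hy : y ≠ 0) (hmem : coeffMap embC y ∈ K.Mchi N χ) :
    ∃ y' : LaurentSeries Qb, y' ≠ 0 ∧ coeffMap embC y' ∈ K.Mchi N χ' ∧
      qExpand Qb ℓ y' = qExpand Qb ℓ (qExpand Qb ℓ y) *
        ∏ i ∈ Finset.range ℓ, rotHom (ζ ^ i) (hz i) y := by
  have hζ0 : ζ ≠ 0 := by simpa using hz 1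
  set ζu : Qbˣ := Units.mk0 ζ hζ0 with hζu
  have hζu' : IsPrimitiveRoot ((ζu : Qbˣ) : Qb) ℓ := hζ
  refine ⟨KC.kronT ζu ℓ y, kronT_ne_zero hζu' hy, ?_, ?_⟩
  · rw [KC.coeffMap_kronT]
    refine kronT_mem_Mchi hMem hQx hT hχ ?_ hmem
    have : ((Units.map (embC : Qb →* ℂ) ζu : ℂˣ) : ℂ) = embC ζ := rfl
    rw [this]
    exact hζ.map_of_injective embC.injective
  · rw [KC.qExpand_kronT hζu']
    congr 1
    refine Finset.prod_congr rfl fun i _ => ?_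
    rw [KC.twist_eq_rotHom]
    congr 1

end Glue

/-! ### The leaf (WH) of `KPlanDefs`, from (K6b) -/

/-- (K6a) holds: `S29/HeckeProdMem.lean`. -/
theorem prodMemStatement (N ℓ : ℕ) [Fact ℓ.Prime] (hℓN : ¬ ℓ ∣ N) : ProdMemStatement N ℓ hℓN :=
  fun w χ χ' A hχ hA =>
    HeckeProdMem.prod_slash_heckeRep_mem_of_char N ℓ hℓN w χ χ' A hχ hA

/-- **(WH)** from (K6b): Hecke products of witnesses (no condition on `p`). -/
theorem whStatement_of_qx (N p : ℕ) [NeZero N]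
    (hQx : ∀ (ℓ : ℕ) [NeZero ℓ], ℓ.Prime → ProdQxStatement ℓ) : KPlan.WHStatement N p := by
  intro ℓ hℓ hℓN _ ζ hζ hz u y hW
  obtain ⟨hy, hmem⟩ := hW
  haveI : Fact ℓ.Prime := ⟨hℓ⟩
  haveI : NeZero ℓ := ⟨hℓ.ne_zero⟩
  obtain ⟨y', hy', hmem', hq⟩ := hecke_wit (hℓN := hℓN) (prodMemStatement N ℓ hℓN) (hQx ℓ hℓ)
    (χ := KPlan.chiU p (u : Additive (Gamma0 N) →+ ℤ))
    (χ' := KPlan.chiU p (heckeTHom N ℓ hℓN (u : Additive (Gamma0 N) →+ ℤ)))
    (KPlan.chiU_TG p u)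
    (char_hecke_of_zpow (KPlan.zetaU p) (u : Additive (Gamma0 N) →+ ℤ)
      (fun _ => rfl) (fun _ => rfl))
    ζ hζ hz hy hmem
  exact ⟨y', ⟨hy', hmem'⟩, hq⟩

/-- (K6b) holds: `S29/HeckeProdQxB.lean`. -/
theorem prodQxStatement (ℓ : ℕ) [NeZero ℓ] (hℓ : ℓ.Prime) : ProdQxStatement ℓ :=
  fun w => HeckeProdQxB.exists_qx_prod_slash_heckeRep ℓ hℓ w

/-- **(WH) = (K6)**: Hecke products of witnesses, for every `N` and every torsion order `p`. -/
theorem whStatement (N p : ℕ) [NeZero N] : KPlan.WHStatement N p :=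
  whStatement_of_qx N p fun ℓ _ hℓ => prodQxStatement ℓ hℓ

end Fermat.Agent.S29.K6Hecke
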