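/-
S29 block [K], leaf (K6), ALGEBRAIC half — K6Alg.lean (helper127).

`T_ℓ` on `p`-th-root classes of `J₀(N)`.  Let `D` be a divisor of degree zero of
`F̄ = modularFunctionFieldBar N` with `p • D = div f` (`f ≠ 0`).  Then the frozen Hecke operator
`heckeOperatorBar N ℓ` (`ℓ ∤ N` prime) sends the class of `D` to the class of a divisor `E` of
degree zero with `p • E = div g`, where `g = N_α (β f)` is the function with `q`-expansion

    `g (q^ℓ) = f (q^{ℓ²}) · ∏_{i < ℓ} f (ζ^i q)`        (`ζ` a primitive `ℓ`-th root of unity),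

i.e. `g (τ) = f (ℓ τ) · ∏_{i < ℓ} f ((τ + i) / ℓ)` as functions on the upper half plane: the
product of `f` over the `ℓ + 1` coset representatives of `T_ℓ`.

* `correspondence_root` (generic): a correspondence applied to a `p`-th root divisor;
* `heckeOperatorBar_mk` : `T_ℓ [D] = [heckeDivBar D]`;
* `hecke_root` : the statement above.
-/
import Mathlib
import Fermat.Prelude.Def_ModularCurve_HeckeModule
import Fermat.Agent.S37.HeckeInputs
import Fermat.Agent.S37.P.ESPrin
import Fermat.Agent.S37.W.NormAlpha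

set_option autoImplicit false
set_option linter.style.haveILetI false

open ModularCurve AlgebraicCurve HahnSeries

namespace Fermat.Agent.S29.K6Alg

open Fermat.Agent.S24 Fermat.Agent.S37

local notation "Qb" => AlgebraicClosure ℚ

noncomputable section

set_option synthInstance.maxHeartbeats 400000

section Generic

variable {K F F' : Type*} [Field K] [Field F] [Field F'] [Algebra K F] [Algebra K F']

/-- The correspondence `ψ_* ∘ φ^*` applied to a `p`-th root divisor: if `p • D = div f`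
then `p • (ψ_* φ^* D) = div (N_ψ (φ f))`. -/
theorem correspondence_root [HasPrincipalDivisors K F']
    (φ ψ : F →ₐ[K] F') (hφ : φ.toRingHom.IsIntegral) (hψ : ψ.toRingHom.IsIntegral)
    (hfin : FiniteAlong K ψ) (hN : NormFormulaAlong K ψ hfin)
    (p : ℕ) {D : Divisor K F} {f : F} (hf : f ≠ 0)
    (hDf : ∀ v : Place K F, (p : ℤ) * D v = v.ord f) (v : Place K F) :
    (p : ℤ) * Divisor.correspondence φ ψ hφ hψ D v =
      v.ord (letI := algebraAlong ψ; Algebra.norm F (φ f)) := by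
  have h1 : ∀ w : Place K F, (p • D) w = w.ord f := by
    intro w
    rw [Finsupp.smul_apply, nsmul_eq_mul]
    exact hDf w
  have h2 := P.ESPrin.ESPrin_correspondence_apply_eq_ord_norm φ ψ hφ hψ hfin hN hf h1 v
  rw [map_nsmul, Finsupp.smul_apply, nsmul_eq_mul] at h2
  exact h2

/-- The norm along a finite map of a nonzero element is nonzero. -/
theorem norm_along_ne_zero (ψ : F →ₐ[K] F') (hfin : FiniteAlong K ψ) {x : F'} (hx : x ≠ 0) :
    (letI := algebraAlong ψ; Algebra.norm F x) ≠ 0 := by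
  letI := algebraAlong ψ
  haveI : Module.Finite F F' := hfin
  exact Algebra.norm_ne_zero_iff.mpr hx

end Generic

section Modular

variable (N ℓ : ℕ) [NeZero N] [NeZero ℓ]

/-- `T_ℓ` on the class of a divisor of degree zero is the class of `heckeDivBar D`. -/
theorem heckeOperatorBar_mk (hℓ : ℓ.Prime)
    (hα : HeckeAlphaBarIntegral Qb N ℓ) (hβ : HeckeBetaBarIntegral Qb N ℓ)
    [HasPrincipalDivisors Qb (laurentBaseChange Qb (modularFunctionFieldFull (N * ℓ)))]
    (hFI : FundamentalIdentityAlong Qb (heckeBetaBar Qb N ℓ) hβ)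
    (hfin : FiniteAlong Qb (heckeAlphaBar Qb N ℓ))
    (hN : NormFormulaAlong Qb (heckeAlphaBar Qb N ℓ) hfin)
    (D : Divisor.degZero (K := Qb) (F := modularFunctionFieldBar N)) :
    heckeOperatorBar N ⟨ℓ, hℓ⟩ (Pic0.mk D) =
      Pic0.mk (Pic0.degZeroCorrespondence (heckeBetaBar Qb N ℓ) (heckeAlphaBar Qb N ℓ) hβ hα hFI D) := by
  have e1 : heckeOperatorBar N (⟨ℓ, hℓ⟩ : Nat.Primes) (Pic0.mk D)
      = heckePic0Bar hα hβ hFI hfin hN (Pic0.mk D) :=
    (heckeOperatorBar_apply N (⟨ℓ, hℓ⟩ : Nat.Primes) (Pic0.mk D)).trans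
      (DFunLike.congr_fun (heckeOperatorAlong_eq hα hβ hFI hfin hN) (Pic0.mk D))
  rw [e1]
  rfl

/-- **(K6), algebraic half.**  If `p • D = div f` then `T_ℓ [D] = [E]` with `p • E = div g`,
`g (q^ℓ) = f (q^{ℓ²}) · ∏_{i<ℓ} f (ζ^i q)`. -/
theorem hecke_root (hℓ : ℓ.Prime) (hℓN : ¬ ℓ ∣ N) (p : ℕ)
    (D : Divisor.degZero (K := Qb) (F := modularFunctionFieldBar N))
    (f : modularFunctionFieldBar N) (hf : f ≠ 0)
    (hD : ∀ P : Place Qb (modularFunctionFieldBar N),
      (p : ℤ) * (D : Divisor Qb (modularFunctionFieldBar N)) P = P.ord f)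
    (ζ : Qb) (hζ : IsPrimitiveRoot ζ ℓ) (hz : ∀ i : ℕ, ζ ^ i ≠ 0) :
    ∃ (E : Divisor.degZero (K := Qb) (F := modularFunctionFieldBar N))
      (g : modularFunctionFieldBar N),
      heckeOperatorBar N ⟨ℓ, hℓ⟩ (Pic0.mk D) = Pic0.mk E ∧ g ≠ 0 ∧
      (∀ P : Place Qb (modularFunctionFieldBar N),
        (p : ℤ) * (E : Divisor Qb (modularFunctionFieldBar N)) P = P.ord g) ∧
      qExpand Qb ℓ (g : LaurentSeries Qb) =
        qExpand Qb ℓ (qExpand Qb ℓ (f : LaurentSeries Qb)) *
          ∏ i ∈ Finset.range ℓ, rotHom (ζ ^ i) (hz i) (f : LaurentSeries Qb) := by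
  obtain ⟨hα, hβ, hP, hfin, hFI, hN⟩ := HI.heckeInputsAlong_of_neZero N ℓ
  haveI := hP
  refine ⟨Pic0.degZeroCorrespondence (heckeBetaBar Qb N ℓ) (heckeAlphaBar Qb N ℓ) hβ hα hFI D,
    (letI := algebraAlong (heckeAlphaBar Qb N ℓ);
      Algebra.norm (↥(modularFunctionFieldBar N)) (heckeBetaBar Qb N ℓ f)),
    heckeOperatorBar_mk N ℓ hℓ hα hβ hFI hfin hN D, ?_, ?_, ?_⟩
  · exact norm_along_ne_zero (heckeAlphaBar Qb N ℓ) hfin ((map_ne_zero _).mpr hf)
  · intro P
    rw [Pic0.coe_degZeroCorrespondence]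
    exact correspondence_root (heckeBetaBar Qb N ℓ) (heckeAlphaBar Qb N ℓ) hβ hα hfin hN p hf hD P
  · exact W.qExpand_norm_alpha_beta N ℓ hℓ hℓN ζ hζ hz f

end Modular

end

end Fermat.Agent.S29.K6Alg
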