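/-
S29 block [K] — KTheta.lean (helper81): the Θ-ASSEMBLY at the top of block [K].

`KStatement N p` (`S29/Defs.lean`) asks for an additive `θ : Lpar N → J₀(N)` killed by `p`, with
kernel `p·Lpar N`, commuting with `T_ℓ` (`ℓ ∤ N`, `ℓ ≠ p`).  This file produces `θ` from an
ARBITRARY "witness relation" `W : Lpar N → LaurentSeries ℚ̄ → Prop` satisfying the seven closure
properties of `Inputs` (board #1867 / lead #1881(2)):

    `θ u := [(1/p)·div (y ^ p)]`   for any witness `y` of `u`.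

Intended instance: `W u y := y ≠ 0 ∧ coeffMap embC y ∈ K.Mchi N χ_u`, `χ_u γ = ζ_p ^ (u γ)`.

* generic part (`K` algebraically closed of characteristic zero, `E` an intermediate field of
  `L/K` which is a function field in one variable): `RootClass p y c` — "`c` is the class of a
  degree-zero divisor `D` with `p·D = div (y ^ p)`" — existence, uniqueness up to `Eˣ`,
  additivity, `p`-torsion, and `RootClass p y 0 → y ∈ E`;
* `kStatement_of_inputs` : `Inputs N p W → KStatement N p`.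
-/
import Mathlib
import Fermat.Agent.S29.Defs
import Fermat.Agent.S29.K6Alg
import Fermat.Agent.S24.Principal

set_option autoImplicit false
set_option linter.style.haveILetI false

open ModularCurve AlgebraicCurve HahnSeries IntermediateField

namespace Fermat.Agent.S29.KTheta

open Fermat.Agent.S41 (Lpar)
open Fermat.Agent.S24 (IsFF1 rotHom)

noncomputable section

/-! ### Generic part: classes of `p`-th root divisors -/

section Generic

variable {K F : Type*} [Field K] [Field F] [Algebra K F]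

/-- Two degree-zero divisors differing by a principal divisor have the same class. -/
theorem mk_eq_mk_of_ord {D D' : Divisor.degZero (K := K) (F := F)} {h : F} (hh : h ≠ 0)
    (hDD : ∀ P : Place K F,
      (D' : Divisor K F) P = (D : Divisor K F) P + P.ord h) :
    Pic0.mk D' = Pic0.mk D := by
  refine QuotientAddGroup.eq.mpr ?_
  rw [AddSubgroup.mem_addSubgroupOf]
  refine ⟨h⁻¹, inv_ne_zero hh, fun P => ?_⟩
  have h1 : ((-D' + D : Divisor.degZero (K := K) (F := F)) : Divisor K F) P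
      = -((D' : Divisor K F) P) + (D : Divisor K F) P := by
    simp
  rw [h1, hDD P, Place.ord_inv]
  ring

/-- The class of a principal degree-zero divisor vanishes. -/
theorem mk_eq_zero_of_ord {D : Divisor.degZero (K := K) (F := F)} {h : F} (hh : h ≠ 0)
    (hD : ∀ P : Place K F, (D : Divisor K F) P = P.ord h) :
    Pic0.mk D = 0 := by
  refine (QuotientAddGroup.eq_zero_iff _).mpr ?_
  rw [AddSubgroup.mem_addSubgroupOf]
  exact ⟨h, hh, hD⟩

/-- A vanishing class is principal. -/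
theorem exists_ord_of_mk_eq_zero {D : Divisor.degZero (K := K) (F := F)}
    (h0 : Pic0.mk D = 0) :
    ∃ h : F, h ≠ 0 ∧ ∀ P : Place K F, (D : Divisor K F) P = P.ord h := by
  have h1 := (QuotientAddGroup.eq_zero_iff _).mp h0
  rw [AddSubgroup.mem_addSubgroupOf] at h1
  exact h1

variable [IsAlgClosed K] [CharZero K]

/-- A function without zeros and poles is constant. -/
theorem mem_range_of_ord_eq_zero (hF : IsFF1 K F) (f : F)
    (h : ∀ P : Place K F, P.ord f = 0) : f ∈ Set.range (algebraMap K F) := by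
  by_contra hc
  have ht := Fermat.Agent.S24.principal_transcendental_of_notMem_range hc
  have h1 := Fermat.Agent.S24.sum_ord_neg hF ht
  rw [finsum_mem_eq_zero_of_forall_eq_zero (fun v _ => h v)] at h1
  haveI := Fermat.Agent.S24.finiteDimensional_adjoin_simple hF ht
  have h2 : 0 < Module.finrank K⟮f⟯ F := Module.finrank_pos
  omega

/-- A function all of whose orders are divisible by `p` has a `p`-th root divisor, of degree
zero. -/
theorem exists_rootDiv (hF : IsFF1 K F) {p : ℕ} (hp : p ≠ 0) {f : F} (hf : f ≠ 0)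
    (hdvd : ∀ P : Place K F, (p : ℤ) ∣ P.ord f) :
    ∃ D : Divisor.degZero (K := K) (F := F),
      ∀ P : Place K F, (p : ℤ) * (D : Divisor K F) P = P.ord f := by
  classical
  have hfin : {v : Place K F | v.ord f ≠ 0}.Finite := Fermat.Agent.S24.finite_ord_ne_zero hF hf
  have hsub : (Function.support fun v : Place K F => v.ord f / (p : ℤ)) ⊆
      {v : Place K F | v.ord f ≠ 0} := by
    intro v hv h0
    apply hv
    show v.ord f / (p : ℤ) = 0
    rw [h0, Int.zero_ediv]
  let D : Divisor K F := Finsupp.ofSupportFinite (fun v => v.ord f / (p : ℤ)) (hfin.subset hsub)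
  have hD : ∀ P : Place K F, (p : ℤ) * D P = P.ord f := fun P =>
    Int.mul_ediv_cancel' (hdvd P)
  have hdeg : Divisor.degree D = 0 := by
    have h1 : Divisor.degree (p • D) = 0 :=
      Fermat.Agent.S24.degree_eq_zero_of_principal hF hf (p • D) (fun v => by
        rw [Finsupp.smul_apply, nsmul_eq_mul]
        exact hD v)
    rw [map_nsmul, nsmul_eq_mul] at h1
    exact (mul_eq_zero.mp h1).resolve_left (by exact_mod_cast hp)
  exact ⟨⟨D, hdeg⟩, hD⟩

end Generic

section RootClass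

variable {K L : Type*} [Field K] [Field L] [Algebra K L]

/-- `c` is the class of a degree-zero divisor `D` of the function field `E ⊆ L` with
`p·D = div (y ^ p)` (in particular `y ^ p ∈ E`). -/
def RootClass (E : IntermediateField K L) (p : ℕ) (y : L) (c : Pic0 K E) : Prop :=
  ∃ (f : E) (D : Divisor.degZero (K := K) (F := E)), (f : L) = y ^ p ∧
    (∀ P : Place K E, (p : ℤ) * (D : Divisor K E) P = P.ord f) ∧ c = Pic0.mk D

variable {E : IntermediateField K L} {p : ℕ}

theorem RootClass.mul {y y' : L} {c c' : Pic0 K E} (hy : y ≠ 0) (hy' : y' ≠ 0)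
    (h : RootClass E p y c) (h' : RootClass E p y' c') : RootClass E p (y * y') (c + c') := by
  obtain ⟨f, D, hf, hD, rfl⟩ := h
  obtain ⟨f', D', hf', hD', rfl⟩ := h'
  have hf0 : f ≠ 0 := fun h0 => pow_ne_zero p hy (by rw [← hf, h0]; rfl)
  have hf0' : f' ≠ 0 := fun h0 => pow_ne_zero p hy' (by rw [← hf', h0]; rfl)
  refine ⟨f * f', D + D', ?_, fun P => ?_, rfl⟩
  · rw [mul_pow, ← hf, ← hf']
    rfl
  · have h1 : ((D + D' : Divisor.degZero (K := K) (F := E)) : Divisor K E) P
        = (D : Divisor K E) P + (D' : Divisor K E) P := by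
      simp
    rw [h1, mul_add, hD P, hD' P, P.ord_mul hf0 hf0']

theorem RootClass.nsmul_eq_zero {y : L} {c : Pic0 K E} (hy : y ≠ 0) (h : RootClass E p y c) :
    p • c = 0 := by
  obtain ⟨f, D, hf, hD, rfl⟩ := h
  have hf0 : f ≠ 0 := fun h0 => pow_ne_zero p hy (by rw [← hf, h0]; rfl)
  have h1 : p • Pic0.mk D = Pic0.mk (p • D) := rfl
  rw [h1]
  refine mk_eq_zero_of_ord hf0 (fun P => ?_)
  have h2 : ((p • D : Divisor.degZero (K := K) (F := E)) : Divisor K E) P
      = (p : ℤ) * (D : Divisor K E) P := by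
    simp
  rw [h2, hD P]

theorem RootClass.unique (hp : p ≠ 0) {y y' : L} {c c' : Pic0 K E} (hy' : y' ≠ 0)
    (g : E) (hg : y' = (g : L) * y) (h : RootClass E p y c) (h' : RootClass E p y' c') :
    c' = c := by
  obtain ⟨f, D, hf, hD, rfl⟩ := h
  obtain ⟨f', D', hf', hD', rfl⟩ := h'
  have hy : y ≠ 0 := fun h0 => hy' (by rw [hg, h0, mul_zero])
  have hg0 : g ≠ 0 := fun h0 => hy' (by rw [hg, h0]; simp)
  have hf0 : f ≠ 0 := fun h0 => pow_ne_zero p hy (by rw [← hf, h0]; rfl)
  have hff : f' = g ^ p * f := by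
    apply Subtype.ext
    rw [hf', hg, mul_pow, ← hf]
    rfl
  refine mk_eq_mk_of_ord hg0 (fun P => ?_)
  have h1 : (p : ℤ) * (D' : Divisor K E) P
      = (p : ℤ) * ((D : Divisor K E) P + P.ord g) := by
    rw [hD' P, hff, P.ord_mul (pow_ne_zero p hg0) hf0, Fermat.Agent.S24.ord_pow, mul_add, hD P]
    ring
  exact mul_left_cancel₀ (by exact_mod_cast hp) h1

variable [IsAlgClosed K] [CharZero K]

theorem RootClass.exists (hE : IsFF1 K E) (hp : p ≠ 0) {y : L} (hy : y ≠ 0)
    (f : E) (hf : (f : L) = y ^ p) (hdvd : ∀ P : Place K E, (p : ℤ) ∣ P.ord f) :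
    ∃ c : Pic0 K E, RootClass E p y c := by
  have hf0 : f ≠ 0 := fun h0 => pow_ne_zero p hy (by rw [← hf, h0]; rfl)
  obtain ⟨D, hD⟩ := exists_rootDiv hE hp hf0 hdvd
  exact ⟨Pic0.mk D, f, D, hf, hD, rfl⟩

/-- If the class of the `p`-th root divisor of `y ^ p` vanishes then `y` lies in `E`. -/
theorem RootClass.mem_of_zero (hE : IsFF1 K E) (hp : p ≠ 0) {y : L} (hy : y ≠ 0)
    (h : RootClass E p y 0) : y ∈ E := by
  obtain ⟨f, D, hf, hD, h0⟩ := h
  have hf0 : f ≠ 0 := fun h0 => pow_ne_zero p hy (by rw [← hf, h0]; rfl)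
  obtain ⟨g, hg0, hg⟩ := exists_ord_of_mk_eq_zero h0.symm
  -- `f / g ^ p` is a constant
  have hconst : f / g ^ p ∈ Set.range (algebraMap K E) := by
    refine mem_range_of_ord_eq_zero hE _ (fun P => ?_)
    rw [Fermat.Agent.S24.ord_div P hf0 (pow_ne_zero p hg0), Fermat.Agent.S24.ord_pow, ← hD P,
      hg P]
    ring
  obtain ⟨a, ha⟩ := hconst
  obtain ⟨b, hb⟩ := IsAlgClosed.exists_pow_nat_eq a (Nat.pos_of_ne_zero hp)
  have hfa : f = algebraMap K E a * g ^ p := by
    rw [ha, div_mul_cancel₀ _ (pow_ne_zero p hg0)]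
  have ha0 : a ≠ 0 := by
    rintro rfl
    rw [map_zero, zero_mul] at hfa
    exact hf0 hfa
  have hb0 : b ≠ 0 := by
    rintro rfl
    rw [zero_pow hp] at hb
    exact ha0 hb.symm
  -- `t := y / (b·g)` is a `p`-th root of unity in `L`, hence a constant
  set s : L := algebraMap K L b * (g : L) with hs
  have hgL : (g : L) ≠ 0 := fun h => hg0 (Subtype.ext h)
  have hs0 : s ≠ 0 := mul_ne_zero ((map_ne_zero _).mpr hb0) hgL
  have hsp : s ^ p = y ^ p := by
    rw [hs, mul_pow, ← map_pow, hb, ← hf, hfa]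
    rfl
  have ht : (y / s) ^ p = 1 := by
    rw [div_pow, hsp, div_self (pow_ne_zero p hy)]
  have htr : y / s ∈ Set.range (algebraMap K L) := by
    by_contra hc
    have htrans := Fermat.Agent.S24.principal_transcendental_of_notMem_range hc
    apply htrans
    refine ⟨Polynomial.X ^ p - 1, ?_, ?_⟩
    · have := Polynomial.X_pow_sub_C_ne_zero (R := K) (Nat.pos_of_ne_zero hp) 1
      simpa using this
    · simp [ht]
  obtain ⟨e, he⟩ := htr
  have hy_eq : y = algebraMap K L e * (algebraMap K L b * (g : L)) := by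
    rw [he, ← hs, div_mul_cancel₀ _ hs0]
  rw [hy_eq]
  exact E.mul_mem (E.algebraMap_mem e) (E.mul_mem (E.algebraMap_mem b) g.2)

end RootClass

/-! ### The assembly -/

local notation "Qb" => AlgebraicClosure ℚ

set_option synthInstance.maxHeartbeats 400000

/-- The closure properties of a witness relation `W u y` ("`y` is a `ℚ̄`-rational `q`-series
with multiplier `ζ_p ^ u`") from which `θ` is built. -/
structure Inputs (N p : ℕ) [NeZero N] (W : Lpar N → LaurentSeries Qb → Prop) : Prop where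
  /-- (E) existence of witnesses (the descent). -/
  exists_wit : ∀ u : Lpar N, ∃ y : LaurentSeries Qb, W u y
  /-- (M) witnesses are nonzero. -/
  ne_zero : ∀ {u : Lpar N} {y : LaurentSeries Qb}, W u y → y ≠ 0
  /-- (M)+(Q) `y ^ p` lies in `F̄_N` and all its orders are divisible by `p`. -/
  pow : ∀ {u : Lpar N} {y : LaurentSeries Qb}, W u y →
    ∃ f : modularFunctionFieldBar N, (f : LaurentSeries Qb) = y ^ p ∧
      ∀ P : Place Qb (modularFunctionFieldBar N), (p : ℤ) ∣ P.ord f
  /-- (A) closure under products. -/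
  mul : ∀ {u u' : Lpar N} {y y' : LaurentSeries Qb}, W u y → W u' y' → W (u + u') (y * y')
  /-- (U) two witnesses of the same `u` differ by a function of `F̄_N`. -/
  unique : ∀ {u : Lpar N} {y y' : LaurentSeries Qb}, W u y → W u y' →
    ∃ h : modularFunctionFieldBar N, y' = (h : LaurentSeries Qb) * y
  /-- (I) a witness in `F̄_N` forces `u ∈ p·Lpar N`. -/
  inj : ∀ {u : Lpar N} {y : LaurentSeries Qb}, W u y → y ∈ modularFunctionFieldBar N →
    ∃ z : Lpar N, u = (p : ℤ) • z
  /-- (H) closure under Hecke products: the witness of `T_ℓ u` is the formal norm of `y`. -/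
  hecke : ∀ (ℓ : ℕ) [NeZero ℓ] (hℓ : ℓ.Prime) (hℓN : ¬ ℓ ∣ N), ℓ ≠ p →
    ∀ {u : Lpar N} {y : LaurentSeries Qb}, W u y →
      ∃ (ζ : Qb) (_ : IsPrimitiveRoot ζ ℓ) (hz : ∀ i : ℕ, ζ ^ i ≠ 0) (y' : LaurentSeries Qb),
        W (heckeLpar N ℓ hℓ hℓN u) y' ∧
        qExpand Qb ℓ y' = qExpand Qb ℓ (qExpand Qb ℓ y) *
          ∏ i ∈ Finset.range ℓ, rotHom (ζ ^ i) (hz i) y

section Assembly

variable {N p : ℕ} [NeZero N] {W : Lpar N → LaurentSeries Qb → Prop}

/-- The graph of `θ`. -/
def Graph (N p : ℕ) [NeZero N] (W : Lpar N → LaurentSeries Qb → Prop) (u : Lpar N)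
    (c : JZero N) : Prop :=
  ∃ y : LaurentSeries Qb, W u y ∧ RootClass (modularFunctionFieldBar N) p y c

theorem isFF1_bar (N : ℕ) [NeZero N] : IsFF1 Qb (modularFunctionFieldBar N) :=
  Fermat.Agent.S37.HI.isFF1_modular N

theorem Graph.exists (h : Inputs N p W) (hp : p ≠ 0) (u : Lpar N) : ∃ c, Graph N p W u c := by
  obtain ⟨y, hy⟩ := h.exists_wit u
  obtain ⟨f, hf, hdvd⟩ := h.pow hy
  obtain ⟨c, hc⟩ := RootClass.exists (isFF1_bar N) hp (h.ne_zero hy) f hf hdvd
  exact ⟨c, y, hy, hc⟩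

theorem Graph.unique (h : Inputs N p W) (hp : p ≠ 0) {u : Lpar N} {c c' : JZero N}
    (hc : Graph N p W u c) (hc' : Graph N p W u c') : c' = c := by
  obtain ⟨y, hy, hyc⟩ := hc
  obtain ⟨y', hy', hyc'⟩ := hc'
  obtain ⟨g, hg⟩ := h.unique hy hy'
  exact RootClass.unique hp (h.ne_zero hy') g hg hyc hyc'

theorem Graph.add (h : Inputs N p W) {u u' : Lpar N} {c c' : JZero N}
    (hc : Graph N p W u c) (hc' : Graph N p W u' c') : Graph N p W (u + u') (c + c') := by
  obtain ⟨y, hy, hyc⟩ := hc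
  obtain ⟨y', hy', hyc'⟩ := hc'
  exact ⟨y * y', h.mul hy hy', RootClass.mul (h.ne_zero hy) (h.ne_zero hy') hyc hyc'⟩

theorem Graph.nsmul_eq_zero (h : Inputs N p W) {u : Lpar N} {c : JZero N}
    (hc : Graph N p W u c) : p • c = 0 := by
  obtain ⟨y, hy, hyc⟩ := hc
  exact RootClass.nsmul_eq_zero (h.ne_zero hy) hyc

theorem Graph.eq_smul_of_zero (h : Inputs N p W) (hp : p ≠ 0) {u : Lpar N}
    (hc : Graph N p W u 0) : ∃ z : Lpar N, u = (p : ℤ) • z := by
  obtain ⟨y, hy, hyc⟩ := hc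
  exact h.inj hy (RootClass.mem_of_zero (isFF1_bar N) hp (h.ne_zero hy) hyc)

theorem Graph.hecke (h : Inputs N p W) (ℓ : ℕ) (hℓ : ℓ.Prime) (hℓN : ¬ ℓ ∣ N)
    (hℓp : ℓ ≠ p) {u : Lpar N} {c : JZero N} (hc : Graph N p W u c) :
    Graph N p W (heckeLpar N ℓ hℓ hℓN u) (heckeOperatorBar N ⟨ℓ, hℓ⟩ c) := by
  haveI : NeZero ℓ := ⟨hℓ.ne_zero⟩
  obtain ⟨y, hy, f, D, hf, hD, rfl⟩ := hc
  have hy0 := h.ne_zero hy
  have hf0 : f ≠ 0 := fun h0 => pow_ne_zero p hy0 (by rw [← hf, h0]; rfl)
  obtain ⟨ζ, hζ, hz, y', hy', hq⟩ := h.hecke ℓ hℓ hℓN hℓp hy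
  obtain ⟨E, g, hT, _, hE, hqg⟩ := K6Alg.hecke_root N ℓ hℓ hℓN p D f hf0 hD ζ hζ hz
  refine ⟨y', hy', g, E, ?_, hE, hT⟩
  apply (qExpand Qb ℓ).injective
  rw [hqg, hf, map_pow (qExpand Qb ℓ) y' p, hq, mul_pow, ← Finset.prod_pow]
  simp only [map_pow]

end Assembly

/-- **Block [K], assembly**: a witness relation with the closure properties `Inputs` yields
`KStatement N p`. -/
theorem kStatement_of_inputs (N p : ℕ) [NeZero N] (hp : p.Prime)
    (W : Lpar N → LaurentSeries Qb → Prop) (h : Inputs N p W) : KStatement N p := by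
  have hp0 : p ≠ 0 := hp.ne_zero
  choose θ hθ using Graph.exists h hp0
  have hadd : ∀ u u' : Lpar N, θ (u + u') = θ u + θ u' := fun u u' =>
    Graph.unique h hp0 (Graph.add h (hθ u) (hθ u')) (hθ (u + u'))
  refine ⟨AddMonoidHom.mk' θ hadd, fun u => ?_, fun u hu => ?_, fun ℓ hℓ hℓN hℓp u => ?_⟩
  · exact Graph.nsmul_eq_zero h (hθ u)
  · have h1 := hθ u
    rw [show θ u = 0 from hu] at h1
    exact Graph.eq_smul_of_zero h hp0 h1
  · exact Graph.unique h hp0 (Graph.hecke h ℓ hℓ hℓN hℓp (hθ u))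
      (hθ (heckeLpar N ℓ hℓ hℓN u))

end

end Fermat.Agent.S29.KTheta
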