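/-
S29 block [K] — KPlan.lean (owner: helper56; ruling of the [K] sub-captain helper98, 05:47Z).

THE TOP ASSEMBLY OF BLOCK [K]: `KStatement N p` (`S29/Defs.lean`) for an ARBITRARY torsion order
`p ≠ 0` (no primality), from the named leaf statements of `S29/KPlanDefs.lean`:

  (WE) descent, (WQ) ramification [K-Q], (WH) Hecke products (K6),
  (K1) `Mchi N 1 = F_ℂ`, (K2Sub), (K2VM), (K2Mul), (K2Div), (K2Sep).

The witness relation is `Wit N p u y` (`y ≠ 0`, `coeffMap embC y ∈ K.Mchi N (chiU p u)`); we check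
the closure properties `KTheta.Inputs` of helper81's abstract Θ-assembly (`S29/KTheta.lean`) and
run that assembly.
-/
import Mathlib
import Fermat.Agent.S29.KPlanDefs
import Fermat.Agent.S29.KTheta
import Fermat.Agent.S29.RatDescent
import Fermat.Agent.S41.CohLat

set_option autoImplicit false

open ModularCurve AlgebraicCurve CongruenceSubgroup
open scoped MatrixGroups

namespace Fermat.Agent.S29.KPlan

open Fermat.Agent.S29.K
open Fermat.Agent.S41 (Lpar)
open Fermat.Agent.S24 (embC rotHom)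

noncomputable section

variable {N p : ℕ}

theorem coeffMap_embC_ne_zero {y : LaurentSeries Qb} (hy : y ≠ 0) : coeffMap embC y ≠ 0 :=
  (map_ne_zero (coeffMap embC)).mpr hy

theorem one_mem_Mchi_one (hK1 : K1Statement N) : (1 : LaurentSeries ℂ) ∈ Mchi N 1 := by
  rw [hK1]
  exact (FC N).one_mem

/-- Powers of a witness series (from (K2Mul) and (K1)). -/
theorem pow_mem_Mchi (hK1 : K1Statement N) (hMul : K2MulStatement N)
    {χ : ↥(Gamma0 N) →* ℂˣ} (hT : χ (TG N) = 1) {x : LaurentSeries ℂ} (hx : x ∈ Mchi N χ) :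
    ∀ n : ℕ, x ^ n ∈ Mchi N (χ ^ n)
  | 0 => by
    have e : χ ^ 0 = 1 := by
      ext γ
      rw [MonoidHom.pow_apply, pow_zero, MonoidHom.one_apply]
    rw [pow_zero, e]
    exact one_mem_Mchi_one hK1
  | n + 1 => by
    have e : χ ^ (n + 1) = χ ^ n * χ := by
      ext γ
      rw [MonoidHom.mul_apply, MonoidHom.pow_apply, MonoidHom.pow_apply, pow_succ]
    rw [pow_succ, e]
    refine hMul (χ ^ n) χ ?_ hT _ _ (pow_mem_Mchi hK1 hMul hT hx n) hx
    rw [MonoidHom.pow_apply, hT, one_pow]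

/-- **(WR)** the `p`-th power of a witness lies in `F̄_N`. -/
theorem pow_mem_of_wit (hp : p ≠ 0) (hK1 : K1Statement N) (hMul : K2MulStatement N)
    {u : Lpar N} {y : LaurentSeries Qb} (hy : Wit N p (u : Additive (Gamma0 N) →+ ℤ) y) :
    y ^ p ∈ modularFunctionFieldBar N := by
  have h1 := pow_mem_Mchi hK1 hMul (chiU_TG p u) hy.2 p
  rw [chiU_pow p hp, hK1] at h1
  exact RatDescent.pow_mem_modularFunctionFieldBar embC N p y h1

/-- **(WU)** two witnesses of the same `u` differ by a function of `F̄_N`. -/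
theorem unique_of_wit (hp : p ≠ 0) (hDiv : K2DivStatement N)
    {u : Lpar N} {y y' : LaurentSeries Qb}
    (hy : Wit N p (u : Additive (Gamma0 N) →+ ℤ) y)
    (hy' : Wit N p (u : Additive (Gamma0 N) →+ ℤ) y') :
    ∃ h : modularFunctionFieldBar N, y' = (h : LaurentSeries Qb) * y := by
  have h1 : coeffMap embC y' / coeffMap embC y ∈ FC N :=
    hDiv _ (chiU_TG p u) p (Nat.pos_of_ne_zero hp) (chiU_pow p hp _) _ _ hy'.2 hy.2
      (coeffMap_embC_ne_zero hy.1)
  rw [← map_div₀] at h1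
  have h2 : y' / y ∈ modularFunctionFieldBar N :=
    (RatDescent.coeffMap_mem_iff_mem_modularFunctionFieldBar embC N (y' / y)).mp h1
  exact ⟨⟨y' / y, h2⟩, (div_mul_cancel₀ y' hy.1).symm⟩

/-- **(WE)+(WQ)** a good witness: one whose `p`-th power has all orders divisible by `p`. -/
theorem exists_good_wit (hWE : WEStatement N p) (hWQ : WQStatement N p)
    (hSub : K2SubStatement N) (hVM : K2VMStatement N) (u : Lpar N) :
    ∃ y : LaurentSeries Qb, Wit N p (u : Additive (Gamma0 N) →+ ℤ) y ∧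
      ∀ f : ↥(modularFunctionFieldBar N), (f : LaurentSeries Qb) = y ^ p →
        ∀ P : Place Qb ↥(modularFunctionFieldBar N), (p : ℤ) ∣ P.ord f := by
  obtain ⟨y, hy0, hy⟩ := hWE u
  have hV : coeffMap embC y ∈ Vchi N (chiU p (u : Additive (Gamma0 N) →+ ℤ)) := by
    have h := hSub (chiU p (u : Additive (Gamma0 N) →+ ℤ)) (chiU_TG p u)
    have hy' : coeffMap embC y ∈
        (VchiSub N (chiU p (u : Additive (Gamma0 N) →+ ℤ)) : Set (LaurentSeries ℂ)) := hy
    rwa [h] at hy'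
  exact ⟨y, ⟨hy0, hVM _ hV⟩, hWQ u y hy0 hV⟩

/-- **(WR)+(WQ) for every witness**: transfer from a good witness by (WU). -/
theorem pow_of_wit (hp : p ≠ 0) (hWE : WEStatement N p) (hWQ : WQStatement N p)
    (hK1 : K1Statement N) (hSub : K2SubStatement N) (hVM : K2VMStatement N)
    (hMul : K2MulStatement N) (hDiv : K2DivStatement N)
    {u : Lpar N} {y : LaurentSeries Qb} (hy : Wit N p (u : Additive (Gamma0 N) →+ ℤ) y) :
    ∃ f : modularFunctionFieldBar N, (f : LaurentSeries Qb) = y ^ p ∧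
      ∀ P : Place Qb (modularFunctionFieldBar N), (p : ℤ) ∣ P.ord f := by
  obtain ⟨y₀, hy₀, hgood⟩ := exists_good_wit hWE hWQ hSub hVM u
  obtain ⟨h, hh⟩ := unique_of_wit hp hDiv hy₀ hy
  set f₀ : modularFunctionFieldBar N := ⟨y₀ ^ p, pow_mem_of_wit hp hK1 hMul hy₀⟩ with hf₀
  have hh0 : h ≠ 0 := by
    rintro rfl
    apply hy.1
    rw [hh]
    simp
  have hf₀0 : f₀ ≠ 0 := by
    intro h0
    have h1 : ((f₀ : modularFunctionFieldBar N) : LaurentSeries Qb) = 0 := by rw [h0]; rfl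
    exact pow_ne_zero p hy₀.1 h1
  refine ⟨h ^ p * f₀, ?_, fun P => ?_⟩
  · rw [hh, mul_pow]
    rfl
  · rw [P.ord_mul (pow_ne_zero p hh0) hf₀0, ← zpow_natCast h p, P.ord_zpow]
    exact dvd_add (dvd_mul_right _ _) (hgood f₀ rfl P)

/-- **(WM)** products of witnesses. -/
theorem mul_of_wit (hMul : K2MulStatement N) {u u' : Lpar N} {y y' : LaurentSeries Qb}
    (hy : Wit N p (u : Additive (Gamma0 N) →+ ℤ) y)
    (hy' : Wit N p (u' : Additive (Gamma0 N) →+ ℤ) y') :
    Wit N p ((u + u' : Lpar N) : Additive (Gamma0 N) →+ ℤ) (y * y') := by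
  refine ⟨mul_ne_zero hy.1 hy'.1, ?_⟩
  rw [map_mul, Submodule.coe_add, chiU_add]
  exact hMul _ _ (chiU_TG p u) (chiU_TG p u') _ _ hy.2 hy'.2

/-- **(WI)** a witness lying in `F̄_N` forces `u ∈ p·Lpar N`. -/
theorem inj_of_wit (hp : p ≠ 0) (hK1 : K1Statement N) (hSep : K2SepStatement N)
    {u : Lpar N} {y : LaurentSeries Qb} (hy : Wit N p (u : Additive (Gamma0 N) →+ ℤ) y)
    (hmem : y ∈ modularFunctionFieldBar N) : ∃ z : Lpar N, u = (p : ℤ) • z := by
  have h1 : coeffMap embC y ∈ Mchi N 1 := by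
    rw [hK1]
    exact (RatDescent.coeffMap_mem_iff_mem_modularFunctionFieldBar embC N y).mpr hmem
  have h2 : chiU p (u : Additive (Gamma0 N) →+ ℤ) = 1 :=
    hSep _ 1 (chiU_TG p u) (by rw [MonoidHom.one_apply]) _ hy.2 h1 (coeffMap_embC_ne_zero hy.1)
  have h3 := (chiU_eq_one_iff p hp _).mp h2
  exact Fermat.Agent.S41.CohLat.exists_eq_smul_of_dvd' (p : ℤ) u
    (fun γ => h3 (Additive.toMul γ))

/-- The closure properties of helper81's Θ-assembly hold for the witness relation `Wit`. -/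
theorem inputs_of_leaves (N p : ℕ) [NeZero N] (hp : p ≠ 0)
    (hWE : WEStatement N p) (hWQ : WQStatement N p) (hWH : WHStatement N p)
    (hK1 : K1Statement N) (hSub : K2SubStatement N) (hVM : K2VMStatement N)
    (hMul : K2MulStatement N) (hDiv : K2DivStatement N) (hSep : K2SepStatement N) :
    KTheta.Inputs N p (fun u y => Wit N p (u : Additive (Gamma0 N) →+ ℤ) y) where
  exists_wit u := by
    obtain ⟨y, hy, -⟩ := exists_good_wit hWE hWQ hSub hVM u
    exact ⟨y, hy⟩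
  ne_zero hy := hy.1
  pow hy := pow_of_wit hp hWE hWQ hK1 hSub hVM hMul hDiv hy
  mul hy hy' := mul_of_wit hMul hy hy'
  unique hy hy' := unique_of_wit hp hDiv hy hy'
  inj hy hmem := inj_of_wit hp hK1 hSep hy hmem
  hecke ℓ _ hℓ hℓN hℓp u y hy := by
    have : NeZero ((ℓ : ℕ) : ℚ) := ⟨by exact_mod_cast hℓ.ne_zero⟩
    obtain ⟨ζ, hζ⟩ := HasEnoughRootsOfUnity.exists_primitiveRoot Qb ℓ
    have hζ0 : ζ ≠ 0 := hζ.ne_zero hℓ.ne_zero
    have hz : ∀ i : ℕ, ζ ^ i ≠ 0 := fun i => pow_ne_zero i hζ0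
    obtain ⟨y', hy', hq⟩ := hWH ℓ hℓ hℓN hℓp ζ hζ hz u y hy
    exact ⟨ζ, hζ, hz, y', hy', hq⟩

/-- **Block [K], top assembly** (arbitrary torsion order `p ≠ 0`): the leaves
(WE), (WQ), (WH), (K1), (K2Sub), (K2VM), (K2Mul), (K2Div), (K2Sep) imply `KStatement N p`. -/
theorem kStatement_of_leaves (N p : ℕ) [NeZero N] (hp : p ≠ 0)
    (hWE : WEStatement N p) (hWQ : WQStatement N p) (hWH : WHStatement N p)
    (hK1 : K1Statement N) (hSub : K2SubStatement N) (hVM : K2VMStatement N)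
    (hMul : K2MulStatement N) (hDiv : K2DivStatement N) (hSep : K2SepStatement N) :
    KStatement N p := by
  have h := inputs_of_leaves N p hp hWE hWQ hWH hK1 hSub hVM hMul hDiv hSep
  choose θ hθ using KTheta.Graph.exists h hp
  have hadd : ∀ u u' : Lpar N, θ (u + u') = θ u + θ u' := fun u u' =>
    KTheta.Graph.unique h hp (KTheta.Graph.add h (hθ u) (hθ u')) (hθ (u + u'))
  refine ⟨AddMonoidHom.mk' θ hadd, fun u => ?_, fun u hu => ?_, fun ℓ hℓ hℓN hℓp u => ?_⟩
  · exact KTheta.Graph.nsmul_eq_zero h (hθ u)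
  · have h1 := hθ u
    rw [show θ u = 0 from hu] at h1
    exact KTheta.Graph.eq_smul_of_zero h hp h1
  · exact KTheta.Graph.unique h hp (KTheta.Graph.hecke h ℓ hℓ hℓN hℓp (hθ u))
      (hθ (heckeLpar N ℓ hℓ hℓN u))

end

end Fermat.Agent.S29.KPlan
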