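/-
S29 block [K] — KTopOf.lean (owner: helper98, [K] sub-captain).

The top of block [K] with every CLOSED leaf discharged: `KStatement N p` (any torsion order
`p ≠ 0`) from the two leaves that are still open on main at the time of writing,

* (WE) `KPlan.WEStatement N p` — existence of a `ℚ̄`-rational element of the descent space;
* (WQ) `KPlan.WQStatement N p` — `p ∣ ord_P (y ^ p)` at every place of `F̄_N`.

Discharged here: (WH) `K6Hecke.whStatement`, (K1) `K2Div.k1Statement`, (K2Sub)/(K2VM) `K2Sub`,
(K2Mul)/(K2Sep) `K2Stmt`, (K2Div) `K2Div.k2DivStatement`; assembly = `KPlan.kStatement_of_leaves`.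
-/
import Mathlib
import Fermat.Agent.S29.KPlan
import Fermat.Agent.S29.K6Hecke
import Fermat.Agent.S29.K2Sub
import Fermat.Agent.S29.K2Stmt
import Fermat.Agent.S29.K2Div

set_option autoImplicit false

namespace Fermat.Agent.S29.KTopOf

open Fermat.Agent.S29.K

/-- **(K2Sub)** in the shape of `KPlan.K2SubStatement`. -/
theorem k2SubStatement (N : ℕ) : KPlan.K2SubStatement N :=
  fun χ hT => coe_VchiSub χ hT

/-- **(K2VM)** in the shape of `KPlan.K2VMStatement`. -/
theorem k2VMStatement (N : ℕ) [NeZero N] : KPlan.K2VMStatement N :=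
  fun χ => Vchi_subset_Mchi χ

/-- **Block [K] from its two open leaves** (arbitrary torsion order `p ≠ 0`). -/
theorem kStatement_of_we_wq (N p : ℕ) [NeZero N] (hp : p ≠ 0)
    (hWE : KPlan.WEStatement N p) (hWQ : KPlan.WQStatement N p) : KStatement N p :=
  KPlan.kStatement_of_leaves N p hp hWE hWQ (K6Hecke.whStatement N p)
    (K2Div.k1Statement N) (k2SubStatement N) (k2VMStatement N)
    (K2Stmt.k2MulStatement N) (K2Div.k2DivStatement N) (K2Stmt.k2SepStatement N)

end Fermat.Agent.S29.KTopOf
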