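import Mathlib
import Fermat.Agent.S29.KDefs
import Fermat.Agent.S20.Sym
import Fermat.Agent.LevelOne.PolyInJ
import Fermat.Agent.S23.Main
import Fermat.Agent.S24.Bridge

/-!
# S29 block [K], leaf [K1Int] (B-copy): forms of weight `12 m` give integral elements

For `G ∈ MF N (12 m)` and `x ∈ ℂ((q))` with `x · Δ^m = qx G` (i.e. `x` is the `q`-expansion of
`G / Δ^m`):

* `isIntegral_jC_of_form`     : `x` is integral over `ℂ[j]`;
* `isIntegral_jC_inv_of_form` : `x · j⁻ᵐ` is integral over `ℂ[j⁻¹]`;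
* `mem_Mchi_one_of_form`      : `x ∈ Mchi N 1`;
* `isIntegral_of_form_of_K1`  : the statement of leaf [K1Int], given `Mchi N 1 ⊆ FC N`.

Route: for every `z`, `∏_q (G z − cj G q z) = 0` (identity coset) expands by Vieta to
`∑_k (−1)^k e_k(z) G(z)^(μ−k) = 0` with `e_k = esymQ N (12 m) G k ∈ LF (12 · m k)`, and
`e_k = Δ^(m k) · p_k(j)` with `deg p_k ≤ m k` (`LevelOne.PolyInJ.core`).  The relation is pushed to
`ℂ((q))` through the `q`-expansion ring homomorphism `S24.AnBridge.Phi` and `j · Δ = E₄³`.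
-/

set_option autoImplicit false

namespace Fermat.Agent.S29.K.K1IntB

open UpperHalfPlane ModularForm CongruenceSubgroup ModularCurve Polynomial
open scoped MatrixGroups ModularForm Manifold

/-! ### Pure algebra -/

/-- A root of `∑ (-1)^k a_k X^(μ-k)` with `a_0 = 1` and all `a_k` in a subalgebra `A` is integral
over `A`. -/
theorem isIntegral_of_alternating_sum {R S : Type*} [CommRing R] [CommRing S] [Algebra R S]
    (A : Subalgebra R S) (x : S) (μ : ℕ) (a : ℕ → S) (ha0 : a 0 = 1) (ha : ∀ k, a k ∈ A)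
    (h : ∑ k ∈ Finset.range (μ + 1), (-1) ^ k * a k * x ^ (μ - k) = 0) : IsIntegral A x := by
  classical
  let b : ℕ → A := fun k => ⟨a k, ha k⟩
  let Q : Polynomial A :=
    ∑ k ∈ Finset.range μ, C ((-1) ^ (k + 1) * b (k + 1)) * X ^ (μ - (k + 1))
  have hQ : Q.degree < μ := by
    refine (Polynomial.degree_sum_le _ _).trans_lt ?_
    refine (Finset.sup_lt_iff (WithBot.bot_lt_coe μ)).mpr ?_
    intro k hk
    rw [Finset.mem_range] at hk
    refine (Polynomial.degree_C_mul_X_pow_le _ _).trans_lt ?_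
    exact WithBot.coe_lt_coe.mpr (by omega : μ - (k + 1) < μ)
  refine ⟨X ^ μ + Q, Polynomial.monic_X_pow_add hQ, ?_⟩
  rw [Finset.sum_range_succ'] at h
  simp only [Q, eval₂_add, eval₂_X_pow, eval₂_finsetSum, eval₂_mul, eval₂_C]
  have hb : ∀ k, algebraMap A S ((-1) ^ (k + 1) * b (k + 1)) = (-1) ^ (k + 1) * a (k + 1) := by
    intro k
    simp [b]
  simp only [hb]
  rw [← h, ha0]
  simp
  ring

/-! ### The pointwise relation -/

/-- Vieta at a point: `G z` is a root of `∏_q (X − cj G q z)`. -/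
theorem pointwise_relation {N : ℕ} [NeZero N] {w : ℤ} {G : ℍ → ℂ} (hinv : S20.IsInv N w G)
    (z : ℍ) :
    ∑ k ∈ Finset.range (Fintype.card (S20.Q N) + 1),
      (-1) ^ k * S20.esymQ N w G k z * G z ^ (Fintype.card (S20.Q N) - k) = 0 := by
  set s : Multiset ℂ := Finset.univ.val.map fun q : S20.Q N => S20.cj N w G q z with hs
  have hcard : Multiset.card s = Fintype.card (S20.Q N) := by
    rw [hs, Multiset.card_map]
    rfl
  have h := congrArg (Polynomial.eval (G z)) (Multiset.prod_X_sub_X_eq_sum_esymm s)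
  have h0 : ((s.map fun t => (X : ℂ[X]) - C t).prod).eval (G z) = 0 := by
    rw [Polynomial.eval_multiset_prod]
    apply Multiset.prod_eq_zero
    rw [Multiset.mem_map]
    refine ⟨X - C (G z), ?_, by simp⟩
    rw [Multiset.mem_map]
    refine ⟨G z, ?_, rfl⟩
    rw [hs, Multiset.mem_map]
    exact ⟨((1 : SL(2, ℤ)) : S20.Q N), Finset.mem_univ_val _, by rw [S20.cj_one hinv]⟩
  rw [h0, hcard, Polynomial.eval_finsetSum] at h
  simp only [eval_mul, eval_pow, eval_neg, eval_one, eval_C, eval_X] at h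
  rw [h]
  refine Finset.sum_congr rfl fun k _ => ?_
  rw [mul_assoc]
  rfl

/-! ### Nice functions and their `q`-expansions -/

/-- Evaluation at a point, as a ring homomorphism on `niceSub`. -/
noncomputable def evN (z : ℍ) : S23.niceSub →+* ℂ :=
  (Pi.evalRingHom (fun _ : ℍ => ℂ) z).comp (S23.niceSub.val : S23.niceSub →+* (ℍ → ℂ))

theorem evN_apply (z : ℍ) (F : S23.niceSub) : evN z F = (F : ℍ → ℂ) z := rfl

theorem niceSub_ext {F F' : S23.niceSub} (h : ∀ z, evN z F = evN z F') : F = F' :=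
  Subtype.ext (funext h)

theorem evN_algebraMap (z : ℍ) (c : ℂ) : evN z (algebraMap ℂ S23.niceSub c) = c := rfl

/-- `Δ` as a nice function. -/
noncomputable def DeltaN : S23.niceSub :=
  ⟨ModularForm.discriminant, S24.AnBridge.discriminant_mem_niceSub⟩

/-- `E₄` as a nice function. -/
noncomputable def E4N : S23.niceSub := ⟨E₄, S24.AnBridge.levelOne_mem_niceSub E₄⟩

theorem Phi_DeltaN : S24.AnBridge.Phi DeltaN = DeltaC := rfl

theorem Phi_E4N_pow : S24.AnBridge.Phi E4N ^ 3 = jC * DeltaC := S24.jRel.symm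

theorem DeltaC_ne_zero : DeltaC ≠ 0 := by
  intro h
  have h1 : S24.AnBridge.Phi DeltaN = S24.AnBridge.Phi 0 := by rw [Phi_DeltaN, h, map_zero]
  have h2 := S24.AnBridge.Phi_injective h1
  have h3 := congrArg (evN UpperHalfPlane.I) h2
  rw [map_zero] at h3
  exact ModularForm.discriminant_ne_zero _ h3

theorem jC_ne_zero : jC ≠ 0 := by
  intro h
  have h1 : coeffEmb ℂ jq = coeffEmb ℂ 0 := by rw [map_zero]; exact h
  exact jq_ne_zero ((coeffEmb ℂ).injective h1)

/-- `q`-expansion of `Δ^n · p(j)` for `deg p ≤ n`. -/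
theorem Phi_eq_of_eval {n : ℕ} {p : ℂ[X]} (hp : p.natDegree ≤ n) (F : S23.niceSub)
    (hF : ∀ z : ℍ, (F : ℍ → ℂ) z =
      ModularForm.discriminant z ^ n * p.eval (LevelOne.jFun z)) :
    S24.AnBridge.Phi F = Polynomial.aeval jC p * DeltaC ^ n := by
  have key : F = ∑ i ∈ Finset.range (n + 1),
      algebraMap ℂ S23.niceSub (p.coeff i) * (E4N ^ 3) ^ i * DeltaN ^ (n - i) := by
    apply niceSub_ext
    intro z
    rw [map_sum]
    simp only [map_mul, map_pow, evN_algebraMap]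
    rw [evN_apply, hF z, Polynomial.eval_eq_sum_range' (Nat.lt_succ_of_le hp), Finset.mul_sum]
    refine Finset.sum_congr rfl fun i hi => ?_
    have hi' : i ≤ n := Nat.lt_succ_iff.mp (Finset.mem_range.mp hi)
    show _ = p.coeff i * (E₄ z ^ 3) ^ i * ModularForm.discriminant z ^ (n - i)
    rw [← LevelOne.jFun_mul_discriminant z, mul_pow]
    have h1 : ModularForm.discriminant z ^ n =
        ModularForm.discriminant z ^ i * ModularForm.discriminant z ^ (n - i) := by
      rw [← pow_add]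
      congr 1
      omega
    rw [h1]
    ring
  rw [key, map_sum, Polynomial.aeval_eq_sum_range' (Nat.lt_succ_of_le hp), Finset.sum_mul]
  refine Finset.sum_congr rfl fun i hi => ?_
  have hi' : i ≤ n := Nat.lt_succ_iff.mp (Finset.mem_range.mp hi)
  rw [map_mul, map_mul, map_pow, map_pow, map_pow, S24.AnBridge.Phi_algebraMap, Phi_E4N_pow,
    Phi_DeltaN, Algebra.smul_def, mul_pow]
  have h1 : DeltaC ^ n = DeltaC ^ i * DeltaC ^ (n - i) := by
    rw [← pow_add]
    congr 1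
    omega
  rw [h1]
  ring

/-! ### The relation in `ℂ((q))` -/

theorem mem_niceSub_of_mem_MF {N : ℕ} {w : ℤ} {G : ℍ → ℂ} (hG : G ∈ S20.MF N w) :
    G ∈ S23.niceSub := by
  obtain ⟨F, rfl⟩ := hG
  exact S23.MainAux.coe_mem_niceSub (CongruenceSubgroup.one_mem_strictPeriods_Gamma0 N) F

theorem mem_niceSub_of_mem_LF {w : ℤ} {G : ℍ → ℂ} (hG : G ∈ S20.LF w) : G ∈ S23.niceSub := by
  obtain ⟨F, rfl⟩ := hG
  exact S24.AnBridge.levelOne_mem_niceSub F

/-- The monic relation over `ℂ[j]` satisfied by the `q`-expansion of `G / Δ^m`. -/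
theorem exists_relation {N : ℕ} [NeZero N] (m : ℕ) {G : ℍ → ℂ} (hG : G ∈ S20.MF N (12 * m))
    {x : LaurentSeries ℂ} (hx : x * DeltaC ^ m = qx G) :
    ∃ p : ℕ → ℂ[X], (∀ k, (p k).natDegree ≤ k * m) ∧ Polynomial.aeval jC (p 0) = 1 ∧
      ∑ k ∈ Finset.range (Fintype.card (S20.Q N) + 1),
        (-1) ^ k * Polynomial.aeval jC (p k) * x ^ (Fintype.card (S20.Q N) - k) = 0 := by
  obtain ⟨-, hinv, -⟩ := S20.mem_MF_iff.mp hG
  set μ := Fintype.card (S20.Q N) with hμ
  -- the elementary symmetric functions are `Δ^(k m) · p_k(j)`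
  have hex : ∀ k : ℕ, ∃ pk : ℂ[X], pk.natDegree ≤ k * m ∧
      ∀ z : ℍ, S20.esymQ N (12 * m) G k z =
        ModularForm.discriminant z ^ (k * m) * pk.eval (LevelOne.jFun z) := by
    intro k
    obtain ⟨Fk, hFk⟩ := S20.esymQ_mem_LF hG k
    obtain ⟨pk, hdeg, hval⟩ := LevelOne.PolyInJ.core (k * m) ((k : ℤ) * (12 * (m : ℤ)))
      (by push_cast; ring) Fk
    exact ⟨pk, hdeg, fun z => by rw [← hFk]; exact hval z⟩
  choose p hpdeg hpval using hex
  -- nice functions
  let Gn : S23.niceSub := ⟨G, mem_niceSub_of_mem_MF hG⟩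
  let e : ℕ → S23.niceSub := fun k =>
    ⟨S20.esymQ N (12 * m) G k, mem_niceSub_of_mem_LF (S20.esymQ_mem_LF hG k)⟩
  have hPhiG : S24.AnBridge.Phi Gn = x * DeltaC ^ m := hx.symm
  have hPhie : ∀ k, S24.AnBridge.Phi (e k) = Polynomial.aeval jC (p k) * DeltaC ^ (k * m) :=
    fun k => Phi_eq_of_eval (hpdeg k) (e k) (hpval k)
  have hrelN : ∑ k ∈ Finset.range (μ + 1), (-1) ^ k * e k * Gn ^ (μ - k) = 0 := by
    apply niceSub_ext
    intro z
    rw [map_sum, map_zero]
    simp only [map_mul, map_pow, map_neg, map_one]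
    exact pointwise_relation hinv z
  have hrel := congrArg S24.AnBridge.Phi hrelN
  rw [map_sum, map_zero] at hrel
  simp only [map_mul, map_pow, map_neg, map_one, hPhie, hPhiG] at hrel
  have hfac : ∀ k ∈ Finset.range (μ + 1),
      (-1) ^ k * (Polynomial.aeval jC (p k) * DeltaC ^ (k * m)) * (x * DeltaC ^ m) ^ (μ - k) =
        (-1) ^ k * Polynomial.aeval jC (p k) * x ^ (μ - k) * DeltaC ^ (m * μ) := by
    intro k hk
    have hk' : k ≤ μ := Nat.lt_succ_iff.mp (Finset.mem_range.mp hk)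
    have h1 : DeltaC ^ (m * μ) = DeltaC ^ (k * m) * (DeltaC ^ m) ^ (μ - k) := by
      rw [← pow_mul, ← pow_add]
      congr 1
      have : m * μ = m * k + m * (μ - k) := by rw [← mul_add]; congr 1; omega
      rw [this, mul_comm k m]
    rw [h1, mul_pow]
    ring
  rw [Finset.sum_congr rfl hfac, ← Finset.sum_mul] at hrel
  refine ⟨p, hpdeg, ?_, ?_⟩
  · have h0 := hPhie 0
    rw [Nat.zero_mul, pow_zero, mul_one] at h0
    rw [← h0]
    have he0 : e 0 = 1 := by
      apply niceSub_ext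
      intro z
      rw [map_one]
      show S20.esymQ N (12 * m) G 0 z = 1
      simp [S20.esymQ, Multiset.esymm]
    rw [he0, map_one]
  · exact (mul_eq_zero.mp hrel).resolve_right (pow_ne_zero _ DeltaC_ne_zero)

/-! ### The leaf statements -/

variable {N : ℕ} [NeZero N]

/-- **(B1)** `x = qx G / Δ^m` is integral over `ℂ[j]`. -/
theorem isIntegral_jC_of_form (m : ℕ) {G : ℍ → ℂ} (hG : G ∈ S20.MF N (12 * m))
    {x : LaurentSeries ℂ} (hx : x * DeltaC ^ m = qx G) :
    IsIntegral (Algebra.adjoin ℂ ({jC} : Set (LaurentSeries ℂ))) x := by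
  obtain ⟨p, -, hp0, hrel⟩ := exists_relation m hG hx
  exact isIntegral_of_alternating_sum _ x _ (fun k => Polynomial.aeval jC (p k)) hp0
    (fun k => Polynomial.aeval_mem_adjoin_singleton _ _) hrel

/-- `p(j) · j^(-n)` is a polynomial in `j⁻¹` when `deg p ≤ n`. -/
theorem aeval_inv_reflect {n : ℕ} {p : ℂ[X]} (hp : p.natDegree ≤ n) :
    Polynomial.aeval (jC⁻¹) (p.reflect n) = Polynomial.aeval jC p * jC⁻¹ ^ n := by
  let _ : Invertible jC := invertibleOfNonzero jC_ne_zero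
  have h := Polynomial.eval₂_reflect_mul_pow (algebraMap ℂ (LaurentSeries ℂ)) jC n p hp
  rw [invOf_eq_inv] at h
  rw [Polynomial.aeval_def, Polynomial.aeval_def, ← h, mul_assoc, ← mul_pow,
    mul_inv_cancel₀ jC_ne_zero, one_pow, mul_one]

/-- **(B2)** `x · j⁻ᵐ` is integral over `ℂ[j⁻¹]`. -/
theorem isIntegral_jC_inv_of_form (m : ℕ) {G : ℍ → ℂ} (hG : G ∈ S20.MF N (12 * m))
    {x : LaurentSeries ℂ} (hx : x * DeltaC ^ m = qx G) :
    IsIntegral (Algebra.adjoin ℂ ({jC⁻¹} : Set (LaurentSeries ℂ))) (x * jC⁻¹ ^ m) := by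
  obtain ⟨p, hpdeg, hp0, hrel⟩ := exists_relation m hG hx
  set μ := Fintype.card (S20.Q N) with hμ
  refine isIntegral_of_alternating_sum _ (x * jC⁻¹ ^ m) μ
    (fun k => Polynomial.aeval (jC⁻¹) ((p k).reflect (k * m))) ?_
    (fun k => Polynomial.aeval_mem_adjoin_singleton _ _) ?_
  · show Polynomial.aeval (jC⁻¹) ((p 0).reflect (0 * m)) = 1
    rw [aeval_inv_reflect (hpdeg 0), hp0, Nat.zero_mul, pow_zero, mul_one]
  · have hfac : ∀ k ∈ Finset.range (μ + 1),
        (-1) ^ k * Polynomial.aeval (jC⁻¹) ((p k).reflect (k * m)) * (x * jC⁻¹ ^ m) ^ (μ - k) =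
          (-1) ^ k * Polynomial.aeval jC (p k) * x ^ (μ - k) * jC⁻¹ ^ (m * μ) := by
      intro k hk
      have hk' : k ≤ μ := Nat.lt_succ_iff.mp (Finset.mem_range.mp hk)
      have h1 : jC⁻¹ ^ (m * μ) = jC⁻¹ ^ (k * m) * (jC⁻¹ ^ m) ^ (μ - k) := by
        rw [← pow_mul, ← pow_add]
        congr 1
        have : m * μ = m * k + m * (μ - k) := by rw [← mul_add]; congr 1; omega
        rw [this, mul_comm k m]
      rw [aeval_inv_reflect (hpdeg k), h1, mul_pow]
      ring
    rw [Finset.sum_congr rfl hfac, ← Finset.sum_mul, hrel, zero_mul]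

theorem one_mem_MF_zero : (1 : ℍ → ℂ) ∈ S20.MF N 0 := by
  rw [S20.mem_MF_iff']
  refine ⟨mdifferentiable_const, fun γ _ => ?_, fun γ => ?_⟩
  · exact ModularForm.is_invariant_one γ
  · rw [ModularForm.is_invariant_one γ]
    exact Filter.const_boundedAtFilter _ (1 : ℂ)

theorem discriminant_mem_MF : (ModularForm.discriminant : ℍ → ℂ) ∈ S20.MF N 12 :=
  S20.LF_le_MF N 12 ⟨CuspForm.discriminant, rfl⟩

theorem discriminant_pow_mem_MF (m : ℕ) :
    (ModularForm.discriminant : ℍ → ℂ) ^ m ∈ S20.MF N (12 * m) := by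
  induction m with
  | zero => simpa using one_mem_MF_zero (N := N)
  | succ m ih =>
    have h := S20.mul_mem_MF ih (discriminant_mem_MF (N := N))
    have e : (12 * (m : ℤ) + 12) = 12 * ((m + 1 : ℕ) : ℤ) := by push_cast; ring
    rw [e, ← pow_succ] at h
    exact h

/-- **(B3)** `x = qx G / Δ^m` lies in the witness class `Mchi N 1`. -/
theorem mem_Mchi_one_of_form (m : ℕ) {G : ℍ → ℂ} (hG : G ∈ S20.MF N (12 * m))
    {x : LaurentSeries ℂ} (hx : x * DeltaC ^ m = qx G) : x ∈ Mchi N 1 := by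
  refine ⟨12 * m, G, (ModularForm.discriminant : ℍ → ℂ) ^ m, ?_, discriminant_pow_mem_MF m, ?_, ?_⟩
  · obtain ⟨h1, h2, h3⟩ := S20.mem_MF_iff'.mp hG
    refine ⟨h1, fun γ => ?_, h3⟩
    rw [h2 _ γ.2]
    simp
  · intro h
    have h1 := congrFun h UpperHalfPlane.I
    exact pow_ne_zero m (ModularForm.discriminant_ne_zero _) h1
  · have h1 : qx ((ModularForm.discriminant : ℍ → ℂ) ^ m) = DeltaC ^ m := by
      rw [← Phi_DeltaN, ← map_pow]
      rfl
    rw [h1, hx]

/-- **(B4)** The statement of leaf [K1Int], given the inclusion `Mchi N 1 ⊆ FC N` (the hard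
half of the K1 top `Mchi_one_eq`). -/
theorem isIntegral_of_form_of_K1 (hK1 : Mchi N 1 ⊆ (FC N : Set (LaurentSeries ℂ))) (m : ℕ)
    {G : ℍ → ℂ} (hG : G ∈ S20.MF N (12 * m)) {x : LaurentSeries ℂ}
    (hx : x * DeltaC ^ m = qx G) :
    x ∈ FC N ∧ IsIntegral (Algebra.adjoin ℂ ({jC} : Set (LaurentSeries ℂ))) x ∧
      IsIntegral (Algebra.adjoin ℂ ({jC⁻¹} : Set (LaurentSeries ℂ))) (x * jC⁻¹ ^ m) :=
  ⟨hK1 (mem_Mchi_one_of_form m hG hx), isIntegral_jC_of_form m hG hx,
    isIntegral_jC_inv_of_form m hG hx⟩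

end Fermat.Agent.S29.K.K1IntB
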