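/-
S29 route, block [K], leaf (K2)-core (helper41, B-copy; A = helper59's `S29/EisChi.lean`):
the Eisenstein series of even weight `k ≥ 4` twisted by a unitary character `χ` of `Γ₀(N)` that is
trivial on the stabiliser `±Γ_∞` of `∞`, as a bare function on the upper half plane.

`exists_eisenstein_of_character`: there is a holomorphic `E : ℍ → ℂ` with
`E (γ z) = χ γ * (c z + d) ^ k * E z` for `γ ∈ Γ₀(N)`, all of whose slashes by `SL(2, ℤ)` are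
bounded at `i∞`, and with `E → 2` at `i∞` (so `E ≠ 0`).  Mathlib only.
-/
import Mathlib

set_option autoImplicit false

namespace Fermat.Agent.S29.EisChar

open UpperHalfPlane CongruenceSubgroup Filter Topology EisensteinSeries Matrix
open scoped MatrixGroups ModularForm Manifold

noncomputable section

/-! ### Weighted sums of `eisSummand` -/

/-- The weighted Eisenstein sum `∑_v w(v) (v₀ z + v₁)^{-k}`. -/
def wEis (k : ℤ) (w : (Fin 2 → ℤ) → ℂ) (z : ℍ) : ℂ :=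
  ∑' v : Fin 2 → ℤ, w v * eisSummand k v z

/-- Right multiplication by an element of `SL(2, ℤ)` on row vectors. -/
def vecMulEquiv (A : SL(2, ℤ)) : (Fin 2 → ℤ) ≃ (Fin 2 → ℤ) where
  toFun v := v ᵥ* (A : Matrix (Fin 2) (Fin 2) ℤ)
  invFun v := v ᵥ* ((A⁻¹ : SL(2, ℤ)) : Matrix (Fin 2) (Fin 2) ℤ)
  left_inv v := by
    simp only [vecMul_vecMul, ← Matrix.SpecialLinearGroup.coe_mul, mul_inv_cancel,
      Matrix.SpecialLinearGroup.coe_one, vecMul_one]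
  right_inv v := by
    simp only [vecMul_vecMul, ← Matrix.SpecialLinearGroup.coe_mul, inv_mul_cancel,
      Matrix.SpecialLinearGroup.coe_one, vecMul_one]

theorem vecMul_inv_vecMul (A : SL(2, ℤ)) (v : Fin 2 → ℤ) :
    (v ᵥ* (A : Matrix (Fin 2) (Fin 2) ℤ)) ᵥ* ((A⁻¹ : SL(2, ℤ)) : Matrix (Fin 2) (Fin 2) ℤ) = v :=
  (vecMulEquiv A).left_inv v

theorem vecMul_vecMul_inv (A : SL(2, ℤ)) (v : Fin 2 → ℤ) :
    (v ᵥ* ((A⁻¹ : SL(2, ℤ)) : Matrix (Fin 2) (Fin 2) ℤ)) ᵥ* (A : Matrix (Fin 2) (Fin 2) ℤ) = v :=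
  (vecMulEquiv A).right_inv v

theorem norm_mul_eisSummand_le {k : ℤ} {w : (Fin 2 → ℤ) → ℂ} (hw : ∀ v, ‖w v‖ ≤ 1)
    (v : Fin 2 → ℤ) (z : ℍ) : ‖w v * eisSummand k v z‖ ≤ ‖eisSummand k v z‖ := by
  rw [norm_mul]
  exact mul_le_of_le_one_left (norm_nonneg _) (hw v)

theorem summable_norm_wEis {k : ℤ} (hk : 3 ≤ k) {w : (Fin 2 → ℤ) → ℂ} (hw : ∀ v, ‖w v‖ ≤ 1)
    (z : ℍ) : Summable fun v : Fin 2 → ℤ => ‖w v * eisSummand k v z‖ :=
  (summable_norm_eisSummand hk z).of_nonneg_of_le (fun _ => norm_nonneg _)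
    (fun v => norm_mul_eisSummand_le hw v z)

theorem summable_wEis {k : ℤ} (hk : 3 ≤ k) {w : (Fin 2 → ℤ) → ℂ} (hw : ∀ v, ‖w v‖ ≤ 1)
    (z : ℍ) : Summable fun v : Fin 2 → ℤ => w v * eisSummand k v z :=
  (summable_norm_wEis hk hw z).of_norm

/-- The transformation behaviour of a weighted Eisenstein sum under `SL(2, ℤ)`. -/
theorem wEis_smul (k : ℤ) (w : (Fin 2 → ℤ) → ℂ) (A : SL(2, ℤ)) (z : ℍ) :
    wEis k w (A • z) = denom A z ^ k *
      wEis k (fun v => w (v ᵥ* ((A⁻¹ : SL(2, ℤ)) : Matrix (Fin 2) (Fin 2) ℤ))) z := by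
  unfold wEis
  simp_rw [eisSummand_SL2_apply]
  have h := (vecMulEquiv A).tsum_eq
    (fun v' => w (v' ᵥ* ((A⁻¹ : SL(2, ℤ)) : Matrix (Fin 2) (Fin 2) ℤ)) * eisSummand k v' z)
  rw [← h, ← tsum_mul_left]
  refine tsum_congr fun v => ?_
  show w v * (_ * eisSummand k (v ᵥ* (A : Matrix (Fin 2) (Fin 2) ℤ)) z) =
    _ * (w ((v ᵥ* (A : Matrix (Fin 2) (Fin 2) ℤ)) ᵥ*
      ((A⁻¹ : SL(2, ℤ)) : Matrix (Fin 2) (Fin 2) ℤ)) *
        eisSummand k (v ᵥ* (A : Matrix (Fin 2) (Fin 2) ℤ)) z)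
  rw [vecMul_inv_vecMul]
  ring

/-- Slashing a weighted Eisenstein sum gives a weighted Eisenstein sum. -/
theorem slash_wEis (k : ℤ) (w : (Fin 2 → ℤ) → ℂ) (g : SL(2, ℤ)) :
    (wEis k w) ∣[k] g =
      wEis k (fun v => w (v ᵥ* ((g⁻¹ : SL(2, ℤ)) : Matrix (Fin 2) (Fin 2) ℤ))) := by
  ext z
  rw [ModularForm.SL_slash_apply, wEis_smul, mul_comm, ← mul_assoc,
    ← zpow_add₀ (denom_ne_zero _ z), neg_add_cancel, zpow_zero, one_mul]

theorem norm_wEis_le {k : ℤ} (hk : 3 ≤ k) {w : (Fin 2 → ℤ) → ℂ} (hw : ∀ v, ‖w v‖ ≤ 1)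
    (z : ℍ) : ‖wEis k w z‖ ≤ ∑' v : Fin 2 → ℤ, ‖eisSummand k v z‖ := by
  unfold wEis
  refine (norm_tsum_le_tsum_norm (summable_norm_wEis hk hw z)).trans ?_
  exact (summable_norm_wEis hk hw z).tsum_le_tsum (fun v => norm_mul_eisSummand_le hw v z)
    (summable_norm_eisSummand hk z)

theorem tsum_norm_eisSummand_le {k : ℤ} (hk : 3 ≤ k) {z : ℍ} {A B : ℝ} (hB : 0 < B)
    (hz : z ∈ verticalStrip A B) :
    ∑' v : Fin 2 → ℤ, ‖eisSummand k v z‖ ≤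
      ∑' v : Fin 2 → ℤ, r ⟨⟨A, B⟩, hB⟩ ^ (-k) * ‖v‖ ^ (-k) := by
  have hk' : (2 : ℝ) < k := by norm_cast
  apply (summable_norm_eisSummand hk _).tsum_le_tsum _
  · exact_mod_cast (summable_one_div_norm_rpow hk').mul_left <| r ⟨⟨A, B⟩, hB⟩ ^ (-k)
  · intro x
    simp_rw [eisSummand, norm_zpow]
    exact_mod_cast summand_bound_of_mem_verticalStrip (lt_trans two_pos hk').le x hB hz

/-! ### Translations and boundedness at `i∞` -/

theorem vecMul_T_zpow (m : ℤ) (v : Fin 2 → ℤ) :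
    v ᵥ* ((ModularGroup.T ^ m : SL(2, ℤ)) : Matrix (Fin 2) (Fin 2) ℤ) =
      ![v 0, v 0 * m + v 1] := by
  rw [ModularGroup.coe_T_zpow]
  ext i
  fin_cases i <;> simp [vecMul, dotProduct, Fin.sum_univ_two]

theorem denom_T_zpow (m : ℤ) (z : ℍ) : denom (ModularGroup.T ^ m : SL(2, ℤ)) z = 1 := by
  rw [ModularGroup.denom_apply, ModularGroup.coe_T_zpow]
  simp

/-- Moving the argument by a translation `T ^ m`. -/
theorem wEis_eq_T_zpow (k : ℤ) (w : (Fin 2 → ℤ) → ℂ) (m : ℤ) (z : ℍ) :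
    wEis k w z =
      wEis k (fun v => w (v ᵥ* ((ModularGroup.T ^ m : SL(2, ℤ)) : Matrix (Fin 2) (Fin 2) ℤ)))
        (ModularGroup.T ^ m • z) := by
  rw [wEis_smul, denom_T_zpow, _root_.one_zpow, one_mul]
  simp only [vecMul_vecMul_inv]

theorem exists_T_zpow_mem_verticalStrip (z : ℍ) :
    ∃ n : ℤ, ModularGroup.T ^ n • z ∈ verticalStrip 1 z.im := by
  obtain ⟨n, hn⟩ := ModularGroup_T_zpow_mem_verticalStrip z (N := 1) one_pos
  exact ⟨n, by simpa using hn⟩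

/-- A weighted Eisenstein sum with bounded weights is bounded at `i∞`. -/
theorem isBoundedAtImInfty_wEis {k : ℤ} (hk : 3 ≤ k) {w : (Fin 2 → ℤ) → ℂ}
    (hw : ∀ v, ‖w v‖ ≤ 1) : IsBoundedAtImInfty (wEis k w) := by
  rw [isBoundedAtImInfty_iff]
  refine ⟨∑' v : Fin 2 → ℤ, r ⟨⟨1, 2⟩, two_pos⟩ ^ (-k) * ‖v‖ ^ (-k), 2, fun z hz => ?_⟩
  obtain ⟨n, hn⟩ := exists_T_zpow_mem_verticalStrip z
  rw [wEis_eq_T_zpow k w n z]
  refine (norm_wEis_le hk (fun v => hw _) _).trans ?_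
  exact tsum_norm_eisSummand_le hk two_pos (verticalStrip_anti_right _ hz hn)

/-! ### Holomorphy -/

theorem tendstoLocallyUniformly_wEis {k : ℤ} (hk : 3 ≤ k) {w : (Fin 2 → ℤ) → ℂ}
    (hw : ∀ v, ‖w v‖ ≤ 1) :
    TendstoLocallyUniformly
      (fun (s : Finset (Fin 2 → ℤ)) (z : ℍ) => ∑ v ∈ s, w v * eisSummand k v z)
      (wEis k w) atTop := by
  have hk' : (2 : ℝ) < k := by norm_cast
  rw [tendstoLocallyUniformly_iff_forall_isCompact]
  intro K hK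
  obtain ⟨A, B, hB, HABK⟩ := subset_verticalStrip_of_isCompact hK
  refine (tendstoUniformlyOn_tsum
    (hu := (summable_one_div_norm_rpow hk').mul_left <| r ⟨⟨A, B⟩, hB⟩ ^ (-k : ℝ))
    (fun v z hz => ?_)).mono HABK
  refine (norm_mul_eisSummand_le hw v z).trans ?_
  simpa only [eisSummand, one_div, ← _root_.zpow_neg, norm_zpow, ← Real.rpow_intCast,
    Int.cast_neg] using summand_bound_of_mem_verticalStrip (by positivity) v hB hz

theorem tendstoLocallyUniformlyOn_wEis {k : ℤ} (hk : 3 ≤ k) {w : (Fin 2 → ℤ) → ℂ}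
    (hw : ∀ v, ‖w v‖ ≤ 1) :
    TendstoLocallyUniformlyOn
      (fun (s : Finset (Fin 2 → ℤ)) =>
        (fun z : ℍ => ∑ v ∈ s, w v * eisSummand k v z) ∘ ofComplex)
      (wEis k w ∘ ofComplex) atTop {z : ℂ | 0 < z.im} := by
  rw [← upperHalfPlaneSet, ← range_coe, ← Set.image_univ]
  apply TendstoLocallyUniformlyOn.comp (s := ⊤) _ _ _ (OpenPartialHomeomorph.continuousOn_symm _)
  · simp only [Set.top_eq_univ, tendstoLocallyUniformlyOn_univ]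
    exact tendstoLocallyUniformly_wEis hk hw
  · simp only [IsOpenEmbedding.toOpenPartialHomeomorph_target, Set.top_eq_univ,
      Set.mapsTo_range_iff, Set.mem_univ, forall_const]

/-- A weighted Eisenstein sum with bounded weights is holomorphic. -/
theorem mdifferentiable_wEis {k : ℤ} (hk : 3 ≤ k) {w : (Fin 2 → ℤ) → ℂ}
    (hw : ∀ v, ‖w v‖ ≤ 1) : MDifferentiable 𝓘(ℂ) 𝓘(ℂ) (wEis k w) := by
  rw [UpperHalfPlane.mdifferentiable_iff]
  refine (tendstoLocallyUniformlyOn_wEis hk hw).differentiableOn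
    (Eventually.of_forall fun s => ?_) isOpen_upperHalfPlaneSet
  have h : ((fun z : ℍ => ∑ v ∈ s, w v * eisSummand k v z) ∘ ofComplex) =
      fun z : ℂ => ∑ v ∈ s, w v * (eisSummand k v ∘ ofComplex) z := rfl
  rw [h]
  exact DifferentiableOn.fun_sum fun v _ =>
    (eisSummand_extension_differentiableOn k v).const_mul (w v)

/-! ### The limit at `i∞` -/

theorem eisSummand_zero_one (k : ℤ) (z : ℍ) : eisSummand k ![0, 1] z = 1 := by
  simp [eisSummand]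

theorem eisSummand_zero_neg_one {k : ℤ} (hk : Even k) (z : ℍ) :
    eisSummand k ![0, -1] z = 1 := by
  have h : ((0 : ℂ) * (z : ℂ) + (-1 : ℂ)) ^ (-k) = 1 := by
    rw [zero_mul, zero_add]
    exact hk.neg.neg_one_zpow
  rw [eisSummand]
  simpa using h

/-- On a vertical strip, a weighted Eisenstein sum whose weight vanishes on the vectors with
`v 0 = 0` is `O(1 / im z)`. -/
theorem norm_wEis_le_div_of_mem_verticalStrip {k : ℤ} (hk : 4 ≤ k) {w : (Fin 2 → ℤ) → ℂ}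
    (hw : ∀ v, ‖w v‖ ≤ 1) (hw0 : ∀ v : Fin 2 → ℤ, v 0 = 0 → w v = 0) {z : ℍ} {A B : ℝ}
    (hB : 0 < B) (hz : z ∈ verticalStrip A B) :
    ‖wEis k w z‖ ≤
      (∑' v : Fin 2 → ℤ, r ⟨⟨A, B⟩, hB⟩ ^ (-(k - 1 : ℝ)) * ‖v‖ ^ (-(k - 1 : ℝ))) / z.im := by
  have hk3 : 3 ≤ k := by omega
  have hk' : (2 : ℝ) < (k : ℝ) - 1 := by
    have : (4 : ℝ) ≤ k := by exact_mod_cast hk
    linarith
  have hsum : Summable fun v : Fin 2 → ℤ =>
      r ⟨⟨A, B⟩, hB⟩ ^ (-(k - 1 : ℝ)) * ‖v‖ ^ (-(k - 1 : ℝ)) / z.im := by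
    have h1 : Summable fun v : Fin 2 → ℤ => ‖v‖ ^ (-(k - 1 : ℝ)) :=
      summable_one_div_norm_rpow hk'
    exact (h1.mul_left _).div_const _
  rw [← tsum_div_const]
  unfold wEis
  refine (norm_tsum_le_tsum_norm (summable_norm_wEis hk3 hw z)).trans ?_
  refine (summable_norm_wEis hk3 hw z).tsum_le_tsum (fun v => ?_) hsum
  by_cases hv : v 0 = 0
  · rw [hw0 v hv, zero_mul, norm_zero]
    have := r_pos (⟨⟨A, B⟩, hB⟩ : ℍ)
    have := z.im_pos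
    positivity
  · refine (norm_mul_eisSummand_le hw v z).trans ?_
    set a : ℝ := ‖(v 0 : ℂ) * (z : ℂ) + v 1‖ with ha
    have hza : z.im ≤ a := by
      have h1 : |((v 0 : ℂ) * (z : ℂ) + v 1).im| ≤ a := Complex.abs_im_le_norm _
      have h2 : ((v 0 : ℂ) * (z : ℂ) + v 1).im = (v 0 : ℝ) * z.im := by
        simp
      rw [h2, abs_mul, abs_of_pos z.im_pos] at h1
      have h3 : (1 : ℝ) ≤ |(v 0 : ℝ)| := by
        have : (1 : ℤ) ≤ |v 0| := Int.one_le_abs hv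
        exact_mod_cast this
      nlinarith [z.im_pos]
    have hapos : 0 < a := lt_of_lt_of_le z.im_pos hza
    have hsplit : ‖eisSummand k v z‖ = a ^ (-(1 : ℝ)) * a ^ (-(k - 1 : ℝ)) := by
      rw [eisSummand, norm_zpow, ← ha, ← Real.rpow_add hapos, ← Real.rpow_intCast]
      congr 1
      push_cast
      ring
    rw [hsplit, mul_div_assoc, mul_comm]
    have h4 : a ^ (-(k - 1 : ℝ)) ≤ r ⟨⟨A, B⟩, hB⟩ ^ (-(k - 1 : ℝ)) * ‖v‖ ^ (-(k - 1 : ℝ)) :=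
      summand_bound_of_mem_verticalStrip (by linarith) v hB hz
    have h5 : a ^ (-(1 : ℝ)) ≤ 1 / z.im := by
      rw [Real.rpow_neg_one, ← one_div]
      exact one_div_le_one_div_of_le z.im_pos hza
    have h6 : 0 ≤ a ^ (-(k - 1 : ℝ)) := by positivity
    have h7 : 0 ≤ 1 / z.im := by have := z.im_pos; positivity
    calc a ^ (-(k - 1 : ℝ)) * a ^ (-(1 : ℝ))
        ≤ (r ⟨⟨A, B⟩, hB⟩ ^ (-(k - 1 : ℝ)) * ‖v‖ ^ (-(k - 1 : ℝ))) * (1 / z.im) :=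
          mul_le_mul h4 h5 (by positivity) (h6.trans h4)
      _ = r ⟨⟨A, B⟩, hB⟩ ^ (-(k - 1 : ℝ)) * (‖v‖ ^ (-(k - 1 : ℝ)) / z.im) := by ring

/-- The constant in the `O(1 / im z)` bound. -/
def cEis (k : ℤ) : ℝ :=
  ∑' v : Fin 2 → ℤ, r ⟨⟨1, 2⟩, two_pos⟩ ^ (-(k - 1 : ℝ)) * ‖v‖ ^ (-(k - 1 : ℝ))

/-- A weighted Eisenstein sum whose weight vanishes on the vectors with `v 0 = 0` is
`O(1 / im z)` on `2 ≤ im z`. -/
theorem norm_wEis_le_div {k : ℤ} (hk : 4 ≤ k) {w : (Fin 2 → ℤ) → ℂ}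
    (hw : ∀ v, ‖w v‖ ≤ 1) (hw0 : ∀ v : Fin 2 → ℤ, v 0 = 0 → w v = 0) {z : ℍ}
    (hz : 2 ≤ z.im) : ‖wEis k w z‖ ≤ cEis k / z.im := by
  obtain ⟨n, hn⟩ := exists_T_zpow_mem_verticalStrip z
  rw [wEis_eq_T_zpow k w n z]
  have h := norm_wEis_le_div_of_mem_verticalStrip hk (z := ModularGroup.T ^ n • z)
    (w := fun v => w (v ᵥ* ((ModularGroup.T ^ n : SL(2, ℤ)) : Matrix (Fin 2) (Fin 2) ℤ)))
    (fun v => hw _) (fun v hv => hw0 _ (by rw [vecMul_T_zpow]; simpa using hv)) two_pos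
    (verticalStrip_anti_right _ hz hn)
  rwa [ModularGroup.im_T_zpow_smul] at h

/-- Splitting off the two terms `v = (0, ±1)`. -/
theorem wEis_eq_add_two {k : ℤ} (hk : 3 ≤ k) (hkeven : Even k) {w : (Fin 2 → ℤ) → ℂ}
    (hw : ∀ v, ‖w v‖ ≤ 1) (h1 : w ![0, 1] = 1) (h2 : w ![0, -1] = 1)
    (h0 : ∀ v : Fin 2 → ℤ, v 0 = 0 → v ≠ ![0, 1] → v ≠ ![0, -1] → w v = 0) (z : ℍ) :
    wEis k w z = wEis k (fun v => if v 0 = 0 then 0 else w v) z + 2 := by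
  have hw' : ∀ v : Fin 2 → ℤ, ‖(if v 0 = 0 then (0 : ℂ) else w v)‖ ≤ 1 := by
    intro v
    split_ifs
    · simp
    · exact hw v
  have hf := (summable_wEis hk hw' z).hasSum
  have hg : HasSum (fun v : Fin 2 → ℤ => if v = ![0, 1] then (1 : ℂ) else 0) 1 :=
    hasSum_ite_eq _ _
  have hh : HasSum (fun v : Fin 2 → ℤ => if v = ![0, -1] then (1 : ℂ) else 0) 1 :=
    hasSum_ite_eq _ _
  have hne : (![0, 1] : Fin 2 → ℤ) ≠ ![0, -1] := by
    intro h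
    have := congrFun h 1
    simp at this
  have key := (hf.add hg).add hh
  have hfun : (fun v : Fin 2 → ℤ => w v * eisSummand k v z) =
      fun v : Fin 2 → ℤ => (if v 0 = 0 then (0 : ℂ) else w v) * eisSummand k v z +
        (if v = ![0, 1] then (1 : ℂ) else 0) + (if v = ![0, -1] then (1 : ℂ) else 0) := by
    funext v
    by_cases hv1 : v = ![0, 1]
    · subst hv1
      rw [h1, eisSummand_zero_one, if_pos (by simp), if_pos rfl, if_neg hne]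
      ring
    · by_cases hv2 : v = ![0, -1]
      · subst hv2
        rw [h2, eisSummand_zero_neg_one hkeven, if_pos (by simp), if_neg hv1, if_pos rfl]
        ring
      · rw [if_neg hv1, if_neg hv2]
        by_cases hv : v 0 = 0
        · rw [if_pos hv, h0 v hv hv1 hv2]
          ring
        · rw [if_neg hv]
          ring
  have : wEis k w z = wEis k (fun v => if v 0 = 0 then 0 else w v) z + 1 + 1 := by
    show (∑' v : Fin 2 → ℤ, w v * eisSummand k v z) = _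
    rw [hfun]
    exact key.tsum_eq
  rw [this]
  ring

/-- A weighted Eisenstein sum whose weight is `1` at `(0, ±1)` and vanishes at the other
vectors with `v 0 = 0` tends to `2` at `i∞`. -/
theorem tendsto_wEis {k : ℤ} (hk : 4 ≤ k) (hkeven : Even k) {w : (Fin 2 → ℤ) → ℂ}
    (hw : ∀ v, ‖w v‖ ≤ 1) (h1 : w ![0, 1] = 1) (h2 : w ![0, -1] = 1)
    (h0 : ∀ v : Fin 2 → ℤ, v 0 = 0 → v ≠ ![0, 1] → v ≠ ![0, -1] → w v = 0) :
    Tendsto (wEis k w) atImInfty (𝓝 2) := by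
  have hk3 : 3 ≤ k := by omega
  have hw' : ∀ v : Fin 2 → ℤ, ‖(if v 0 = 0 then (0 : ℂ) else w v)‖ ≤ 1 := by
    intro v
    split_ifs
    · simp
    · exact hw v
  have hbound : ∀ z : ℍ, 2 ≤ z.im → ‖wEis k w z - 2‖ ≤ cEis k / z.im := by
    intro z hz
    rw [wEis_eq_add_two hk3 hkeven hw h1 h2 h0 z, add_sub_cancel_right]
    exact norm_wEis_le_div hk hw' (fun v hv => if_pos hv) hz
  rw [Metric.tendsto_nhds]
  intro ε hε
  rw [Filter.Eventually, atImInfty_mem]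
  refine ⟨max 2 (cEis k / ε + 1), fun z hz => ?_⟩
  have hz2 : 2 ≤ z.im := (le_max_left _ _).trans hz
  have hz3 : cEis k / ε + 1 ≤ z.im := (le_max_right _ _).trans hz
  show dist (wEis k w z) 2 < ε
  rw [dist_eq_norm]
  refine lt_of_le_of_lt (hbound z hz2) ?_
  rw [div_lt_iff₀ z.im_pos]
  have h3 : cEis k / ε < z.im := by linarith
  rw [div_lt_iff₀ hε] at h3
  linarith

/-! ### The weight attached to a character of `Γ₀(N)` -/

/-- The bottom row of an element of `SL(2, ℤ)`. -/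
def botRow (A : SL(2, ℤ)) : Fin 2 → ℤ := (A : Matrix (Fin 2) (Fin 2) ℤ) 1

theorem botRow_mul (A B : SL(2, ℤ)) :
    botRow (A * B) = botRow A ᵥ* (B : Matrix (Fin 2) (Fin 2) ℤ) := by
  unfold botRow
  rw [Matrix.SpecialLinearGroup.coe_mul, Matrix.mul_apply_eq_vecMul]

theorem botRow_one : botRow (1 : SL(2, ℤ)) = ![0, 1] := by
  unfold botRow
  ext i
  fin_cases i <;> simp

theorem botRow_apply_zero (A : SL(2, ℤ)) : botRow A 0 = A 1 0 := rfl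

theorem botRow_apply_one (A : SL(2, ℤ)) : botRow A 1 = A 1 1 := rfl

variable {N : ℕ}

open Classical in
/-- The weight `v ↦ χ(γ)⁻¹` if `v` is the bottom row of `γ ∈ Γ₀(N)`, and `0` if `v` is not
such a bottom row. -/
def chiW (χ : Gamma0 N →* ℂˣ) (v : Fin 2 → ℤ) : ℂ :=
  if h : ∃ γ : Gamma0 N, botRow (γ : SL(2, ℤ)) = v then (((χ h.choose)⁻¹ : ℂˣ) : ℂ) else 0

theorem chi_eq_of_botRow_eq {χ : Gamma0 N →* ℂˣ}
    (hχT : ∀ γ : Gamma0 N, (γ : SL(2, ℤ)) 1 0 = 0 → χ γ = 1) {γ δ : Gamma0 N}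
    (h : botRow (γ : SL(2, ℤ)) = botRow (δ : SL(2, ℤ))) : χ γ = χ δ := by
  have h1 : botRow ((γ * δ⁻¹ : Gamma0 N) : SL(2, ℤ)) = ![0, 1] := by
    rw [Subgroup.coe_mul, botRow_mul, h, ← botRow_mul, Subgroup.coe_inv, mul_inv_cancel,
      botRow_one]
  have h2 : χ (γ * δ⁻¹) = 1 := by
    apply hχT
    have := congrFun h1 0
    simpa [botRow] using this
  rw [map_mul, map_inv, mul_inv_eq_one] at h2
  exact h2

theorem chiW_botRow {χ : Gamma0 N →* ℂˣ}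
    (hχT : ∀ γ : Gamma0 N, (γ : SL(2, ℤ)) 1 0 = 0 → χ γ = 1) (γ : Gamma0 N) :
    chiW χ (botRow (γ : SL(2, ℤ))) = (((χ γ)⁻¹ : ℂˣ) : ℂ) := by
  have h : ∃ γ' : Gamma0 N, botRow (γ' : SL(2, ℤ)) = botRow (γ : SL(2, ℤ)) := ⟨γ, rfl⟩
  unfold chiW
  rw [dif_pos h, chi_eq_of_botRow_eq hχT h.choose_spec]

theorem chiW_of_not_exists {χ : Gamma0 N →* ℂˣ} {v : Fin 2 → ℤ}
    (h : ¬ ∃ γ : Gamma0 N, botRow (γ : SL(2, ℤ)) = v) : chiW χ v = 0 := by
  unfold chiW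
  rw [dif_neg h]

theorem norm_chiW_le {χ : Gamma0 N →* ℂˣ}
    (hχ1 : ∀ γ : Gamma0 N, ‖((χ γ : ℂˣ) : ℂ)‖ = 1) (v : Fin 2 → ℤ) : ‖chiW χ v‖ ≤ 1 := by
  unfold chiW
  split_ifs with h
  · rw [← map_inv, hχ1]
  · simp

theorem chiW_vecMul_inv {χ : Gamma0 N →* ℂˣ}
    (hχT : ∀ γ : Gamma0 N, (γ : SL(2, ℤ)) 1 0 = 0 → χ γ = 1) (γ : Gamma0 N) (v : Fin 2 → ℤ) :
    chiW χ (v ᵥ* (((γ : SL(2, ℤ))⁻¹ : SL(2, ℤ)) : Matrix (Fin 2) (Fin 2) ℤ)) =
      ((χ γ : ℂˣ) : ℂ) * chiW χ v := by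
  by_cases h : ∃ δ : Gamma0 N, botRow (δ : SL(2, ℤ)) = v
  · obtain ⟨δ, rfl⟩ := h
    have h1 : botRow (δ : SL(2, ℤ)) ᵥ* (((γ : SL(2, ℤ))⁻¹ : SL(2, ℤ)) : Matrix (Fin 2) (Fin 2) ℤ)
        = botRow ((δ * γ⁻¹ : Gamma0 N) : SL(2, ℤ)) := by
      rw [Subgroup.coe_mul, botRow_mul, Subgroup.coe_inv]
    rw [h1, chiW_botRow hχT, chiW_botRow hχT, map_mul, map_inv, mul_inv, inv_inv, mul_comm,
      Units.val_mul]
  · have h' : ¬ ∃ δ : Gamma0 N, botRow (δ : SL(2, ℤ)) =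
        v ᵥ* (((γ : SL(2, ℤ))⁻¹ : SL(2, ℤ)) : Matrix (Fin 2) (Fin 2) ℤ) := by
      rintro ⟨δ, hδ⟩
      refine h ⟨δ * γ, ?_⟩
      rw [Subgroup.coe_mul, botRow_mul, hδ, vecMul_vecMul_inv]
    rw [chiW_of_not_exists h, chiW_of_not_exists h', mul_zero]

theorem chiW_zero_one {χ : Gamma0 N →* ℂˣ}
    (hχT : ∀ γ : Gamma0 N, (γ : SL(2, ℤ)) 1 0 = 0 → χ γ = 1) : chiW χ ![0, 1] = 1 := by
  have h := chiW_botRow hχT (1 : Gamma0 N)
  rw [Subgroup.coe_one, botRow_one, map_one, inv_one, Units.val_one] at h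
  exact h

theorem neg_one_mem_Gamma0 (N : ℕ) : (-1 : SL(2, ℤ)) ∈ Gamma0 N := by
  rw [Gamma0_mem]
  simp

theorem botRow_neg_one : botRow (-1 : SL(2, ℤ)) = ![0, -1] := by
  unfold botRow
  ext i
  fin_cases i <;> simp

theorem chiW_zero_neg_one {χ : Gamma0 N →* ℂˣ}
    (hχT : ∀ γ : Gamma0 N, (γ : SL(2, ℤ)) 1 0 = 0 → χ γ = 1) : chiW χ ![0, -1] = 1 := by
  have h := chiW_botRow hχT (⟨-1, neg_one_mem_Gamma0 N⟩ : Gamma0 N)
  have h1 : χ (⟨-1, neg_one_mem_Gamma0 N⟩ : Gamma0 N) = 1 := by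
    apply hχT
    simp
  rw [h1, inv_one, Units.val_one] at h
  rw [← botRow_neg_one]
  exact h

theorem chiW_eq_zero {χ : Gamma0 N →* ℂˣ} {v : Fin 2 → ℤ} (hv : v 0 = 0)
    (hv1 : v ≠ ![0, 1]) (hv2 : v ≠ ![0, -1]) : chiW χ v = 0 := by
  apply chiW_of_not_exists
  rintro ⟨δ, rfl⟩
  have hdet := Matrix.SpecialLinearGroup.det_coe (δ : SL(2, ℤ))
  rw [Matrix.det_fin_two] at hdet
  have h10 : (δ : SL(2, ℤ)) 1 0 = 0 := hv
  rw [h10, mul_zero, sub_zero] at hdet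
  rcases Int.eq_one_or_neg_one_of_mul_eq_one' hdet with ⟨-, h11⟩ | ⟨-, h11⟩
  · apply hv1
    ext i
    fin_cases i
    · exact h10
    · exact h11
  · apply hv2
    ext i
    fin_cases i
    · exact h10
    · exact h11

/-! ### The Eisenstein series of a character -/

/-- **(K2)-core.**  For a unitary character `χ` of `Γ₀(N)` trivial on the matrices with
lower-left entry `0`, and even `k ≥ 4`, there is a holomorphic function on `ℍ` transforming by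
`χ` in weight `k` under `Γ₀(N)`, bounded at all cusps, and tending to `2` at `i∞`. -/
theorem exists_eisenstein_of_character (N : ℕ) (k : ℤ) (hk : 3 ≤ k) (hkeven : Even k)
    (χ : Gamma0 N →* ℂˣ) (hχ1 : ∀ γ : Gamma0 N, ‖((χ γ : ℂˣ) : ℂ)‖ = 1)
    (hχT : ∀ γ : Gamma0 N, (γ : SL(2, ℤ)) 1 0 = 0 → χ γ = 1) :
    ∃ E : ℍ → ℂ, MDifferentiable 𝓘(ℂ) 𝓘(ℂ) E ∧
      (∀ (γ : Gamma0 N) (z : ℍ), E ((γ : SL(2, ℤ)) • z) =
        ((χ γ : ℂˣ) : ℂ) * (((γ : SL(2, ℤ)) 1 0 : ℂ) * z + ((γ : SL(2, ℤ)) 1 1 : ℂ)) ^ k * E z) ∧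
      (∀ g : SL(2, ℤ), IsBoundedAtImInfty (E ∣[k] g)) ∧
      Tendsto E atImInfty (𝓝 2) := by
  have hk4 : 4 ≤ k := by
    rcases hkeven with ⟨m, hm⟩
    omega
  have hw := norm_chiW_le hχ1
  refine ⟨wEis k (chiW χ), mdifferentiable_wEis hk hw, fun γ z => ?_, fun g => ?_, ?_⟩
  · rw [wEis_smul, ModularGroup.denom_apply]
    have h : wEis k (fun v => chiW χ (v ᵥ*
        (((γ : SL(2, ℤ))⁻¹ : SL(2, ℤ)) : Matrix (Fin 2) (Fin 2) ℤ))) z =
        ((χ γ : ℂˣ) : ℂ) * wEis k (chiW χ) z := by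
      unfold wEis
      rw [← tsum_mul_left]
      refine tsum_congr fun v => ?_
      beta_reduce
      rw [chiW_vecMul_inv hχT, mul_assoc]
    rw [h]
    ring
  · rw [slash_wEis]
    exact isBoundedAtImInfty_wEis hk fun v => hw _
  · exact tendsto_wEis hk4 hkeven hw (chiW_zero_one hχT) (chiW_zero_neg_one hχT)
      fun v hv hv1 hv2 => chiW_eq_zero hv hv1 hv2

end

end Fermat.Agent.S29.EisChar
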