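/-
S29 route, block [K], leaf [K2Eis] of helper17's table (helper41): the spaces `MFchi N 12 χ` and
`Vchi N χ` are nonzero for every unitary character `χ` of `Γ₀(N)` that is trivial on the matrices
with lower-left entry `0`.  The witness is the weight-12 Eisenstein series of `χ` from
`S29/EisChar.lean`.
-/
import Mathlib
import Fermat.Agent.S29.KDefs
import Fermat.Agent.S29.EisChar
import Fermat.Agent.S24.AnBridge

set_option autoImplicit false

namespace Fermat.Agent.S29.K2Eis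

open UpperHalfPlane ModularForm CongruenceSubgroup ModularCurve Filter Topology
open scoped MatrixGroups ModularForm Manifold

/-- The pointwise transformation law, in slash form. -/
theorem slash_eq_smul_of_apply {E : ℍ → ℂ} {k : ℤ} {c : ℂ} (g : SL(2, ℤ))
    (h : ∀ z : ℍ, E (g • z) = c * ((g 1 0 : ℂ) * z + (g 1 1 : ℂ)) ^ k * E z) :
    E ∣[k] g = c • E := by
  ext z
  have hd : ((g 1 0 : ℂ) * z + (g 1 1 : ℂ)) ≠ 0 := by
    have := denom_ne_zero g z
    rwa [ModularGroup.denom_apply] at this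
  rw [ModularForm.SL_slash_apply, h z, ModularGroup.denom_apply, Pi.smul_apply, smul_eq_mul,
    mul_right_comm, mul_assoc c, ← zpow_add₀ hd, add_neg_cancel, zpow_zero, mul_one]

/-- A function invariant under `z ↦ z + 1` gives a `1`-periodic function on `ℂ`. -/
theorem periodic_of_T_smul {E : ℍ → ℂ} (h : ∀ z : ℍ, E (ModularGroup.T • z) = E z) :
    Function.Periodic (E ∘ ofComplex) 1 := by
  intro w
  by_cases hw : 0 < w.im
  · have hw1 : 0 < (w + 1).im := by simpa using hw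
    simp only [Function.comp_apply, ofComplex_apply_of_im_pos hw1, ofComplex_apply_of_im_pos hw]
    rw [← h ⟨w, hw⟩, UpperHalfPlane.modular_T_smul]
    congr 1
    ext
    simp [add_comm]
  · have hw' : w.im ≤ 0 := not_lt.mp hw
    have hw1 : (w + 1).im ≤ 0 := by simpa using hw'
    simp [ofComplex_apply_of_im_nonpos hw1, ofComplex_apply_of_im_nonpos hw']

/-- Invariance under `T` from the slash form. -/
theorem apply_T_smul_of_slash {E : ℍ → ℂ} {k : ℤ} (h : E ∣[k] ModularGroup.T = E) (z : ℍ) :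
    E (ModularGroup.T • z) = E z := by
  have h1 := congrFun h z
  rw [ModularForm.SL_slash_apply, ModularGroup.denom_apply] at h1
  simpa [ModularGroup.T] using h1

variable {N : ℕ}

/-- A form with multiplier `χ`, `χ(T) = 1`, is a nice function (`1`-periodic, holomorphic,
bounded at `i∞`). -/
theorem mem_niceSub_of_mem_MFchi {w : ℤ} {χ : ↥(Gamma0 N) →* ℂˣ} (hT : χ (K.TG N) = 1)
    {A : ℍ → ℂ} (hA : A ∈ K.MFchi N w χ) : A ∈ S23.niceSub := by
  obtain ⟨hA1, hA2, hA3⟩ := hA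
  refine ⟨periodic_of_T_smul (apply_T_smul_of_slash (k := w) ?_), hA1, ?_⟩
  · have := hA2 (K.TG N)
    rw [hT, Units.val_one, one_smul] at this
    exact this
  · have := hA3 1
    rwa [SlashAction.slash_one] at this

theorem DeltaC_ne_zero : K.DeltaC ≠ 0 := by
  intro h
  exact S24.AnBridge.qExpansion_discriminant_ne_zero (HahnSeries.ofPowerSeries_injective
    (h.trans (map_zero (HahnSeries.ofPowerSeries ℤ ℂ)).symm))

theorem qx_ne_zero {A : ℍ → ℂ} (hA : A ∈ S23.niceSub) (hA0 : A ≠ 0) : K.qx A ≠ 0 := by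
  intro h
  apply hA0
  have h1 : qExpansion 1 A = 0 := HahnSeries.ofPowerSeries_injective
    (h.trans (map_zero (HahnSeries.ofPowerSeries ℤ ℂ)).symm)
  exact (qExpansion_eq_zero_iff one_pos hA.1 hA.2.1 hA.2.2).mp h1

end Fermat.Agent.S29.K2Eis

namespace Fermat.Agent.S29.K

open UpperHalfPlane ModularForm CongruenceSubgroup ModularCurve Filter Topology
open scoped MatrixGroups ModularForm Manifold

variable {N : ℕ}

/-- **[K2Eis]**  The space of weight-12 forms with multiplier `χ` is nonzero. -/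
theorem exists_ne_zero_mem_MFchi (χ : ↥(Gamma0 N) →* ℂˣ)
    (hnorm : ∀ γ : ↥(Gamma0 N), ‖((χ γ : ℂˣ) : ℂ)‖ = 1)
    (hpar : ∀ γ : ↥(Gamma0 N), (γ : SL(2, ℤ)) 1 0 = 0 → χ γ = 1) :
    ∃ F : ℍ → ℂ, F ∈ MFchi N 12 χ ∧ F ≠ 0 := by
  obtain ⟨E, hE1, hE2, hE3, hE4⟩ := EisChar.exists_eisenstein_of_character N 12 (by norm_num)
    ⟨6, by norm_num⟩ χ hnorm hpar
  refine ⟨E, ⟨hE1, fun γ => K2Eis.slash_eq_smul_of_apply _ (hE2 γ), hE3⟩, ?_⟩
  rintro rfl
  have h : (0 : ℂ) = 2 := tendsto_nhds_unique (tendsto_const_nhds (x := (0 : ℂ))) hE4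
  norm_num at h

/-- **[K2Eis]**  The descent space `V(χ)` is nonzero. -/
theorem exists_ne_zero_mem_Vchi (χ : ↥(Gamma0 N) →* ℂˣ)
    (hnorm : ∀ γ : ↥(Gamma0 N), ‖((χ γ : ℂˣ) : ℂ)‖ = 1)
    (hpar : ∀ γ : ↥(Gamma0 N), (γ : SL(2, ℤ)) 1 0 = 0 → χ γ = 1) :
    ∃ x ∈ Vchi N χ, x ≠ 0 := by
  obtain ⟨F, hF, hF0⟩ := exists_ne_zero_mem_MFchi χ hnorm hpar
  have hT : χ (TG N) = 1 := hpar _ (by simp [TG, ModularGroup.T])
  have hq : qx F ≠ 0 := K2Eis.qx_ne_zero (K2Eis.mem_niceSub_of_mem_MFchi hT hF) hF0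
  exact ⟨qx F / DeltaC, ⟨F, hF, div_mul_cancel₀ _ K2Eis.DeltaC_ne_zero⟩,
    div_ne_zero hq K2Eis.DeltaC_ne_zero⟩

end Fermat.Agent.S29.K
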