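import Mathlib

namespace Fermat.Agent.S29.SturmChi

open UpperHalfPlane ModularForm Filter Asymptotics Real CongruenceSubgroup Matrix.SpecialLinearGroup
open scoped MatrixGroups ModularForm Manifold Topology

/-- q-expansion coefficients below the decay exponent vanish. -/
theorem qExpansion_coeff_eq_zero_of_isBigO {f : ℍ → ℂ}
    (hfper : Function.Periodic (f ∘ ofComplex) 1) (hfhol : MDiff f) (hfbdd : IsBoundedAtImInfty f)
    {m : ℕ} (hf : f =O[atImInfty] fun τ => Real.exp (-2 * π * m * τ.im)) {n : ℕ} (hn : n < m) :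
    (qExpansion 1 f).coeff n = 0 := by
  obtain ⟨C, hC⟩ := hf.bound
  rw [UpperHalfPlane.atImInfty, Filter.eventually_comap] at hC
  obtain ⟨A, hA⟩ := Filter.eventually_atTop.mp hC
  -- pointwise bound
  have hpt : ∀ (t : ℝ) (τ : ℍ), A ≤ t → τ.im = t →
      ‖(Function.Periodic.qParam 1 (τ : ℂ) ^ n)⁻¹ * f τ‖ ≤
        C * Real.exp (-2 * π * ((m : ℝ) - n) * t) := by
    intro t τ hAt him
    have h1 := hA t hAt τ him
    rw [him, Real.norm_of_nonneg (Real.exp_pos _).le] at h1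
    rw [norm_mul, norm_inv, norm_pow, Function.Periodic.norm_qParam]
    have h2 : (τ : ℂ).im = t := him
    rw [h2]
    simp only [div_one]
    have h3 : (Real.exp (-2 * π * t) ^ n)⁻¹ = Real.exp (2 * π * n * t) := by
      rw [← Real.exp_nat_mul, ← Real.exp_neg]; congr 1; ring
    rw [h3]
    calc Real.exp (2 * π * n * t) * ‖f τ‖
        ≤ Real.exp (2 * π * n * t) * (C * Real.exp (-2 * π * m * t)) :=
          mul_le_mul_of_nonneg_left h1 (Real.exp_pos _).le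
      _ = C * Real.exp (-2 * π * ((m : ℝ) - n) * t) := by
          rw [mul_left_comm, ← Real.exp_add]; congr 2; ring
  -- bound for every large `t`
  have key : ∀ t : ℝ, max A 1 ≤ t →
      ‖(qExpansion 1 f).coeff n‖ ≤ C * Real.exp (-2 * π * ((m : ℝ) - n) * t) := by
    intro t ht
    have ht0 : 0 < t := lt_of_lt_of_le one_pos ((le_max_right _ _).trans ht)
    rw [qExpansion_coeff_eq_intervalIntegral one_pos hfper hfhol hfbdd n ht0]
    simp only [one_div]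
    have hb : ∀ u ∈ Set.uIoc (0 : ℝ) 1,
        ‖(Function.Periodic.qParam 1 ((u : ℂ) + t * Complex.I) ^ n)⁻¹ *
          f ⟨(u : ℂ) + t * Complex.I, by simpa using ht0⟩‖ ≤
          C * Real.exp (-2 * π * ((m : ℝ) - n) * t) := by
      intro u _
      exact hpt t ⟨(u : ℂ) + t * Complex.I, by simpa using ht0⟩ ((le_max_left _ _).trans ht)
        (by simp [UpperHalfPlane.im])
    have := intervalIntegral.norm_integral_le_of_norm_le_const hb
    simpa using this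
  -- let `t → ∞`
  have hlim : Tendsto (fun t : ℝ => C * Real.exp (-2 * π * ((m : ℝ) - n) * t)) atTop (𝓝 (C * 0)) := by
    refine Tendsto.const_mul C ?_
    have hpos : 0 < 2 * π * ((m : ℝ) - n) := by
      have : (n : ℝ) < m := by exact_mod_cast hn
      have := Real.pi_pos
      nlinarith
    have : Tendsto (fun t : ℝ => -(2 * π * ((m : ℝ) - n) * t)) atTop atBot :=
      tendsto_neg_atTop_atBot.comp (tendsto_id.const_mul_atTop hpos)
    refine (Real.tendsto_exp_atBot.comp this).congr fun t => ?_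
    simp only [Function.comp_apply]; congr 1; ring
  rw [mul_zero] at hlim
  have hle : ‖(qExpansion 1 f).coeff n‖ ≤ 0 :=
    ge_of_tendsto hlim (Filter.eventually_atTop.mpr ⟨max A 1, key⟩)
  exact norm_le_zero_iff.mp hle

theorem le_qExpansion_order_of_isBigO {f : ℍ → ℂ}
    (hfper : Function.Periodic (f ∘ ofComplex) 1) (hfhol : MDiff f) (hfbdd : IsBoundedAtImInfty f)
    {m : ℕ} (hf : f =O[atImInfty] fun τ => Real.exp (-2 * π * m * τ.im)) :
    (m : ℕ∞) ≤ (qExpansion 1 f).order :=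
  PowerSeries.nat_le_order _ _ fun _ hn =>
    qExpansion_coeff_eq_zero_of_isBigO hfper hfhol hfbdd hf hn

/-- Every factor of Mathlib's norm of a modular form is bounded at `i∞`. -/
theorem isBoundedAtImInfty_quotientFunc {Γ : Subgroup (GL (Fin 2) ℝ)} [Γ.IsArithmetic] {k : ℤ}
    (f : ModularForm Γ k) (q : 𝒮ℒ ⧸ Γ.subgroupOf 𝒮ℒ) :
    IsBoundedAtImInfty (SlashInvariantForm.quotientFunc f q) := by
  induction q using Quotient.inductionOn with
  | h r =>
    obtain ⟨r, γ, rfl⟩ := r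
    have := ModularFormClass.bdd_at_infty_slash f γ⁻¹
    rw [ModularForm.SL_slash, map_inv] at this
    exact this

/-- **Sturm bound at arithmetic level, decay form.**  A modular form of weight `k` on an
arithmetic group `Γ` which decays like `exp (-2π m · Im τ)` at `i∞` with
`m > k · [SL₂(ℤ) : Γ] / 12` vanishes. -/
theorem eq_zero_of_isBigO_exp {Γ : Subgroup (GL (Fin 2) ℝ)} [Γ.IsArithmetic] {k : ℤ}
    (f : ModularForm Γ k) {m : ℕ}
    (hm : (k * (Nat.card (𝒮ℒ ⧸ Γ.subgroupOf 𝒮ℒ) : ℤ)).toNat / 12 < m)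
    (hf : (f : ℍ → ℂ) =O[atImInfty] fun τ => Real.exp (-2 * π * m * τ.im)) : f = 0 := by
  classical
  have hO : (⇑(ModularForm.norm 𝒮ℒ f) : ℍ → ℂ) =O[atImInfty]
      fun τ => Real.exp (-2 * π * m * τ.im) := by
    rw [ModularForm.coe_norm]
    set s : Finset (𝒮ℒ ⧸ Γ.subgroupOf 𝒮ℒ) :=
      @Finset.univ (𝒮ℒ ⧸ Γ.subgroupOf 𝒮ℒ) (Fintype.ofFinite _) with hs
    have hmem : (⟦1⟧ : 𝒮ℒ ⧸ Γ.subgroupOf 𝒮ℒ) ∈ s :=
      @Finset.mem_univ (𝒮ℒ ⧸ Γ.subgroupOf 𝒮ℒ) (Fintype.ofFinite _) _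
    have h1 : SlashInvariantForm.quotientFunc f (⟦1⟧ : 𝒮ℒ ⧸ Γ.subgroupOf 𝒮ℒ) = f := by
      simp
    have h2 : (∏ q ∈ s.erase (⟦1⟧ : 𝒮ℒ ⧸ Γ.subgroupOf 𝒮ℒ),
        SlashInvariantForm.quotientFunc f q) =O[atImInfty] (1 : ℍ → ℝ) := by
      have : (1 : ℍ → ℝ) = fun x => ∏ _q ∈ s.erase (⟦1⟧ : 𝒮ℒ ⧸ Γ.subgroupOf 𝒮ℒ),
          (1 : ℝ) := by ext; simp
      rw [this, Finset.prod_fn]
      exact Asymptotics.IsBigO.finsetProd fun q _ => isBoundedAtImInfty_quotientFunc f q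
    have hprod : (∏ q ∈ s, SlashInvariantForm.quotientFunc f q) = fun x => f x *
        (∏ q ∈ s.erase (⟦1⟧ : 𝒮ℒ ⧸ Γ.subgroupOf 𝒮ℒ), SlashInvariantForm.quotientFunc f q) x := by
      rw [← Finset.mul_prod_erase s _ hmem, h1]; rfl
    rw [hprod]
    simpa using hf.mul h2
  have hnorm : ModularForm.norm 𝒮ℒ f = 0 := by
    apply ModularForm.sturm_bound_levelOne
    refine lt_of_lt_of_le (by exact_mod_cast hm) (le_qExpansion_order_of_isBigO
      (SlashInvariantFormClass.periodic_comp_ofComplex _ one_mem_strictPeriods_SL)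
      (ModularFormClass.holo _) (ModularFormClass.bdd_at_infty _) hO)
  have := (ModularForm.norm_eq_zero_iff 𝒮ℒ f).mp hnorm
  exact DFunLike.coe_injective this

theorem pow_slash_SL2 (k : ℤ) (p : ℕ) (A : SL(2, ℤ)) (f : ℍ → ℂ) :
    (f ^ p) ∣[k * p] A = (f ∣[k] A) ^ p := by
  ext τ
  simp only [ModularForm.SL_slash_apply, Pi.pow_apply, mul_pow]
  congr 1
  rw [← zpow_natCast, ← zpow_mul, neg_mul]

theorem index_eq_card_quotient (Γ : Subgroup SL(2, ℤ)) :
    Nat.card (𝒮ℒ ⧸ (Γ.map (mapGL ℝ)).subgroupOf 𝒮ℒ) = Γ.index := by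
  have h1 : Nat.card (𝒮ℒ ⧸ (Γ.map (mapGL ℝ)).subgroupOf 𝒮ℒ) =
      (Γ.map (mapGL ℝ)).relIndex 𝒮ℒ := rfl
  rw [h1, MonoidHom.range_eq_map, ← Subgroup.relIndex_comap,
    Subgroup.comap_map_eq_self_of_injective mapGL_injective, Subgroup.relIndex_top_right]

/-- The `p`-th power of a holomorphic function with a `μ_p`-valued multiplier on a finite index
subgroup `Γ` of `SL(2, ℤ)`, bounded at all cusps, as a Mathlib modular form of weight `k * p`. -/
noncomputable def powForm {Γ : Subgroup SL(2, ℤ)} [Γ.FiniteIndex] {p : ℕ} {k : ℤ}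
    {F : ℍ → ℂ} (hF : MDiff F) {χ : SL(2, ℤ) → ℂ} (hχ : ∀ γ ∈ Γ, χ γ ^ p = 1)
    (hFχ : ∀ γ ∈ Γ, F ∣[k] γ = χ γ • F)
    (hbdd : ∀ g : SL(2, ℤ), IsBoundedAtImInfty (F ∣[k] g)) :
    ModularForm (Γ.map (mapGL ℝ)) (k * p) where
  toFun := F ^ p
  slash_action_eq' := by
    rintro _ ⟨γ, hγ, rfl⟩
    change (F ^ p) ∣[k * ↑p] γ = F ^ p
    rw [pow_slash_SL2, hFχ γ hγ, smul_pow, hχ γ hγ, one_smul]
  holo' := hF.pow p
  bdd_at_cusps' := fun {c} hc => by
    rw [Subgroup.IsArithmetic.isCusp_iff_isCusp_SL2Z] at hc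
    rw [OnePoint.isBoundedAt_iff_forall_SL2Z hc]
    intro γ _
    rw [pow_slash_SL2]
    have h := hbdd γ
    rw [IsBoundedAtImInfty, BoundedAtFilter] at h ⊢
    have h' := h.pow p
    simp only [Pi.one_apply, one_pow] at h'
    exact h'

theorem coe_powForm {Γ : Subgroup SL(2, ℤ)} [Γ.FiniteIndex] {p : ℕ} {k : ℤ}
    {F : ℍ → ℂ} (hF : MDiff F) {χ : SL(2, ℤ) → ℂ} (hχ : ∀ γ ∈ Γ, χ γ ^ p = 1)
    (hFχ : ∀ γ ∈ Γ, F ∣[k] γ = χ γ • F)
    (hbdd : ∀ g : SL(2, ℤ), IsBoundedAtImInfty (F ∣[k] g)) :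
    (powForm hF hχ hFχ hbdd : ℍ → ℂ) = F ^ p := rfl

/-- **Sturm bound with character, decay form.** -/
theorem eq_zero_of_character {Γ : Subgroup SL(2, ℤ)} [Γ.FiniteIndex] {p : ℕ} (hp : p ≠ 0)
    {k : ℤ} {F : ℍ → ℂ} (hF : MDiff F) {χ : SL(2, ℤ) → ℂ} (hχ : ∀ γ ∈ Γ, χ γ ^ p = 1)
    (hFχ : ∀ γ ∈ Γ, F ∣[k] γ = χ γ • F)
    (hbdd : ∀ g : SL(2, ℤ), IsBoundedAtImInfty (F ∣[k] g)) {m : ℕ}
    (hm : (k * (Γ.index : ℤ)).toNat / 12 < m)
    (hdecay : F =O[atImInfty] fun τ => Real.exp (-2 * π * m * τ.im)) : F = 0 := by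
  have hG : powForm hF hχ hFχ hbdd = 0 := by
    apply eq_zero_of_isBigO_exp (m := p * m)
    · rw [index_eq_card_quotient]
      rcases lt_or_ge (k * (Γ.index : ℤ)) 0 with hneg | hnn
      · have h0 : (k * (p : ℤ) * (Γ.index : ℤ)).toNat = 0 := by
          rw [Int.toNat_eq_zero]
          have : k * (p : ℤ) * (Γ.index : ℤ) = (k * (Γ.index : ℤ)) * p := by ring
          rw [this]
          exact mul_nonpos_of_nonpos_of_nonneg hneg.le (by positivity)
        rw [h0]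
        have : 0 < m := by omega
        simp only [Nat.zero_div]
        exact Nat.mul_pos (Nat.pos_of_ne_zero hp) this
      · obtain ⟨a, ha⟩ := Int.eq_ofNat_of_zero_le hnn
        have h1 : (k * (p : ℤ) * (Γ.index : ℤ)).toNat = a * p := by
          have : k * (p : ℤ) * (Γ.index : ℤ) = ((a * p : ℕ) : ℤ) := by
            push_cast; rw [← ha]; ring
          rw [this, Int.toNat_natCast]
        rw [ha, Int.toNat_natCast] at hm
        rw [h1]
        have h2 : a < 12 * m := by omega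
        have h3 : a * p < 12 * (p * m) := by
          have := Nat.mul_lt_mul_of_pos_right h2 (Nat.pos_of_ne_zero hp)
          calc a * p < 12 * m * p := this
            _ = 12 * (p * m) := by ring
        omega
    · rw [coe_powForm]
      have := hdecay.pow p
      refine this.congr_right fun τ => ?_
      rw [← Real.exp_nat_mul]; congr 1; push_cast; ring
  have h0 : F ^ p = 0 := by
    have := congrArg (fun G : ModularForm (Γ.map (mapGL ℝ)) (k * p) => (G : ℍ → ℂ)) hG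
    simpa [coe_powForm] using this
  funext τ
  have := congrFun h0 τ
  simpa using pow_eq_zero_iff hp |>.mp this

theorem periodic_of_slash_T {F : ℍ → ℂ} {k : ℤ} (h : F ∣[k] ModularGroup.T = F) :
    Function.Periodic (F ∘ ofComplex) 1 := by
  intro w
  by_cases hw : 0 < w.im
  · have hw1 : 0 < (w + 1).im := by simpa using hw
    simp only [Function.comp_apply, ofComplex_apply_of_im_pos hw1, ofComplex_apply_of_im_pos hw]
    have h1 := (ModularForm.slash_action_eq'_iff k F ModularGroup.T ⟨w, hw⟩).mp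
      (congrFun h ⟨w, hw⟩)
    have h2 : ModularGroup.T • (⟨w, hw⟩ : ℍ) = ⟨w + 1, hw1⟩ := by
      rw [UpperHalfPlane.modular_T_smul]
      ext
      simp [add_comm]
    rw [h2] at h1
    rw [h1]
    simp [ModularGroup.T]
  · have hw' : w.im ≤ 0 := not_lt.mp hw
    have hw1 : (w + 1).im ≤ 0 := by simpa using hw'
    simp [ofComplex_apply_of_im_nonpos hw1, ofComplex_apply_of_im_nonpos hw']

/-- Converse of `qExpansion_coeff_eq_zero_of_isBigO`: vanishing of the first `m` coefficients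
gives decay `exp (-2π m · Im τ)`. -/
theorem isBigO_of_qExpansion_coeff_eq_zero {f : ℍ → ℂ}
    (hfper : Function.Periodic (f ∘ ofComplex) 1) (hfhol : MDiff f) (hfbdd : IsBoundedAtImInfty f)
    {m : ℕ} (h0 : ∀ n < m, (qExpansion 1 f).coeff n = 0) :
    f =O[atImInfty] fun τ => Real.exp (-2 * π * m * τ.im) := by
  have hc : AnalyticAt ℂ (cuspFunction 1 f) 0 :=
    analyticAt_cuspFunction_zero one_pos hfper hfhol hfbdd
  have hord : (m : ℕ∞) ≤ analyticOrderAt (cuspFunction 1 f) 0 := by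
    rw [natCast_le_analyticOrderAt_iff_iteratedDeriv_eq_zero hc]
    intro i hi
    have := h0 i hi
    rw [qExpansion_coeff] at this
    have hfac : ((i.factorial : ℂ))⁻¹ ≠ 0 := inv_ne_zero (by exact_mod_cast i.factorial_ne_zero)
    exact (mul_eq_zero.mp this).resolve_left hfac
  obtain ⟨g, hg, hev⟩ := (natCast_le_analyticOrderAt hc).mp hord
  have hgb : ∀ᶠ z in 𝓝 (0 : ℂ), ‖g z‖ ≤ ‖g 0‖ + 1 := by
    have := hg.continuousAt.norm
    exact this.eventually_le_const (by linarith)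
  have hboth : ∀ᶠ z in 𝓝 (0 : ℂ), ‖cuspFunction 1 f z‖ ≤ (‖g 0‖ + 1) * ‖z‖ ^ m := by
    filter_upwards [hev, hgb] with z hz hzb
    rw [hz, sub_zero, norm_smul, norm_pow, mul_comm]
    exact mul_le_mul_of_nonneg_right hzb (by positivity)
  have htend : Tendsto (fun τ : ℍ => Function.Periodic.qParam 1 (τ : ℂ)) atImInfty (𝓝 0) :=
    qParam_tendsto_atImInfty one_pos
  refine IsBigO.of_bound (‖g 0‖ + 1) ?_
  filter_upwards [htend.eventually hboth] with τ hτ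
  rw [eq_cuspFunction τ one_ne_zero hfper, Function.Periodic.norm_qParam] at hτ
  rw [Real.norm_of_nonneg (Real.exp_pos _).le]
  refine hτ.trans (le_of_eq ?_)
  congr 1
  rw [← Real.exp_nat_mul]
  congr 1
  have : (τ : ℂ).im = τ.im := rfl
  rw [this]; ring

/-- The space of holomorphic functions on `ℍ` of weight `k` with multiplier `χ` on `Γ`
(`F ∣[k] γ = χ γ • F` for `γ ∈ Γ`), all of whose `SL(2, ℤ)`-translates are bounded at `i∞`. -/
def charSpace (Γ : Subgroup SL(2, ℤ)) (k : ℤ) (χ : SL(2, ℤ) → ℂ) : Submodule ℂ (ℍ → ℂ) where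
  carrier := {F | MDiff F ∧ (∀ γ ∈ Γ, F ∣[k] γ = χ γ • F) ∧
    ∀ g : SL(2, ℤ), IsBoundedAtImInfty (F ∣[k] g)}
  add_mem' := by
    rintro F G ⟨hF1, hF2, hF3⟩ ⟨hG1, hG2, hG3⟩
    refine ⟨hF1.add hG1, fun γ hγ => ?_, fun g => ?_⟩
    · rw [SlashAction.add_slash, hF2 γ hγ, hG2 γ hγ, smul_add]
    · rw [SlashAction.add_slash]; exact (hF3 g).add (hG3 g)
  zero_mem' := by
    refine ⟨mdifferentiable_const, fun γ _ => by simp, fun g => ?_⟩
    rw [SlashAction.zero_slash]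
    exact zero_form_isBoundedAtImInfty
  smul_mem' := by
    rintro c F ⟨hF1, hF2, hF3⟩
    refine ⟨hF1.const_smul c, fun γ hγ => ?_, fun g => ?_⟩
    · rw [ModularForm.SL_smul_slash, hF2 γ hγ, smul_comm]
    · rw [ModularForm.SL_smul_slash]; exact (hF3 g).const_smul_left c

theorem mem_charSpace_iff {Γ : Subgroup SL(2, ℤ)} {k : ℤ} {χ : SL(2, ℤ) → ℂ} {F : ℍ → ℂ} :
    F ∈ charSpace Γ k χ ↔ MDiff F ∧ (∀ γ ∈ Γ, F ∣[k] γ = χ γ • F) ∧
      ∀ g : SL(2, ℤ), IsBoundedAtImInfty (F ∣[k] g) := Iff.rfl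

theorem isBoundedAtImInfty_of_mem_charSpace {Γ : Subgroup SL(2, ℤ)} {k : ℤ} {χ : SL(2, ℤ) → ℂ}
    {F : ℍ → ℂ} (hF : F ∈ charSpace Γ k χ) : IsBoundedAtImInfty F := by
  have := hF.2.2 1
  rwa [SlashAction.slash_one] at this

theorem periodic_of_mem_charSpace {Γ : Subgroup SL(2, ℤ)} {k : ℤ} {χ : SL(2, ℤ) → ℂ}
    (hT : ModularGroup.T ∈ Γ) (hχT : χ ModularGroup.T = 1)
    {F : ℍ → ℂ} (hF : F ∈ charSpace Γ k χ) : Function.Periodic (F ∘ ofComplex) 1 :=
  periodic_of_slash_T (k := k) (by rw [hF.2.1 _ hT, hχT, one_smul])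

/-- **Sturm bound with character, coefficient form.** -/
theorem eq_zero_of_coeff_eq_zero {Γ : Subgroup SL(2, ℤ)} [Γ.FiniteIndex] {p : ℕ} (hp : p ≠ 0)
    {k : ℤ} {χ : SL(2, ℤ) → ℂ} (hχ : ∀ γ ∈ Γ, χ γ ^ p = 1) {F : ℍ → ℂ}
    (hF : F ∈ charSpace Γ k χ) (hper : Function.Periodic (F ∘ ofComplex) 1)
    (h0 : ∀ n ≤ (k * (Γ.index : ℤ)).toNat / 12, (qExpansion 1 F).coeff n = 0) : F = 0 :=
  eq_zero_of_character hp hF.1 hχ hF.2.1 hF.2.2 (Nat.lt_succ_self _)
    (isBigO_of_qExpansion_coeff_eq_zero hper hF.1 (isBoundedAtImInfty_of_mem_charSpace hF)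
      fun n hn => h0 n (Nat.lt_succ_iff.mp hn))

/-- The `q`-expansion as a linear map on the character space (for `χ T = 1`). -/
noncomputable def qExpLinear {Γ : Subgroup SL(2, ℤ)} (k : ℤ) {χ : SL(2, ℤ) → ℂ}
    (hT : ModularGroup.T ∈ Γ) (hχT : χ ModularGroup.T = 1) :
    charSpace Γ k χ →ₗ[ℂ] PowerSeries ℂ where
  toFun F := qExpansion 1 (F : ℍ → ℂ)
  map_add' F G := by
    have hF := analyticAt_cuspFunction_zero one_pos (periodic_of_mem_charSpace hT hχT F.2)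
      F.2.1 (isBoundedAtImInfty_of_mem_charSpace F.2)
    have hG := analyticAt_cuspFunction_zero one_pos (periodic_of_mem_charSpace hT hχT G.2)
      G.2.1 (isBoundedAtImInfty_of_mem_charSpace G.2)
    exact qExpansion_add hF hG
  map_smul' c F := by
    have hF := analyticAt_cuspFunction_zero one_pos (periodic_of_mem_charSpace hT hχT F.2)
      F.2.1 (isBoundedAtImInfty_of_mem_charSpace F.2)
    exact qExpansion_smul hF c

@[simp] theorem qExpLinear_apply {Γ : Subgroup SL(2, ℤ)} (k : ℤ) {χ : SL(2, ℤ) → ℂ}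
    (hT : ModularGroup.T ∈ Γ) (hχT : χ ModularGroup.T = 1) (F : charSpace Γ k χ) :
    qExpLinear k hT hχT F = qExpansion 1 (F : ℍ → ℂ) := rfl

/-- Truncated `q`-expansion: the first `B + 1` coefficients, `B = ⌊k·[SL₂(ℤ):Γ]/12⌋`. -/
noncomputable def truncLinear {Γ : Subgroup SL(2, ℤ)} (k : ℤ) {χ : SL(2, ℤ) → ℂ}
    (hT : ModularGroup.T ∈ Γ) (hχT : χ ModularGroup.T = 1) :
    charSpace Γ k χ →ₗ[ℂ] (Fin ((k * (Γ.index : ℤ)).toNat / 12 + 1) → ℂ) :=
  LinearMap.pi fun n => (PowerSeries.coeff (R := ℂ) (n : ℕ)) ∘ₗ qExpLinear k hT hχT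

theorem truncLinear_injective {Γ : Subgroup SL(2, ℤ)} [Γ.FiniteIndex] {p : ℕ} (hp : p ≠ 0)
    (k : ℤ) {χ : SL(2, ℤ) → ℂ} (hχ : ∀ γ ∈ Γ, χ γ ^ p = 1)
    (hT : ModularGroup.T ∈ Γ) (hχT : χ ModularGroup.T = 1) :
    Function.Injective (truncLinear (Γ := Γ) k hT hχT) := by
  rw [← LinearMap.ker_eq_bot, LinearMap.ker_eq_bot']
  intro F hF
  apply Subtype.ext
  refine eq_zero_of_coeff_eq_zero hp hχ F.2 (periodic_of_mem_charSpace hT hχT F.2) fun n hn => ?_
  have := congrFun hF ⟨n, Nat.lt_succ_of_le hn⟩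
  simpa [truncLinear] using this

theorem qExpLinear_injective {Γ : Subgroup SL(2, ℤ)} [Γ.FiniteIndex] {p : ℕ} (hp : p ≠ 0)
    (k : ℤ) {χ : SL(2, ℤ) → ℂ} (hχ : ∀ γ ∈ Γ, χ γ ^ p = 1)
    (hT : ModularGroup.T ∈ Γ) (hχT : χ ModularGroup.T = 1) :
    Function.Injective (qExpLinear (Γ := Γ) k hT hχT) := by
  intro F G h
  apply truncLinear_injective hp k hχ hT hχT
  funext n
  simp [truncLinear, h]

/-- **Finite-dimensionality of the character spaces** (no Riemann–Roch). -/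
theorem finiteDimensional_charSpace {Γ : Subgroup SL(2, ℤ)} [Γ.FiniteIndex] {p : ℕ} (hp : p ≠ 0)
    (k : ℤ) {χ : SL(2, ℤ) → ℂ} (hχ : ∀ γ ∈ Γ, χ γ ^ p = 1)
    (hT : ModularGroup.T ∈ Γ) (hχT : χ ModularGroup.T = 1) :
    FiniteDimensional ℂ (charSpace Γ k χ) :=
  FiniteDimensional.of_injective _ (truncLinear_injective hp k hχ hT hχT)

theorem finrank_charSpace_le {Γ : Subgroup SL(2, ℤ)} [Γ.FiniteIndex] {p : ℕ} (hp : p ≠ 0)
    (k : ℤ) {χ : SL(2, ℤ) → ℂ} (hχ : ∀ γ ∈ Γ, χ γ ^ p = 1)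
    (hT : ModularGroup.T ∈ Γ) (hχT : χ ModularGroup.T = 1) :
    Module.finrank ℂ (charSpace Γ k χ) ≤ (k * (Γ.index : ℤ)).toNat / 12 + 1 := by
  have := LinearMap.finrank_le_finrank_of_injective (truncLinear_injective hp k hχ hT hχT)
  simpa using this

theorem T_mem_Gamma0 (N : ℕ) : ModularGroup.T ∈ Gamma0 N := by
  rw [Gamma0_mem]
  simp [ModularGroup.T]

/-- `Γ₀(N)`-specialisation of `finiteDimensional_charSpace`. -/
theorem finiteDimensional_charSpace_Gamma0 (N : ℕ) [NeZero N] {p : ℕ} (hp : p ≠ 0)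
    (k : ℤ) {χ : SL(2, ℤ) → ℂ} (hχ : ∀ γ ∈ Gamma0 N, χ γ ^ p = 1)
    (hχT : χ ModularGroup.T = 1) :
    FiniteDimensional ℂ (charSpace (Gamma0 N) k χ) :=
  finiteDimensional_charSpace hp k hχ (T_mem_Gamma0 N) hχT

end Fermat.Agent.S29.SturmChi
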