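import Mathlib
import Fermat.Agent.S29.KDefs
import Fermat.Agent.S29.SturmChi

/-!
# S29 block [K], leaf [K2Sturm]: Sturm bound and finite-dimensionality for `MFchi` / `VchiSub`

* `K.eq_zero_of_coeff_eq_zero` : a form `F ∈ MFchi N 12 χ` (`χ` of finite order, `χ(T) = 1`) whose
  first `[SL₂(ℤ) : Γ₀(N)] + 1` q-coefficients vanish is zero.
* `K.finiteDimensional_MFchi`, `K.finiteDimensional_VchiSub` : finite-dimensionality (any weight
  for `MFchi`).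

Everything is a transport of `SturmChi` (Sturm-via-norm with character) along
`MFchi N w χ ≤ SturmChi.charSpace (Gamma0 N) w (chiFun N χ)`.
-/

set_option autoImplicit false

namespace Fermat.Agent.S29.K

open UpperHalfPlane ModularForm CongruenceSubgroup ModularCurve
open scoped MatrixGroups ModularForm Manifold

namespace SturmAux

/-- The multiplier `χ` as a plain function on `SL(2, ℤ)` (zero outside `Γ₀(N)`). -/
noncomputable def chiFun (N : ℕ) (χ : ↥(Gamma0 N) →* ℂˣ) : SL(2, ℤ) → ℂ := fun γ =>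
  open Classical in if h : γ ∈ Gamma0 N then ((χ ⟨γ, h⟩ : ℂˣ) : ℂ) else 0

theorem chiFun_of_mem {N : ℕ} (χ : ↥(Gamma0 N) →* ℂˣ) {γ : SL(2, ℤ)} (h : γ ∈ Gamma0 N) :
    chiFun N χ γ = ((χ ⟨γ, h⟩ : ℂˣ) : ℂ) := by
  simp [chiFun, h]

theorem chiFun_pow_eq_one {N : ℕ} {χ : ↥(Gamma0 N) →* ℂˣ} {n : ℕ} (hχ : χ ^ n = 1)
    (γ : SL(2, ℤ)) (h : γ ∈ Gamma0 N) : chiFun N χ γ ^ n = 1 := by
  rw [chiFun_of_mem χ h, ← Units.val_pow_eq_pow_val, ← MonoidHom.pow_apply, hχ]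
  simp

theorem chiFun_T {N : ℕ} {χ : ↥(Gamma0 N) →* ℂˣ} (hT : χ (TG N) = 1) :
    chiFun N χ ModularGroup.T = 1 := by
  rw [chiFun_of_mem χ (SturmChi.T_mem_Gamma0 N)]
  have : (⟨ModularGroup.T, SturmChi.T_mem_Gamma0 N⟩ : ↥(Gamma0 N)) = TG N := rfl
  rw [this, hT]
  simp

theorem MFchi_le_charSpace (N : ℕ) (w : ℤ) (χ : ↥(Gamma0 N) →* ℂˣ) :
    MFchi N w χ ≤ SturmChi.charSpace (Gamma0 N) w (chiFun N χ) := by
  rintro F ⟨h1, h2, h3⟩
  refine ⟨h1, fun γ hγ => ?_, h3⟩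
  rw [chiFun_of_mem χ hγ]
  exact h2 ⟨γ, hγ⟩

/-- Forms with multiplier `χ`, `χ(T) = 1`, are `1`-periodic. -/
theorem periodic_of_mem_MFchi {N : ℕ} {w : ℤ} {χ : ↥(Gamma0 N) →* ℂˣ} (hT : χ (TG N) = 1)
    {F : ℍ → ℂ} (hF : F ∈ MFchi N w χ) : Function.Periodic (F ∘ ofComplex) 1 :=
  SturmChi.periodic_of_mem_charSpace (SturmChi.T_mem_Gamma0 N) (chiFun_T hT)
    (MFchi_le_charSpace N w χ hF)

/-- **Sturm bound with multiplier, any weight**: coefficients up to `⌊w·μ/12⌋` vanish ⇒ `F = 0`. -/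
theorem eq_zero_of_coeff_eq_zero_weight {N : ℕ} [NeZero N] {χ : ↥(Gamma0 N) →* ℂˣ}
    (hT : χ (TG N) = 1) {n : ℕ} (hn : 0 < n) (hχ : χ ^ n = 1) {w : ℤ} {F : ℍ → ℂ}
    (hF : F ∈ MFchi N w χ)
    (h : ∀ i ≤ (w * (Nat.card (S20.Q N) : ℤ)).toNat / 12, (qExpansion 1 F).coeff i = 0) :
    F = 0 :=
  SturmChi.eq_zero_of_coeff_eq_zero hn.ne' (chiFun_pow_eq_one hχ) (MFchi_le_charSpace N w χ hF)
    (periodic_of_mem_MFchi hT hF) h

end SturmAux

open SturmAux in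
/-- **[K2Sturm]** Sturm bound for weight-`12` forms with multiplier `χ`. -/
theorem eq_zero_of_coeff_eq_zero {N : ℕ} [NeZero N] {χ : ↥(Gamma0 N) →* ℂˣ}
    (hT : χ (TG N) = 1) {n : ℕ} (hn : 0 < n) (hχ : χ ^ n = 1) {F : ℍ → ℂ}
    (hF : F ∈ MFchi N 12 χ)
    (h : ∀ i ≤ Nat.card (S20.Q N), (qExpansion 1 F).coeff i = 0) : F = 0 := by
  refine eq_zero_of_coeff_eq_zero_weight hT hn hχ hF fun i hi => h i (le_trans hi (le_of_eq ?_))
  have : ((12 : ℤ) * (Nat.card (S20.Q N) : ℤ)) = ((12 * Nat.card (S20.Q N) : ℕ) : ℤ) := by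
    push_cast; ring
  rw [this, Int.toNat_natCast, Nat.mul_div_cancel_left _ (by norm_num)]

namespace SturmAux

/-- Finite-dimensionality of the spaces of forms with multiplier (any weight). -/
theorem finiteDimensional_MFchi {N : ℕ} [NeZero N] {χ : ↥(Gamma0 N) →* ℂˣ}
    (hT : χ (TG N) = 1) {n : ℕ} (hn : 0 < n) (hχ : χ ^ n = 1) (w : ℤ) :
    FiniteDimensional ℂ ↥(MFchi N w χ) := by
  have := SturmChi.finiteDimensional_charSpace (Γ := Gamma0 N) hn.ne' w (chiFun_pow_eq_one hχ)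
    (SturmChi.T_mem_Gamma0 N) (chiFun_T hT)
  exact Submodule.finiteDimensional_of_le (MFchi_le_charSpace N w χ)

theorem DeltaC_ne_zero : DeltaC ≠ 0 := by
  intro h
  have h1 : qExpansion 1 ModularForm.discriminant = 0 := by
    apply HahnSeries.ofPowerSeries_injective (Γ := ℤ)
    rw [map_zero]
    exact h
  have := discriminant_qExpansion_coeff_one
  rw [h1] at this
  simp at this

theorem qx_add_of_mem {N : ℕ} {w : ℤ} {χ : ↥(Gamma0 N) →* ℂˣ} (hT : χ (TG N) = 1)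
    {F G : ℍ → ℂ} (hF : F ∈ MFchi N w χ) (hG : G ∈ MFchi N w χ) :
    qx (F + G) = qx F + qx G := by
  have hF' := MFchi_le_charSpace N w χ hF
  have hG' := MFchi_le_charSpace N w χ hG
  have h1 := analyticAt_cuspFunction_zero one_pos (periodic_of_mem_MFchi hT hF) hF.1
    (SturmChi.isBoundedAtImInfty_of_mem_charSpace hF')
  have h2 := analyticAt_cuspFunction_zero one_pos (periodic_of_mem_MFchi hT hG) hG.1
    (SturmChi.isBoundedAtImInfty_of_mem_charSpace hG')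
  rw [qx, qx, qx, qExpansion_add h1 h2, map_add]

theorem qx_smul_of_mem {N : ℕ} {w : ℤ} {χ : ↥(Gamma0 N) →* ℂˣ} (hT : χ (TG N) = 1)
    (c : ℂ) {F : ℍ → ℂ} (hF : F ∈ MFchi N w χ) :
    qx (c • F) = HahnSeries.C c * qx F := by
  have hF' := MFchi_le_charSpace N w χ hF
  have h1 := analyticAt_cuspFunction_zero one_pos (periodic_of_mem_MFchi hT hF) hF.1
    (SturmChi.isBoundedAtImInfty_of_mem_charSpace hF')
  rw [qx, qx, qExpansion_smul h1 c, PowerSeries.smul_eq_C_mul, map_mul, HahnSeries.ofPowerSeries_C]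

/-- The linear map `F ↦ qx F / Δ` on `MFchi N 12 χ`, whose range is `Vchi N χ`. -/
noncomputable def divDeltaLinear {N : ℕ} {χ : ↥(Gamma0 N) →* ℂˣ} (hT : χ (TG N) = 1) :
    ↥(MFchi N 12 χ) →ₗ[ℂ] LaurentSeries ℂ where
  toFun F := qx (F : ℍ → ℂ) * DeltaC⁻¹
  map_add' F G := by
    rw [Submodule.coe_add, qx_add_of_mem hT F.2 G.2, add_mul]
  map_smul' c F := by
    rw [Submodule.coe_smul, qx_smul_of_mem hT c F.2, mul_assoc, RingHom.id_apply,
      HahnSeries.C_mul_eq_smul]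

theorem divDeltaLinear_apply {N : ℕ} {χ : ↥(Gamma0 N) →* ℂˣ} (hT : χ (TG N) = 1)
    (F : ↥(MFchi N 12 χ)) : divDeltaLinear hT F = qx (F : ℍ → ℂ) * DeltaC⁻¹ := rfl

theorem Vchi_eq_range {N : ℕ} {χ : ↥(Gamma0 N) →* ℂˣ} (hT : χ (TG N) = 1) :
    Vchi N χ = (LinearMap.range (divDeltaLinear hT) : Set (LaurentSeries ℂ)) := by
  ext x
  constructor
  · rintro ⟨F, hF, hx⟩
    refine ⟨⟨F, hF⟩, ?_⟩
    rw [divDeltaLinear_apply, ← hx, mul_assoc, mul_inv_cancel₀ DeltaC_ne_zero, mul_one]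
  · rintro ⟨F, rfl⟩
    refine ⟨F, F.2, ?_⟩
    rw [divDeltaLinear_apply, mul_assoc, inv_mul_cancel₀ DeltaC_ne_zero, mul_one]

/-- For `χ(T) = 1` the set `Vchi N χ` is already a `ℂ`-subspace. -/
theorem VchiSub_eq_range {N : ℕ} {χ : ↥(Gamma0 N) →* ℂˣ} (hT : χ (TG N) = 1) :
    VchiSub N χ = LinearMap.range (divDeltaLinear hT) := by
  rw [VchiSub, Vchi_eq_range hT, Submodule.span_eq]

end SturmAux

open SturmAux in
/-- **[K2Sturm]** The descent space `V(χ)` is finite-dimensional. -/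
theorem finiteDimensional_VchiSub {N : ℕ} [NeZero N] {χ : ↥(Gamma0 N) →* ℂˣ}
    (hT : χ (TG N) = 1) {n : ℕ} (hn : 0 < n) (hχ : χ ^ n = 1) :
    FiniteDimensional ℂ ↥(VchiSub N χ) := by
  have := finiteDimensional_MFchi hT hn hχ 12
  rw [VchiSub_eq_range hT]
  infer_instance

end Fermat.Agent.S29.K
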