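/-
S29 block [K], (WE) chain, row [STAB] (helper95) — hypothesis-form glue.

`coeffMap_root_form_of`: the set `{qx G / Δ^m : G ∈ M_{12m}(Γ₀(N)), p ∣ ord_z G ∀ z ∈ ℍ}` is stable
under `coeffMap σ`, GIVEN the dictionary `K1Int` / `K1IntConv`, the facts that `coeffMap σ` fixes
`jC`, `DeltaC`, preserves `FC N` and integrality over `ℂ[jC]`, `ℂ[jC⁻¹]` (`SigmaFix`), and the
deep input `[KPInv]`.  All hypotheses are in the exact shapes of the leaves posted on the board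
(helper17 #1922, helper48 #1983, helper16 #2007).
-/
import Mathlib
import Fermat.Agent.S29.KDefs

set_option autoImplicit false

namespace Fermat.Agent.S29.K3Stab

open UpperHalfPlane ModularCurve Fermat.Agent.S29.K
open scoped MatrixGroups

/-- The order of a form whose orders are all finite multiples of `p` is nonzero. -/
theorem ne_zero_of_orders {p : ℕ} {G : ℍ → ℂ}
    (hord : ∀ z : ℍ, ∃ k : ℕ,
      analyticOrderAt (fun w : ℂ => G (ofComplex w)) (z : ℂ) = ((p * k : ℕ) : ℕ∞)) : G ≠ 0 := by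
  rintro rfl
  obtain ⟨k, hk⟩ := hord UpperHalfPlane.I
  have h0 : analyticOrderAt (fun _ : ℂ => (0 : ℂ)) ((UpperHalfPlane.I : ℍ) : ℂ) = ⊤ := by
    rw [analyticOrderAt_eq_top]
    exact Filter.Eventually.of_forall fun _ => rfl
  have h1 : (fun w : ℂ => (0 : ℍ → ℂ) (ofComplex w)) = fun _ : ℂ => (0 : ℂ) := rfl
  rw [h1, h0] at hk
  exact ENat.top_ne_natCast _ hk

/-- **[STAB], hypothesis form.** -/
theorem coeffMap_root_form_of (N : ℕ) (p m : ℕ) (σ : ℂ ≃+* ℂ)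
    (hK1Int : ∀ {G : ℍ → ℂ}, G ∈ S20.MF N (12 * m) → ∀ {x : LaurentSeries ℂ},
      x * DeltaC ^ m = qx G →
      x ∈ FC N ∧ IsIntegral (Algebra.adjoin ℂ ({jC} : Set (LaurentSeries ℂ))) x ∧
        IsIntegral (Algebra.adjoin ℂ ({jC⁻¹} : Set (LaurentSeries ℂ))) (x * jC⁻¹ ^ m))
    (hK1IntConv : ∀ {x : LaurentSeries ℂ}, x ∈ FC N →
      IsIntegral (Algebra.adjoin ℂ ({jC} : Set (LaurentSeries ℂ))) x →
      IsIntegral (Algebra.adjoin ℂ ({jC⁻¹} : Set (LaurentSeries ℂ))) (x * jC⁻¹ ^ m) →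
      ∃ G : ℍ → ℂ, G ∈ S20.MF N (12 * m) ∧ x * DeltaC ^ m = qx G)
    (hσFC : ∀ x ∈ FC N, coeffMap (σ : ℂ →+* ℂ) x ∈ FC N)
    (hσj : coeffMap (σ : ℂ →+* ℂ) jC = jC)
    (hσΔ : coeffMap (σ : ℂ →+* ℂ) DeltaC = DeltaC)
    (hσint : ∀ x : LaurentSeries ℂ,
      IsIntegral (Algebra.adjoin ℂ ({jC} : Set (LaurentSeries ℂ))) x →
      IsIntegral (Algebra.adjoin ℂ ({jC} : Set (LaurentSeries ℂ))) (coeffMap (σ : ℂ →+* ℂ) x))
    (hσint' : ∀ x : LaurentSeries ℂ,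
      IsIntegral (Algebra.adjoin ℂ ({jC⁻¹} : Set (LaurentSeries ℂ))) x →
      IsIntegral (Algebra.adjoin ℂ ({jC⁻¹} : Set (LaurentSeries ℂ))) (coeffMap (σ : ℂ →+* ℂ) x))
    (hKPInv : ∀ G G' : ℍ → ℂ, G ∈ S20.MF N (12 * m) → G' ∈ S20.MF N (12 * m) → G ≠ 0 →
      qx G' = coeffMap (σ : ℂ →+* ℂ) (qx G) →
      (∀ z₀ : ℍ, ∃ n : ℕ,
        analyticOrderAt (fun z : ℂ => G (ofComplex z)) (z₀ : ℂ) = ((p * n : ℕ) : ℕ∞)) →
      ∀ z₀ : ℍ, ∃ n : ℕ,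
        analyticOrderAt (fun z : ℂ => G' (ofComplex z)) (z₀ : ℂ) = ((p * n : ℕ) : ℕ∞))
    {x : LaurentSeries ℂ} {G : ℍ → ℂ} (hG : G ∈ S20.MF N (12 * m))
    (hx : x * DeltaC ^ m = qx G)
    (hord : ∀ z : ℍ, ∃ k : ℕ,
      analyticOrderAt (fun w : ℂ => G (ofComplex w)) (z : ℂ) = ((p * k : ℕ) : ℕ∞)) :
    ∃ G' : ℍ → ℂ, G' ∈ S20.MF N (12 * m) ∧ coeffMap (σ : ℂ →+* ℂ) x * DeltaC ^ m = qx G' ∧
      ∀ z : ℍ, ∃ k : ℕ,
        analyticOrderAt (fun w : ℂ => G' (ofComplex w)) (z : ℂ) = ((p * k : ℕ) : ℕ∞) := by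
  obtain ⟨hxF, hxi, hxi'⟩ := hK1Int hG hx
  have hσinv : coeffMap (σ : ℂ →+* ℂ) jC⁻¹ = jC⁻¹ := by
    rw [map_inv₀, hσj]
  have h2 : IsIntegral (Algebra.adjoin ℂ ({jC⁻¹} : Set (LaurentSeries ℂ)))
      (coeffMap (σ : ℂ →+* ℂ) x * jC⁻¹ ^ m) := by
    have h := hσint' _ hxi'
    rwa [map_mul, map_pow, hσinv] at h
  obtain ⟨G', hG', hxG'⟩ := hK1IntConv (hσFC x hxF) (hσint x hxi) h2
  refine ⟨G', hG', hxG', ?_⟩
  have hq : qx G' = coeffMap (σ : ℂ →+* ℂ) (qx G) := by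
    rw [← hxG', ← hx, map_mul, map_pow, hσΔ]
  exact hKPInv G G' hG hG' (ne_zero_of_orders hord) hq hord

end Fermat.Agent.S29.K3Stab
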