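/-
S29 route (helper74 #1728/#1729), block (K5) — AutOrbit.lean (helper80).  Mathlib-only.

`E` an algebraically closed field over a field `K`.

* `exists_algEquiv_apply_eq_add` : for `x ∈ E` transcendental over `K` and `c ∈ K` there is a
  `K`-automorphism `σ` of `E` with `σ x = x + c`;
* `isAlgebraic_of_finite_orbit`  : (`K` infinite) an element of `E` with a finite orbit under
  `Aut (E / K)` is algebraic over `K`;
* `mem_range_of_finite_orbit`    : if moreover `K` is algebraically closed, it lies in `K`.
-/
import Mathlib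

set_option autoImplicit false

noncomputable section

namespace Fermat.Agent.S29.AutOrbit

open MvPolynomial

variable {K E : Type*} [Field K] [Field E] [Algebra K E]

section Shift

variable {ι : Type*} [DecidableEq ι]

/-- The translation `X i₀ ↦ X i₀ + c` of a polynomial ring, as an algebra automorphism. -/
def shiftEquiv (i₀ : ι) (c : K) : MvPolynomial ι K ≃ₐ[K] MvPolynomial ι K :=
  AlgEquiv.ofAlgHom
    (aeval fun i => (X i : MvPolynomial ι K) + if i = i₀ then C c else 0)
    (aeval fun i => (X i : MvPolynomial ι K) - if i = i₀ then C c else 0)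
    (by
      ext i
      by_cases h : i = i₀ <;> simp [h])
    (by
      ext i
      by_cases h : i = i₀ <;> simp [h])

theorem shiftEquiv_X (i₀ : ι) (c : K) :
    shiftEquiv i₀ c (X i₀ : MvPolynomial ι K) = X i₀ + C c := by
  simp [shiftEquiv]

end Shift

variable [IsAlgClosed E]

/-- A transcendental element of an algebraically closed field can be translated by any constant
by an automorphism. -/
theorem exists_algEquiv_apply_eq_add (x : E) (hx : Transcendental K x) (c : K) :
    ∃ σ : E ≃ₐ[K] E, σ x = x + algebraMap K E c := by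
  classical
  have hs : AlgebraicIndepOn K id ({x} : Set E) := by
    rw [AlgebraicIndepOn, algebraicIndependent_singleton_iff (⟨x, rfl⟩ : ({x} : Set E))]
    exact hx
  obtain ⟨t, hst, ht⟩ := exists_isTranscendenceBasis_superset hs
  have hxt : x ∈ t := hst rfl
  let i₀ : t := ⟨x, hxt⟩
  -- the subalgebra generated by the basis and its translation automorphism
  let R₀ := Algebra.adjoin K (Set.range ((↑) : t → E))
  let e : R₀ ≃ₐ[K] R₀ :=
    (ht.1.aevalEquiv.symm.trans (shiftEquiv i₀ c)).trans ht.1.aevalEquiv
  have : IsAlgClosure R₀ E := IsAlgClosed.isAlgClosure_of_transcendence_basis _ ht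
  let σ₀ : E ≃+* E := IsAlgClosure.equivOfEquiv E E e.toRingEquiv
  have hσ₀ : ∀ r : R₀, σ₀ (algebraMap R₀ E r) = algebraMap R₀ E (e r) := fun r =>
    IsAlgClosure.equivOfEquiv_algebraMap E E e.toRingEquiv r
  have hcomm : ∀ k : K, σ₀ (algebraMap K E k) = algebraMap K E k := by
    intro k
    have h1 : algebraMap K E k = algebraMap R₀ E (algebraMap K R₀ k) :=
      IsScalarTower.algebraMap_apply K R₀ E k
    rw [h1, hσ₀, e.commutes]
  refine ⟨AlgEquiv.ofRingEquiv (f := σ₀) hcomm, ?_⟩
  show σ₀ x = x + algebraMap K E c
  have hx0 : (ht.1.aevalEquiv (X i₀) : E) = x := by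
    rw [AlgebraicIndependent.aevalEquiv_apply_coe]
    simp [i₀]
  have hx1 : x = algebraMap R₀ E (ht.1.aevalEquiv (X i₀)) := hx0.symm
  have he : e (ht.1.aevalEquiv (X i₀)) = ht.1.aevalEquiv (X i₀ + C c) := by
    simp [e, shiftEquiv_X]
  conv_lhs => rw [hx1]
  rw [hσ₀, he, map_add]
  have h2 : algebraMap R₀ E (ht.1.aevalEquiv (X i₀) + ht.1.aevalEquiv (C c))
      = algebraMap R₀ E (ht.1.aevalEquiv (X i₀)) + algebraMap R₀ E (ht.1.aevalEquiv (C c)) :=
    map_add _ _ _
  rw [h2, ← hx1]
  congr 1
  have h3 : ht.1.aevalEquiv (C c : MvPolynomial t K) = algebraMap K R₀ c := by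
    rw [← MvPolynomial.algebraMap_eq, AlgEquiv.commutes]
  rw [h3, ← IsScalarTower.algebraMap_apply]

/-- An element of an algebraically closed field `E` with finite orbit under `Aut (E / K)` is
algebraic over `K` (`K` infinite). -/
theorem isAlgebraic_of_finite_orbit [Infinite K] (x : E)
    (h : (Set.range fun σ : E ≃ₐ[K] E => σ x).Finite) : IsAlgebraic K x := by
  by_contra hx
  have hx' : Transcendental K x := hx
  have hsub : (Set.range fun c : K => x + algebraMap K E c) ⊆
      Set.range fun σ : E ≃ₐ[K] E => σ x := by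
    rintro _ ⟨c, rfl⟩
    obtain ⟨σ, hσ⟩ := exists_algEquiv_apply_eq_add x hx' c
    exact ⟨σ, hσ⟩
  have hinj : Function.Injective fun c : K => x + algebraMap K E c := by
    intro c c' hcc
    exact (algebraMap K E).injective (add_left_cancel hcc)
  exact (Set.infinite_range_of_injective hinj) (h.subset hsub)

/-- If moreover `K` is algebraically closed, such an element lies in `K`. -/
theorem mem_range_of_finite_orbit [IsAlgClosed K] (x : E)
    (h : (Set.range fun σ : E ≃ₐ[K] E => σ x).Finite) : x ∈ Set.range (algebraMap K E) := by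
  have hx : IsIntegral K x := (isAlgebraic_of_finite_orbit x h).isIntegral
  have hdeg : (minpoly K x).degree = 1 :=
    IsAlgClosed.degree_eq_one_of_irreducible K (minpoly.irreducible hx)
  exact minpoly.mem_range_of_degree_eq_one K x hdeg

end Fermat.Agent.S29.AutOrbit
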