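/-
S29 route (helper74 #1728/#1729), block (K5) — Echelon.lean (helper80).  Mathlib-only
(+ `AutOrbit`).

**Echelon descent.**  `E / K` fields, `M` an `E`-vector space with "coordinates"
`c i : M →ₗ[E] E` (`i : ι`; e.g. `M = E((q))`, `c n =` the `n`-th coefficient).  Let `W ⊆ M` be
a finite-dimensional subspace on which the coordinates are jointly injective, stable under the
coordinatewise action of a finite-index subgroup `𝒜` of `Aut (E / K)`.  If every element of `E`
with finite `Aut (E / K)`-orbit lies in `K` (e.g. `K`, `E` algebraically closed: `AutOrbit`),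
then `W` is spanned by vectors all of whose coordinates lie in `K`.
-/
import Mathlib
import Fermat.Agent.S29.AutOrbit

set_option autoImplicit false

noncomputable section

namespace Fermat.Agent.S29.Echelon

open Module

variable {K E : Type*} [Field K] [Field E] [Algebra K E]

/-- An element fixed by a finite-index subgroup of `Aut (E / K)` has a finite orbit. -/
theorem finite_orbit_of_fixed (𝒜 : Subgroup (E ≃ₐ[K] E)) [𝒜.FiniteIndex] (x : E)
    (hx : ∀ σ ∈ 𝒜, σ x = x) : (Set.range fun σ : E ≃ₐ[K] E => σ x).Finite := by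
  have : Finite ((E ≃ₐ[K] E) ⧸ 𝒜) := Subgroup.finite_quotient_of_finiteIndex
  refine (Set.finite_range fun q : (E ≃ₐ[K] E) ⧸ 𝒜 => (Quotient.out q) x).subset ?_
  rintro _ ⟨σ, rfl⟩
  obtain ⟨h, hh⟩ := QuotientGroup.mk_out_eq_mul 𝒜 σ
  refine ⟨(σ : (E ≃ₐ[K] E) ⧸ 𝒜), ?_⟩
  show (Quotient.out (σ : (E ≃ₐ[K] E) ⧸ 𝒜)) x = σ x
  rw [hh, AlgEquiv.mul_apply, hx _ h.2]

variable {M : Type*} [AddCommGroup M] [Module E M] {ι : Type*}

/-- A family of functionals on a finite-dimensional space with trivial common kernel spans the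
dual. -/
theorem span_range_eq_top_of_forall_eq_zero {W : Type*} [AddCommGroup W] [Module E W]
    [FiniteDimensional E W] (f : ι → Dual E W) (hf : ∀ w : W, (∀ i, f i w = 0) → w = 0) :
    Submodule.span E (Set.range f) = ⊤ := by
  set Φ : Subspace E (Dual E W) := Submodule.span E (Set.range f) with hΦ
  have h1 : Φ.dualCoannihilator = ⊥ := by
    rw [eq_bot_iff]
    intro w hw
    rw [Submodule.mem_dualCoannihilator] at hw
    rw [Submodule.mem_bot]
    exact hf w fun i => hw (f i) (Submodule.subset_span ⟨i, rfl⟩)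
  have h2 := Subspace.dualCoannihilator_dualAnnihilator_eq (W := Φ)
  rw [h1, Submodule.dualAnnihilator_bot] at h2
  exact h2.symm

/-- **Echelon descent** (spanning form). -/
theorem exists_span_coeff_mem (c : ι → M →ₗ[E] E) (𝒜 : Subgroup (E ≃ₐ[K] E)) [𝒜.FiniteIndex]
    (W : Submodule E M) [FiniteDimensional E W]
    (hc : ∀ m ∈ W, (∀ i, c i m = 0) → m = 0)
    (hW : ∀ σ ∈ 𝒜, ∀ w ∈ W, ∃ w' ∈ W, ∀ i, c i w' = σ (c i w))
    (hfix : ∀ x : E, (Set.range fun σ : E ≃ₐ[K] E => σ x).Finite →
      x ∈ Set.range (algebraMap K E)) :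
    ∃ s : Finset M, (∀ m ∈ s, ∀ i, c i m ∈ Set.range (algebraMap K E)) ∧
      Submodule.span E (s : Set M) = W := by
  classical
  -- the coordinates restricted to `W`
  let f : ι → Dual E W := fun i => (c i).comp W.subtype
  have hf : ∀ w : W, (∀ i, f i w = 0) → w = 0 := fun w hw =>
    Subtype.ext (hc w w.2 hw)
  have hspan : Submodule.span E (Set.range f) = ⊤ := span_range_eq_top_of_forall_eq_zero f hf
  -- a basis of the dual consisting of coordinates
  obtain ⟨b, hb, hbspan, hbli⟩ := exists_linearIndependent E (Set.range f)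
  have hbtop : ⊤ ≤ Submodule.span E (Set.range ((↑) : b → Dual E W)) := by
    rw [Subtype.range_coe, hbspan, hspan]
  let β : Basis b E (Dual E W) := Basis.mk hbli hbtop
  have hβ : ∀ a : b, β a = (a : Dual E W) := fun a => by simp [β]
  have : Fintype b := FiniteDimensional.fintypeBasisIndex β
  choose idx hidx using fun a : b => hb a.2
  -- the predual basis
  let w : b → W := fun a => (evalEquiv E W).symm (β.dualBasis a)
  have hw : ∀ (φ : Dual E W) (a : b), φ (w a) = β.dualBasis a φ := by
    intro φ a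
    have h : evalEquiv E W (w a) = β.dualBasis a := LinearEquiv.apply_symm_apply _ _
    calc φ (w a) = Dual.eval E W (w a) φ := rfl
      _ = evalEquiv E W (w a) φ := by rw [evalEquiv_apply]
      _ = β.dualBasis a φ := by rw [h]
  have hwδ : ∀ a a' : b, c (idx a') (w a : M) = if a' = a then 1 else 0 := by
    intro a a'
    have h1 : c (idx a') (w a : M) = (a' : Dual E W) (w a) := by
      rw [← hidx a']
      rfl
    rw [h1, ← hβ a', hw, Basis.dualBasis_apply_self]
  -- an element of `W` is determined by the chosen coordinates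
  have hdet : ∀ v : W, (∀ a : b, c (idx a) (v : M) = 0) → v = 0 := by
    intro v hv
    have h0 : ∀ φ : Dual E W, φ v = 0 := by
      intro φ
      have hφ : φ ∈ Submodule.span E (Set.range β) := by
        rw [β.span_eq]
        exact Submodule.mem_top
      induction hφ using Submodule.span_induction with
      | mem φ hφ =>
        obtain ⟨a, rfl⟩ := hφ
        rw [hβ a, ← hidx a]
        exact hv a
      | zero => rfl
      | add φ ψ _ _ hφ hψ => rw [LinearMap.add_apply, hφ, hψ, add_zero]
      | smul r φ _ hφ => rw [LinearMap.smul_apply, hφ, smul_zero]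
    exact (forall_dual_apply_eq_zero_iff E v).1 h0
  -- the predual basis vectors are fixed by `𝒜`
  have hfixed : ∀ σ ∈ 𝒜, ∀ (a : b) (i : ι), σ (c i (w a : M)) = c i (w a : M) := by
    intro σ hσ a i
    obtain ⟨w', hw'W, hw'⟩ := hW σ hσ (w a : M) (w a).2
    have h1 : (⟨w', hw'W⟩ : W) - w a = 0 := by
      apply hdet
      intro a'
      show c (idx a') (w' - (w a : M)) = 0
      rw [map_sub, hw', hwδ]
      split_ifs <;> simp
    have h2 : w' = (w a : M) := by
      have := congrArg Subtype.val (sub_eq_zero.1 h1)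
      exact this
    rw [← hw' i, h2]
  -- conclusion
  refine ⟨Finset.univ.image fun a : b => (w a : M), ?_, ?_⟩
  · intro m hm i
    rw [Finset.mem_image] at hm
    obtain ⟨a, -, rfl⟩ := hm
    exact hfix _ (finite_orbit_of_fixed 𝒜 _ fun σ hσ => hfixed σ hσ a i)
  · have hwb : Submodule.span E (Set.range w) = ⊤ := by
      have h1 : Set.range w = Set.range ((β.dualBasis.map (evalEquiv E W).symm)) := by
        ext v
        simp [w]
      rw [h1, Basis.span_eq]
    have h2 : ((Finset.univ.image fun a : b => (w a : M) : Finset M) : Set M)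
        = W.subtype '' Set.range w := by
      rw [Finset.coe_image, Finset.coe_univ, Set.image_univ]
      exact Set.range_comp W.subtype w
    rw [h2, Submodule.span_image, hwb, Submodule.map_top, Submodule.range_subtype]

/-- **Echelon descent** (existence of a nonzero vector with coordinates in `K`). -/
theorem exists_ne_zero_coeff_mem (c : ι → M →ₗ[E] E) (𝒜 : Subgroup (E ≃ₐ[K] E)) [𝒜.FiniteIndex]
    (W : Submodule E M) [FiniteDimensional E W] (hW0 : W ≠ ⊥)
    (hc : ∀ m ∈ W, (∀ i, c i m = 0) → m = 0)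
    (hW : ∀ σ ∈ 𝒜, ∀ w ∈ W, ∃ w' ∈ W, ∀ i, c i w' = σ (c i w))
    (hfix : ∀ x : E, (Set.range fun σ : E ≃ₐ[K] E => σ x).Finite →
      x ∈ Set.range (algebraMap K E)) :
    ∃ m ∈ W, m ≠ 0 ∧ ∀ i, c i m ∈ Set.range (algebraMap K E) := by
  obtain ⟨s, hs, hspan⟩ := exists_span_coeff_mem c 𝒜 W hc hW hfix
  by_contra hcon
  have hcon' : ∀ m ∈ W, m ≠ 0 → ∃ i, c i m ∉ Set.range (algebraMap K E) := by
    intro m hm hm0
    by_contra h
    exact hcon ⟨m, hm, hm0, fun i => by_contra fun hi => h ⟨i, hi⟩⟩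
  apply hW0
  rw [← hspan, Submodule.span_eq_bot]
  intro m hm
  by_contra hm0
  have hmW : m ∈ W := by
    rw [← hspan]
    exact Submodule.subset_span hm
  obtain ⟨i, hi⟩ := hcon' m hmW hm0
  exact hi (hs m hm i)

/-- The case of algebraically closed fields `K ⊆ E`. -/
theorem exists_ne_zero_coeff_mem_of_isAlgClosed [IsAlgClosed K] [IsAlgClosed E]
    (c : ι → M →ₗ[E] E) (𝒜 : Subgroup (E ≃ₐ[K] E)) [𝒜.FiniteIndex]
    (W : Submodule E M) [FiniteDimensional E W] (hW0 : W ≠ ⊥)
    (hc : ∀ m ∈ W, (∀ i, c i m = 0) → m = 0)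
    (hW : ∀ σ ∈ 𝒜, ∀ w ∈ W, ∃ w' ∈ W, ∀ i, c i w' = σ (c i w)) :
    ∃ m ∈ W, m ≠ 0 ∧ ∀ i, c i m ∈ Set.range (algebraMap K E) :=
  exists_ne_zero_coeff_mem c 𝒜 W hW0 hc hW fun x hx =>
    AutOrbit.mem_range_of_finite_orbit x hx

end Fermat.Agent.S29.Echelon
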