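/-
S29 route (helper74 #1728/#1729), block (K5) — EchelonLaurent.lean (helper16).

The Laurent-series instantiation of helper80's abstract echelon descent (`S29/Echelon.lean`):
for algebraically closed fields `k ⊆ K`, a finite-dimensional `K`-subspace `W` of `K((q))`
that is stable under the coefficientwise action (`ModularCurve.coeffMap`) of a finite-index
subgroup of `Aut (K / k)` is spanned by series with coefficients in `k`; in particular, if
`W ≠ 0`, it contains a nonzero series with coefficients in `k`.
-/
import Mathlib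
import Fermat.Prelude.Def_ModularCurve_LaurentCoeff
import Fermat.Agent.S29.Echelon

set_option autoImplicit false

noncomputable section

namespace Fermat.Agent.S29.EchelonLaurent

open ModularCurve

variable {k K : Type*} [Field k] [Field K] [Algebra k K]

/-- the `n`-th coefficient of a Laurent series, as a linear form. -/
def coeffL (n : ℤ) : LaurentSeries K →ₗ[K] K where
  toFun x := x.coeff n
  map_add' _ _ := rfl
  map_smul' _ _ := rfl

@[simp]
theorem coeffL_apply (n : ℤ) (x : LaurentSeries K) : coeffL n x = x.coeff n := rfl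

/-- a Laurent series over `K` comes from `k` iff all its coefficients do. -/
theorem mem_range_coeffMap_iff (x : LaurentSeries K) :
    x ∈ Set.range (coeffMap (algebraMap k K)) ↔
      ∀ n : ℤ, x.coeff n ∈ Set.range (algebraMap k K) := by
  constructor
  · rintro ⟨y, rfl⟩ n
    exact ⟨y.coeff n, rfl⟩
  · intro h
    choose g hg using h
    have hsupp : Function.support g = Function.support x.coeff := by
      ext n
      simp only [Function.mem_support, ne_eq]
      rw [← hg n]
      exact (map_eq_zero_iff _ (algebraMap k K).injective).not.symm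
    refine ⟨⟨g, ?_⟩, ?_⟩
    · rw [hsupp]
      exact x.isPWO_support
    · ext n
      exact hg n

/-- **Echelon descent for Laurent series** (spanning form). -/
theorem exists_span_coeffMap [IsAlgClosed k] [IsAlgClosed K]
    (𝒜 : Subgroup (K ≃ₐ[k] K)) [𝒜.FiniteIndex]
    (W : Submodule K (LaurentSeries K)) [FiniteDimensional K W]
    (hW : ∀ σ ∈ 𝒜, ∀ w ∈ W, coeffMap ((σ : K ≃ₐ[k] K) : K →+* K) w ∈ W) :
    ∃ s : Set (LaurentSeries k), s.Finite ∧
      Submodule.span K (coeffMap (algebraMap k K) '' s) = W := by
  classical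
  obtain ⟨t, ht, htW⟩ := Echelon.exists_span_coeff_mem (K := k) (E := K)
    (M := LaurentSeries K) (fun n : ℤ => coeffL n) 𝒜 W
    (fun m _ hm => HahnSeries.ext (funext fun n => hm n))
    (fun σ hσ w hw => ⟨coeffMap ((σ : K ≃ₐ[k] K) : K →+* K) w, hW σ hσ w hw, fun _ => rfl⟩)
    (fun x hx => AutOrbit.mem_range_of_finite_orbit x hx)
  have ht' : ∀ m ∈ t, m ∈ Set.range (coeffMap (algebraMap k K)) := fun m hm =>
    (mem_range_coeffMap_iff m).2 fun n => ht m hm n
  have hinj : Function.Injective (coeffMap (algebraMap k K)) := by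
    intro a b hab
    ext n
    have := congrArg (fun z : LaurentSeries K => z.coeff n) hab
    exact (algebraMap k K).injective this
  refine ⟨coeffMap (algebraMap k K) ⁻¹' (t : Set (LaurentSeries K)),
    t.finite_toSet.preimage hinj.injOn, ?_⟩
  rw [Set.image_preimage_eq_of_subset (fun m hm => ht' m hm), htW]

/-- **Echelon descent for Laurent series** (a nonzero vector with coefficients in `k`). -/
theorem exists_ne_zero_coeffMap_mem [IsAlgClosed k] [IsAlgClosed K]
    (𝒜 : Subgroup (K ≃ₐ[k] K)) [𝒜.FiniteIndex]
    (W : Submodule K (LaurentSeries K)) [FiniteDimensional K W] (hW0 : W ≠ ⊥)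
    (hW : ∀ σ ∈ 𝒜, ∀ w ∈ W, coeffMap ((σ : K ≃ₐ[k] K) : K →+* K) w ∈ W) :
    ∃ y : LaurentSeries k, y ≠ 0 ∧ coeffMap (algebraMap k K) y ∈ W := by
  obtain ⟨m, hmW, hm0, hm⟩ := Echelon.exists_ne_zero_coeff_mem_of_isAlgClosed (K := k) (E := K)
    (M := LaurentSeries K) (fun n : ℤ => coeffL n) 𝒜 W hW0
    (fun m _ hm => HahnSeries.ext (funext fun n => hm n))
    (fun σ hσ w hw => ⟨coeffMap ((σ : K ≃ₐ[k] K) : K →+* K) w, hW σ hσ w hw, fun _ => rfl⟩)
  obtain ⟨y, rfl⟩ := (mem_range_coeffMap_iff m).2 hm
  refine ⟨y, ?_, hmW⟩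
  rintro rfl
  exact hm0 (map_zero _)

/-- **Echelon descent for Laurent series** (basis form): `W` has a basis of series with
coefficients in `k`. -/
theorem exists_basis_coeffMap [IsAlgClosed k] [IsAlgClosed K]
    (𝒜 : Subgroup (K ≃ₐ[k] K)) [𝒜.FiniteIndex]
    (W : Submodule K (LaurentSeries K)) [FiniteDimensional K W]
    (hW : ∀ σ ∈ 𝒜, ∀ w ∈ W, coeffMap ((σ : K ≃ₐ[k] K) : K →+* K) w ∈ W) :
    ∃ b : Fin (Module.finrank K W) → LaurentSeries k,
      LinearIndependent K (fun j => coeffMap (algebraMap k K) (b j)) ∧
      Submodule.span K (Set.range fun j => coeffMap (algebraMap k K) (b j)) = W := by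
  classical
  obtain ⟨s, hsfin, hs⟩ := exists_span_coeffMap 𝒜 W hW
  -- a linearly independent subfamily of the spanning set with the same span
  obtain ⟨u, hu, huspan, huli⟩ :=
    exists_linearIndependent K (coeffMap (algebraMap k K) '' s)
  have huW : Submodule.span K u = W := by rw [huspan, hs]
  have hfin : u.Finite := (hsfin.image _).subset hu
  have : Fintype u := hfin.fintype
  have hcard : Fintype.card u = Module.finrank K W := by
    rw [← huW, finrank_span_set_eq_card huli, Set.toFinset_card]
  let e : u ≃ Fin (Module.finrank K W) := Fintype.equivFinOfCardEq hcard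
  have hex : ∀ m : u, ∃ y : LaurentSeries k, coeffMap (algebraMap k K) y = (m : LaurentSeries K) :=
    fun m => by
      obtain ⟨y, -, hy⟩ := hu m.2
      exact ⟨y, hy⟩
  choose g hg using hex
  have hfun : (fun j => coeffMap (algebraMap k K) (g (e.symm j))) =
      fun j => ((e.symm j : u) : LaurentSeries K) := funext fun j => hg _
  refine ⟨fun j => g (e.symm j), ?_, ?_⟩
  · rw [hfun]
    exact huli.comp _ e.symm.injective
  · rw [hfun]
    have hrange : (Set.range fun j => ((e.symm j : u) : LaurentSeries K)) = u := by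
      ext x
      constructor
      · rintro ⟨j, rfl⟩
        exact (e.symm j).2
      · intro hx
        exact ⟨e ⟨x, hx⟩, by simp⟩
    rw [hrange, huW]

end Fermat.Agent.S29.EchelonLaurent
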