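/-
S29 route (helper74 #1728/#1729, lead #1814 (R4)), block [K], descent — OrbitStab.lean (helper27).

The abstract orbit step of the `Aut (ℂ / ℚ̄)`-descent.  Let `k ⊆ K` be fields, `K` infinite, and
let `V i` (`i` in a finite type) be `K`-subspaces of `K((q))` meeting pairwise in `0`.  Assume
that every `σ ∈ Aut (K / k)`, acting coefficientwise (`ModularCurve.coeffMap`), maps every
element of every `V i` into SOME `V j`.  Then

* `σ` maps each `V i` into ONE `V j` (a vector space over an infinite field is not a finite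
  union of proper subspaces);
* the stabiliser of a nonzero `V i₀` has finite index in `Aut (K / k)`;
* if moreover `k`, `K` are algebraically closed and `V i₀` is finite-dimensional, `V i₀`
  contains a nonzero series with coefficients in `k` (echelon descent, `S29/EchelonLaurent`).
-/
import Mathlib
import Fermat.Prelude.Def_ModularCurve_LaurentCoeff
import Fermat.Agent.S29.EchelonLaurent

set_option autoImplicit false

noncomputable section

namespace Fermat.Agent.S29.OrbitStab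

open ModularCurve

variable {k K : Type*} [Field k] [Field K] [Algebra k K]

/-- The coefficientwise action is semilinear. -/
theorem coeffMap_smul (φ : K →+* K) (c : K) (w : LaurentSeries K) :
    coeffMap φ (c • w) = φ c • coeffMap φ w := by
  ext n
  simp

/-- The coefficientwise action of a ring automorphism is injective. -/
theorem coeffMap_ne_zero (σ : K ≃ₐ[k] K) {w : LaurentSeries K} (hw : w ≠ 0) :
    coeffMap ((σ : K ≃ₐ[k] K) : K →+* K) w ≠ 0 := by
  intro h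
  apply hw
  ext n
  have h1 := congrArg (fun z : LaurentSeries K => z.coeff n) h
  simp only [coeffMap_coeff, HahnSeries.coeff_zero] at h1
  have h2 : σ (w.coeff n) = 0 := h1
  simpa using h2

theorem coeffMap_one (w : LaurentSeries K) :
    coeffMap (((1 : K ≃ₐ[k] K) : K ≃ₐ[k] K) : K →+* K) w = w := by
  ext n
  rfl

theorem coeffMap_mul (σ τ : K ≃ₐ[k] K) (w : LaurentSeries K) :
    coeffMap (((σ * τ : K ≃ₐ[k] K) : K ≃ₐ[k] K) : K →+* K) w =
      coeffMap ((σ : K ≃ₐ[k] K) : K →+* K) (coeffMap ((τ : K ≃ₐ[k] K) : K →+* K) w) := by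
  ext n
  rfl

variable {ι : Type*} (V : ι → Submodule K (LaurentSeries K))

/-- `σ` maps `V i` into `V j`. -/
def MapsInto (σ : K ≃ₐ[k] K) (i j : ι) : Prop :=
  ∀ w ∈ V i, coeffMap ((σ : K ≃ₐ[k] K) : K →+* K) w ∈ V j

variable {V}

theorem MapsInto.one (i : ι) : MapsInto V (1 : K ≃ₐ[k] K) i i := by
  intro w hw
  rw [coeffMap_one]
  exact hw

theorem MapsInto.mul {σ τ : K ≃ₐ[k] K} {i j l : ι} (hτ : MapsInto V τ i j)
    (hσ : MapsInto V σ j l) : MapsInto V (σ * τ) i l := by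
  intro w hw
  rw [coeffMap_mul]
  exact hσ _ (hτ w hw)

/-- A nonzero `V i` is mapped into at most one `V j`. -/
theorem MapsInto.unique (hdisj : ∀ i j, i ≠ j → V i ⊓ V j = ⊥) {σ : K ≃ₐ[k] K} {i j j' : ι}
    (h0 : V i ≠ ⊥) (h : MapsInto V σ i j) (h' : MapsInto V σ i j') : j = j' := by
  by_contra hne
  obtain ⟨w, hw, hw0⟩ := (Submodule.ne_bot_iff _).mp h0
  have hmem : coeffMap ((σ : K ≃ₐ[k] K) : K →+* K) w ∈ V j ⊓ V j' := ⟨h w hw, h' w hw⟩
  rw [hdisj j j' hne, Submodule.mem_bot] at hmem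
  exact coeffMap_ne_zero σ hw0 hmem

/-- **(O1)** If `σ` maps every element of `V i` into some `V j`, it maps `V i` into one `V j`. -/
theorem exists_forall_coeffMap_mem [Finite ι] [Infinite K] (σ : K ≃ₐ[k] K)
    (hσ : ∀ i, ∀ w ∈ V i, ∃ j, coeffMap ((σ : K ≃ₐ[k] K) : K →+* K) w ∈ V j) (i : ι) :
    ∃ j, ∀ w ∈ V i, coeffMap ((σ : K ≃ₐ[k] K) : K →+* K) w ∈ V j := by
  let p : ι → Submodule K (V i) := fun j =>
    { carrier := {w | coeffMap ((σ : K ≃ₐ[k] K) : K →+* K) (w : LaurentSeries K) ∈ V j}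
      add_mem' := by
        intro a b ha hb
        simp only [Set.mem_ofPred_eq] at ha hb ⊢
        rw [Submodule.coe_add, map_add]
        exact (V j).add_mem ha hb
      zero_mem' := by
        simp only [Set.mem_ofPred_eq]
        rw [Submodule.coe_zero, map_zero]
        exact (V j).zero_mem
      smul_mem' := by
        intro c a ha
        simp only [Set.mem_ofPred_eq] at ha ⊢
        rw [Submodule.coe_smul, coeffMap_smul]
        exact (V j).smul_mem _ ha }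
  have hcover : ⋃ j, (p j : Set (V i)) = Set.univ := by
    ext w
    simp only [Set.mem_iUnion, Set.mem_univ, iff_true]
    obtain ⟨j, hj⟩ := hσ i w w.2
    exact ⟨j, hj⟩
  obtain ⟨j, hj⟩ := Subspace.exists_eq_top_of_iUnion_eq_univ hcover
  refine ⟨j, fun w hw => ?_⟩
  have : (⟨w, hw⟩ : V i) ∈ p j := by rw [hj]; trivial
  exact this

variable (V)

/-- The stabiliser of `V i₀` in `Aut (K / k)` (both `σ` and `σ⁻¹` map `V i₀` into itself). -/
def stab (i₀ : ι) : Subgroup (K ≃ₐ[k] K) where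
  carrier := {σ | MapsInto V σ i₀ i₀ ∧ MapsInto V σ⁻¹ i₀ i₀}
  mul_mem' := by
    rintro σ τ ⟨h1, h2⟩ ⟨h3, h4⟩
    refine ⟨h3.mul h1, ?_⟩
    rw [mul_inv_rev]
    exact h2.mul h4
  one_mem' := ⟨MapsInto.one i₀, by rw [inv_one]; exact MapsInto.one i₀⟩
  inv_mem' := by
    rintro σ ⟨h1, h2⟩
    exact ⟨h2, by rw [inv_inv]; exact h1⟩

variable {V}

theorem mem_stab_iff {i₀ : ι} {σ : K ≃ₐ[k] K} :
    σ ∈ stab V i₀ ↔ MapsInto V σ i₀ i₀ ∧ MapsInto V σ⁻¹ i₀ i₀ := Iff.rfl

theorem coeffMap_mem_of_mem_stab {i₀ : ι} {σ : K ≃ₐ[k] K} (hσ : σ ∈ stab V i₀)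
    {w : LaurentSeries K} (hw : w ∈ V i₀) :
    coeffMap ((σ : K ≃ₐ[k] K) : K →+* K) w ∈ V i₀ :=
  hσ.1 w hw

section Orbit

variable [Finite ι] [Infinite K]
variable (hdisj : ∀ i j, i ≠ j → V i ⊓ V j = ⊥)
variable (hσ : ∀ (σ : K ≃ₐ[k] K) (i : ι), ∀ w ∈ V i, ∃ j,
  coeffMap ((σ : K ≃ₐ[k] K) : K →+* K) w ∈ V j)

include hσ in
theorem exists_mapsInto (σ : K ≃ₐ[k] K) (i : ι) : ∃ j, MapsInto V σ i j :=
  exists_forall_coeffMap_mem σ (hσ σ) i

include hdisj hσ in
/-- If `σ` maps `V i₀ ≠ 0` into `V j`, then `σ⁻¹` maps `V j` into `V i₀`. -/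
theorem mapsInto_inv {i₀ : ι} (h0 : V i₀ ≠ ⊥) {σ : K ≃ₐ[k] K} {j : ι}
    (h : MapsInto V σ i₀ j) : MapsInto V σ⁻¹ j i₀ := by
  obtain ⟨l, hl⟩ := exists_mapsInto hσ σ⁻¹ j
  have h1 : MapsInto V (σ⁻¹ * σ) i₀ l := h.mul hl
  rw [inv_mul_cancel] at h1
  have : l = i₀ := MapsInto.unique hdisj h0 h1 (MapsInto.one i₀)
  rw [this] at hl
  exact hl

include hdisj hσ in
theorem mem_stab_of_mapsInto {i₀ : ι} (h0 : V i₀ ≠ ⊥) {σ : K ≃ₐ[k] K}
    (h : MapsInto V σ i₀ i₀) : σ ∈ stab V i₀ :=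
  ⟨h, mapsInto_inv hdisj hσ h0 h⟩

include hdisj hσ in
/-- **(O2)** The stabiliser of a nonzero `V i₀` has finite index. -/
theorem finiteIndex_stab (i₀ : ι) (h0 : V i₀ ≠ ⊥) : (stab (k := k) V i₀).FiniteIndex := by
  classical
  choose q hq using fun σ : K ≃ₐ[k] K => exists_mapsInto hσ σ i₀
  have key : ∀ σ τ : K ≃ₐ[k] K, q σ = q τ → σ⁻¹ * τ ∈ stab V i₀ := by
    intro σ τ hστ
    have h1 : MapsInto V σ⁻¹ (q σ) i₀ := mapsInto_inv hdisj hσ h0 (hq σ)
    have h2 : MapsInto V τ i₀ (q σ) := by rw [hστ]; exact hq τ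
    exact mem_stab_of_mapsInto hdisj hσ h0 (h2.mul h1)
  have hinj : Function.Injective
      (fun x : (K ≃ₐ[k] K) ⧸ stab (k := k) V i₀ => q (Quotient.out x)) := by
    intro x y hxy
    have h := key _ _ hxy
    have h' : ((Quotient.out x : K ≃ₐ[k] K) : (K ≃ₐ[k] K) ⧸ stab (k := k) V i₀) = Quotient.out y :=
      QuotientGroup.eq.mpr h
    rwa [QuotientGroup.out_eq', QuotientGroup.out_eq'] at h'
  have : Finite ((K ≃ₐ[k] K) ⧸ stab (k := k) V i₀) := Finite.of_injective _ hinj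
  exact Subgroup.finiteIndex_of_finite_quotient

end Orbit

/-- **(O3)** Descent: under the orbit hypothesis, a nonzero finite-dimensional `V i₀` contains
a nonzero series with coefficients in `k`. -/
theorem exists_ne_zero_coeffMap_mem [Finite ι] [IsAlgClosed k] [IsAlgClosed K] (i₀ : ι)
    (hfin : FiniteDimensional K (V i₀))
    (hdisj : ∀ i j, i ≠ j → V i ⊓ V j = ⊥)
    (hσ : ∀ (σ : K ≃ₐ[k] K) (i : ι), ∀ w ∈ V i, ∃ j,
      coeffMap ((σ : K ≃ₐ[k] K) : K →+* K) w ∈ V j)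
    (h0 : V i₀ ≠ ⊥) :
    ∃ y : LaurentSeries k, y ≠ 0 ∧ coeffMap (algebraMap k K) y ∈ V i₀ := by
  have hinf : Infinite K := IsAlgClosed.instInfinite
  have hfi : (stab (k := k) V i₀).FiniteIndex := finiteIndex_stab hdisj hσ i₀ h0
  exact EchelonLaurent.exists_ne_zero_coeffMap_mem (stab (k := k) V i₀) (V i₀) h0
    (fun σ hσ' w hw => coeffMap_mem_of_mem_stab hσ' hw)

end Fermat.Agent.S29.OrbitStab
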