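/-
S29 block [K] — KDesc.lean (owner: helper48): the (R4) DESCENT GLUE.

From the leaves of helper17's table (taken here as hypotheses, so that this file does not wait
for them) and the σ-stability `[KSigma]` of the family `V(χ')`, `χ' ^ p = 1`, `χ'(T) = 1`:
a nonzero element of `V(χ)` with coefficients in `ℚ̄`.

* `fg_SL2Z`                 : `SL(2, ℤ)` is finitely generated;
* `finite_characters`       : there are finitely many characters `χ : Γ₀(N) → ℂˣ` with `χ ^ p = 1`;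
* `exists_rational_mem_Vchi`: the descent (stabiliser of finite index: `OrbitStab`, helper27;
                              echelon lemma: `EchelonLaurent`, helper16 / helper80).
The `ℚ̄`-algebra structure on `ℂ` is `S24.algKC` (`embC`).
-/
import Mathlib
import Fermat.Agent.S24.AnDefs
import Fermat.Agent.S29.KDefs
import Fermat.Agent.S29.OrbitStab

set_option autoImplicit false

namespace Fermat.Agent.S29.KDesc

open UpperHalfPlane CongruenceSubgroup ModularCurve Fermat.Agent.S24 Fermat.Agent.S29.K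
open scoped MatrixGroups

/-- `SL(2, ℤ)` is finitely generated (by `S` and `T`). -/
theorem fg_SL2Z : Group.FG SL(2, ℤ) := by
  rw [Group.fg_iff]
  exact ⟨{ModularGroup.S, ModularGroup.T}, SpecialLinearGroup.SL2Z_generators, by simp⟩

/-- `Γ₀(N)` is finitely generated. -/
theorem fg_Gamma0 (N : ℕ) [NeZero N] : Group.FG ↥(Gamma0 N) := by
  have : Group.FG SL(2, ℤ) := fg_SL2Z
  infer_instance

/-- There are only finitely many characters of `Γ₀(N)` of exponent `p`. -/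
theorem finite_characters (N p : ℕ) [NeZero N] (hp : p ≠ 0) :
    Finite {χ : ↥(Gamma0 N) →* ℂˣ // χ ^ p = 1} := by
  obtain ⟨S, hS, hSfin⟩ := Group.fg_iff.mp (fg_Gamma0 N)
  have : NeZero p := ⟨hp⟩
  have : Finite S := hSfin
  let f : {χ : ↥(Gamma0 N) →* ℂˣ // χ ^ p = 1} → (S → rootsOfUnity p ℂ) :=
    fun χ s => ⟨χ.1 (s : ↥(Gamma0 N)), by
      rw [mem_rootsOfUnity]
      have h := congrArg (fun ψ : ↥(Gamma0 N) →* ℂˣ => ψ (s : ↥(Gamma0 N))) χ.2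
      simpa using h⟩
  refine Finite.of_injective f ?_
  intro χ χ' h
  apply Subtype.ext
  refine MonoidHom.eq_of_eqOn_dense hS ?_
  intro s hs
  have h1 := congrArg (fun g : S → rootsOfUnity p ℂ => ((g ⟨s, hs⟩ : rootsOfUnity p ℂ) : ℂˣ)) h
  exact h1

/-- **(R4) descent glue.**  If the family `V(χ')` (`χ' ^ p = 1`, `χ'(T) = 1`) is permuted by
the coefficientwise action of `Aut(ℂ/ℚ̄)` (`hsig`), its members are finite-dimensional
(`hfin`) and pairwise disjoint (`hsep`), then every nonzero `V(χ)` contains a nonzero element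
with coefficients in `ℚ̄`. -/
theorem exists_rational_mem_Vchi (N p : ℕ) [NeZero N] (hp : p ≠ 0)
    (hsub : ∀ χ : ↥(Gamma0 N) →* ℂˣ, χ (TG N) = 1 →
      (VchiSub N χ : Set (LaurentSeries ℂ)) = Vchi N χ)
    (hVM : ∀ χ : ↥(Gamma0 N) →* ℂˣ, Vchi N χ ⊆ Mchi N χ)
    (hsep : ∀ χ χ' : ↥(Gamma0 N) →* ℂˣ, χ (TG N) = 1 → χ' (TG N) = 1 →
      ∀ x : LaurentSeries ℂ, x ∈ Mchi N χ → x ∈ Mchi N χ' → x ≠ 0 → χ = χ')
    (hfin : ∀ χ : ↥(Gamma0 N) →* ℂˣ, χ (TG N) = 1 → χ ^ p = 1 →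
      FiniteDimensional ℂ ↥(VchiSub N χ))
    (hsig : ∀ (σ : ℂ ≃ₐ[AlgebraicClosure ℚ] ℂ) (χ : ↥(Gamma0 N) →* ℂˣ), χ ^ p = 1 →
      χ (TG N) = 1 → ∀ w ∈ Vchi N χ, ∃ χ' : ↥(Gamma0 N) →* ℂˣ, χ' ^ p = 1 ∧ χ' (TG N) = 1 ∧
        coeffMap ((σ : ℂ ≃ₐ[AlgebraicClosure ℚ] ℂ) : ℂ →+* ℂ) w ∈ Vchi N χ')
    (χ : ↥(Gamma0 N) →* ℂˣ) (hχp : χ ^ p = 1) (hχT : χ (TG N) = 1)
    (hne : ∃ x ∈ Vchi N χ, x ≠ 0) :
    ∃ y : LaurentSeries (AlgebraicClosure ℚ), y ≠ 0 ∧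
      coeffMap (algebraMap (AlgebraicClosure ℚ) ℂ) y ∈ Vchi N χ := by
  -- the finite index set of characters
  have : Finite {χ : ↥(Gamma0 N) →* ℂˣ // χ ^ p = 1} := finite_characters N p hp
  have : Finite {χ : ↥(Gamma0 N) →* ℂˣ // χ ^ p = 1 ∧ χ (TG N) = 1} :=
    Finite.of_injective
      (fun χ : {χ : ↥(Gamma0 N) →* ℂˣ // χ ^ p = 1 ∧ χ (TG N) = 1} =>
        (⟨χ.1, χ.2.1⟩ : {χ : ↥(Gamma0 N) →* ℂˣ // χ ^ p = 1}))
      (fun a b h => Subtype.ext (congrArg (fun c : {χ : ↥(Gamma0 N) →* ℂˣ // χ ^ p = 1} => c.1) h))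
  set V : {χ : ↥(Gamma0 N) →* ℂˣ // χ ^ p = 1 ∧ χ (TG N) = 1} →
      Submodule ℂ (LaurentSeries ℂ) := fun i => VchiSub N i.1 with hV
  have hmemV : ∀ (i : {χ : ↥(Gamma0 N) →* ℂˣ // χ ^ p = 1 ∧ χ (TG N) = 1})
      (x : LaurentSeries ℂ), x ∈ V i ↔ x ∈ Vchi N i.1 := by
    intro i x
    have h := hsub i.1 i.2.2
    rw [← h]
    rfl
  have hdisj : ∀ i j, i ≠ j → V i ⊓ V j = ⊥ := by
    intro i j hij
    rw [eq_bot_iff]
    intro x hx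
    rw [Submodule.mem_inf] at hx
    rw [Submodule.mem_bot]
    by_contra hx0
    have h1 := (hmemV i x).mp hx.1
    have h2 := (hmemV j x).mp hx.2
    exact hij (Subtype.ext (hsep i.1 j.1 i.2.2 j.2.2 x (hVM _ h1) (hVM _ h2) hx0))
  have hσ : ∀ (σ : ℂ ≃ₐ[AlgebraicClosure ℚ] ℂ)
      (i : {χ : ↥(Gamma0 N) →* ℂˣ // χ ^ p = 1 ∧ χ (TG N) = 1}), ∀ w ∈ V i, ∃ j,
      coeffMap ((σ : ℂ ≃ₐ[AlgebraicClosure ℚ] ℂ) : ℂ →+* ℂ) w ∈ V j := by
    intro σ i w hw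
    obtain ⟨χ', h1, h2, h3⟩ := hsig σ i.1 i.2.1 i.2.2 w ((hmemV i w).mp hw)
    exact ⟨⟨χ', h1, h2⟩, (hmemV ⟨χ', h1, h2⟩ _).mpr h3⟩
  have h0 : V ⟨χ, hχp, hχT⟩ ≠ ⊥ := by
    obtain ⟨x, hx, hx0⟩ := hne
    intro hbot
    have h1 : x ∈ V ⟨χ, hχp, hχT⟩ := (hmemV ⟨χ, hχp, hχT⟩ x).mpr hx
    rw [hbot, Submodule.mem_bot] at h1
    exact hx0 h1
  obtain ⟨y, hy0, hy⟩ := OrbitStab.exists_ne_zero_coeffMap_mem (k := AlgebraicClosure ℚ)
    (V := V) ⟨χ, hχp, hχT⟩ (hfin χ hχT hχp) hdisj hσ h0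
  exact ⟨y, hy0, (hmemV ⟨χ, hχp, hχT⟩ _).mp hy⟩

end Fermat.Agent.S29.KDesc
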