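/-
S29 block [K], row (WE) — WECore.lean (owner: helper16): the (WE) chain in hypothesis form.

`weStatement_of_leaves`: `KPlan.WEStatement N p` (existence of a nonzero `ℚ̄`-rational element
of the descent space `V(χ_u)`) from the three leaves that are not on main yet:

* `hK1`   : `Mchi N 1 ⊆ F_ℂ`                      (K1 top);
* `hConv` : `K1IntConvStatement N`                 (board #1922, [K1IntConv]);
* `hInv`  : `KPInvStatement N p p`                 (board #1983, [KPInv], at the exponent `p`).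

Everything else is cited from main: `KDesc` (descent glue), `K2Sub`, `K2Eis`, `K2Sturm`, `K2Sep`,
`KSigma` (stability of the family `V(χ')`), `K3StabCore` ([STAB] glue), `K1IntB`, `SigmaFix`.
No primality of `p` is used (`p ≠ 0` only).
-/
import Mathlib
import Fermat.Agent.S29.KPlanDefs
import Fermat.Agent.S29.KDesc
import Fermat.Agent.S29.K2Sub
import Fermat.Agent.S29.K2Eis
import Fermat.Agent.S29.K2Sturm
import Fermat.Agent.S29.K2Sep
import Fermat.Agent.S29.KSigma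
import Fermat.Agent.S29.K3StabCore
import Fermat.Agent.S29.K1IntB
import Fermat.Agent.S29.SigmaFix

set_option autoImplicit false

namespace Fermat.Agent.S29.WE

open UpperHalfPlane CongruenceSubgroup ModularCurve Fermat.Agent.S24 Fermat.Agent.S29.K
open Fermat.Agent.S29.KPlan
open Fermat.Agent.S41 (Lpar)
open scoped MatrixGroups

/-- The leaf **[K1IntConv]** at level `N`, for every exponent `m` (board #1922, verbatim). -/
def K1IntConvStatement (N : ℕ) : Prop :=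
  ∀ (m : ℕ) {x : LaurentSeries ℂ}, x ∈ FC N →
    IsIntegral (Algebra.adjoin ℂ ({jC} : Set (LaurentSeries ℂ))) x →
    IsIntegral (Algebra.adjoin ℂ ({jC⁻¹} : Set (LaurentSeries ℂ))) (x * jC⁻¹ ^ m) →
    ∃ G : ℍ → ℂ, G ∈ S20.MF N (12 * m) ∧ x * DeltaC ^ m = qx G

/-- The deep leaf **[KPInv]** at level `N` and torsion order `p`, for the exponent `m`
(board #1983, verbatim = `hKPInv` of `K3StabCore`). -/
def KPInvStatement (N p m : ℕ) : Prop :=
  ∀ (σ : ℂ ≃+* ℂ) (G G' : ℍ → ℂ), G ∈ S20.MF N (12 * m) → G' ∈ S20.MF N (12 * m) → G ≠ 0 →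
    qx G' = coeffMap (σ : ℂ →+* ℂ) (qx G) →
    (∀ z₀ : ℍ, ∃ n : ℕ,
      analyticOrderAt (fun z : ℂ => G (ofComplex z)) (z₀ : ℂ) = ((p * n : ℕ) : ℕ∞)) →
    ∀ z₀ : ℍ, ∃ n : ℕ,
      analyticOrderAt (fun z : ℂ => G' (ofComplex z)) (z₀ : ℂ) = ((p * n : ℕ) : ℕ∞)

/-- **(WE), hypothesis form**: from the `Aut(ℂ/ℚ̄)`-stability `[KSigma]` of the family
`V(χ')`, `χ' ^ p = 1`, `χ'(T) = 1`. -/
theorem weStatement_of_hsig (N p : ℕ) [NeZero N] (hp : p ≠ 0)
    (hsig : ∀ (σ : ℂ ≃ₐ[AlgebraicClosure ℚ] ℂ) (χ : ↥(Gamma0 N) →* ℂˣ), χ ^ p = 1 →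
      χ (TG N) = 1 → ∀ w ∈ Vchi N χ, ∃ χ' : ↥(Gamma0 N) →* ℂˣ, χ' ^ p = 1 ∧ χ' (TG N) = 1 ∧
        coeffMap ((σ : ℂ ≃ₐ[AlgebraicClosure ℚ] ℂ) : ℂ →+* ℂ) w ∈ Vchi N χ') :
    WEStatement N p := by
  intro u
  have hχT : chiU p (u : Additive (Gamma0 N) →+ ℤ) (TG N) = 1 := chiU_TG p u
  obtain ⟨y, hy0, hy⟩ := KDesc.exists_rational_mem_Vchi N p hp
    (fun χ hT => coe_VchiSub χ hT)
    (fun χ => Vchi_subset_Mchi χ)
    (fun χ χ' hT hT' x hx hx' h0 => eq_of_mem_Mchi_of_mem_Mchi hT hT' hx hx' h0)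
    (fun χ hT hχ => finiteDimensional_VchiSub hT (Nat.pos_of_ne_zero hp) hχ)
    hsig
    (chiU p (u : Additive (Gamma0 N) →+ ℤ)) (chiU_pow p hp _) hχT
    (exists_ne_zero_mem_Vchi _ (norm_chiU p _) (fun γ hγ => chiU_eq_one_of_lower_left p u γ hγ))
  refine ⟨y, hy0, ?_⟩
  have h := coe_VchiSub (chiU p (u : Additive (Gamma0 N) →+ ℤ)) hχT
  have h2 : coeffMap embC y ∈ (VchiSub N (chiU p (u : Additive (Gamma0 N) →+ ℤ)) :
      Set (LaurentSeries ℂ)) := by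
    rw [h]
    exact hy
  exact h2

/-- **[STAB]** from the leaves. -/
theorem stab_of_leaves (N p m : ℕ) [NeZero N]
    (hK1 : Mchi N 1 ⊆ (FC N : Set (LaurentSeries ℂ)))
    (hConv : K1IntConvStatement N) (hInv : KPInvStatement N p m)
    (σ : ℂ ≃+* ℂ) (x : LaurentSeries ℂ) (G : ℍ → ℂ) (hG : G ∈ S20.MF N (12 * m))
    (hx : x * DeltaC ^ m = qx G)
    (hord : ∀ z : ℍ, ∃ k : ℕ,
      analyticOrderAt (fun w : ℂ => G (ofComplex w)) (z : ℂ) = ((p * k : ℕ) : ℕ∞)) :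
    ∃ G' : ℍ → ℂ, G' ∈ S20.MF N (12 * m) ∧ coeffMap (σ : ℂ →+* ℂ) x * DeltaC ^ m = qx G' ∧
      ∀ z : ℍ, ∃ k : ℕ,
        analyticOrderAt (fun w : ℂ => G' (ofComplex w)) (z : ℂ) = ((p * k : ℕ) : ℕ∞) :=
  K3Stab.coeffMap_root_form_of N p m σ
    (@fun _ hG _ hx => K1IntB.isIntegral_of_form_of_K1 hK1 m hG hx)
    (@fun _ hx h1 h2 => hConv m hx h1 h2)
    (fun _ hx => SigmaFix.coeffMap_mem_FC N σ hx)
    (SigmaFix.coeffMap_jC _) (SigmaFix.coeffMap_DeltaC _)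
    (fun _ hx => SigmaFix.isIntegral_jC_coeffMap _ hx)
    (fun _ hx => SigmaFix.isIntegral_jC_inv_coeffMap _ hx)
    (hInv σ) hG hx hord

/-- **(WE)** from the three remaining leaves `K1` (`Mchi N 1 ⊆ F_ℂ`), `[K1IntConv]`,
`[KPInv]` (at the exponent `m = p`). -/
theorem weStatement_of_leaves (N p : ℕ) [NeZero N] (hp : p ≠ 0)
    (hK1 : Mchi N 1 ⊆ (FC N : Set (LaurentSeries ℂ)))
    (hConv : K1IntConvStatement N) (hInv : KPInvStatement N p p) :
    WEStatement N p :=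
  weStatement_of_hsig N p hp
    (KSigma.hsig_of_stab N p hp
      (fun σ x G hG hx hord => stab_of_leaves N p p hK1 hConv hInv σ x G hG hx hord))

end Fermat.Agent.S29.WE
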