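import Mathlib
import Fermat.Agent.S24.AnEmb
import Fermat.Agent.S24.AnEmbCusp
import Fermat.Agent.S24.AnDegreeMain
import Fermat.Agent.S24.ModAssembly
import Fermat.Agent.S24.Bridge

/-!
# S29 [K] (R5): `p ∣ ord_v x` at every place of the function field of `X₀(N)` over `ℚ̄`

If `x ∈ F_N = ℚ̄(X₀(N))` has analytic realisation `W ^ p`, where `W` is holomorphic on the upper
half plane, meromorphic at every cusp, and invariant under the elliptic and the parabolic
elements of `Γ₀(N)`, then `p ∣ ord_v x` for every place `v` of `F_N`.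

Everything rests on the dictionary of the S24 library: every place is induced by a Taylor
embedding at a point of the upper half plane or by a `q_N`-expansion embedding at the cusp.
-/

set_option autoImplicit false

namespace Fermat.Agent.S29.OrdDvd

open AlgebraicCurve Fermat.Agent.S24

section Abstract

variable {K F C : Type*} [Field K] [Field F] [Algebra K F] [Field C]

/-- order of a power in a Laurent series ring over a field -/
theorem order_pow_laurent (y : LaurentSeries C) (p : ℕ) : (y ^ p).order = (p : ℤ) * y.order := by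
  rcases eq_or_ne y 0 with rfl | hy
  · rcases Nat.eq_zero_or_pos p with rfl | hp
    · simp
    · rw [zero_pow hp.ne']
      simp
  · induction p with
    | zero => simp
    | succ n ih =>
      rw [pow_succ, HahnSeries.order_mul (pow_ne_zero n hy) hy, ih]
      push_cast
      ring

variable {X : Type*}

theorem coeff_pow_smul (ι : X → F →+* LaurentSeries C) (ε : Equiv.Perm X) (ζ : C)
    (hε : ∀ (x : X) (f : F) (k : ℤ), (ι (ε x) f).coeff k = ζ ^ k * (ι x f).coeff k)
    (m : ℕ) (x : X) (f : F) (k : ℤ) :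
    (ι ((ε ^ m) x) f).coeff k = (ζ ^ m) ^ k * (ι x f).coeff k := by
  induction m with
  | zero => simp
  | succ n ih =>
    rw [pow_succ', Equiv.Perm.mul_apply, hε, ih, pow_succ', mul_zpow, mul_assoc]

theorem embInduces_pow (ι : X → F →+* LaurentSeries C) (ε : Equiv.Perm X) (ζ : C) (hζ0 : ζ ≠ 0)
    (hε : ∀ (x : X) (f : F) (k : ℤ), (ι (ε x) f).coeff k = ζ ^ k * (ι x f).coeff k)
    {x : X} {v : Place K F} {r : ℕ} (h : EmbInduces (ι x) v r) (m : ℕ) :
    EmbInduces (ι ((ε ^ m) x)) v r :=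
  h.of_coeff_eq (ζ ^ m) (pow_ne_zero m hζ0) (fun f k => coeff_pow_smul ι ε ζ hε m x f k)

variable [CharZero C]

/-- **Abstract ramification lemma.**  In the setting of `S24.exists_emb_induces` (a complete family
of expansions over `t = 0`, on which `ε` acts through the rotation `s ↦ ζ s`, `ζ` a primitive
`e`-th root of unity, `e = ord_s (ι x t)`): if for every `x` the expansion `ι x f` is a `p`-th
power `y ^ p` of a series `y` which is rotation-invariant under the stabiliser of `x`, then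
`p ∣ ord_v f` for every place `v` over `t = 0`. -/
theorem dvd_ord_of_emb
    (hres : ∀ (v : Place K F) (b : F), 0 ≤ v.ord b →
      ∃ a : K, b = algebraMap K F a ∨ 0 < v.ord (b - algebraMap K F a))
    (t : F) (n : ℕ)
    (hfin : {v : Place K F | 0 < v.ord t}.Finite)
    (hsum : ∑ᶠ v ∈ {v : Place K F | 0 < v.ord t}, v.ord t = (n : ℤ))
    [Finite X] (hX : Nat.card X = n)
    (ι : X → F →+* LaurentSeries C) (hinj : Function.Injective ι)
    (hK : ∀ (x : X) (a : K), ∃ c : C, ι x (algebraMap K F a) = HahnSeries.C c)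
    (hK' : ∀ (x y : X) (a : K), ι x (algebraMap K F a) = ι y (algebraMap K F a))
    (ht' : ∀ x y : X, ι x t = ι y t)
    (e : ℕ) (he : 0 < e) (hord : ∀ x : X, (ι x t).order = e)
    (ε : Equiv.Perm X) (ζ : C) (hζ : IsPrimitiveRoot ζ e)
    (hε : ∀ (x : X) (f : F) (k : ℤ), (ι (ε x) f).coeff k = ζ ^ k * (ι x f).coeff k)
    (v : Place K F) (hv : 0 < v.ord t) (p : ℕ) (f : F) (hf : f ≠ 0)
    (hy : ∀ x : X, ∃ y : LaurentSeries C, ι x f = y ^ p ∧
      ∀ m : ℕ, (ε ^ m) x = x → ∀ k : ℤ, y.coeff k ≠ 0 → (ζ ^ m) ^ k = 1) :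
    (p : ℤ) ∣ v.ord f := by
  classical
  have hζ0 : ζ ≠ 0 := hζ.ne_zero he.ne'
  obtain ⟨x, r, hxr⟩ := exists_emb_induces hres t n hfin hsum hX ι hinj hK hK' ht'
    (fun x => by rw [hord x]; exact_mod_cast he) v hv
  have hr : 0 < r := hxr.pos
  have ht0 : t ≠ 0 := by
    rintro rfl
    rw [v.ord_zero] at hv
    exact lt_irrefl _ hv
  have h1 : (e : ℤ) = r * v.ord t := by rw [← hord x]; exact hxr.order_eq ht0
  -- minimal period of `x`
  have hfo : 0 < orderOf ε := orderOf_pos ε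
  have hmem : x ∈ Function.periodicPts ε := by
    refine Function.mk_mem_periodicPts hfo ?_
    show ε^[orderOf ε] x = x
    rw [Equiv.Perm.iterate_eq_pow, pow_orderOf_eq_one]
    rfl
  set m := Function.minimalPeriod ε x with hm
  have hmpos : 0 < m := Function.minimalPeriod_pos_of_mem_periodicPts hmem
  have hper : (ε ^ m) x = x := by
    have h := Function.isPeriodicPt_minimalPeriod ε x
    rw [← Equiv.Perm.iterate_eq_pow]
    exact h
  -- the orbit of `x`
  let S : Finset X := (Finset.range m).image (fun i => (ε ^ i) x)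
  have hScard : S.card = m := by
    rw [Finset.card_image_of_injOn, Finset.card_range]
    intro i hi j hj hij
    have hinjOn := Function.iterate_injOn_Iio_minimalPeriod (f := ε) (x := x)
    refine hinjOn (by simpa using hi) (by simpa using hj) ?_
    simpa [Equiv.Perm.iterate_eq_pow] using hij
  have hS : ∀ x' ∈ S, ∃ r', EmbInduces (ι x') v r' := by
    intro x' hx'
    obtain ⟨i, -, rfl⟩ := Finset.mem_image.mp hx'
    exact ⟨r, embInduces_pow ι ε ζ hζ0 hε hxr i⟩
  have hm_le : (m : ℤ) ≤ v.ord t := by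
    have h := card_emb_le v (hres v) t hv ι hinj hK' ht' S hS
    rwa [hScard] at h
  -- `ζ ^ (m * r) = 1`
  obtain ⟨π, hπ⟩ := EmbDefs.exists_ord_eq_one v
  have hπ0 : π ≠ 0 := EmbDefs.ne_zero_of_ord_ne_zero v (by rw [hπ]; exact one_ne_zero)
  have hπord : (ι x π).order = r := by rw [hxr.order_eq hπ0, hπ, mul_one]
  have hπne : ι x π ≠ 0 := hxr.map_ne_zero hπ0
  have hcoef : (ι x π).coeff r ≠ 0 := by
    rw [← hπord]
    exact fun h0 => hπne (HahnSeries.coeff_order_eq_zero.mp h0)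
  have hrot := coeff_pow_smul ι ε ζ hε m x π r
  rw [hper] at hrot
  have hz1 : (ζ ^ m) ^ (r : ℤ) = 1 := by
    have h2 : ((ζ ^ m) ^ (r : ℤ) - 1) * (ι x π).coeff r = 0 := by
      rw [sub_mul, one_mul, ← hrot, sub_self]
    rcases mul_eq_zero.mp h2 with h3 | h3
    · exact sub_eq_zero.mp h3
    · exact absurd h3 hcoef
  have hz2 : ζ ^ (m * r) = 1 := by
    rw [pow_mul]
    exact_mod_cast hz1
  have hdvd : e ∣ m * r := (hζ.pow_eq_one_iff_dvd _).mp hz2
  have hmr : m * r = e := by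
    have hle : ((m * r : ℕ) : ℤ) ≤ e := by
      rw [h1]
      push_cast
      have hr' : (0 : ℤ) ≤ r := by positivity
      nlinarith
    have hle' : m * r ≤ e := by exact_mod_cast hle
    exact Nat.le_antisymm hle' (Nat.le_of_dvd (Nat.mul_pos hmpos hr) hdvd)
  -- the element `f`
  obtain ⟨y, hy1, hy2⟩ := hy x
  have hιf : ι x f ≠ 0 := hxr.map_ne_zero hf
  have hord_f : (ι x f).order = r * v.ord f := hxr.order_eq hf
  rw [hy1, order_pow_laurent] at hord_f
  have hr0 : (r : ℤ) ≠ 0 := by exact_mod_cast hr.ne'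
  by_cases hp : p = 0
  · subst hp
    have h0 : (r : ℤ) * v.ord f = 0 := by rw [← hord_f]; simp
    have h0' : v.ord f = 0 := (mul_eq_zero.mp h0).resolve_left hr0
    rw [h0']
    exact dvd_zero _
  · have hy0 : y ≠ 0 := by
      rintro rfl
      rw [zero_pow hp] at hy1
      exact hιf hy1
    have hk := hy2 m hper y.order (fun h0 => hy0 (HahnSeries.coeff_order_eq_zero.mp h0))
    have hk' : ζ ^ ((m : ℤ) * y.order) = 1 := by
      rw [zpow_mul]
      exact_mod_cast hk
    have hdz : (e : ℤ) ∣ (m : ℤ) * y.order := (hζ.zpow_eq_one_iff_dvd _).mp hk'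
    rw [← hmr] at hdz
    push_cast at hdz
    have hrdvd : (r : ℤ) ∣ y.order :=
      (mul_dvd_mul_iff_left (by exact_mod_cast hmpos.ne' : (m : ℤ) ≠ 0)).mp hdz
    obtain ⟨c, hc⟩ := hrdvd
    refine ⟨c, ?_⟩
    have h3 : (r : ℤ) * v.ord f = r * (p * c) := by
      rw [← hord_f, hc]
      ring
    exact mul_left_cancel₀ hr0 h3

end Abstract


section Input

open UpperHalfPlane ModularCurve IntermediateField
open scoped MatrixGroups

/-- `Φ` is an analytic realisation of `x ∈ F_N`: `x = P(j(q^d)) / Q(j(q^d))` formally and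
`Φ · Q(j(d z)) = P(j(d z))` on the upper half plane. -/
def Realizes (N : ℕ) [NeZero N] (x : FN N) (Φ : ℍ → ℂ) : Prop :=
  ∃ P Q : MvPolynomial ↥N.divisors Kb, MvPolynomial.aeval (genFam N) Q ≠ 0 ∧
    x * MvPolynomial.aeval (genFam N) Q = MvPolynomial.aeval (genFam N) P ∧
    ∀ z : ℍ, Φ z * MvPolynomial.aeval (jAtFam N) Q z = MvPolynomial.aeval (jAtFam N) P z

variable {N : ℕ} [NeZero N]

theorem embOf_aeval (I : EmbInput N) (g : SL(2, ℤ)) (P : MvPolynomial ↥N.divisors Kb) :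
    I.embOf g (MvPolynomial.aeval (genFam N) P) = I.psi g P :=
  (exists_algHom_of_eq_zero_iff (I.psi g) (I.psi_eq_zero_iff g)).choose_spec.1 P

/-- The embedding attached to `g` sends `x` to the expansion of the translate of its analytic
realisation. -/
theorem embOf_eq_of_realizes (I : EmbInput N) (g : SL(2, ℤ)) {x : FN N} {Φ : ℍ → ℂ}
    (hx : Realizes N x Φ) (hΦ : trans g Φ ∈ I.A) :
    I.embOf g x = I.H ⟨trans g Φ, hΦ⟩ := by
  obtain ⟨P, Q, hQ, hxQ, hfun⟩ := hx
  obtain ⟨hP, hP'⟩ := I.psi_eq g P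
  obtain ⟨hQm, hQ'⟩ := I.psi_eq g Q
  have hmul : (⟨trans g (MvPolynomial.aeval (jAtFam N) P), hP⟩ : ↥I.A)
      = ⟨trans g Φ, hΦ⟩ * ⟨trans g (MvPolynomial.aeval (jAtFam N) Q), hQm⟩ := by
    apply Subtype.ext
    funext z
    show MvPolynomial.aeval (jAtFam N) P (g⁻¹ • z)
      = Φ (g⁻¹ • z) * MvPolynomial.aeval (jAtFam N) Q (g⁻¹ • z)
    exact (hfun (g⁻¹ • z)).symm
  have h := congrArg (I.embOf g) hxQ
  rw [map_mul, embOf_aeval, embOf_aeval, hP', hQ', hmul, map_mul] at h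
  have hne : I.H ⟨trans g (MvPolynomial.aeval (jAtFam N) Q), hQm⟩ ≠ 0 := by
    rw [← hQ', ← embOf_aeval]
    exact (map_ne_zero (I.embOf g)).mpr hQ
  exact mul_right_cancel₀ hne h

theorem isFF1_FN (N : ℕ) [NeZero N] : IsFF1 Kb (FN N) :=
  ⟨jF N, transcendental_jF N, finiteDimensional_jF N⟩

theorem finite_QN (N : ℕ) [NeZero N] : Finite (QN N) := by
  apply Nat.finite_of_card_ne_zero
  rw [Fermat.Agent.S20.card_Q]
  exact (AnDegree.dedekindPsi_pos N).ne'

/-- iterating the equivariance of the expansion map -/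
theorem coeff_trans_pow (I : EmbInput N) (ε : SL(2, ℤ)) (ζ : ℂ)
    (hε : ∀ (f : ℍ → ℂ) (hf : f ∈ I.A) (hf' : trans ε f ∈ I.A) (n : ℤ),
      (I.H ⟨trans ε f, hf'⟩).coeff n = ζ ^ n * (I.H ⟨f, hf⟩).coeff n)
    (f : ℍ → ℂ) (hf : ∀ i : ℕ, trans (ε ^ i) f ∈ I.A) (hf0 : f ∈ I.A) (m : ℕ) (n : ℤ) :
    (I.H ⟨trans (ε ^ m) f, hf m⟩).coeff n = (ζ ^ m) ^ n * (I.H ⟨f, hf0⟩).coeff n := by
  induction m with
  | zero =>
    have h0 : (⟨trans (ε ^ 0) f, hf 0⟩ : ↥I.A) = ⟨f, hf0⟩ := Subtype.ext (by simp)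
    rw [h0]
    simp
  | succ k ih =>
    have hmem : trans ε (trans (ε ^ k) f) ∈ I.A := by
      rw [← trans_mul, ← pow_succ']
      exact hf (k + 1)
    have h1 : (⟨trans (ε ^ (k + 1)) f, hf (k + 1)⟩ : ↥I.A)
        = ⟨trans ε (trans (ε ^ k) f), hmem⟩ := by
      apply Subtype.ext
      show trans (ε ^ (k + 1)) f = trans ε (trans (ε ^ k) f)
      rw [pow_succ', trans_mul]
    rw [h1, hε (trans (ε ^ k) f) (hf k) hmem n, ih, pow_succ', mul_zpow, mul_assoc]

/-- **Input-level ramification lemma.** -/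
theorem dvd_ord_of_input (I : EmbInput N) (t : FN N) (ht : Transcendental Kb t)
    (hXt : Nat.card (QN N) = Module.finrank Kb⟮t⟯ (FN N))
    (T : LaurentSeries ℂ) (hT : ∀ q, I.embFam q t = T) (e : ℕ) (he : 0 < e)
    (hTe : T.order = e) (ε : SL(2, ℤ)) (ζ : ℂ) (hζ : IsPrimitiveRoot ζ e)
    (hε : ∀ (f : ℍ → ℂ) (hf : f ∈ I.A) (hf' : trans ε f ∈ I.A) (n : ℤ),
      (I.H ⟨trans ε f, hf'⟩).coeff n = ζ ^ n * (I.H ⟨f, hf⟩).coeff n)
    (p : ℕ) (x : FN N) (hx0 : x ≠ 0) (W : ℍ → ℂ) (hx : Realizes N x (fun z => W z ^ p))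
    (hWA : ∀ g : SL(2, ℤ), trans g W ∈ I.A)
    (hWinv : ∀ (g : SL(2, ℤ)) (k : ℕ), g⁻¹ * ε ^ k * g ∈ CongruenceSubgroup.Gamma0 N →
      trans (ε ^ k) (trans g W) = trans g W)
    (v : Place Kb (FN N)) (hv : 0 < v.ord t) : (p : ℤ) ∣ v.ord x := by
  have hF := isFF1_FN N
  have := finite_QN N
  have hζ0 : ζ ≠ 0 := hζ.ne_zero he.ne'
  refine dvd_ord_of_emb (K := Kb) (F := FN N) (C := ℂ) (X := QN N)
    (fun v b hb => exists_residue hF v hb) t (Module.finrank Kb⟮t⟯ (FN N))
    (finite_ord_pos hF ht) (sum_ord_pos hF ht) hXt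
    (fun q => (I.embFam q : FN N →+* LaurentSeries ℂ)) ?_ ?_ ?_ ?_ e he ?_
    (MulAction.toPerm ε) ζ hζ ?_ v hv p x hx0 ?_
  · intro q q' h
    apply I.embFam_injective
    exact AlgHom.coe_ringHom_injective h
  · intro q a
    exact ⟨embC a, I.embFam_algebraMap q a⟩
  · intro q q' a
    show I.embFam q (algebraMap Kb (FN N) a) = I.embFam q' (algebraMap Kb (FN N) a)
    rw [I.embFam_algebraMap, I.embFam_algebraMap]
  · intro q q'
    show I.embFam q t = I.embFam q' t
    rw [hT, hT]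
  · intro q
    show (I.embFam q t).order = e
    rw [hT, hTe]
  · intro q f k
    exact I.embFam_smul ε ζ hζ0 hε q f k
  · intro q
    obtain ⟨g, rfl⟩ := QuotientGroup.mk_surjective q
    have hpowmem : trans g (fun z => W z ^ p) ∈ I.A := by
      have h1 : trans g (fun z => W z ^ p) = trans g W ^ p := rfl
      rw [h1]
      exact pow_mem (hWA g) p
    refine ⟨I.H ⟨trans g W, hWA g⟩, ?_, ?_⟩
    · show I.embFam (QuotientGroup.mk g : QN N) x = _
      rw [I.embFam_mk, embOf_eq_of_realizes I g hx hpowmem, ← map_pow]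
      congr 1
    · intro m hm k hk
      have hm' : (QuotientGroup.mk (ε ^ m * g) : QN N) = QuotientGroup.mk g := by
        have h2 : (MulAction.toPerm ε ^ m : Equiv.Perm (QN N)) = MulAction.toPerm (ε ^ m) := by
          rw [← MulAction.toPermHom_apply, ← map_pow]
          rfl
        rw [h2] at hm
        exact hm
      have hmem : g⁻¹ * ε ^ m * g ∈ CongruenceSubgroup.Gamma0 N := by
        have h3 := QuotientGroup.eq.mp hm'
        have h4 := inv_mem h3
        have h5 : ((ε ^ m * g)⁻¹ * g)⁻¹ = g⁻¹ * ε ^ m * g := by group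
        rwa [h5] at h4
      have hinv := hWinv g m hmem
      have hmemA : ∀ i : ℕ, trans (ε ^ i) (trans g W) ∈ I.A := by
        intro i
        rw [← trans_mul]
        exact hWA _
      have h6 := coeff_trans_pow I ε ζ hε (trans g W) hmemA (hWA g) m k
      have h7 : (⟨trans (ε ^ m) (trans g W), hmemA m⟩ : ↥I.A) = ⟨trans g W, hWA g⟩ :=
        Subtype.ext hinv
      rw [h7] at h6
      have h8 : ((ζ ^ m) ^ k - 1) * (I.H ⟨trans g W, hWA g⟩).coeff k = 0 := by
        rw [sub_mul, one_mul, ← h6, sub_self]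
      rcases mul_eq_zero.mp h8 with h9 | h9
      · exact sub_eq_zero.mp h9
      · exact absurd h9 hk

end Input

section Main

open UpperHalfPlane ModularCurve IntermediateField Fermat.Agent.LevelOne
open scoped MatrixGroups Real Manifold

variable {N : ℕ} [NeZero N]

theorem card_QN_eq (N : ℕ) [NeZero N] :
    Nat.card (QN N) = Module.finrank Kb⟮jF N⟯ (FN N) := by
  rw [finrank_jF_of_hasCuspEmb (hasCuspEmb N)]
  exact Fermat.Agent.S20.card_Q N

theorem pow_smul_eq_of_smul_eq {ε : SL(2, ℤ)} {z₀ : ℍ} (hε : ε • z₀ = z₀) (k : ℕ) :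
    ε ^ k • z₀ = z₀ := by
  induction k with
  | zero => simp
  | succ n ih => rw [pow_succ, mul_smul, hε, ih]

/-- Places over a finite value `j = a`: the Taylor side. -/
theorem dvd_ord_taylor (z₀ : ℍ) (a : Kb) (hz : jFun z₀ = embC a) (e : ℕ) (he : 0 < e)
    (hord : (taylorAt z₀ jFun - PowerSeries.C (jFun z₀)).order = e)
    (ε : SL(2, ℤ)) (hε : ε • z₀ = z₀) (hζ : IsPrimitiveRoot (fixMult ε z₀) e)
    (p : ℕ) (x : FN N) (hx0 : x ≠ 0) (W : ℍ → ℂ) (hW : MDiff W)
    (hell : ∀ γ ∈ CongruenceSubgroup.Gamma0 N, (∃ z₁ : ℍ, γ • z₁ = z₁) →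
      ∀ z : ℍ, W (γ • z) = W z)
    (hx : Realizes N x (fun z => W z ^ p))
    (v : Place Kb (FN N)) (hv : 0 < v.ord (jF N - algebraMap Kb (FN N) a)) :
    (p : ℤ) ∣ v.ord x := by
  refine dvd_ord_of_input (taylorInput N z₀) (jF N - algebraMap Kb (FN N) a)
    (ModAssemblyGen.transcendental_sub_algebraMap (transcendental_jF N) a) ?_
    (HahnSeries.ofPowerSeries ℤ ℂ (taylorAt z₀ jFun - PowerSeries.C (jFun z₀))) ?_ e he
    (AnRoots.order_ofPowerSeries_of_order_eq hord) ε (fixMult ε z₀) hζ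
    (fun f hf hf' n => taylorLaurent_trans_coeff z₀ ε hε f hf hf' n) p x hx0 W hx
    (fun g => anTaylorEquiv_mdiff_trans hW g) ?_ v hv
  · rw [finrank_adjoin_sub_algebraMap]
    exact card_QN_eq N
  · intro q
    have hj : (taylorInput N z₀).embFam q (jF N)
        = HahnSeries.ofPowerSeries ℤ ℂ (taylorAt z₀ jFun) := by
      rw [(taylorInput N z₀).embFam_jF q (taylorInput N z₀).jFun_mem]
      rfl
    rw [map_sub, hj, (taylorInput N z₀).embFam_algebraMap, map_sub, HahnSeries.ofPowerSeries_C,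
      hz]
  · intro g k hmem
    funext z
    show W (g⁻¹ • (ε ^ k)⁻¹ • z) = W (g⁻¹ • z)
    have hγ : (g⁻¹ * ε ^ k * g)⁻¹ ∈ CongruenceSubgroup.Gamma0 N := inv_mem hmem
    have hfix : (g⁻¹ * ε ^ k * g)⁻¹ • (g⁻¹ • z₀) = g⁻¹ • z₀ := by
      rw [← mul_smul]
      have h1 : (g⁻¹ * ε ^ k * g)⁻¹ * g⁻¹ = g⁻¹ * (ε ^ k)⁻¹ := by group
      rw [h1, mul_smul]
      congr 1
      rw [inv_smul_eq_iff, pow_smul_eq_of_smul_eq hε]
    have h := hell _ hγ ⟨g⁻¹ • z₀, hfix⟩ (g⁻¹ • z)
    rw [← h, ← mul_smul, ← mul_smul]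
    congr 2
    group

theorem conj_T_zpow_mem_Gamma0 (N : ℕ) (g : SL(2, ℤ)) :
    g⁻¹ * ModularGroup.T ^ (N : ℤ) * g ∈ CongruenceSubgroup.Gamma0 N := by
  have h1 : ModularGroup.T ^ (N : ℤ) ∈ CongruenceSubgroup.Gamma N := by
    have h := CongruenceSubgroup.ModularGroup_T_pow_mem_Gamma (N : ℤ) (N : ℤ) dvd_rfl
    simpa using h
  have h2 : g⁻¹ * ModularGroup.T ^ (N : ℤ) * g ∈ CongruenceSubgroup.Gamma N := by
    have h := (CongruenceSubgroup.Gamma_normal N).conj_mem _ h1 g⁻¹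
    simpa using h
  rw [CongruenceSubgroup.Gamma_mem] at h2
  exact CongruenceSubgroup.Gamma0_mem.mpr h2.2.2.1

/-- Places over `j = ∞`: the cusp side. -/
theorem dvd_ord_cusp (p : ℕ) (x : FN N) (hx0 : x ≠ 0) (W : ℍ → ℂ) (hW : MDiff W)
    (hpar : ∀ γ ∈ CongruenceSubgroup.Gamma0 N, ∀ (g : SL(2, ℤ)) (n : ℤ),
      γ = g⁻¹ * ModularGroup.T ^ n * g → ∀ z : ℍ, W (γ • z) = W z)
    (hcusp : ∀ g : SL(2, ℤ), ∃ k : ℕ,
      IsBoundedAtImInfty (fun z : ℍ => ModularForm.discriminant z ^ k * W (g • z)))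
    (hx : Realizes N x (fun z => W z ^ p))
    (v : Place Kb (FN N)) (hv : 0 < v.ord (jF N)⁻¹) :
    (p : ℤ) ∣ v.ord x := by
  have hWA : ∀ g : SL(2, ℤ), trans g W ∈ (AnEmbCusp.cuspInput N).A := by
    intro g
    refine mem_merSub.mpr ⟨anTaylorEquiv_mdiff_trans hW g, fun z => ?_, hcusp g⁻¹⟩
    show W (g⁻¹ • ((N : ℝ) +ᵥ z)) = W (g⁻¹ • z)
    have h1 : ((N : ℝ) +ᵥ z) = ModularGroup.T ^ (N : ℤ) • z := by
      rw [UpperHalfPlane.modular_T_zpow_smul]
      simp
    have h := hpar _ (conj_T_zpow_mem_Gamma0 N g) g (N : ℤ) rfl (g⁻¹ • z)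
    rw [← h, h1, ← mul_smul, ← mul_smul]
    congr 2
    group
  refine dvd_ord_of_input (AnEmbCusp.cuspInput N) (jF N)⁻¹
    (ModAssemblyGen.transcendental_inv (transcendental_jF N)) ?_
    (cuspHom N ⟨jFun, jFun_mem_merSub N⟩)⁻¹ ?_ N (Nat.pos_of_ne_zero (NeZero.ne N))
    (order_cuspHom_jFun_inv N) ModularGroup.T (Complex.exp (-2 * π * Complex.I / N))
    (isPrimitiveRoot_exp_neg N) (AnEmbCusp.cuspInput_twist N) p x hx0 W hx hWA ?_ v hv
  · rw [finrank_adjoin_inv]
    exact card_QN_eq N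
  · intro q
    rw [map_inv₀, (AnEmbCusp.cuspInput N).embFam_jF q (jFun_mem_merSub N)]
    rfl
  · intro g k hmem
    funext z
    show W (g⁻¹ • (ModularGroup.T ^ k)⁻¹ • z) = W (g⁻¹ • z)
    have hγ : (g⁻¹ * ModularGroup.T ^ k * g)⁻¹ ∈ CongruenceSubgroup.Gamma0 N := inv_mem hmem
    have h2 : (g⁻¹ * ModularGroup.T ^ k * g)⁻¹ = g⁻¹ * ModularGroup.T ^ (-(k : ℤ)) * g := by
      rw [zpow_neg, zpow_natCast]
      group
    have h := hpar _ hγ g (-(k : ℤ)) h2 (g⁻¹ • z)
    rw [← h, ← mul_smul, ← mul_smul]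
    congr 2
    group

/-- **(R5).**  If `x ∈ F_N` has analytic realisation `W ^ p` with `W` holomorphic on the upper
half plane, invariant under the elliptic and the parabolic elements of `Γ₀(N)` and meromorphic
at every cusp, then `p` divides the order of `x` at every place of `F_N`. -/
theorem dvd_ord_of_realizes_pow (N : ℕ) [NeZero N] (p : ℕ) (x : FN N) (W : ℍ → ℂ)
    (hW : MDiff W)
    (hell : ∀ γ ∈ CongruenceSubgroup.Gamma0 N, (∃ z₀ : ℍ, γ • z₀ = z₀) →
      ∀ z : ℍ, W (γ • z) = W z)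
    (hpar : ∀ γ ∈ CongruenceSubgroup.Gamma0 N, ∀ (g : SL(2, ℤ)) (n : ℤ),
      γ = g⁻¹ * ModularGroup.T ^ n * g → ∀ z : ℍ, W (γ • z) = W z)
    (hcusp : ∀ g : SL(2, ℤ), ∃ k : ℕ,
      IsBoundedAtImInfty (fun z : ℍ => ModularForm.discriminant z ^ k * W (g • z)))
    (hx : Realizes N x (fun z => W z ^ p)) :
    ∀ v : Place Kb (FN N), (p : ℤ) ∣ v.ord x := by
  intro v
  rcases eq_or_ne x 0 with rfl | hx0
  · rw [v.ord_zero]
    exact dvd_zero _
  have hF := isFF1_FN N
  rcases lt_or_ge (v.ord (jF N)) 0 with hneg | hnn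
  · have hv : 0 < v.ord (jF N)⁻¹ := by
      rw [v.ord_inv]
      omega
    exact dvd_ord_cusp p x hx0 W hW hpar hcusp hx v hv
  · obtain ⟨a, ha | ha⟩ := exists_residue hF v hnn
    · exact absurd (ha ▸ isAlgebraic_algebraMap (A := FN N) a) (transcendental_jF N)
    · by_cases h0 : a = 0
      · subst h0
        refine dvd_ord_taylor ellRho 0 (by rw [jFun_ellRho, map_zero]) 3 (by norm_num) ?_
          (ModularGroup.S * ModularGroup.T) ST_smul_ellRho isPrimitiveRoot_fixMult_ST_ellRho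
          p x hx0 W hW hell hx v ha
        rw [jFun_ellRho, map_zero, sub_zero, order_taylorAt jFun_mdifferentiable ellRho,
          analyticOrderAt_jFun_ellRho]
        rfl
      · by_cases h1 : a = 1728
        · subst h1
          refine dvd_ord_taylor ellI 1728 (by rw [jFun_ellI, ringHom_eq_1728]) 2 (by norm_num) ?_
            ModularGroup.S S_smul_ellI isPrimitiveRoot_fixMult_S_ellI p x hx0 W hW hell hx v ha
          rw [order_taylorAt_sub jFun_mdifferentiable ellI, jFun_ellI, analyticOrderAt_jFun_ellI]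
          rfl
        · obtain ⟨z₀, hz⟩ := jFun_surjective_B (embC a)
          obtain ⟨hne0, hne1⟩ := jFun_generic_of_eq embC h0 h1 hz
          refine dvd_ord_taylor z₀ a hz 1 one_pos ?_ 1 (one_smul _ _) ?_ p x hx0 W hW hell hx v ha
          · rw [order_taylorAt_sub jFun_mdifferentiable z₀,
              analyticOrderAt_jFun_generic z₀ hne0 hne1, Nat.cast_one]
          · rw [AnDatum.fixMult_one]
            exact IsPrimitiveRoot.one

end Main

section BridgeRealizes

open UpperHalfPlane ModularCurve ModularForm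
open scoped MatrixGroups Manifold

variable {N : ℕ} [NeZero N]

/-- every element of `F_N` is a quotient of two polynomials in the generators `j(q^d)` -/
theorem exists_poly_quot (x : FN N) :
    ∃ P Q : MvPolynomial ↥N.divisors Kb, MvPolynomial.aeval (genFam N) Q ≠ 0 ∧
      x * MvPolynomial.aeval (genFam N) Q = MvPolynomial.aeval (genFam N) P := by
  obtain ⟨a, b, hb, hab⟩ := IsFractionRing.div_surjective (A := ↥(RN N)) x
  obtain ⟨P, rfl⟩ := polyToRN_surjective N a
  obtain ⟨Q, rfl⟩ := polyToRN_surjective N b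
  have hb0 : polyToRN N Q ≠ 0 := nonZeroDivisors.ne_zero hb
  have hQ : MvPolynomial.aeval (genFam N) Q ≠ 0 := by
    intro h0
    apply hb0
    apply Subtype.ext
    rw [coe_polyToRN', h0]
    rfl
  refine ⟨P, Q, hQ, ?_⟩
  have h1 : algebraMap ↥(RN N) (FN N) (polyToRN N P) = MvPolynomial.aeval (genFam N) P := rfl
  have h2 : algebraMap ↥(RN N) (FN N) (polyToRN N Q) = MvPolynomial.aeval (genFam N) Q := rfl
  rw [h1, h2] at hab
  rw [← hab, div_mul_cancel₀ _ hQ]

/-- **(R5-bridge).**  Formal ⇒ analytic for arbitrary `x ∈ F_N`: if the image of `x` in `ℂ((q))`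
times `Δ ^ k` is the `q`-expansion of a nice function `G` (holomorphic, `1`-periodic, bounded at
`i∞`), then `G / Δ ^ k` is an analytic realisation of `x`. -/
theorem realizes_of_qExpansion (N : ℕ) [NeZero N] (x : FN N) (G : ℍ → ℂ)
    (hG : G ∈ Fermat.Agent.S23.niceSub) (k : ℕ)
    (h : coeffMap embC (x : LaurentSeries Kb) *
        (HahnSeries.ofPowerSeries ℤ ℂ (qExpansion 1 (ModularForm.discriminant : ℍ → ℂ))) ^ k
      = HahnSeries.ofPowerSeries ℤ ℂ (qExpansion 1 G)) :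
    Realizes N x (fun z => G z / ModularForm.discriminant z ^ k) := by
  obtain ⟨P, Q, hQ, hxQ⟩ := exists_poly_quot x
  refine ⟨P, Q, hQ, hxQ, fun z => ?_⟩
  -- the formal identity in `ℂ((q))`
  have hL : (x : LaurentSeries Kb) * MvPolynomial.aeval (JFam N) Q
      = MvPolynomial.aeval (JFam N) P := by
    have h1 := congrArg (fun y : FN N => (y : LaurentSeries Kb)) hxQ
    simp only [MulMemClass.coe_mul] at h1
    rw [← coe_polyToRN N Q, ← coe_polyToRN N P]
    exact h1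
  have hC : coeffMap embC (x : LaurentSeries Kb)
        * MvPolynomial.aeval (AnBridge.GN N) (MvPolynomial.map embC Q)
      = MvPolynomial.aeval (AnBridge.GN N) (MvPolynomial.map embC P) := by
    have h1 := congrArg (coeffMap embC) hL
    rw [map_mul, AnBridge.coeffMap_aeval_JFam, AnBridge.coeffMap_aeval_JFam] at h1
    exact h1
  obtain ⟨m₁, F₁, hF₁, hF₁'⟩ := AnBridge.exists_clear (N := N) jRel (MvPolynomial.map embC P)
  obtain ⟨m₂, F₂, hF₂, hF₂'⟩ := AnBridge.exists_clear (N := N) jRel (MvPolynomial.map embC Q)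
  set Δn : Fermat.Agent.S23.niceSub :=
    ⟨(ModularForm.discriminant : ℍ → ℂ), AnBridge.discriminant_mem_niceSub⟩ with hΔn
  set Gn : Fermat.Agent.S23.niceSub := ⟨G, hG⟩ with hGn
  have h' : coeffMap embC (x : LaurentSeries Kb) * AnBridge.Phi Δn ^ k = AnBridge.Phi Gn := h
  have key : AnBridge.Phi (Gn * F₂ * AnBridge.DN N ^ m₁)
      = AnBridge.Phi (F₁ * AnBridge.DN N ^ m₂ * Δn ^ k) := by
    simp only [map_mul, map_pow]
    rw [← h', ← hF₁', ← hF₂', ← hC]
    ring
  have key2 := AnBridge.Phi_injective key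
  have key3 := congrArg (fun F : Fermat.Agent.S23.niceSub => (F : ℍ → ℂ) z) key2
  have e1 : ((Gn * F₂ * AnBridge.DN N ^ m₁ : Fermat.Agent.S23.niceSub) : ℍ → ℂ) z
      = G z * (F₂ : ℍ → ℂ) z * (AnBridge.DN N : ℍ → ℂ) z ^ m₁ := rfl
  have e2 : ((F₁ * AnBridge.DN N ^ m₂ * Δn ^ k : Fermat.Agent.S23.niceSub) : ℍ → ℂ) z
      = (F₁ : ℍ → ℂ) z * (AnBridge.DN N : ℍ → ℂ) z ^ m₂ * ModularForm.discriminant z ^ k := rfl
  beta_reduce at key3
  rw [e1, e2, ← hF₁ z, ← hF₂ z, AnBridge.aeval_jAtFam_map, AnBridge.aeval_jAtFam_map] at key3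
  have hD : (AnBridge.DN N : ℍ → ℂ) z ≠ 0 := AnBridge.DN_apply_ne_zero N z
  have hΔ : ModularForm.discriminant z ≠ 0 := ModularForm.discriminant_ne_zero z
  have hΔk : ModularForm.discriminant z ^ k ≠ 0 := pow_ne_zero k hΔ
  rw [div_mul_eq_mul_div, div_eq_iff hΔk]
  have hD12 : (AnBridge.DN N : ℍ → ℂ) z ^ m₁ * (AnBridge.DN N : ℍ → ℂ) z ^ m₂ ≠ 0 :=
    mul_ne_zero (pow_ne_zero _ hD) (pow_ne_zero _ hD)
  apply mul_left_cancel₀ hD12
  linear_combination key3

end BridgeRealizes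

section WeightTwelve

open UpperHalfPlane ModularCurve ModularForm Fermat.Agent.LevelOne
open scoped MatrixGroups Manifold ModularForm

/-- the weight-`0` quotient `F / Δ` of a function `F` and the weight-`12` slash action -/
theorem quot_smul (F : ℍ → ℂ) (g : SL(2, ℤ)) (z : ℍ) :
    F (g • z) / ModularForm.discriminant (g • z)
      = (F ∣[(12 : ℤ)] g) z / ModularForm.discriminant z := by
  have hd : denom g z ≠ 0 := denom_ne_zero g z
  have hΔ : ModularForm.discriminant z ≠ 0 := ModularForm.discriminant_ne_zero z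
  rw [SL_slash_apply, discriminant_apply_smul, zpow_neg]
  have e2 : denom g z ^ (12 : ℤ) = denom g z ^ (12 : ℕ) := by norm_cast
  rw [e2]
  field_simp

theorem mdiff_quot {F : ℍ → ℂ} (hF : MDiff F) :
    MDiff (fun z : ℍ => F z / ModularForm.discriminant z) := by
  have hΔ : MDiff (ModularForm.discriminant) := ModularFormClass.holo CuspForm.discriminant
  rw [UpperHalfPlane.mdifferentiable_iff] at hF hΔ ⊢
  have h : DifferentiableOn ℂ
      (fun w : ℂ => (F ∘ ofComplex) w / (ModularForm.discriminant ∘ ofComplex) w)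
      {w | 0 < w.im} :=
    hF.div hΔ (fun w _ => ModularForm.discriminant_ne_zero _)
  exact h

variable {N : ℕ} [NeZero N]

/-- **(R5), weight-`12` form.**  `F` holomorphic of weight `12` with a multiplier `χ` on `Γ₀(N)`
that is trivial on elliptic and parabolic elements, bounded at all cusps; if `(F / Δ) ^ p` is an
analytic realisation of `x ∈ F_N`, then `p ∣ ord_v x` at every place. -/
theorem dvd_ord_of_weight_twelve (N : ℕ) [NeZero N] (p : ℕ) (x : FN N) (F : ℍ → ℂ)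
    (hF : MDiff F) (χ : SL(2, ℤ) → ℂ)
    (hslash : ∀ γ ∈ CongruenceSubgroup.Gamma0 N, F ∣[(12 : ℤ)] γ = χ γ • F)
    (hχell : ∀ γ ∈ CongruenceSubgroup.Gamma0 N, (∃ z₀ : ℍ, γ • z₀ = z₀) → χ γ = 1)
    (hχpar : ∀ γ ∈ CongruenceSubgroup.Gamma0 N, ∀ (g : SL(2, ℤ)) (n : ℤ),
      γ = g⁻¹ * ModularGroup.T ^ n * g → χ γ = 1)
    (hbdd : ∀ g : SL(2, ℤ), IsBoundedAtImInfty (F ∣[(12 : ℤ)] g))
    (hx : Realizes N x (fun z => (F z / ModularForm.discriminant z) ^ p)) :
    ∀ v : Place Kb (FN N), (p : ℤ) ∣ v.ord x := by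
  have hinv : ∀ γ ∈ CongruenceSubgroup.Gamma0 N, χ γ = 1 → ∀ z : ℍ,
      F (γ • z) / ModularForm.discriminant (γ • z) = F z / ModularForm.discriminant z := by
    intro γ hγ h1 z
    rw [quot_smul, hslash γ hγ, h1, one_smul]
  refine dvd_ord_of_realizes_pow N p x (fun z => F z / ModularForm.discriminant z)
    (mdiff_quot hF) ?_ ?_ ?_ hx
  · intro γ hγ hfix z
    exact hinv γ hγ (hχell γ hγ hfix) z
  · intro γ hγ g n hg z
    exact hinv γ hγ (hχpar γ hγ g n hg) z
  · intro g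
    refine ⟨1, ?_⟩
    have h1 : (fun z : ℍ => ModularForm.discriminant z ^ 1 *
        (F (g • z) / ModularForm.discriminant (g • z))) = F ∣[(12 : ℤ)] g := by
      funext z
      rw [quot_smul, pow_one, mul_div_cancel₀ _ (ModularForm.discriminant_ne_zero z)]
    rw [h1]
    exact hbdd g

/-- `F` as in `dvd_ord_of_weight_twelve` is a nice function (`1`-periodic, holomorphic, bounded
at `i∞`). -/
theorem mem_niceSub_of_weight_twelve (N : ℕ) (F : ℍ → ℂ) (hF : MDiff F) (χ : SL(2, ℤ) → ℂ)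
    (hslash : ∀ γ ∈ CongruenceSubgroup.Gamma0 N, F ∣[(12 : ℤ)] γ = χ γ • F)
    (hχT : χ ModularGroup.T = 1)
    (hbdd : IsBoundedAtImInfty F) : F ∈ Fermat.Agent.S23.niceSub := by
  refine ⟨?_, hF, hbdd⟩
  have hT : ModularGroup.T ∈ CongruenceSubgroup.Gamma0 N := by
    rw [CongruenceSubgroup.Gamma0_mem]
    simp [ModularGroup.T]
  have hper : ∀ z : ℍ, F (((1 : ℕ) : ℝ) +ᵥ z) = F z := by
    intro z
    have h1 := congrFun (hslash _ hT) z
    rw [SL_slash_apply, hχT, one_smul] at h1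
    have h2 : ModularGroup.T • z = ((1 : ℕ) : ℝ) +ᵥ z := by
      have h3 := UpperHalfPlane.modular_T_zpow_smul z 1
      rw [zpow_one] at h3
      rw [h3]
      simp
    have h4 : denom ModularGroup.T z = 1 := by
      rw [ModularGroup.denom_apply]
      simp [ModularGroup.T]
    rw [h2, h4, one_zpow, mul_one] at h1
    exact h1
  have h5 := periodic_comp_ofComplex_of_vadd hper
  simpa using h5

/-- **(R5), `q`-expansion form** (the shape produced by the descent): if the image of `x ∈ F_N`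
in `ℂ((q))` is `(qexp F / qexp Δ) ^ p`, then `p ∣ ord_v x` at every place `v` of `F_N`. -/
theorem dvd_ord_of_weight_twelve_qExpansion (N : ℕ) [NeZero N] (p : ℕ) (x : FN N) (F : ℍ → ℂ)
    (hF : MDiff F) (χ : SL(2, ℤ) → ℂ)
    (hslash : ∀ γ ∈ CongruenceSubgroup.Gamma0 N, F ∣[(12 : ℤ)] γ = χ γ • F)
    (hχell : ∀ γ ∈ CongruenceSubgroup.Gamma0 N, (∃ z₀ : ℍ, γ • z₀ = z₀) → χ γ = 1)
    (hχpar : ∀ γ ∈ CongruenceSubgroup.Gamma0 N, ∀ (g : SL(2, ℤ)) (n : ℤ),
      γ = g⁻¹ * ModularGroup.T ^ n * g → χ γ = 1)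
    (hbdd : ∀ g : SL(2, ℤ), IsBoundedAtImInfty (F ∣[(12 : ℤ)] g))
    (hx : coeffMap embC (x : LaurentSeries Kb) *
        (HahnSeries.ofPowerSeries ℤ ℂ (qExpansion 1 (ModularForm.discriminant : ℍ → ℂ))) ^ p
      = (HahnSeries.ofPowerSeries ℤ ℂ (qExpansion 1 F)) ^ p) :
    ∀ v : Place Kb (FN N), (p : ℤ) ∣ v.ord x := by
  have hT : ModularGroup.T ∈ CongruenceSubgroup.Gamma0 N := by
    rw [CongruenceSubgroup.Gamma0_mem]
    simp [ModularGroup.T]
  have hχT : χ ModularGroup.T = 1 :=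
    hχpar _ hT 1 1 (by simp)
  have hb1 : IsBoundedAtImInfty F := by
    have h := hbdd 1
    rwa [SlashAction.slash_one] at h
  have hnice : F ∈ Fermat.Agent.S23.niceSub :=
    mem_niceSub_of_weight_twelve N F hF χ hslash hχT hb1
  have hpow : (F ^ p) ∈ Fermat.Agent.S23.niceSub := pow_mem hnice p
  have hq : qExpansion 1 (F ^ p) = qExpansion 1 F ^ p := by
    have h := map_pow Fermat.Agent.S23.qHom (⟨F, hnice⟩ : Fermat.Agent.S23.niceSub) p
    exact h
  have hx' : coeffMap embC (x : LaurentSeries Kb) *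
        (HahnSeries.ofPowerSeries ℤ ℂ (qExpansion 1 (ModularForm.discriminant : ℍ → ℂ))) ^ p
      = HahnSeries.ofPowerSeries ℤ ℂ (qExpansion 1 (F ^ p)) := by
    rw [hq, map_pow]
    exact hx
  have hR := realizes_of_qExpansion N x (F ^ p) hpow p hx'
  have hR' : Realizes N x (fun z => (F z / ModularForm.discriminant z) ^ p) := by
    have e : (fun z : ℍ => (F ^ p) z / ModularForm.discriminant z ^ p)
        = fun z => (F z / ModularForm.discriminant z) ^ p := by
      funext z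
      rw [Pi.pow_apply, div_pow]
    rwa [e] at hR
  exact dvd_ord_of_weight_twelve N p x F hF χ hslash hχell hχpar hbdd hR'

end WeightTwelve

end Fermat.Agent.S29.OrdDvd
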