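import Mathlib
import Fermat.Agent.S16.SL2FinOrder
import Fermat.Agent.S29.KPlanDefs
import Fermat.Agent.S29.OrdDvd

/-!
# S29 [K] leaf (WQ) = [K-Q], copy B: `KPlan.WQStatement N p`

For a witness `y ∈ ℚ̄((q))` of existence type (`y · Δ = q`-expansion of a weight-`12` form `F` on
`Γ₀(N)` with multiplier `χ_u`, `u ∈ Lpar N`), the function `f = y ^ p ∈ F̄_N` has all its orders
divisible by `p`.  No hypothesis on `p` is needed.

This is an adapter on `OrdDvd.dvd_ord_of_weight_twelve_qExpansion`; the two character inputs are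
* parabolic elements: `trace (g⁻¹ T ^ n g) = 2` and `KPlan.chiU_eq_one_of_trace`;
* elliptic elements: an element of `SL(2, ℤ)` fixing a point of the upper half plane satisfies
  `γ ^ 12 = 1` (`pow_twelve_eq_one_of_smul_eq`, proved here) and
  `KPlan.chiU_eq_one_of_pow_eq_one`.
-/

set_option autoImplicit false

namespace Fermat.Agent.S29.WQB

open UpperHalfPlane ModularForm CongruenceSubgroup ModularCurve AlgebraicCurve
open scoped MatrixGroups ModularForm Manifold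

/-! ### Elements of `SL(2, ℤ)` with a fixed point -/

/-- The fixed point equation `a z + b = z (c z + d)`. -/
theorem fix_eq (ε : SL(2, ℤ)) (z₀ : ℍ) (h : ε • z₀ = z₀) :
    ((ε 0 0 : ℤ) : ℂ) * (z₀ : ℂ) + ((ε 0 1 : ℤ) : ℂ)
      = (z₀ : ℂ) * (((ε 1 0 : ℤ) : ℂ) * (z₀ : ℂ) + ((ε 1 1 : ℤ) : ℂ)) := by
  have h1 := UpperHalfPlane.coe_specialLinearGroup_apply ε z₀
  rw [h] at h1
  have hden : ((algebraMap ℤ ℝ (ε 1 0) : ℝ) : ℂ) * (z₀ : ℂ) +
      ((algebraMap ℤ ℝ (ε 1 1) : ℝ) : ℂ) ≠ 0 := by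
    intro h0
    rw [h0, div_zero] at h1
    have := z₀.im_pos
    rw [← UpperHalfPlane.coe_im, h1] at this
    simp at this
  rw [eq_div_iff hden] at h1
  simp only [algebraMap_int_eq, Int.coe_castRingHom, Complex.ofReal_intCast] at h1
  rw [← h1]

theorem real_key (a b c d x y : ℝ) (ha : a = 2 * c * x + d) (hb : b = -c * x ^ 2 - c * y ^ 2)
    (hdet : a * d - b * c = 1) : (a + d) ^ 2 = 4 - 4 * c ^ 2 * y ^ 2 := by
  subst ha hb
  linear_combination 4 * hdet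

/-- The entries of an element fixing `z₀ = x + i y`: `a = 2 c x + d`, `b = - c (x² + y²)`. -/
theorem entries_of_fix (ε : SL(2, ℤ)) (z₀ : ℍ) (h : ε • z₀ = z₀) :
    ((ε 0 0 : ℤ) : ℝ) = 2 * ((ε 1 0 : ℤ) : ℝ) * z₀.re + ((ε 1 1 : ℤ) : ℝ) ∧
    ((ε 0 1 : ℤ) : ℝ) = -((ε 1 0 : ℤ) : ℝ) * z₀.re ^ 2 - ((ε 1 0 : ℤ) : ℝ) * z₀.im ^ 2 := by
  have h1 := fix_eq ε z₀ h
  have hre := congrArg Complex.re h1
  have him := congrArg Complex.im h1
  simp only [Complex.add_re, Complex.mul_re, Complex.intCast_re, Complex.intCast_im,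
    Complex.add_im, Complex.mul_im, UpperHalfPlane.coe_re, UpperHalfPlane.coe_im, zero_mul,
    sub_zero, add_zero] at hre him
  have hy : z₀.im ≠ 0 := z₀.im_pos.ne'
  have ha : ((ε 0 0 : ℤ) : ℝ) = 2 * ((ε 1 0 : ℤ) : ℝ) * z₀.re + ((ε 1 1 : ℤ) : ℝ) := by
    apply mul_right_cancel₀ hy
    linear_combination him
  refine ⟨ha, ?_⟩
  rw [ha] at hre
  linear_combination hre

/-- An element of `SL(2, ℤ)` fixing a point of the upper half plane has order dividing `12`. -/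
theorem pow_twelve_eq_one_of_smul_eq (γ : SL(2, ℤ)) (z₀ : ℍ) (h : γ • z₀ = z₀) : γ ^ 12 = 1 := by
  obtain ⟨ha, hb⟩ := entries_of_fix γ z₀ h
  have hdetZ : (γ : Matrix (Fin 2) (Fin 2) ℤ).det = 1 := γ.2
  have hdet' := hdetZ
  rw [Matrix.det_fin_two] at hdet'
  have hdetR : ((γ 0 0 : ℤ) : ℝ) * ((γ 1 1 : ℤ) : ℝ) - ((γ 0 1 : ℤ) : ℝ) * ((γ 1 0 : ℤ) : ℝ) = 1 := by
    exact_mod_cast hdet'
  have hkey := real_key _ _ _ _ _ _ ha hb hdetR
  have hsq := Fermat.Agent.S16.SL2FinOrder.mul_self_eq (γ : Matrix (Fin 2) (Fin 2) ℤ) hdetZ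
  rw [Matrix.trace_fin_two] at hsq
  apply Subtype.ext
  rw [Matrix.SpecialLinearGroup.coe_pow, Matrix.SpecialLinearGroup.coe_one]
  obtain ⟨M, hM⟩ : ∃ M : Matrix (Fin 2) (Fin 2) ℤ, M = (γ : Matrix (Fin 2) (Fin 2) ℤ) := ⟨_, rfl⟩
  have e00 : M 0 0 = γ 0 0 := by rw [hM]
  have e01 : M 0 1 = γ 0 1 := by rw [hM]
  have e10 : M 1 0 = γ 1 0 := by rw [hM]
  have e11 : M 1 1 = γ 1 1 := by rw [hM]
  rw [← hM] at hsq ⊢
  rw [← e00, ← e01, ← e10, ← e11] at hdet'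
  rw [← e00, ← e10, ← e11] at ha
  rw [← e01, ← e10] at hb
  rw [← e00, ← e10, ← e11] at hkey
  by_cases hc : M 1 0 = 0
  · -- `c = 0`: `γ = ± 1`
    rw [hc] at ha hb hdet'
    have had : M 0 0 = M 1 1 := by
      have : ((M 0 0 : ℤ) : ℝ) = ((M 1 1 : ℤ) : ℝ) := by
        rw [ha]; simp
      exact_mod_cast this
    have hb0 : M 0 1 = 0 := by
      have : ((M 0 1 : ℤ) : ℝ) = 0 := by
        rw [hb]; simp
      exact_mod_cast this
    rw [hb0, ← had] at hdet'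
    have h2 : M ^ 2 = 1 := by
      rw [pow_two]
      ext i j
      fin_cases i <;> fin_cases j <;>
        simp [Matrix.mul_apply, Fin.sum_univ_two, hc, hb0, ← had] <;> linarith
    have : (12 : ℕ) = 2 * 6 := rfl
    rw [this, pow_mul, h2, one_pow]
  · have hc1 : (1 : ℝ) ≤ ((M 1 0 : ℤ) : ℝ) ^ 2 := by
      have : (1 : ℤ) ≤ (M 1 0) ^ 2 := by
        have := sq_nonneg (M 1 0)
        have h0 : (M 1 0) ^ 2 ≠ 0 := pow_ne_zero 2 hc
        omega
      exact_mod_cast this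
    have hy2 : 0 < z₀.im ^ 2 := by positivity
    have hlt : (((M 0 0 + M 1 1 : ℤ) : ℝ)) ^ 2 < 4 := by
      push_cast
      rw [hkey]
      nlinarith
    have hltZ : (M 0 0 + M 1 1) ^ 2 < 4 := by exact_mod_cast hlt
    have hl : -2 < M 0 0 + M 1 1 := by nlinarith
    have hu : M 0 0 + M 1 1 < 2 := by nlinarith
    have hcases : M 0 0 + M 1 1 = -1 ∨ M 0 0 + M 1 1 = 0 ∨ M 0 0 + M 1 1 = 1 := by omega
    rcases hcases with ht | ht | ht
    · rw [ht] at hsq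
      have h3 : M ^ 3 = 1 := by
        have e : M ^ 3 = M * M * M := by rw [pow_succ, pow_two]
        rw [e, hsq, sub_mul, Matrix.smul_mul, hsq, one_mul]
        module
      have : (12 : ℕ) = 3 * 4 := rfl
      rw [this, pow_mul, h3, one_pow]
    · rw [ht] at hsq
      have h2 : M ^ 2 = -1 := by
        rw [pow_two, hsq]; simp
      have : (12 : ℕ) = 2 * 6 := rfl
      rw [this, pow_mul, h2]
      have : (6 : ℕ) = 2 * 3 := rfl
      rw [this, pow_mul, neg_sq, one_pow, one_pow]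
    · rw [ht] at hsq
      have h3 : M ^ 3 = -1 := by
        have e : M ^ 3 = M * M * M := by rw [pow_succ, pow_two]
        rw [e, hsq, sub_mul, Matrix.smul_mul, hsq, one_mul]
        module
      have : (12 : ℕ) = 3 * 4 := rfl
      rw [this, pow_mul, h3]
      have : (4 : ℕ) = 2 * 2 := rfl
      rw [this, pow_mul, neg_sq, one_pow, one_pow]

/-- Conjugates of powers of `T` have trace `2`. -/
theorem trace_conj_T_zpow (g : SL(2, ℤ)) (n : ℤ) :
    ((g⁻¹ * ModularGroup.T ^ n * g : SL(2, ℤ)) : Matrix (Fin 2) (Fin 2) ℤ).trace = 2 := by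
  rw [Matrix.SpecialLinearGroup.coe_mul, Matrix.trace_mul_comm, ← Matrix.SpecialLinearGroup.coe_mul,
    mul_inv_cancel_left, ModularGroup.coe_T_zpow, Matrix.trace_fin_two]
  simp

/-! ### The leaf -/

/-- **(WQ)** = [K-Q]: `p ∣ ord_P (y ^ p)` at every place, for witnesses of existence type. -/
theorem wqStatement (N p : ℕ) [NeZero N] : KPlan.WQStatement N p := by
  classical
  intro u y _ hV f hf P
  obtain ⟨F, hFmem, hxF⟩ := hV
  obtain ⟨hF1, hF2, hF3⟩ := K.mem_MFchi.mp hFmem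
  refine Fermat.Agent.S29.OrdDvd.dvd_ord_of_weight_twelve_qExpansion N p f F hF1
    (fun γ => if h : γ ∈ Gamma0 N then
      ((KPlan.chiU p (u : Additive (Gamma0 N) →+ ℤ) ⟨γ, h⟩ : ℂˣ) : ℂ) else 1) ?_ ?_ ?_ hF3 ?_ P
  · intro γ hγ
    rw [dif_pos hγ]
    exact hF2 ⟨γ, hγ⟩
  · rintro γ hγ ⟨z₀, hz⟩
    rw [dif_pos hγ]
    have h12 := pow_twelve_eq_one_of_smul_eq γ z₀ hz
    have h12' : (⟨γ, hγ⟩ : ↥(Gamma0 N)) ^ 12 = 1 := Subtype.ext h12
    rw [KPlan.chiU_eq_one_of_pow_eq_one p _ ⟨γ, hγ⟩ (by norm_num) h12']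
    rfl
  · intro γ hγ g n hg
    rw [dif_pos hγ]
    have htr : (((⟨γ, hγ⟩ : ↥(Gamma0 N)) : SL(2, ℤ)) : Matrix (Fin 2) (Fin 2) ℤ).trace ^ 2 = 4 := by
      show ((γ : SL(2, ℤ)) : Matrix (Fin 2) (Fin 2) ℤ).trace ^ 2 = 4
      rw [hg, trace_conj_T_zpow]
      norm_num
    rw [KPlan.chiU_eq_one_of_trace p u ⟨γ, hγ⟩ htr]
    rfl
  · have h1 : coeffMap Fermat.Agent.S24.embC ((f : LaurentSeries Qb))
        = (coeffMap Fermat.Agent.S24.embC y) ^ p := by
      rw [hf, map_pow]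
    rw [h1, ← mul_pow]
    exact congrArg (· ^ p) hxF

end Fermat.Agent.S29.WQB
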