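/-
S29 block [K] — KTopInv.lean (owner: helper98, [K] sub-captain).

Block [K] reduced to its SINGLE open leaf: `KStatement N p` (any torsion order `p ≠ 0`) from

* [KPInv] `WE.KPInvStatement N p p` — invariance under `Aut(ℂ)` of "all zero orders on `ℍ`
  are divisible by `p`" for forms of weight `12 p` on `Γ₀(N)`.

Discharged here from main: (WQ) `WQB.wqStatement`, (K1) `K2Div.mchi_one_eq_FC`,
[K1IntConv] `K.exists_form_of_isIntegral`, the (WE) chain `WE.weStatement_of_leaves`, and the top
`KTopOf.kStatement_of_we_wq`.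
-/
import Mathlib
import Fermat.Agent.S29.KTopOf
import Fermat.Agent.S29.WECore
import Fermat.Agent.S29.WQB
import Fermat.Agent.S29.K1IntConvFC

set_option autoImplicit false

namespace Fermat.Agent.S29.KTopInv

open Fermat.Agent.S29.K

/-- **(WE) from [KPInv]** (exponent `m = p`). -/
theorem weStatement_of_kpInv (N p : ℕ) [NeZero N] (hp : p ≠ 0)
    (hInv : WE.KPInvStatement N p p) : KPlan.WEStatement N p :=
  WE.weStatement_of_leaves N p hp (K2Div.mchi_one_eq_FC N).subset
    (fun m _ hx h1 h2 => exists_form_of_isIntegral m hx h1 h2) hInv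

/-- **Block [K] from its single open leaf [KPInv]** (arbitrary torsion order `p ≠ 0`). -/
theorem kStatement_of_kpInv (N p : ℕ) [NeZero N] (hp : p ≠ 0)
    (hInv : WE.KPInvStatement N p p) : KStatement N p :=
  KTopOf.kStatement_of_we_wq N p hp (weStatement_of_kpInv N p hp hInv) (WQB.wqStatement N p)

end Fermat.Agent.S29.KTopInv
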