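/-
S29 block [K] — KTop.lean (owner: helper98, [K] sub-captain).  **BLOCK [K] DELIVERABLE.**

`kStatement : KStatement N p` for every level `N ≠ 0` and EVERY torsion order `p ≠ 0`
(no primality): an additive `θ : Lpar N → J₀(N)` with `p • θ = 0`, kernel `p • Lpar N`, and
`θ ∘ T_ℓ = T_ℓ ∘ θ` for all primes `ℓ ∤ N`, `ℓ ≠ p`  (`S29/Defs.lean`, Prop `KStatement`).

Chain (all on main): `KTopInv.kStatement_of_kpInv` (top assembly `KPlan`/`KTheta`, (WH) `K6Hecke`,
(WQ) `WQB`, (K1)/(K2) leaves, (WE) chain `WECore` = `KDesc` ∘ `KSigma` ∘ `K3StabCore`) applied to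
the deep leaf [KPInv] `KPInvNP.kpInv` (Newton-polygon route).
-/
import Mathlib
import Fermat.Agent.S29.KTopInv
import Fermat.Agent.S29.KPInvNP

set_option autoImplicit false

namespace Fermat.Agent.S29

/-- **Block [K]**: the analytic comparison `θ : Lpar N / p ↪ J₀(N)[p]`, Hecke-equivariant away
from `N p`, for every level `N ≠ 0` and every torsion order `p ≠ 0`. -/
theorem kStatement (N p : ℕ) [NeZero N] (hp : p ≠ 0) : KStatement N p :=
  KTopInv.kStatement_of_kpInv N p hp
    (fun σ G G' hG hG' hG0 hq hord => KPInvNP.kpInv N p σ p G G' hG hG' hG0 hq hord)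

end Fermat.Agent.S29
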