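/-
S29 (route note #1728/#1729, block (K5)) — AutC.lean (helper99).  Mathlib-only (+ the Prelude
coefficient map): the two field-theoretic lemmas of the descent from `ℂ` to `ℚ̄`.

* `exists_algEquiv_apply_eq_add` : `E` algebraically closed, `c ∈ E` transcendental over `F`
  ⟹ for every `a ∈ F` some `σ ∈ Aut(E/F)` has `σ c = c + a`
  (transcendence basis through `c`, shift of one variable, extension to the algebraic closure).
* `isAlgebraic_of_fixed` : an element of `E` fixed by a finite-index subgroup of `Aut(E/F)`
  is algebraic over `F` (`char F = 0`).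
* `le_span_of_stable` (echelon lemma): a finite-dimensional subspace of `ι → E` stable under the
  coordinatewise action of `H ≤ Aut(E/F)` is spanned by vectors with `H`-fixed coordinates.
* `eq_span_algebraic`, `exists_ne_zero_algebraic` : for `H` of finite index the coordinates
  can be taken algebraic over `F`.
* `exists_coeffMap_mem`, `le_span_coeffMap` : the Laurent-series forms (`F` algebraically
  closed): a nonzero finite-dimensional `E`-subspace of `E((q))` stable under the coefficientwise
  action of a finite-index subgroup of `Aut(E/F)` contains a nonzero series with coefficients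
  in `F`, and is spanned by such series.
-/
import Mathlib
import Fermat.Prelude.Def_ModularCurve_LaurentCoeff

set_option autoImplicit false

namespace Fermat.Agent.S29.AutC

open MvPolynomial


section Shift

variable {ι : Type*} (F : Type*) [Field F]

open Classical in
/-- The substitution `X i₀ ↦ X i₀ + a`, `X i ↦ X i` (`i ≠ i₀`). -/
noncomputable def shiftHom (i₀ : ι) (a : F) : MvPolynomial ι F →ₐ[F] MvPolynomial ι F :=
  aeval fun i => if i = i₀ then X i + C a else X i

theorem shiftHom_X_self (i₀ : ι) (a : F) : shiftHom F i₀ a (X i₀) = X i₀ + C a := by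
  simp [shiftHom]

theorem shiftHom_X_of_ne (i₀ : ι) (a : F) {i : ι} (h : i ≠ i₀) : shiftHom F i₀ a (X i) = X i := by
  simp [shiftHom, h]

theorem shiftHom_comp (i₀ : ι) (a b : F) :
    (shiftHom F i₀ a).comp (shiftHom F i₀ b) = shiftHom F i₀ (a + b) := by
  classical
  apply MvPolynomial.algHom_ext
  intro i
  by_cases h : i = i₀
  · subst h
    rw [AlgHom.comp_apply, shiftHom_X_self, map_add, shiftHom_X_self, shiftHom_X_self,
      MvPolynomial.algHom_C, MvPolynomial.C_add, MvPolynomial.algebraMap_eq, add_assoc]
  · rw [AlgHom.comp_apply, shiftHom_X_of_ne F i₀ b h, shiftHom_X_of_ne F i₀ a h,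
      shiftHom_X_of_ne F i₀ (a + b) h]

theorem shiftHom_zero (i₀ : ι) : shiftHom F i₀ (0 : F) = AlgHom.id F _ := by
  classical
  apply MvPolynomial.algHom_ext
  intro i
  by_cases h : i = i₀
  · subst h
    rw [shiftHom_X_self, map_zero, add_zero, AlgHom.id_apply]
  · rw [shiftHom_X_of_ne F i₀ 0 h, AlgHom.id_apply]

/-- The shift automorphism. -/
noncomputable def shiftEquiv (i₀ : ι) (a : F) : MvPolynomial ι F ≃ₐ[F] MvPolynomial ι F :=
  AlgEquiv.ofAlgHom (shiftHom F i₀ a) (shiftHom F i₀ (-a))
    (by rw [shiftHom_comp, add_neg_cancel, shiftHom_zero])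
    (by rw [shiftHom_comp, neg_add_cancel, shiftHom_zero])

theorem shiftEquiv_X_self (i₀ : ι) (a : F) : shiftEquiv F i₀ a (X i₀) = X i₀ + C a :=
  shiftHom_X_self F i₀ a

end Shift

section Extend

variable {F E : Type*} [Field F] [Field E] [Algebra F E]

/-- An algebraically independent family can be shifted in one coordinate by an automorphism
of the field it generates. -/
theorem exists_ringEquiv_adjoin {ι : Type*} {x : ι → E} (hx : AlgebraicIndependent F x)
    (i₀ : ι) (a : F) :
    ∃ τ : ↥(IntermediateField.adjoin F (Set.range x)) ≃+*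
        ↥(IntermediateField.adjoin F (Set.range x)),
      (∀ r : F, τ (algebraMap F _ r) = algebraMap F _ r) ∧
      ∀ y : ↥(IntermediateField.adjoin F (Set.range x)), (y : E) = x i₀ →
        (τ y : E) = x i₀ + algebraMap F E a := by
  let φ : FractionRing (MvPolynomial ι F) ≃+* FractionRing (MvPolynomial ι F) :=
    IsFractionRing.ringEquivOfRingEquiv (shiftEquiv F i₀ a).toRingEquiv
  have hφ : ∀ p : MvPolynomial ι F, φ (algebraMap _ _ p) = algebraMap _ _ (shiftEquiv F i₀ a p) :=
    fun p => IsFractionRing.ringEquivOfRingEquiv_algebraMap _ p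
  let e := hx.aevalEquivField
  refine ⟨(e.symm.toRingEquiv.trans φ).trans e.toRingEquiv, ?_, ?_⟩
  · intro r
    show e (φ (e.symm (algebraMap F _ r))) = algebraMap F _ r
    rw [AlgEquiv.commutes]
    have h1 : (algebraMap F (FractionRing (MvPolynomial ι F)) r) =
        algebraMap (MvPolynomial ι F) _ (C r) :=
      IsScalarTower.algebraMap_apply F (MvPolynomial ι F) (FractionRing (MvPolynomial ι F)) r
    rw [h1, hφ, ← MvPolynomial.algebraMap_eq, AlgEquiv.commutes, MvPolynomial.algebraMap_eq,
      ← h1, AlgEquiv.commutes]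
  · intro y hy
    have hy' : y = e (algebraMap (MvPolynomial ι F) (FractionRing (MvPolynomial ι F)) (X i₀)) := by
      apply Subtype.ext
      rw [hy, AlgebraicIndependent.aevalEquivField_algebraMap_apply_coe, aeval_X]
    show ((e (φ (e.symm y)) : IntermediateField.adjoin F (Set.range x)) : E) = _
    rw [hy', AlgEquiv.symm_apply_apply, hφ, shiftEquiv_X_self,
      AlgebraicIndependent.aevalEquivField_algebraMap_apply_coe, map_add, aeval_X, aeval_C]

/-- **Shifting a transcendental.**  If `E` is algebraically closed and `c ∈ E` is transcendental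
over `F`, then for every `a ∈ F` some `F`-automorphism of `E` maps `c` to `c + a`. -/
theorem exists_algEquiv_apply_eq_add [IsAlgClosed E] {c : E} (hc : Transcendental F c) (a : F) :
    ∃ σ : E ≃ₐ[F] E, σ c = c + algebraMap F E a := by
  have hind : AlgebraicIndepOn F id ({c} : Set E) :=
    (algebraicIndependent_singleton_iff (R := F) (x := fun i : ({c} : Set E) => id (i : E))
      ⟨c, Set.mem_singleton c⟩).2 hc
  obtain ⟨t, hct, ht⟩ := exists_isTranscendenceBasis_superset hind
  have halg : Algebra.IsAlgebraic (IntermediateField.adjoin F (Set.range ((↑) : t → E))) E :=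
    ht.isAlgebraic_field
  have : IsAlgClosure (IntermediateField.adjoin F (Set.range ((↑) : t → E))) E :=
    ⟨inferInstance, halg⟩
  obtain ⟨τ, hτF, hτc⟩ := exists_ringEquiv_adjoin ht.1 ⟨c, hct (Set.mem_singleton c)⟩ a
  have hσ : ∀ y : ↥(IntermediateField.adjoin F (Set.range ((↑) : t → E))),
      IsAlgClosure.equivOfEquiv E E τ (algebraMap _ E y) = algebraMap _ E (τ y) :=
    IsAlgClosure.equivOfEquiv_algebraMap E E τ
  refine ⟨AlgEquiv.ofRingEquiv (f := IsAlgClosure.equivOfEquiv E E τ) ?_, ?_⟩
  · intro r
    have h1 : algebraMap F E r =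
        algebraMap (↥(IntermediateField.adjoin F (Set.range ((↑) : t → E)))) E
          (algebraMap F _ r) := rfl
    rw [h1, hσ, hτF]
  · have hcK : c ∈ IntermediateField.adjoin F (Set.range ((↑) : t → E)) :=
      IntermediateField.subset_adjoin F _ ⟨⟨c, hct (Set.mem_singleton c)⟩, rfl⟩
    have h2 := hσ ⟨c, hcK⟩
    have h3 := hτc ⟨c, hcK⟩ rfl
    show IsAlgClosure.equivOfEquiv E E τ c = c + algebraMap F E a
    have h4 : algebraMap (↥(IntermediateField.adjoin F (Set.range ((↑) : t → E)))) E ⟨c, hcK⟩ = c :=
      rfl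
    rw [h4] at h2
    rw [h2]
    exact h3

/-- **A fixed point of a finite-index subgroup of `Aut(E/F)` is algebraic** (`E` algebraically
closed, `F` of characteristic zero). -/
theorem isAlgebraic_of_fixed [IsAlgClosed E] [CharZero F] (H : Subgroup (E ≃ₐ[F] E))
    [H.FiniteIndex] {c : E} (hc : ∀ σ ∈ H, σ c = c) : IsAlgebraic F c := by
  by_contra hcon
  have htr : Transcendental F c := hcon
  choose σ hσ using fun n : ℕ => exists_algEquiv_apply_eq_add htr (n : F)
  have : Finite ((E ≃ₐ[F] E) ⧸ H) := Subgroup.finite_quotient_of_finiteIndex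
  obtain ⟨m, n, hmn, h⟩ := Finite.exists_ne_map_eq_of_infinite
    (fun n : ℕ => (QuotientGroup.mk (σ n) : (E ≃ₐ[F] E) ⧸ H))
  have hmem : (σ m)⁻¹ * σ n ∈ H := QuotientGroup.eq.1 h
  have h1 := hc _ hmem
  have h2 : σ n c = σ m c := by
    have : (σ m) (((σ m)⁻¹ * σ n) c) = σ m c := by rw [h1]
    rwa [AlgEquiv.mul_apply, ← AlgEquiv.mul_apply, mul_inv_cancel, AlgEquiv.one_apply] at this
  rw [hσ, hσ] at h2
  have h3 : algebraMap F E (n : F) = algebraMap F E (m : F) := add_left_cancel h2
  have h4 : (n : F) = (m : F) := (algebraMap F E).injective h3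
  exact hmn (Nat.cast_injective h4).symm

end Extend


section Echelon

variable {F E : Type*} [Field F] [Field E] [Algebra F E]

/-- **Echelon lemma, basis form.**  A finite-dimensional subspace `W` of `ι → E` which is stable
under the coordinatewise action of a subgroup `H` of `Aut(E/F)`, and such that every `H`-fixed
element of `E` satisfies `P`, is spanned by its vectors all of whose coordinates satisfy `P`. -/
theorem le_span_of_stable {ι : Type*} (W : Submodule E (ι → E)) [FiniteDimensional E W]
    (H : Subgroup (E ≃ₐ[F] E)) (hW : ∀ σ ∈ H, ∀ w ∈ W, (fun i => σ (w i)) ∈ W)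
    (P : E → Prop) (hP : ∀ c : E, (∀ σ ∈ H, σ c = c) → P c) :
    W ≤ Submodule.span E {w | w ∈ W ∧ ∀ i, P (w i)} := by
  classical
  -- the coordinate functionals on `W`
  let φ : ι → Module.Dual E W := fun i => (LinearMap.proj i).comp W.subtype
  obtain ⟨b, hbt, hbspan, hbli⟩ := exists_linearIndependent E (Set.range φ)
  have : Finite b := hbli.finite
  let _ : Fintype b := Fintype.ofFinite b
  choose idx hidx using fun β : b => hbt β.2
  -- restriction to the chosen coordinates
  let R : W →ₗ[E] (b → E) := LinearMap.pi fun β => (β : Module.Dual E W)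
  have hR : ∀ (w : W) (β : b), R w β = (w : ι → E) (idx β) := by
    intro w β
    show (β : Module.Dual E W) w = _
    rw [← hidx β]
    rfl
  have hRinj : Function.Injective R := by
    rw [← LinearMap.ker_eq_bot, LinearMap.ker_eq_bot']
    intro w hw
    have h1 : ∀ ψ ∈ Submodule.span E b, ψ w = 0 := by
      intro ψ hψ
      induction hψ using Submodule.span_induction with
      | mem ψ hψ =>
        have := congrFun hw ⟨ψ, hψ⟩
        exact this
      | zero => rfl
      | add ψ ψ' _ _ h h' => rw [LinearMap.add_apply, h, h', add_zero]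
      | smul c ψ _ h => rw [LinearMap.smul_apply, h, smul_zero]
    apply Subtype.ext
    funext i
    have h2 : φ i ∈ Submodule.span E b := by
      rw [hbspan]
      exact Submodule.subset_span ⟨i, rfl⟩
    exact h1 _ h2
  have hcard : Module.finrank E W = Module.finrank E (b → E) := by
    apply le_antisymm
    · exact LinearMap.finrank_le_finrank_of_injective hRinj
    · rw [Module.finrank_pi, ← Subspace.dual_finrank_eq (K := E) (V := W)]
      exact hbli.fintype_card_le_finrank
  have hRsurj : Function.Surjective R :=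
    (LinearMap.injective_iff_surjective_of_finrank_eq_finrank hcard).1 hRinj
  choose w hw using fun β : b => hRsurj (Pi.single β 1)
  -- the `w β` are fixed by `H`
  have hfix : ∀ σ ∈ H, ∀ (β : b) (i : ι), σ ((w β : ι → E) i) = (w β : ι → E) i := by
    intro σ hσ β i
    have hmem := hW σ hσ (w β) (w β).2
    have heq : (⟨fun i => σ ((w β : ι → E) i), hmem⟩ : W) = w β := by
      apply hRinj
      funext β'
      rw [hR, hR]
      show σ ((w β : ι → E) (idx β')) = _
      rw [← hR, hw β]
      by_cases h : β' = β
      · subst h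
        rw [Pi.single_eq_same, map_one]
      · rw [Pi.single_eq_of_ne h, map_zero]
    exact congrFun (congrArg Subtype.val heq) i
  -- every element of `W` is a combination of the `w β`
  intro v hv
  have hv' : (⟨v, hv⟩ : W) = ∑ β : b, R ⟨v, hv⟩ β • w β := by
    apply hRinj
    funext β'
    rw [map_sum, Finset.sum_apply]
    simp only [map_smul, Pi.smul_apply, hw, smul_eq_mul]
    rw [Finset.sum_eq_single β']
    · rw [Pi.single_eq_same, mul_one]
    · intro β _ hβ
      rw [Pi.single_eq_of_ne (Ne.symm hβ), mul_zero]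
    · intro h
      exact absurd (Finset.mem_univ _) h
  have hv'' : v = ∑ β : b, R ⟨v, hv⟩ β • (w β : ι → E) := by
    have := congrArg Subtype.val hv'
    simpa using this
  rw [hv'']
  refine Submodule.sum_mem _ fun β _ => Submodule.smul_mem _ _ (Submodule.subset_span ?_)
  exact ⟨(w β).2, fun i => hP _ fun σ hσ => hfix σ hσ β i⟩

end Echelon


section Corollaries

variable {F E : Type*} [Field F] [Field E] [Algebra F E]

/-- The stabiliser of a point with finite orbit has finite index. -/
theorem finiteIndex_stabilizer_of_finite_orbit {G X : Type*} [Group G] [MulAction G X] (x : X)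
    (h : (MulAction.orbit G x).Finite) : (MulAction.stabilizer G x).FiniteIndex := by
  constructor
  rw [MulAction.index_stabilizer]
  intro h0
  rcases (Set.ncard_eq_zero h).1 h0 |>.symm ▸ (MulAction.mem_orbit_self x) with h'
  exact h'

/-- **Echelon lemma, algebraic form.** -/
theorem eq_span_algebraic [IsAlgClosed E] [CharZero F] {ι : Type*} (W : Submodule E (ι → E))
    [FiniteDimensional E W] (H : Subgroup (E ≃ₐ[F] E)) [H.FiniteIndex]
    (hW : ∀ σ ∈ H, ∀ w ∈ W, (fun i => σ (w i)) ∈ W) :
    W = Submodule.span E {w | w ∈ W ∧ ∀ i, IsAlgebraic F (w i)} := by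
  apply le_antisymm
  · exact le_span_of_stable W H hW _ fun c hc => isAlgebraic_of_fixed H hc
  · rw [Submodule.span_le]
    exact fun w hw => hw.1

/-- A nonzero stable finite-dimensional subspace contains a nonzero vector with algebraic
coordinates. -/
theorem exists_ne_zero_algebraic [IsAlgClosed E] [CharZero F] {ι : Type*}
    (W : Submodule E (ι → E)) [FiniteDimensional E W] (H : Subgroup (E ≃ₐ[F] E)) [H.FiniteIndex]
    (hW : ∀ σ ∈ H, ∀ w ∈ W, (fun i => σ (w i)) ∈ W) (hne : W ≠ ⊥) :
    ∃ w ∈ W, w ≠ 0 ∧ ∀ i, IsAlgebraic F (w i) := by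
  by_contra hcon
  push Not at hcon
  apply hne
  rw [eq_span_algebraic W H hW, Submodule.span_eq_bot]
  intro w hw
  by_contra hw0
  obtain ⟨i, hi⟩ := hcon w hw.1 hw0
  exact hi (hw.2 i)

/-- Over an algebraically closed field, algebraic elements are constants. -/
theorem mem_range_of_isAlgebraic [IsAlgClosed F] {c : E} (hc : IsAlgebraic F c) :
    c ∈ (algebraMap F E).range := by
  have hint : IsIntegral F c := hc.isIntegral
  exact minpoly.mem_range_of_degree_eq_one F c
    (IsAlgClosed.degree_eq_one_of_irreducible F (minpoly.irreducible hint))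

end Corollaries

section Laurent

open ModularCurve

variable {F E : Type*} [Field F] [Field E] [Algebra F E]

/-- The coefficient functions of a Laurent series, as a linear map. -/
def coeffFun (E : Type*) [Field E] : LaurentSeries E →ₗ[E] (ℤ → E) where
  toFun x := x.coeff
  map_add' _ _ := rfl
  map_smul' _ _ := rfl

theorem coeffFun_injective (E : Type*) [Field E] : Function.Injective (coeffFun E) :=
  fun _ _ h => HahnSeries.ext h

/-- A Laurent series all of whose coefficients are constants of `F` comes from `F((q))`. -/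
theorem exists_coeffMap_eq {w : LaurentSeries E}
    (hw : ∀ n : ℤ, w.coeff n ∈ (algebraMap F E).range) :
    ∃ w₀ : LaurentSeries F, coeffMap (algebraMap F E) w₀ = w := by
  choose a ha using hw
  have hsupp : (Function.support a).IsPWO := by
    refine w.isPWO_support.mono fun n hn => ?_
    rw [Function.mem_support] at hn
    rw [HahnSeries.mem_support, ← ha n]
    exact fun h0 => hn ((algebraMap F E).injective (by rw [h0, map_zero]))
  refine ⟨⟨a, hsupp⟩, ?_⟩
  ext n
  rw [coeffMap_coeff]
  exact ha n

/-- **Echelon lemma, Laurent-series span form.** -/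
theorem le_span_coeffMap [IsAlgClosed E] [IsAlgClosed F] [CharZero F]
    (W : Submodule E (LaurentSeries E)) [FiniteDimensional E W]
    (H : Subgroup (E ≃ₐ[F] E)) [H.FiniteIndex]
    (hW : ∀ σ ∈ H, ∀ w ∈ W, coeffMap (σ : E →+* E) w ∈ W) :
    W ≤ Submodule.span E {w | w ∈ W ∧ ∃ w₀ : LaurentSeries F, coeffMap (algebraMap F E) w₀ = w} := by
  have hfd : FiniteDimensional E (W.map (coeffFun E)) :=
    Module.Finite.map W (coeffFun E)
  have hst : ∀ σ ∈ H, ∀ w ∈ W.map (coeffFun E), (fun i => σ (w i)) ∈ W.map (coeffFun E) := by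
    rintro σ hσ _ ⟨w, hw, rfl⟩
    exact ⟨coeffMap (σ : E →+* E) w, hW σ hσ w hw, rfl⟩
  have key := eq_span_algebraic (W.map (coeffFun E)) H hst
  intro v hv
  have hv' : coeffFun E v ∈ W.map (coeffFun E) := ⟨v, hv, rfl⟩
  rw [key] at hv'
  have hle : Submodule.span E {w | w ∈ W.map (coeffFun E) ∧ ∀ i, IsAlgebraic F (w i)} ≤
      (Submodule.span E {w | w ∈ W ∧
        ∃ w₀ : LaurentSeries F, coeffMap (algebraMap F E) w₀ = w}).map (coeffFun E) := by
    rw [Submodule.span_le]
    rintro _ ⟨⟨w, hw, rfl⟩, halg⟩
    refine ⟨w, Submodule.subset_span ⟨hw, ?_⟩, rfl⟩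
    exact exists_coeffMap_eq fun n => mem_range_of_isAlgebraic (halg n)
  obtain ⟨v', hv'mem, hv'eq⟩ := hle hv'
  rwa [coeffFun_injective E hv'eq] at hv'mem

/-- **Echelon lemma, Laurent-series existence form.**  A nonzero finite-dimensional `E`-subspace
of `E((q))` which is stable under the coefficientwise action of a finite-index subgroup of
`Aut(E/F)` (`E`, `F` algebraically closed of characteristic zero) contains a nonzero series with
coefficients in `F`. -/
theorem exists_coeffMap_mem [IsAlgClosed E] [IsAlgClosed F] [CharZero F]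
    (W : Submodule E (LaurentSeries E)) [FiniteDimensional E W]
    (H : Subgroup (E ≃ₐ[F] E)) [H.FiniteIndex]
    (hW : ∀ σ ∈ H, ∀ w ∈ W, coeffMap (σ : E →+* E) w ∈ W) (hne : W ≠ ⊥) :
    ∃ w₀ : LaurentSeries F, w₀ ≠ 0 ∧ coeffMap (algebraMap F E) w₀ ∈ W := by
  by_contra hcon
  push Not at hcon
  apply hne
  rw [eq_bot_iff]
  refine (le_span_coeffMap W H hW).trans ?_
  rw [Submodule.span_le]
  rintro _ ⟨hw, w₀, rfl⟩
  by_cases h0 : w₀ = 0
  · rw [h0, map_zero]
    exact Submodule.zero_mem _
  · exact absurd hw (hcon w₀ h0)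

end Laurent

end Fermat.Agent.S29.AutC
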