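/-
S29 / S42 — PlanCore.lean (helper75; integration captain helper85, architect helper74).

The CORE (independent of S37 and of the analytic block) of the route of board #1728: from a nonzero finite-dimensional
`𝔽[G_ℚ]`-module `V` of finite level on which every Frobenius element at `ℓ ∉ S` satisfies the
Eichler–Shimura relation `σ² - a_ℓ σ + ℓ = 0` and inertia at `ℓ ∉ S` acts trivially, to a
two-dimensional residual representation with the prescribed Frobenius characteristic polynomials,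
unramified outside `S`.

Three blocks enter as named `Prop`s (to be proved by their owners, then plugged in):
* `PSStatement 𝔽`   : [PS]  the quadratic-algebra lemma (pure algebra);
* `FDStatement`     : [FD]  generator-Frobenius density;
* `CycStatement p 𝔽`: [Cyc] the mod-`p` cyclotomic character with values in `𝔽`.
Proved here: the Lucas step (`lucas_identity`), the wiring [FD] → (R) → [PS], and
`residualRep_of_module`.
-/
import Mathlib
import Fermat.Prelude.Def_GaloisRep_Residual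

set_option autoImplicit false

noncomputable section

namespace Fermat.Agent.S29.PlanCore

open Polynomial

/-- `ℚ̄`. -/
abbrev Qb : Type := AlgebraicClosure ℚ

/-- `G_ℚ`. -/
abbrev GQ : Type := Qb ≃ₐ[ℚ] Qb

/-! ### The three block statements -/

/-- **[PS]** (quadratic-algebra lemma).  A nonzero finite-dimensional representation `π` of a
group `G` over `𝔽` on which every `g` satisfies `g + d(g) g⁻¹ = t(g)` (for a character `d`) yields
a two-dimensional representation `ρ` with `charpoly ρ(g) = X² - t(g) X + d(g)` for all `g`, trivial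
on every `g` which acts trivially and has `d g = 1`. -/
def PSStatement (𝔽 : Type) [Field 𝔽] : Prop :=
  ∀ (G : Type) [Group G] (d : G →* 𝔽ˣ) (V : Type) [AddCommGroup V] [Module 𝔽 V]
    [FiniteDimensional 𝔽 V] [Nontrivial V] (π : G →* Module.End 𝔽 V) (t : G → 𝔽),
    (∀ g : G, π g + ((d g : 𝔽ˣ) : 𝔽) • π g⁻¹ = t g • (1 : Module.End 𝔽 V)) →
    ∃ (U : Type) (_ : AddCommGroup U) (_ : Module 𝔽 U) (_ : Module.Finite 𝔽 U)
      (ρ : G →* Module.End 𝔽 U),
      Module.finrank 𝔽 U = 2 ∧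
      (∀ g : G, LinearMap.charpoly (ρ g) = X ^ 2 - C (t g) * X + C ((d g : 𝔽ˣ) : 𝔽)) ∧
      (∀ g : G, π g = 1 → d g = 1 → ρ g = 1)

/-- **[FD]** (generator-Frobenius density).  For every finite extension `L / ℚ` inside `ℚ̄`, every
finite set `S` of primes and every `g ∈ G_ℚ`, the restriction of `g` to `L` is a power of a
Frobenius element at some prime `ℓ ∉ S`. -/
def FDStatement : Prop :=
  ∀ (L : IntermediateField ℚ Qb), FiniteDimensional ℚ L → ∀ S : Set ℕ, S.Finite → ∀ g : GQ,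
    ∃ (ℓ : ℕ) (A : ValuationSubring Qb) (σ : GQ) (j : ℕ), ℓ.Prime ∧ ℓ ∉ S ∧ A.LiesOverPrime ℓ ∧
      A.IsFrobeniusAt σ ℓ ∧ ∀ x ∈ L, g x = (σ ^ j) x

/-- [FD] restricted to finite *normal* extensions (what the density argument produces). -/
def FDStatementNormal : Prop :=
  ∀ (L : IntermediateField ℚ Qb), FiniteDimensional ℚ L → Normal ℚ L → ∀ S : Set ℕ, S.Finite →
    ∀ g : GQ,
    ∃ (ℓ : ℕ) (A : ValuationSubring Qb) (σ : GQ) (j : ℕ), ℓ.Prime ∧ ℓ ∉ S ∧ A.LiesOverPrime ℓ ∧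
      A.IsFrobeniusAt σ ℓ ∧ ∀ x ∈ L, g x = (σ ^ j) x

theorem isAlgClosure_rat : IsAlgClosure ℚ Qb := by
  have h : (DivisionRing.toRatAlgebra : Algebra ℚ Qb) = AlgebraicClosure.instAlgebra ℚ :=
    Subsingleton.elim _ _
  rw [h]
  infer_instance

theorem normal_rat : Normal ℚ Qb :=
  have := isAlgClosure_rat
  IsAlgClosure.normal ℚ Qb

/-- It suffices to prove [FD] for finite normal extensions. -/
theorem fdStatement_of_normal (h : FDStatementNormal) : FDStatement := by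
  intro L hL S hS g
  have := hL
  obtain ⟨ℓ, A, σ, j, h1, h2, h3, h4, h5⟩ :=
    h (IntermediateField.normalClosure ℚ L Qb) inferInstance
      (@normalClosure.normal ℚ L Qb _ _ _ _ _ normal_rat) S hS g
  exact ⟨ℓ, A, σ, j, h1, h2, h3, h4,
    fun x hx => h5 x (IntermediateField.le_normalClosure L hx)⟩

/-- **[Cyc]** (mod-`p` cyclotomic character with values in `𝔽`, `char 𝔽 = p`).  A character
`d : G_ℚ → 𝔽ˣ` of finite level with `d(σ) = ℓ` at every Frobenius element at `ℓ ≠ p` and trivial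
on inertia at `ℓ ≠ p`. -/
def CycStatement (p : ℕ) (𝔽 : Type) [Field 𝔽] : Prop :=
  ∃ d : GQ →* 𝔽ˣ, GaloisFactorsThroughFiniteLevel d ∧
    (∀ ℓ : ℕ, ℓ.Prime → ℓ ≠ p → ∀ A : ValuationSubring Qb, A.LiesOverPrime ℓ →
      ∀ σ : GQ, A.IsFrobeniusAt σ ℓ → ((d σ : 𝔽ˣ) : 𝔽) = (ℓ : 𝔽)) ∧
    (∀ ℓ : ℕ, ℓ.Prime → ℓ ≠ p → ∀ A : ValuationSubring Qb, A.LiesOverPrime ℓ →
      ∀ τ ∈ A.inertiaSubgroupIn ℚ, d τ = 1)

/-! ### The Lucas step -/

/-- The Lucas sequence `V_0 = 2`, `V_1 = a`, `V_{n+2} = a V_{n+1} - u V_n`. -/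
def lucas {R : Type*} [CommRing R] (a u : R) : ℕ → R
  | 0 => 2
  | 1 => a
  | (n + 2) => a * lucas a u (n + 1) - u * lucas a u n

@[simp] theorem lucas_zero {R : Type*} [CommRing R] (a u : R) : lucas a u 0 = 2 := rfl

@[simp] theorem lucas_one {R : Type*} [CommRing R] (a u : R) : lucas a u 1 = a := rfl

theorem lucas_succ_succ {R : Type*} [CommRing R] (a u : R) (n : ℕ) :
    lucas a u (n + 2) = a * lucas a u (n + 1) - u * lucas a u n := rfl

/-- **Lucas identity.**  If `h` is invertible with inverse `k` in an `𝔽`-algebra and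
`h² - a h + u = 0`, then `h^j + u^j k^j = V_j(a, u)` for all `j`. -/
theorem lucas_identity {𝔽 E : Type*} [Field 𝔽] [Ring E] [Algebra 𝔽 E] (a u : 𝔽) (h k : E)
    (hk : h * k = 1) (kh : k * h = 1) (hq : h ^ 2 - a • h + u • (1 : E) = 0) (j : ℕ) :
    h ^ j + u ^ j • k ^ j = lucas a u j • (1 : E) := by
  have h1 : h + u • k = a • (1 : E) := by
    have e : (h ^ 2 - a • h + u • (1 : E)) * k = 0 := by rw [hq, zero_mul]
    have e2 : (h ^ 2 - a • h + u • (1 : E)) * k = h + u • k - a • (1 : E) := by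
      rw [add_mul, sub_mul, pow_two, mul_assoc, hk, mul_one, smul_mul_assoc, hk,
        smul_mul_assoc, one_mul]
      abel
    rw [e2] at e
    exact sub_eq_zero.mp e
  have hcomm : ∀ n : ℕ, h * k ^ (n + 1) = k ^ n := fun n => by
    rw [pow_succ', ← mul_assoc, hk, one_mul]
  have kcomm : ∀ n : ℕ, k * h ^ (n + 1) = h ^ n := fun n => by
    rw [pow_succ', ← mul_assoc, kh, one_mul]
  have key : ∀ n : ℕ, (h ^ n + u ^ n • k ^ n = lucas a u n • (1 : E)) ∧
      (h ^ (n + 1) + u ^ (n + 1) • k ^ (n + 1) = lucas a u (n + 1) • (1 : E)) := by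
    intro n
    induction n with
    | zero =>
      refine ⟨?_, ?_⟩
      · simp only [pow_zero, one_smul, lucas_zero]
        rw [← one_add_one_eq_two, add_smul, one_smul]
      · simp only [zero_add, pow_one, lucas_one]
        exact h1
    | succ n ih =>
      refine ⟨ih.2, ?_⟩
      have e : (h + u • k) * (h ^ (n + 1) + u ^ (n + 1) • k ^ (n + 1))
          = (h ^ (n + 2) + u ^ (n + 2) • k ^ (n + 2)) + u • (h ^ n + u ^ n • k ^ n) := by
        rw [add_mul, mul_add, mul_add, mul_smul_comm, hcomm n, smul_mul_assoc, kcomm n,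
          smul_mul_assoc, mul_smul_comm, ← pow_succ' h (n + 1), ← pow_succ' k (n + 1), smul_smul,
          ← pow_succ' u (n + 1), smul_add, smul_smul, ← pow_succ' u n]
        abel
      rw [h1, ih.2, ih.1] at e
      have e' : h ^ (n + 2) + u ^ (n + 2) • k ^ (n + 2)
          = a • (1 : E) * lucas a u (n + 1) • (1 : E) - u • lucas a u n • (1 : E) := by
        rw [e]; abel
      rw [show n + 1 + 1 = n + 2 from rfl, e', lucas_succ_succ, sub_smul, mul_smul,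
        smul_mul_assoc, one_mul, mul_smul]
  exact (key j).1

/-! ### The core theorem -/

/-- If `g` and `σ ^ j` agree on a field of definition `L` of a finite-level homomorphism `f`, then
`f g = f σ ^ j`. -/
theorem map_eq_pow_of_eqOn {M : Type} [Monoid M] (f : GQ →* M) (L : IntermediateField ℚ Qb)
    (hL : ∀ σ : GQ, (∀ x ∈ L, σ x = x) → f σ = 1) (g σ : GQ) (j : ℕ)
    (h : ∀ x ∈ L, g x = (σ ^ j) x) : f g = f σ ^ j := by
  have h1 : f (g⁻¹ * σ ^ j) = 1 := by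
    apply hL
    intro x hx
    rw [AlgEquiv.mul_apply, ← h x hx]
    exact AlgEquiv.symm_apply_apply g x
  have h2 : f g = f g * f (g⁻¹ * σ ^ j) := by rw [h1, mul_one]
  rw [h2, ← map_mul, mul_inv_cancel_left, map_pow]

/-- **CORE.**  A nonzero finite-dimensional `𝔽[G_ℚ]`-module of finite level satisfying the
Eichler–Shimura relation at all Frobenius elements outside `S` and unramified outside `S` yields a
two-dimensional residual representation with Frobenius characteristic polynomials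
`X² - a_ℓ X + ℓ`, unramified outside `S`. -/
theorem residualRep_of_module (𝔽 : Type) [Field 𝔽] (p : ℕ)
    (hPS : PSStatement 𝔽) (hFD : FDStatement) (hCyc : CycStatement p 𝔽)
    (V : Type) [AddCommGroup V] [Module 𝔽 V] [FiniteDimensional 𝔽 V] [Nontrivial V]
    (ρV : GQ →* Module.End 𝔽 V) (hfin : GaloisFactorsThroughFiniteLevel ρV)
    (S : Set ℕ) (hS : S.Finite) (hpS : p ∈ S) (a : ℕ → 𝔽)
    (hES : ∀ ℓ : ℕ, ℓ.Prime → ℓ ∉ S → ∀ A : ValuationSubring Qb, A.LiesOverPrime ℓ →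
      ∀ σ : GQ, A.IsFrobeniusAt σ ℓ →
        ρV σ ^ 2 - a ℓ • ρV σ + (ℓ : 𝔽) • (1 : Module.End 𝔽 V) = 0)
    (hI : ∀ ℓ : ℕ, ℓ.Prime → ℓ ∉ S → ∀ A : ValuationSubring Qb, A.LiesOverPrime ℓ →
      ∀ τ ∈ A.inertiaSubgroupIn ℚ, ρV τ = 1) :
    ∃ ρ : ResidualGaloisRep 𝔽,
      (∀ ℓ : ℕ, ℓ.Prime → ℓ ∉ S → ∀ A : ValuationSubring Qb, A.LiesOverPrime ℓ →
        ∀ σ : GQ, A.IsFrobeniusAt σ ℓ →
          LinearMap.charpoly (ρ.ρ σ) = X ^ 2 - C (a ℓ) * X + C (ℓ : 𝔽)) ∧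
      ∀ ℓ : ℕ, ℓ.Prime → ℓ ∉ S → ρ.IsUnramifiedAt ℓ := by
  classical
  obtain ⟨d, ⟨L₂, hL₂fd, hL₂⟩, hdF, hdI⟩ := hCyc
  obtain ⟨L₁, hL₁fd, hL₁⟩ := hfin
  have := hL₁fd
  have := hL₂fd
  have hLfd : FiniteDimensional ℚ ↥(L₁ ⊔ L₂) := inferInstance
  have hne : ∀ ℓ : ℕ, ℓ ∉ S → ℓ ≠ p := fun ℓ hℓ h => hℓ (h ▸ hpS)
  -- inverses
  have hinv : ∀ σ : GQ, ρV σ * ρV σ⁻¹ = 1 ∧ ρV σ⁻¹ * ρV σ = 1 := fun σ => by
    rw [← map_mul, ← map_mul, mul_inv_cancel, inv_mul_cancel, map_one]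
    exact ⟨rfl, rfl⟩
  -- the relation (R) at Frobenius powers
  have hR : ∀ g : GQ, ∃ t : 𝔽,
      ρV g + ((d g : 𝔽ˣ) : 𝔽) • ρV g⁻¹ = t • (1 : Module.End 𝔽 V) := by
    intro g
    obtain ⟨ℓ, A, σ, j, hℓ, hℓS, hA, hσ, hgσ⟩ := hFD (L₁ ⊔ L₂) hLfd S hS g
    have e1 : ρV g = ρV σ ^ j :=
      map_eq_pow_of_eqOn ρV (L₁ ⊔ L₂) (fun τ hτ => hL₁ τ (fun x hx => hτ x (le_sup_left (a := L₁) hx)))
        g σ j hgσ
    have e2 : d g = d σ ^ j :=
      map_eq_pow_of_eqOn d (L₁ ⊔ L₂) (fun τ hτ => hL₂ τ (fun x hx => hτ x (le_sup_right (b := L₂) hx)))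
        g σ j hgσ
    have e3 : ρV g⁻¹ = ρV σ⁻¹ ^ j := by
      have h1 : ρV g * ρV σ⁻¹ ^ j = 1 := by
        rw [e1, ← map_pow, ← map_pow, ← map_mul, inv_pow, mul_inv_cancel, map_one]
      calc ρV g⁻¹ = ρV g⁻¹ * (ρV g * ρV σ⁻¹ ^ j) := by rw [h1, mul_one]
        _ = (ρV g⁻¹ * ρV g) * ρV σ⁻¹ ^ j := by rw [mul_assoc]
        _ = ρV σ⁻¹ ^ j := by rw [(hinv g).2, one_mul]
    have e4 : ((d g : 𝔽ˣ) : 𝔽) = (ℓ : 𝔽) ^ j := by
      rw [e2, Units.val_pow_eq_pow_val, hdF ℓ hℓ (hne ℓ hℓS) A hA σ hσ]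
    refine ⟨lucas (a ℓ) (ℓ : 𝔽) j, ?_⟩
    rw [e1, e3, e4]
    exact lucas_identity (a ℓ) (ℓ : 𝔽) (ρV σ) (ρV σ⁻¹) (hinv σ).1 (hinv σ).2
      (hES ℓ hℓ hℓS A hA σ hσ) j
  choose t ht using hR
  obtain ⟨U, iU1, iU2, iU3, ρ, hU, hchar, htriv⟩ := hPS GQ d V ρV t ht
  refine ⟨{ V := U
            finrank_eq := hU
            ρ := ρ
            factorsThroughFiniteLevel := ⟨L₁ ⊔ L₂, hLfd, fun σ hσ =>
              htriv σ (hL₁ σ (fun x hx => hσ x (le_sup_left (a := L₁) hx)))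
                (hL₂ σ (fun x hx => hσ x (le_sup_right (b := L₂) hx)))⟩ }, ?_, ?_⟩
  · intro ℓ hℓ hℓS A hA σ hσ
    show LinearMap.charpoly (ρ σ) = _
    rw [hchar σ, hdF ℓ hℓ (hne ℓ hℓS) A hA σ hσ]
    have e : t σ = a ℓ := by
      have h1 := ht σ
      rw [hdF ℓ hℓ (hne ℓ hℓS) A hA σ hσ] at h1
      have h2 := lucas_identity (a ℓ) (ℓ : 𝔽) (ρV σ) (ρV σ⁻¹) (hinv σ).1 (hinv σ).2
        (hES ℓ hℓ hℓS A hA σ hσ) 1
      rw [pow_one, pow_one, pow_one, lucas_one] at h2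
      have h3 : (t σ - a ℓ) • (1 : Module.End 𝔽 V) = 0 := by
        rw [sub_smul, ← h1, ← h2, sub_self]
      rcases smul_eq_zero.mp h3 with h4 | h4
      · exact sub_eq_zero.mp h4
      · exact absurd h4 one_ne_zero
    rw [e]
  · intro ℓ hℓ hℓS A hA τ hτ
    show ρ τ = 1
    exact htriv τ (hI ℓ hℓ hℓS A hA τ hτ) (hdI ℓ hℓ (hne ℓ hℓS) A hA τ hτ)

end Fermat.Agent.S29.PlanCore
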