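/-
S29 / S42 — CoreOfModule.lean (helper75; integration captain helper85, chief architect helper74).

The step "V + [FD] + [PS] + [Cyc] ⇒ CoreStatement" of the chain of `S29/Defs.lean`, stated with
the binding leaf `Prop`s of `Defs.lean` (`PSStatement`, `FDStatement`, `CycStatement`,
`CoreStatement`):

from a nonzero finite-dimensional `𝔽[G_ℚ]`-module `V` of finite level (`𝔽` algebraically closed,
`ψ : ℤ̄ →+* 𝔽`) on which every Frobenius element `σ` at every prime `ℓ ∤ N`, `ℓ ≠ p` satisfies the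
Eichler–Shimura relation `σ² − ψ(a_ℓ) σ + ℓ = 0` and on which inertia at these primes acts
trivially, we get `CoreStatement N p g ψ`.

Proof: [FD] writes every `g ∈ G_ℚ` (on a common finite level of `V` and of the cyclotomic
character `d`) as a power `σ^j` of such a Frobenius; the Lucas identity (`PlanCore`) turns the
relation at `σ` into a quadratic relation `g² − V_j g + d(g) = 0` at `g`; [PS] then produces the
two-dimensional representation.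
-/
import Mathlib
import Fermat.Agent.S29.Defs
import Fermat.Agent.S29.PlanCore

set_option autoImplicit false

noncomputable section

namespace Fermat.Agent.S29.CoreOfModule

open Polynomial ModularCurve CongruenceSubgroup
open Fermat.Agent.S29.PlanCore (lucas lucas_identity map_eq_pow_of_eqOn)

/-- The level-zero case of `CoreStatement` (vacuous: every prime divides `0`). -/
theorem coreStatement_zero (p : ℕ) (g : CuspForm (Gamma0 0) 2) {𝔽 : Type} [Field 𝔽]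
    (ψ : Zb →+* 𝔽) : CoreStatement 0 p g ψ := by
  refine ⟨1, ⟨⊥, inferInstance, fun _ _ => rfl⟩, ?_, ?_⟩
  · intro ℓ _ h
    exact absurd (dvd_zero ℓ) h
  · intro ℓ _ h
    exact absurd (dvd_zero ℓ) h

/-- **The relation (R).**  Under the hypotheses of `coreStatement_of_module`, every `g ∈ G_ℚ`
satisfies a quadratic relation `g² − t g + d(g) = 0` on `V`. -/
theorem exists_quadratic_relation (N p : ℕ) (hN : N ≠ 0) (g : CuspForm (Gamma0 N) 2)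
    {𝔽 : Type} [Field 𝔽] (ψ : Zb →+* 𝔽) (hFD : FDStatement)
    (d : GQ →* 𝔽ˣ) (hdfin : GaloisFactorsThroughFiniteLevel d)
    (hdF : ∀ ℓ : ℕ, ℓ.Prime → ℓ ≠ p → ∀ A : ValuationSubring Qb, A.LiesOverPrime ℓ →
      ∀ σ : GQ, A.IsFrobeniusAt σ ℓ → ((d σ : 𝔽ˣ) : 𝔽) = (ℓ : 𝔽))
    (V : Type) [AddCommGroup V] [Module 𝔽 V]
    (ρV : GQ →* Module.End 𝔽 V) (hfin : GaloisFactorsThroughFiniteLevel ρV)
    (hES : ∀ ℓ : ℕ, ℓ.Prime → ¬ ℓ ∣ N → ℓ ≠ p → ∀ A : ValuationSubring Qb, A.LiesOverPrime ℓ →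
      ∀ σ : GQ, A.IsFrobeniusAt σ ℓ → ∃ a : Zb, (a : ℂ) = ModularFormClass.qCoeff g ℓ ∧
        ρV σ * ρV σ - ψ a • ρV σ + (ℓ : 𝔽) • (1 : Module.End 𝔽 V) = 0)
    (γ : GQ) :
    ∃ t : 𝔽, ρV γ * ρV γ - t • ρV γ + ((d γ : 𝔽ˣ) : 𝔽) • (1 : Module.End 𝔽 V) = 0 := by
  classical
  obtain ⟨L₂, hL₂fd, hL₂⟩ := hdfin
  obtain ⟨L₁, hL₁fd, hL₁⟩ := hfin
  have := hL₁fd
  have := hL₂fd
  have hLfd : FiniteDimensional ℚ ↥(L₁ ⊔ L₂) := inferInstance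
  have hinv : ∀ σ : GQ, ρV σ * ρV σ⁻¹ = 1 ∧ ρV σ⁻¹ * ρV σ = 1 := fun σ => by
    rw [← map_mul, ← map_mul, mul_inv_cancel, inv_mul_cancel, map_one]
    exact ⟨rfl, rfl⟩
  obtain ⟨ℓ, A, σ, j, hℓ, hℓS, hA, hσ, hgσ⟩ := hFD (L₁ ⊔ L₂) hLfd (insert p N.divisors) γ
  have hℓp : ℓ ≠ p := fun h => hℓS (h ▸ Finset.mem_insert_self _ _)
  have hℓN : ¬ ℓ ∣ N := fun h =>
    hℓS (Finset.mem_insert_of_mem (Nat.mem_divisors.mpr ⟨h, hN⟩))
  obtain ⟨a, -, hrel⟩ := hES ℓ hℓ hℓN hℓp A hA σ hσ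
  have e1 : ρV γ = ρV σ ^ j :=
    map_eq_pow_of_eqOn ρV (L₁ ⊔ L₂)
      (fun τ hτ => hL₁ τ (fun x hx => hτ x (le_sup_left (a := L₁) hx))) γ σ j hgσ
  have e2 : d γ = d σ ^ j :=
    map_eq_pow_of_eqOn d (L₁ ⊔ L₂)
      (fun τ hτ => hL₂ τ (fun x hx => hτ x (le_sup_right (b := L₂) hx))) γ σ j hgσ
  have e4 : ((d γ : 𝔽ˣ) : 𝔽) = (ℓ : 𝔽) ^ j := by
    rw [e2, Units.val_pow_eq_pow_val, hdF ℓ hℓ hℓp A hA σ hσ]
  have hq : ρV σ ^ 2 - ψ a • ρV σ + (ℓ : 𝔽) • (1 : Module.End 𝔽 V) = 0 := by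
    rw [pow_two]; exact hrel
  have e5 := lucas_identity (ψ a) (ℓ : 𝔽) (ρV σ) (ρV σ⁻¹) (hinv σ).1 (hinv σ).2 hq j
  have hHK : ρV σ ^ j * ρV σ⁻¹ ^ j = 1 := by
    rw [← map_pow, ← map_pow, ← map_mul, inv_pow, mul_inv_cancel, map_one]
  refine ⟨lucas (ψ a) (ℓ : 𝔽) j, ?_⟩
  rw [e1, e4]
  have e6 : ρV σ ^ j * (ρV σ ^ j + (ℓ : 𝔽) ^ j • ρV σ⁻¹ ^ j)
      = ρV σ ^ j * (lucas (ψ a) (ℓ : 𝔽) j • (1 : Module.End 𝔽 V)) := by rw [e5]
  rw [mul_add, mul_smul_comm, hHK, mul_smul_comm, mul_one] at e6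
  rw [← e6]
  abel

/-- **CORE (Defs form).**  A nonzero finite-dimensional `𝔽[G_ℚ]`-module of finite level satisfying
the Eichler–Shimura relation at all Frobenius elements at `ℓ ∤ N`, `ℓ ≠ p` and unramified at these
primes yields `CoreStatement N p g ψ`. -/
theorem coreStatement_of_module (N p : ℕ) (g : CuspForm (Gamma0 N) 2)
    {𝔽 : Type} [Field 𝔽] [IsAlgClosed 𝔽] (ψ : Zb →+* 𝔽)
    (hPS : PSStatement) (hFD : FDStatement) (hCyc : CycStatement p 𝔽)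
    (V : Type) [AddCommGroup V] [Module 𝔽 V] [FiniteDimensional 𝔽 V] [Nontrivial V]
    (ρV : GQ →* Module.End 𝔽 V) (hfin : GaloisFactorsThroughFiniteLevel ρV)
    (hES : ∀ ℓ : ℕ, ℓ.Prime → ¬ ℓ ∣ N → ℓ ≠ p → ∀ A : ValuationSubring Qb, A.LiesOverPrime ℓ →
      ∀ σ : GQ, A.IsFrobeniusAt σ ℓ → ∃ a : Zb, (a : ℂ) = ModularFormClass.qCoeff g ℓ ∧
        ρV σ * ρV σ - ψ a • ρV σ + (ℓ : 𝔽) • (1 : Module.End 𝔽 V) = 0)
    (hI : ∀ ℓ : ℕ, ℓ.Prime → ¬ ℓ ∣ N → ℓ ≠ p → ∀ A : ValuationSubring Qb, A.LiesOverPrime ℓ →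
      ∀ τ ∈ A.inertiaSubgroupIn ℚ, ρV τ = 1) :
    CoreStatement N p g ψ := by
  classical
  rcases eq_or_ne N 0 with rfl | hN
  · exact coreStatement_zero p g ψ
  obtain ⟨d, hdfin, hdF, hdI⟩ := hCyc
  have hR := exists_quadratic_relation N p hN g ψ hFD d hdfin hdF V ρV hfin hES
  obtain ⟨ρ, hchar, htriv⟩ := hPS 𝔽 GQ V ρV d hR
  obtain ⟨L₂, hL₂fd, hL₂⟩ := hdfin
  obtain ⟨L₁, hL₁fd, hL₁⟩ := hfin
  have := hL₁fd
  have := hL₂fd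
  have hLfd : FiniteDimensional ℚ ↥(L₁ ⊔ L₂) := inferInstance
  refine ⟨ρ, ⟨L₁ ⊔ L₂, hLfd, fun σ hσ =>
      htriv σ (hL₁ σ (fun x hx => hσ x (le_sup_left (a := L₁) hx)))
        (hL₂ σ (fun x hx => hσ x (le_sup_right (b := L₂) hx)))⟩, ?_, ?_⟩
  · intro ℓ hℓ hℓN hℓp A hA σ hσ
    obtain ⟨a, ha, hrel⟩ := hES ℓ hℓ hℓN hℓp A hA σ hσ
    refine ⟨a, ha, ?_⟩
    have h1 := hchar σ (ψ a)
    rw [hdF ℓ hℓ hℓp A hA σ hσ] at h1
    exact h1 hrel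
  · intro ℓ hℓ hℓN hℓp A hA τ hτ
    exact htriv τ (hI ℓ hℓ hℓN hℓp A hA τ hτ) (hdI ℓ hℓ hℓp A hA τ hτ)

end Fermat.Agent.S29.CoreOfModule
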