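/-
S29 block [K], leaf (K-CUSP) (helper105; asked for by the lead reviewer, board #1873 (G1)):
the sigma-invariant ALGEBRAIC characterisation of the sharp cusp bound, function level.

For a function `Y` on the upper half plane write "`Y = O(|q|^{-m})` at the cusp `g∞`" as
`IsBoundedAtImInfty (fun z => Δ z ^ m * Y (g • z))`.

* `norm_le_two_mul_of_root` : Cauchy's root bound.
* `isBoundedAtImInfty_discriminant_pow_mul_eval` : `Δ ^ d * P(j)` is bounded at `i∞` when
  `deg P ≤ d`.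
* `isBoundedAtImInfty_of_monic_root` : if `Y` is (pointwise) a root of a monic polynomial
  `X ^ n + c₁(j) X ^ (n-1) + ⋯ + c_n(j)` with `deg c_k ≤ k * m`, then `Y = O(|q|^{-m})` at EVERY
  cusp.  (No holomorphy or invariance of `Y` is needed.)
* `exists_monic_of_bounded` : the symmetric-function step.  For a finite family `Y i` of
  holomorphic functions permuted by `SL(2, ℤ)` with `Y i = O(|q|^{-m})` at `i∞`, the polynomial
  `∏ i, (X - Y i)` has coefficients `c_k(j)`, `c_k` a polynomial of degree `≤ k * m`.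
* `isBoundedAtImInfty_iff_exists_monic` : the two directions combined.
* `exists_monic_of_invariant`, `isBoundedAtImInfty_iff_exists_monic_of_invariant` : the same for
  ONE holomorphic function `Y` invariant under a finite-index subgroup `Γ ≤ SL(2, ℤ)` (family =
  the translates `Y ∘ g⁻¹` indexed by `SL(2, ℤ) ⧸ Γ`): the sharp bound at ALL cusps is equivalent
  to `Y` being a root of a monic `P ∈ ℂ[j][X]` with `deg_j (coeff of X ^ i) ≤ (deg P - i) * m` —
  a condition on the ring `ℂ[j]` only, hence stable under coefficientwise automorphisms.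
  Also: `P(0)(j z) = 0` only if some translate of `Y` vanishes at `z` (norm argument).
-/
import Mathlib
import Fermat.Agent.LevelOne.JDef
import Fermat.Agent.LevelOne.JCusp
import Fermat.Agent.LevelOne.PolyInJ

set_option autoImplicit false

namespace Fermat.Agent.S29.CuspBound

open UpperHalfPlane ModularForm Filter Topology
open scoped MatrixGroups ModularForm Manifold

open Fermat.Agent.LevelOne

local notation "Δ" => ModularForm.discriminant

/-! ### Cauchy's root bound -/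

theorem sum_Icc_half_pow (n : ℕ) : ∑ k ∈ Finset.Icc 1 n, (1 / 2 : ℝ) ^ k = 1 - (1 / 2) ^ n := by
  induction n with
  | zero => simp
  | succ n ih =>
    rw [Finset.sum_Icc_succ_top (by omega), ih]
    ring

/-- **Cauchy's root bound**: a root `x` of `X ^ n + c₁ X ^ (n-1) + ⋯ + c_n` with `‖c_k‖ ≤ B ^ k`
satisfies `‖x‖ ≤ 2 * B`. -/
theorem norm_le_two_mul_of_root {n : ℕ} (c : ℕ → ℂ) (x : ℂ) {B : ℝ} (hB : 0 ≤ B)
    (hc : ∀ k ∈ Finset.Icc 1 n, ‖c k‖ ≤ B ^ k)
    (hx : x ^ n + ∑ k ∈ Finset.Icc 1 n, c k * x ^ (n - k) = 0) : ‖x‖ ≤ 2 * B := by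
  by_contra hlt
  rw [not_le] at hlt
  set r := ‖x‖ with hr
  have hr0 : 0 < r := lt_of_le_of_lt (by positivity) hlt
  have hBr : B ≤ r / 2 := by linarith
  have h1 : x ^ n = -∑ k ∈ Finset.Icc 1 n, c k * x ^ (n - k) := eq_neg_of_add_eq_zero_left hx
  have h2 : r ^ n ≤ ∑ k ∈ Finset.Icc 1 n, B ^ k * r ^ (n - k) := by
    calc r ^ n = ‖x ^ n‖ := by rw [norm_pow]
      _ = ‖∑ k ∈ Finset.Icc 1 n, c k * x ^ (n - k)‖ := by rw [h1, norm_neg]
      _ ≤ ∑ k ∈ Finset.Icc 1 n, ‖c k * x ^ (n - k)‖ := norm_sum_le _ _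
      _ ≤ ∑ k ∈ Finset.Icc 1 n, B ^ k * r ^ (n - k) := by
        refine Finset.sum_le_sum fun k hk => ?_
        rw [norm_mul, norm_pow]
        exact mul_le_mul_of_nonneg_right (hc k hk) (by positivity)
  have h3 : ∑ k ∈ Finset.Icc 1 n, B ^ k * r ^ (n - k) ≤
      ∑ k ∈ Finset.Icc 1 n, r ^ n * (1 / 2 : ℝ) ^ k := by
    refine Finset.sum_le_sum fun k hk => ?_
    have hk' := Finset.mem_Icc.mp hk
    have h4 : B ^ k ≤ (r / 2) ^ k := pow_le_pow_left₀ hB hBr k
    have h5 : (r / 2) ^ k * r ^ (n - k) = r ^ n * (1 / 2 : ℝ) ^ k := by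
      have : r ^ n = r ^ k * r ^ (n - k) := by rw [← pow_add]; congr 1; omega
      rw [this, div_pow, one_div, inv_pow]
      field_simp
    calc B ^ k * r ^ (n - k) ≤ (r / 2) ^ k * r ^ (n - k) :=
          mul_le_mul_of_nonneg_right h4 (by positivity)
      _ = _ := h5
  rw [← Finset.mul_sum, sum_Icc_half_pow] at h3
  have h6 : r ^ n * (1 - (1 / 2 : ℝ) ^ n) < r ^ n := by
    have : 0 < r ^ n * (1 / 2 : ℝ) ^ n := by positivity
    nlinarith
  linarith

/-! ### Polynomials in `j` at the cusp -/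

theorem isBoundedAtImInfty_discriminant : IsBoundedAtImInfty (fun z : ℍ => Δ z) :=
  discriminant_isZeroAtImInfty.isBoundedAtImInfty

/-- `Δ ^ d * P(j)` is bounded at `i∞` when `deg P ≤ d`. -/
theorem isBoundedAtImInfty_discriminant_pow_mul_eval (P : Polynomial ℂ) {d : ℕ}
    (hP : P.natDegree ≤ d) :
    IsBoundedAtImInfty (fun z : ℍ => Δ z ^ d * P.eval (jFun z)) := by
  have h1 : (fun z : ℍ => Δ z ^ d * P.eval (jFun z)) =
      ∑ i ∈ Finset.range (d + 1),
        (fun z : ℍ => P.coeff i * (Δ z ^ (d - i) * (Δ z * jFun z) ^ i)) := by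
    funext z
    rw [Finset.sum_apply, Polynomial.eval_eq_sum_range' (Nat.lt_succ_of_le hP), Finset.mul_sum]
    refine Finset.sum_congr rfl fun i hi => ?_
    have hi' : i ≤ d := Nat.lt_succ_iff.mp (Finset.mem_range.mp hi)
    have : Δ z ^ d = Δ z ^ (d - i) * Δ z ^ i := by rw [← pow_add]; congr 1; omega
    rw [this, mul_pow]
    ring
  rw [h1]
  have hsub : ∀ i ∈ Finset.range (d + 1),
      (fun z : ℍ => P.coeff i * (Δ z ^ (d - i) * (Δ z * jFun z) ^ i)) ∈
        boundedAtImInftySubalgebra ℂ := by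
    intro i _
    have hΔ : (fun z : ℍ => Δ z) ∈ boundedAtImInftySubalgebra ℂ := isBoundedAtImInfty_discriminant
    have hΔj : (fun z : ℍ => Δ z * jFun z) ∈ boundedAtImInftySubalgebra ℂ :=
      isBoundedAtImInfty_discriminant_mul_jFun
    have hc : (fun _ : ℍ => P.coeff i) ∈ boundedAtImInftySubalgebra ℂ :=
      const_boundedAtFilter atImInfty (P.coeff i)
    exact Subalgebra.mul_mem _ hc
      (Subalgebra.mul_mem _ (Subalgebra.pow_mem _ hΔ (d - i)) (Subalgebra.pow_mem _ hΔj i))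
  exact Subalgebra.sum_mem _ hsub

/-- If `Y` is pointwise a root of `X ^ n + c₁(j) X ^ (n-1) + ⋯ + c_n(j)` with `deg c_k ≤ k * m`,
then `Y = O(|q|^{-m})` at every cusp: `Δ ^ m * Y ∘ g` is bounded at `i∞` for all `g`. -/
theorem isBoundedAtImInfty_of_monic_root {n : ℕ} (m : ℕ) (c : ℕ → Polynomial ℂ)
    (hc : ∀ k ∈ Finset.Icc 1 n, (c k).natDegree ≤ k * m) (Y : ℍ → ℂ)
    (hY : ∀ z : ℍ, Y z ^ n + ∑ k ∈ Finset.Icc 1 n, (c k).eval (jFun z) * Y z ^ (n - k) = 0)
    (g : SL(2, ℤ)) : IsBoundedAtImInfty (fun z : ℍ => Δ z ^ m * Y (g • z)) := by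
  classical
  have hb : ∀ k ∈ Finset.Icc 1 n, ∃ M : ℝ, ∀ᶠ z : ℍ in atImInfty,
      ‖Δ z ^ (k * m) * (c k).eval (jFun z)‖ ≤ M := by
    intro k hk
    have h := isBoundedAtImInfty_discriminant_pow_mul_eval (c k) (hc k hk)
    obtain ⟨M, hM⟩ := Asymptotics.IsBigO.bound h
    refine ⟨M, hM.mono fun z hz => ?_⟩
    simpa using hz
  choose! M hM using hb
  set D : ℝ := 1 + ∑ k ∈ Finset.Icc 1 n, |M k| with hD
  have hD1 : 1 ≤ D := by
    have : 0 ≤ ∑ k ∈ Finset.Icc 1 n, |M k| := Finset.sum_nonneg fun k _ => abs_nonneg _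
    linarith
  have hMD : ∀ k ∈ Finset.Icc 1 n, M k ≤ D ^ k := by
    intro k hk
    have h1 : |M k| ≤ ∑ k ∈ Finset.Icc 1 n, |M k| :=
      Finset.single_le_sum (f := fun k => |M k|) (fun k _ => abs_nonneg _) hk
    have h2 : D ≤ D ^ k := le_self_pow₀ hD1 (by have := (Finset.mem_Icc.mp hk).1; omega)
    have h3 := le_abs_self (M k)
    linarith
  have hev : ∀ᶠ z : ℍ in atImInfty, ∀ k ∈ Finset.Icc 1 n,
      ‖Δ z ^ (k * m) * (c k).eval (jFun z)‖ ≤ M k :=
    (Filter.eventually_all_finset _).mpr hM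
  refine Asymptotics.IsBigO.of_bound (2 * D) ?_
  filter_upwards [hev] with z hz
  have hΔ0 : Δ z ≠ 0 := discriminant_ne_zero z
  have hΔpos : 0 < ‖Δ z‖ := norm_pos_iff.mpr hΔ0
  set B : ℝ := D * (‖Δ z‖⁻¹) ^ m with hBdef
  have hB0 : 0 ≤ B := by positivity
  have hroot : Y (g • z) ^ n +
      ∑ k ∈ Finset.Icc 1 n, (c k).eval (jFun z) * Y (g • z) ^ (n - k) = 0 := by
    have := hY (g • z)
    rwa [jFun_smul] at this
  have hck : ∀ k ∈ Finset.Icc 1 n, ‖(c k).eval (jFun z)‖ ≤ B ^ k := by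
    intro k hk
    have h1 := hz k hk
    rw [norm_mul, norm_pow] at h1
    have h2 : ‖(c k).eval (jFun z)‖ ≤ M k * (‖Δ z‖⁻¹) ^ (k * m) := by
      rw [inv_pow, ← div_eq_mul_inv, le_div_iff₀ (by positivity)]
      linarith [mul_comm (‖Δ z‖ ^ (k * m)) ‖(c k).eval (jFun z)‖]
    have h3 : M k * (‖Δ z‖⁻¹) ^ (k * m) ≤ D ^ k * (‖Δ z‖⁻¹) ^ (k * m) :=
      mul_le_mul_of_nonneg_right (hMD k hk) (by positivity)
    have h4 : D ^ k * (‖Δ z‖⁻¹) ^ (k * m) = B ^ k := by
      rw [hBdef, mul_pow, ← pow_mul, mul_comm m k]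
    linarith
  have hbound := norm_le_two_mul_of_root (fun k => (c k).eval (jFun z)) (Y (g • z)) hB0 hck hroot
  have hfin : ‖Δ z ^ m * Y (g • z)‖ ≤ 2 * D := by
    rw [norm_mul, norm_pow]
    calc ‖Δ z‖ ^ m * ‖Y (g • z)‖ ≤ ‖Δ z‖ ^ m * (2 * B) :=
          mul_le_mul_of_nonneg_left hbound (by positivity)
      _ = 2 * D * (‖Δ z‖ ^ m * (‖Δ z‖⁻¹) ^ m) := by rw [hBdef]; ring
      _ = 2 * D := by
        rw [← mul_pow, mul_inv_cancel₀ hΔpos.ne', one_pow, mul_one]
  simpa using hfin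

/-- The same statement for a monic polynomial `P ∈ ℂ[j][X]` given as `Polynomial (Polynomial ℂ)`:
if `(P.coeff i).natDegree ≤ (P.natDegree - i) * m` and `Y z` is a root of `P` specialised at
`j = jFun z`, then `Δ ^ m * Y ∘ g` is bounded at `i∞` for every `g`. -/
theorem isBoundedAtImInfty_of_monic_root' (m : ℕ) (P : Polynomial (Polynomial ℂ)) (hP : P.Monic)
    (hdeg : ∀ i < P.natDegree, (P.coeff i).natDegree ≤ (P.natDegree - i) * m) (Y : ℍ → ℂ)
    (hY : ∀ z : ℍ, (P.map (Polynomial.evalRingHom (jFun z))).eval (Y z) = 0)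
    (g : SL(2, ℤ)) : IsBoundedAtImInfty (fun z : ℍ => Δ z ^ m * Y (g • z)) := by
  set n := P.natDegree with hn
  refine isBoundedAtImInfty_of_monic_root (n := n) m (fun k => P.coeff (n - k)) ?_ Y ?_ g
  · intro k hk
    have hk' := Finset.mem_Icc.mp hk
    have h := hdeg (n - k) (by omega)
    have : n - (n - k) = k := by omega
    rwa [this] at h
  · intro z
    have h := hY z
    have hdegmap : (P.map (Polynomial.evalRingHom (jFun z))).natDegree = n :=
      hP.natDegree_map _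
    rw [Polynomial.eval_eq_sum_range, hdegmap, Finset.sum_range_succ, Polynomial.coeff_map] at h
    have hlead : (Polynomial.evalRingHom (jFun z)) (P.coeff n) = 1 := by
      have : P.coeff n = 1 := hP.coeff_natDegree
      rw [this, map_one]
    rw [hlead, one_mul, add_comm] at h
    rw [← h]
    congr 1
    refine Finset.sum_nbij' (fun k => n - k) (fun i => n - i) ?_ ?_ ?_ ?_ ?_
    · intro k hk
      have hk' := Finset.mem_Icc.mp hk
      exact Finset.mem_range.mpr (by omega)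
    · intro i hi
      have hi' := Finset.mem_range.mp hi
      exact Finset.mem_Icc.mpr ⟨by omega, by omega⟩
    · intro k hk
      have hk' := Finset.mem_Icc.mp hk
      show n - (n - k) = k
      omega
    · intro i hi
      have hi' := Finset.mem_range.mp hi
      show n - (n - i) = i
      omega
    · intro k hk
      rw [Polynomial.coeff_map, Polynomial.coe_evalRingHom]

/-! ### The symmetric-function step -/

theorem mdifferentiable_finset_prod {ι : Type*} (t : Finset ι) (f : ι → ℍ → ℂ)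
    (hf : ∀ i ∈ t, MDiff (f i)) : MDiff (∏ i ∈ t, f i) := by
  classical
  induction t using Finset.induction_on with
  | empty =>
    rw [Finset.prod_empty]
    exact mdifferentiable_const
  | insert a s ha ih =>
    rw [Finset.prod_insert ha]
    exact (hf a (Finset.mem_insert_self a s)).mul
      (ih fun i hi => hf i (Finset.mem_insert_of_mem hi))

theorem mdifferentiable_finset_sum {ι : Type*} (t : Finset ι) (f : ι → ℍ → ℂ)
    (hf : ∀ i ∈ t, MDiff (f i)) : MDiff (∑ i ∈ t, f i) := by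
  classical
  induction t using Finset.induction_on with
  | empty =>
    rw [Finset.sum_empty]
    exact mdifferentiable_const
  | insert a s ha ih =>
    rw [Finset.sum_insert ha]
    exact (hf a (Finset.mem_insert_self a s)).add
      (ih fun i hi => hf i (Finset.mem_insert_of_mem hi))

/-- Vieta: the coefficients of `∏ i, (X - y i)`. -/
theorem coeff_prod_X_sub_C {ι : Type*} [Fintype ι] (y : ι → ℂ) {k : ℕ}
    (hk : k ≤ Fintype.card ι) :
    (∏ i, (Polynomial.X - Polynomial.C (y i))).coeff k =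
      ∑ t ∈ (Finset.univ : Finset ι).powersetCard (Fintype.card ι - k), ∏ i ∈ t, (-y i) := by
  have h := Finset.prod_X_add_C_coeff (Finset.univ : Finset ι) (fun i => -y i) (k := k)
    (by simpa using hk)
  simp only [map_neg, ← sub_eq_add_neg, Finset.card_univ] at h
  exact h

/-- **Symmetric functions over a finite `SL(2, ℤ)`-stable family are polynomials in `j`.**
For a finite family `Y i` of holomorphic functions on `ℍ` that is permuted by `SL(2, ℤ)` and
with `Δ ^ m * Y i` bounded at `i∞` for every `i`, the polynomial `∏ i, (X - Y i)` comes from a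
monic `P ∈ ℂ[j][X]` whose coefficient of `X ^ i` has degree `≤ (card ι - i) * m` in `j`. -/
theorem exists_monic_of_bounded {ι : Type*} [Fintype ι] (Y : ι → ℍ → ℂ)
    (hY : ∀ i, MDiff (Y i))
    (hperm : ∀ γ : SL(2, ℤ), ∃ σ : Equiv.Perm ι, ∀ i z, Y i (γ • z) = Y (σ i) z) (m : ℕ)
    (hbdd : ∀ i, IsBoundedAtImInfty (fun z : ℍ => Δ z ^ m * Y i z)) :
    ∃ P : Polynomial (Polynomial ℂ), P.Monic ∧ P.natDegree = Fintype.card ι ∧
      (∀ i ≤ Fintype.card ι, (P.coeff i).natDegree ≤ (Fintype.card ι - i) * m) ∧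
      ∀ z : ℍ, P.map (Polynomial.evalRingHom (jFun z)) =
        ∏ i, (Polynomial.X - Polynomial.C (Y i z)) := by
  classical
  set n := Fintype.card ι with hn
  set Q : ℍ → Polynomial ℂ := fun z => ∏ i, (Polynomial.X - Polynomial.C (Y i z)) with hQ
  have hQmonic : ∀ z, (Q z).Monic := fun z => Polynomial.monic_prod_X_sub_C _ _
  have hQdeg : ∀ z, (Q z).natDegree = n := fun z => by
    rw [hQ]
    simp only
    rw [Polynomial.natDegree_finsetProd_X_sub_C_eq_card, Finset.card_univ]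
  have hQinv : ∀ (γ : SL(2, ℤ)) (z : ℍ), Q (γ • z) = Q z := by
    intro γ z
    obtain ⟨σ, hσ⟩ := hperm γ
    show ∏ i, (Polynomial.X - Polynomial.C (Y i (γ • z))) =
      ∏ i, (Polynomial.X - Polynomial.C (Y i z))
    simp_rw [hσ]
    exact Equiv.prod_comp σ (fun i => Polynomial.X - Polynomial.C (Y i z))
  -- the coefficient functions are polynomials in `j`
  have hcoeff : ∀ k, k ≤ n → ∃ p : Polynomial ℂ, p.natDegree ≤ (n - k) * m ∧
      ∀ z, (Q z).coeff k = p.eval (jFun z) := by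
    intro k hk
    have hform : ∀ z, (Q z).coeff k =
        ∑ t ∈ (Finset.univ : Finset ι).powersetCard (n - k), ∏ i ∈ t, (-Y i z) :=
      fun z => coeff_prod_X_sub_C (fun i => Y i z) hk
    refine exists_polynomial_of_invariant (f := fun z => (Q z).coeff k) ?_ ?_ ((n - k) * m) ?_
    · have h1 : (fun z => (Q z).coeff k) =
          ∑ t ∈ (Finset.univ : Finset ι).powersetCard (n - k), ∏ i ∈ t, (-Y i) := by
        funext z
        rw [hform z, Finset.sum_apply]
        refine Finset.sum_congr rfl fun t _ => ?_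
        rw [Finset.prod_apply]
        rfl
      rw [h1]
      have hneg : ∀ i, MDiff (-Y i) := fun i => (hY i).neg
      exact mdifferentiable_finset_sum _ _ fun t _ =>
        mdifferentiable_finset_prod t (fun i => -Y i) fun i _ => hneg i
    · intro γ z
      show (Q (γ • z)).coeff k = (Q z).coeff k
      rw [hQinv]
    · have h1 : (fun z => Δ z ^ ((n - k) * m) * (Q z).coeff k) =
          ∑ t ∈ (Finset.univ : Finset ι).powersetCard (n - k),
            ∏ i ∈ t, (fun z => -(Δ z ^ m * Y i z)) := by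
        funext z
        rw [hform z, Finset.mul_sum, Finset.sum_apply]
        refine Finset.sum_congr rfl fun t ht => ?_
        rw [Finset.prod_apply]
        have hcard : t.card = n - k := (Finset.mem_powersetCard.mp ht).2
        have h2 : ∏ i ∈ t, -(Δ z ^ m * Y i z) = ∏ i ∈ t, (Δ z ^ m * (-Y i z)) :=
          Finset.prod_congr rfl fun i _ => by ring
        rw [h2, Finset.prod_mul_distrib, Finset.prod_const, hcard, ← pow_mul, mul_comm m (n - k)]
      rw [h1]
      refine Subalgebra.sum_mem (boundedAtImInftySubalgebra ℂ) fun t _ =>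
        Subalgebra.prod_mem _ fun i _ => ?_
      exact Subalgebra.neg_mem (boundedAtImInftySubalgebra ℂ) (hbdd i)
  choose! p hpdeg hp using hcoeff
  -- the top coefficient is `1`
  have hpn : p n = 1 := by
    have h1 : (p n).natDegree ≤ 0 := by simpa using hpdeg n le_rfl
    have h2 := Polynomial.eq_C_of_natDegree_le_zero h1
    have h3 : (Q UpperHalfPlane.I).coeff n = 1 := by
      have := (hQmonic UpperHalfPlane.I).coeff_natDegree
      rwa [hQdeg] at this
    rw [hp n le_rfl UpperHalfPlane.I, h2, Polynomial.eval_C] at h3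
    rw [h2, h3, Polynomial.C_1]
  set P : Polynomial (Polynomial ℂ) :=
    ∑ k ∈ Finset.range (n + 1), Polynomial.C (p k) * Polynomial.X ^ k with hPdef
  have hPcoeff : ∀ i, P.coeff i = if i ≤ n then p i else 0 := by
    intro i
    rw [hPdef, Polynomial.finsetSum_coeff]
    simp only [Polynomial.coeff_C_mul_X_pow]
    rw [Finset.sum_ite_eq (Finset.range (n + 1)) i p]
    simp only [Finset.mem_range, Nat.lt_succ_iff]
  have hPle : P.natDegree ≤ n := by
    rw [Polynomial.natDegree_le_iff_coeff_eq_zero]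
    intro N hN
    rw [hPcoeff, if_neg (by omega)]
  have hPn : P.coeff n = 1 := by rw [hPcoeff, if_pos le_rfl, hpn]
  refine ⟨P, Polynomial.monic_of_natDegree_le_of_coeff_eq_one n hPle hPn,
    le_antisymm hPle (Polynomial.le_natDegree_of_ne_zero (by rw [hPn]; exact one_ne_zero)),
    ?_, ?_⟩
  · intro i hi
    rw [hPcoeff, if_pos hi]
    exact hpdeg i hi
  · intro z
    ext i
    rw [Polynomial.coeff_map, hPcoeff]
    by_cases hi : i ≤ n
    · rw [if_pos hi, Polynomial.coe_evalRingHom, ← hp i hi z]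
    · rw [if_neg hi, map_zero]
      exact (Polynomial.coeff_eq_zero_of_natDegree_lt (by rw [hQdeg]; omega)).symm

/-- In the situation of `exists_monic_of_bounded`, the sharp bound `Y i = O(|q|^{-m})` at `i∞`
for all members of the family is EQUIVALENT to an algebraic statement over `ℂ[j]`: all `Y i` are
roots of one monic `P ∈ ℂ[j][X]` whose coefficient of `X ^ i` has `j`-degree
`≤ (deg P - i) * m`. -/
theorem isBoundedAtImInfty_iff_exists_monic {ι : Type*} [Fintype ι] (Y : ι → ℍ → ℂ)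
    (hY : ∀ i, MDiff (Y i))
    (hperm : ∀ γ : SL(2, ℤ), ∃ σ : Equiv.Perm ι, ∀ i z, Y i (γ • z) = Y (σ i) z) (m : ℕ) :
    (∀ i, IsBoundedAtImInfty (fun z : ℍ => Δ z ^ m * Y i z)) ↔
      ∃ P : Polynomial (Polynomial ℂ), P.Monic ∧
        (∀ i < P.natDegree, (P.coeff i).natDegree ≤ (P.natDegree - i) * m) ∧
        ∀ i z, (P.map (Polynomial.evalRingHom (jFun z))).eval (Y i z) = 0 := by
  constructor
  · intro hbdd
    obtain ⟨P, hPm, hPdeg, hPc, hPmap⟩ := exists_monic_of_bounded Y hY hperm m hbdd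
    refine ⟨P, hPm, fun i hi => ?_, fun i z => ?_⟩
    · rw [hPdeg]
      exact hPc i (by omega)
    · rw [hPmap z, Polynomial.eval_prod]
      exact Finset.prod_eq_zero (Finset.mem_univ i) (by simp)
  · rintro ⟨P, hPm, hPdeg, hroot⟩ i
    have h := isBoundedAtImInfty_of_monic_root' m P hPm hPdeg (Y i) (hroot i) 1
    simpa using h

/-- The constant term of the polynomial of `exists_monic_of_bounded` at `j = jFun z` is
`∏ i, (-Y i z)` (the identity used in the norm argument for maximal ideals). -/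
theorem coeff_zero_eval_of_map_eq {ι : Type*} [Fintype ι] (y : ι → ℂ) (j₀ : ℂ)
    (P : Polynomial (Polynomial ℂ))
    (h : P.map (Polynomial.evalRingHom j₀) = ∏ i, (Polynomial.X - Polynomial.C (y i))) :
    (P.coeff 0).eval j₀ = ∏ i, (-y i) := by
  have h1 := congrArg (fun R : Polynomial ℂ => R.coeff 0) h
  simp only [Polynomial.coeff_map, Polynomial.coe_evalRingHom] at h1
  rw [h1, Polynomial.coeff_zero_eq_eval_zero, Polynomial.eval_prod]
  refine Finset.prod_congr rfl fun i _ => ?_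
  simp

/-! ### The coset family of a function invariant under a finite-index subgroup -/

section Coset

variable (Γ : Subgroup SL(2, ℤ))

/-- The translate of `Y` attached to a coset `gΓ`: `z ↦ Y (g⁻¹ • z)` (for the chosen
representative `g`). -/
noncomputable def cosetFun (Y : ℍ → ℂ) (q : SL(2, ℤ) ⧸ Γ) : ℍ → ℂ :=
  fun z => Y ((Quotient.out q)⁻¹ • z)

variable {Γ}

theorem cosetFun_mk {Y : ℍ → ℂ} (hinv : ∀ γ ∈ Γ, ∀ z, Y (γ • z) = Y z) (g : SL(2, ℤ)) (z : ℍ) :
    cosetFun Γ Y (g : SL(2, ℤ) ⧸ Γ) z = Y (g⁻¹ • z) := by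
  obtain ⟨h, hh⟩ := QuotientGroup.mk_out_eq_mul Γ g
  unfold cosetFun
  rw [hh, mul_inv_rev, mul_smul]
  exact hinv _ (Γ.inv_mem h.2) _

theorem cosetFun_smul {Y : ℍ → ℂ} (hinv : ∀ γ ∈ Γ, ∀ z, Y (γ • z) = Y z) (h : SL(2, ℤ))
    (q : SL(2, ℤ) ⧸ Γ) (z : ℍ) : cosetFun Γ Y q (h • z) = cosetFun Γ Y (h⁻¹ • q) z := by
  induction q using QuotientGroup.induction_on with
  | H g =>
    have e : (h⁻¹ • (g : SL(2, ℤ) ⧸ Γ)) = ((h⁻¹ * g : SL(2, ℤ)) : SL(2, ℤ) ⧸ Γ) := rfl
    rw [e, cosetFun_mk hinv, cosetFun_mk hinv, mul_inv_rev, inv_inv, mul_smul]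

theorem mdifferentiable_cosetFun {Y : ℍ → ℂ} (hY : MDiff Y) (q : SL(2, ℤ) ⧸ Γ) :
    MDiff (cosetFun Γ Y q) := by
  have h : MDiff (fun τ : ℍ => (Matrix.SpecialLinearGroup.mapGL ℝ (Quotient.out q)⁻¹) • τ) :=
    mdifferentiable_smul (by simp)
  exact hY.comp h

/-- **Norm polynomial with degree control.**  A holomorphic function `Y` on `ℍ` invariant under
a finite-index subgroup `Γ ≤ SL(2, ℤ)` and with `Y ∘ g = O(|q|^{-m})` at `i∞` for every
`g ∈ SL(2, ℤ)` is a root (together with all its translates) of a monic `P ∈ ℂ[j][X]` of degree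
`[SL(2, ℤ) : Γ]` whose coefficient of `X ^ i` has `j`-degree `≤ (deg P - i) * m`; moreover the
constant term of `P` vanishes at `j = jFun z` only if some translate of `Y` vanishes at `z`. -/
theorem exists_monic_of_invariant [Γ.FiniteIndex] (Y : ℍ → ℂ) (hY : MDiff Y)
    (hinv : ∀ γ ∈ Γ, ∀ z, Y (γ • z) = Y z) (m : ℕ)
    (hbdd : ∀ g : SL(2, ℤ), IsBoundedAtImInfty (fun z : ℍ => Δ z ^ m * Y (g • z))) :
    ∃ P : Polynomial (Polynomial ℂ), P.Monic ∧ P.natDegree = Γ.index ∧
      (∀ i ≤ Γ.index, (P.coeff i).natDegree ≤ (Γ.index - i) * m) ∧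
      (∀ (g : SL(2, ℤ)) (z : ℍ),
        (P.map (Polynomial.evalRingHom (jFun z))).eval (Y (g • z)) = 0) ∧
      (∀ z : ℍ, (P.coeff 0).eval (jFun z) = 0 → ∃ g : SL(2, ℤ), Y (g • z) = 0) := by
  classical
  let _ : Fintype (SL(2, ℤ) ⧸ Γ) := Fintype.ofFinite _
  have hcard : Fintype.card (SL(2, ℤ) ⧸ Γ) = Γ.index := by
    rw [Subgroup.index_eq_card, Nat.card_eq_fintype_card]
  obtain ⟨P, hPm, hPdeg, hPc, hPmap⟩ := exists_monic_of_bounded (cosetFun Γ Y)
    (fun q => mdifferentiable_cosetFun hY q)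
    (fun γ => ⟨MulAction.toPerm γ⁻¹, fun q z => cosetFun_smul hinv γ q z⟩) m
    (fun q => hbdd (Quotient.out q)⁻¹)
  rw [hcard] at hPdeg hPc
  refine ⟨P, hPm, hPdeg, hPc, fun g z => ?_, fun z hz => ?_⟩
  · rw [hPmap z, Polynomial.eval_prod]
    refine Finset.prod_eq_zero (Finset.mem_univ ((g⁻¹ : SL(2, ℤ)) : SL(2, ℤ) ⧸ Γ)) ?_
    rw [cosetFun_mk hinv, inv_inv]
    simp
  · rw [coeff_zero_eval_of_map_eq _ _ P (hPmap z)] at hz
    obtain ⟨q, -, hq⟩ := Finset.prod_eq_zero_iff.mp hz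
    exact ⟨(Quotient.out q)⁻¹, neg_eq_zero.mp hq⟩

/-- **(K-CUSP)** For a holomorphic function `Y` on `ℍ` invariant under a finite-index subgroup of
`SL(2, ℤ)`: the sharp cusp bound `Y ∘ g = O(|q|^{-m})` at `i∞` for ALL `g ∈ SL(2, ℤ)` holds iff
`Y` is a root of a monic `P ∈ ℂ[j][X]` whose coefficient of `X ^ i` has `j`-degree
`≤ (deg P - i) * m`.  The right-hand side only involves the ring `ℂ[j]`. -/
theorem isBoundedAtImInfty_iff_exists_monic_of_invariant [Γ.FiniteIndex] (Y : ℍ → ℂ)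
    (hY : MDiff Y) (hinv : ∀ γ ∈ Γ, ∀ z, Y (γ • z) = Y z) (m : ℕ) :
    (∀ g : SL(2, ℤ), IsBoundedAtImInfty (fun z : ℍ => Δ z ^ m * Y (g • z))) ↔
      ∃ P : Polynomial (Polynomial ℂ), P.Monic ∧
        (∀ i < P.natDegree, (P.coeff i).natDegree ≤ (P.natDegree - i) * m) ∧
        ∀ z : ℍ, (P.map (Polynomial.evalRingHom (jFun z))).eval (Y z) = 0 := by
  constructor
  · intro hbdd
    obtain ⟨P, hPm, hPdeg, hPc, hroot, -⟩ := exists_monic_of_invariant Y hY hinv m hbdd
    refine ⟨P, hPm, fun i hi => ?_, fun z => ?_⟩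
    · rw [hPdeg]
      exact hPc i (by omega)
    · simpa using hroot 1 z
  · rintro ⟨P, hPm, hPdeg, hroot⟩ g
    exact isBoundedAtImInfty_of_monic_root' m P hPm hPdeg Y hroot g

end Coset

end Fermat.Agent.S29.CuspBound
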