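/-
S29 route, block [K], leaf (K-CUSP) (helper87 #1873 (G1), lead #1831 (a)) — CuspRoot.lean
(helper27).

The algebraic characterisation of the sharp cusp bound.  For a function `Y` on the upper half
plane, invariant under a finite-index subgroup `Γ` of `SL(2, ℤ)` and holomorphic:

    [for every `g` in `SL(2, ℤ)` the function `Δ ^ m * Y ∘ g` is bounded at `i∞`]
      ⟺  [`Y` is a root of a monic polynomial `X ^ n + c₁(j) X ^ (n - 1) + ⋯ + c_n(j)` with
           coefficients polynomials in `j` of degree `deg c_k ≤ k * m`].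

The right-hand side (`DegBdd m P` plus the root equation) is visibly stable under a ring
homomorphism acting on the coefficients (`DegBdd.map`, `eval_transport`, `root_coeffMap`).

* `norm_le_two_mul_of_root`, `norm_le_two_mul_of_isRoot` : the Cauchy root bound;
* `boundedAtFilter_of_monic_root` : roots of a monic polynomial with bounded coefficients are
  bounded (along any filter);
* `isBoundedAtImInfty_of_root_core`, `isBoundedAtImInfty_of_root` : direction `⟸`;
* `exists_degBdd_root` : direction `⟹` (`P = ∏ (X - Y ∘ γ⁻¹)` over the cosets of `Γ`);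
* `DegBdd.map`, `eval_transport`, `root_coeffMap` : stability under coefficient maps.
-/
import Mathlib
import Fermat.Prelude.Def_ModularCurve_LaurentCoeff
import Fermat.Agent.LevelOne.JDef
import Fermat.Agent.LevelOne.PolyInJ

set_option autoImplicit false

noncomputable section

namespace Fermat.Agent.S29.CuspRoot

open UpperHalfPlane Filter Topology Finset Polynomial ModularForm EisensteinSeries
open scoped MatrixGroups Manifold ModularForm
open Fermat.Agent.LevelOne (jFun)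

local notation "Δ" => ModularForm.discriminant

/-! ### (C0) The Cauchy root bound -/

theorem sum_half_pow (n : ℕ) : ∑ i ∈ range n, (1 / 2 : ℝ) ^ (n - i) = 1 - (1 / 2) ^ n := by
  induction n with
  | zero => simp
  | succ n ih =>
    rw [Finset.sum_range_succ']
    have h : ∀ i ∈ range n, (1 / 2 : ℝ) ^ (n + 1 - (i + 1)) = (1 / 2 : ℝ) ^ (n - i) := by
      intro i _
      rw [Nat.add_sub_add_right]
    rw [Finset.sum_congr rfl h, ih]
    simp only [Nat.sub_zero]
    ring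

/-- **Cauchy root bound**: a root `y` of the monic polynomial `X ^ n + ∑_{i < n} a i X ^ i` with
`‖a i‖ ≤ M ^ (n - i)` satisfies `‖y‖ ≤ 2 M`. -/
theorem norm_le_two_mul_of_root {K : Type*} [NormedField K] (n : ℕ) (a : ℕ → K) (M : ℝ)
    (ha : ∀ i < n, ‖a i‖ ≤ M ^ (n - i)) (y : K)
    (hy : y ^ n + ∑ i ∈ range n, a i * y ^ i = 0) : ‖y‖ ≤ 2 * M := by
  by_contra hlt
  rw [not_le] at hlt
  rcases Nat.eq_zero_or_pos n with rfl | hn
  · simp at hy
  have hM : 0 ≤ M := by
    have h := ha (n - 1) (by omega)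
    have e : n - (n - 1) = 1 := by omega
    rw [e, pow_one] at h
    exact (norm_nonneg _).trans h
  set r := ‖y‖ with hr
  have hr0 : 0 < r := by linarith
  have hMr : M ≤ r / 2 := by linarith
  have h1 : r ^ n ≤ ∑ i ∈ range n, M ^ (n - i) * r ^ i := by
    have e : y ^ n = - ∑ i ∈ range n, a i * y ^ i := eq_neg_of_add_eq_zero_left hy
    calc r ^ n = ‖y ^ n‖ := by rw [norm_pow]
      _ = ‖∑ i ∈ range n, a i * y ^ i‖ := by rw [e, norm_neg]
      _ ≤ ∑ i ∈ range n, ‖a i * y ^ i‖ := norm_sum_le _ _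
      _ ≤ ∑ i ∈ range n, M ^ (n - i) * r ^ i := by
        refine Finset.sum_le_sum fun i hi => ?_
        rw [norm_mul, norm_pow]
        exact mul_le_mul_of_nonneg_right (ha i (Finset.mem_range.mp hi)) (pow_nonneg hr0.le _)
  have h2 : ∑ i ∈ range n, M ^ (n - i) * r ^ i ≤
      ∑ i ∈ range n, (1 / 2 : ℝ) ^ (n - i) * r ^ n := by
    refine Finset.sum_le_sum fun i hi => ?_
    have hi' : i < n := Finset.mem_range.mp hi
    have e : (1 / 2 : ℝ) ^ (n - i) * r ^ n = (r / 2) ^ (n - i) * r ^ i := by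
      have e' : r ^ n = r ^ (n - i) * r ^ i := by rw [← pow_add, Nat.sub_add_cancel hi'.le]
      rw [e', div_pow, div_pow, one_pow]
      ring
    rw [e]
    exact mul_le_mul_of_nonneg_right (pow_le_pow_left₀ hM hMr _) (pow_nonneg hr0.le _)
  rw [← Finset.sum_mul, sum_half_pow] at h2
  have h3 : 0 < (1 / 2 : ℝ) ^ n * r ^ n := by positivity
  nlinarith

/-- The evaluation of the image of a monic polynomial. -/
theorem eval_map_monic {R S : Type*} [CommRing R] [CommRing S] (P : R[X]) (hP : P.Monic)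
    (φ : R →+* S) (y : S) :
    (P.map φ).eval y = y ^ P.natDegree + ∑ i ∈ range P.natDegree, φ (P.coeff i) * y ^ i := by
  rw [Polynomial.eval_map, Polynomial.eval₂_eq_sum_range, Finset.sum_range_succ,
    hP.coeff_natDegree, map_one, one_mul, add_comm]

/-- **Cauchy root bound**, polynomial form. -/
theorem norm_le_two_mul_of_isRoot {K : Type*} [NormedField K] (P : K[X]) (hP : P.Monic) (M : ℝ)
    (hc : ∀ i < P.natDegree, ‖P.coeff i‖ ≤ M ^ (P.natDegree - i)) (y : K) (hy : P.IsRoot y) :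
    ‖y‖ ≤ 2 * M := by
  refine norm_le_two_mul_of_root P.natDegree P.coeff M hc y ?_
  have h := eval_map_monic P hP (RingHom.id K) y
  rw [Polynomial.map_id, Polynomial.IsRoot.def.mp hy] at h
  exact h.symm

/-- Roots of a monic polynomial whose coefficients are bounded along a filter are bounded along
that filter. -/
theorem boundedAtFilter_of_monic_root {α K : Type*} [NormedField K] (l : Filter α) (n : ℕ)
    (b : ℕ → α → K) (hb : ∀ i < n, BoundedAtFilter l (b i)) (V : α → K)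
    (hV : ∀ᶠ x in l, V x ^ n + ∑ i ∈ range n, b i x * V x ^ i = 0) : BoundedAtFilter l V := by
  have hb' : ∀ i : ℕ, ∃ c : ℝ, i < n → ∀ᶠ x in l, ‖b i x‖ ≤ c := by
    intro i
    by_cases hi : i < n
    · obtain ⟨c, hc⟩ := Asymptotics.isBigO_iff.mp (hb i hi)
      exact ⟨c, fun _ => hc.mono fun x hx => by simpa using hx⟩
    · exact ⟨0, fun h => absurd h hi⟩
  choose c hc using hb'
  set C : ℝ := 1 + ∑ i ∈ range n, |c i| with hC
  have hC1 : 1 ≤ C := by
    have : 0 ≤ ∑ i ∈ range n, |c i| := Finset.sum_nonneg fun i _ => abs_nonneg _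
    linarith
  have hcC : ∀ i < n, c i ≤ C := by
    intro i hi
    have h1 : |c i| ≤ ∑ i ∈ range n, |c i| :=
      Finset.single_le_sum (f := fun i => |c i|) (fun i _ => abs_nonneg _) (Finset.mem_range.mpr hi)
    have h2 := le_abs_self (c i)
    linarith
  have hall : ∀ᶠ x in l, ∀ i ∈ range n, ‖b i x‖ ≤ C := by
    rw [Filter.eventually_all_finset]
    intro i hi
    have hi' := Finset.mem_range.mp hi
    exact (hc i hi').mono fun x hx => hx.trans (hcC i hi')
  refine Asymptotics.isBigO_iff.mpr ⟨2 * C, ?_⟩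
  filter_upwards [hall, hV] with x hx hVx
  have h := norm_le_two_mul_of_root n (fun i => b i x) C (fun i hi =>
    (hx i (Finset.mem_range.mpr hi)).trans (le_self_pow₀ hC1 (by omega))) (V x) hVx
  simpa using h

/-! ### (C1) Direction `⟸`: a root of a degree-bounded monic polynomial has the sharp bound -/

/-- If `W` is a root of `X ^ n + ∑_{i < n} a i X ^ i` where `Δ ^ ((n - i) m) * a i` is bounded at
`i∞`, then `Δ ^ m * W` is bounded at `i∞`. -/
theorem isBoundedAtImInfty_of_root_core (m n : ℕ) (a : ℕ → ℍ → ℂ)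
    (ha : ∀ i < n, IsBoundedAtImInfty (fun z => Δ z ^ ((n - i) * m) * a i z)) (W : ℍ → ℂ)
    (hW : ∀ z, W z ^ n + ∑ i ∈ range n, a i z * W z ^ i = 0) :
    IsBoundedAtImInfty (fun z => Δ z ^ m * W z) := by
  refine boundedAtFilter_of_monic_root atImInfty n (fun i z => Δ z ^ ((n - i) * m) * a i z) ha _
    (Eventually.of_forall fun z => ?_)
  have e : (Δ z ^ m * W z) ^ n +
      ∑ i ∈ range n, Δ z ^ ((n - i) * m) * a i z * (Δ z ^ m * W z) ^ i =
        Δ z ^ (n * m) * (W z ^ n + ∑ i ∈ range n, a i z * W z ^ i) := by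
    rw [mul_add, Finset.mul_sum]
    congr 1
    · rw [mul_pow, ← pow_mul, mul_comm m n]
    · refine Finset.sum_congr rfl fun i hi => ?_
      have hi' := Finset.mem_range.mp hi
      have e1 : n * m = (n - i) * m + m * i := by
        rw [mul_comm m i, ← add_mul, Nat.sub_add_cancel hi'.le]
      rw [mul_pow, ← pow_mul, e1, pow_add]
      ring
  rw [e, hW z, mul_zero]

/-- `P ∈ R[j][X]` is monic and its coefficient of `X ^ (n - k)` has degree at most `k * m` in
`j` (`n = deg P`). -/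
def DegBdd {R : Type*} [CommRing R] (m : ℕ) (P : R[X][X]) : Prop :=
  P.Monic ∧ ∀ k, (P.coeff k).natDegree ≤ (P.natDegree - k) * m

theorem bdd_discriminant : IsBoundedAtImInfty (Δ : ℍ → ℂ) := by
  have h : IsZeroAtImInfty (CuspForm.discriminant : ℍ → ℂ) :=
    CuspFormClass.zero_at_infty CuspForm.discriminant
  exact ZeroAtFilter.boundedAtFilter h

theorem bdd_E4 : IsBoundedAtImInfty (⇑E₄ : ℍ → ℂ) :=
  ModularFormClass.bdd_at_infty E₄

/-- A polynomial of degree at most `d` in `j` has a pole of order at most `d` at `i∞`. -/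
theorem isBoundedAtImInfty_eval_jFun (p : ℂ[X]) (d : ℕ) (hd : p.natDegree ≤ d) :
    IsBoundedAtImInfty (fun z => Δ z ^ d * p.eval (jFun z)) := by
  let B : Subalgebra ℂ (ℍ → ℂ) := boundedFilterSubalgebra ℂ atImInfty
  have hΔ : (Δ : ℍ → ℂ) ∈ B := bdd_discriminant
  have hE : (⇑E₄ : ℍ → ℂ) ∈ B := bdd_E4
  have e : (fun z => Δ z ^ d * p.eval (jFun z)) =
      ∑ i ∈ range (d + 1), (p.coeff i) • ((Δ : ℍ → ℂ) ^ (d - i) * (⇑E₄ : ℍ → ℂ) ^ (3 * i)) := by
    funext z
    rw [Polynomial.eval_eq_sum_range' (Nat.lt_succ_of_le hd), Finset.mul_sum, Finset.sum_apply]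
    refine Finset.sum_congr rfl fun i hi => ?_
    have hi' : i ≤ d := Nat.lt_succ_iff.mp (Finset.mem_range.mp hi)
    have e1 : Δ z ^ d = Δ z ^ (d - i) * Δ z ^ i := by rw [← pow_add, Nat.sub_add_cancel hi']
    have e2 : E₄ z ^ (3 * i) = (jFun z * Δ z) ^ i := by
      rw [LevelOne.jFun_mul_discriminant, ← pow_mul]
    simp only [Pi.smul_apply, Pi.mul_apply, Pi.pow_apply, smul_eq_mul]
    rw [e1, e2, mul_pow]
    ring
  rw [e]
  exact B.sum_mem fun i _ => B.smul_mem (B.mul_mem (B.pow_mem hΔ _) (B.pow_mem hE _)) _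

/-- **(K-CUSP), direction `⟸`.**  If `Y` is (pointwise) a root of a monic polynomial over `ℂ[j]`
whose coefficient of `X ^ (n - k)` has degree at most `k * m`, then `Δ ^ m * Y ∘ g` is bounded at
`i∞` for EVERY `g ∈ SL(2, ℤ)`. -/
theorem isBoundedAtImInfty_of_root (m : ℕ) (P : ℂ[X][X]) (hP : DegBdd m P) (Y : ℍ → ℂ)
    (hY : ∀ z : ℍ, (P.map (Polynomial.evalRingHom (jFun z))).eval (Y z) = 0) (g : SL(2, ℤ)) :
    IsBoundedAtImInfty (fun z : ℍ => Δ z ^ m * Y (g • z)) := by
  refine isBoundedAtImInfty_of_root_core m P.natDegree (fun i z => (P.coeff i).eval (jFun z))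
    (fun i _ => isBoundedAtImInfty_eval_jFun _ _ (hP.2 i)) (fun z => Y (g • z)) fun z => ?_
  have h := hY (g • z)
  rw [LevelOne.jFun_smul, eval_map_monic P hP.1] at h
  exact h

/-! ### (C2) Direction `⟹`: the norm polynomial has degree-bounded coefficients -/

section Cosets

variable (Γ : Subgroup SL(2, ℤ))

/-- The translate of `Y` attached to a left coset `g Γ`: `z ↦ Y (g⁻¹ z)`. -/
def cjt (Y : ℍ → ℂ) (q : SL(2, ℤ) ⧸ Γ) : ℍ → ℂ := fun z => Y ((Quotient.out q)⁻¹ • z)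

variable {Γ}

theorem cjt_mk {Y : ℍ → ℂ} (hinv : ∀ γ ∈ Γ, ∀ z : ℍ, Y (γ • z) = Y z) (g : SL(2, ℤ)) (z : ℍ) :
    cjt Γ Y (g : SL(2, ℤ) ⧸ Γ) z = Y (g⁻¹ • z) := by
  obtain ⟨h, hh⟩ := QuotientGroup.mk_out_eq_mul Γ g
  unfold cjt
  rw [hh, mul_inv_rev, mul_smul]
  exact hinv _ (Γ.inv_mem h.2) _

theorem cjt_smul {Y : ℍ → ℂ} (hinv : ∀ γ ∈ Γ, ∀ z : ℍ, Y (γ • z) = Y z) (h : SL(2, ℤ))
    (q : SL(2, ℤ) ⧸ Γ) (z : ℍ) : cjt Γ Y q (h • z) = cjt Γ Y (h⁻¹ • q) z := by
  induction q using QuotientGroup.induction_on with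
  | H g =>
    have e : (h⁻¹ • (g : SL(2, ℤ) ⧸ Γ)) = ((h⁻¹ * g : SL(2, ℤ)) : SL(2, ℤ) ⧸ Γ) := rfl
    rw [e, cjt_mk hinv, cjt_mk hinv, mul_inv_rev, inv_inv, mul_smul]

theorem mdiff_cjt {Y : ℍ → ℂ} (hY : MDiff Y) (q : SL(2, ℤ) ⧸ Γ) : MDiff (cjt Γ Y q) := by
  have h : MDiff (fun τ : ℍ => (Matrix.SpecialLinearGroup.mapGL ℝ (Quotient.out q)⁻¹) • τ) :=
    mdifferentiable_smul (by simp)
  exact hY.comp h

variable (Γ) [Γ.FiniteIndex]

/-- The `k`-th elementary symmetric function of the translates of `Y`. -/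
def esymF (Y : ℍ → ℂ) (k : ℕ) : ℍ → ℂ :=
  letI := Fintype.ofFinite (SL(2, ℤ) ⧸ Γ)
  ∑ S ∈ powersetCard k (univ : Finset (SL(2, ℤ) ⧸ Γ)), ∏ q ∈ S, cjt Γ Y q

variable {Γ}

theorem esymF_apply (Y : ℍ → ℂ) (k : ℕ) (z : ℍ) :
    letI := Fintype.ofFinite (SL(2, ℤ) ⧸ Γ)
    esymF Γ Y k z =
      ((univ : Finset (SL(2, ℤ) ⧸ Γ)).val.map fun q => cjt Γ Y q z).esymm k := by
  let _ := Fintype.ofFinite (SL(2, ℤ) ⧸ Γ)
  rw [Finset.esymm_map_val]
  simp [esymF, Finset.sum_apply, Finset.prod_apply]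

theorem mdiff_esymF {Y : ℍ → ℂ} (hY : MDiff Y) (k : ℕ) : MDiff (esymF Γ Y k) := by
  let _ := Fintype.ofFinite (SL(2, ℤ) ⧸ Γ)
  exact MDifferentiable.sum fun S _ => MDifferentiable.prod fun q _ => mdiff_cjt hY _

theorem esymF_smul {Y : ℍ → ℂ} (hinv : ∀ γ ∈ Γ, ∀ z : ℍ, Y (γ • z) = Y z) (k : ℕ)
    (h : SL(2, ℤ)) (z : ℍ) : esymF Γ Y k (h • z) = esymF Γ Y k z := by
  classical
  let _ := Fintype.ofFinite (SL(2, ℤ) ⧸ Γ)
  rw [esymF_apply, esymF_apply]
  congr 1
  set σ : Equiv.Perm (SL(2, ℤ) ⧸ Γ) := MulAction.toPerm (h⁻¹ : SL(2, ℤ)) with hσ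
  have e1 : (fun q : SL(2, ℤ) ⧸ Γ => cjt Γ Y q (h • z)) =
      (fun q : SL(2, ℤ) ⧸ Γ => cjt Γ Y q z) ∘ σ := by
    funext q
    rw [cjt_smul hinv]
    rfl
  rw [e1, ← Multiset.map_map]
  congr 1
  exact (Finset.map_val σ.toEmbedding univ).symm.trans
    (congrArg Finset.val (Finset.map_univ_equiv σ))

/-- The SHARP bound: if every translate of `Y` has a pole of order at most `m` at `i∞`, the
`k`-th elementary symmetric function has a pole of order at most `k * m`. -/
theorem bdd_esymF {Y : ℍ → ℂ} {m : ℕ}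
    (hb : ∀ g : SL(2, ℤ), IsBoundedAtImInfty (fun z : ℍ => Δ z ^ m * Y (g • z))) (k : ℕ) :
    IsBoundedAtImInfty (fun z => Δ z ^ (k * m) * esymF Γ Y k z) := by
  classical
  let _ := Fintype.ofFinite (SL(2, ℤ) ⧸ Γ)
  let B : Subalgebra ℂ (ℍ → ℂ) := boundedFilterSubalgebra ℂ atImInfty
  have h1 : ∀ q : SL(2, ℤ) ⧸ Γ, ((Δ : ℍ → ℂ) ^ m * cjt Γ Y q : ℍ → ℂ) ∈ B := fun q =>
    hb (Quotient.out q)⁻¹
  have e : (fun z => Δ z ^ (k * m) * esymF Γ Y k z) =
      ∑ S ∈ powersetCard k (univ : Finset (SL(2, ℤ) ⧸ Γ)),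
        ∏ q ∈ S, ((Δ : ℍ → ℂ) ^ m * cjt Γ Y q : ℍ → ℂ) := by
    have e' : (fun z => Δ z ^ (k * m) * esymF Γ Y k z) =
        ((Δ : ℍ → ℂ) ^ (k * m) : ℍ → ℂ) * esymF Γ Y k := rfl
    rw [e']
    unfold esymF
    rw [Finset.mul_sum]
    refine Finset.sum_congr rfl fun S hS => ?_
    rw [Finset.prod_mul_distrib, Finset.prod_const, (mem_powersetCard.mp hS).2, ← pow_mul,
      mul_comm m k]
  rw [e]
  exact B.sum_mem fun S _ => B.prod_mem fun q _ => h1 q

theorem esymF_zero (Y : ℍ → ℂ) (z : ℍ) : esymF Γ Y 0 z = 1 := by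
  simp [esymF]

theorem esym_relation {Y : ℍ → ℂ} (hinv : ∀ γ ∈ Γ, ∀ z : ℍ, Y (γ • z) = Y z) (z : ℍ) :
    ∑ j ∈ range (Nat.card (SL(2, ℤ) ⧸ Γ) + 1),
      (-1) ^ j * (esymF Γ Y j z * Y z ^ (Nat.card (SL(2, ℤ) ⧸ Γ) - j)) = 0 := by
  classical
  let _ := Fintype.ofFinite (SL(2, ℤ) ⧸ Γ)
  set s : Multiset ℂ := (univ : Finset (SL(2, ℤ) ⧸ Γ)).val.map fun q => cjt Γ Y q z with hs
  have hcard : Multiset.card s = Nat.card (SL(2, ℤ) ⧸ Γ) := by
    simp [hs, Nat.card_eq_fintype_card]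
  have hV := Multiset.prod_X_sub_X_eq_sum_esymm s
  have hmem : Y z ∈ s := by
    rw [hs, Multiset.mem_map]
    refine ⟨((1 : SL(2, ℤ)) : SL(2, ℤ) ⧸ Γ), by simp, ?_⟩
    rw [cjt_mk hinv, inv_one, one_smul]
  have hroot : ((s.map fun t => Polynomial.X - Polynomial.C t).prod).eval (Y z) = 0 := by
    rw [Polynomial.eval_multiset_prod]
    apply Multiset.prod_eq_zero
    rw [Multiset.mem_map]
    exact ⟨Polynomial.X - Polynomial.C (Y z), Multiset.mem_map.mpr ⟨Y z, hmem, rfl⟩, by simp⟩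
  rw [hV, Polynomial.eval_finsetSum, hcard] at hroot
  rw [← hroot]
  refine Finset.sum_congr rfl fun j _ => ?_
  have hes : s.esymm j = esymF Γ Y j z := (esymF_apply Y j z).symm
  simp [hes]

end Cosets

/-- **(K-CUSP), direction `⟹`.**  A holomorphic function `Y` on `ℍ`, invariant under a
finite-index subgroup `Γ ≤ SL(2, ℤ)`, all of whose `SL(2, ℤ)`-translates have a pole of order at
most `m` at `i∞`, is a root of a monic polynomial of degree `[SL(2, ℤ) : Γ]` over `ℂ[j]` whose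
coefficient of `X ^ (n - k)` has degree at most `k * m` in `j`. -/
theorem exists_degBdd_root (Γ : Subgroup SL(2, ℤ)) [Γ.FiniteIndex] (m : ℕ) (Y : ℍ → ℂ)
    (hY : MDiff Y) (hinv : ∀ γ ∈ Γ, ∀ z : ℍ, Y (γ • z) = Y z)
    (hbdd : ∀ g : SL(2, ℤ), IsBoundedAtImInfty (fun z : ℍ => Δ z ^ m * Y (g • z))) :
    ∃ P : ℂ[X][X], DegBdd m P ∧ P.natDegree = Γ.index ∧
      ∀ z : ℍ, (P.map (Polynomial.evalRingHom (jFun z))).eval (Y z) = 0 := by
  classical
  set n := Nat.card (SL(2, ℤ) ⧸ Γ) with hn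
  have hp : ∀ j : ℕ, ∃ p : ℂ[X], p.natDegree ≤ j * m ∧
      ∀ z, esymF Γ Y j z = p.eval (jFun z) := fun j =>
    LevelOne.exists_polynomial_of_invariant (mdiff_esymF hY j) (esymF_smul hinv j) (j * m)
      (bdd_esymF hbdd j)
  choose p hpdeg hp using hp
  let a : ℕ → ℂ[X] := fun i => C ((-1 : ℂ) ^ (n - i)) * p (n - i)
  let P : ℂ[X][X] := X ^ n + ∑ i : Fin n, C (a i) * X ^ (i : ℕ)
  have hdeg : (∑ i : Fin n, C (a i) * X ^ (i : ℕ) : ℂ[X][X]).degree < n :=
    Polynomial.degree_sum_fin_lt _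
  have hmonic : P.Monic := Polynomial.monic_X_pow_add hdeg
  have hnat : P.natDegree = n := by
    apply Polynomial.natDegree_eq_of_degree_eq_some
    rw [Polynomial.degree_add_eq_left_of_degree_lt (by rwa [Polynomial.degree_X_pow]),
      Polynomial.degree_X_pow]
  have hcoeff : ∀ k, k < n → P.coeff k = a k := by
    intro k hk
    simp only [P, Polynomial.coeff_add, Polynomial.coeff_X_pow, Polynomial.finsetSum_coeff,
      Polynomial.coeff_C_mul_X_pow]
    rw [if_neg hk.ne, zero_add, Finset.sum_eq_single (⟨k, hk⟩ : Fin n)]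
    · simp
    · intro b _ hb
      rw [if_neg]
      intro h
      exact hb (Fin.ext h.symm)
    · intro h
      exact absurd (Finset.mem_univ _) h
  refine ⟨P, ⟨hmonic, fun k => ?_⟩, hnat, fun z => ?_⟩
  · rw [hnat]
    rcases lt_trichotomy k n with hk | hk | hk
    · rw [hcoeff k hk]
      exact (Polynomial.natDegree_C_mul_le _ _).trans (hpdeg (n - k))
    · rw [hk, ← hnat, hmonic.coeff_natDegree]
      simp
    · rw [Polynomial.coeff_eq_zero_of_natDegree_lt (by rw [hnat]; exact hk)]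
      simp
  · rw [eval_map_monic P hmonic, hnat]
    have h := esym_relation hinv z
    rw [Finset.sum_range_succ'] at h
    simp only [pow_zero, one_mul, esymF_zero, Nat.sub_zero] at h
    rw [add_comm] at h
    rw [← h]
    congr 1
    rw [← Finset.sum_range_reflect]
    refine Finset.sum_congr rfl fun j hj => ?_
    have hj' : j < n := Finset.mem_range.mp hj
    have e1 : n - (n - 1 - j) = j + 1 := by omega
    have e2 : n - 1 - j = n - (j + 1) := by omega
    rw [hcoeff _ (by omega), Polynomial.coe_evalRingHom]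
    simp only [a]
    rw [e1, e2, Polynomial.eval_mul, Polynomial.eval_C, ← hp]
    ring

/-- **(K-CUSP)** as an equivalence, for a holomorphic `Γ`-invariant function. -/
theorem forall_isBoundedAtImInfty_iff (Γ : Subgroup SL(2, ℤ)) [Γ.FiniteIndex] (m : ℕ)
    (Y : ℍ → ℂ) (hY : MDiff Y) (hinv : ∀ γ ∈ Γ, ∀ z : ℍ, Y (γ • z) = Y z) :
    (∀ g : SL(2, ℤ), IsBoundedAtImInfty (fun z : ℍ => Δ z ^ m * Y (g • z))) ↔
      ∃ P : ℂ[X][X], DegBdd m P ∧
        ∀ z : ℍ, (P.map (Polynomial.evalRingHom (jFun z))).eval (Y z) = 0 := by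
  constructor
  · intro h
    obtain ⟨P, hP, -, hroot⟩ := exists_degBdd_root Γ m Y hY hinv h
    exact ⟨P, hP, hroot⟩
  · rintro ⟨P, hP, hroot⟩ g
    exact isBoundedAtImInfty_of_root m P hP Y hroot g

/-! ### (C3) Stability under coefficient maps -/

/-- `DegBdd` is stable under a ring homomorphism acting on the coefficients of the coefficients
(e.g. a field automorphism of `ℂ`). -/
theorem DegBdd.map {R S : Type*} [CommRing R] [CommRing S] [Nontrivial S] {m : ℕ} {P : R[X][X]}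
    (h : DegBdd m P) (σ : R →+* S) : DegBdd m (P.map (Polynomial.mapRingHom σ)) := by
  refine ⟨h.1.map _, fun k => ?_⟩
  rw [h.1.natDegree_map, Polynomial.coeff_map, Polynomial.coe_mapRingHom]
  exact (Polynomial.natDegree_map_le).trans (h.2 k)

/-- Transport of the evaluation `P(J)(y)` along a `σ`-semilinear ring homomorphism `φ`. -/
theorem eval_transport {K K' T T' : Type*} [CommRing K] [CommRing K'] [CommRing T] [CommRing T']
    [Algebra K T] [Algebra K' T'] (σ : K →+* K') (φ : T →+* T')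
    (hφ : ∀ a : K, φ (algebraMap K T a) = algebraMap K' T' (σ a)) (P : K[X][X]) (J y : T) :
    φ ((P.map (Polynomial.aeval J : K[X] →ₐ[K] T).toRingHom).eval y) =
      ((P.map (Polynomial.mapRingHom σ)).map
        (Polynomial.aeval (φ J) : K'[X] →ₐ[K'] T').toRingHom).eval (φ y) := by
  have hcomp : φ.comp (Polynomial.aeval J : K[X] →ₐ[K] T).toRingHom =
      ((Polynomial.aeval (φ J) : K'[X] →ₐ[K'] T').toRingHom).comp (Polynomial.mapRingHom σ) := by
    refine Polynomial.ringHom_ext (fun a => ?_) ?_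
    · simp [hφ]
    · simp
  rw [Polynomial.map_map, Polynomial.eval_map, Polynomial.eval_map, Polynomial.hom_eval₂, hcomp]

/-- The root equation `P(J)(y) = 0` in `L((q))` is stable under the coefficientwise action of a
ring endomorphism `σ` of `L` fixing `J`. -/
theorem root_coeffMap {L : Type*} [Field L] (σ : L →+* L) (P : L[X][X]) (J y : LaurentSeries L)
    (hJ : ModularCurve.coeffMap σ J = J)
    (h : (P.map (Polynomial.aeval J : L[X] →ₐ[L] LaurentSeries L).toRingHom).eval y = 0) :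
    ((P.map (Polynomial.mapRingHom σ)).map
      (Polynomial.aeval J : L[X] →ₐ[L] LaurentSeries L).toRingHom).eval
        (ModularCurve.coeffMap σ y) = 0 := by
  have e := eval_transport σ (ModularCurve.coeffMap σ) (ModularCurve.coeffMap_algebraMap σ) P J y
  rw [h, map_zero, hJ] at e
  exact e.symm

end Fermat.Agent.S29.CuspRoot
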