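/-
S29 block [Cyc], B-copy — CycB.lean (helper106).

The mod-`p` cyclotomic character of `Gal(ℚ̄/ℚ)` with values in a field `𝔽` of characteristic `p`:

* `chi hζ : GQ →* (ZMod p)ˣ` — `σ ζ = ζ ^ (chi σ)` for a fixed primitive `p`-th root of unity `ζ`
  (`IsPrimitiveRoot.autToPow`);
* `chi_eq_of_isFrobeniusAt` — `chi σ = ℓ` for every Frobenius element `σ` at a valuation subring
  `A` of `ℚ̄` over a prime `ℓ ≠ p`;
* `chi_eq_one_of_mem_inertia` — `chi τ = 1` for `τ` in the inertia group of such an `A`;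
* `cycStatement` — the leaf `Fermat.Agent.S29.CycStatement p 𝔽` (verbatim).

Key point: a primitive `p`-th root of unity stays primitive in the residue field of `A` as soon
as the residue characteristic `ℓ` is different from `p` (`1 + ζ + … + ζ^{p-1} = 0`).
-/
import Mathlib
import Fermat.Agent.S29.Defs

set_option autoImplicit false

noncomputable section

namespace Fermat.Agent.S29.CycB

open Fermat.Agent.S29

/-- In any monoid, equal powers of an element of positive order have congruent exponents. -/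
theorem modEq_of_pow_eq {M : Type*} [Monoid M] {x : M} {a b : ℕ} (hx : 0 < orderOf x)
    (h : x ^ a = x ^ b) : a ≡ b [MOD orderOf x] := by
  have h1 : x ^ (a % orderOf x) = x ^ (b % orderOf x) := by
    rw [pow_mod_orderOf, pow_mod_orderOf, h]
  exact pow_injOn_Iio_orderOf (Nat.mod_lt _ hx) (Nat.mod_lt _ hx) h1

/-! ### Roots of unity in a valuation subring and its residue field -/

section Residue

variable {L : Type*} [Field L]

/-- A root of unity lies in every valuation subring. -/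
theorem mem_of_pow_eq_one (A : ValuationSubring L) {ζ : L} {n : ℕ} (hn : n ≠ 0)
    (h : ζ ^ n = 1) : ζ ∈ A := by
  rcases A.mem_or_inv_mem ζ with h1 | h1
  · exact h1
  · obtain ⟨m, rfl⟩ := Nat.exists_eq_succ_of_ne_zero hn
    have hζ0 : ζ ≠ 0 := by
      rintro rfl
      simp at h
    have h2 : ζ = ζ⁻¹ ^ m := by
      rw [inv_pow]
      rw [pow_succ] at h
      exact eq_inv_of_mul_eq_one_right h
    rw [h2]
    exact pow_mem h1 m

/-- If the residue characteristic `ℓ` is a prime different from the prime `p`, a primitive `p`-th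
root of unity in a valuation subring `A` has a residue class of order `p`. -/
theorem orderOf_residue (A : ValuationSubring L) {p ℓ : ℕ} (hp : p.Prime) (hℓ : ℓ.Prime)
    (hℓp : ℓ ≠ p) (hA : (ℓ : L) ∈ A.nonunits) {ζ : L} (hζ : IsPrimitiveRoot ζ p) (hζA : ζ ∈ A) :
    orderOf (IsLocalRing.residue A ⟨ζ, hζA⟩) = p := by
  have : Fact p.Prime := ⟨hp⟩
  set z : A := ⟨ζ, hζA⟩ with hz
  have hzp : z ^ p = 1 := Subtype.ext (by simpa [hz] using hζ.pow_eq_one)
  have hsum : ∑ i ∈ Finset.range p, z ^ i = 0 := by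
    apply Subtype.ext
    have := hζ.geom_sum_eq_zero hp.one_lt
    simpa [hz] using this
  have hℓ0 : IsLocalRing.residue A (ℓ : A) = 0 := by
    rw [IsLocalRing.residue_eq_zero_iff]
    obtain ⟨ha, hm⟩ := ValuationSubring.mem_nonunits_iff_exists_mem_maximalIdeal.mp hA
    have : (⟨(ℓ : L), ha⟩ : A) = (ℓ : A) := Subtype.ext (by simp)
    rwa [this] at hm
  apply orderOf_eq_prime
  · rw [← map_pow, hzp, map_one]
  · intro h1
    have h2 := congrArg (IsLocalRing.residue A) hsum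
    rw [map_sum, map_zero] at h2
    simp only [map_pow, h1, one_pow, Finset.sum_const, Finset.card_range, nsmul_eq_mul,
      mul_one] at h2
    -- now `p = 0` and `ℓ = 0` in the residue field
    have hcop : Nat.Coprime p ℓ := (Nat.coprime_primes hp hℓ).mpr (Ne.symm hℓp)
    have h3 : ((Nat.gcd p ℓ : ℕ) : IsLocalRing.ResidueField A) = 0 := by
      have hb := Nat.gcd_eq_gcd_ab p ℓ
      have : ((Nat.gcd p ℓ : ℤ) : IsLocalRing.ResidueField A) = 0 := by
        rw [hb]
        push_cast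
        have hℓ0' : (ℓ : IsLocalRing.ResidueField A) = 0 := by
          simpa using hℓ0
        rw [h2, hℓ0']
        ring
      exact_mod_cast this
    rw [hcop] at h3
    simp at h3

end Residue

/-! ### The character -/

section Chi

variable {p : ℕ} [NeZero p] {ζ : Qb} (hζ : IsPrimitiveRoot ζ p)

/-- The mod-`p` cyclotomic character: `σ ζ = ζ ^ (chi σ)`. -/
def chi : GQ →* (ZMod p)ˣ := hζ.autToPow ℚ

theorem chi_spec (σ : GQ) : ζ ^ ((chi hζ σ : (ZMod p)ˣ) : ZMod p).val = σ ζ :=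
  hζ.autToPow_spec ℚ σ

include hζ in
/-- `chi σ` is determined by any exponent `n` with `σ ζ = ζ ^ n`. -/
theorem chi_eq_of_apply_eq (σ : GQ) (n : ℕ) (h : σ ζ = ζ ^ n) :
    ((chi hζ σ : (ZMod p)ˣ) : ZMod p) = (n : ZMod p) := by
  have h1 : ζ ^ ((chi hζ σ : (ZMod p)ˣ) : ZMod p).val = ζ ^ n := (chi_spec hζ σ).trans h
  have h2 : ((chi hζ σ : (ZMod p)ˣ) : ZMod p).val ≡ n [MOD p] := by
    have hord : orderOf ζ = p := hζ.eq_orderOf.symm
    have := modEq_of_pow_eq (by rw [hord]; exact Nat.pos_of_ne_zero (NeZero.ne p)) h1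
    rwa [hord] at this
  have h3 := (ZMod.natCast_eq_natCast_iff _ _ p).mpr h2
  rwa [ZMod.natCast_zmod_val] at h3

end Chi

section Local

variable {p : ℕ} [NeZero p] {ζ : Qb} (hζ : IsPrimitiveRoot ζ p)

include hζ in
/-- If `g` in the decomposition group of `A` acts on the residue class of `ζ` as the `n`-th
power, then `chi g = n` (residue characteristic `ℓ ≠ p`). -/
theorem chi_eq_of_residue (hp : p.Prime) {ℓ : ℕ} (hℓ : ℓ.Prime) (hℓp : ℓ ≠ p)
    (A : ValuationSubring Qb) (hA : A.LiesOverPrime ℓ)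
    (g : A.decompositionSubgroup ℚ) (n : ℕ)
    (h : g • IsLocalRing.residue A ⟨ζ, mem_of_pow_eq_one A (NeZero.ne p) hζ.pow_eq_one⟩ =
      IsLocalRing.residue A ⟨ζ, mem_of_pow_eq_one A (NeZero.ne p) hζ.pow_eq_one⟩ ^ n) :
    ((chi hζ (g : GQ) : (ZMod p)ˣ) : ZMod p) = (n : ZMod p) := by
  set hζA := mem_of_pow_eq_one A (NeZero.ne p) hζ.pow_eq_one with hζA_def
  set z : A := ⟨ζ, hζA⟩ with hz
  have hord := orderOf_residue A hp hℓ hℓp hA hζ hζA
  -- `g • z = z ^ m` with `m = (chi g).val`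
  have hgz : g • z = z ^ ((chi hζ (g : GQ) : (ZMod p)ˣ) : ZMod p).val := by
    apply Subtype.ext
    have := chi_spec hζ (g : GQ)
    show (g : GQ) ζ = _
    rw [← this]
    simp [hz]
  have h1 : IsLocalRing.residue A z ^ ((chi hζ (g : GQ) : (ZMod p)ˣ) : ZMod p).val =
      IsLocalRing.residue A z ^ n := by
    rw [← map_pow, ← hgz, IsLocalRing.ResidueField.residue_smul]
    exact h
  have h2 : ((chi hζ (g : GQ) : (ZMod p)ˣ) : ZMod p).val ≡ n [MOD p] := by
    have := modEq_of_pow_eq (by rw [hord]; exact hp.pos) h1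
    rwa [hord] at this
  have h3 := (ZMod.natCast_eq_natCast_iff _ _ p).mpr h2
  rwa [ZMod.natCast_zmod_val] at h3

include hζ in
/-- The cyclotomic character at a Frobenius element over `ℓ ≠ p` is `ℓ`. -/
theorem chi_eq_of_isFrobeniusAt (hp : p.Prime) {ℓ : ℕ} (hℓ : ℓ.Prime) (hℓp : ℓ ≠ p)
    (A : ValuationSubring Qb) (hA : A.LiesOverPrime ℓ) (σ : GQ) (hσ : A.IsFrobeniusAt σ ℓ) :
    ((chi hζ σ : (ZMod p)ˣ) : ZMod p) = (ℓ : ZMod p) := by
  obtain ⟨hmem, hfrob⟩ := hσ
  exact chi_eq_of_residue hζ hp hℓ hℓp A hA ⟨σ, hmem⟩ ℓ (hfrob _)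

include hζ in
/-- The cyclotomic character is trivial on inertia over `ℓ ≠ p`. -/
theorem chi_eq_one_of_mem_inertia (hp : p.Prime) {ℓ : ℕ} (hℓ : ℓ.Prime) (hℓp : ℓ ≠ p)
    (A : ValuationSubring Qb) (hA : A.LiesOverPrime ℓ) (τ : GQ)
    (hτ : τ ∈ A.inertiaSubgroupIn ℚ) : chi hζ τ = 1 := by
  obtain ⟨g, hg, rfl⟩ := hτ
  have hg' : ∀ x : IsLocalRing.ResidueField A, g • x = x := by
    intro x
    have h1 : MulSemiringAction.toRingAut (A.decompositionSubgroup ℚ)
        (IsLocalRing.ResidueField A) g = 1 := hg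
    have h2 := congrArg (fun e : RingAut (IsLocalRing.ResidueField A) => e x) h1
    exact h2
  have h := chi_eq_of_residue hζ hp hℓ hℓp A hA g 1 (by rw [hg', pow_one])
  apply Units.ext
  rw [Units.val_one]
  simpa using h

end Local

/-! ### The leaf -/

/-- **[Cyc]**: the mod-`p` cyclotomic character with values in a field of characteristic `p`. -/
theorem cycStatement (p : ℕ) (hp : p.Prime) (𝔽 : Type) [Field 𝔽] [CharP 𝔽 p] :
    CycStatement p 𝔽 := by
  have : NeZero p := ⟨hp.ne_zero⟩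
  obtain ⟨ζ, hζ⟩ := HasEnoughRootsOfUnity.exists_primitiveRoot Qb p
  let c : ZMod p →+* 𝔽 := ZMod.castHom (dvd_refl p) 𝔽
  refine ⟨(Units.map (c : ZMod p →* 𝔽)).comp (chi hζ), ?_, ?_, ?_⟩
  · -- finite level `ℚ(ζ)`
    have hint : IsIntegral ℚ ζ := (hζ.isIntegral hp.pos).tower_top
    refine ⟨IntermediateField.adjoin ℚ {ζ}, IntermediateField.adjoin.finiteDimensional hint, ?_⟩
    intro σ hσ
    have h1 : σ ζ = ζ ^ 1 := by
      rw [pow_one]
      exact hσ ζ (IntermediateField.mem_adjoin_simple_self ℚ ζ)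
    have h2 := chi_eq_of_apply_eq hζ σ 1 h1
    have h3 : chi hζ σ = 1 := by
      apply Units.ext
      rw [Units.val_one]
      simpa using h2
    rw [MonoidHom.comp_apply, h3, map_one]
  · intro ℓ hℓ hℓp A hA σ hσ
    have h := chi_eq_of_isFrobeniusAt hζ hp hℓ hℓp A hA σ hσ
    rw [MonoidHom.comp_apply, Units.coe_map]
    show c ((chi hζ σ : (ZMod p)ˣ) : ZMod p) = (ℓ : 𝔽)
    rw [h, map_natCast]
  · intro ℓ hℓ hℓp A hA τ hτ
    rw [MonoidHom.comp_apply, chi_eq_one_of_mem_inertia hζ hp hℓ hℓp A hA τ hτ, map_one]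

end Fermat.Agent.S29.CycB
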