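/-
S29 block [K], pre-build (helper115): the degree of the modular function field over `k(j)` is
invariant under extension of the constant field, and the two shapes of `F_L` agree.

* `laurentBaseChange_full_eq_fullC` : `laurentBaseChange L (modularFunctionFieldFull N)
    = modularFunctionFieldFullC L N` (so `modularFunctionFieldBar N = modularFunctionFieldFullC ℚ̄ N`
    and `K.FC N = modularFunctionFieldFullC ℂ N`).
* `coeffMap_mem_fullC`, `mapFull` : coefficientwise base change `F_K → F_L` along `φ : K →+* L`.
* `linearIndependent_mapFull` : `K(j)`-linearly independent families of `F_K` stay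
    `L(j)`-linearly independent in `F_L`.
* `finrank_fullC_eq_of_ringHom` : `[F_L : L(j)] = [F_K : K(j)]`.
* `finrank_fullC_of_charZero`, `finrank_fullC_complex` : `[F_L : L(j)] = ψ(N)` in characteristic `0`.
* `finrank_laurentBaseChange`, `isFF1_laurentBaseChange` : the same in the `laurentBaseChange` shape.

Pure algebra: base change of linear independence (`S24.linearIndependent_coeffMap`) for the
`K`-independent family `j ^ a * b i`, and "a finite-dimensional subalgebra of a field is a field".
-/
import Mathlib
import Fermat.Prelude.Def_ModularCurve_X0ModL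
import Fermat.Prelude.Def_ModularCurve_ArithmeticGalois
import Fermat.Agent.S24.Defs
import Fermat.Agent.S24.BaseChangeLI
import Fermat.Agent.S24.TranscJ
import Fermat.Agent.S24.DegreeBound
import Fermat.Agent.S18.SepDeg
import Fermat.Agent.S37.W.Degree

set_option autoImplicit false
set_option linter.style.haveILetI false
set_option linter.unusedSectionVars false
set_option synthInstance.maxHeartbeats 400000
set_option maxHeartbeats 1000000

namespace Fermat.Agent.S29.DegC

open Module ModularCurve IntermediateField Polynomial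
open Fermat.Agent.S18

/-! ### An abstract degree comparison -/

section Abstract

variable {E F E' F' : Type*} [Field E] [Field F] [Algebra E F] [Field E'] [Field F'] [Algebra E' F']

/-- If `F'` is generated as a field by `E'` and the image of `ψ : F → F'`, where `ψ` is compatible
with `ψ₀ : E → E'`, then the image of an `E`-basis of `F` spans `F'` over `E'`. -/
theorem span_map_basis_eq_top (ψ₀ : E →+* E') (ψ : F →+* F')
    (hcomp : ∀ e : E, ψ (algebraMap E F e) = algebraMap E' F' (ψ₀ e))
    (hgen : IntermediateField.adjoin E' (Set.range ψ) = ⊤)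
    {ι : Type*} [Finite ι] (b : Basis ι E F) :
    Submodule.span E' (Set.range (fun i => ψ (b i))) = ⊤ := by
  classical
  haveI := Fintype.ofFinite ι
  set M : Submodule E' F' := Submodule.span E' (Set.range (fun i => ψ (b i))) with hM
  have h1 : ∀ x : F, ψ x ∈ M := by
    intro x
    have hx : x = ∑ i, b.repr x i • b i := (b.sum_repr x).symm
    rw [hx, map_sum]
    refine Submodule.sum_mem _ fun i _ => ?_
    rw [Algebra.smul_def, map_mul, hcomp, ← Algebra.smul_def]
    exact Submodule.smul_mem _ _ (Submodule.subset_span ⟨i, rfl⟩)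
  have hone : (1 : F') ∈ M := by simpa using h1 1
  have hmul : ∀ x y : F', x ∈ M → y ∈ M → x * y ∈ M := by
    intro x y hx hy
    have hxy : x * y ∈ M * M := Submodule.mul_mem_mul hx hy
    have hMM : M * M ≤ M := by
      rw [hM, Submodule.span_mul_span, Submodule.span_le]
      rintro _ ⟨_, ⟨i, rfl⟩, _, ⟨j, rfl⟩, rfl⟩
      simpa using h1 (b i * b j)
    exact hMM hxy
  let A : Subalgebra E' F' := M.toSubalgebra hone hmul
  have hAM : Subalgebra.toSubmodule A = M := Submodule.toSubalgebra_toSubmodule M hone hmul
  haveI hfinM : FiniteDimensional E' M := FiniteDimensional.span_of_finite E' (Set.finite_range _)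
  haveI hfinA : FiniteDimensional E' A := by
    rw [← Subalgebra.finiteDimensional_toSubmodule, hAM]
    exact hfinM
  have hinv : ∀ x ∈ A, x⁻¹ ∈ A := by
    intro x hx
    have halg : IsAlgebraic E' (⟨x, hx⟩ : A) := Algebra.IsAlgebraic.isAlgebraic _
    have halg' : IsAlgebraic E' ((⟨x, hx⟩ : A) : F') := halg.algebraMap (A := F')
    exact A.inv_mem_of_algebraic (x := ⟨x, hx⟩) halg'
  let A' : IntermediateField E' F' := A.toIntermediateField hinv
  have hle : IntermediateField.adjoin E' (Set.range ψ) ≤ A' := by
    rw [IntermediateField.adjoin_le_iff]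
    rintro _ ⟨x, rfl⟩
    exact h1 x
  rw [hgen] at hle
  rw [eq_top_iff]
  intro y _
  exact hle (IntermediateField.mem_top (x := y))

/-- Degree bound under generation. -/
theorem finrank_le_of_adjoin_range_eq_top [FiniteDimensional E F] (ψ₀ : E →+* E') (ψ : F →+* F')
    (hcomp : ∀ e : E, ψ (algebraMap E F e) = algebraMap E' F' (ψ₀ e))
    (hgen : IntermediateField.adjoin E' (Set.range ψ) = ⊤) :
    FiniteDimensional E' F' ∧ Module.finrank E' F' ≤ Module.finrank E F := by
  classical
  let b := Module.finBasis E F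
  have hspan := span_map_basis_eq_top ψ₀ ψ hcomp hgen b
  have hfin : FiniteDimensional E' F' := by
    refine Module.finite_def.mpr ?_
    rw [← hspan]
    exact Submodule.fg_span (Set.finite_range _)
  refine ⟨hfin, ?_⟩
  have h := finrank_range_le_card (R := E') (fun i => ψ (b i))
  rw [Set.finrank, hspan, finrank_top, Fintype.card_fin] at h
  exact h

/-- Powers of a transcendental element are linearly independent. -/
theorem linearIndependent_pow_of_transcendental {R A : Type*} [CommRing R] [Ring A] [Algebra R A]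
    {x : A} (hx : Transcendental R x) : LinearIndependent R (fun a : ℕ => x ^ a) := by
  have hinj : Function.Injective (Polynomial.aeval x : R[X] →ₐ[R] A) :=
    transcendental_iff_injective.mp hx
  have h := (Polynomial.basisMonomials R).linearIndependent.map' (Polynomial.aeval x).toLinearMap
    (LinearMap.ker_eq_bot.mpr hinj)
  have heq : ((Polynomial.aeval x).toLinearMap ∘ ⇑(Polynomial.basisMonomials R))
      = fun a : ℕ => x ^ a := by
    funext a
    simp [Polynomial.aeval_monomial]
  rw [heq] at h
  exact h

end Abstract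

/-! ### Coefficientwise base change of the modular function field -/

section CoeffMap

variable {K L : Type*} [Field K] [Field L] (φ : K →+* L) (N : ℕ) [NeZero N]

omit [NeZero N] in
theorem coeffMap_algebraMap (c : K) :
    coeffMap φ (algebraMap K (LaurentSeries K) c) = algebraMap L (LaurentSeries L) (φ c) := by
  rw [algebraMap_laurentSeries_eq_single, algebraMap_laurentSeries_eq_single, coeffMap_single]

omit [NeZero N] in
/-- **(B2)** Coefficientwise base change maps `F_K` into `F_L`. -/
theorem coeffMap_mem_fullC {x : LaurentSeries K} (hx : x ∈ modularFunctionFieldFullC K N) :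
    coeffMap φ x ∈ modularFunctionFieldFullC L N := by
  change x ∈ IntermediateField.adjoin K (divisorExpansionsC K N) at hx
  induction hx using IntermediateField.adjoin_induction with
  | mem x hx =>
    obtain ⟨d, hd, hdN, rfl⟩ := hx
    rw [coeffMap_qExpand, coeffMap_jqModC]
    exact jqModCd_mem_full L N hdN
  | algebraMap c =>
    rw [coeffMap_algebraMap]
    exact (modularFunctionFieldFullC L N).algebraMap_mem _
  | add _ _ _ _ hx hy =>
    rw [map_add]
    exact add_mem hx hy
  | inv _ _ hx =>
    rw [map_inv₀]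
    exact inv_mem hx
  | mul _ _ _ _ hx hy =>
    rw [map_mul]
    exact mul_mem hx hy

/-- Coefficientwise base change `F_K → F_L` as a ring homomorphism. -/
noncomputable def mapFull :
    ↥(modularFunctionFieldFullC K N) →+* ↥(modularFunctionFieldFullC L N) where
  toFun x := ⟨coeffMap φ x, coeffMap_mem_fullC φ N x.2⟩
  map_one' := Subtype.ext (map_one (coeffMap φ))
  map_mul' _ _ := Subtype.ext (map_mul (coeffMap φ) _ _)
  map_zero' := Subtype.ext (map_zero (coeffMap φ))
  map_add' _ _ := Subtype.ext (map_add (coeffMap φ) _ _)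

@[simp]
theorem coe_mapFull (x : ↥(modularFunctionFieldFullC K N)) :
    ((mapFull φ N x : ↥(modularFunctionFieldFullC L N)) : LaurentSeries L) = coeffMap φ x := rfl

theorem mapFull_jb : mapFull φ N (SepDeg.jb K N) = SepDeg.jb L N :=
  Subtype.ext (coeffMap_jqModC φ)

theorem mapFull_algebraMap (c : K) :
    mapFull φ N (algebraMap K ↥(modularFunctionFieldFullC K N) c)
      = algebraMap L ↥(modularFunctionFieldFullC L N) (φ c) :=
  Subtype.ext (coeffMap_algebraMap φ c)

theorem mapFull_mem_adjoin {e : ↥(modularFunctionFieldFullC K N)}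
    (he : e ∈ K⟮SepDeg.jb K N⟯) : mapFull φ N e ∈ L⟮SepDeg.jb L N⟯ := by
  induction he using IntermediateField.adjoin_induction with
  | mem x hx =>
    rw [Set.mem_singleton_iff] at hx
    subst hx
    rw [mapFull_jb]
    exact IntermediateField.mem_adjoin_simple_self L _
  | algebraMap c =>
    rw [mapFull_algebraMap]
    exact (L⟮SepDeg.jb L N⟯).algebraMap_mem _
  | add _ _ _ _ hx hy =>
    rw [map_add]
    exact add_mem hx hy
  | inv _ _ hx =>
    rw [map_inv₀]
    exact inv_mem hx
  | mul _ _ _ _ hx hy =>
    rw [map_mul]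
    exact mul_mem hx hy

/-- The restriction of `mapFull` to `K(j) → L(j)`. -/
noncomputable def mapBase : ↥(K⟮SepDeg.jb K N⟯) →+* ↥(L⟮SepDeg.jb L N⟯) where
  toFun e := ⟨mapFull φ N e, mapFull_mem_adjoin φ N e.2⟩
  map_one' := Subtype.ext (map_one (mapFull φ N))
  map_mul' _ _ := Subtype.ext (map_mul (mapFull φ N) _ _)
  map_zero' := Subtype.ext (map_zero (mapFull φ N))
  map_add' _ _ := Subtype.ext (map_add (mapFull φ N) _ _)

theorem mapFull_algebraMap_base (e : ↥(K⟮SepDeg.jb K N⟯)) :
    mapFull φ N (algebraMap ↥(K⟮SepDeg.jb K N⟯) ↥(modularFunctionFieldFullC K N) e)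
      = algebraMap ↥(L⟮SepDeg.jb L N⟯) ↥(modularFunctionFieldFullC L N) (mapBase φ N e) := rfl

/-- `F_L` is generated over `L(j)` by the image of `F_K`. -/
theorem adjoin_range_mapFull_eq_top :
    IntermediateField.adjoin ↥(L⟮SepDeg.jb L N⟯) (Set.range (mapFull φ N)) = ⊤ := by
  rw [eq_top_iff]
  intro y _
  let T : IntermediateField L ↥(modularFunctionFieldFullC L N) :=
    (IntermediateField.adjoin ↥(L⟮SepDeg.jb L N⟯) (Set.range (mapFull φ N))).restrictScalars L
  have hle : IntermediateField.adjoin L (divisorExpansionsC L N)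
      ≤ T.map (modularFunctionFieldFullC L N).val := by
    rw [IntermediateField.adjoin_le_iff]
    rintro _ ⟨d, hd, hdN, rfl⟩
    refine ⟨mapFull φ N ⟨qExpand K d (jqModC K), jqModCd_mem_full K N hdN⟩, ?_, ?_⟩
    · show mapFull φ N _ ∈
        IntermediateField.adjoin ↥(L⟮SepDeg.jb L N⟯) (Set.range (mapFull φ N))
      exact IntermediateField.subset_adjoin _ _ (Set.mem_range_self _)
    · show coeffMap φ (qExpand K d (jqModC K)) = _
      rw [coeffMap_qExpand, coeffMap_jqModC]
  obtain ⟨y', hy', hyy'⟩ := hle y.2
  have hy : y' = y := Subtype.ext hyy'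
  have hy'' : y' ∈ IntermediateField.adjoin ↥(L⟮SepDeg.jb L N⟯) (Set.range (mapFull φ N)) := hy'
  rw [← hy]
  exact hy''

omit [NeZero N] in
/-- `j` is transcendental over the constants (any field). -/
theorem transcendental_jb (K : Type*) [Field K] (N : ℕ) : Transcendental K (SepDeg.jb K N) := by
  have htr : Transcendental K (jqModC K) :=
    Fermat.Agent.S24.transcendental_of_coeff_neg_ne_zero _ (-1) (by norm_num)
      (by rw [coeff_jqModC_neg_one]; exact one_ne_zero)
  intro halg
  exact htr (halg.algebraMap (A := LaurentSeries K))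

/-- The family `j ^ a * v i` is `K`-linearly independent in `K((q))` when `v` is
`K(j)`-linearly independent in `F_K`. -/
theorem linearIndependent_pow_mul {ι : Type*} (K : Type*) [Field K] (N : ℕ) [NeZero N]
    (v : ι → ↥(modularFunctionFieldFullC K N)) (hv : LinearIndependent ↥(K⟮SepDeg.jb K N⟯) v) :
    LinearIndependent K (fun p : ℕ × ι => jqModC K ^ p.1 * (v p.2 : LaurentSeries K)) := by
  have htr : Transcendental K (AdjoinSimple.gen K (SepDeg.jb K N)) := by
    intro halg
    exact transcendental_jb K N (halg.algebraMap (A := ↥(modularFunctionFieldFullC K N)))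
  have hb : LinearIndependent K (fun a : ℕ => (AdjoinSimple.gen K (SepDeg.jb K N)) ^ a) :=
    linearIndependent_pow_of_transcendental htr
  have h1 := linearIndependent_smul hb hv
  let ιl : ↥(modularFunctionFieldFullC K N) →ₗ[K] LaurentSeries K :=
    { toFun := fun y => (y : LaurentSeries K)
      map_add' := fun _ _ => rfl
      map_smul' := fun a y => by
        rw [RingHom.id_apply, Fermat.Agent.S24.DegreeBound.smul_eq_algebraMap_mul,
          Algebra.smul_def, MulMemClass.coe_mul]
        rfl }
  have h2 := h1.map' ιl (LinearMap.ker_eq_bot.mpr Subtype.val_injective)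
  have heq : (⇑ιl ∘ fun p : ℕ × ι => (AdjoinSimple.gen K (SepDeg.jb K N)) ^ p.1 • v p.2)
      = fun p : ℕ × ι => jqModC K ^ p.1 * (v p.2 : LaurentSeries K) := by
    funext p
    show ((((AdjoinSimple.gen K (SepDeg.jb K N)) ^ p.1 • v p.2 :
      ↥(modularFunctionFieldFullC K N)) : LaurentSeries K)) = _
    rw [Algebra.smul_def, MulMemClass.coe_mul]
    rfl
  rw [heq] at h2
  exact h2

open scoped IntermediateField.algebraAdjoinAdjoin in
/-- **Base change of linear independence over `k(j)`.** -/
theorem linearIndependent_mapFull {ι : Type*} (v : ι → ↥(modularFunctionFieldFullC K N))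
    (hv : LinearIndependent ↥(K⟮SepDeg.jb K N⟯) v) :
    LinearIndependent ↥(L⟮SepDeg.jb L N⟯) (fun i => mapFull φ N (v i)) := by
  classical
  -- the `L`-independent family `j ^ a * coeffMap φ (v i)`
  have hW : LinearIndependent L
      (fun p : ℕ × ι => jqModC L ^ p.1 * coeffMap φ (v p.2 : LaurentSeries K)) := by
    have h := Fermat.Agent.S24.linearIndependent_coeffMap φ (linearIndependent_pow_mul K N v hv)
    have heq : (fun p : ℕ × ι => coeffMap φ (jqModC K ^ p.1 * (v p.2 : LaurentSeries K)))
        = fun p : ℕ × ι => jqModC L ^ p.1 * coeffMap φ (v p.2 : LaurentSeries K) := by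
      funext p
      rw [map_mul, map_pow, coeffMap_jqModC]
    rw [heq] at h
    exact h
  -- reduce to the polynomial ring `L[j]`
  rw [← LinearIndependent.iff_fractionRing (R := ↥(Algebra.adjoin L {SepDeg.jb L N}))
    (K := ↥(L⟮SepDeg.jb L N⟯))]
  rw [linearIndependent_iff']
  intro s g hg i hi
  have hP : ∀ i, ∃ P : L[X], Polynomial.aeval (SepDeg.jb L N) P
      = ((g i : ↥(Algebra.adjoin L {SepDeg.jb L N})) : ↥(modularFunctionFieldFullC L N)) := by
    intro i
    have hmem : ((g i : ↥(Algebra.adjoin L {SepDeg.jb L N})) : ↥(modularFunctionFieldFullC L N))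
        ∈ (Polynomial.aeval (R := L) (SepDeg.jb L N)).range := by
      rw [← Algebra.adjoin_singleton_eq_range_aeval]
      exact (g i).2
    obtain ⟨P, hP⟩ := hmem
    exact ⟨P, hP⟩
  choose P hP using hP
  set D : ℕ := (s.sup fun i => (P i).natDegree) + 1 with hD
  have hdeg : ∀ i ∈ s, (P i).natDegree < D := fun i hi =>
    Nat.lt_succ_of_le (Finset.le_sup (f := fun i => (P i).natDegree) hi)
  -- the relation in `L((q))`
  have hrel : ∑ p ∈ Finset.range D ×ˢ s,
      (P p.2).coeff p.1 • (jqModC L ^ p.1 * coeffMap φ (v p.2 : LaurentSeries K)) = 0 := by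
    have h0 : ((∑ i ∈ s, g i • mapFull φ N (v i) : ↥(modularFunctionFieldFullC L N)) :
        LaurentSeries L) = 0 := by rw [hg]; rfl
    rw [Finset.sum_product_right]
    rw [← h0, AddSubmonoidClass.coe_finsetSum]
    refine Finset.sum_congr rfl fun i hi => ?_
    have h1 : ((g i • mapFull φ N (v i) : ↥(modularFunctionFieldFullC L N)) : LaurentSeries L)
        = ((Polynomial.aeval (SepDeg.jb L N) (P i) : ↥(modularFunctionFieldFullC L N)) :
            LaurentSeries L) * coeffMap φ (v i : LaurentSeries K) := by
      rw [hP i]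
      rfl
    rw [h1, Polynomial.aeval_eq_sum_range' (hdeg i hi), AddSubmonoidClass.coe_finsetSum,
      Finset.sum_mul]
    refine Finset.sum_congr rfl fun a _ => ?_
    show (P i).coeff a • (jqModC L ^ a * coeffMap φ (v i : LaurentSeries K))
      = (((P i).coeff a • SepDeg.jb L N ^ a : ↥(modularFunctionFieldFullC L N)) :
          LaurentSeries L) * coeffMap φ (v i : LaurentSeries K)
    rw [Fermat.Agent.S24.DegreeBound.smul_eq_algebraMap_mul, Algebra.smul_def,
      MulMemClass.coe_mul, mul_assoc]
    rfl
  have hzero := linearIndependent_iff'.mp hW (Finset.range D ×ˢ s)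
    (fun p => (P p.2).coeff p.1) hrel
  have hPi : P i = 0 := by
    ext a
    rw [Polynomial.coeff_zero]
    by_cases ha : a < D
    · exact hzero (a, i) (Finset.mem_product.mpr ⟨Finset.mem_range.mpr ha, hi⟩)
    · exact Polynomial.coeff_eq_zero_of_natDegree_lt (lt_of_lt_of_le (hdeg i hi) (not_lt.mp ha))
  have hgi : ((g i : ↥(Algebra.adjoin L {SepDeg.jb L N})) : ↥(modularFunctionFieldFullC L N)) = 0 := by
    rw [← hP i, hPi, map_zero]
  exact Subtype.ext hgi

include φ in
/-- **(B3)** The degree `[F_k : k(j)]` is invariant under any extension `φ : K →+* L` of the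
constant field. -/
theorem finrank_fullC_eq_of_ringHom :
    Module.finrank ↥(L⟮SepDeg.jb L N⟯) ↥(modularFunctionFieldFullC L N)
      = Module.finrank ↥(K⟮SepDeg.jb K N⟯) ↥(modularFunctionFieldFullC K N) := by
  classical
  haveI : FiniteDimensional ↥(K⟮SepDeg.jb K N⟯) ↥(modularFunctionFieldFullC K N) :=
    SepDeg.finiteDimensional_full K N
  obtain ⟨hfin, hle⟩ := finrank_le_of_adjoin_range_eq_top (mapBase φ N) (mapFull φ N)
    (mapFull_algebraMap_base φ N) (adjoin_range_mapFull_eq_top φ N)
  refine le_antisymm hle ?_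
  let b := Module.finBasis ↥(K⟮SepDeg.jb K N⟯) ↥(modularFunctionFieldFullC K N)
  have hli := linearIndependent_mapFull φ N b b.linearIndependent
  have h := hli.fintype_card_le_finrank
  rw [Fintype.card_fin] at h
  exact h

end CoeffMap

/-! ### The two shapes of `F_L`, and the degree `ψ(N)` in characteristic zero -/

section Bridge

variable (L : Type*) [Field L] [Algebra ℚ L] (N : ℕ) [NeZero N]

/-- The formal `j`-invariant over `L`, in its two shapes. -/
theorem coeffEmb_jq : coeffEmb L jq = jqModC L := by
  have h := coeffMap_jqModC (R := ℚ) (algebraMap ℚ L)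
  rw [jqModC_rat] at h
  exact h

/-- **(B1)** The two definitions of the modular function field over `L` agree. -/
theorem laurentBaseChange_full_eq_fullC :
    laurentBaseChange L (modularFunctionFieldFull N) = modularFunctionFieldFullC L N := by
  apply le_antisymm
  · rw [laurentBaseChange, IntermediateField.adjoin_le_iff]
    rintro _ ⟨x, hx, rfl⟩
    have hx' : x ∈ modularFunctionFieldFullC ℚ N := hx
    exact coeffMap_mem_fullC (algebraMap ℚ L) N hx'
  · show IntermediateField.adjoin L (divisorExpansionsC L N) ≤ _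
    rw [IntermediateField.adjoin_le_iff]
    rintro _ ⟨d, hd, hdN, rfl⟩
    have h : coeffEmb L (qExpand ℚ d jq) = qExpand L d (jqModC L) := by
      show coeffMap (algebraMap ℚ L) (qExpand ℚ d jq) = _
      rw [coeffMap_qExpand]
      exact congrArg (qExpand L d) (coeffEmb_jq L)
    rw [← h]
    exact coeffEmb_mem_laurentBaseChange L (jqd_mem_full N hdN)

/-- `modularFunctionFieldBar N = modularFunctionFieldFullC ℚ̄ N`. -/
theorem modularFunctionFieldBar_eq_fullC :
    modularFunctionFieldBar N = modularFunctionFieldFullC (AlgebraicClosure ℚ) N :=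
  laurentBaseChange_full_eq_fullC (AlgebraicClosure ℚ) N

theorem coeffEmb_jq_mem : coeffEmb L jq ∈ laurentBaseChange L (modularFunctionFieldFull N) := by
  refine coeffEmb_mem_laurentBaseChange L ?_
  have h := jqd_mem_full N (one_dvd N)
  rwa [qExpand_one_apply] at h

end Bridge

section Transport

variable {L : Type*} [Field L]

/-- Transport of the degree along an equality of intermediate fields. -/
theorem finrank_transport {F₁ F₂ : IntermediateField L (LaurentSeries L)} (hF : F₁ = F₂)
    {x₁ x₂ : LaurentSeries L} (hx : x₁ = x₂) (h1 : x₁ ∈ F₁) (h2 : x₂ ∈ F₂) :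
    Module.finrank ↥(L⟮(⟨x₁, h1⟩ : ↥F₁)⟯) ↥F₁ = Module.finrank ↥(L⟮(⟨x₂, h2⟩ : ↥F₂)⟯) ↥F₂ := by
  subst hF
  subst hx
  rfl

/-- Transport of finite-dimensionality along an equality of intermediate fields. -/
theorem finiteDimensional_transport {F₁ F₂ : IntermediateField L (LaurentSeries L)} (hF : F₁ = F₂)
    {x₁ x₂ : LaurentSeries L} (hx : x₁ = x₂) (h1 : x₁ ∈ F₁) (h2 : x₂ ∈ F₂)
    (h : FiniteDimensional ↥(L⟮(⟨x₂, h2⟩ : ↥F₂)⟯) ↥F₂) :
    FiniteDimensional ↥(L⟮(⟨x₁, h1⟩ : ↥F₁)⟯) ↥F₁ := by
  subst hF
  subst hx
  exact h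

end Transport

section Degree

variable (N : ℕ) [NeZero N]

/-- `[F_{ℚ̄} : ℚ̄(j)] = ψ(N)` in the `modularFunctionFieldFullC` shape (S24's degree). -/
theorem finrank_fullC_Qb :
    Module.finrank ↥((AlgebraicClosure ℚ)⟮SepDeg.jb (AlgebraicClosure ℚ) N⟯)
      ↥(modularFunctionFieldFullC (AlgebraicClosure ℚ) N) = dedekindPsi N := by
  have h := Fermat.Agent.S37.W.finrank_jF_eq N
  rw [← h]
  exact (finrank_transport (laurentBaseChange_full_eq_fullC (AlgebraicClosure ℚ) N)
    (coeffEmb_jq (AlgebraicClosure ℚ)) _ _).symm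

/-- **(B4)** `[F_L : L(j)] = ψ(N)` for every field `L` of characteristic zero. -/
theorem finrank_fullC_of_charZero (L : Type*) [Field L] [CharZero L] :
    Module.finrank ↥(L⟮SepDeg.jb L N⟯) ↥(modularFunctionFieldFullC L N) = dedekindPsi N := by
  rw [finrank_fullC_eq_of_ringHom (algebraMap ℚ L) N, ← finrank_fullC_Qb N,
    finrank_fullC_eq_of_ringHom (algebraMap ℚ (AlgebraicClosure ℚ)) N]

/-- **(B4)** `[F_ℂ : ℂ(j)] = ψ(N)`. -/
theorem finrank_fullC_complex :
    Module.finrank ↥(ℂ⟮SepDeg.jb ℂ N⟯) ↥(modularFunctionFieldFullC ℂ N) = dedekindPsi N :=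
  finrank_fullC_of_charZero N ℂ

/-- `F_k` is a function field in one variable over ANY field `k`. -/
theorem isFF1_fullC_of_field (k : Type*) [Field k] :
    Fermat.Agent.S24.IsFF1 k ↥(modularFunctionFieldFullC k N) :=
  ⟨SepDeg.jb k N, transcendental_jb k N, SepDeg.finiteDimensional_full k N⟩

variable (L : Type*) [Field L] [Algebra ℚ L]

/-- `[F_L : L(j)] = ψ(N)` in the `laurentBaseChange` shape (e.g. `K.FC N`, `K.jC` for `L = ℂ`). -/
theorem finrank_laurentBaseChange
    (h : coeffEmb L jq ∈ laurentBaseChange L (modularFunctionFieldFull N)) :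
    Module.finrank
      ↥(L⟮(⟨coeffEmb L jq, h⟩ : ↥(laurentBaseChange L (modularFunctionFieldFull N)))⟯)
      ↥(laurentBaseChange L (modularFunctionFieldFull N)) = dedekindPsi N := by
  haveI : CharZero L := charZero_of_injective_algebraMap (algebraMap ℚ L).injective
  rw [finrank_transport (laurentBaseChange_full_eq_fullC L N) (coeffEmb_jq L) h
    (jqModC_mem_full L N)]
  exact finrank_fullC_of_charZero N L

/-- `F_L` is finite over `L(j)`, in the `laurentBaseChange` shape. -/
theorem finiteDimensional_laurentBaseChange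
    (h : coeffEmb L jq ∈ laurentBaseChange L (modularFunctionFieldFull N)) :
    FiniteDimensional
      ↥(L⟮(⟨coeffEmb L jq, h⟩ : ↥(laurentBaseChange L (modularFunctionFieldFull N)))⟯)
      ↥(laurentBaseChange L (modularFunctionFieldFull N)) :=
  finiteDimensional_transport (laurentBaseChange_full_eq_fullC L N) (coeffEmb_jq L) h
    (jqModC_mem_full L N) (SepDeg.finiteDimensional_full L N)

/-- `F_L` is a function field in one variable, in the `laurentBaseChange` shape. -/
theorem isFF1_laurentBaseChange :
    Fermat.Agent.S24.IsFF1 L ↥(laurentBaseChange L (modularFunctionFieldFull N)) :=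
  ⟨⟨coeffEmb L jq, coeffEmb_jq_mem L N⟩,
    Fermat.Agent.S24.transcendental_mk_coeffEmb_jq L _ (coeffEmb_jq_mem L N),
    finiteDimensional_laurentBaseChange N L (coeffEmb_jq_mem L N)⟩

end Degree

end Fermat.Agent.S29.DegC
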