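/-
S29 block [K] — DegFC.lean (helper115): consumer-shape corollaries of `S29/DegC.lean` for the
field `F_ℂ = K.FC N` of `S29/KDefs.lean`.

For EVERY element `t : ↥(K.FC N)` whose underlying Laurent series is the formal `j`-invariant
`K.jC` (e.g. `⟨K.jC, h⟩`, `TaylorMer.jF N`, `ODed.jCF N`, `R2Defs.jF N`: all by `rfl`) and
every constant `c : ℂ`:

* `transcendental_of_coe`, `transcendental_sub_of_coe` : `t`, `t - c` are transcendental over `ℂ`;
* `finiteDimensional_of_coe`, `finiteDimensional_sub_of_coe` : `F_ℂ` is finite over `ℂ(t)`,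
  `ℂ(t - c)`;
* `finrank_of_coe`, `finrank_sub_of_coe` :
  `[F_ℂ : ℂ(t)] = [F_ℂ : ℂ(t - c)] = #(SL(2, ℤ) ⧸ Γ₀(N))`  (also in the `dedekindPsi N` form);
* `isFF1_FC` : `F_ℂ` is a function field in one variable over `ℂ`;
* `FC_eq_fullC` : `K.FC N = modularFunctionFieldFullC ℂ N`;
* abstract: `adjoin_sub_algebraMap : K⟮x - c⟯ = K⟮x⟯`.

These are the inputs (I1), (I2) of the counting route to [KPInv] (S24 `exists_emb_induces_of_finrank`
at `t = j - j(z₀)` with the `#(SL(2, ℤ) ⧸ Γ₀(N))` translate-Taylor embeddings).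
-/
import Mathlib
import Fermat.Agent.S20.Cosets
import Fermat.Agent.S29.KDefs
import Fermat.Agent.S29.DegC

set_option autoImplicit false

namespace Fermat.Agent.S29.DegFC

open ModularCurve IntermediateField Fermat.Agent
open scoped MatrixGroups

/-! ### Abstract: shifting the generator by a constant -/

section Abstract

variable {k F : Type*} [Field k] [Field F] [Algebra k F]

/-- `k(x - c) = k(x)`. -/
theorem adjoin_sub_algebraMap (x : F) (c : k) : k⟮x - algebraMap k F c⟯ = k⟮x⟯ := by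
  apply le_antisymm
  · rw [adjoin_simple_le_iff]
    exact sub_mem (mem_adjoin_simple_self k x) (IntermediateField.algebraMap_mem _ c)
  · rw [adjoin_simple_le_iff]
    have h : (x - algebraMap k F c) + algebraMap k F c ∈ k⟮x - algebraMap k F c⟯ :=
      add_mem (mem_adjoin_simple_self k _) (IntermediateField.algebraMap_mem _ c)
    rwa [sub_add_cancel] at h

/-- Degrees over equal intermediate fields agree. -/
theorem finrank_congr {E₁ E₂ : IntermediateField k F} (h : E₁ = E₂) :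
    Module.finrank ↥E₁ F = Module.finrank ↥E₂ F := by
  subst h
  rfl

/-- Finiteness over equal intermediate fields. -/
theorem finiteDimensional_congr {E₁ E₂ : IntermediateField k F} (h : E₁ = E₂)
    (hfd : FiniteDimensional ↥E₁ F) : FiniteDimensional ↥E₂ F := by
  subst h
  exact hfd

/-- A transcendental element stays transcendental after subtracting a constant. -/
theorem transcendental_sub_algebraMap {x : F} (hx : Transcendental k x) (c : k) :
    Transcendental k (x - algebraMap k F c) := by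
  intro halg
  apply hx
  have h : IsAlgebraic k ((x - algebraMap k F c) + algebraMap k F c) :=
    halg.add (isAlgebraic_algebraMap c)
  rwa [sub_add_cancel] at h

end Abstract

/-! ### The field `F_ℂ = K.FC N` -/

variable (N : ℕ) [NeZero N]

/-- The formal `j`-invariant lies in `F_ℂ`. -/
theorem jC_mem_FC : K.jC ∈ K.FC N := DegC.coeffEmb_jq_mem ℂ N

/-- The two shapes of `F_ℂ` agree. -/
theorem FC_eq_fullC : K.FC N = modularFunctionFieldFullC ℂ N :=
  DegC.laurentBaseChange_full_eq_fullC ℂ N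

/-- **(I1)** `F_ℂ` is a function field in one variable over `ℂ`. -/
theorem isFF1_FC : S24.IsFF1 ℂ ↥(K.FC N) := DegC.isFF1_laurentBaseChange N ℂ

variable {N}

theorem eq_mk_of_coe {t : ↥(K.FC N)} (ht : (t : LaurentSeries ℂ) = K.jC) :
    t = ⟨coeffEmb ℂ jq, DegC.coeffEmb_jq_mem ℂ N⟩ := Subtype.ext ht

/-- `j` is transcendental over `ℂ`. -/
theorem transcendental_of_coe {t : ↥(K.FC N)} (ht : (t : LaurentSeries ℂ) = K.jC) :
    Transcendental ℂ t := by
  rw [eq_mk_of_coe ht]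
  exact S24.transcendental_mk_coeffEmb_jq ℂ _ (DegC.coeffEmb_jq_mem ℂ N)

/-- `j - c` is transcendental over `ℂ`. -/
theorem transcendental_sub_of_coe {t : ↥(K.FC N)} (ht : (t : LaurentSeries ℂ) = K.jC) (c : ℂ) :
    Transcendental ℂ (t - algebraMap ℂ ↥(K.FC N) c) :=
  transcendental_sub_algebraMap (transcendental_of_coe ht) c

/-- `F_ℂ` is finite over `ℂ(j)`. -/
theorem finiteDimensional_of_coe {t : ↥(K.FC N)} (ht : (t : LaurentSeries ℂ) = K.jC) :
    FiniteDimensional ↥(ℂ⟮t⟯) ↥(K.FC N) := by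
  rw [eq_mk_of_coe ht]
  exact DegC.finiteDimensional_laurentBaseChange N ℂ (DegC.coeffEmb_jq_mem ℂ N)

/-- `[F_ℂ : ℂ(j)] = ψ(N)`. -/
theorem finrank_of_coe_eq_psi {t : ↥(K.FC N)} (ht : (t : LaurentSeries ℂ) = K.jC) :
    Module.finrank ↥(ℂ⟮t⟯) ↥(K.FC N) = dedekindPsi N := by
  rw [eq_mk_of_coe ht]
  exact DegC.finrank_laurentBaseChange N ℂ (DegC.coeffEmb_jq_mem ℂ N)

/-- **(I2)** `[F_ℂ : ℂ(j)] = #(SL(2, ℤ) ⧸ Γ₀(N))`. -/
theorem finrank_of_coe {t : ↥(K.FC N)} (ht : (t : LaurentSeries ℂ) = K.jC) :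
    Module.finrank ↥(ℂ⟮t⟯) ↥(K.FC N)
      = Nat.card (SL(2, ℤ) ⧸ CongruenceSubgroup.Gamma0 N) := by
  rw [S20.card_Q N]
  exact finrank_of_coe_eq_psi ht

/-- `F_ℂ` is finite over `ℂ(j - c)`. -/
theorem finiteDimensional_sub_of_coe {t : ↥(K.FC N)} (ht : (t : LaurentSeries ℂ) = K.jC)
    (c : ℂ) : FiniteDimensional ↥(ℂ⟮t - algebraMap ℂ ↥(K.FC N) c⟯) ↥(K.FC N) :=
  finiteDimensional_congr (adjoin_sub_algebraMap t c).symm (finiteDimensional_of_coe ht)

/-- `[F_ℂ : ℂ(j - c)] = ψ(N)`. -/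
theorem finrank_sub_of_coe_eq_psi {t : ↥(K.FC N)} (ht : (t : LaurentSeries ℂ) = K.jC) (c : ℂ) :
    Module.finrank ↥(ℂ⟮t - algebraMap ℂ ↥(K.FC N) c⟯) ↥(K.FC N) = dedekindPsi N := by
  rw [finrank_congr (adjoin_sub_algebraMap t c)]
  exact finrank_of_coe_eq_psi ht

/-- **(I2) at `t = j - c`**: `[F_ℂ : ℂ(j - c)] = #(SL(2, ℤ) ⧸ Γ₀(N))`. -/
theorem finrank_sub_of_coe {t : ↥(K.FC N)} (ht : (t : LaurentSeries ℂ) = K.jC) (c : ℂ) :
    Module.finrank ↥(ℂ⟮t - algebraMap ℂ ↥(K.FC N) c⟯) ↥(K.FC N)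
      = Nat.card (SL(2, ℤ) ⧸ CongruenceSubgroup.Gamma0 N) := by
  rw [S20.card_Q N]
  exact finrank_sub_of_coe_eq_psi ht c

variable (N)

/-- **(I2)**, anonymous-constructor form. -/
theorem finrank_FC (h : K.jC ∈ K.FC N) :
    Module.finrank ↥(ℂ⟮(⟨K.jC, h⟩ : ↥(K.FC N))⟯) ↥(K.FC N)
      = Nat.card (SL(2, ℤ) ⧸ CongruenceSubgroup.Gamma0 N) :=
  finrank_of_coe (t := ⟨K.jC, h⟩) rfl

/-- `F_ℂ` is finite over `ℂ(j)`, anonymous-constructor form. -/
theorem finiteDimensional_FC (h : K.jC ∈ K.FC N) :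
    FiniteDimensional ↥(ℂ⟮(⟨K.jC, h⟩ : ↥(K.FC N))⟯) ↥(K.FC N) :=
  finiteDimensional_of_coe (t := ⟨K.jC, h⟩) rfl

/-- The number of cosets is positive and equals the degree: the count used by the counting
argument, as an equation with the cardinality on the left. -/
theorem card_eq_finrank_sub {t : ↥(K.FC N)} (ht : (t : LaurentSeries ℂ) = K.jC) (c : ℂ) :
    Nat.card (SL(2, ℤ) ⧸ CongruenceSubgroup.Gamma0 N)
      = Module.finrank ↥(ℂ⟮t - algebraMap ℂ ↥(K.FC N) c⟯) ↥(K.FC N) :=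
  (finrank_sub_of_coe ht c).symm

end Fermat.Agent.S29.DegFC
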