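/-
S29 block [K], leaf (R5b) (owner: helper53): the `ℚ̄`-side end of the comparison.
If `f ∈ F̄_N` is (analytically) the `p`-th power of a holomorphic function `w` on the upper half
plane which is invariant under the parabolic and the elliptic elements of `Γ₀(N)` and meromorphic
at the cusps, then `p ∣ ord_P f` at EVERY place `P` of `F̄_N / ℚ̄` (finite places and cusps, every
`p`, no condition `p ∤ N`).  Built on the landed S24 dictionary (`EmbInput.embFam`,
`taylorInput`, `cuspInput`, `exists_emb_induces`, `card_emb_le`).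
-/
import Mathlib
import Fermat.Agent.S24.AnEmb
import Fermat.Agent.S24.AnEmbCusp
import Fermat.Agent.S24.AnDegreeMain
import Fermat.Agent.S24.AnDatum
import Fermat.Agent.S24.ModGlue
import Fermat.Agent.S24.EmbCore
import Fermat.Agent.S24.Residue
import Fermat.Agent.S24.PlacesSum
import Fermat.Agent.S24.Principal
import Fermat.Agent.LevelOne.JSurjB

set_option autoImplicit false

noncomputable section

namespace Fermat.Agent.S29.DivP

open UpperHalfPlane ModularCurve AlgebraicCurve IntermediateField Fermat.Agent.S24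
  Fermat.Agent.LevelOne
open scoped MatrixGroups ModularForm Manifold

local notation "Δ" => ModularForm.discriminant

/-- `w ^ p` is the analytic realisation of `f ∈ F̄_N`: `f = a / b` with `a, b` polynomials in the
generators `j(q^d)`, `d ∣ N`, and `w ^ p · b(j(d z)) = a(j(d z))` on the upper half plane. -/
def IsPthRoot (N : ℕ) [NeZero N] (p : ℕ) (w : ℍ → ℂ) (f : FN N) : Prop :=
  ∃ a b : MvPolynomial ↥N.divisors Kb, MvPolynomial.aeval (genFam N) b ≠ 0 ∧
    f * MvPolynomial.aeval (genFam N) b = MvPolynomial.aeval (genFam N) a ∧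
    ∀ z : ℍ, w z ^ p * MvPolynomial.aeval (jAtFam N) b z = MvPolynomial.aeval (jAtFam N) a z

section Generic

variable {N : ℕ} [NeZero N]

/-- The order of a power of a Laurent series. -/
theorem order_pow' (x : LaurentSeries ℂ) (n : ℕ) : (x ^ n).order = (n : ℤ) * x.order := by
  rcases eq_or_ne x 0 with rfl | hx
  · rcases Nat.eq_zero_or_pos n with rfl | hn
    · simp
    · rw [zero_pow hn.ne', HahnSeries.order_zero, mul_zero]
  induction n with
  | zero => simp
  | succ n ih =>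
    have hxn : x ^ n ≠ 0 := pow_ne_zero n hx
    rw [pow_succ, HahnSeries.order_mul_of_ne_zero, ih]
    · push_cast; ring
    · exact mul_ne_zero (HahnSeries.leadingCoeff_ne_zero.mpr hxn)
        (HahnSeries.leadingCoeff_ne_zero.mpr hx)

/-- The embedding attached to `g` on polynomials in the generators. -/
theorem embOf_aeval (I : EmbInput N) (g : SL(2, ℤ)) (Q : MvPolynomial ↥N.divisors Kb) :
    I.embOf g (MvPolynomial.aeval (genFam N) Q) = I.psi g Q := by
  rw [← AlgHom.comp_apply, MvPolynomial.comp_aeval]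
  unfold EmbInput.psi
  exact congrArg (fun F => MvPolynomial.aeval F Q) (funext fun d => I.embOf_genFam g d)

/-- The embedding attached to `g` sends `f` to the `p`-th power of the expansion of `trans g w`. -/
theorem embOf_eq_pow (I : EmbInput N) (g : SL(2, ℤ)) {p : ℕ} {w : ℍ → ℂ} {f : FN N}
    (hwf : IsPthRoot N p w f) (hwA : trans g w ∈ I.A) :
    I.embOf g f = (I.H ⟨trans g w, hwA⟩) ^ p := by
  obtain ⟨a, b, hb, hfab, hpt⟩ := hwf
  obtain ⟨haA, ha⟩ := I.psi_eq g a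
  obtain ⟨hbA, hb'⟩ := I.psi_eq g b
  have h1 : I.embOf g f * I.embOf g (MvPolynomial.aeval (genFam N) b)
      = I.embOf g (MvPolynomial.aeval (genFam N) a) := by
    rw [← map_mul, hfab]
  have hne : I.H ⟨trans g (MvPolynomial.aeval (jAtFam N) b), hbA⟩ ≠ 0 := by
    rw [← hb', ← embOf_aeval]
    exact (map_ne_zero _).mpr hb
  rw [embOf_aeval, embOf_aeval, ha, hb'] at h1
  have h2 : (⟨trans g w, hwA⟩ : I.A) ^ p * ⟨_, hbA⟩ = ⟨_, haA⟩ := by
    apply Subtype.ext
    funext z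
    exact hpt (g⁻¹ • z)
  have h3 := congrArg I.H h2
  rw [map_mul, map_pow] at h3
  exact mul_right_cancel₀ hne (h1.trans h3.symm)

/-- Iterating the twist relation on the level of the algebra of functions. -/
theorem coeff_H_trans_pow (I : EmbInput N) (ε : SL(2, ℤ)) (ζ : ℂ) (hζ0 : ζ ≠ 0)
    (hε : ∀ (F : ℍ → ℂ) (hF : F ∈ I.A) (hF' : trans ε F ∈ I.A) (n : ℤ),
      (I.H ⟨trans ε F, hF'⟩).coeff n = ζ ^ n * (I.H ⟨F, hF⟩).coeff n)
    (w : ℍ → ℂ) (hwA : ∀ g : SL(2, ℤ), trans g w ∈ I.A) (g : SL(2, ℤ)) (m : ℕ) (n : ℤ) :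
    (I.H ⟨trans (ε ^ m * g) w, hwA (ε ^ m * g)⟩).coeff n
      = ζ ^ ((m : ℤ) * n) * (I.H ⟨trans g w, hwA g⟩).coeff n := by
  induction m with
  | zero =>
    have h0 : (⟨trans (ε ^ 0 * g) w, hwA (ε ^ 0 * g)⟩ : I.A) = ⟨trans g w, hwA g⟩ :=
      Subtype.ext (show trans (ε ^ 0 * g) w = trans g w by rw [pow_zero, one_mul])
    rw [h0]
    simp
  | succ m ih =>
    have hmem : trans ε (trans (ε ^ m * g) w) ∈ I.A := by
      rw [← trans_mul]
      exact hwA _
    have h1 : (⟨trans (ε ^ (m + 1) * g) w, hwA (ε ^ (m + 1) * g)⟩ : I.A)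
        = ⟨trans ε (trans (ε ^ m * g) w), hmem⟩ :=
      Subtype.ext (show trans (ε ^ (m + 1) * g) w = trans ε (trans (ε ^ m * g) w) by
        rw [pow_succ', mul_assoc, trans_mul])
    rw [h1, hε _ (hwA (ε ^ m * g)) hmem n, ih, ← mul_assoc, ← zpow_add₀ hζ0]
    congr 2
    push_cast
    ring

/-- **The generic statement**: for an embedding input whose family has common value of order
`e₀` at `t` and on which `ε` acts through a rotation by a primitive `e₀`-th root of unity,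
`p ∣ ord_P f` at every zero `P` of `t`, as soon as `trans g w` is invariant under the powers of
`ε` lying in `g Γ₀(N) g⁻¹`. -/
theorem dvd_ord_of_input (I : EmbInput N) (t : FN N) (ht : Transcendental Kb t)
    (hX : Nat.card (QN N) = Module.finrank Kb⟮t⟯ (FN N))
    (T₀ : LaurentSeries ℂ) (hT : ∀ q : QN N, I.embFam q t = T₀) (e₀ : ℕ) (he₀ : 0 < e₀)
    (hTe : T₀.order = (e₀ : ℤ))
    (ε : SL(2, ℤ)) (ζ : ℂ) (hζ : IsPrimitiveRoot ζ e₀)
    (hε : ∀ (F : ℍ → ℂ) (hF : F ∈ I.A) (hF' : trans ε F ∈ I.A) (n : ℤ),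
      (I.H ⟨trans ε F, hF'⟩).coeff n = ζ ^ n * (I.H ⟨F, hF⟩).coeff n)
    (p : ℕ) (f : FN N) (hf : f ≠ 0) (w : ℍ → ℂ) (hwf : IsPthRoot N p w f)
    (hwA : ∀ g : SL(2, ℤ), trans g w ∈ I.A)
    (hinv : ∀ (g : SL(2, ℤ)) (n : ℕ), g⁻¹ * ε ^ n * g ∈ CongruenceSubgroup.Gamma0 N →
      trans (ε ^ n) (trans g w) = trans g w)
    (P : Place Kb (FN N)) (hP : 0 < P.ord t) : (p : ℤ) ∣ P.ord f := by
  classical
  have hFF : IsFF1 Kb (FN N) := ⟨jF N, transcendental_jF N, finiteDimensional_jF N⟩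
  have : Finite (QN N) := by
    apply Nat.finite_of_card_ne_zero
    rw [Fermat.Agent.S20.card_Q]
    exact (AnDegree.dedekindPsi_pos N).ne'
  have hζ0 : ζ ≠ 0 := hζ.ne_zero he₀.ne'
  have ht0 : t ≠ 0 := EmbDefs.ne_zero_of_ord_ne_zero P hP.ne'
  let ι : QN N → FN N →+* LaurentSeries ℂ := fun q => (I.embFam q : FN N →+* LaurentSeries ℂ)
  have hιapp : ∀ (q : QN N) (x : FN N), ι q x = I.embFam q x := fun _ _ => rfl
  have hinj : Function.Injective ι := fun q q' h =>
    I.embFam_injective (AlgHom.coe_ringHom_injective h)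
  have hK : ∀ (x : QN N) (a : Kb), ι x (algebraMap Kb (FN N) a) = HahnSeries.C (embC a) :=
    fun x a => I.embFam_algebraMap x a
  have hK' : ∀ (x y : QN N) (a : Kb),
      ι x (algebraMap Kb (FN N) a) = ι y (algebraMap Kb (FN N) a) := fun x y a => by
    rw [hK x a, hK y a]
  have ht' : ∀ x y : QN N, ι x t = ι y t := fun x y => by rw [hιapp, hιapp, hT x, hT y]
  have hres : ∀ (v : Place Kb (FN N)) (b : FN N), 0 ≤ v.ord b →
      ∃ a : Kb, b = algebraMap Kb (FN N) a ∨ 0 < v.ord (b - algebraMap Kb (FN N) a) :=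
    fun v b hb => exists_residue hFF v hb
  -- Step 1: the place is induced by one of the embeddings
  obtain ⟨q, r, hqr⟩ := exists_emb_induces hres t (Module.finrank Kb⟮t⟯ (FN N))
    (finite_ord_pos hFF ht) (sum_ord_pos hFF ht) hX ι hinj (fun x a => ⟨embC a, hK x a⟩) hK' ht'
    (fun x => by rw [hιapp, hT x, hTe]; exact_mod_cast he₀) P hP
  have hr0 : 0 < r := hqr.pos
  -- Step 2: `r * ord_P t = e₀`
  have hre : (r : ℤ) * P.ord t = (e₀ : ℤ) := by
    rw [← hqr.order_eq ht0, hιapp, hT q, hTe]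
  -- the twist on the family, iterated
  have hg : ∀ (x : QN N) (y : FN N) (k : ℤ), (ι (ε • x) y).coeff k = ζ ^ k * (ι x y).coeff k :=
    fun x y k => I.embFam_smul ε ζ hζ0 hε x y k
  have hiter : ∀ (m : ℕ) (x : QN N) (y : FN N) (k : ℤ),
      (ι (ε ^ m • x) y).coeff k = ζ ^ ((m : ℤ) * k) * (ι x y).coeff k := by
    intro m
    induction m with
    | zero => intro x y k; simp
    | succ m ih =>
      intro x y k
      rw [pow_succ', mul_smul, hg, ih, ← mul_assoc, ← zpow_add₀ hζ0]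
      congr 2
      push_cast
      ring
  -- all translates of `q` induce the same place
  have hind : ∀ m : ℕ, EmbInduces (ι (ε ^ m • q)) P r := by
    intro m
    refine ⟨hr0, fun y hy => ?_⟩
    rw [← hqr.order_eq hy]
    have h1 : ι q y ≠ 0 := (map_ne_zero (ι q)).mpr hy
    have h2 : ι (ε ^ m • q) y ≠ 0 := (map_ne_zero (ι (ε ^ m • q))).mpr hy
    have hsupp : (ι (ε ^ m • q) y).support = (ι q y).support := by
      ext k
      simp only [HahnSeries.mem_support, hiter m q y k, ne_eq, mul_eq_zero,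
        zpow_ne_zero _ hζ0, false_or]
    rw [HahnSeries.order_of_ne h2, HahnSeries.order_of_ne h1]
    congr 1
  -- Step 3: some `ε ^ d`, `1 ≤ d ≤ ord_P t`, fixes `q`
  obtain ⟨h, hh⟩ : ∃ h : ℕ, P.ord t = (h : ℤ) := ⟨(P.ord t).toNat, by omega⟩
  have hh0 : 0 < h := by omega
  have hd : ∃ d : ℕ, 1 ≤ d ∧ d ≤ h ∧ ε ^ d • q = q := by
    by_contra hcon
    push Not at hcon
    have hinjOn : Set.InjOn (fun i : ℕ => ε ^ i • q) (Finset.range (h + 1) : Set ℕ) := by
      intro i hi j hj hij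
      simp only [Finset.coe_range, Set.mem_Iio] at hi hj
      by_contra hne
      rcases lt_or_gt_of_ne hne with hlt | hlt
      · refine hcon (j - i) (by omega) (by omega) ?_
        have e1 : ε ^ j = ε ^ i * ε ^ (j - i) := by rw [← pow_add]; congr 1; omega
        have h3 : ε ^ i • q = ε ^ i • (ε ^ (j - i) • q) := by
          rw [← mul_smul, ← e1]; exact hij
        exact (smul_left_cancel _ h3).symm
      · refine hcon (i - j) (by omega) (by omega) ?_
        have e1 : ε ^ i = ε ^ j * ε ^ (i - j) := by rw [← pow_add]; congr 1; omega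
        have h3 : ε ^ j • q = ε ^ j • (ε ^ (i - j) • q) := by
          rw [← mul_smul, ← e1]; exact hij.symm
        exact (smul_left_cancel _ h3).symm
    have hcard := card_emb_le P (hres P) t hP ι hinj hK' ht'
      ((Finset.range (h + 1)).image fun i : ℕ => ε ^ i • q) (fun x hx => by
        obtain ⟨i, -, rfl⟩ := Finset.mem_image.mp hx
        exact ⟨r, hind i⟩)
    rw [Finset.card_image_of_injOn hinjOn, Finset.card_range, hh] at hcard
    push_cast at hcard
    omega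
  obtain ⟨d, hd1, hdh, hdq⟩ := hd
  -- Step 4: in fact `d = ord_P t`
  obtain ⟨π, hπ⟩ := EmbDefs.exists_ord_eq_one P
  have hπ0 : π ≠ 0 := EmbDefs.ne_zero_of_ord_ne_zero P (by rw [hπ]; exact one_ne_zero)
  have hπord : (ι q π).order = (r : ℤ) := by rw [hqr.order_eq hπ0, hπ, mul_one]
  have hdvd1 : (e₀ : ℤ) ∣ (d : ℤ) * (r : ℤ) := by
    have h1 : ι q π ≠ 0 := (map_ne_zero (ι q)).mpr hπ0
    have h2 : (ι q π).coeff (ι q π).order ≠ 0 := by
      rwa [ne_eq, HahnSeries.coeff_order_eq_zero]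
    have h3 := hiter d q π (ι q π).order
    rw [hdq] at h3
    have h4 : ζ ^ ((d : ℤ) * (ι q π).order) = 1 := by
      have h5 : (ζ ^ ((d : ℤ) * (ι q π).order) - 1) * (ι q π).coeff (ι q π).order = 0 := by
        rw [sub_mul, one_mul, ← h3, sub_self]
      rcases mul_eq_zero.mp h5 with h6 | h6
      · exact sub_eq_zero.mp h6
      · exact absurd h6 h2
    rw [hπord] at h4
    exact (hζ.zpow_eq_one_iff_dvd _).mp h4
  have hdeq : d = h := by
    rw [← hre, hh] at hdvd1
    have h1 : (h : ℤ) ∣ (d : ℤ) := by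
      have h2 : (r : ℤ) * (h : ℤ) ∣ (r : ℤ) * (d : ℤ) := by rwa [mul_comm (d : ℤ)] at hdvd1
      exact (mul_dvd_mul_iff_left (by exact_mod_cast hr0.ne')).mp h2
    have h3 : h ∣ d := by exact_mod_cast h1
    exact le_antisymm hdh (Nat.le_of_dvd (by omega) h3)
  subst hdeq
  -- Step 5: write `q = ↑g`; then `g⁻¹ ε ^ d g ∈ Γ₀(N)`
  obtain ⟨g, rfl⟩ := QuotientGroup.mk_surjective q
  have hmemΓ : g⁻¹ * ε ^ d * g ∈ CongruenceSubgroup.Gamma0 N := by
    have h1 : (QuotientGroup.mk (ε ^ d * g) : QN N) = QuotientGroup.mk g := hdq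
    have h2 := QuotientGroup.eq.mp h1.symm
    rwa [← mul_assoc] at h2
  -- Step 6: the expansion of `trans g w` lives in `ℂ((s ^ r))`
  have hF := hinv g d hmemΓ
  have hFeq : (⟨trans (ε ^ d * g) w, hwA (ε ^ d * g)⟩ : I.A) = ⟨trans g w, hwA g⟩ :=
    Subtype.ext (show trans (ε ^ d * g) w = trans g w by rw [trans_mul]; exact hF)
  have hrk : (r : ℤ) ∣ (I.H ⟨trans g w, hwA g⟩).order := by
    rcases eq_or_ne (I.H ⟨trans g w, hwA g⟩) 0 with h0 | h0
    · rw [h0, HahnSeries.order_zero]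
      exact dvd_zero _
    have h2 : (I.H ⟨trans g w, hwA g⟩).coeff (I.H ⟨trans g w, hwA g⟩).order ≠ 0 := by
      rwa [ne_eq, HahnSeries.coeff_order_eq_zero]
    have h3 := coeff_H_trans_pow I ε ζ hζ0 hε w hwA g d (I.H ⟨trans g w, hwA g⟩).order
    rw [hFeq] at h3
    have h4 : ζ ^ ((d : ℤ) * (I.H ⟨trans g w, hwA g⟩).order) = 1 := by
      have h5 : (ζ ^ ((d : ℤ) * (I.H ⟨trans g w, hwA g⟩).order) - 1)
          * (I.H ⟨trans g w, hwA g⟩).coeff (I.H ⟨trans g w, hwA g⟩).order = 0 := by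
        rw [sub_mul, one_mul, ← h3, sub_self]
      rcases mul_eq_zero.mp h5 with h6 | h6
      · exact sub_eq_zero.mp h6
      · exact absurd h6 h2
    have h7 : (e₀ : ℤ) ∣ (d : ℤ) * (I.H ⟨trans g w, hwA g⟩).order :=
      (hζ.zpow_eq_one_iff_dvd _).mp h4
    rw [← hre, hh, mul_comm (r : ℤ)] at h7
    exact (mul_dvd_mul_iff_left (by exact_mod_cast hh0.ne')).mp h7
  -- Step 7: conclusion
  obtain ⟨k', hk'⟩ := hrk
  have h8 : (ι (QuotientGroup.mk g) f).order = (p : ℤ) * ((r : ℤ) * k') := by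
    rw [hιapp, I.embFam_mk, embOf_eq_pow I g hwf (hwA g), order_pow', hk']
  rw [hqr.order_eq hf] at h8
  refine ⟨k', ?_⟩
  have h9 : (r : ℤ) * P.ord f = (r : ℤ) * ((p : ℤ) * k') := by rw [h8]; ring
  exact mul_left_cancel₀ (by exact_mod_cast hr0.ne') h9

end Generic

section Modular

variable (N : ℕ) [NeZero N]

theorem card_QN_sub (a : Kb) :
    Nat.card (QN N) = Module.finrank Kb⟮jF N - algebraMap Kb (FN N) a⟯ (FN N) := by
  rw [finrank_adjoin_sub_algebraMap, finrank_jF_of_hasCuspEmb (hasCuspEmb N)]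
  exact Fermat.Agent.S20.card_Q N

theorem card_QN_inv : Nat.card (QN N) = Module.finrank Kb⟮(jF N)⁻¹⟯ (FN N) := by
  rw [finrank_adjoin_inv, finrank_jF_of_hasCuspEmb (hasCuspEmb N)]
  exact Fermat.Agent.S20.card_Q N

omit [NeZero N] in
/-- Conjugates of `T ^ N` lie in `Γ₀(N)`. -/
theorem conj_T_pow_mem_Gamma0 (g : SL(2, ℤ)) :
    g * ModularGroup.T ^ (N : ℤ) * g⁻¹ ∈ CongruenceSubgroup.Gamma0 N := by
  have h1 : ModularGroup.T ^ (N : ℤ) ∈ CongruenceSubgroup.Gamma N := by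
    have := CongruenceSubgroup.ModularGroup_T_pow_mem_Gamma (N : ℤ) (N : ℤ) dvd_rfl
    simpa using this
  have h2 : g * ModularGroup.T ^ (N : ℤ) * g⁻¹ ∈ CongruenceSubgroup.Gamma N :=
    (CongruenceSubgroup.Gamma_normal N).conj_mem _ h1 g
  rw [CongruenceSubgroup.Gamma0_mem]
  exact (CongruenceSubgroup.Gamma_mem.mp h2).2.2.1

variable {N}

/-- **Finite places**, Taylor side at a point `z₀` over `j = a`. -/
theorem dvd_ord_taylor (z₀ : ℍ) (a : Kb) (hz : jFun z₀ = embC a) (e₀ : ℕ) (he₀ : 0 < e₀)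
    (hord : (taylorAt z₀ jFun - PowerSeries.C (jFun z₀)).order = e₀)
    (ε : SL(2, ℤ)) (hε : ε • z₀ = z₀) (hζ : IsPrimitiveRoot (fixMult ε z₀) e₀)
    (p : ℕ) (f : FN N) (hf : f ≠ 0) (w : ℍ → ℂ) (hw : MDiff w) (hwf : IsPthRoot N p w f)
    (hell : ∀ γ : SL(2, ℤ), γ ∈ CongruenceSubgroup.Gamma0 N → ∀ z₁ : ℍ, γ • z₁ = z₁ →
      ∀ z : ℍ, w (γ • z) = w z)
    (P : Place Kb (FN N)) (hP : 0 < P.ord (jF N - algebraMap Kb (FN N) a)) :
    (p : ℤ) ∣ P.ord f := by
  refine dvd_ord_of_input (taylorInput N z₀) (jF N - algebraMap Kb (FN N) a)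
    (ModAssemblyGen.transcendental_sub_algebraMap (transcendental_jF N) a) (card_QN_sub N a)
    (HahnSeries.ofPowerSeries ℤ ℂ (taylorAt z₀ jFun - PowerSeries.C (jFun z₀))) ?_ e₀ he₀
    (AnRoots.order_ofPowerSeries_of_order_eq hord) ε (fixMult ε z₀) hζ
    (fun F hF hF' n => taylorLaurent_trans_coeff z₀ ε hε F hF hF' n) p f hf w hwf
    (fun g => anTaylorEquiv_mdiff_trans hw g) ?_ P hP
  · intro q
    have hj : (taylorInput N z₀).embFam q (jF N)
        = HahnSeries.ofPowerSeries ℤ ℂ (taylorAt z₀ jFun) := by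
      rw [(taylorInput N z₀).embFam_jF q (taylorInput N z₀).jFun_mem]
      rfl
    rw [map_sub, hj, (taylorInput N z₀).embFam_algebraMap, map_sub, HahnSeries.ofPowerSeries_C, hz]
  · intro g n hmem
    funext z
    have hεn : ∀ n : ℕ, ε ^ n • z₀ = z₀ := by
      intro n
      induction n with
      | zero => simp
      | succ n ih => rw [pow_succ, mul_smul, hε, ih]
    have hγ : g⁻¹ * (ε ^ n)⁻¹ * g ∈ CongruenceSubgroup.Gamma0 N := by
      have h1 := (CongruenceSubgroup.Gamma0 N).inv_mem hmem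
      have e : (g⁻¹ * ε ^ n * g)⁻¹ = g⁻¹ * (ε ^ n)⁻¹ * g := by group
      rwa [e] at h1
    have hfix : (g⁻¹ * (ε ^ n)⁻¹ * g) • (g⁻¹ • z₀) = g⁻¹ • z₀ := by
      rw [mul_smul, mul_smul, smul_inv_smul]
      congr 1
      rw [inv_smul_eq_iff, hεn n]
    have h2 := hell _ hγ (g⁻¹ • z₀) hfix (g⁻¹ • z)
    rw [mul_smul, mul_smul, smul_inv_smul] at h2
    simpa [trans_apply] using h2

/-- **Cusps.** -/
theorem dvd_ord_cusp (p : ℕ) (f : FN N) (hf : f ≠ 0) (w : ℍ → ℂ) (hw : MDiff w)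
    (hwf : IsPthRoot N p w f)
    (hpar : ∀ (g : SL(2, ℤ)) (n : ℤ),
      g * ModularGroup.T ^ n * g⁻¹ ∈ CongruenceSubgroup.Gamma0 N →
      ∀ z : ℍ, w ((g * ModularGroup.T ^ n * g⁻¹) • z) = w z)
    (hgrow : ∀ g : SL(2, ℤ), ∃ m : ℕ,
      IsBoundedAtImInfty (fun z : ℍ => Δ z ^ m * w (g • z)))
    (P : Place Kb (FN N)) (hP : 0 < P.ord (jF N)⁻¹) : (p : ℤ) ∣ P.ord f := by
  have hwA : ∀ g : SL(2, ℤ), trans g w ∈ (AnEmbCusp.cuspInput N).A := by
    intro g
    refine ⟨anTaylorEquiv_mdiff_trans hw g, fun z => ?_, ?_⟩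
    · have h1 := hpar g⁻¹ (N : ℤ) (conj_T_pow_mem_Gamma0 N g⁻¹) (g⁻¹ • z)
      rw [mul_smul, mul_smul, inv_smul_smul, UpperHalfPlane.modular_T_zpow_smul] at h1
      simpa [trans_apply] using h1
    · obtain ⟨m, hm⟩ := hgrow g⁻¹
      exact ⟨m, hm⟩
  refine dvd_ord_of_input (AnEmbCusp.cuspInput N) (jF N)⁻¹
    (ModAssemblyGen.transcendental_inv (transcendental_jF N)) (card_QN_inv N)
    (cuspHom N ⟨jFun, jFun_mem_merSub N⟩)⁻¹ ?_ N (Nat.pos_of_ne_zero (NeZero.ne N))
    (order_cuspHom_jFun_inv N) ModularGroup.T _ (isPrimitiveRoot_exp_neg N)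
    (AnEmbCusp.cuspInput_twist N) p f hf w hwf hwA ?_ P hP
  · intro q
    rw [map_inv₀, (AnEmbCusp.cuspInput N).embFam_jF q (jFun_mem_merSub N)]
    rfl
  · intro g n hmem
    funext z
    have hγ : g⁻¹ * ModularGroup.T ^ (-(n : ℤ)) * g⁻¹⁻¹ ∈ CongruenceSubgroup.Gamma0 N := by
      have h1 := (CongruenceSubgroup.Gamma0 N).inv_mem hmem
      have e : (g⁻¹ * ModularGroup.T ^ n * g)⁻¹
          = g⁻¹ * ModularGroup.T ^ (-(n : ℤ)) * g⁻¹⁻¹ := by
        rw [zpow_neg, zpow_natCast]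
        group
      rwa [e] at h1
    have h2 := hpar g⁻¹ (-(n : ℤ)) hγ (g⁻¹ • z)
    rw [mul_smul, mul_smul, inv_smul_smul, zpow_neg, zpow_natCast] at h2
    simpa [trans_apply] using h2

variable (N)

/-- **(R5b)** If `f ∈ F̄_N` is analytically the `p`-th power of a holomorphic function `w` on the
upper half plane which is invariant under the parabolic and elliptic elements of `Γ₀(N)` and of
moderate growth at every cusp, then `p ∣ ord_P f` at every place `P` of `F̄_N / ℚ̄`. -/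
theorem dvd_ord (p : ℕ) (_hp : p.Prime) (f : FN N) (hf : f ≠ 0) (w : ℍ → ℂ) (hw : MDiff w)
    (hwf : IsPthRoot N p w f)
    (hpar : ∀ (g : SL(2, ℤ)) (n : ℤ),
      g * ModularGroup.T ^ n * g⁻¹ ∈ CongruenceSubgroup.Gamma0 N →
      ∀ z : ℍ, w ((g * ModularGroup.T ^ n * g⁻¹) • z) = w z)
    (hell : ∀ γ : SL(2, ℤ), γ ∈ CongruenceSubgroup.Gamma0 N → ∀ z₀ : ℍ, γ • z₀ = z₀ →
      ∀ z : ℍ, w (γ • z) = w z)
    (hgrow : ∀ g : SL(2, ℤ), ∃ m : ℕ,
      IsBoundedAtImInfty (fun z : ℍ => Δ z ^ m * w (g • z)))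
    (P : Place Kb (FN N)) : (p : ℤ) ∣ P.ord f := by
  have hFF : IsFF1 Kb (FN N) := ⟨jF N, transcendental_jF N, finiteDimensional_jF N⟩
  by_cases hj : P.ord (jF N) < 0
  · have hP : 0 < P.ord (jF N)⁻¹ := by
      rw [P.ord_inv]
      omega
    exact dvd_ord_cusp p f hf w hw hwf hpar hgrow P hP
  · obtain ⟨a, ha | ha⟩ := exists_residue hFF P (not_lt.mp hj)
    · exact absurd (ha ▸ isAlgebraic_algebraMap a) (transcendental_jF N)
    · by_cases h0 : a = 0
      · subst h0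
        refine dvd_ord_taylor ellRho 0 ?_ 3 (by norm_num) ?_ _ ST_smul_ellRho
          isPrimitiveRoot_fixMult_ST_ellRho p f hf w hw hwf hell P ha
        · rw [jFun_ellRho, map_zero]
        · rw [jFun_ellRho, map_zero, sub_zero, order_taylorAt jFun_mdifferentiable ellRho,
            analyticOrderAt_jFun_ellRho]
          rfl
      · by_cases h1 : a = 1728
        · subst h1
          refine dvd_ord_taylor ellI 1728 ?_ 2 (by norm_num) ?_ _ S_smul_ellI
            isPrimitiveRoot_fixMult_S_ellI p f hf w hw hwf hell P ha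
          · rw [jFun_ellI, ringHom_eq_1728]
          · rw [order_taylorAt_sub jFun_mdifferentiable ellI, jFun_ellI,
              analyticOrderAt_jFun_ellI]
            rfl
        · obtain ⟨z₀, hz⟩ := jFun_surjective_B (embC a)
          obtain ⟨hne0, hne1⟩ := jFun_generic_of_eq embC h0 h1 hz
          refine dvd_ord_taylor z₀ a hz 1 one_pos ?_ 1 (one_smul _ _) ?_ p f hf w hw hwf hell P ha
          · rw [order_taylorAt_sub jFun_mdifferentiable z₀,
              analyticOrderAt_jFun_generic z₀ hne0 hne1, Nat.cast_one]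
          · rw [AnDatum.fixMult_one]
            exact IsPrimitiveRoot.one

end Modular

end Fermat.Agent.S29.DivP
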