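/-
S29, block [Eig] (B copy; owner: helper97) — the abstract algebra, by the minor argument of
`S41/FSAlg`.

* `exists_coord_complex` : an eigenvector lying in the `ℂ`-span of a lattice has a nonzero
  coordinate vector satisfying the eigen-equations for the integer matrices of the operators;
* `isIntegral_of_mulVec` : an eigenvalue of an integer matrix is an algebraic integer;
* `exists_coord_field` : a common eigen-coordinate vector over `ℂ` for integer matrices, with
  algebraic integer eigenvalues `α i`, yields one over any field `k` with eigenvalues `φ (α i)`,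
  for any ring homomorphism `φ` from the algebraic integers to `k`;
* `tmul_sum_ne_zero` : a family independent modulo `p` maps, under an additive map with kernel
  `p L` into a group killed by `p`, to a family which is `k`-independent inside `k ⊗[ℤ] M`;
* `baseChange_sum_tmul` : the eigen-equation transported to `k ⊗[ℤ] M`.
-/
import Mathlib
import Fermat.Agent.S41.FSAlg

set_option autoImplicit false

namespace Fermat.Agent.S29.EigB

open Module TensorProduct

/-- Coordinates of an eigenvector lying in the complex span of a lattice. -/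
theorem exists_coord_complex {I : Type*} {L : Type*} [AddCommGroup L] {r : ℕ}
    (b : Basis (Fin r) ℤ L) {V : Type*} [AddCommGroup V] [Module ℂ V] (j : L →+ V)
    (hind : LinearIndependent ℂ (fun n => j (b n)))
    (T : I → L →+ L) (TV : I → V →ₗ[ℂ] V) (hj : ∀ i x, j (T i x) = TV i (j x))
    (v : V) (hv0 : v ≠ 0) (hvspan : v ∈ Submodule.span ℂ (Set.range j))
    (a : I → ℂ) (ha : ∀ i, TV i v = a i • v) :
    ∃ c : Fin r → ℂ, c ≠ 0 ∧
      ∀ i m, ∑ n, ((b.repr (T i (b n)) m : ℤ) : ℂ) * c n = a i * c m := by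
  classical
  let e : Fin r → V := fun k => j (b k)
  let M : I → Fin r → Fin r → ℤ := fun i m k => b.repr (T i (b k)) m
  have hTb : ∀ i k, T i (b k) = ∑ m, M i m k • b m := fun i k => (b.sum_repr (T i (b k))).symm
  have hjx : ∀ x : L, j x = ∑ k, ((b.repr x k : ℤ) : ℂ) • e k := by
    intro x
    conv_lhs => rw [← b.sum_repr x]
    rw [map_sum]
    refine Finset.sum_congr rfl fun k _ => ?_
    rw [map_zsmul, Int.cast_smul_eq_zsmul]
  have hspan_le : Submodule.span ℂ (Set.range j) ≤ Submodule.span ℂ (Set.range e) := by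
    rw [Submodule.span_le]
    rintro _ ⟨x, rfl⟩
    rw [hjx x]
    exact Submodule.sum_mem _ fun k _ => Submodule.smul_mem _ _ (Submodule.subset_span ⟨k, rfl⟩)
  obtain ⟨c, hc⟩ := (Submodule.mem_span_range_iff_exists_fun ℂ).mp (hspan_le hvspan)
  have hc0 : c ≠ 0 := by
    rintro rfl
    apply hv0
    rw [← hc]
    simp
  refine ⟨c, hc0, ?_⟩
  intro i m
  have h1 : TV i v = ∑ m, (∑ k, ((M i m k : ℤ) : ℂ) * c k) • e m := by
    rw [← hc, map_sum]
    have h0 : ∀ k, TV i (c k • e k) = ∑ m, (((M i m k : ℤ) : ℂ) * c k) • e m := by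
      intro k
      rw [map_smul, ← hj, hTb, map_sum, Finset.smul_sum]
      refine Finset.sum_congr rfl fun m _ => ?_
      rw [map_zsmul, ← Int.cast_smul_eq_zsmul ℂ, smul_smul, mul_comm]
    simp_rw [h0]
    rw [Finset.sum_comm]
    refine Finset.sum_congr rfl fun m _ => ?_
    rw [Finset.sum_smul]
  have h2 : a i • v = ∑ m, (a i * c m) • e m := by
    rw [← hc, Finset.smul_sum]
    refine Finset.sum_congr rfl fun m _ => ?_
    rw [smul_smul]
  have h3 : ∑ m, (∑ k, ((M i m k : ℤ) : ℂ) * c k - a i * c m) • e m = 0 := by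
    simp_rw [sub_smul]
    rw [Finset.sum_sub_distrib, ← h1, ← h2, ha i, sub_self]
  have h4 := Fintype.linearIndependent_iff.mp hind _ h3 m
  exact sub_eq_zero.mp h4

/-- An eigenvalue of an integer matrix is an algebraic integer. -/
theorem isIntegral_of_mulVec {r : ℕ} (M : Matrix (Fin r) (Fin r) ℤ) (c : Fin r → ℂ)
    (hc : c ≠ 0) (a : ℂ) (h : ∀ m, ∑ n, ((M m n : ℤ) : ℂ) * c n = a * c m) :
    IsIntegral ℤ a := by
  classical
  refine ⟨M.charpoly, Matrix.charpoly_monic M, ?_⟩
  have h1 : Polynomial.eval₂ (algebraMap ℤ ℂ) a M.charpoly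
      = (M.charpoly.map (algebraMap ℤ ℂ)).eval a := (Polynomial.eval_map _ _).symm
  rw [h1, ← Matrix.charpoly_map, Matrix.eval_charpoly]
  apply Matrix.exists_mulVec_eq_zero_iff.mp
  refine ⟨c, hc, ?_⟩
  rw [Matrix.sub_mulVec, sub_eq_zero]
  funext m
  have h2 := h m
  rw [Matrix.scalar_apply, Matrix.mulVec_diagonal]
  simp only [Matrix.mulVec, dotProduct, Matrix.map_apply, eq_intCast]
  exact h2.symm

/-- A common eigen-coordinate vector over `ℂ` for a family of integer matrices, with algebraic
integer eigenvalues, gives one over every field receiving the algebraic integers. -/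
theorem exists_coord_field {I : Type*} {r : ℕ} (M : I → Matrix (Fin r) (Fin r) ℤ)
    (c : Fin r → ℂ) (hc : c ≠ 0) (α : I → integralClosure ℤ ℂ)
    (h : ∀ i m, ∑ n, ((M i m n : ℤ) : ℂ) * c n = (α i : ℂ) * c m)
    {k : Type*} [Field k] (φ : integralClosure ℤ ℂ →+* k) :
    ∃ x : Fin r → k, x ≠ 0 ∧ ∀ i m, ∑ n, ((M i m n : ℤ) : k) * x n = φ (α i) * x m := by
  classical
  let R : I × Fin r → Fin r → k := fun s n =>
    ((M s.1 s.2 n : ℤ) : k) - if s.2 = n then φ (α s.1) else 0
  have hdet : ∀ g : Fin r → I × Fin r, (Matrix.of fun n => R (g n)).det = 0 := by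
    intro g
    let A : Matrix (Fin r) (Fin r) (integralClosure ℤ ℂ) :=
      Matrix.of fun n k => ((M (g n).1 (g n).2 k : ℤ) : integralClosure ℤ ℂ)
        - if (g n).2 = k then α (g n).1 else 0
    have hA : A.det = 0 := by
      have hinj : Function.Injective (algebraMap (integralClosure ℤ ℂ) ℂ) :=
        Subtype.val_injective
      apply hinj
      rw [map_zero, RingHom.map_det]
      apply Matrix.exists_mulVec_eq_zero_iff.mp
      refine ⟨c, hc, ?_⟩
      funext n
      have h1 : ∀ k, (algebraMap (integralClosure ℤ ℂ) ℂ) (A n k) * c k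
          = ((M (g n).1 (g n).2 k : ℤ) : ℂ) * c k
            - (if (g n).2 = k then (α (g n).1 : ℂ) * c k else 0) := by
        intro k
        simp only [A, Matrix.of_apply, map_sub, map_intCast]
        split_ifs with hk
        · rw [sub_mul]
          rfl
        · rw [map_zero, sub_zero, sub_zero]
      simp only [Matrix.mulVec, dotProduct, RingHom.mapMatrix_apply, Matrix.map_apply,
        Pi.zero_apply, h1]
      rw [Finset.sum_sub_distrib, Finset.sum_ite_eq, if_pos (Finset.mem_univ _),
        h (g n).1 (g n).2, sub_self]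
    have hmat : (Matrix.of fun n => R (g n)) = φ.mapMatrix A := by
      ext n k
      simp only [RingHom.mapMatrix_apply, Matrix.map_apply, Matrix.of_apply, A, R, map_sub,
        map_intCast]
      split_ifs with hk
      · rfl
      · rw [map_zero]
    rw [hmat, ← RingHom.map_det, hA, map_zero]
  obtain ⟨x, hx0, hx⟩ := Fermat.Agent.S41.FSAlg.exists_ne_zero_dotProduct_eq_zero R hdet
  refine ⟨x, hx0, ?_⟩
  intro i m
  have h1 := hx (i, m)
  simp only [dotProduct, R, sub_mul, Finset.sum_sub_distrib, ite_mul, zero_mul,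
    Finset.sum_ite_eq, Finset.mem_univ, if_true] at h1
  exact sub_eq_zero.mp h1

/-- A `ZMod p`-independent family of `M` stays independent with coefficients in any field `k` of
characteristic `p`, inside `k ⊗[ℤ] M`. -/
theorem tmul_sum_ne_zero_of_linearIndependent {p : ℕ} [Fact p.Prime] {k : Type*} [Field k]
    [CharP k p] {M : Type*} [AddCommGroup M] [Module (ZMod p) M] {m : ℕ} (e : Fin m → M)
    (hli : LinearIndependent (ZMod p) e) (c : Fin m → k) (hc : ∃ i, c i ≠ 0) :
    (∑ i, c i ⊗ₜ[ℤ] e i : k ⊗[ℤ] M) ≠ 0 := by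
  classical
  -- dual functionals
  obtain ⟨g, hg⟩ := LinearMap.exists_leftInverse_of_injective
    (Finsupp.linearCombination (ZMod p) e) (linearIndependent_iff_ker.mp hli)
  have hg' : ∀ i, g (e i) = Finsupp.single i 1 := by
    intro i
    have h1 := congrArg (fun f : (Fin m →₀ ZMod p) →ₗ[ZMod p] (Fin m →₀ ZMod p) =>
      f (Finsupp.single i 1)) hg
    simpa using h1
  intro h0
  obtain ⟨i₀, hi₀⟩ := hc
  apply hi₀
  -- the functional `k ⊗ M → k` picking out the `i₀`-th coordinate
  let ψ : M →+ k := ((ZMod.castHom (dvd_refl p) k).toAddMonoidHom).comp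
    ((Finsupp.lapply (R := ZMod p) i₀).toAddMonoidHom.comp g.toAddMonoidHom)
  have hψ : ∀ i, ψ (e i) = if i = i₀ then 1 else 0 := by
    intro i
    have h1 : ψ (e i) = (ZMod.castHom (dvd_refl p) k) ((g (e i)) i₀) := rfl
    rw [h1, hg' i, Finsupp.single_apply]
    split_ifs
    · rw [map_one]
    · rw [map_zero]
  let B : k →ₗ[ℤ] M →ₗ[ℤ] k := LinearMap.mk₂ ℤ (fun a x => a * ψ x)
    (fun a a' x => add_mul a a' (ψ x))
    (fun n a x => smul_mul_assoc n a (ψ x))
    (fun a x x' => by rw [map_add, mul_add])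
    (fun n a x => by rw [map_zsmul, mul_smul_comm])
  have h1 := congrArg (TensorProduct.lift B) h0
  rw [map_sum, map_zero] at h1
  have h2 : ∀ i, TensorProduct.lift B (c i ⊗ₜ[ℤ] e i) = if i = i₀ then c i else 0 := by
    intro i
    rw [TensorProduct.lift.tmul]
    show c i * ψ (e i) = _
    rw [hψ i]
    split_ifs
    · rw [mul_one]
    · rw [mul_zero]
  simp only [h2, Finset.sum_ite_eq', Finset.mem_univ, if_true] at h1
  exact h1

/-- A family of a group `L` which is independent modulo `p` maps, under an additive map `θ` with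
kernel inside `p L` into a group `M` killed by `p`, to a family that stays independent with
coefficients in any field `k` of characteristic `p` — inside `k ⊗[ℤ] M`. -/
theorem tmul_sum_ne_zero {p : ℕ} (hp : p.Prime) {k : Type*} [Field k] [CharP k p]
    {L M : Type*} [AddCommGroup L] [AddCommGroup M] (hM : ∀ x : M, p • x = 0)
    (θ : L →+ M) (hθ : ∀ u : L, θ u = 0 → ∃ w : L, u = (p : ℤ) • w)
    {m : ℕ} (y : Fin m → L)
    (hy : ∀ n : Fin m → ℤ, (∃ z : L, ∑ i, n i • y i = (p : ℤ) • z) → ∀ i, (p : ℤ) ∣ n i)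
    (c : Fin m → k) (hc : ∃ i, c i ≠ 0) :
    (∑ i, c i ⊗ₜ[ℤ] θ (y i) : k ⊗[ℤ] M) ≠ 0 := by
  classical
  have : Fact p.Prime := ⟨hp⟩
  let _ : Module (ZMod p) M := AddCommGroup.zmodModule hM
  -- the images are independent over `ZMod p`
  have hli : LinearIndependent (ZMod p) (fun i => θ (y i)) := by
    rw [Fintype.linearIndependent_iff]
    intro n hn i
    let n' : Fin m → ℤ := fun i => ((n i).val : ℤ)
    have hn' : ∀ i, ((n' i : ℤ) : ZMod p) = n i := fun i => by
      simp only [n', Int.cast_natCast, ZMod.natCast_zmod_val]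
    have h1 : θ (∑ i, n' i • y i) = 0 := by
      rw [map_sum, ← hn]
      refine Finset.sum_congr rfl fun i _ => ?_
      rw [map_zsmul, ← hn' i, Int.cast_smul_eq_zsmul]
    have h2 := hy n' (hθ _ h1) i
    rw [← hn' i]
    exact (ZMod.intCast_zmod_eq_zero_iff_dvd _ _).mpr h2
  exact tmul_sum_ne_zero_of_linearIndependent (fun i => θ (y i)) hli c hc

/-- Transport of the eigen-equation in coordinates to `k ⊗[ℤ] M`. -/
theorem baseChange_sum_tmul {k : Type*} [CommRing k] {L M : Type*} [AddCommGroup L]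
    [AddCommGroup M] (θ : L →+ M) {m : ℕ} (y : Fin m → L) (c : Fin m → k)
    (TL : L →ₗ[ℤ] L) (TM : M →ₗ[ℤ] M) (hT : ∀ u, TM (θ u) = θ (TL u))
    (Mat : Matrix (Fin m) (Fin m) ℤ) (hMat : ∀ i, TL (y i) = ∑ j, Mat i j • y j)
    (lam : k) (hlam : ∀ j, ∑ i, c i * ((Mat i j : ℤ) : k) = lam * c j) :
    LinearMap.baseChange k TM (∑ i, c i ⊗ₜ[ℤ] θ (y i))
      = lam • ∑ i, c i ⊗ₜ[ℤ] θ (y i) := by
  classical
  rw [map_sum]
  have h1 : ∀ i, LinearMap.baseChange k TM (c i ⊗ₜ[ℤ] θ (y i))
      = ∑ j, (c i * ((Mat i j : ℤ) : k)) ⊗ₜ[ℤ] θ (y j) := by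
    intro i
    rw [LinearMap.baseChange_tmul, hT, hMat, map_sum, TensorProduct.tmul_sum]
    refine Finset.sum_congr rfl fun j _ => ?_
    rw [map_zsmul, ← TensorProduct.smul_tmul, zsmul_eq_mul, mul_comm]
  simp_rw [h1]
  rw [Finset.sum_comm, Finset.smul_sum]
  refine Finset.sum_congr rfl fun j _ => ?_
  rw [← TensorProduct.sum_tmul, hlam j, TensorProduct.smul_tmul', smul_eq_mul]

end Fermat.Agent.S29.EigB
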