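/-
S29, block [Eig] + [NV] (B copy; owner: helper97) — route: the minor argument of `S41/FSAlg`.

`v := periodHomPair N (g, 0)` is a nonzero parabolic complex class with `T_ℓ v = a_ℓ(g) • v`
(`S21`, `S16/HeckePairB`, `S41/FSEigen`) lying in the `ℂ`-span of the complexified lattice
`Lpar N` (`S16/LiftLemma`).  In a `ℤ`-basis `b` of `Lpar N` its coordinate vector is a common
eigenvector of the integer matrices of all `T_ℓ` (`ℓ ∤ N`), hence

* `isIntegral_qCoeff`, `exists_integral_qCoeff` : the `a_ℓ(g)` are algebraic integers;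
* `exists_coord_field` : for EVERY field `𝔽` and ring hom `ψ : ℤ̄ → 𝔽` there is a nonzero
  coordinate vector over `𝔽` with eigenvalues `ψ (a_ℓ)` (all `r × r` minors of the stacked
  matrices `(M_ℓ − a_ℓ)` vanish over `ℤ̄`, hence over `𝔽`);
* `eigStatement` : `EigStatement N p g ψ` of `S29/Defs` (no hypothesis on the characteristic);
* `exists_eigen_coord` : the coordinate form (E3) of the A copy, verbatim;
* `exists_eigen_tensor` : the transport [Eig-T] to an abstract `p`-torsion target `M`;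
* `nvStatement_of_k` : **the block deliverable** `KStatement N p → NVStatement N p g ψ`.
-/
import Mathlib
import Fermat.Prelude.Def_FLTPrelim_ModularRep
import Fermat.Agent.S21.Main
import Fermat.Agent.S16.HeckePairB
import Fermat.Agent.S16.LiftLemma
import Fermat.Agent.S22.GammaFG
import Fermat.Agent.S41.Defs
import Fermat.Agent.S41.ParMem
import Fermat.Agent.S41.LparFree
import Fermat.Agent.S41.FSEigen
import Fermat.Agent.S41.FSAlg
import Fermat.Agent.S29.Defs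
import Fermat.Agent.S29.EigAlgB

set_option autoImplicit false

open CongruenceSubgroup ModularCurve ModularCurve.Period
open scoped MatrixGroups TensorProduct

namespace Fermat.Agent.S29.EigB

open Fermat.Agent.S16 (heckeTHom heckeUHom tData)
open Fermat.Agent.S41 (Lpar)
open Fermat.Agent.S29 (Zb Jp heckeJp heckeLpar KStatement NVStatement EigStatement)

/-- The complex coordinate vector: in any `ℤ`-basis `b` of `Lpar N`, the class of the eigenform
has a nonzero coordinate vector which is a common eigenvector of the integer matrices of all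
`T_ℓ`, `ℓ ∤ N`, with eigenvalues `a_ℓ(g)`. -/
theorem exists_coord_complex_of_eigenform (N : ℕ) [NeZero N] (g : CuspForm (Gamma0 N) 2)
    (hg : g.IsNormalizedEigenform) {r : ℕ} (b : Module.Basis (Fin r) ℤ (Lpar N)) :
    ∃ c : Fin r → ℂ, c ≠ 0 ∧ ∀ (ℓ : ℕ) (hℓ : ℓ.Prime) (hℓN : ¬ ℓ ∣ N) (m : Fin r),
      ∑ n, ((b.repr (heckeLpar N ℓ hℓ hℓN (b n)) m : ℤ) : ℂ) * c n
        = ModularFormClass.qCoeff g ℓ * c m := by
  classical
  have hfg : Group.FG ↥(Gamma0 N) := Fermat.Agent.S22.gamma0_fg N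
  -- the index type
  let I : Type := {ℓ : ℕ // ℓ.Prime ∧ ¬ ℓ ∣ N}
  have hprime : ∀ i : I, Fact (i.1.Prime) := fun i => ⟨i.2.1⟩
  -- the operators on the lattice
  let T : I → (Lpar N →+ Lpar N) := fun i => (heckeLpar N i.1 i.2.1 i.2.2).toAddMonoidHom
  -- the operators on complex classes
  let TV : I → ((Additive (Gamma0 N) →+ ℂ) →ₗ[ℂ] (Additive (Gamma0 N) →+ ℂ)) := fun i =>
    haveI := hprime i
    { toFun := fun φ => heckeTHom N i.1 i.2.2 φ
      map_add' := fun φ ψ => (tData N i.1 i.2.2).op_add φ ψ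
      map_smul' := fun c φ => (tData N i.1 i.2.2).op_smul c φ }
  -- complexification
  let j : Lpar N →+ (Additive (Gamma0 N) →+ ℂ) :=
    { toFun := fun x => (Int.castAddHom ℂ).comp x.1
      map_zero' := AddMonoidHom.comp_zero _
      map_add' := fun x y => AddMonoidHom.comp_add _ x.1 y.1 }
  have hj : ∀ i x, j (T i x) = TV i (j x) := fun i x =>
    haveI := hprime i
    ((tData N i.1 i.2.2).op_comp (Int.castAddHom ℂ) x.1).symm
  have hind : LinearIndependent ℂ (fun n => j (b n)) :=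
    Fermat.Agent.S41.FSAlg.linearIndependent_intCast_comp (fun n => (b n).1)
      (b.linearIndependent.map' (Lpar N).subtype (Submodule.ker_subtype _))
  -- the eigenvector
  set v : Additive (Gamma0 N) →+ ℂ := periodHomPair N (g, 0) with hv
  have hv0 : v ≠ 0 := by
    intro h0
    have h1 : periodHomPair N (g, 0) = periodHomPair N 0 := by
      rw [← hv, h0, map_zero]
    exact hg.ne_zero (congrArg Prod.fst (Fermat.Agent.S21.periodHomPair_injective_Gamma0 N h1))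
  have hvpar : v ∈ parabolicHoms ℂ (Gamma0 N) ℂ :=
    Fermat.Agent.S21.range_periodHomPair_le_Gamma0 N ⟨(g, 0), rfl⟩
  have hvspan : v ∈ Submodule.span ℂ (Set.range j) := by
    have h1 := Fermat.Agent.S16.LiftLemma.mem_span_toC
      {γ : Gamma0 N | ((γ : SL(2, ℤ)) : Matrix (Fin 2) (Fin 2) ℤ).trace ^ 2 = 4} v
      (fun γ hγ => hvpar γ hγ)
    refine Submodule.span_mono ?_ h1
    rintro _ ⟨ψ, hψ, rfl⟩
    exact ⟨⟨ψ, fun γ hγ => hψ γ hγ⟩, rfl⟩
  have ha : ∀ i : I, TV i v = ModularFormClass.qCoeff g i.1 • v := by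
    intro i
    have := hprime i
    have h1 := Fermat.Agent.S16.HeckePairB.periodHomPair_heckeTLin i.2.1 i.2.2 g 0
    rw [map_zero, Fermat.Agent.S41.FSEigen.heckeTLin_eq_smul g hg i.2.1 i.2.2] at h1
    have h2 : ((ModularFormClass.qCoeff g i.1 • g, (0 : CuspForm (Gamma0 N) 2)) :
        CuspForm (Gamma0 N) 2 × CuspForm (Gamma0 N) 2)
        = ModularFormClass.qCoeff g i.1 • (g, 0) := by
      rw [Prod.smul_mk, smul_zero]
    rw [h2, map_smul] at h1
    exact h1.symm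
  obtain ⟨c, hc0, hc⟩ := exists_coord_complex b j hind T TV hj v hv0 hvspan
    (fun i => ModularFormClass.qCoeff g i.1) ha
  exact ⟨c, hc0, fun ℓ hℓ hℓN m => hc ⟨ℓ, hℓ, hℓN⟩ m⟩

/-- **(E1), single prime.** The `ℓ`-th coefficient (`ℓ ∤ N` prime) of a normalized eigenform of
level `N` is an algebraic integer. -/
theorem isIntegral_qCoeff (N : ℕ) [NeZero N] (g : CuspForm (Gamma0 N) 2)
    (hg : g.IsNormalizedEigenform) {ℓ : ℕ} (hℓ : ℓ.Prime) (hℓN : ¬ ℓ ∣ N) :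
    IsIntegral ℤ (ModularFormClass.qCoeff g ℓ) := by
  have hfin : Module.Finite ℤ (Lpar N) := Fermat.Agent.S41.LparFree.lpar_finite N
  have hfree : Module.Free ℤ (Lpar N) := Fermat.Agent.S41.LparFree.lpar_free N
  obtain ⟨c, hc0, hc⟩ := exists_coord_complex_of_eigenform N g hg (Module.finBasis ℤ (Lpar N))
  exact isIntegral_of_mulVec
    (Matrix.of fun m n => (Module.finBasis ℤ (Lpar N)).repr
      (heckeLpar N ℓ hℓ hℓN (Module.finBasis ℤ (Lpar N) n)) m)
    c hc0 _ (fun m => hc ℓ hℓ hℓN m)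

/-- Membership form of `isIntegral_qCoeff`. -/
theorem qCoeff_mem_integralClosure (N : ℕ) [NeZero N] (g : CuspForm (Gamma0 N) 2)
    (hg : g.IsNormalizedEigenform) {ℓ : ℕ} (hℓ : ℓ.Prime) (hℓN : ¬ ℓ ∣ N) :
    ModularFormClass.qCoeff g ℓ ∈ integralClosure ℤ ℂ :=
  isIntegral_qCoeff N g hg hℓ hℓN

/-- **(E1).** Integrality of the prime-to-level Hecke eigenvalues, as a function. -/
theorem exists_integral_qCoeff (N : ℕ) [NeZero N] (g : CuspForm (Gamma0 N) 2)
    (hg : g.IsNormalizedEigenform) :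
    ∃ a : ℕ → Zb, ∀ ℓ : ℕ, ℓ.Prime → ¬ ℓ ∣ N → (a ℓ : ℂ) = ModularFormClass.qCoeff g ℓ := by
  classical
  refine ⟨fun ℓ => if h : ℓ.Prime ∧ ¬ ℓ ∣ N then
    ⟨ModularFormClass.qCoeff g ℓ, qCoeff_mem_integralClosure N g hg h.1 h.2⟩ else 0, ?_⟩
  intro ℓ hℓ hℓN
  simp only [dif_pos (show ℓ.Prime ∧ ¬ ℓ ∣ N from ⟨hℓ, hℓN⟩)]

/-- The coordinate vector over an arbitrary field `𝔽` receiving `ℤ̄`: in any `ℤ`-basis `b` of
`Lpar N` there is a nonzero `x : Fin r → 𝔽` which is a common eigenvector of the integer matrices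
of all `T_ℓ` (`ℓ ∤ N`), reduced to `𝔽`, with eigenvalues `ψ (a_ℓ)`. -/
theorem exists_coord_field_of_eigenform (N : ℕ) [NeZero N] (g : CuspForm (Gamma0 N) 2)
    (hg : g.IsNormalizedEigenform) {r : ℕ} (b : Module.Basis (Fin r) ℤ (Lpar N))
    {𝔽 : Type*} [Field 𝔽] (ψ : Zb →+* 𝔽) :
    ∃ x : Fin r → 𝔽, x ≠ 0 ∧ ∀ (ℓ : ℕ) (hℓ : ℓ.Prime) (hℓN : ¬ ℓ ∣ N) (a : Zb),
      (a : ℂ) = ModularFormClass.qCoeff g ℓ → ∀ m : Fin r,
        ∑ n, ((b.repr (heckeLpar N ℓ hℓ hℓN (b n)) m : ℤ) : 𝔽) * x n = ψ a * x m := by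
  classical
  obtain ⟨c, hc0, hc⟩ := exists_coord_complex_of_eigenform N g hg b
  let I : Type := {ℓ : ℕ // ℓ.Prime ∧ ¬ ℓ ∣ N}
  let α : I → Zb := fun i =>
    ⟨ModularFormClass.qCoeff g i.1, qCoeff_mem_integralClosure N g hg i.2.1 i.2.2⟩
  obtain ⟨x, hx0, hx⟩ := exists_coord_field
    (fun i : I => Matrix.of fun m n => b.repr (heckeLpar N i.1 i.2.1 i.2.2 (b n)) m)
    c hc0 α (fun i m => hc i.1 i.2.1 i.2.2 m) ψ
  refine ⟨x, hx0, ?_⟩
  intro ℓ hℓ hℓN a ha m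
  have h1 := hx ⟨ℓ, hℓ, hℓN⟩ m
  have h2 : α ⟨ℓ, hℓ, hℓN⟩ = a := Subtype.ext ha.symm
  rw [h2] at h1
  exact h1

/-- **[Eig]** in the form of `S29/Defs`: the eigensystem of `g`, reduced along `ψ`, occurs in
`𝔽 ⊗ Lpar N` — for every field `𝔽` and every `ψ : ℤ̄ →+* 𝔽` (`p` plays no role). -/
theorem eigStatement (N p : ℕ) [NeZero N] {g : CuspForm (Gamma0 N) 2}
    (hg : g.IsNormalizedEigenform) {𝔽 : Type} [Field 𝔽] (ψ : Zb →+* 𝔽) :
    EigStatement N p g ψ := by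
  classical
  have hfin : Module.Finite ℤ (Lpar N) := Fermat.Agent.S41.LparFree.lpar_finite N
  have hfree : Module.Free ℤ (Lpar N) := Fermat.Agent.S41.LparFree.lpar_free N
  set b := Module.finBasis ℤ (Lpar N) with hb
  obtain ⟨x, hx0, hx⟩ := exists_coord_field_of_eigenform N g hg b ψ
  refine ⟨∑ n, x n ⊗ₜ[ℤ] (b n), ?_, ?_⟩
  · intro h0
    apply hx0
    have h1 : ∑ n, x n • (Algebra.TensorProduct.basis 𝔽 b) n = 0 := by
      rw [← h0]
      refine Finset.sum_congr rfl fun n _ => ?_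
      rw [Algebra.TensorProduct.basis_apply, TensorProduct.smul_tmul', smul_eq_mul, mul_one]
    funext n
    exact Fintype.linearIndependent_iff.mp (Algebra.TensorProduct.basis 𝔽 b).linearIndependent
      x h1 n
  · intro ℓ hℓ hℓN _
    refine ⟨⟨ModularFormClass.qCoeff g ℓ, qCoeff_mem_integralClosure N g hg hℓ hℓN⟩, rfl, ?_⟩
    have h1 := baseChange_sum_tmul (k := 𝔽) (AddMonoidHom.id (Lpar N)) b x
      (heckeLpar N ℓ hℓ hℓN) (heckeLpar N ℓ hℓ hℓN) (fun u => rfl)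
      (Matrix.of fun i j => b.repr (heckeLpar N ℓ hℓ hℓN (b i)) j)
      (fun i => (b.sum_repr _).symm)
      (ψ ⟨ModularFormClass.qCoeff g ℓ, qCoeff_mem_integralClosure N g hg hℓ hℓN⟩)
      (fun j => by
        rw [← hx ℓ hℓ hℓN _ rfl j]
        refine Finset.sum_congr rfl fun i _ => ?_
        rw [mul_comm]
        rfl)
    exact h1

/-- A `ℤ`-basis is independent modulo every integer. -/
theorem basis_dvd_of_sum_eq_smul {L : Type*} [AddCommGroup L] {r : ℕ}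
    (b : Module.Basis (Fin r) ℤ L) (q : ℤ) (n : Fin r → ℤ)
    (h : ∃ z : L, ∑ i, n i • b i = q • z) (i : Fin r) : q ∣ n i := by
  classical
  obtain ⟨z, hz⟩ := h
  have h1 := congrArg (fun w => b.repr w i) hz
  simp only [Module.Basis.repr_sum_self, map_smul, Finsupp.smul_apply, smul_eq_mul] at h1
  exact ⟨_, h1⟩

/-- **(E3), coordinate form** (the statement of the A copy, with `y` a `ℤ`-basis of `Lpar N`;
no hypothesis on `φ` or on the integer `q`). -/
theorem exists_eigen_coord (N : ℕ) [NeZero N] (g : CuspForm (Gamma0 N) 2)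
    (hg : g.IsNormalizedEigenform) (a : ℕ → Zb)
    (ha : ∀ ℓ : ℕ, ℓ.Prime → ¬ ℓ ∣ N → (a ℓ : ℂ) = ModularFormClass.qCoeff g ℓ)
    {k : Type*} [Field k] (φ : Zb →+* k) (q : ℤ) :
    ∃ (m : ℕ) (y : Fin m → Lpar N) (c : Fin m → k), (∃ i, c i ≠ 0) ∧
      (∀ n : Fin m → ℤ, (∃ z : Lpar N, ∑ i, n i • y i = q • z) → ∀ i, q ∣ n i) ∧
      ∀ (ℓ : ℕ) [Fact ℓ.Prime] (hℓ : ¬ ℓ ∣ N), ∃ M : Matrix (Fin m) (Fin m) ℤ,
        (∀ i, heckeTHom N ℓ hℓ (y i).1 = ∑ j, M i j • (y j).1) ∧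
        ∀ j, ∑ i, c i * ((M i j : ℤ) : k) = φ (a ℓ) * c j := by
  classical
  have hfin : Module.Finite ℤ (Lpar N) := Fermat.Agent.S41.LparFree.lpar_finite N
  have hfree : Module.Free ℤ (Lpar N) := Fermat.Agent.S41.LparFree.lpar_free N
  set b := Module.finBasis ℤ (Lpar N) with hb
  obtain ⟨x, hx0, hx⟩ := exists_coord_field_of_eigenform N g hg b φ
  have hxe : ∃ i, x i ≠ 0 := Function.ne_iff.mp hx0
  refine ⟨_, b, x, hxe, fun n h i => basis_dvd_of_sum_eq_smul b q n h i, ?_⟩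
  intro ℓ hℓF hℓN
  have hℓ : ℓ.Prime := hℓF.out
  refine ⟨Matrix.of fun i j => b.repr (heckeLpar N ℓ hℓ hℓN (b i)) j, ?_, ?_⟩
  · intro i
    have h1 : heckeLpar N ℓ hℓ hℓN (b i)
        = ∑ j, (b.repr (heckeLpar N ℓ hℓ hℓN (b i)) j) • b j := (b.sum_repr _).symm
    have h2 := congrArg (Submodule.subtype (Lpar N)) h1
    rw [map_sum] at h2
    exact h2
  · intro j
    rw [← hx ℓ hℓ hℓN (a ℓ) (ha ℓ hℓ hℓN) j]
    refine Finset.sum_congr rfl fun i _ => ?_
    rw [mul_comm]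
    rfl

/-- **[Eig-T]**: transport of the eigenvector to an abstract target.  For an additive map
`θ : Lpar N → M` into a group killed by `p` with kernel inside `p · Lpar N`, and a field `k` of
characteristic `p` with `φ : ℤ̄ →+* k`, there is a nonzero `v ∈ k ⊗[ℤ] M` which is an eigenvector
with eigenvalue `φ (a_ℓ)` of (the base change of) every endomorphism `TM` of `M` that `θ`
intertwines with `T_ℓ` on `Lpar N` (`ℓ ∤ N` prime). -/
theorem exists_eigen_tensor (N : ℕ) [NeZero N] (g : CuspForm (Gamma0 N) 2)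
    (hg : g.IsNormalizedEigenform) (a : ℕ → Zb)
    (ha : ∀ ℓ : ℕ, ℓ.Prime → ¬ ℓ ∣ N → (a ℓ : ℂ) = ModularFormClass.qCoeff g ℓ)
    {k : Type*} [Field k] (φ : Zb →+* k) {p : ℕ} (hp : p.Prime) [CharP k p]
    {M : Type*} [AddCommGroup M] (hM : ∀ x : M, p • x = 0) (θ : Lpar N →+ M)
    (hθ : ∀ u : Lpar N, θ u = 0 → ∃ w : Lpar N, u = (p : ℤ) • w) :
    ∃ v : k ⊗[ℤ] M, v ≠ 0 ∧ ∀ (ℓ : ℕ) [Fact ℓ.Prime] (hℓ : ¬ ℓ ∣ N) (TM : M →+ M),
      (∀ u u' : Lpar N, u'.1 = heckeTHom N ℓ hℓ u.1 → TM (θ u) = θ u') →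
        TM.toIntLinearMap.baseChange k v = φ (a ℓ) • v := by
  classical
  have hfin : Module.Finite ℤ (Lpar N) := Fermat.Agent.S41.LparFree.lpar_finite N
  have hfree : Module.Free ℤ (Lpar N) := Fermat.Agent.S41.LparFree.lpar_free N
  set b := Module.finBasis ℤ (Lpar N) with hb
  obtain ⟨x, hx0, hx⟩ := exists_coord_field_of_eigenform N g hg b φ
  have hxe : ∃ i, x i ≠ 0 := Function.ne_iff.mp hx0
  refine ⟨∑ n, x n ⊗ₜ[ℤ] θ (b n), tmul_sum_ne_zero hp hM θ hθ b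
    (fun n h i => basis_dvd_of_sum_eq_smul b (p : ℤ) n h i) x hxe, ?_⟩
  intro ℓ hℓF hℓN TM hTM
  have hℓ : ℓ.Prime := hℓF.out
  exact baseChange_sum_tmul (k := k) θ b x (heckeLpar N ℓ hℓ hℓN) TM.toIntLinearMap
    (fun u => hTM u (heckeLpar N ℓ hℓ hℓN u) rfl)
    (Matrix.of fun i j => b.repr (heckeLpar N ℓ hℓ hℓN (b i)) j)
    (fun i => (b.sum_repr _).symm) (φ (a ℓ))
    (fun j => by
      rw [← hx ℓ hℓ hℓN (a ℓ) (ha ℓ hℓ hℓN) j]
      refine Finset.sum_congr rfl fun i _ => ?_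
      rw [mul_comm]
      rfl)

/-- **[NV] — the block deliverable.**  From the comparison `θ` of block [K], the eigensystem of
`g` reduced along `ψ` occurs in `𝔽 ⊗ J₀(N)[p]`. -/
theorem nvStatement_of_k (N p : ℕ) [NeZero N] (hp : p.Prime) {g : CuspForm (Gamma0 N) 2}
    (hg : g.IsNormalizedEigenform) {𝔽 : Type} [Field 𝔽] [CharP 𝔽 p] (ψ : Zb →+* 𝔽) :
    KStatement N p → NVStatement N p g ψ := by
  classical
  rintro ⟨θ, hθp, hθker, hθT⟩
  have hfin : Module.Finite ℤ (Lpar N) := Fermat.Agent.S41.LparFree.lpar_finite N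
  have hfree : Module.Free ℤ (Lpar N) := Fermat.Agent.S41.LparFree.lpar_free N
  set b := Module.finBasis ℤ (Lpar N) with hb
  obtain ⟨x, hx0, hx⟩ := exists_coord_field_of_eigenform N g hg b ψ
  have hxe : ∃ i, x i ≠ 0 := Function.ne_iff.mp hx0
  -- corestriction of `θ` to the `p`-torsion
  let θ' : Lpar N →+ Jp N p :=
    { toFun := fun u => ⟨θ u, (Fermat.Agent.S29.mem_Jp_iff N p _).mpr (hθp u)⟩
      map_zero' := Subtype.ext (map_zero θ)
      map_add' := fun u u' => Subtype.ext (map_add θ u u') }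
  have hM : ∀ z : Jp N p, p • z = 0 := by
    intro z
    apply Subtype.ext
    have h1 := (Fermat.Agent.S29.mem_Jp_iff N p _).mp z.2
    rw [Submodule.coe_smul_of_tower]
    exact h1
  have hθ' : ∀ u : Lpar N, θ' u = 0 → ∃ w : Lpar N, u = (p : ℤ) • w := fun u hu =>
    hθker u (congrArg Subtype.val hu)
  refine ⟨∑ n, x n ⊗ₜ[ℤ] θ' (b n), tmul_sum_ne_zero hp hM θ' hθ' b
    (fun n h i => basis_dvd_of_sum_eq_smul b (p : ℤ) n h i) x hxe, ?_⟩
  intro ℓ hℓ hℓN hℓp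
  refine ⟨⟨ModularFormClass.qCoeff g ℓ, qCoeff_mem_integralClosure N g hg hℓ hℓN⟩, rfl, ?_⟩
  exact baseChange_sum_tmul (k := 𝔽) θ' b x (heckeLpar N ℓ hℓ hℓN) (heckeJp N p ⟨ℓ, hℓ⟩)
    (fun u => Subtype.ext (hθT ℓ hℓ hℓN hℓp u).symm)
    (Matrix.of fun i j => b.repr (heckeLpar N ℓ hℓ hℓN (b i)) j)
    (fun i => (b.sum_repr _).symm) _
    (fun j => by
      rw [← hx ℓ hℓ hℓN _ rfl j]
      refine Finset.sum_congr rfl fun i _ => ?_
      rw [mul_comm]
      rfl)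

end Fermat.Agent.S29.EigB
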