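import Mathlib

/-!
# S29, block [K], leaf (K2)-core: Eisenstein series with character on `Γ₀(N)`

Mathlib-only analytic leaf.

* `eisTw c k` : the Eisenstein series of weight `k` twisted by an arbitrary bounded coefficient
  function `c` on `ℤ²`; holomorphic (`mdifferentiable_eisTw`), stable under the slash action of
  all of `SL(2,ℤ)` (`eisTw_smul`, `eisTw_slash`), bounded at every cusp
  (`isBoundedAtImInfty_eisTw_slash`), with limit `∑' d, c ![0, d] * d ^ (-k)` at `i∞`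
  (`tendsto_eisTw_atImInfty`).
* `eisChiK N χ k` : the series attached to a character `χ` of `Γ₀(N)` which is trivial on the
  matrices with lower left entry `0`; `eisChi N χ` is the weight 4 case.
* `exists_eisChi` : the packaged statement.
-/

open UpperHalfPlane EisensteinSeries CongruenceSubgroup ModularForm Filter Topology Matrix Manifold
open scoped MatrixGroups

namespace Fermat.Agent.S29.EisChi

/-- The Eisenstein series of weight `k` twisted by an arbitrary coefficient function on `ℤ²`. -/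
noncomputable def eisTw (c : (Fin 2 → ℤ) → ℂ) (k : ℤ) (z : ℍ) : ℂ :=
  ∑' v : Fin 2 → ℤ, c v * eisSummand k v z

/-- The full absolute level-one sum. -/
noncomputable def absSum (k : ℤ) (z : ℍ) : ℝ := ∑' v : Fin 2 → ℤ, ‖eisSummand k v z‖

theorem norm_term_le {c : (Fin 2 → ℤ) → ℂ} (hc : ∀ v, ‖c v‖ ≤ 1) (k : ℤ) (v : Fin 2 → ℤ)
    (z : ℍ) : ‖c v * eisSummand k v z‖ ≤ ‖eisSummand k v z‖ := by
  rw [norm_mul]
  exact mul_le_of_le_one_left (norm_nonneg _) (hc v)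

theorem summable_norm_term {c : (Fin 2 → ℤ) → ℂ} (hc : ∀ v, ‖c v‖ ≤ 1) {k : ℤ} (hk : 3 ≤ k)
    (z : ℍ) : Summable fun v : Fin 2 → ℤ => ‖c v * eisSummand k v z‖ :=
  (summable_norm_eisSummand hk z).of_nonneg_of_le (fun _ => norm_nonneg _)
    fun v => norm_term_le hc k v z

theorem summable_term {c : (Fin 2 → ℤ) → ℂ} (hc : ∀ v, ‖c v‖ ≤ 1) {k : ℤ} (hk : 3 ≤ k)
    (z : ℍ) : Summable fun v : Fin 2 → ℤ => c v * eisSummand k v z :=
  (summable_norm_term hc hk z).of_norm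

theorem norm_eisTw_le {c : (Fin 2 → ℤ) → ℂ} (hc : ∀ v, ‖c v‖ ≤ 1) {k : ℤ} (hk : 3 ≤ k)
    (z : ℍ) : ‖eisTw c k z‖ ≤ absSum k z := by
  refine le_trans (norm_tsum_le_tsum_norm (summable_norm_term hc hk z)) ?_
  exact (summable_norm_term hc hk z).tsum_le_tsum (fun v => norm_term_le hc k v z)
    (summable_norm_eisSummand hk z)

theorem norm_eisSummand_le_of_mem_verticalStrip {k : ℤ} (hk : 3 ≤ k) (v : Fin 2 → ℤ)
    {A B : ℝ} (hB : 0 < B) {z : ℍ} (hz : z ∈ verticalStrip A B) :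
    ‖eisSummand k v z‖ ≤ r ⟨⟨A, B⟩, hB⟩ ^ (-k) * ‖v‖ ^ (-k) := by
  have hk' : (0 : ℝ) ≤ k := by
    have : (0 : ℤ) ≤ k := by omega
    exact_mod_cast this
  have := summand_bound_of_mem_verticalStrip hk' v hB hz
  simp only [eisSummand, norm_zpow]
  exact_mod_cast this

theorem summable_bound {k : ℤ} (hk : 3 ≤ k) (ρ : ℝ) :
    Summable fun v : Fin 2 → ℤ => ρ * ‖v‖ ^ (-k) := by
  have hk' : (2 : ℝ) < k := by norm_cast
  exact_mod_cast (summable_one_div_norm_rpow hk').mul_left ρ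

theorem eisTw_tendstoLocallyUniformly {c : (Fin 2 → ℤ) → ℂ} (hc : ∀ v, ‖c v‖ ≤ 1) {k : ℤ}
    (hk : 3 ≤ k) :
    TendstoLocallyUniformly (fun (s : Finset (Fin 2 → ℤ)) ↦ (∑ x ∈ s, c x * eisSummand k x ·))
      (eisTw c k ·) Filter.atTop := by
  simp only [tendstoLocallyUniformly_iff_forall_isCompact, eisTw]
  intro K hK
  obtain ⟨A, B, hB, HABK⟩ := subset_verticalStrip_of_isCompact hK
  refine (tendstoUniformlyOn_tsum (hu := summable_bound hk (r ⟨⟨A, B⟩, hB⟩ ^ (-k)))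
    (fun p z hz ↦ ?_)).mono HABK
  exact (norm_term_le hc k p z).trans (norm_eisSummand_le_of_mem_verticalStrip hk p hB hz)

theorem eisTw_tendstoLocallyUniformlyOn {c : (Fin 2 → ℤ) → ℂ} (hc : ∀ v, ‖c v‖ ≤ 1) {k : ℤ}
    (hk : 3 ≤ k) :
    TendstoLocallyUniformlyOn (fun (s : Finset (Fin 2 → ℤ)) ↦
      ↑ₕ(fun (z : ℍ) ↦ ∑ x ∈ s, c x * eisSummand k x z)) (↑ₕ(eisTw c k))
          Filter.atTop {z : ℂ | 0 < z.im} := by
  rw [← upperHalfPlaneSet, ← range_coe, ← Set.image_univ]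
  apply TendstoLocallyUniformlyOn.comp (s := ⊤) _ _ _ (OpenPartialHomeomorph.continuousOn_symm _)
  · simp only [Set.top_eq_univ, tendstoLocallyUniformlyOn_univ]
    apply eisTw_tendstoLocallyUniformly hc hk
  · simp only [IsOpenEmbedding.toOpenPartialHomeomorph_target, Set.top_eq_univ,
      Set.mapsTo_range_iff, Set.mem_univ, forall_const]

/-- The twisted Eisenstein series is holomorphic on the upper half plane. -/
theorem mdifferentiable_eisTw {c : (Fin 2 → ℤ) → ℂ} (hc : ∀ v, ‖c v‖ ≤ 1) {k : ℤ}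
    (hk : 3 ≤ k) : MDiff (eisTw c k) := by
  intro τ
  suffices DifferentiableAt ℂ (↑ₕ(eisTw c k)) τ.1 by
    convert!
      MDifferentiableAt.comp τ (DifferentiableAt.mdifferentiableAt this) τ.mdifferentiable_coe
    exact funext fun z ↦ (comp_ofComplex (eisTw c k) z).symm
  refine DifferentiableOn.differentiableAt ?_ (isOpen_upperHalfPlaneSet.mem_nhds τ.2)
  refine (eisTw_tendstoLocallyUniformlyOn hc hk).differentiableOn
    (Eventually.of_forall fun s ↦ ?_) isOpen_upperHalfPlaneSet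
  have : (↑ₕ(fun (z : ℍ) ↦ ∑ x ∈ s, c x * eisSummand k x z)) =
      fun w : ℂ => ∑ x ∈ s, c x * (↑ₕ(eisSummand k x)) w := by
    funext w
    simp [Function.comp]
  rw [this]
  exact DifferentiableOn.fun_sum fun x _ ↦
    (eisSummand_extension_differentiableOn k x).const_mul (c x)
theorem vecMul_vecMul_inv (g : SL(2, ℤ)) (v : Fin 2 → ℤ) :
    (v ᵥ* (g : Matrix (Fin 2) (Fin 2) ℤ)) ᵥ* ((g⁻¹ : SL(2, ℤ)) : Matrix (Fin 2) (Fin 2) ℤ) = v := by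
  rw [vecMul_vecMul, ← Matrix.SpecialLinearGroup.coe_mul, mul_inv_cancel,
    Matrix.SpecialLinearGroup.coe_one, vecMul_one]

theorem vecMul_inv_vecMul (g : SL(2, ℤ)) (v : Fin 2 → ℤ) :
    (v ᵥ* ((g⁻¹ : SL(2, ℤ)) : Matrix (Fin 2) (Fin 2) ℤ)) ᵥ* (g : Matrix (Fin 2) (Fin 2) ℤ) = v := by
  rw [vecMul_vecMul, ← Matrix.SpecialLinearGroup.coe_mul, inv_mul_cancel,
    Matrix.SpecialLinearGroup.coe_one, vecMul_one]

/-- Right multiplication by `g ∈ SL(2,ℤ)` as a permutation of `ℤ²`. -/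
def vecMulEquiv (g : SL(2, ℤ)) : (Fin 2 → ℤ) ≃ (Fin 2 → ℤ) where
  toFun v := v ᵥ* (g : Matrix (Fin 2) (Fin 2) ℤ)
  invFun v := v ᵥ* ((g⁻¹ : SL(2, ℤ)) : Matrix (Fin 2) (Fin 2) ℤ)
  left_inv v := vecMul_vecMul_inv g v
  right_inv v := vecMul_inv_vecMul g v

theorem vecMulEquiv_apply (g : SL(2, ℤ)) (v : Fin 2 → ℤ) :
    vecMulEquiv g v = v ᵥ* (g : Matrix (Fin 2) (Fin 2) ℤ) := rfl

theorem denom_T_zpow (n : ℤ) (z : ℍ) : denom (ModularGroup.T ^ n : SL(2, ℤ)) z = 1 := by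
  simp [denom, ModularGroup.coe_T_zpow, -map_zpow]

theorem vecMul_T_zpow_zero (n : ℤ) (v : Fin 2 → ℤ) :
    (v ᵥ* ((ModularGroup.T ^ n : SL(2, ℤ)) : Matrix (Fin 2) (Fin 2) ℤ)) 0 = v 0 := by
  simp [ModularGroup.coe_T_zpow, vecMul, vecHead]

/-- The transformation law of the twisted Eisenstein series under all of `SL(2,ℤ)`:
the coefficient function is moved by `g`. -/
theorem eisTw_smul (c : (Fin 2 → ℤ) → ℂ) (k : ℤ) (g : SL(2, ℤ)) (z : ℍ) :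
    eisTw c k (g • z) = denom g z ^ k *
      eisTw (fun w => c (w ᵥ* ((g⁻¹ : SL(2, ℤ)) : Matrix (Fin 2) (Fin 2) ℤ))) k z := by
  unfold eisTw
  rw [← tsum_mul_left, ← (vecMulEquiv g).tsum_eq (fun w => denom g z ^ k *
    (c (w ᵥ* ((g⁻¹ : SL(2, ℤ)) : Matrix (Fin 2) (Fin 2) ℤ)) * eisSummand k w z))]
  refine tsum_congr fun v => ?_
  rw [eisSummand_SL2_apply, vecMulEquiv_apply, vecMul_vecMul_inv]
  ring

theorem eisTw_slash (c : (Fin 2 → ℤ) → ℂ) (k : ℤ) (g : SL(2, ℤ)) :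
    eisTw c k ∣[k] g =
      eisTw (fun w => c (w ᵥ* ((g⁻¹ : SL(2, ℤ)) : Matrix (Fin 2) (Fin 2) ℤ))) k := by
  ext z
  rw [SL_slash_apply, eisTw_smul, mul_comm, ← mul_assoc, ← zpow_add₀ (denom_ne_zero g z)]
  simp

/-- The absolute sum over the vectors with nonzero first entry. -/
noncomputable def offSum (k : ℤ) (z : ℍ) : ℝ :=
  ∑' v : Fin 2 → ℤ, if v 0 = 0 then 0 else ‖eisSummand k v z‖

theorem offSum_T_zpow_smul (k : ℤ) (n : ℤ) (z : ℍ) :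
    offSum k ((ModularGroup.T ^ n : SL(2, ℤ)) • z) = offSum k z := by
  unfold offSum
  rw [← (vecMulEquiv (ModularGroup.T ^ n)).tsum_eq
    (fun w => if w 0 = 0 then 0 else ‖eisSummand k w z‖)]
  refine tsum_congr fun v => ?_
  rw [eisSummand_SL2_apply, vecMulEquiv_apply, vecMul_T_zpow_zero, denom_T_zpow]
  simp

theorem norm_eisSummand_le_im {k : ℤ} (hk : 0 ≤ k) {v : Fin 2 → ℤ} (hv : v 0 ≠ 0) (z : ℍ) :
    ‖eisSummand k v z‖ ≤ z.im ^ (-k) := by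
  have h1 : z.im ≤ ‖((v 0 : ℤ) : ℂ) * (z : ℂ) + ((v 1 : ℤ) : ℂ)‖ := by
    have h2 : |(((v 0 : ℤ) : ℂ) * (z : ℂ) + ((v 1 : ℤ) : ℂ)).im| ≤
        ‖((v 0 : ℤ) : ℂ) * (z : ℂ) + ((v 1 : ℤ) : ℂ)‖ := Complex.abs_im_le_norm _
    have h3 : (((v 0 : ℤ) : ℂ) * (z : ℂ) + ((v 1 : ℤ) : ℂ)).im = (v 0 : ℝ) * z.im := by
      simp
    rw [h3, abs_mul, abs_of_pos z.im_pos] at h2
    have h4 : (1 : ℝ) ≤ |((v 0 : ℤ) : ℝ)| := by
      have : (1 : ℤ) ≤ |v 0| := Int.one_le_abs hv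
      exact_mod_cast this
    nlinarith [z.im_pos]
  simp only [eisSummand, norm_zpow]
  rw [_root_.zpow_neg, _root_.zpow_neg]
  have hpos : 0 < z.im ^ k := zpow_pos z.im_pos k
  rw [inv_le_inv₀ (lt_of_lt_of_le hpos (zpow_le_zpow_left₀ hk z.im_pos.le h1)) hpos]
  lift k to ℕ using hk
  exact zpow_le_zpow_left₀ (by positivity) z.im_pos.le h1
theorem tendsto_offSum_strip {k : ℤ} (hk : 3 ≤ k) :
    Tendsto (offSum k) (atImInfty ⊓ 𝓟 (verticalStrip 1 1)) (𝓝 0) := by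
  have h := tendsto_tsum_of_dominated_convergence
    (𝓕 := atImInfty ⊓ 𝓟 (verticalStrip 1 1))
    (f := fun (z : ℍ) (v : Fin 2 → ℤ) => if v 0 = 0 then (0 : ℝ) else ‖eisSummand k v z‖)
    (g := fun _ => (0 : ℝ))
    (summable_bound hk (r ⟨⟨1, 1⟩, one_pos⟩ ^ (-k))) ?_ ?_
  · have h' : Tendsto (offSum k) (atImInfty ⊓ 𝓟 (verticalStrip 1 1))
        (𝓝 (∑' _ : Fin 2 → ℤ, (0 : ℝ))) := h
    simpa using h'
  · intro v
    by_cases hv : v 0 = 0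
    · simpa [hv] using tendsto_const_nhds
    · simp only [hv, if_false]
      have h0 : Tendsto (fun z : ℍ => z.im ^ (-k)) atImInfty (𝓝 0) := by
        have : Tendsto (fun y : ℝ => y ^ (-k)) atTop (𝓝 0) :=
          tendsto_zpow_atTop_zero (by omega)
        exact this.comp tendsto_comap
      exact squeeze_zero (fun z => norm_nonneg _)
        (fun z => norm_eisSummand_le_im (by omega) hv z) (h0.mono_left inf_le_left)
  · rw [eventually_inf_principal]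
    refine Eventually.of_forall fun z hz v => ?_
    by_cases hv : v 0 = 0
    · simp only [hv, if_true, norm_zero]
      have := r_pos (⟨⟨1, 1⟩, one_pos⟩ : ℍ)
      positivity
    · simp only [hv, if_false, norm_norm]
      exact norm_eisSummand_le_of_mem_verticalStrip hk v one_pos hz

theorem tendsto_offSum {k : ℤ} (hk : 3 ≤ k) : Tendsto (offSum k) atImInfty (𝓝 0) := by
  have h := tendsto_offSum_strip hk
  rw [Metric.tendsto_nhds] at h ⊢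
  intro ε hε
  have h1 := h ε hε
  rw [eventually_inf_principal] at h1
  obtain ⟨A, hA⟩ := (atImInfty_mem _).1 h1
  refine (atImInfty_mem _).2 ⟨max A 1, fun z hz => ?_⟩
  obtain ⟨n, hn⟩ := ModularGroup_T_zpow_mem_verticalStrip z (N := 1) one_pos
  simp only [Nat.cast_one, one_mul] at hn
  have hz1 : (ModularGroup.T ^ n : SL(2, ℤ)) • z ∈ verticalStrip 1 1 :=
    verticalStrip_anti_right _ (le_trans (le_max_right _ _) hz) hn
  have h2 := hA ((ModularGroup.T ^ n : SL(2, ℤ)) • z)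
    (by rw [ModularGroup.im_T_zpow_smul]; exact le_trans (le_max_left _ _) hz) hz1
  rwa [offSum_T_zpow_smul] at h2

theorem summable_ite_term {c : (Fin 2 → ℤ) → ℂ} (hc : ∀ v, ‖c v‖ ≤ 1) {k : ℤ} (hk : 3 ≤ k)
    (z : ℍ) (P : (Fin 2 → ℤ) → Prop) [DecidablePred P] :
    Summable fun v : Fin 2 → ℤ => ‖if P v then c v * eisSummand k v z else 0‖ := by
  refine (summable_norm_term hc hk z).of_nonneg_of_le (fun _ => norm_nonneg _) fun v => ?_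
  by_cases hv : P v
  · simp [hv]
  · simp only [hv, if_false, norm_zero]
    exact norm_nonneg _

theorem eisTw_eq_add {c : (Fin 2 → ℤ) → ℂ} (hc : ∀ v, ‖c v‖ ≤ 1) {k : ℤ} (hk : 3 ≤ k)
    (z : ℍ) :
    eisTw c k z = (∑' v : Fin 2 → ℤ, if v 0 = 0 then c v * ((v 1 : ℂ) ^ (-k)) else 0) +
      ∑' v : Fin 2 → ℤ, if ¬ v 0 = 0 then c v * eisSummand k v z else 0 := by
  have e1 : (fun v : Fin 2 → ℤ => if v 0 = 0 then c v * ((v 1 : ℂ) ^ (-k)) else 0) =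
      fun v : Fin 2 → ℤ => if v 0 = 0 then c v * eisSummand k v z else 0 := by
    funext v
    by_cases hv : v 0 = 0 <;> simp [hv, eisSummand]
  rw [e1]
  unfold eisTw
  rw [← Summable.tsum_add (summable_ite_term hc hk z _).of_norm
    (summable_ite_term hc hk z _).of_norm]
  refine tsum_congr fun v => ?_
  by_cases hv : v 0 = 0 <;> simp [hv]

theorem norm_off_le {c : (Fin 2 → ℤ) → ℂ} (hc : ∀ v, ‖c v‖ ≤ 1) {k : ℤ} (hk : 3 ≤ k)
    (z : ℍ) :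
    ‖∑' v : Fin 2 → ℤ, if ¬ v 0 = 0 then c v * eisSummand k v z else 0‖ ≤ offSum k z := by
  refine le_trans (norm_tsum_le_tsum_norm (summable_ite_term hc hk z _)) ?_
  refine (summable_ite_term hc hk z _).tsum_le_tsum (fun v => ?_) ?_
  · by_cases hv : v 0 = 0
    · simp [hv]
    · simpa [hv] using norm_term_le hc k v z
  · refine (summable_norm_eisSummand hk z).of_nonneg_of_le (fun v => ?_) fun v => ?_
    · by_cases hv : v 0 = 0 <;> simp [hv]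
    · by_cases hv : v 0 = 0 <;> simp [hv]

/-- The limit of a twisted Eisenstein series at `i∞`: only the rows `(0, d)` survive. -/
theorem tendsto_eisTw_atImInfty' {c : (Fin 2 → ℤ) → ℂ} (hc : ∀ v, ‖c v‖ ≤ 1) {k : ℤ}
    (hk : 3 ≤ k) :
    Tendsto (eisTw c k) atImInfty
      (𝓝 (∑' v : Fin 2 → ℤ, if v 0 = 0 then c v * ((v 1 : ℂ) ^ (-k)) else 0)) := by
  have h0 : Tendsto (fun z : ℍ => ∑' v : Fin 2 → ℤ,
      if ¬ v 0 = 0 then c v * eisSummand k v z else 0) atImInfty (𝓝 0) :=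
    squeeze_zero_norm (fun z => norm_off_le hc hk z) (tendsto_offSum hk)
  have h1 := (tendsto_const_nhds
    (x := ∑' v : Fin 2 → ℤ, if v 0 = 0 then c v * ((v 1 : ℂ) ^ (-k)) else 0)).add h0
  rw [add_zero] at h1
  exact h1.congr fun z => (eisTw_eq_add hc hk z).symm

/-- The limit of a twisted Eisenstein series at `i∞`, as a sum over `d : ℤ`. -/
theorem tendsto_eisTw_atImInfty {c : (Fin 2 → ℤ) → ℂ} (hc : ∀ v, ‖c v‖ ≤ 1) {k : ℤ}
    (hk : 3 ≤ k) :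
    Tendsto (eisTw c k) atImInfty (𝓝 (∑' d : ℤ, c ![0, d] * (d : ℂ) ^ (-k))) := by
  have h := tendsto_eisTw_atImInfty' hc hk
  have e : (∑' d : ℤ, c ![0, d] * (d : ℂ) ^ (-k)) =
      ∑' v : Fin 2 → ℤ, if v 0 = 0 then c v * ((v 1 : ℂ) ^ (-k)) else 0 := by
    have hinj : Function.Injective (fun d : ℤ => (![0, d] : Fin 2 → ℤ)) :=
      fun a b h => by simpa using congrFun h 1
    rw [← hinj.tsum_eq]
    · simp
    · intro v hv
      have hv0 : v 0 = 0 := by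
        by_contra h0
        simp [h0] at hv
      refine ⟨v 1, ?_⟩
      ext i
      fin_cases i <;> simp [hv0]
  rw [e]
  exact h

/-- Twisted Eisenstein series are bounded at `i∞`. -/
theorem isBoundedAtImInfty_eisTw {c : (Fin 2 → ℤ) → ℂ} (hc : ∀ v, ‖c v‖ ≤ 1) {k : ℤ}
    (hk : 3 ≤ k) : IsBoundedAtImInfty (eisTw c k) :=
  (tendsto_eisTw_atImInfty' hc hk).isBigO_one ℝ

/-- Twisted Eisenstein series are bounded at every cusp. -/
theorem isBoundedAtImInfty_eisTw_slash {c : (Fin 2 → ℤ) → ℂ} (hc : ∀ v, ‖c v‖ ≤ 1) {k : ℤ}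
    (hk : 3 ≤ k) (g : SL(2, ℤ)) : IsBoundedAtImInfty (eisTw c k ∣[k] g) := by
  rw [eisTw_slash]
  exact isBoundedAtImInfty_eisTw (fun w => hc _) hk
theorem eisTw_const_mul (a : ℂ) (c : (Fin 2 → ℤ) → ℂ) (k : ℤ) (z : ℍ) :
    eisTw (fun w => a * c w) k z = a * eisTw c k z := by
  unfold eisTw
  rw [← tsum_mul_left]
  exact tsum_congr fun v => mul_assoc _ _ _

/-! ### The series attached to a character of `Γ₀(N)` -/

section Chi

variable (N : ℕ) (χ : ↥(Gamma0 N) →* ℂ)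

open Classical in
/-- The coefficient function of `E_χ`: `χ(γ⁻¹)` on the bottom row of `γ ∈ Γ₀(N)`, zero on the
vectors which are not such a bottom row. -/
noncomputable def coeff (v : Fin 2 → ℤ) : ℂ :=
  if h : ∃ γ : ↥(Gamma0 N), (γ : SL(2, ℤ)) 1 = v then χ (Classical.choose h)⁻¹ else 0

/-- The weight-`k` Eisenstein series with character `χ` on `Γ₀(N)`. -/
noncomputable def eisChiK (k : ℤ) (z : ℍ) : ℂ := eisTw (coeff N χ) k z

/-- The weight-4 Eisenstein series with character `χ` on `Γ₀(N)`. -/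
noncomputable def eisChi (z : ℍ) : ℂ := eisChiK N χ 4 z

variable {N χ}

theorem row_mul (A B : SL(2, ℤ)) :
    (A * B : SL(2, ℤ)) 1 = (A 1) ᵥ* (B : Matrix (Fin 2) (Fin 2) ℤ) := by
  rw [Matrix.SpecialLinearGroup.coe_mul]
  exact Matrix.mul_apply_eq_vecMul _ _ _

theorem row_one : (1 : SL(2, ℤ)) 1 = ![0, 1] := by
  ext i
  fin_cases i <;> simp

theorem chi_inv (γ : ↥(Gamma0 N)) : χ γ⁻¹ = (χ γ)⁻¹ :=
  eq_inv_of_mul_eq_one_right (by rw [← map_mul, mul_inv_cancel, map_one])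

/-- Two elements of `Γ₀(N)` with the same bottom row have the same character value. -/
theorem chi_eq_of_row_eq (hpar : ∀ γ : ↥(Gamma0 N), (γ : SL(2, ℤ)) 1 0 = 0 → χ γ = 1)
    {γ γ' : ↥(Gamma0 N)} (h : (γ : SL(2, ℤ)) 1 = (γ' : SL(2, ℤ)) 1) : χ γ = χ γ' := by
  have h1 : ((γ * γ'⁻¹ : ↥(Gamma0 N)) : SL(2, ℤ)) 1 = ![0, 1] := by
    have : ((γ * γ'⁻¹ : ↥(Gamma0 N)) : SL(2, ℤ)) = (γ : SL(2, ℤ)) * (γ' : SL(2, ℤ))⁻¹ := rfl
    rw [this, row_mul, h, ← row_mul, mul_inv_cancel, row_one]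
  have h2 : χ (γ * γ'⁻¹) = 1 := hpar _ (by rw [h1]; rfl)
  calc χ γ = χ (γ * γ'⁻¹ * γ') := by rw [inv_mul_cancel_right]
    _ = χ γ' := by rw [map_mul, h2, one_mul]

theorem coeff_row (hpar : ∀ γ : ↥(Gamma0 N), (γ : SL(2, ℤ)) 1 0 = 0 → χ γ = 1)
    (γ : ↥(Gamma0 N)) : coeff N χ ((γ : SL(2, ℤ)) 1) = χ γ⁻¹ := by
  have h : ∃ γ' : ↥(Gamma0 N), (γ' : SL(2, ℤ)) 1 = (γ : SL(2, ℤ)) 1 := ⟨γ, rfl⟩
  unfold coeff
  rw [dif_pos h, chi_inv, chi_inv, chi_eq_of_row_eq hpar (Classical.choose_spec h)]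

theorem coeff_eq_zero {v : Fin 2 → ℤ} (h : ¬ ∃ γ : ↥(Gamma0 N), (γ : SL(2, ℤ)) 1 = v) :
    coeff N χ v = 0 := by
  unfold coeff
  rw [dif_neg h]

theorem norm_coeff_le (hnorm : ∀ γ : ↥(Gamma0 N), ‖χ γ‖ = 1) (v : Fin 2 → ℤ) :
    ‖coeff N χ v‖ ≤ 1 := by
  unfold coeff
  split_ifs with h
  · exact (hnorm _).le
  · simp

theorem coeff_vecMul_inv (hpar : ∀ γ : ↥(Gamma0 N), (γ : SL(2, ℤ)) 1 0 = 0 → χ γ = 1)
    (σ : ↥(Gamma0 N)) (w : Fin 2 → ℤ) :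
    coeff N χ (w ᵥ* (((σ : SL(2, ℤ))⁻¹ : SL(2, ℤ)) : Matrix (Fin 2) (Fin 2) ℤ)) =
      χ σ * coeff N χ w := by
  by_cases h : ∃ γ : ↥(Gamma0 N), (γ : SL(2, ℤ)) 1 = w
  · obtain ⟨γ, rfl⟩ := h
    have e : (γ : SL(2, ℤ)) 1 ᵥ* (((σ : SL(2, ℤ))⁻¹ : SL(2, ℤ)) : Matrix (Fin 2) (Fin 2) ℤ) =
        ((γ * σ⁻¹ : ↥(Gamma0 N)) : SL(2, ℤ)) 1 := by
      rw [show ((γ * σ⁻¹ : ↥(Gamma0 N)) : SL(2, ℤ)) = (γ : SL(2, ℤ)) * (σ : SL(2, ℤ))⁻¹
        from rfl, row_mul]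
    rw [e, coeff_row hpar, coeff_row hpar, _root_.mul_inv_rev, inv_inv, map_mul]
  · have h' : ¬ ∃ γ : ↥(Gamma0 N), (γ : SL(2, ℤ)) 1 =
        w ᵥ* (((σ : SL(2, ℤ))⁻¹ : SL(2, ℤ)) : Matrix (Fin 2) (Fin 2) ℤ) := by
      rintro ⟨γ, hγ⟩
      refine h ⟨γ * σ, ?_⟩
      rw [show ((γ * σ : ↥(Gamma0 N)) : SL(2, ℤ)) = (γ : SL(2, ℤ)) * (σ : SL(2, ℤ)) from rfl,
        row_mul, hγ, vecMul_inv_vecMul]
    rw [coeff_eq_zero h, coeff_eq_zero h', mul_zero]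

/-- `-1 ∈ Γ₀(N)`. -/
theorem neg_one_mem_Gamma0 (N : ℕ) : (-1 : SL(2, ℤ)) ∈ Gamma0 N := by
  rw [Gamma0_mem]
  simp

theorem coeff_zero_row (hpar : ∀ γ : ↥(Gamma0 N), (γ : SL(2, ℤ)) 1 0 = 0 → χ γ = 1) (d : ℤ) :
    coeff N χ ![0, d] = if d = 1 ∨ d = -1 then 1 else 0 := by
  by_cases h1 : d = 1
  · subst h1
    have := coeff_row hpar (1 : ↥(Gamma0 N))
    rw [show ((1 : ↥(Gamma0 N)) : SL(2, ℤ)) = 1 from rfl, row_one, inv_one, map_one] at this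
    simp [this]
  by_cases h2 : d = -1
  · subst h2
    have e : ((⟨-1, neg_one_mem_Gamma0 N⟩ : ↥(Gamma0 N)) : SL(2, ℤ)) 1 = ![0, -1] := by
      ext i
      fin_cases i <;> simp
    have := coeff_row hpar (⟨-1, neg_one_mem_Gamma0 N⟩ : ↥(Gamma0 N))
    rw [e, chi_inv, hpar _ (by simp), inv_one] at this
    simp [this]
  · rw [if_neg (by tauto)]
    refine coeff_eq_zero ?_
    rintro ⟨γ, hγ⟩
    have h10 : (γ : SL(2, ℤ)) 1 0 = 0 := by simpa using congrFun hγ 0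
    have h11 : (γ : SL(2, ℤ)) 1 1 = d := by simpa using congrFun hγ 1
    have hdet := (γ : SL(2, ℤ)).det_coe
    rw [Matrix.det_fin_two, h10, h11, mul_zero, sub_zero] at hdet
    rcases Int.eq_one_or_neg_one_of_mul_eq_one' hdet with ⟨-, hd⟩ | ⟨-, hd⟩
    · exact h1 hd
    · exact h2 hd

/-- **(E1)** `E_χ` is holomorphic on the upper half plane. -/
theorem mdifferentiable_eisChiK (hnorm : ∀ γ : ↥(Gamma0 N), ‖χ γ‖ = 1) {k : ℤ} (hk : 3 ≤ k) :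
    MDiff (eisChiK N χ k) :=
  mdifferentiable_eisTw (norm_coeff_le hnorm) hk

/-- **(E2)** The transformation law of `E_χ` under `Γ₀(N)`. -/
theorem eisChiK_smul (hpar : ∀ γ : ↥(Gamma0 N), (γ : SL(2, ℤ)) 1 0 = 0 → χ γ = 1) (k : ℤ)
    (γ : ↥(Gamma0 N)) (z : ℍ) :
    eisChiK N χ k ((γ : SL(2, ℤ)) • z) =
      χ γ * denom (γ : SL(2, ℤ)) z ^ k * eisChiK N χ k z := by
  unfold eisChiK
  rw [eisTw_smul]
  have e : (fun w : Fin 2 → ℤ => coeff N χ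
      (w ᵥ* (((γ : SL(2, ℤ))⁻¹ : SL(2, ℤ)) : Matrix (Fin 2) (Fin 2) ℤ))) =
      fun w => χ γ * coeff N χ w := funext fun w => coeff_vecMul_inv hpar γ w
  rw [e, eisTw_const_mul]
  ring

/-- **(E2)**, slash form: `E_χ ∣[k] γ = χ(γ) • E_χ` for `γ ∈ Γ₀(N)`. -/
theorem eisChiK_slash (hpar : ∀ γ : ↥(Gamma0 N), (γ : SL(2, ℤ)) 1 0 = 0 → χ γ = 1) (k : ℤ)
    (γ : ↥(Gamma0 N)) :
    eisChiK N χ k ∣[k] (γ : SL(2, ℤ)) = χ γ • eisChiK N χ k := by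
  ext z
  have hd : denom (γ : SL(2, ℤ)) z ^ k ≠ 0 := zpow_ne_zero _ (denom_ne_zero _ z)
  rw [SL_slash_apply, eisChiK_smul hpar, Pi.smul_apply, smul_eq_mul, _root_.zpow_neg]
  field_simp

/-- **(E3)** `E_χ` is bounded at every cusp. -/
theorem isBoundedAtImInfty_eisChiK_slash (hnorm : ∀ γ : ↥(Gamma0 N), ‖χ γ‖ = 1) {k : ℤ}
    (hk : 3 ≤ k) (g : SL(2, ℤ)) : IsBoundedAtImInfty (eisChiK N χ k ∣[k] g) :=
  isBoundedAtImInfty_eisTw_slash (norm_coeff_le hnorm) hk g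

/-- **(E4)** `E_χ → 2` at `i∞` (the rows `(0, ±1)`), for even weight. -/
theorem tendsto_eisChiK (hnorm : ∀ γ : ↥(Gamma0 N), ‖χ γ‖ = 1)
    (hpar : ∀ γ : ↥(Gamma0 N), (γ : SL(2, ℤ)) 1 0 = 0 → χ γ = 1) {k : ℤ} (hk : 3 ≤ k)
    (hk2 : Even k) : Tendsto (eisChiK N χ k) atImInfty (𝓝 2) := by
  have h := tendsto_eisTw_atImInfty (norm_coeff_le hnorm) hk
  have e : (∑' d : ℤ, coeff N χ ![0, d] * (d : ℂ) ^ (-k)) = 2 := by
    rw [tsum_eq_sum (s := {1, -1})]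
    · rw [Finset.sum_pair (by norm_num), coeff_zero_row hpar, coeff_zero_row hpar]
      have : ((-1 : ℤ) : ℂ) ^ (-k) = 1 := by
        rw [Int.cast_neg, Int.cast_one]
        exact hk2.neg.neg_one_zpow
      rw [this]
      norm_num
    · intro d hd
      have hd' : ¬ (d = 1 ∨ d = -1) := by simpa using hd
      rw [coeff_zero_row hpar, if_neg hd', zero_mul]
  rw [e] at h
  exact h

theorem T_zpow_mem_Gamma0 (N : ℕ) (n : ℤ) : (ModularGroup.T ^ n : SL(2, ℤ)) ∈ Gamma0 N := by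
  rw [Gamma0_mem]
  simp [ModularGroup.coe_T_zpow]

/-- `E_χ` is invariant under the translations `T ^ n`. -/
theorem eisChiK_T_zpow_smul (hpar : ∀ γ : ↥(Gamma0 N), (γ : SL(2, ℤ)) 1 0 = 0 → χ γ = 1)
    (k n : ℤ) (z : ℍ) :
    eisChiK N χ k ((ModularGroup.T ^ n : SL(2, ℤ)) • z) = eisChiK N χ k z := by
  have h : eisChiK N χ k ((ModularGroup.T ^ n : SL(2, ℤ)) • z) =
      χ ⟨ModularGroup.T ^ n, T_zpow_mem_Gamma0 N n⟩ *
        denom (ModularGroup.T ^ n : SL(2, ℤ)) z ^ k * eisChiK N χ k z :=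
    eisChiK_smul hpar k ⟨ModularGroup.T ^ n, T_zpow_mem_Gamma0 N n⟩ z
  rw [h, hpar _ (by simp [ModularGroup.coe_T_zpow]), denom_T_zpow, _root_.one_zpow, one_mul, one_mul]

/-- `E_χ` is `1`-periodic. -/
theorem eisChiK_vadd (hpar : ∀ γ : ↥(Gamma0 N), (γ : SL(2, ℤ)) 1 0 = 0 → χ γ = 1)
    (k n : ℤ) (z : ℍ) : eisChiK N χ k ((n : ℝ) +ᵥ z) = eisChiK N χ k z := by
  rw [← modular_T_zpow_smul]
  exact eisChiK_T_zpow_smul hpar k n z

/-- `E_χ` does not vanish high up in the upper half plane. -/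
theorem eisChiK_ne_zero_of_im_ge (hnorm : ∀ γ : ↥(Gamma0 N), ‖χ γ‖ = 1)
    (hpar : ∀ γ : ↥(Gamma0 N), (γ : SL(2, ℤ)) 1 0 = 0 → χ γ = 1) {k : ℤ} (hk : 3 ≤ k)
    (hk2 : Even k) : ∃ A : ℝ, ∀ z : ℍ, A ≤ z.im → eisChiK N χ k z ≠ 0 :=
  (atImInfty_mem _).1 ((tendsto_eisChiK hnorm hpar hk hk2).eventually_ne (by norm_num))

/-- `E_χ` is not the zero function. -/
theorem exists_eisChiK_ne_zero (hnorm : ∀ γ : ↥(Gamma0 N), ‖χ γ‖ = 1)
    (hpar : ∀ γ : ↥(Gamma0 N), (γ : SL(2, ℤ)) 1 0 = 0 → χ γ = 1) {k : ℤ} (hk : 3 ≤ k)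
    (hk2 : Even k) : ∃ z : ℍ, eisChiK N χ k z ≠ 0 :=
  ((tendsto_eisChiK hnorm hpar hk hk2).eventually_ne (by norm_num)).exists

/-! ### Weight 4 -/

theorem mdifferentiable_eisChi (hnorm : ∀ γ : ↥(Gamma0 N), ‖χ γ‖ = 1) : MDiff (eisChi N χ) :=
  mdifferentiable_eisChiK hnorm (by norm_num)

theorem eisChi_smul (hpar : ∀ γ : ↥(Gamma0 N), (γ : SL(2, ℤ)) 1 0 = 0 → χ γ = 1)
    (γ : ↥(Gamma0 N)) (z : ℍ) :
    eisChi N χ ((γ : SL(2, ℤ)) • z) =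
      χ γ * denom (γ : SL(2, ℤ)) z ^ (4 : ℤ) * eisChi N χ z :=
  eisChiK_smul hpar 4 γ z

theorem eisChi_slash (hpar : ∀ γ : ↥(Gamma0 N), (γ : SL(2, ℤ)) 1 0 = 0 → χ γ = 1)
    (γ : ↥(Gamma0 N)) : eisChi N χ ∣[(4 : ℤ)] (γ : SL(2, ℤ)) = χ γ • eisChi N χ :=
  eisChiK_slash hpar 4 γ

theorem isBoundedAtImInfty_eisChi_slash (hnorm : ∀ γ : ↥(Gamma0 N), ‖χ γ‖ = 1)
    (g : SL(2, ℤ)) : IsBoundedAtImInfty (eisChi N χ ∣[(4 : ℤ)] g) :=
  isBoundedAtImInfty_eisChiK_slash hnorm (by norm_num) g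

theorem tendsto_eisChi (hnorm : ∀ γ : ↥(Gamma0 N), ‖χ γ‖ = 1)
    (hpar : ∀ γ : ↥(Gamma0 N), (γ : SL(2, ℤ)) 1 0 = 0 → χ γ = 1) :
    Tendsto (eisChi N χ) atImInfty (𝓝 2) :=
  tendsto_eisChiK hnorm hpar (by norm_num) ⟨2, by norm_num⟩

theorem eisChi_ne_zero (hnorm : ∀ γ : ↥(Gamma0 N), ‖χ γ‖ = 1)
    (hpar : ∀ γ : ↥(Gamma0 N), (γ : SL(2, ℤ)) 1 0 = 0 → χ γ = 1) :
    ∃ z : ℍ, eisChi N χ z ≠ 0 :=
  exists_eisChiK_ne_zero hnorm hpar (by norm_num) ⟨2, by norm_num⟩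

end Chi

/-- **The Eisenstein series with character, packaged.** For a unitary character `χ` of `Γ₀(N)`
which is trivial on the elements with lower left entry `0` (that is on `± T ^ n`) and an even
weight `k ≥ 4`, there is a holomorphic function `E` on the upper half plane which transforms
under `Γ₀(N)` with the character `χ` in weight `k`, is bounded at every cusp and tends to `2`
at `i∞`; in particular `E ≠ 0`. -/
theorem exists_eisChi (N : ℕ) (χ : ↥(Gamma0 N) →* ℂ) (hnorm : ∀ γ : ↥(Gamma0 N), ‖χ γ‖ = 1)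
    (hpar : ∀ γ : ↥(Gamma0 N), (γ : SL(2, ℤ)) 1 0 = 0 → χ γ = 1) (k : ℤ) (hk : 3 ≤ k)
    (hk2 : Even k) :
    ∃ E : ℍ → ℂ, MDiff E ∧ (∀ γ : ↥(Gamma0 N), E ∣[k] (γ : SL(2, ℤ)) = χ γ • E) ∧
      (∀ g : SL(2, ℤ), IsBoundedAtImInfty (E ∣[k] g)) ∧ Tendsto E atImInfty (𝓝 2) :=
  ⟨eisChiK N χ k, mdifferentiable_eisChiK hnorm hk, eisChiK_slash hpar k,
    isBoundedAtImInfty_eisChiK_slash hnorm hk, tendsto_eisChiK hnorm hpar hk hk2⟩

end Fermat.Agent.S29.EisChi
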