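/-
S29 [K] row [EllFix], B-copy (helper116; A = helper118, MASTER TABLE board #2057).

Elliptic stabilisers are torsion: an element of `SL(2, ℤ)` fixing a point of the upper half plane
has twelfth power `1`.

* `coe_mul_self`                     : Cayley–Hamilton for `SL(2, ℤ)`, `γ² = tr(γ)·γ − 1`;
* `diag_or_trace_sq_lt`              : `γ z₀ = z₀` forces `γ = ±1` (entrywise form) or `tr(γ)² < 4`;
* `pow_twelve_eq_one_of_smul_eq`     : `γ • z₀ = z₀ → γ ^ 12 = 1`;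
* `pow_twelve_eq_one_of_smul_eq_Gamma0`, `chiU_eq_one_of_smul_eq` : the same inside `Γ₀(N)` and the
  consequence `χ_u(γ) = 1` for every `u`, in the vocabulary of `S29/KPlanDefs.lean`.
-/
import Mathlib
import Fermat.Agent.S29.KPlanDefs

set_option autoImplicit false

open UpperHalfPlane
open scoped MatrixGroups

namespace Fermat.Agent.S29.EllFixB

/-- Cayley–Hamilton for `SL(2, ℤ)`: `γ² = tr(γ)·γ − 1`. -/
theorem coe_mul_self (γ : SL(2, ℤ)) :
    (γ : Matrix (Fin 2) (Fin 2) ℤ) * (γ : Matrix (Fin 2) (Fin 2) ℤ)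
      = (γ 0 0 + γ 1 1 : ℤ) • (γ : Matrix (Fin 2) (Fin 2) ℤ) - 1 := by
  have hdet : γ 0 0 * γ 1 1 - γ 0 1 * γ 1 0 = 1 := by
    have h := γ.det_coe
    rwa [Matrix.det_fin_two] at h
  ext i j
  rw [Matrix.sub_apply, Matrix.smul_apply, Matrix.mul_apply, Fin.sum_univ_two, smul_eq_mul]
  fin_cases i <;> fin_cases j <;> simp <;>
    first | ring1 | linear_combination (-1 : ℤ) * hdet

/-- An element of `SL(2, ℤ)` fixing a point of the upper half plane is `±1` on the diagonal with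
vanishing off-diagonal entries, or has trace of absolute value less than `2`. -/
theorem diag_or_trace_sq_lt (γ : SL(2, ℤ)) (z₀ : ℍ) (h : γ • z₀ = z₀) :
    (γ 1 0 = 0 ∧ γ 0 1 = 0 ∧ γ 0 0 = γ 1 1) ∨ (γ 0 0 + γ 1 1) ^ 2 < 4 := by
  have hdet : γ 0 0 * γ 1 1 - γ 0 1 * γ 1 0 = 1 := by
    have h := γ.det_coe
    rwa [Matrix.det_fin_two] at h
  have hdetR : (γ 0 0 : ℝ) * γ 1 1 - (γ 0 1 : ℝ) * γ 1 0 = 1 := by exact_mod_cast hdet
  have hy : 0 < z₀.im := z₀.im_pos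
  have hz : (((γ 0 0 : ℤ) : ℂ) * z₀ + ((γ 0 1 : ℤ) : ℂ)) / (((γ 1 0 : ℤ) : ℂ) * z₀ + ((γ 1 1 : ℤ) : ℂ))
      = (z₀ : ℂ) := by
    have h1 := congrArg (fun w : ℍ => (w : ℂ)) h
    simp only [coe_specialLinearGroup_apply] at h1
    simpa using h1
  have hz0 : (z₀ : ℂ) ≠ 0 := by
    intro h0
    have := congrArg Complex.im h0
    simp at this
    exact hy.ne' this
  have hden : ((γ 1 0 : ℤ) : ℂ) * z₀ + ((γ 1 1 : ℤ) : ℂ) ≠ 0 := by
    intro h0
    rw [h0, div_zero] at hz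
    exact hz0 hz.symm
  rw [div_eq_iff hden] at hz
  have hre := congrArg Complex.re hz
  have him := congrArg Complex.im hz
  simp only [Complex.add_re, Complex.mul_re, Complex.intCast_re, Complex.intCast_im,
    Complex.add_im, Complex.mul_im, zero_mul, sub_zero, add_zero, UpperHalfPlane.coe_re,
    UpperHalfPlane.coe_im] at hre him
  -- him : a * y = x * (c * y) + y * (c * x + d)   (up to normal form)
  have h1 : (γ 0 0 : ℝ) - γ 1 1 = 2 * γ 1 0 * z₀.re := by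
    have : ((γ 0 0 : ℝ) - γ 1 1 - 2 * γ 1 0 * z₀.re) * z₀.im = 0 := by linarith
    rcases mul_eq_zero.1 this with h2 | h2
    · linarith
    · exact absurd h2 hy.ne'
  have h2 : (γ 0 1 : ℝ) = -(γ 1 0 : ℝ) * (z₀.re ^ 2 + z₀.im ^ 2) := by
    linear_combination hre - z₀.re * h1
  have h3 : ((γ 0 0 : ℝ) + γ 1 1) ^ 2 = 4 - 4 * (γ 1 0 : ℝ) ^ 2 * z₀.im ^ 2 := by
    have e1 : ((γ 0 0 : ℝ) + γ 1 1) ^ 2
        = ((γ 0 0 : ℝ) - γ 1 1) ^ 2 + 4 * ((γ 0 0 : ℝ) * γ 1 1 - (γ 0 1 : ℝ) * γ 1 0)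
          + 4 * ((γ 0 1 : ℝ) * γ 1 0) := by ring
    rw [e1, hdetR, h1, h2]
    ring
  by_cases hc : γ 1 0 = 0
  · left
    have hcR : (γ 1 0 : ℝ) = 0 := by exact_mod_cast hc
    refine ⟨hc, ?_, ?_⟩
    · have : (γ 0 1 : ℝ) = 0 := by rw [h2, hcR]; ring
      exact_mod_cast this
    · have : (γ 0 0 : ℝ) = γ 1 1 := by
        have := h1
        rw [hcR] at this
        linarith
      exact_mod_cast this
  · right
    have hcR : (γ 1 0 : ℝ) ≠ 0 := by exact_mod_cast hc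
    have hpos : 0 < (γ 1 0 : ℝ) ^ 2 * z₀.im ^ 2 := by positivity
    have : ((γ 0 0 : ℝ) + γ 1 1) ^ 2 < 4 := by rw [h3]; linarith
    exact_mod_cast this

/-- Matrix form: an element of `SL(2, ℤ)` fixing a point of the upper half plane has twelfth
power `1`. -/
theorem coe_pow_twelve_eq_one_of_smul_eq (γ : SL(2, ℤ)) (z₀ : ℍ) (h : γ • z₀ = z₀) :
    (γ : Matrix (Fin 2) (Fin 2) ℤ) ^ 12 = 1 := by
  have hdet : γ 0 0 * γ 1 1 - γ 0 1 * γ 1 0 = 1 := by
    have h := γ.det_coe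
    rwa [Matrix.det_fin_two] at h
  rcases diag_or_trace_sq_lt γ z₀ h with ⟨hc, hb, had⟩ | ht
  · -- `γ = ±1`
    have h2 : (γ : Matrix (Fin 2) (Fin 2) ℤ) * (γ : Matrix (Fin 2) (Fin 2) ℤ) = 1 := by
      have haa : γ 0 0 * γ 0 0 = 1 := by
        rw [hb, ← had] at hdet
        linarith
      have hdd : γ 1 1 * γ 1 1 = 1 := by rw [← had]; exact haa
      ext i j
      fin_cases i <;> fin_cases j <;>
        simp [Matrix.mul_apply, Fin.sum_univ_two, hc, hb, haa, hdd]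
    rw [show (12 : ℕ) = 2 * 6 from rfl, pow_mul, pow_two, h2, one_pow]
  · have hsq := coe_mul_self γ
    obtain ⟨t, ht'⟩ : ∃ t : ℤ, t = γ 0 0 + γ 1 1 := ⟨_, rfl⟩
    rw [← ht'] at ht hsq
    clear ht' hdet
    generalize (γ : Matrix (Fin 2) (Fin 2) ℤ) = M at hsq ⊢
    have hlo : -2 < t := by nlinarith
    have hhi : t < 2 := by nlinarith
    interval_cases t
    · -- trace `-1`: `M ^ 3 = 1`
      have h2 : M * M = -M - 1 := by rw [hsq]; simp
      have h3 : M ^ 3 = 1 := by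
        have e : M ^ 3 = (M * M) * M := by rw [pow_succ, pow_two]
        rw [e, h2]
        have : (-M - 1) * M = -(M * M) - M := by noncomm_ring
        rw [this, h2]
        noncomm_ring
      rw [show (12 : ℕ) = 3 * 4 from rfl, pow_mul, h3, one_pow]
    · -- trace `0`: `M ^ 2 = -1`
      have h2 : M * M = -1 := by rw [hsq]; simp
      rw [show (12 : ℕ) = 2 * 6 from rfl, pow_mul, pow_two, h2]
      exact Even.neg_one_pow ⟨3, rfl⟩
    · -- trace `1`: `M ^ 3 = -1`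
      have h2 : M * M = M - 1 := by rw [hsq]; simp
      have h3 : M ^ 3 = -1 := by
        have e : M ^ 3 = (M * M) * M := by rw [pow_succ, pow_two]
        rw [e, h2]
        have : (M - 1) * M = M * M - M := by noncomm_ring
        rw [this, h2]
        noncomm_ring
      rw [show (12 : ℕ) = 3 * 4 from rfl, pow_mul, h3]
      exact Even.neg_one_pow ⟨2, rfl⟩

/-- **Stabilisers of points of the upper half plane in `SL(2, ℤ)` are killed by `12`.** -/
theorem pow_twelve_eq_one_of_smul_eq (γ : SL(2, ℤ)) (z₀ : ℍ) (h : γ • z₀ = z₀) : γ ^ 12 = 1 := by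
  apply Subtype.ext
  rw [Matrix.SpecialLinearGroup.coe_pow, Matrix.SpecialLinearGroup.coe_one]
  exact coe_pow_twelve_eq_one_of_smul_eq γ z₀ h

open CongruenceSubgroup in
/-- An element of `Γ₀(N)` fixing a point of the upper half plane has twelfth power `1`. -/
theorem pow_twelve_eq_one_of_smul_eq_Gamma0 {N : ℕ} (γ : ↥(Gamma0 N)) (z₀ : ℍ)
    (h : (γ : SL(2, ℤ)) • z₀ = z₀) : γ ^ 12 = 1 := by
  apply Subtype.ext
  rw [Subgroup.coe_pow, Subgroup.coe_one]
  exact pow_twelve_eq_one_of_smul_eq (γ : SL(2, ℤ)) z₀ h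

open CongruenceSubgroup in
/-- **[EllFix]** the character `χ_u = ζ_p^u` is trivial on every element of `Γ₀(N)` fixing a
point of the upper half plane (any `p`, any `u : Γ₀(N) → ℤ`). -/
theorem chiU_eq_one_of_smul_eq {N : ℕ} (p : ℕ) (u : Additive (Gamma0 N) →+ ℤ)
    (γ : ↥(Gamma0 N)) (z₀ : ℍ) (h : (γ : SL(2, ℤ)) • z₀ = z₀) :
    Fermat.Agent.S29.KPlan.chiU p u γ = 1 :=
  Fermat.Agent.S29.KPlan.chiU_eq_one_of_pow_eq_one p u γ (by norm_num)
    (pow_twelve_eq_one_of_smul_eq_Gamma0 γ z₀ h)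

end Fermat.Agent.S29.EllFixB
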