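/-
S29 block [K], leaf (R2bc-abs) — EvalPlace.lean (helper1).

ABSTRACT ALGEBRAIC CORE of "every finite place of the function field is an evaluation place".

Setting: `k` a field, `F / k` a field, `t : F` a coordinate (model: `j`), `B` a `k`-subalgebra of
`F` (model: the integral closure of `ℂ[j]` in `F_ℂ`, i.e. the holomorphic `Γ₀(N)`-invariant
functions with moderate growth), `Z` a type of points (model: the upper half plane) and
embeddings `τ z : F →+* k((s))` (model: Taylor expansion at `z`), with `τ z x` a power series for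
`x ∈ B` and `τ z c = c` on constants.

NORM HYPOTHESIS (model: `c(j) :=` constant term of `∏_{cosets} (X - h ∘ γ)`): for a finite set
`s` of points and the value `t₀` of `t`: every `h ∈ B` which vanishes at no point of `s` divides
(in `B`) a polynomial `c(t)` with `c(t₀) ≠ 0`.

THEOREM (`exists_embInduces`): a place `Q` of `F / k` which is centred on `B` (`hBQ`, `hloc`),
has residue field `k` (`hval`) and at which `t` takes the value `t₀`, is induced by one of the
embeddings `τ z`, `z ∈ s`:  `ord_s (τ z x) = e * ord_Q x` for all `x ≠ 0`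
(`Fermat.Agent.S24.EmbInduces`).

Proof: norm argument + prime avoidance give a point `z ∈ s` at which every element of
`𝔪_Q ∩ B` vanishes; then `O_Q = B` localised at `𝔪_Q ∩ B` lies in the valuation ring of
`ord_s ∘ τ z`, and the two discrete valuations are proportional.
-/
import Mathlib
import Fermat.Prelude.Def_AlgebraicCurve_DivisorClassGroup
import Fermat.Agent.S24.EmbDefs
import Fermat.Agent.S24.PlaceBasic
import Fermat.Agent.S37.SpFibCore

set_option autoImplicit false

namespace Fermat.Agent.S29.EvalPlace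

open AlgebraicCurve Fermat.Agent.S24 Fermat.Agent.S37

variable {k F : Type*} [Field k] [Field F] [Algebra k F]

/-! ### Orders of Laurent series -/

section Laurent

theorem order_inv (x : LaurentSeries k) (hx : x ≠ 0) : (x⁻¹).order = -x.order := by
  have h := HahnSeries.order_mul hx (inv_ne_zero hx)
  rw [mul_inv_cancel₀ hx, HahnSeries.order_one] at h
  omega

theorem order_npow (x : LaurentSeries k) (hx : x ≠ 0) (n : ℕ) :
    (x ^ n).order = (n : ℤ) * x.order := by
  induction n with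
  | zero => simp [HahnSeries.order_one]
  | succ n ih =>
    rw [pow_succ, HahnSeries.order_mul (pow_ne_zero n hx) hx, ih]
    push_cast
    ring

theorem order_zpow (x : LaurentSeries k) (hx : x ≠ 0) (n : ℤ) :
    (x ^ n).order = n * x.order := by
  cases n with
  | ofNat m =>
    rw [Int.ofNat_eq_natCast, zpow_natCast, order_npow x hx]
  | negSucc m =>
    rw [zpow_negSucc, order_inv _ (pow_ne_zero _ hx), order_npow x hx, Int.negSucc_eq]
    push_cast
    ring

theorem coeff_zero_ne_zero_of_order_eq_zero {x : LaurentSeries k} (hx : x ≠ 0)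
    (h : x.order = 0) : x.coeff 0 ≠ 0 := by
  rw [← h]
  exact HahnSeries.coeff_order_eq_zero.not.mpr hx

theorem order_pos_of_coeff_zero_eq_zero {x : LaurentSeries k} (hx : x ≠ 0)
    (h0 : 0 ≤ x.order) (h : x.coeff 0 = 0) : 0 < x.order := by
  rcases h0.lt_or_eq with h1 | h1
  · exact h1
  · exact absurd h (coeff_zero_ne_zero_of_order_eq_zero hx h1.symm)

end Laurent

/-! ### Non-units of a valuation subring -/

section Nonunits

theorem mem_of_mem_nonunits (V : ValuationSubring F) {x : F} (hx : x ∈ V.nonunits) : x ∈ V := by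
  rw [ValuationSubring.mem_nonunits_iff_exists_mem_maximalIdeal] at hx
  exact hx.1

theorem zero_mem_nonunits (V : ValuationSubring F) : (0 : F) ∈ V.nonunits := by
  rw [ValuationSubring.mem_nonunits_iff_exists_mem_maximalIdeal]
  exact ⟨V.zero_mem, Ideal.zero_mem _⟩

theorem add_mem_nonunits (V : ValuationSubring F) {x y : F} (hx : x ∈ V.nonunits)
    (hy : y ∈ V.nonunits) : x + y ∈ V.nonunits := by
  rw [ValuationSubring.mem_nonunits_iff_exists_mem_maximalIdeal] at hx hy ⊢
  obtain ⟨hx', hxm⟩ := hx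
  obtain ⟨hy', hym⟩ := hy
  exact ⟨V.add_mem _ _ hx' hy', Ideal.add_mem _ hxm hym⟩

theorem sub_mem_nonunits (V : ValuationSubring F) {x y : F} (hx : x ∈ V.nonunits)
    (hy : y ∈ V.nonunits) : x - y ∈ V.nonunits := by
  rw [ValuationSubring.mem_nonunits_iff_exists_mem_maximalIdeal] at hx hy ⊢
  obtain ⟨hx', hxm⟩ := hx
  obtain ⟨hy', hym⟩ := hy
  exact ⟨V.sub_mem hx' hy', Ideal.sub_mem _ hxm hym⟩

theorem one_not_mem_nonunits (V : ValuationSubring F) : (1 : F) ∉ V.nonunits := by
  intro h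
  rw [ValuationSubring.mem_nonunits_iff_exists_mem_maximalIdeal] at h
  obtain ⟨h1, hm⟩ := h
  exact (Ideal.ne_top_iff_one _).mp (IsLocalRing.maximalIdeal.isMaximal _).ne_top hm

theorem const_not_mem_nonunits (Q : Place k F) {c : k} (hc : c ≠ 0) :
    algebraMap k F c ∉ Q.toValuationSubring.nonunits := by
  intro h
  have h1 := SpFibCore.mul_mem_nonunits Q.toValuationSubring (Q.algebraMap_mem' c⁻¹) h
  rw [← map_mul, inv_mul_cancel₀ hc, map_one] at h1
  exact one_not_mem_nonunits _ h1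

end Nonunits

/-! ### The ideal of the functions of `B` vanishing at a point -/

section Vanish

/-- The ideal of the elements `x` of `B` whose expansion `τ x` (a power series) has constant
coefficient zero. -/
def vanishIdeal (B : Subalgebra k F) (τ : F →+* LaurentSeries k)
    (hτ : ∀ x ∈ B, 0 ≤ (τ x).order) : Ideal B where
  carrier := {x | (τ (x : F)).coeff 0 = 0}
  add_mem' := by
    intro a b ha hb
    simp only [Set.mem_ofPred_eq] at ha hb ⊢
    rw [Subalgebra.coe_add, map_add, HahnSeries.coeff_add, ha, hb, add_zero]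
  zero_mem' := by
    simp only [Set.mem_ofPred_eq]
    rw [Subalgebra.coe_zero, map_zero, HahnSeries.coeff_zero]
  smul_mem' := by
    intro c x hx
    simp only [Set.mem_ofPred_eq] at hx ⊢
    rw [smul_eq_mul, Subalgebra.coe_mul, map_mul]
    by_cases hc : τ (c : F) = 0
    · rw [hc, zero_mul, HahnSeries.coeff_zero]
    by_cases hx0 : τ (x : F) = 0
    · rw [hx0, mul_zero, HahnSeries.coeff_zero]
    apply HahnSeries.coeff_eq_zero_of_lt_order
    rw [HahnSeries.order_mul hc hx0]
    have h1 := hτ c c.2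
    have h2 := order_pos_of_coeff_zero_eq_zero hx0 (hτ x x.2) hx
    omega

theorem mem_vanishIdeal {B : Subalgebra k F} {τ : F →+* LaurentSeries k}
    {hτ : ∀ x ∈ B, 0 ≤ (τ x).order} {x : B} :
    x ∈ vanishIdeal B τ hτ ↔ (τ (x : F)).coeff 0 = 0 := Iff.rfl

theorem vanishIdeal_isPrime (B : Subalgebra k F) (τ : F →+* LaurentSeries k)
    (hτ : ∀ x ∈ B, 0 ≤ (τ x).order) : (vanishIdeal B τ hτ).IsPrime := by
  refine ⟨?_, ?_⟩
  · rw [Ideal.ne_top_iff_one, mem_vanishIdeal, Subalgebra.coe_one, map_one]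
    have h : ((1 : LaurentSeries k)).coeff 0 = 1 := by
      rw [← HahnSeries.single_zero_one, HahnSeries.coeff_single_same]
    rw [h]
    exact one_ne_zero
  · intro a b hab
    by_contra hcon
    rw [not_or] at hcon
    obtain ⟨ha, hb⟩ := hcon
    rw [mem_vanishIdeal] at ha hb hab
    have hane : τ (a : F) ≠ 0 := fun h => ha (by rw [h, HahnSeries.coeff_zero])
    have hbne : τ (b : F) ≠ 0 := fun h => hb (by rw [h, HahnSeries.coeff_zero])
    have hoa : (τ (a : F)).order = 0 :=
      le_antisymm (HahnSeries.order_le_of_coeff_ne_zero ha) (hτ a a.2)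
    have hob : (τ (b : F)).order = 0 :=
      le_antisymm (HahnSeries.order_le_of_coeff_ne_zero hb) (hτ b b.2)
    have hm : (τ (a : F) * τ (b : F)).order = 0 := by
      rw [HahnSeries.order_mul hane hbne, hoa, hob, add_zero]
    apply coeff_zero_ne_zero_of_order_eq_zero (mul_ne_zero hane hbne) hm
    rw [← map_mul, ← Subalgebra.coe_mul]
    exact hab

end Vanish

/-! ### The main theorem -/

section Main

variable {Z : Type*}

/-- **Norm argument.** Some point of `s` is a common zero of `𝔪_Q ∩ B`. -/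
theorem exists_point (t : F) (B : Subalgebra k F) (τ : Z → F →+* LaurentSeries k)
    (hτ : ∀ z, ∀ x ∈ B, 0 ≤ (τ z x).order)
    (Q : Place k F) (hBQ : ∀ x ∈ B, x ∈ Q.toValuationSubring)
    (t₀ : k) (ht₀ : t - algebraMap k F t₀ ∈ Q.toValuationSubring.nonunits)
    (s : Finset Z)
    (hnorm : ∀ h ∈ B, (∀ z ∈ s, (τ z h).coeff 0 ≠ 0) →
      ∃ c : Polynomial k, c.eval t₀ ≠ 0 ∧ ∃ g ∈ B, Polynomial.aeval t c = h * g) :
    ∃ z ∈ s, ∀ x ∈ B, x ∈ Q.toValuationSubring.nonunits → (τ z x).coeff 0 = 0 := by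
  classical
  set V := Q.toValuationSubring with hV
  -- the ideal `𝔪_Q ∩ B`
  let I : Ideal B :=
    { carrier := {x | (x : F) ∈ V.nonunits}
      add_mem' := fun {a b} ha hb => by
        simp only [Set.mem_ofPred_eq] at ha hb ⊢
        rw [Subalgebra.coe_add]
        exact add_mem_nonunits V ha hb
      zero_mem' := by
        simp only [Set.mem_ofPred_eq]
        rw [Subalgebra.coe_zero]
        exact zero_mem_nonunits V
      smul_mem' := fun c x hx => by
        simp only [Set.mem_ofPred_eq] at hx ⊢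
        rw [smul_eq_mul, Subalgebra.coe_mul]
        exact SpFibCore.mul_mem_nonunits V (hBQ c c.2) hx }
  have hI : ∀ x : B, x ∈ I ↔ (x : F) ∈ V.nonunits := fun _ => Iff.rfl
  by_contra hcon
  push Not at hcon
  -- an element of `𝔪_Q ∩ B` vanishing at no point of `s`
  obtain ⟨h, hhI, hh⟩ : ∃ h : B, h ∈ I ∧ ∀ z ∈ s, (τ z (h : F)).coeff 0 ≠ 0 := by
    rcases s.eq_empty_or_nonempty with rfl | ⟨a, -⟩
    · exact ⟨0, Ideal.zero_mem _, fun z hz => absurd hz (Finset.notMem_empty z)⟩
    · have hsub : ¬ ((I : Set B) ⊆ ⋃ z ∈ (↑s : Set Z), (vanishIdeal B (τ z) (hτ z) : Set B)) := by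
        rw [Ideal.subset_union_prime a a (fun i _ _ _ => vanishIdeal_isPrime B (τ i) (hτ i))]
        rintro ⟨i, hi, hle⟩
        obtain ⟨x, hxB, hxn, hx0⟩ := hcon i hi
        exact hx0 (hle (show (⟨x, hxB⟩ : B) ∈ I from hxn))
      obtain ⟨h, hhI, hh⟩ := Set.not_subset.mp hsub
      refine ⟨h, hhI, fun z hz hz0 => hh ?_⟩
      simp only [Set.mem_iUnion]
      exact ⟨z, hz, hz0⟩
  obtain ⟨c, hc, g, hgB, hcg⟩ := hnorm h h.2 hh
  -- `t ∈ O_Q`
  have htV : t ∈ V := by
    have h1 : t = (t - algebraMap k F t₀) + algebraMap k F t₀ := by ring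
    rw [h1]
    exact V.add_mem _ _ (mem_of_mem_nonunits V ht₀) (Q.algebraMap_mem' t₀)
  -- `c(t) - c(t₀) ∈ 𝔪_Q`
  have key : Polynomial.aeval t c - algebraMap k F (c.eval t₀) ∈ V.nonunits := by
    obtain ⟨q, hq⟩ := Polynomial.X_sub_C_dvd_sub_C_eval (a := t₀) (p := c)
    have h1 : Polynomial.aeval t c - algebraMap k F (c.eval t₀) =
        Polynomial.aeval t q * (t - algebraMap k F t₀) := by
      have h2 := congrArg (Polynomial.aeval t) hq
      rw [map_sub, map_mul, map_sub, Polynomial.aeval_C, Polynomial.aeval_C,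
        Polynomial.aeval_X] at h2
      rw [h2]
      ring
    rw [h1]
    refine SpFibCore.mul_mem_nonunits V ?_ ht₀
    exact SpFibCore.adjoin_le_valuationSubring t V Q.algebraMap_mem' htV _
      (Polynomial.aeval_mem_adjoin_singleton k t)
  have h2 : Polynomial.aeval t c ∈ V.nonunits := by
    rw [hcg, mul_comm]
    exact SpFibCore.mul_mem_nonunits V (hBQ g hgB) ((hI h).mp hhI)
  have h3 : algebraMap k F (c.eval t₀) ∈ V.nonunits := by
    have h4 := sub_mem_nonunits V h2 key
    rwa [sub_sub_cancel] at h4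
  exact const_not_mem_nonunits Q hc h3

/-- **Every place centred on `B` with a rational value of `t` is an evaluation place.** -/
theorem exists_embInduces (t : F) (B : Subalgebra k F) (τ : Z → F →+* LaurentSeries k)
    (hτ : ∀ z, ∀ x ∈ B, 0 ≤ (τ z x).order)
    (hconst : ∀ z (c : k), τ z (algebraMap k F c) = HahnSeries.C c)
    (Q : Place k F) (hBQ : ∀ x ∈ B, x ∈ Q.toValuationSubring)
    (hloc : ∀ d ∈ Q.toValuationSubring, ∃ a ∈ B, ∃ s ∈ B,
      s ∉ Q.toValuationSubring.nonunits ∧ d * s = a)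
    (hval : ∀ x ∈ Q.toValuationSubring, ∃ c : k,
      x - algebraMap k F c ∈ Q.toValuationSubring.nonunits)
    (t₀ : k) (ht₀ : t - algebraMap k F t₀ ∈ Q.toValuationSubring.nonunits)
    (s : Finset Z)
    (hnorm : ∀ h ∈ B, (∀ z ∈ s, (τ z h).coeff 0 ≠ 0) →
      ∃ c : Polynomial k, c.eval t₀ ≠ 0 ∧ ∃ g ∈ B, Polynomial.aeval t c = h * g) :
    ∃ z ∈ s, ∃ e : ℕ, EmbInduces (τ z) Q e := by
  obtain ⟨z, hzs, hz⟩ := exists_point t B τ hτ Q hBQ t₀ ht₀ s hnorm
  refine ⟨z, hzs, ?_⟩
  set V := Q.toValuationSubring with hV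
  have hinj : ∀ x : F, x ≠ 0 → τ z x ≠ 0 := fun x hx => (map_ne_zero (τ z)).mpr hx
  -- (2a) units of `B` at `Q` have order `0`
  have h2a : ∀ x ∈ B, x ∉ V.nonunits → (τ z x).order = 0 := by
    intro x hxB hxn
    obtain ⟨c, hc⟩ := hval x (hBQ x hxB)
    have hc0 : c ≠ 0 := by
      rintro rfl
      rw [map_zero, sub_zero] at hc
      exact hxn hc
    have hxc : x - algebraMap k F c ∈ B := B.sub_mem hxB (B.algebraMap_mem c)
    have h1 := hz _ hxc hc
    rw [map_sub, hconst, HahnSeries.coeff_sub] at h1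
    have h3 : (HahnSeries.C c : LaurentSeries k).coeff 0 = c := by
      rw [HahnSeries.C_apply, HahnSeries.coeff_single_same]
    rw [h3, sub_eq_zero] at h1
    have h4 : (τ z x).coeff 0 ≠ 0 := by rw [h1]; exact hc0
    exact le_antisymm (HahnSeries.order_le_of_coeff_ne_zero h4) (hτ z x hxB)
  -- (2b) nonzero elements of `𝔪_Q ∩ B` have positive order
  have h2b : ∀ x ∈ B, x ≠ 0 → x ∈ V.nonunits → 0 < (τ z x).order := fun x hxB hx0 hxn =>
    order_pos_of_coeff_zero_eq_zero (hinj x hx0) (hτ z x hxB) (hz x hxB hxn)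
  -- (3) `O_Q` lies in the valuation ring of `ord_s ∘ τ z`, `𝔪_Q` in its maximal ideal
  have h3 : ∀ d ∈ V, d ≠ 0 → 0 ≤ (τ z d).order ∧ (d ∈ V.nonunits → 0 < (τ z d).order) := by
    intro d hdV hd0
    obtain ⟨a, haB, s', hsB, hsn, hds⟩ := hloc d hdV
    have hs0 : s' ≠ 0 := by
      rintro rfl
      exact hsn (zero_mem_nonunits V)
    have ha0 : a ≠ 0 := by
      rw [← hds]
      exact mul_ne_zero hd0 hs0
    have hord : (τ z d).order = (τ z a).order := by
      have h4 := HahnSeries.order_mul (hinj d hd0) (hinj s' hs0)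
      rw [← map_mul, hds, h2a s' hsB hsn, add_zero] at h4
      exact h4.symm
    refine ⟨hord ▸ hτ z a haB, fun hdn => ?_⟩
    rw [hord]
    refine h2b a haB ha0 ?_
    rw [← hds, mul_comm]
    exact SpFibCore.mul_mem_nonunits V (hBQ s' hsB) hdn
  -- units of `O_Q` have order `0`
  have hunit : ∀ u : Vˣ, (τ z ((u : V) : F)).order = 0 := by
    intro u
    have hu0 : ((u : V) : F) ≠ 0 := by
      simp [ne_eq, ZeroMemClass.coe_eq_zero]
    have hui0 : (((u⁻¹ : Vˣ) : V) : F) ≠ 0 := by
      simp [ne_eq, ZeroMemClass.coe_eq_zero]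
    have h4 := (h3 _ (u : V).2 hu0).1
    have h5 := (h3 _ ((u⁻¹ : Vˣ) : V).2 hui0).1
    have h6 := HahnSeries.order_mul (hinj _ hu0) (hinj _ hui0)
    have h7 : ((u : V) : F) * (((u⁻¹ : Vˣ) : V) : F) = 1 := by
      have h8 : (u : V) * ((u⁻¹ : Vˣ) : V) = 1 := by
        rw [← Units.val_mul, mul_inv_cancel, Units.val_one]
      have h9 : (((u : V) * ((u⁻¹ : Vˣ) : V) : V) : F) = ((1 : V) : F) := by rw [h8]
      exact h9
    rw [← map_mul, h7, map_one, HahnSeries.order_one] at h6
    omega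
  -- a uniformizer
  obtain ⟨π, hπ⟩ := IsDiscreteValuationRing.exists_irreducible V
  have hπ0 : (π : F) ≠ 0 := by
    simpa [ne_eq, ZeroMemClass.coe_eq_zero] using hπ.ne_zero
  have hπn : (π : F) ∈ V.nonunits := by
    rw [ValuationSubring.mem_nonunits_iff_exists_mem_maximalIdeal]
    refine ⟨π.2, ?_⟩
    rw [IsLocalRing.mem_maximalIdeal, mem_nonunits_iff]
    exact hπ.not_isUnit
  have hepos : 0 < (τ z (π : F)).order := (h3 _ π.2 hπ0).2 hπn
  refine ⟨(τ z (π : F)).order.toNat, by omega, ?_⟩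
  intro f hf
  obtain ⟨u, hu⟩ := Q.exists_unit_mul_zpow hf hπ
  have hu0 : ((u : V) : F) ≠ 0 := by
    simp [ne_eq, ZeroMemClass.coe_eq_zero]
  have h4 : (τ z f).order = (τ z ((u : V) : F)).order + (τ z ((π : F) ^ Q.ord f)).order := by
    conv_lhs => rw [hu]
    rw [map_mul]
    exact HahnSeries.order_mul (hinj _ hu0) (hinj _ (zpow_ne_zero _ hπ0))
  rw [h4, hunit u, zero_add, map_zpow₀, order_zpow _ (hinj _ hπ0), Int.toNat_of_nonneg hepos.le]
  ring

/-- The same for a Dedekind-type `B` (noetherian, integral over `k[t]`, integrally closed, with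
fraction field `F`): every place at which `t` is regular with value `t₀` is an evaluation
place. -/
theorem exists_embInduces_of_dedekind (t : F) (B : Subalgebra k F) [IsNoetherianRing B]
    (htB : t ∈ B) (hint : ∀ x ∈ B, IsIntegral (Algebra.adjoin k {t}) x)
    (hcl : ∀ y : F, IsIntegral B y → y ∈ B)
    (hfrac : ∀ y : F, ∃ a ∈ B, ∃ b ∈ B, b ≠ 0 ∧ y * b = a)
    (τ : Z → F →+* LaurentSeries k)
    (hτ : ∀ z, ∀ x ∈ B, 0 ≤ (τ z x).order)
    (hconst : ∀ z (c : k), τ z (algebraMap k F c) = HahnSeries.C c)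
    (Q : Place k F)
    (hval : ∀ x ∈ Q.toValuationSubring, ∃ c : k,
      x - algebraMap k F c ∈ Q.toValuationSubring.nonunits)
    (t₀ : k) (ht₀ : t - algebraMap k F t₀ ∈ Q.toValuationSubring.nonunits)
    (s : Finset Z)
    (hnorm : ∀ h ∈ B, (∀ z ∈ s, (τ z h).coeff 0 ≠ 0) →
      ∃ c : Polynomial k, c.eval t₀ ≠ 0 ∧ ∃ g ∈ B, Polynomial.aeval t c = h * g) :
    ∃ z ∈ s, ∃ e : ℕ, EmbInduces (τ z) Q e := by
  have htV : t ∈ Q.toValuationSubring := by
    have h1 : t = (t - algebraMap k F t₀) + algebraMap k F t₀ := by ring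
    rw [h1]
    exact Q.toValuationSubring.add_mem _ _ (mem_of_mem_nonunits _ ht₀) (Q.algebraMap_mem' t₀)
  have hBQ : ∀ x ∈ B, x ∈ Q.toValuationSubring :=
    SpFibCore.le_valuationSubring B t hint Q.toValuationSubring Q.algebraMap_mem' htV
  exact exists_embInduces t B τ hτ hconst Q hBQ
    (SpFibCore.exists_frac_of_mem_valuationSubring B t htB hint hcl hfrac Q.toValuationSubring
      Q.ne_top' hBQ) hval t₀ ht₀ s hnorm

end Main

/-! ### Consumer forms: transfer of divisibility of orders -/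

section Transfer

variable {τ : F →+* LaurentSeries k} {Q : Place k F} {e : ℕ}

/-- the index divides every analytic order -/
theorem index_dvd_order (h : EmbInduces τ Q e) {x : F} (hx : x ≠ 0) :
    (e : ℤ) ∣ (τ x).order :=
  ⟨Q.ord x, h.order_eq hx⟩

/-- backward direction (all `p`): `p ∣ ord_Q x ⟹ p ∣ ord_s (τ x)` -/
theorem dvd_order_of_dvd_ord (h : EmbInduces τ Q e) (p : ℕ) {x : F} (hx : x ≠ 0)
    (hp : (p : ℤ) ∣ Q.ord x) : (p : ℤ) ∣ (τ x).order := by
  rw [h.order_eq hx]
  exact Dvd.dvd.mul_left hp _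

/-- forward direction (`p` prime to the index): `p ∣ ord_s (τ x) ⟹ p ∣ ord_Q x` -/
theorem dvd_ord_of_dvd_order (h : EmbInduces τ Q e) (p : ℕ) (hpe : Nat.Coprime p e) {x : F}
    (hx : x ≠ 0) (hp : (p : ℤ) ∣ (τ x).order) : (p : ℤ) ∣ Q.ord x := by
  rw [h.order_eq hx] at hp
  have hcop : IsCoprime (p : ℤ) (e : ℤ) := Nat.isCoprime_iff_coprime.mpr hpe
  exact hcop.dvd_of_dvd_mul_left hp

/-- a prime `p` is prime to the index as soon as some function has a positive analytic order
`< p` (model: `ord_z (j - j z) ≤ 3 < p`) -/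
theorem coprime_of_order_lt (h : EmbInduces τ Q e) {p : ℕ} (hp : p.Prime) {x : F} (hx : x ≠ 0)
    (hpos : 0 < (τ x).order) (hlt : (τ x).order < p) : Nat.Coprime p e := by
  rw [Nat.Prime.coprime_iff_not_dvd hp]
  intro hpe
  obtain ⟨m, hm⟩ := index_dvd_order h hx
  have he : (0 : ℤ) < e := by exact_mod_cast h.pos
  have hple : (p : ℤ) ≤ e := by exact_mod_cast Nat.le_of_dvd h.pos hpe
  have hm1 : 1 ≤ m := by
    by_contra hcon
    push Not at hcon
    have : m ≤ 0 := by omega
    nlinarith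
  nlinarith

/-- forward direction for a prime `p` exceeding a positive analytic order -/
theorem dvd_ord_of_dvd_order_of_lt (h : EmbInduces τ Q e) {p : ℕ} (hp : p.Prime) {y : F}
    (hy : y ≠ 0) (hpos : 0 < (τ y).order) (hlt : (τ y).order < p) {x : F} (hx : x ≠ 0)
    (hpx : (p : ℤ) ∣ (τ x).order) : (p : ℤ) ∣ Q.ord x :=
  dvd_ord_of_dvd_order h p (coprime_of_order_lt h hp hy hpos hlt) hx hpx

end Transfer

end Fermat.Agent.S29.EvalPlace
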