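/-
S29 route (helper74 #1728), block [FD] "weak Frobenius density", ANALYTIC half (helper54).

For a number field `F`, finitely many sets `S i` of primes of `F` with weights `r i ≥ 2`, and a
finite set `T₀` of primes: if for every subfamily `I` the primes of prime norm outside `T₀` lying in
all `S i` (`i ∈ I`) carry the proportion `1 / ∏_{i ∈ I} r i` of the pole of `ζ_F` at `s = 1`
(upper bound for `|I|` odd, lower bound for `|I|` even), then infinitely many primes of prime norm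
outside `T₀` lie in NO `S i` (`infinite_of_asymp`).  The two bounds follow from "attach maps" to
primes of an auxiliary number field (`upper_of_attach`, `lower_of_attach`); `infinite_of_attach`
is the packaged form.

Inputs: `S14A/ZetaIdeal.lean` (pole of `zetaR`, prime sums versus `log ζ`),
`S14Z/NonPrimeNorm.lean`, `S14Z/ZetaPole.lean`.
-/
import Mathlib
import Fermat.Agent.S14A.ZetaIdeal
import Fermat.Agent.S14Z.NonPrimeNorm
import Fermat.Agent.S14Z.ZetaPole

set_option autoImplicit false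

namespace Fermat.Agent.S29.FDAn

open IsDedekindDomain Filter Topology NumberField
open Fermat.Agent.S14A Fermat.Agent.S14Z

variable {F : Type*} [Field F] [NumberField F]
variable {M : Type*} [Field M] [NumberField M]

/-- the primes of prime norm outside `T₀` lying in all `S i`, `i ∈ I`. -/
def interSet {ι : Type*} (T₀ : Finset (HeightOneSpectrum (𝓞 F)))
    (S : ι → Set (HeightOneSpectrum (𝓞 F))) (I : Finset ι) : Set (HeightOneSpectrum (𝓞 F)) :=
  {v | (Ideal.absNorm v.asIdeal).Prime ∧ v ∉ T₀ ∧ ∀ i ∈ I, v ∈ S i}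

theorem mem_interSet {ι : Type*} {T₀ : Finset (HeightOneSpectrum (𝓞 F))}
    {S : ι → Set (HeightOneSpectrum (𝓞 F))} {I : Finset ι} {v : HeightOneSpectrum (𝓞 F)} :
    v ∈ interSet T₀ S I ↔ (Ideal.absNorm v.asIdeal).Prime ∧ v ∉ T₀ ∧ ∀ i ∈ I, v ∈ S i := Iff.rfl

/-- (A-up): if every prime of `S` has `m` primes of `M` of the same norm attached to it
(injectively), then `S` carries at most the proportion `1/m` of the pole. -/
theorem upper_of_attach {m : ℕ} {S : Set (HeightOneSpectrum (𝓞 F))}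
    (φ : S × Fin m → HeightOneSpectrum (𝓞 M)) (hφ : Function.Injective φ)
    (hN : ∀ x, Ideal.absNorm (φ x).asIdeal = Ideal.absNorm x.1.1.asIdeal) :
    ∃ C : ℝ, ∀ᶠ s in 𝓝[>] (1 : ℝ),
      (m : ℝ) * ∑' v : S, (Ideal.absNorm v.1.asIdeal : ℝ) ^ (-s) ≤
        Real.log (1 / (s - 1)) + C := by
  obtain ⟨cM, CM, hcM, hM⟩ := zetaR_pole M
  refine ⟨Real.log CM, ?_⟩
  filter_upwards [hM, self_mem_nhdsWithin] with s hsM hs1
  have hs : (1 : ℝ) < s := hs1
  have hs0 : 0 < s - 1 := by linarith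
  have h1 := (mul_tsum_le_tsum φ hφ hN hs).trans (tsum_prime_le_log_zetaR M hs)
  have hMpos : 0 < zetaR M s := lt_of_lt_of_le (div_pos hcM hs0) hsM.1
  have hCM : 0 < CM := by
    have := lt_of_lt_of_le hMpos hsM.2
    by_contra h
    have h' : CM ≤ 0 := not_lt.1 h
    have := div_nonpos_of_nonpos_of_nonneg h' hs0.le
    linarith
  have h2 : Real.log (zetaR M s) ≤ Real.log CM - Real.log (s - 1) := by
    rw [← Real.log_div hCM.ne' hs0.ne']
    exact Real.log_le_log hMpos hsM.2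
  have hlog : Real.log (1 / (s - 1)) = - Real.log (s - 1) := by
    rw [one_div, Real.log_inv]
  rw [hlog]
  linarith

/-- the basic two-sided fact: the primes of prime norm outside a finite set carry the whole
pole (lower bound). -/
theorem lower_primeNorm (T : Finset (HeightOneSpectrum (𝓞 M))) :
    ∃ C : ℝ, ∀ᶠ s in 𝓝[>] (1 : ℝ),
      Real.log (1 / (s - 1)) - C ≤
        ∑' w : {w : HeightOneSpectrum (𝓞 M) // (Ideal.absNorm w.asIdeal).Prime ∧ w ∉ T},
          (Ideal.absNorm w.1.asIdeal : ℝ) ^ (-s) := by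
  classical
  obtain ⟨c, hc⟩ := log_zetaR_le M
  obtain ⟨cM, CM, hcM, hM⟩ := zetaR_pole M
  refine ⟨-(Real.log cM - c - c1 M - T.card), ?_⟩
  filter_upwards [hM, self_mem_nhdsWithin] with s hsM hs1
  have hs : (1 : ℝ) < s := hs1
  have hs0 : 0 < s - 1 := by linarith
  set f : HeightOneSpectrum (𝓞 M) → ℝ := fun v => (Ideal.absNorm v.asIdeal : ℝ) ^ (-s) with hf
  have hf0 : ∀ v, 0 ≤ f v := fun v => rpow_neg_nonneg M v s
  have hsumM : Summable f := summable_prime_rpow M hs
  set W : Set (HeightOneSpectrum (𝓞 M)) := {w | (Ideal.absNorm w.asIdeal).Prime ∧ w ∉ T} with hW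
  have hpt : ∀ v, f v ≤ W.indicator f v + (nonPrimeNorm M).indicator f v +
      (T : Set (HeightOneSpectrum (𝓞 M))).indicator f v := by
    intro v
    have e1 := Set.indicator_nonneg (s := W) (f := f) (fun v _ => hf0 v) v
    have e3 := Set.indicator_nonneg (s := nonPrimeNorm M) (f := f) (fun v _ => hf0 v) v
    have e4 := Set.indicator_nonneg (s := (T : Set (HeightOneSpectrum (𝓞 M)))) (f := f)
      (fun v _ => hf0 v) v
    by_cases h2 : v ∈ T
    · have : v ∈ (T : Set (HeightOneSpectrum (𝓞 M))) := h2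
      rw [Set.indicator_of_mem this]; linarith
    · by_cases h3 : (Ideal.absNorm v.asIdeal).Prime
      · have : v ∈ W := ⟨h3, h2⟩
        rw [Set.indicator_of_mem this]; linarith
      · have : v ∈ nonPrimeNorm M := h3
        rw [Set.indicator_of_mem this]; linarith
  have hA : ∑' v, f v ≤ ∑' v : W, f v +
      ∑' v : nonPrimeNorm M, f v + ∑' v : (T : Set (HeightOneSpectrum (𝓞 M))), f v := by
    have h1 := hsumM.indicator W
    have h3 := hsumM.indicator (nonPrimeNorm M)
    have h4 := hsumM.indicator (T : Set (HeightOneSpectrum (𝓞 M)))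
    have := hsumM.tsum_le_tsum hpt ((h1.add h3).add h4)
    rw [(h1.add h3).tsum_add h4, h1.tsum_add h3] at this
    simpa only [tsum_subtype] using this
  have hT0 : ∑' v : (T : Set (HeightOneSpectrum (𝓞 M))), f v ≤ T.card := by
    rw [Finset.tsum_subtype' T f]
    calc ∑ v ∈ T, f v ≤ ∑ _v ∈ T, (1 : ℝ) :=
          Finset.sum_le_sum fun v _ => rpow_neg_le_one M v (by linarith)
      _ = T.card := by simp
  have hNP : ∑' v : nonPrimeNorm M, f v ≤ c1 M := tsum_nonPrimeNorm_le M hs.le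
  have hB : Real.log (zetaR M s) ≤ ∑' v, f v + c := hc s hs
  have hD1 : Real.log cM - Real.log (s - 1) ≤ Real.log (zetaR M s) := by
    rw [← Real.log_div hcM.ne' hs0.ne']
    exact Real.log_le_log (div_pos hcM hs0) hsM.1
  have hlog : Real.log (1 / (s - 1)) = - Real.log (s - 1) := by
    rw [one_div, Real.log_inv]
  rw [hlog]
  have hWeq : ∑' w : {w : HeightOneSpectrum (𝓞 M) // (Ideal.absNorm w.asIdeal).Prime ∧ w ∉ T},
      (Ideal.absNorm w.1.asIdeal : ℝ) ^ (-s) = ∑' v : W, f v := rfl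
  rw [hWeq]
  linarith

/-- (A-lo): if every prime of `M` of prime norm outside a finite set `T` is attached to a prime
of `S` of the same norm, at most `m` of them to each, then `S` carries at least the proportion
`1/m` of the pole. -/
theorem lower_of_attach {m : ℕ} {S : Set (HeightOneSpectrum (𝓞 F))}
    (T : Finset (HeightOneSpectrum (𝓞 M)))
    (ψ : {w : HeightOneSpectrum (𝓞 M) // (Ideal.absNorm w.asIdeal).Prime ∧ w ∉ T} → S)
    (hN : ∀ w, Ideal.absNorm (ψ w).1.asIdeal = Ideal.absNorm w.1.asIdeal)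
    (hfib : ∀ (v : S)
      (t : Finset {w : HeightOneSpectrum (𝓞 M) // (Ideal.absNorm w.asIdeal).Prime ∧ w ∉ T}),
      (∀ w ∈ t, ψ w = v) → t.card ≤ m) :
    ∃ C : ℝ, ∀ᶠ s in 𝓝[>] (1 : ℝ),
      Real.log (1 / (s - 1)) - C ≤
        (m : ℝ) * ∑' v : S, (Ideal.absNorm v.1.asIdeal : ℝ) ^ (-s) := by
  classical
  obtain ⟨C, hC⟩ := lower_primeNorm (M := M) T
  refine ⟨C, ?_⟩
  filter_upwards [hC, self_mem_nhdsWithin] with s hsC hs1
  have hs : (1 : ℝ) < s := hs1
  refine hsC.trans ?_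
  have hsumF : Summable (fun v : HeightOneSpectrum (𝓞 F) => (Ideal.absNorm v.asIdeal : ℝ) ^ (-s)) :=
    summable_prime_rpow F hs
  have hsumS : Summable (fun v : S => (Ideal.absNorm v.1.asIdeal : ℝ) ^ (-s)) :=
    hsumF.subtype S
  have hsumM : Summable (fun w : HeightOneSpectrum (𝓞 M) => (Ideal.absNorm w.asIdeal : ℝ) ^ (-s)) :=
    summable_prime_rpow M hs
  have hsumW : Summable (fun w : {w : HeightOneSpectrum (𝓞 M) //
      (Ideal.absNorm w.asIdeal).Prime ∧ w ∉ T} => (Ideal.absNorm w.1.asIdeal : ℝ) ^ (-s)) :=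
    hsumM.subtype _
  refine hsumW.tsum_le_of_sum_le fun u => ?_
  calc ∑ w ∈ u, (Ideal.absNorm w.1.asIdeal : ℝ) ^ (-s)
      = ∑ w ∈ u, (Ideal.absNorm (ψ w).1.asIdeal : ℝ) ^ (-s) := by
        refine Finset.sum_congr rfl fun w _ => ?_
        rw [hN w]
    _ = ∑ v ∈ u.image ψ, (u.filter (fun w => ψ w = v)).card •
          (Ideal.absNorm v.1.asIdeal : ℝ) ^ (-s) :=
        Finset.sum_comp (fun v : S => (Ideal.absNorm v.1.asIdeal : ℝ) ^ (-s)) ψ
    _ ≤ ∑ v ∈ u.image ψ, (m : ℝ) * (Ideal.absNorm v.1.asIdeal : ℝ) ^ (-s) := by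
        refine Finset.sum_le_sum fun v _ => ?_
        rw [nsmul_eq_mul]
        have hc : (u.filter (fun w => ψ w = v)).card ≤ m :=
          hfib v _ (fun w hw => (Finset.mem_filter.1 hw).2)
        exact mul_le_mul_of_nonneg_right (by exact_mod_cast hc) (rpow_neg_nonneg F v.1 s)
    _ = (m : ℝ) * ∑ v ∈ u.image ψ, (Ideal.absNorm v.1.asIdeal : ℝ) ^ (-s) := by
        rw [Finset.mul_sum]
    _ ≤ (m : ℝ) * ∑' v : S, (Ideal.absNorm v.1.asIdeal : ℝ) ^ (-s) := by
        refine mul_le_mul_of_nonneg_left ?_ (Nat.cast_nonneg _)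
        exact hsumS.sum_le_tsum _ (fun v _ => rpow_neg_nonneg F v.1 s)


/-! ### (B) inclusion–exclusion -/

theorem sum_powerset_neg_one_pow_mul_prod {ι : Type*} (P : Finset ι) (x : ι → ℝ) :
    ∑ I ∈ P.powerset, (-1 : ℝ) ^ I.card * ∏ i ∈ I, x i = ∏ i ∈ P, (1 - x i) := by
  have h := Finset.prod_one_add (f := fun i => - x i) P
  simp only [← sub_eq_add_neg] at h
  rw [h]
  refine Finset.sum_congr rfl fun I _ => ?_
  rw [Finset.prod_neg]

/-- the primes of prime norm outside `T₀` lying in no `S i`, `i ∈ P`. -/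
def goodSet {ι : Type*} (T₀ : Finset (HeightOneSpectrum (𝓞 F)))
    (S : ι → Set (HeightOneSpectrum (𝓞 F))) (P : Finset ι) : Set (HeightOneSpectrum (𝓞 F)) :=
  {v | (Ideal.absNorm v.asIdeal).Prime ∧ v ∉ T₀ ∧ ∀ i ∈ P, v ∉ S i}

theorem mem_goodSet {ι : Type*} {T₀ : Finset (HeightOneSpectrum (𝓞 F))}
    {S : ι → Set (HeightOneSpectrum (𝓞 F))} {P : Finset ι} {v : HeightOneSpectrum (𝓞 F)} :
    v ∈ goodSet T₀ S P ↔ (Ideal.absNorm v.asIdeal).Prime ∧ v ∉ T₀ ∧ ∀ i ∈ P, v ∉ S i := Iff.rfl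

/-- pointwise inclusion–exclusion for the indicator functions. -/
theorem sum_powerset_indicator {ι : Type*} (T₀ : Finset (HeightOneSpectrum (𝓞 F)))
    (S : ι → Set (HeightOneSpectrum (𝓞 F))) (P : Finset ι)
    (f : HeightOneSpectrum (𝓞 F) → ℝ) (v : HeightOneSpectrum (𝓞 F)) :
    ∑ I ∈ P.powerset, (-1 : ℝ) ^ I.card * (interSet T₀ S I).indicator f v =
      (goodSet T₀ S P).indicator f v := by
  classical
  by_cases h0 : (Ideal.absNorm v.asIdeal).Prime ∧ v ∉ T₀
  · have h1 : ∀ I : Finset ι, (interSet T₀ S I).indicator f v =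
        f v * ∏ i ∈ I, (if v ∈ S i then (1 : ℝ) else 0) := by
      intro I
      by_cases hI : ∀ i ∈ I, v ∈ S i
      · have hv : v ∈ interSet T₀ S I := ⟨h0.1, h0.2, hI⟩
        rw [Set.indicator_of_mem hv, Finset.prod_eq_one (fun i hi => by rw [if_pos (hI i hi)]),
          mul_one]
      · have hv : v ∉ interSet T₀ S I := fun h => hI h.2.2
        rw [Set.indicator_of_notMem hv]
        push Not at hI
        obtain ⟨i, hi, hiS⟩ := hI
        rw [Finset.prod_eq_zero hi (by rw [if_neg hiS]), mul_zero]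
    have h2 : ∑ I ∈ P.powerset, (-1 : ℝ) ^ I.card * (interSet T₀ S I).indicator f v =
        f v * ∑ I ∈ P.powerset, (-1 : ℝ) ^ I.card * ∏ i ∈ I, (if v ∈ S i then (1 : ℝ) else 0) := by
      rw [Finset.mul_sum]
      refine Finset.sum_congr rfl fun I _ => ?_
      rw [h1 I]; ring
    rw [h2, sum_powerset_neg_one_pow_mul_prod]
    by_cases hP : ∀ i ∈ P, v ∉ S i
    · have hv : v ∈ goodSet T₀ S P := ⟨h0.1, h0.2, hP⟩
      rw [Set.indicator_of_mem hv, Finset.prod_eq_one (fun i hi => by rw [if_neg (hP i hi), sub_zero]),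
        mul_one]
    · have hv : v ∉ goodSet T₀ S P := fun h => hP h.2.2
      rw [Set.indicator_of_notMem hv]
      push Not at hP
      obtain ⟨i, hi, hiS⟩ := hP
      rw [Finset.prod_eq_zero hi (by rw [if_pos hiS, sub_self]), mul_zero]
  · have hv : v ∉ goodSet T₀ S P := fun h => h0 ⟨h.1, h.2.1⟩
    rw [Set.indicator_of_notMem hv]
    refine Finset.sum_eq_zero fun I _ => ?_
    have hv' : v ∉ interSet T₀ S I := fun h => h0 ⟨h.1, h.2.1⟩
    rw [Set.indicator_of_notMem hv', mul_zero]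

/-- **(B)**: if for every subfamily `I ⊆ P` the primes of prime norm outside `T₀` lying in all
`S i`, `i ∈ I`, carry the proportion `1 / ∏_{i ∈ I} r i` of the pole (upper bound for `|I|` odd,
lower bound for `|I|` even and nonempty), then infinitely many primes of prime norm outside `T₀`
lie in no `S i`, `i ∈ P`. -/
theorem infinite_of_asymp {ι : Type*} (T₀ : Finset (HeightOneSpectrum (𝓞 F))) (P : Finset ι)
    (r : ι → ℕ) (hr : ∀ i ∈ P, 2 ≤ r i) (S : ι → Set (HeightOneSpectrum (𝓞 F)))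
    (hup : ∀ I ⊆ P, Odd I.card → ∃ C : ℝ, ∀ᶠ s in 𝓝[>] (1 : ℝ),
      ((∏ i ∈ I, r i : ℕ) : ℝ) * ∑' v : interSet T₀ S I, (Ideal.absNorm v.1.asIdeal : ℝ) ^ (-s) ≤
        Real.log (1 / (s - 1)) + C)
    (hlo : ∀ I ⊆ P, I.Nonempty → Even I.card → ∃ C : ℝ, ∀ᶠ s in 𝓝[>] (1 : ℝ),
      Real.log (1 / (s - 1)) - C ≤
        ((∏ i ∈ I, r i : ℕ) : ℝ) * ∑' v : interSet T₀ S I, (Ideal.absNorm v.1.asIdeal : ℝ) ^ (-s)) :
    (goodSet T₀ S P).Infinite := by
  classical
  -- weights
  have hrpos : ∀ I ⊆ P, (0 : ℝ) < ((∏ i ∈ I, r i : ℕ) : ℝ) := by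
    intro I hI
    have : 0 < ∏ i ∈ I, r i := Finset.prod_pos fun i hi => by have := hr i (hI hi); omega
    exact_mod_cast this
  -- unified signed bound
  have hsigned : ∀ I ∈ P.powerset, ∃ C : ℝ, ∀ᶠ s in 𝓝[>] (1 : ℝ),
      (-1 : ℝ) ^ I.card * Real.log (1 / (s - 1)) / ((∏ i ∈ I, r i : ℕ) : ℝ) - C ≤
        (-1 : ℝ) ^ I.card * ∑' v : interSet T₀ S I, (Ideal.absNorm v.1.asIdeal : ℝ) ^ (-s) := by
    intro I hI
    have hIP : I ⊆ P := Finset.mem_powerset.mp hI
    have hpos := hrpos I hIP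
    rcases Nat.even_or_odd I.card with he | ho
    · rcases I.eq_empty_or_nonempty with h0 | hne
      · subst h0
        obtain ⟨C, hC⟩ := lower_primeNorm (M := F) T₀
        refine ⟨C, ?_⟩
        filter_upwards [hC] with s hs
        have e : ∑' v : interSet T₀ S (∅ : Finset ι), (Ideal.absNorm v.1.asIdeal : ℝ) ^ (-s) =
            ∑' w : {w : HeightOneSpectrum (𝓞 F) // (Ideal.absNorm w.asIdeal).Prime ∧ w ∉ T₀},
              (Ideal.absNorm w.1.asIdeal : ℝ) ^ (-s) := by
          have hset : interSet T₀ S (∅ : Finset ι) =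
              {w : HeightOneSpectrum (𝓞 F) | (Ideal.absNorm w.asIdeal).Prime ∧ w ∉ T₀} := by
            ext v
            simp [interSet]
          rw [hset]
          rfl
        rw [e]
        simpa using hs
      · obtain ⟨C, hC⟩ := hlo I hIP hne he
        refine ⟨C / ((∏ i ∈ I, r i : ℕ) : ℝ), ?_⟩
        filter_upwards [hC] with s hs
        rw [he.neg_one_pow, one_mul, one_mul, ← sub_div, div_le_iff₀ hpos]
        linarith
    · obtain ⟨C, hC⟩ := hup I hIP ho
      refine ⟨C / ((∏ i ∈ I, r i : ℕ) : ℝ), ?_⟩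
      filter_upwards [hC] with s hs
      rw [ho.neg_one_pow, neg_one_mul, neg_one_mul, neg_div, ← neg_add', neg_le_neg_iff, ← add_div,
        le_div_iff₀ hpos]
      linarith
  choose! C hC using hsigned
  have hall : ∀ᶠ s in 𝓝[>] (1 : ℝ), ∀ I ∈ P.powerset,
      (-1 : ℝ) ^ I.card * Real.log (1 / (s - 1)) / ((∏ i ∈ I, r i : ℕ) : ℝ) - C I ≤
        (-1 : ℝ) ^ I.card * ∑' v : interSet T₀ S I, (Ideal.absNorm v.1.asIdeal : ℝ) ^ (-s) :=
    (Filter.eventually_all_finset _).mpr hC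
  -- the density constant
  set κ : ℝ := ∏ i ∈ P, (1 - 1 / (r i : ℝ)) with hκ
  have hκpos : 0 < κ := by
    refine Finset.prod_pos fun i hi => ?_
    have h2 : (2 : ℝ) ≤ r i := by exact_mod_cast hr i hi
    have : 1 / (r i : ℝ) ≤ 1 / 2 := one_div_le_one_div_of_le (by norm_num) h2
    linarith
  have hκsum : ∀ L : ℝ, ∑ I ∈ P.powerset,
      (-1 : ℝ) ^ I.card * L / ((∏ i ∈ I, r i : ℕ) : ℝ) = κ * L := by
    intro L
    rw [hκ, ← sum_powerset_neg_one_pow_mul_prod, Finset.sum_mul]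
    refine Finset.sum_congr rfl fun I _ => ?_
    rw [Nat.cast_prod, Finset.prod_div_distrib, Finset.prod_const_one]
    ring
  -- contradiction with finiteness
  intro hfin
  set K : ℝ := (hfin.toFinset.card : ℝ) with hK
  set C₀ : ℝ := ∑ I ∈ P.powerset, C I with hC₀
  have hbig : ∀ᶠ s in 𝓝[>] (1 : ℝ), (K + C₀) / κ < Real.log (1 / (s - 1)) :=
    tendsto_log_one_div_sub_one.eventually_gt_atTop _
  obtain ⟨s, ⟨hs1, hs2⟩, hs3⟩ := ((hall.and hbig).and self_mem_nhdsWithin).exists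
  have hs : (1 : ℝ) < s := hs3
  set f : HeightOneSpectrum (𝓞 F) → ℝ := fun v => (Ideal.absNorm v.asIdeal : ℝ) ^ (-s) with hf
  have hsumF : Summable f := summable_prime_rpow F hs
  -- the good sum is small
  have hle : ∑' v : goodSet T₀ S P, f v ≤ K := by
    rw [← Set.Finite.coe_toFinset hfin, Finset.tsum_subtype' hfin.toFinset f]
    calc ∑ v ∈ hfin.toFinset, f v
        ≤ ∑ _v ∈ hfin.toFinset, (1 : ℝ) :=
          Finset.sum_le_sum fun v _ => rpow_neg_le_one F v (by linarith)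
      _ = K := by simp [hK]
  -- the good sum by inclusion–exclusion
  have hie : ∑' v : goodSet T₀ S P, f v =
      ∑ I ∈ P.powerset, (-1 : ℝ) ^ I.card * ∑' v : interSet T₀ S I, f v := by
    have h1 : ∀ I ∈ P.powerset, Summable fun v => (-1 : ℝ) ^ I.card * (interSet T₀ S I).indicator f v :=
      fun I _ => (hsumF.indicator _).mul_left _
    calc ∑' v : goodSet T₀ S P, f v = ∑' v, (goodSet T₀ S P).indicator f v := by
          rw [tsum_subtype]
      _ = ∑' v, ∑ I ∈ P.powerset, (-1 : ℝ) ^ I.card * (interSet T₀ S I).indicator f v := by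
          refine tsum_congr fun v => ?_
          rw [sum_powerset_indicator]
      _ = ∑ I ∈ P.powerset, ∑' v, (-1 : ℝ) ^ I.card * (interSet T₀ S I).indicator f v :=
          Summable.tsum_finsetSum h1
      _ = ∑ I ∈ P.powerset, (-1 : ℝ) ^ I.card * ∑' v : interSet T₀ S I, f v := by
          refine Finset.sum_congr rfl fun I _ => ?_
          rw [tsum_mul_left, tsum_subtype]
  have hlow : κ * Real.log (1 / (s - 1)) - C₀ ≤ ∑' v : goodSet T₀ S P, f v := by
    rw [hie, ← hκsum, hC₀, ← Finset.sum_sub_distrib]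
    exact Finset.sum_le_sum fun I hI => hs1 I hI
  rw [div_lt_iff₀ hκpos] at hs2
  linarith

/-- **(AB)**, packaged form of `infinite_of_asymp` with attach maps to primes of auxiliary number
fields: for `|I|` odd an injection `interSet I × Fin (∏ r i) → primes of M` preserving norms; for
`|I|` even and nonempty a norm-preserving map from the primes of `M` of prime norm outside a
finite set to `interSet I` with fibres of cardinality at most `∏ r i`. -/
theorem infinite_of_attach {ι : Type*} (T₀ : Finset (HeightOneSpectrum (𝓞 F))) (P : Finset ι)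
    (r : ι → ℕ) (hr : ∀ i ∈ P, 2 ≤ r i) (S : ι → Set (HeightOneSpectrum (𝓞 F)))
    (hup : ∀ I ⊆ P, Odd I.card → ∃ (M : Type) (_ : Field M) (_ : NumberField M)
      (φ : interSet T₀ S I × Fin (∏ i ∈ I, r i) → HeightOneSpectrum (𝓞 M)),
      Function.Injective φ ∧ ∀ x, Ideal.absNorm (φ x).asIdeal = Ideal.absNorm x.1.1.asIdeal)
    (hlo : ∀ I ⊆ P, I.Nonempty → Even I.card → ∃ (M : Type) (_ : Field M) (_ : NumberField M)
      (T : Finset (HeightOneSpectrum (𝓞 M)))
      (ψ : {w : HeightOneSpectrum (𝓞 M) // (Ideal.absNorm w.asIdeal).Prime ∧ w ∉ T} →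
        interSet T₀ S I),
      (∀ w, Ideal.absNorm (ψ w).1.asIdeal = Ideal.absNorm w.1.asIdeal) ∧
      ∀ (v : interSet T₀ S I)
        (t : Finset {w : HeightOneSpectrum (𝓞 M) // (Ideal.absNorm w.asIdeal).Prime ∧ w ∉ T}),
        (∀ w ∈ t, ψ w = v) → t.card ≤ ∏ i ∈ I, r i) :
    (goodSet T₀ S P).Infinite := by
  refine infinite_of_asymp T₀ P r hr S (fun I hI ho => ?_) (fun I hI hne he => ?_)
  · obtain ⟨M, _, _, φ, hφ, hN⟩ := hup I hI ho
    exact upper_of_attach φ hφ hN
  · obtain ⟨M, _, _, T, ψ, hN, hfib⟩ := hlo I hI hne he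
    exact lower_of_attach T ψ hN hfib

end Fermat.Agent.S29.FDAn
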