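/-
S29 route, block [FD], analytic leaf (AN) (helper54; cut of helper5): two-sided pole estimates
for the degree-one primes of a number field `E`,

* subtype form (`primeNorm_two_sided`): the primes of prime norm outside a finite set of primes;
* `ℓ`-indexed form (`primeCount_two_sided`): `∑'_{ℓ prime, ℓ ∉ T} a_E(ℓ) ℓ^{-s}` with
  `a_E(ℓ) = primeCount E ℓ` the number of primes of `𝓞 E` of norm `ℓ`.

Built on `S29/FDAn.lean` (`upper_of_attach`, `lower_primeNorm`).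
-/
import Mathlib
import Fermat.Agent.S29.FDAn

set_option autoImplicit false

namespace Fermat.Agent.S29.FDAnL

open IsDedekindDomain Filter Topology NumberField
open Fermat.Agent.S14A Fermat.Agent.S14Z Fermat.Agent.S29.FDAn

variable (E : Type*) [Field E] [NumberField E]

/-- **(AN), subtype form**: the primes of prime norm outside a finite set carry exactly the
pole of `ζ_E`, up to a bounded error. -/
theorem primeNorm_two_sided (T₀ : Finset (HeightOneSpectrum (𝓞 E))) :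
    ∃ C : ℝ, ∀ᶠ s in 𝓝[>] (1 : ℝ),
      |(∑' w : {w : HeightOneSpectrum (𝓞 E) // (Ideal.absNorm w.asIdeal).Prime ∧ w ∉ T₀},
          (Ideal.absNorm w.1.asIdeal : ℝ) ^ (-s)) - Real.log (1 / (s - 1))| ≤ C := by
  obtain ⟨C₁, hC₁⟩ := lower_primeNorm (M := E) T₀
  obtain ⟨C₂, hC₂⟩ := upper_of_attach (F := E) (M := E) (m := 1)
    (S := {w : HeightOneSpectrum (𝓞 E) | (Ideal.absNorm w.asIdeal).Prime ∧ w ∉ T₀})
    (fun x => x.1.1) (fun x y h => Prod.ext (Subtype.ext h) (Subsingleton.elim _ _))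
    (fun _ => rfl)
  refine ⟨max C₁ C₂, ?_⟩
  filter_upwards [hC₁, hC₂] with s h1 h2
  rw [Nat.cast_one, one_mul] at h2
  rw [abs_le]
  constructor
  · have := le_max_left C₁ C₂
    linarith
  · have := le_max_right C₁ C₂
    have e : (∑' w : {w : HeightOneSpectrum (𝓞 E) // (Ideal.absNorm w.asIdeal).Prime ∧ w ∉ T₀},
        (Ideal.absNorm w.1.asIdeal : ℝ) ^ (-s)) =
        ∑' v : ({w : HeightOneSpectrum (𝓞 E) | (Ideal.absNorm w.asIdeal).Prime ∧ w ∉ T₀} :
          Set (HeightOneSpectrum (𝓞 E))), (Ideal.absNorm v.1.asIdeal : ℝ) ^ (-s) := rfl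
    rw [e]
    linarith

/-- the number `a_E(ℓ)` of primes of `𝓞 E` of absolute norm `ℓ`. -/
noncomputable def primeCount (ℓ : ℕ) : ℕ :=
  Nat.card {w : HeightOneSpectrum (𝓞 E) // Ideal.absNorm w.asIdeal = ℓ}

theorem finite_absNorm_eq (ℓ : ℕ) :
    Finite {w : HeightOneSpectrum (𝓞 E) // Ideal.absNorm w.asIdeal = ℓ} := by
  have h1 : {I : Ideal (𝓞 E) | Ideal.absNorm I = ℓ}.Finite :=
    Ideal.finite_setOfPred_absNorm_eq ℓ
  have : Finite {I : Ideal (𝓞 E) // Ideal.absNorm I = ℓ} := h1.to_subtype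
  refine Finite.of_injective
    (fun w : {w : HeightOneSpectrum (𝓞 E) // Ideal.absNorm w.asIdeal = ℓ} =>
      (⟨w.1.asIdeal, w.2⟩ : {I : Ideal (𝓞 E) // Ideal.absNorm I = ℓ})) ?_
  intro w w' h
  exact Subtype.ext (HeightOneSpectrum.ext (congrArg Subtype.val h))

theorem finite_absNorm_mem (T : Finset ℕ) :
    {w : HeightOneSpectrum (𝓞 E) | Ideal.absNorm w.asIdeal ∈ T}.Finite := by
  have : {w : HeightOneSpectrum (𝓞 E) | Ideal.absNorm w.asIdeal ∈ T} =
      ⋃ ℓ ∈ T, {w : HeightOneSpectrum (𝓞 E) | Ideal.absNorm w.asIdeal = ℓ} := by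
    ext w; simp
  rw [this]
  refine Set.Finite.biUnion T.finite_toSet fun ℓ _ => ?_
  have h := finite_absNorm_eq E ℓ
  exact Set.finite_coe_iff.mp h

/-- regrouping the primes of prime norm (with norm outside `T`) by their norm. -/
theorem tsum_primeNorm_eq (T : Finset ℕ) {s : ℝ} (hs : 1 < s) :
    ∑' w : {w : HeightOneSpectrum (𝓞 E) //
        (Ideal.absNorm w.asIdeal).Prime ∧ Ideal.absNorm w.asIdeal ∉ T},
      (Ideal.absNorm w.1.asIdeal : ℝ) ^ (-s) =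
    ∑' ℓ : Nat.Primes, if (ℓ : ℕ) ∈ T then 0 else
      (primeCount E ℓ : ℝ) * ((ℓ : ℕ) : ℝ) ^ (-s) := by
  classical
  set W := {w : HeightOneSpectrum (𝓞 E) //
    (Ideal.absNorm w.asIdeal).Prime ∧ Ideal.absNorm w.asIdeal ∉ T} with hW
  set g : W → Nat.Primes := fun w => ⟨Ideal.absNorm w.1.asIdeal, w.2.1⟩ with hg
  set f : W → ℝ := fun w => (Ideal.absNorm w.1.asIdeal : ℝ) ^ (-s) with hf
  have hsumW : Summable f := (summable_prime_rpow E hs).subtype _
  have hsumσ : Summable fun c : (Σ ℓ : Nat.Primes, {w : W // g w = ℓ}) =>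
      f (Equiv.sigmaFiberEquiv g c) := (Equiv.sigmaFiberEquiv g).summable_iff.mpr hsumW
  rw [← (Equiv.sigmaFiberEquiv g).tsum_eq f, hsumσ.tsum_sigma]
  refine tsum_congr fun ℓ => ?_
  have hc : ∀ c : {w : W // g w = ℓ},
      f (Equiv.sigmaFiberEquiv g ⟨ℓ, c⟩) = ((ℓ : ℕ) : ℝ) ^ (-s) := by
    intro c
    have h1 : Equiv.sigmaFiberEquiv g ⟨ℓ, c⟩ = c.1 := rfl
    have h2 : Ideal.absNorm c.1.1.asIdeal = (ℓ : ℕ) := congrArg Subtype.val c.2
    rw [h1, hf]
    simp only [h2]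
  simp only [hc]
  rw [tsum_const, nsmul_eq_mul]
  by_cases hℓT : (ℓ : ℕ) ∈ T
  · rw [if_pos hℓT]
    have : IsEmpty {w : W // g w = ℓ} := ⟨fun c => by
      have h2 : Ideal.absNorm c.1.1.asIdeal = (ℓ : ℕ) := congrArg Subtype.val c.2
      exact c.1.2.2 (h2 ▸ hℓT)⟩
    rw [Nat.card_of_isEmpty, Nat.cast_zero, zero_mul]
  · rw [if_neg hℓT]
    congr 2
    unfold primeCount
    refine Nat.card_congr
      { toFun := fun c => ⟨c.1.1, congrArg Subtype.val c.2⟩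
        invFun := fun w => ⟨⟨w.1, by rw [w.2]; exact ⟨ℓ.2, hℓT⟩⟩, Subtype.ext w.2⟩
        left_inv := fun c => rfl
        right_inv := fun w => rfl }

/-- **(AN), `ℓ`-indexed form**: `∑'_{ℓ prime, ℓ ∉ T} a_E(ℓ) ℓ^{-s} = log (1/(s-1)) + O(1)` as
`s → 1⁺`, where `a_E(ℓ) = primeCount E ℓ` is the number of primes of `𝓞 E` of norm `ℓ`. -/
theorem primeCount_two_sided (T : Finset ℕ) :
    ∃ C : ℝ, ∀ᶠ s in 𝓝[>] (1 : ℝ),
      |(∑' ℓ : Nat.Primes, if (ℓ : ℕ) ∈ T then 0 else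
          (primeCount E ℓ : ℝ) * ((ℓ : ℕ) : ℝ) ^ (-s)) - Real.log (1 / (s - 1))| ≤ C := by
  classical
  obtain ⟨C, hC⟩ := primeNorm_two_sided E (finite_absNorm_mem E T).toFinset
  refine ⟨C, ?_⟩
  filter_upwards [hC, self_mem_nhdsWithin] with s h hs1
  have hs : (1 : ℝ) < s := hs1
  rw [← tsum_primeNorm_eq E T hs]
  have e : (∑' w : {w : HeightOneSpectrum (𝓞 E) //
        (Ideal.absNorm w.asIdeal).Prime ∧ Ideal.absNorm w.asIdeal ∉ T},
      (Ideal.absNorm w.1.asIdeal : ℝ) ^ (-s)) =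
      ∑' w : {w : HeightOneSpectrum (𝓞 E) // (Ideal.absNorm w.asIdeal).Prime ∧
        w ∉ (finite_absNorm_mem E T).toFinset}, (Ideal.absNorm w.1.asIdeal : ℝ) ^ (-s) := by
    have hset : {w : HeightOneSpectrum (𝓞 E) |
        (Ideal.absNorm w.asIdeal).Prime ∧ Ideal.absNorm w.asIdeal ∉ T} =
        {w : HeightOneSpectrum (𝓞 E) | (Ideal.absNorm w.asIdeal).Prime ∧
          w ∉ (finite_absNorm_mem E T).toFinset} := by
      ext w
      simp
    show (∑' w : ({w : HeightOneSpectrum (𝓞 E) |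
        (Ideal.absNorm w.asIdeal).Prime ∧ Ideal.absNorm w.asIdeal ∉ T} : Set _),
      (Ideal.absNorm w.1.asIdeal : ℝ) ^ (-s)) = _
    rw [hset]
    rfl
  rw [e]
  exact h

end Fermat.Agent.S29.FDAnL
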