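/-
S29 block [FD], route B (helper62): the block deliverable `FDStatement` of `S29/Defs.lean`,
from `FDB.exists_frobenius_pow'` through helper5's wrapper `FDTop.fdStatement_of_pow`.
-/
import Mathlib
import Fermat.Agent.S29.Defs
import Fermat.Agent.S29.FDTop
import Fermat.Agent.S29.FDB

set_option autoImplicit false

namespace Fermat.Agent.S29.FDB

/-- [FD], consumer form in the `S41/FL` shape (general order). -/
theorem powStatement : Fermat.Agent.S29.FDTop.PowStatement :=
  fun S hS τ B => exists_frobenius_pow' S hS τ B

/-- **[FD]** the block deliverable. -/
theorem fdStatement : Fermat.Agent.S29.FDStatement :=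
  Fermat.Agent.S29.FDTop.fdStatement_of_pow powStatement

end Fermat.Agent.S29.FDB
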