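/-
S29 route, block [FD], route C (decomposition groups), leaf (COMB) (helper5).

Abstract Möbius step on the subgroup lattice of a finite group `G`: if a family of functions
`F D : ℝ → ℝ` indexed by the subgroups of `G` satisfies, for every subgroup `H`,
`∑_{D ≤ H} F D s = |H| · Λ s + O(1)` (along a filter `l`), then for every subgroup `H`
`F H s = gen(H) · Λ s + O(1)`, where `gen(H) = #{x : G | zpowers x = H}` is the number of
generators of `H` (so `gen(H) ≥ 1` exactly for the cyclic subgroups).

In the application `F D s = ∑_ℓ |D| · m_D(ℓ) · ℓ^{-s}` with `m_D(ℓ)` the number of primes over `ℓ`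
with decomposition group `D`, and `Λ s = log (1/(s-1))`.
-/
import Mathlib

set_option autoImplicit false

namespace Fermat.Agent.S29.FDCComb

open Filter

variable {G : Type*} [Group G]

/-- the number of generators of the subgroup `H`. -/
noncomputable def gen (H : Subgroup G) : ℕ := Nat.card {x : G // Subgroup.zpowers x = H}

theorem gen_zpowers_pos [Finite G] (x : G) : 0 < gen (Subgroup.zpowers x) := by
  have : Nonempty {y : G // Subgroup.zpowers y = Subgroup.zpowers x} := ⟨⟨x, rfl⟩⟩
  exact Nat.card_pos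

/-- every element of `H` generates exactly one subgroup of `H`. -/
theorem card_eq_sum_gen [Finite G] [Fintype (Subgroup G)] [DecidableLE (Subgroup G)]
    (H : Subgroup G) :
    Nat.card H = ∑ D ∈ Finset.univ.filter (fun D : Subgroup G => D ≤ H), gen D := by
  classical
  have : Fintype G := Fintype.ofFinite G
  have h1 : Nat.card H = (Finset.univ.filter (fun x : G => x ∈ H)).card := by
    rw [Nat.card_eq_fintype_card, Fintype.card_subtype]
  rw [h1, Finset.card_eq_sum_card_fiberwise (f := fun x : G => Subgroup.zpowers x)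
    (t := Finset.univ.filter (fun D : Subgroup G => D ≤ H))]
  · refine Finset.sum_congr rfl fun D hD => ?_
    have hDH : D ≤ H := (Finset.mem_filter.mp hD).2
    unfold gen
    rw [Nat.card_eq_fintype_card, Fintype.card_subtype]
    congr 1
    ext x
    simp only [Finset.mem_filter, Finset.mem_univ, true_and]
    constructor
    · rintro ⟨-, h⟩; exact h
    · intro h
      refine ⟨hDH ?_, h⟩
      rw [← h]
      exact Subgroup.mem_zpowers x
  · intro x hx
    have hxH : x ∈ H := (Finset.mem_filter.mp (Finset.mem_coe.mp hx)).2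
    exact Finset.mem_coe.mpr
      (Finset.mem_filter.mpr ⟨Finset.mem_univ _, (Subgroup.zpowers_le).mpr hxH⟩)

/-- **(COMB)**: Möbius inversion on the subgroup lattice, up to bounded errors. -/
theorem comb [Finite G] (Λ : ℝ → ℝ) (l : Filter ℝ) (F : Subgroup G → ℝ → ℝ)
    (h : ∀ H : Subgroup G, ∃ C : ℝ, ∀ᶠ s in l,
      |(∑ᶠ D ∈ {D : Subgroup G | D ≤ H}, F D s) - (Nat.card H : ℝ) * Λ s| ≤ C) :
    ∀ H : Subgroup G, ∃ C : ℝ, ∀ᶠ s in l, |F H s - (gen H : ℝ) * Λ s| ≤ C := by
  classical
  have : Fintype (Subgroup G) := Fintype.ofFinite _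
  intro H
  induction H using WellFoundedLT.induction with
  | ind H ih =>
    obtain ⟨C₀, hC₀⟩ := h H
    choose! Cd hCd using ih
    refine ⟨C₀ + ∑ D ∈ Finset.univ.filter (fun D : Subgroup G => D < H), Cd D, ?_⟩
    have hev : ∀ᶠ s in l, ∀ D ∈ Finset.univ.filter (fun D : Subgroup G => D < H),
        |F D s - (gen D : ℝ) * Λ s| ≤ Cd D := by
      rw [Filter.eventually_all_finset]
      intro D hD
      exact hCd D (Finset.mem_filter.mp hD).2
    -- the subgroups `≤ H` are `H` together with the subgroups `< H`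
    have hfilter : Finset.univ.filter (fun D : Subgroup G => D ≤ H) =
        insert H (Finset.univ.filter (fun D : Subgroup G => D < H)) := by
      ext D
      simp only [Finset.mem_filter, Finset.mem_univ, true_and, Finset.mem_insert]
      exact le_iff_eq_or_lt
    have hnot : H ∉ Finset.univ.filter (fun D : Subgroup G => D < H) := by
      simp
    have hcount : (Nat.card H : ℝ) =
        (gen H : ℝ) + ∑ D ∈ Finset.univ.filter (fun D : Subgroup G => D < H), (gen D : ℝ) := by
      rw [card_eq_sum_gen H, hfilter, Finset.sum_insert hnot]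
      push_cast
      rfl
    filter_upwards [hC₀, hev] with s h1 h2
    have hsplit : (∑ᶠ D ∈ {D : Subgroup G | D ≤ H}, F D s) =
        F H s + ∑ D ∈ Finset.univ.filter (fun D : Subgroup G => D < H), F D s := by
      rw [finsum_mem_eq_finite_toFinset_sum _ (Set.toFinite _)]
      have : (Set.toFinite {D : Subgroup G | D ≤ H}).toFinset =
          Finset.univ.filter (fun D : Subgroup G => D ≤ H) := by
        ext D
        simp
      rw [this, hfilter, Finset.sum_insert hnot]
    have hid : F H s - (gen H : ℝ) * Λ s =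
        ((∑ᶠ D ∈ {D : Subgroup G | D ≤ H}, F D s) - (Nat.card H : ℝ) * Λ s) -
          ∑ D ∈ Finset.univ.filter (fun D : Subgroup G => D < H),
            (F D s - (gen D : ℝ) * Λ s) := by
      rw [hsplit, hcount, Finset.sum_sub_distrib, ← Finset.sum_mul]
      ring
    rw [hid]
    calc |((∑ᶠ D ∈ {D : Subgroup G | D ≤ H}, F D s) - (Nat.card H : ℝ) * Λ s) -
            ∑ D ∈ Finset.univ.filter (fun D : Subgroup G => D < H),
              (F D s - (gen D : ℝ) * Λ s)|
        ≤ |(∑ᶠ D ∈ {D : Subgroup G | D ≤ H}, F D s) - (Nat.card H : ℝ) * Λ s| +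
            |∑ D ∈ Finset.univ.filter (fun D : Subgroup G => D < H),
              (F D s - (gen D : ℝ) * Λ s)| := abs_sub _ _
      _ ≤ C₀ + ∑ D ∈ Finset.univ.filter (fun D : Subgroup G => D < H), Cd D := by
          refine add_le_add h1 ?_
          refine (Finset.abs_sum_le_sum_abs _ _).trans ?_
          exact Finset.sum_le_sum h2

/-- consequence used by the consumer: if `Λ → +∞` along `l ≠ ⊥` and `x` generates `H`, then
`F H s ≠ 0` for some `s` (indeed eventually `F H s > 0`). -/
theorem exists_ne_zero [Finite G] (Λ : ℝ → ℝ) (l : Filter ℝ) [l.NeBot]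
    (hΛ : Tendsto Λ l atTop) (F : Subgroup G → ℝ → ℝ)
    (h : ∀ H : Subgroup G, ∃ C : ℝ, ∀ᶠ s in l,
      |(∑ᶠ D ∈ {D : Subgroup G | D ≤ H}, F D s) - (Nat.card H : ℝ) * Λ s| ≤ C)
    (x : G) (p : ℝ → Prop) (hp : ∀ᶠ s in l, p s) :
    ∃ s : ℝ, p s ∧ 0 < F (Subgroup.zpowers x) s := by
  obtain ⟨C, hC⟩ := comb Λ l F h (Subgroup.zpowers x)
  have hbig : ∀ᶠ s in l, C < Λ s := hΛ.eventually_gt_atTop C
  obtain ⟨s, ⟨hs1, hs2⟩, hs3⟩ := ((hC.and hbig).and hp).exists
  refine ⟨s, hs3, ?_⟩
  have hg : (1 : ℝ) ≤ (gen (Subgroup.zpowers x) : ℝ) := by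
    exact_mod_cast gen_zpowers_pos x
  have hΛpos : 0 ≤ Λ s := by
    have := abs_nonneg (F (Subgroup.zpowers x) s - (gen (Subgroup.zpowers x) : ℝ) * Λ s)
    linarith
  have h4 := (abs_le.mp hs1).1
  nlinarith

end Fermat.Agent.S29.FDCComb
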