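/-
S29 / block [FD], route C (decomposition groups), leaf (DT) -- helper67.

For a finite Galois extension `K/ℚ` with group `G = Gal(K/ℚ)`, a subgroup `H ≤ G` with fixed
field `E`, and a rational prime `ℓ` all of whose primes in `K` have trivial inertia group:

  `|H| * #{w prime of 𝓞 E : N w = ℓ} = ∑_{Q ∋ ℓ prime of 𝓞 K, Stab_G Q ≤ H} |Stab_G Q|`

(`card_mul_ncard_absNorm_eq_finsum`), together with the product form
`#{w : N w = ℓ} * |H| = f_K(ℓ) * #{Q ∋ ℓ : Stab_G Q ≤ H}` (`ncard_absNorm_mul_card`) and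
`|Stab_G Q| = f_K(ℓ)` (`card_stabilizer_eq_inertiaDegIn`).

The abstract core (`ncard_deg_one_mul_card`) is stated for a tower `A ⊆ B ⊆ C` of domains with
`IsGaloisGroup G A C`, `IsGaloisGroup H B C`: the primes of `B` over `p` are the `H`-orbits of
primes of `C` over `p`, and `f(P|p) = |D_G(Q)| / |D_H(Q)|` for `Q ∣ P` unramified.

Mathlib only.
-/
import Mathlib

set_option autoImplicit false

namespace Fermat.Agent.S29.FDCDecomp

open Ideal MulAction NumberField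
open scoped Pointwise



section Abstract

variable {A B C : Type*} [CommRing A] [CommRing B] [CommRing C]
  [IsDomain A] [IsDomain B] [IsDomain C]
  [Algebra A B] [Algebra B C] [Algebra A C] [IsScalarTower A B C]
  [Module.Finite A C] [Module.Flat A C] [Module.Finite B C] [Module.Flat B C]
  [FaithfulSMul B C]
  {G : Type*} [Group G] [Finite G] [MulSemiringAction G C] [IsGaloisGroup G A C]
  (H : Subgroup G) [IsGaloisGroup H B C]
  (p : Ideal A) [p.IsPrime] [PerfectField p.ResidueField]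

omit [IsDomain A] [IsDomain B] [IsDomain C] [Algebra A B] [Algebra B C] [Algebra A C]
  [IsScalarTower A B C] [Module.Finite A C] [Module.Flat A C] [Module.Finite B C]
  [Module.Flat B C] [FaithfulSMul B C] [Finite G] [IsGaloisGroup G A C] [IsGaloisGroup H B C] in
/-- the stabilizer in the subgroup `H` is the intersection of the stabilizer in `G` with `H`. -/
theorem card_stabilizer_subgroup (Q : Ideal C) :
    Nat.card (stabilizer H Q) = Nat.card (stabilizer G Q ⊓ H : Subgroup G) := by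
  have h1 : stabilizer H Q = (stabilizer G Q).subgroupOf H := by
    ext g
    rw [Subgroup.mem_subgroupOf, mem_stabilizer_iff, mem_stabilizer_iff]
    rfl
  rw [h1, ← Subgroup.inf_subgroupOf_right]
  exact Nat.card_congr (Subgroup.subgroupOfEquivOfLe inf_le_right).toEquiv

omit [FaithfulSMul B C] in
/-- **Key relation**: for `Q` unramified over `p`, with `P = Q ∩ B`:
`|D_G(Q)| = f(P|p) * |D_H(Q)|`. -/
theorem card_stabilizer_eq_inertiaDeg_mul (Q : Ideal C) [Q.IsPrime] [Q.LiesOver p]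
    (P : Ideal B) [P.IsPrime] [Q.LiesOver P] [P.LiesOver p] [PerfectField P.ResidueField]
    (hram : Q.ramificationIdx A = 1) :
    Nat.card (stabilizer G Q) = P.inertiaDeg A * Nat.card (stabilizer H Q) ∧
      Nat.card (stabilizer G Q) = Q.inertiaDeg A ∧
      Nat.card (stabilizer H Q) = Q.inertiaDeg B := by
  have he : Q.ramificationIdx A = P.ramificationIdx A * Q.ramificationIdx B :=
    ramificationIdx_tower P Q
  rw [hram] at he
  have heB : Q.ramificationIdx B = 1 := Nat.eq_one_of_mul_eq_one_left he.symm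
  have hG : Nat.card (stabilizer G Q) = Q.inertiaDeg A := by
    rw [card_stabilizer_eq_card_inertia_mul_finrank p Q, card_inertia_eq_ramificationIdxIn p Q,
      ramificationIdxIn_eq_ramificationIdx p Q G, hram, one_mul]
  have hH : Nat.card (stabilizer H Q) = Q.inertiaDeg B := by
    have h1 := card_stabilizer_eq_card_inertia_mul_finrank (G := H) P Q
    rw [card_inertia_eq_ramificationIdxIn (G := H) P Q,
      ramificationIdxIn_eq_ramificationIdx P Q H, heB, one_mul] at h1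
    exact h1
  refine ⟨?_, hG, hH⟩
  rw [hG, hH]
  exact inertiaDeg_tower P Q

omit [FaithfulSMul B C] in
/-- for `Q` unramified over `p`: `f(Q ∩ B | p) = 1` iff the decomposition group of `Q` lies in `H`. -/
theorem inertiaDeg_eq_one_iff (Q : Ideal C) [Q.IsPrime] [Q.LiesOver p]
    (P : Ideal B) [P.IsPrime] [Q.LiesOver P] [P.LiesOver p] [PerfectField P.ResidueField]
    (hram : Q.ramificationIdx A = 1) :
    P.inertiaDeg A = 1 ↔ stabilizer G Q ≤ H := by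
  obtain ⟨h1, -, -⟩ := card_stabilizer_eq_inertiaDeg_mul H p Q P hram
  rw [card_stabilizer_subgroup] at h1
  have hpos : 0 < Nat.card (stabilizer G Q ⊓ H : Subgroup G) := Nat.card_pos
  constructor
  · intro hf
    rw [hf, one_mul] at h1
    have : stabilizer G Q ⊓ H = stabilizer G Q :=
      Subgroup.eq_of_le_of_card_ge inf_le_left h1.le
    rw [← this]
    exact inf_le_right
  · intro hle
    rw [inf_eq_left.2 hle] at h1 hpos
    have : P.inertiaDeg A * Nat.card (stabilizer G Q) = 1 * Nat.card (stabilizer G Q) := by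
      rw [one_mul]; exact h1.symm
    exact Nat.eq_of_mul_eq_mul_right hpos this

/-- fibre count: for a prime `P` of `B` over `p` with `f(P|p) = 1`, `p` unramified in `C`:
`#{Q ∣ P} * f_C(p) = |H|`. -/
theorem ncard_primesOver_mul_inertiaDegIn (hp : p.ramificationIdxIn C = 1)
    (P : Ideal B) [P.IsPrime] [P.LiesOver p] [PerfectField P.ResidueField]
    (hP : P.inertiaDeg A = 1) :
    (P.primesOver C).ncard * p.inertiaDegIn C = Nat.card H := by
  have : Algebra.IsIntegral B C := inferInstance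
  obtain ⟨⟨Q, hQ1, hQ2⟩⟩ := (inferInstance : Nonempty (P.primesOver C))
  have := hQ1
  have := hQ2
  haveI : Q.LiesOver p := LiesOver.trans Q P p
  have hram : Q.ramificationIdx A = 1 := by
    rw [← ramificationIdxIn_eq_ramificationIdx p Q G, hp]
  obtain ⟨h1, h2, -⟩ := card_stabilizer_eq_inertiaDeg_mul H p Q P hram
  rw [hP, one_mul] at h1
  have horb : orbit H Q = P.primesOver C :=
    Algebra.IsInvariant.orbit_eq_primesOver B C H P Q
  have hidx : (stabilizer H Q).index = (orbit H Q).ncard := index_stabilizer H Q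
  have hmul := Subgroup.index_mul_card (stabilizer H Q)
  rw [inertiaDegIn_eq_inertiaDeg p Q G, ← h2, h1, ← horb, ← hidx]
  exact hmul

/-- **(DT), abstract form.**  `A ⊆ B ⊆ C`, `G` a Galois group of `C/A`, `H ≤ G` a Galois group
of `C/B`, `p` a prime of `A` unramified in `C`.  Then
`#{P ∣ p in B : f(P|p) = 1} * |H| = f_C(p) * #{Q ∣ p in C : D_G(Q) ≤ H}`. -/
theorem ncard_deg_one_mul_card (hp : p.ramificationIdxIn C = 1)
    (hperf : ∀ (P : Ideal B) [P.IsPrime], P.LiesOver p → PerfectField P.ResidueField) :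
    {P : Ideal B | P ∈ p.primesOver B ∧ P.inertiaDeg A = 1}.ncard * Nat.card H =
      p.inertiaDegIn C * {Q : Ideal C | Q ∈ p.primesOver C ∧ stabilizer G Q ≤ H}.ncard := by
  classical
  have hint : Algebra.IsIntegral B C := inferInstance
  have hfinC : (p.primesOver C).Finite := Algebra.QuasiFinite.finite_primesOver p
  set Xg : Set (Ideal C) := {Q : Ideal C | Q ∈ p.primesOver C ∧ stabilizer G Q ≤ H} with hXg
  set Yg : Set (Ideal B) := {P : Ideal B | P ∈ p.primesOver B ∧ P.inertiaDeg A = 1} with hYg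
  have hXfin : Xg.Finite := hfinC.subset fun Q h => h.1
  -- the key equivalence, in unbundled form
  have key : ∀ Q : Ideal C, Q ∈ p.primesOver C →
      ((Q.under B) ∈ p.primesOver B ∧ ((Q.under B).inertiaDeg A = 1 ↔ stabilizer G Q ≤ H)) := by
    intro Q hQ
    haveI : Q.IsPrime := hQ.1
    haveI : Q.LiesOver p := hQ.2
    haveI : (Q.under B).IsPrime := inferInstance
    haveI : Q.LiesOver (Q.under B) := ⟨rfl⟩
    haveI : (Q.under B).LiesOver p := LiesOver.tower_bot Q (Q.under B) p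
    haveI := hperf (Q.under B) inferInstance
    have hram : Q.ramificationIdx A = 1 := by
      rw [← ramificationIdxIn_eq_ramificationIdx p Q G, hp]
    exact ⟨⟨inferInstance, inferInstance⟩, inertiaDeg_eq_one_iff H p Q (Q.under B) hram⟩
  have hYsub : Yg ⊆ (under B) '' (p.primesOver C) := by
    rintro P ⟨⟨hP1, hP2⟩, -⟩
    haveI := hP1
    haveI := hP2
    obtain ⟨⟨Q, hQ1, hQ2⟩⟩ := (inferInstance : Nonempty (P.primesOver C))
    have := hQ1
    have := hQ2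
    exact ⟨Q, ⟨hQ1, LiesOver.trans Q P p⟩, (Q.over_def P).symm⟩
  have hYfin : Yg.Finite := (hfinC.image _).subset hYsub
  have hmaps : Set.MapsTo (under B) (↑hXfin.toFinset : Set (Ideal C)) ↑hYfin.toFinset := by
    intro Q hQ
    rw [Finset.mem_coe, Set.Finite.mem_toFinset] at hQ ⊢
    obtain ⟨h1, h2⟩ := key Q hQ.1
    exact ⟨h1, h2.2 hQ.2⟩
  have hcard := Finset.card_eq_sum_card_fiberwise hmaps
  have hfib : ∀ P ∈ hYfin.toFinset,
      (hXfin.toFinset.filter fun Q => under B Q = P).card * p.inertiaDegIn C = Nat.card H := by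
    intro P hP
    rw [Set.Finite.mem_toFinset] at hP
    obtain ⟨⟨hP1, hP2⟩, hP3⟩ := hP
    haveI := hP1
    haveI := hP2
    haveI := hperf P hP2
    rw [← ncard_primesOver_mul_inertiaDegIn H p hp P hP3, ← Set.ncard_coe_finset]
    congr 2
    ext Q
    simp only [Finset.coe_filter, Set.Finite.mem_toFinset, Set.mem_ofPred_eq]
    constructor
    · rintro ⟨⟨hQ, -⟩, rfl⟩
      exact ⟨hQ.1, ⟨rfl⟩⟩
    · rintro ⟨hQ1, hQ2⟩
      have := hQ1
      have := hQ2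
      have hQp : Q ∈ p.primesOver C := ⟨hQ1, LiesOver.trans Q P p⟩
      have hu : under B Q = P := (Q.over_def P).symm
      obtain ⟨-, h2⟩ := key Q hQp
      rw [hu] at h2
      exact ⟨⟨hQp, h2.1 hP3⟩, hu⟩
  rw [Set.ncard_eq_toFinset_card Xg hXfin, Set.ncard_eq_toFinset_card Yg hYfin, hcard,
    Finset.mul_sum, ← smul_eq_mul (Finset.card _), ← Finset.sum_const]
  refine Finset.sum_congr rfl fun P hP => ?_
  rw [mul_comm]
  exact (hfib P hP).symm

end Abstract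




variable {K : Type*} [Field K] [NumberField K] [IsGalois ℚ K]

/-- a prime ideal of a number ring contains the rational prime `ℓ` iff it lies over `(ℓ)`. -/
theorem liesOver_span_iff {R : Type*} [CommRing R] (P : Ideal R) [P.IsPrime] (ℓ : ℕ)
    (hℓ : ℓ.Prime) : P.LiesOver (span {(ℓ : ℤ)}) ↔ (ℓ : R) ∈ P := by
  constructor
  · intro h
    have h1 : (ℓ : ℤ) ∈ P.under ℤ := by
      rw [← h.over]; exact mem_span_singleton_self _
    simpa [Ideal.under_def] using h1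
  · intro h
    have hmax : (span {(ℓ : ℤ)}).IsMaximal :=
      (PrincipalIdealRing.isMaximal_of_irreducible
        (Nat.prime_iff_prime_int.mp hℓ).irreducible)
    have hle : span {(ℓ : ℤ)} ≤ P.under ℤ := by
      rw [span_singleton_le_iff_mem]
      simpa [Ideal.under_def] using h
    have hne : P.under ℤ ≠ ⊤ := (inferInstance : (P.under ℤ).IsPrime).ne_top
    exact ⟨hmax.eq_of_le hne hle⟩

/-- a prime of a number ring has norm the rational prime `ℓ` iff it lies over `ℓ` with inertia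
degree one. -/
theorem absNorm_eq_prime_iff {E : Type*} [Field E] [NumberField E] (w : Ideal (𝓞 E)) [w.IsPrime]
    (ℓ : ℕ) (hℓ : ℓ.Prime) :
    absNorm w = ℓ ↔ w.LiesOver (span {(ℓ : ℤ)}) ∧ w.inertiaDeg ℤ = 1 := by
  have hmaxℓ : (span {(ℓ : ℤ)}).IsMaximal :=
    (PrincipalIdealRing.isMaximal_of_irreducible
      (Nat.prime_iff_prime_int.mp hℓ).irreducible)
  constructor
  · intro h
    have hmem : (ℓ : 𝓞 E) ∈ w := by
      have := Ideal.absNorm_mem w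
      rwa [h] at this
    have hlo : w.LiesOver (span {(ℓ : ℤ)}) := (liesOver_span_iff w ℓ hℓ).2 hmem
    have hne : w ≠ ⊥ := by
      rintro rfl
      rw [Ideal.absNorm_bot] at h
      exact hℓ.ne_zero h.symm
    have hmax : w.IsMaximal := Ring.DimensionLEOne.maximalOfPrime hne inferInstance
    have h1 := Ideal.absNorm_eq_pow_inertiaDeg' w hℓ
    rw [h, inertiaDeg'_eq_inertiaDeg] at h1
    exact ⟨hlo, ((Nat.pow_eq_self_iff hℓ.one_lt).1 h1.symm)⟩
  · rintro ⟨hlo, hf⟩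
    have hne : w ≠ ⊥ := by
      rintro rfl
      have h0 := hlo.over
      rw [Ideal.under_bot] at h0
      have : (ℓ : ℤ) ∈ (⊥ : Ideal ℤ) := by rw [← h0]; exact mem_span_singleton_self _
      exact hℓ.ne_zero (by exact_mod_cast Ideal.mem_bot.1 this)
    have hmax : w.IsMaximal := Ring.DimensionLEOne.maximalOfPrime hne inferInstance
    have h1 := Ideal.absNorm_eq_pow_inertiaDeg' w hℓ
    rw [inertiaDeg'_eq_inertiaDeg, hf, pow_one] at h1
    exact h1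

variable (H : Subgroup (K ≃ₐ[ℚ] K))

/-- the subgroup `H` is a Galois group of `𝓞 K` over the integers of its fixed field. -/
theorem isGaloisGroup_fixedField_field :
    IsGaloisGroup H (IntermediateField.fixedField H) K :=
  IsGaloisGroup.subgroup (K ≃ₐ[ℚ] K) ℚ K H

/-- the subgroup `H` is a Galois group of `𝓞 K` over the integers of its fixed field. -/
theorem isGaloisGroup_fixedField :
    IsGaloisGroup H (𝓞 (IntermediateField.fixedField H)) (𝓞 K) :=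
  haveI := isGaloisGroup_fixedField_field H
  IsGaloisGroup.of_isFractionRing H (𝓞 (IntermediateField.fixedField H)) (𝓞 K)
    (IntermediateField.fixedField H) K

variable {H} in
/-- the primes of a number ring over `(ℓ)` are the primes containing `ℓ`. -/
theorem mem_primesOver_span_iff {R : Type*} [CommRing R] (P : Ideal R) (ℓ : ℕ) (hℓ : ℓ.Prime) :
    P ∈ (span {(ℓ : ℤ)}).primesOver R ↔ P.IsPrime ∧ (ℓ : R) ∈ P := by
  constructor
  · rintro ⟨h1, h2⟩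
    exact ⟨h1, (liesOver_span_iff P ℓ hℓ).1 h2⟩
  · rintro ⟨h1, h2⟩
    exact ⟨h1, (liesOver_span_iff P ℓ hℓ).2 h2⟩

/-- unramifiedness in the `ramificationIdxIn` form, from trivial inertia groups. -/
theorem ramificationIdxIn_eq_one (ℓ : ℕ) (hℓ : ℓ.Prime)
    (hunr : ∀ P : Ideal (𝓞 K), P.IsPrime → (ℓ : 𝓞 K) ∈ P → Ideal.inertia (K ≃ₐ[ℚ] K) P = ⊥) :
    (span {(ℓ : ℤ)}).ramificationIdxIn (𝓞 K) = 1 := by
  haveI : Fact ℓ.Prime := ⟨hℓ⟩
  haveI : (span {(ℓ : ℤ)}).IsPrime :=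
    (span_singleton_prime (by exact_mod_cast hℓ.ne_zero)).2 (Nat.prime_iff_prime_int.mp hℓ)
  obtain ⟨⟨Q, hQ1, hQ2⟩⟩ := (inferInstance : Nonempty ((span {(ℓ : ℤ)}).primesOver (𝓞 K)))
  have := hQ1
  have := hQ2
  rw [← card_inertia_eq_ramificationIdxIn (G := K ≃ₐ[ℚ] K) (span {(ℓ : ℤ)}) Q,
    hunr Q hQ1 ((liesOver_span_iff Q ℓ hℓ).1 hQ2)]
  exact Subgroup.card_bot

/-- for an unramified rational prime, every decomposition group has order `f`. -/
theorem card_stabilizer_eq_inertiaDegIn (ℓ : ℕ) (hℓ : ℓ.Prime)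
    (hunr : ∀ P : Ideal (𝓞 K), P.IsPrime → (ℓ : 𝓞 K) ∈ P → Ideal.inertia (K ≃ₐ[ℚ] K) P = ⊥)
    (Q : Ideal (𝓞 K)) (hQ : Q.IsPrime) (hℓQ : (ℓ : 𝓞 K) ∈ Q) :
    Nat.card (stabilizer (K ≃ₐ[ℚ] K) Q) = (span {(ℓ : ℤ)}).inertiaDegIn (𝓞 K) := by
  haveI : Fact ℓ.Prime := ⟨hℓ⟩
  haveI : (span {(ℓ : ℤ)}).IsPrime :=
    (span_singleton_prime (by exact_mod_cast hℓ.ne_zero)).2 (Nat.prime_iff_prime_int.mp hℓ)
  haveI : Q.LiesOver (span {(ℓ : ℤ)}) := (liesOver_span_iff Q ℓ hℓ).2 hℓQ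
  rw [card_stabilizer_eq (span {(ℓ : ℤ)}) Q, ramificationIdxIn_eq_one ℓ hℓ hunr, one_mul]

/-- **(DT)**, product form. -/
theorem ncard_absNorm_mul_card (ℓ : ℕ) (hℓ : ℓ.Prime)
    (hunr : ∀ P : Ideal (𝓞 K), P.IsPrime → (ℓ : 𝓞 K) ∈ P → Ideal.inertia (K ≃ₐ[ℚ] K) P = ⊥) :
    {w : Ideal (𝓞 (IntermediateField.fixedField H)) | w.IsPrime ∧ absNorm w = ℓ}.ncard *
        Nat.card H =
      (span {(ℓ : ℤ)}).inertiaDegIn (𝓞 K) *
        {Q : Ideal (𝓞 K) | Q.IsPrime ∧ (ℓ : 𝓞 K) ∈ Q ∧ stabilizer (K ≃ₐ[ℚ] K) Q ≤ H}.ncard := by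
  haveI : Fact ℓ.Prime := ⟨hℓ⟩
  haveI : (span {(ℓ : ℤ)}).IsPrime :=
    (span_singleton_prime (by exact_mod_cast hℓ.ne_zero)).2 (Nat.prime_iff_prime_int.mp hℓ)
  haveI := isGaloisGroup_fixedField H
  have key := ncard_deg_one_mul_card (A := ℤ) (B := 𝓞 (IntermediateField.fixedField H))
    (C := 𝓞 K) H (span {(ℓ : ℤ)}) (ramificationIdxIn_eq_one ℓ hℓ hunr)
    (fun P _ _ => inferInstance)
  have h1 : {w : Ideal (𝓞 (IntermediateField.fixedField H)) | w.IsPrime ∧ absNorm w = ℓ} =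
      {P : Ideal (𝓞 (IntermediateField.fixedField H)) |
        P ∈ (span {(ℓ : ℤ)}).primesOver (𝓞 (IntermediateField.fixedField H)) ∧
          P.inertiaDeg ℤ = 1} := by
    ext w
    constructor
    · rintro ⟨hw1, hw2⟩
      have := hw1
      obtain ⟨h3, h4⟩ := (absNorm_eq_prime_iff w ℓ hℓ).1 hw2
      exact ⟨⟨hw1, h3⟩, h4⟩
    · rintro ⟨⟨hw1, hw2⟩, hw3⟩
      have := hw1
      exact ⟨hw1, (absNorm_eq_prime_iff w ℓ hℓ).2 ⟨hw2, hw3⟩⟩
  have h2 : {Q : Ideal (𝓞 K) | Q.IsPrime ∧ (ℓ : 𝓞 K) ∈ Q ∧ stabilizer (K ≃ₐ[ℚ] K) Q ≤ H} =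
      {Q : Ideal (𝓞 K) | Q ∈ (span {(ℓ : ℤ)}).primesOver (𝓞 K) ∧
        stabilizer (K ≃ₐ[ℚ] K) Q ≤ H} := by
    ext Q
    constructor
    · rintro ⟨hQ1, hQ2, hQ3⟩
      exact ⟨(mem_primesOver_span_iff Q ℓ hℓ).2 ⟨hQ1, hQ2⟩, hQ3⟩
    · rintro ⟨hQ1, hQ3⟩
      obtain ⟨h3, h4⟩ := (mem_primesOver_span_iff Q ℓ hℓ).1 hQ1
      exact ⟨h3, h4, hQ3⟩
  rw [h1, h2]
  exact key

omit [IsGalois ℚ K] in
/-- the primes of `𝓞 K` containing a rational prime form a finite set. -/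
theorem finite_primes_mem (ℓ : ℕ) (hℓ : ℓ.Prime) :
    {Q : Ideal (𝓞 K) | Q.IsPrime ∧ (ℓ : 𝓞 K) ∈ Q}.Finite := by
  have h : {Q : Ideal (𝓞 K) | Q.IsPrime ∧ (ℓ : 𝓞 K) ∈ Q} = (span {(ℓ : ℤ)}).primesOver (𝓞 K) := by
    ext Q
    exact (mem_primesOver_span_iff Q ℓ hℓ).symm
  rw [h]
  exact Algebra.QuasiFinite.finite_primesOver _

/-- **(DT)**: `|H| · #{w ⊂ 𝓞E : N w = ℓ} = Σ_{Q ∋ ℓ, Stab_G Q ≤ H} |Stab_G Q|` for a rational
prime `ℓ` with trivial inertia groups in `K`, `E` the fixed field of `H ≤ Gal(K/ℚ)`. -/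
theorem card_mul_ncard_absNorm_eq_finsum (ℓ : ℕ) (hℓ : ℓ.Prime)
    (hunr : ∀ P : Ideal (𝓞 K), P.IsPrime → (ℓ : 𝓞 K) ∈ P → Ideal.inertia (K ≃ₐ[ℚ] K) P = ⊥) :
    Nat.card H *
        {w : Ideal (𝓞 (IntermediateField.fixedField H)) | w.IsPrime ∧ absNorm w = ℓ}.ncard =
      ∑ᶠ Q ∈ {Q : Ideal (𝓞 K) | Q.IsPrime ∧ (ℓ : 𝓞 K) ∈ Q ∧ stabilizer (K ≃ₐ[ℚ] K) Q ≤ H},
        Nat.card (stabilizer (K ≃ₐ[ℚ] K) Q) := by
  have hfin : {Q : Ideal (𝓞 K) | Q.IsPrime ∧ (ℓ : 𝓞 K) ∈ Q ∧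
      stabilizer (K ≃ₐ[ℚ] K) Q ≤ H}.Finite :=
    (finite_primes_mem ℓ hℓ).subset fun Q hQ => ⟨hQ.1, hQ.2.1⟩
  have hcongr : ∑ᶠ Q ∈ {Q : Ideal (𝓞 K) | Q.IsPrime ∧ (ℓ : 𝓞 K) ∈ Q ∧
      stabilizer (K ≃ₐ[ℚ] K) Q ≤ H}, Nat.card (stabilizer (K ≃ₐ[ℚ] K) Q) =
      ∑ᶠ Q ∈ {Q : Ideal (𝓞 K) | Q.IsPrime ∧ (ℓ : 𝓞 K) ∈ Q ∧
      stabilizer (K ≃ₐ[ℚ] K) Q ≤ H}, (span {(ℓ : ℤ)}).inertiaDegIn (𝓞 K) :=
    finsum_mem_congr rfl fun Q hQ => card_stabilizer_eq_inertiaDegIn ℓ hℓ hunr Q hQ.1 hQ.2.1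
  rw [hcongr, finsum_mem_eq_finite_toFinset_sum _ hfin, Finset.sum_const, smul_eq_mul,
    ← Set.ncard_eq_toFinset_card _ hfin, mul_comm (Nat.card H), ncard_absNorm_mul_card H ℓ hℓ hunr,
    mul_comm]


/-- the number of height-one primes of norm `ℓ` is the number of prime ideals of norm `ℓ`. -/
theorem card_heightOneSpectrum_absNorm_eq {E : Type*} [Field E] [NumberField E] (ℓ : ℕ)
    (hℓ : ℓ.Prime) :
    Nat.card {w : IsDedekindDomain.HeightOneSpectrum (𝓞 E) // absNorm w.asIdeal = ℓ} =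
      {w : Ideal (𝓞 E) | w.IsPrime ∧ absNorm w = ℓ}.ncard := by
  rw [← Nat.card_coe_set_eq]
  refine Nat.card_congr
    { toFun := fun v => ⟨v.1.asIdeal, v.1.isPrime, v.2⟩
      invFun := fun w => ⟨⟨w.1, w.2.1, ?_⟩, w.2.2⟩
      left_inv := fun v => rfl
      right_inv := fun w => rfl }
  rintro h
  have h2 := w.2.2
  rw [h, Ideal.absNorm_bot] at h2
  exact hℓ.ne_zero h2.symm

/-- **(DT)**, `HeightOneSpectrum` form (the left factor is `FDAnL.primeCount E ℓ` unfolded). -/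
theorem card_mul_card_heightOneSpectrum_eq_finsum (ℓ : ℕ) (hℓ : ℓ.Prime)
    (hunr : ∀ P : Ideal (𝓞 K), P.IsPrime → (ℓ : 𝓞 K) ∈ P → Ideal.inertia (K ≃ₐ[ℚ] K) P = ⊥) :
    Nat.card H * Nat.card {w : IsDedekindDomain.HeightOneSpectrum
        (𝓞 (IntermediateField.fixedField H)) // absNorm w.asIdeal = ℓ} =
      ∑ᶠ Q ∈ {Q : Ideal (𝓞 K) | Q.IsPrime ∧ (ℓ : 𝓞 K) ∈ Q ∧ stabilizer (K ≃ₐ[ℚ] K) Q ≤ H},
        Nat.card (stabilizer (K ≃ₐ[ℚ] K) Q) := by
  rw [card_heightOneSpectrum_absNorm_eq ℓ hℓ]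
  exact card_mul_ncard_absNorm_eq_finsum H ℓ hℓ hunr

omit [IsGalois ℚ K] in
/-- regrouping the primes above `ℓ` by their decomposition group. -/
theorem finsum_stabilizer_le_eq_finsum_subgroup [Finite (K ≃ₐ[ℚ] K)] (ℓ : ℕ) (hℓ : ℓ.Prime) :
    ∑ᶠ Q ∈ {Q : Ideal (𝓞 K) | Q.IsPrime ∧ (ℓ : 𝓞 K) ∈ Q ∧ stabilizer (K ≃ₐ[ℚ] K) Q ≤ H},
        Nat.card (stabilizer (K ≃ₐ[ℚ] K) Q) =
      ∑ᶠ D ∈ {D : Subgroup (K ≃ₐ[ℚ] K) | D ≤ H}, Nat.card D *
        {Q : Ideal (𝓞 K) | Q.IsPrime ∧ (ℓ : 𝓞 K) ∈ Q ∧ stabilizer (K ≃ₐ[ℚ] K) Q = D}.ncard := by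
  classical
  have hfin : {Q : Ideal (𝓞 K) | Q.IsPrime ∧ (ℓ : 𝓞 K) ∈ Q ∧
      stabilizer (K ≃ₐ[ℚ] K) Q ≤ H}.Finite :=
    (finite_primes_mem ℓ hℓ).subset fun Q hQ => ⟨hQ.1, hQ.2.1⟩
  have hfinD : {D : Subgroup (K ≃ₐ[ℚ] K) | D ≤ H}.Finite := Set.toFinite _
  rw [finsum_mem_eq_finite_toFinset_sum _ hfin, finsum_mem_eq_finite_toFinset_sum _ hfinD]
  rw [← Finset.sum_fiberwise_of_maps_to (g := fun Q => stabilizer (K ≃ₐ[ℚ] K) Q)
    (t := hfinD.toFinset)]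
  · refine Finset.sum_congr rfl fun D hD => ?_
    rw [Set.Finite.mem_toFinset] at hD
    have hfinQ : {Q : Ideal (𝓞 K) | Q.IsPrime ∧ (ℓ : 𝓞 K) ∈ Q ∧
        stabilizer (K ≃ₐ[ℚ] K) Q = D}.Finite :=
      (finite_primes_mem ℓ hℓ).subset fun Q hQ => ⟨hQ.1, hQ.2.1⟩
    have hset : (hfin.toFinset.filter fun Q => stabilizer (K ≃ₐ[ℚ] K) Q = D) =
        hfinQ.toFinset := by
      ext Q
      simp only [Finset.mem_filter, Set.Finite.mem_toFinset, Set.mem_ofPred_eq]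
      constructor
      · rintro ⟨⟨h1, h2, -⟩, h4⟩
        exact ⟨h1, h2, h4⟩
      · rintro ⟨h1, h2, h4⟩
        exact ⟨⟨h1, h2, h4 ▸ hD⟩, h4⟩
    rw [hset, Set.ncard_eq_toFinset_card _ hfinQ, mul_comm, ← smul_eq_mul, ← Finset.sum_const]
    refine Finset.sum_congr rfl fun Q hQ => ?_
    rw [Set.Finite.mem_toFinset] at hQ
    rw [hQ.2.2]
  · intro Q hQ
    rw [Set.Finite.mem_toFinset] at hQ ⊢
    exact hQ.2.2

/-- **(DT)**, subgroup-lattice form: with `m_D(ℓ) := #{Q ∋ ℓ : Stab_G Q = D}`,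
`|H| * #{w ⊂ 𝓞 E : N w = ℓ} = ∑_{D ≤ H} |D| * m_D(ℓ)`. -/
theorem card_mul_card_heightOneSpectrum_eq_finsum_subgroup (ℓ : ℕ) (hℓ : ℓ.Prime)
    (hunr : ∀ P : Ideal (𝓞 K), P.IsPrime → (ℓ : 𝓞 K) ∈ P → Ideal.inertia (K ≃ₐ[ℚ] K) P = ⊥) :
    Nat.card H * Nat.card {w : IsDedekindDomain.HeightOneSpectrum
        (𝓞 (IntermediateField.fixedField H)) // absNorm w.asIdeal = ℓ} =
      ∑ᶠ D ∈ {D : Subgroup (K ≃ₐ[ℚ] K) | D ≤ H}, Nat.card D *
        {Q : Ideal (𝓞 K) | Q.IsPrime ∧ (ℓ : 𝓞 K) ∈ Q ∧ stabilizer (K ≃ₐ[ℚ] K) Q = D}.ncard := by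
  rw [card_mul_card_heightOneSpectrum_eq_finsum H ℓ hℓ hunr,
    finsum_stabilizer_le_eq_finsum_subgroup H ℓ hℓ]

end Fermat.Agent.S29.FDCDecomp
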