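/-
S29 / block [FD], route C (decomposition groups), leaf (DT-Σ) -- helper67.

`K/ℚ` finite Galois with group `G`, `T` a finite set of rational primes containing every prime
with a non-trivial inertia group in `K`.  For a subgroup `D ≤ G` put

  `mD K D ℓ := #{Q ∋ ℓ prime of 𝓞 K : Stab_G Q = D}`,
  `FD K T D s := ∑'_{ℓ prime, ℓ ∉ T} |D| * mD K D ℓ * ℓ^(-s)`.

Main result (`finsum_FD_two_sided`): for every `H ≤ G`,
  `∑_{D ≤ H} FD K T D s = |H| * log (1/(s-1)) + O(1)`   as `s → 1⁺`,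
which is the hypothesis of the abstract subgroup-lattice inversion (COMB).  Also the extraction
`FD K T D s ≠ 0 → ∃ ℓ ∉ T prime, ∃ Q ∋ ℓ prime with Stab_G Q = D` (`exists_of_FD_ne_zero`).

Inputs: `S29/FDCDecomp.lean` (the decomposition-group count (DT)) and `S29/FDAnL.lean`
(helper54: two-sided pole estimate for `∑ primeCount E ℓ * ℓ^(-s)`).
-/
import Mathlib
import Fermat.Agent.S29.FDCDecomp
import Fermat.Agent.S29.FDAnL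

set_option autoImplicit false

namespace Fermat.Agent.S29.FDCSum

open Ideal MulAction NumberField Filter Topology
open scoped Pointwise
open Fermat.Agent.S29.FDCDecomp Fermat.Agent.S29.FDAnL

variable (K : Type*) [Field K] [NumberField K]

/-- `m_D(ℓ)`: the number of primes of `𝓞 K` containing `ℓ` whose decomposition group is `D`. -/
noncomputable def mD (D : Subgroup (K ≃ₐ[ℚ] K)) (ℓ : ℕ) : ℕ :=
  {Q : Ideal (𝓞 K) | Q.IsPrime ∧ (ℓ : 𝓞 K) ∈ Q ∧ stabilizer (K ≃ₐ[ℚ] K) Q = D}.ncard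

/-- `F_D(s) = ∑'_{ℓ ∉ T} |D| * m_D(ℓ) * ℓ^(-s)`. -/
noncomputable def FD (T : Finset ℕ) (D : Subgroup (K ≃ₐ[ℚ] K)) (s : ℝ) : ℝ :=
  ∑' ℓ : Nat.Primes, if (ℓ : ℕ) ∈ T then 0 else
    ((Nat.card D : ℝ) * (mD K D ℓ : ℝ)) * ((ℓ : ℕ) : ℝ) ^ (-s)

variable {K}

theorem FD_term_nonneg (T : Finset ℕ) (D : Subgroup (K ≃ₐ[ℚ] K)) (s : ℝ) (ℓ : Nat.Primes) :
    0 ≤ (if (ℓ : ℕ) ∈ T then 0 else
      ((Nat.card D : ℝ) * (mD K D ℓ : ℝ)) * ((ℓ : ℕ) : ℝ) ^ (-s)) := by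
  split_ifs
  · exact le_rfl
  · exact mul_nonneg (mul_nonneg (Nat.cast_nonneg _) (Nat.cast_nonneg _))
      (Real.rpow_nonneg (Nat.cast_nonneg _) _)

theorem FD_nonneg (T : Finset ℕ) (D : Subgroup (K ≃ₐ[ℚ] K)) (s : ℝ) : 0 ≤ FD K T D s :=
  tsum_nonneg fun ℓ => FD_term_nonneg T D s ℓ

/-- **extraction**: a non-zero `F_D(s)` produces a prime outside `T` with a prime above it whose
decomposition group is exactly `D`. -/
theorem exists_of_FD_ne_zero {T : Finset ℕ} {D : Subgroup (K ≃ₐ[ℚ] K)} {s : ℝ}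
    (h : FD K T D s ≠ 0) :
    ∃ ℓ : ℕ, ℓ.Prime ∧ ℓ ∉ T ∧ ∃ P : Ideal (𝓞 K), P.IsPrime ∧ (ℓ : 𝓞 K) ∈ P ∧
      stabilizer (K ≃ₐ[ℚ] K) P = D := by
  by_contra hne
  apply h
  unfold FD
  convert tsum_zero with ℓ
  split_ifs with hℓT
  · rfl
  · have hm : mD K D ℓ = 0 := by
      unfold mD
      by_contra hm
      obtain ⟨P, hP1, hP2, hP3⟩ := Set.nonempty_of_ncard_ne_zero hm
      exact hne ⟨ℓ, ℓ.2, hℓT, P, hP1, hP2, hP3⟩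
    rw [hm, Nat.cast_zero, mul_zero, zero_mul]

variable [IsGalois ℚ K]

/-- crude bound: at most `|G|` primes above a rational prime. -/
theorem mD_le (D : Subgroup (K ≃ₐ[ℚ] K)) (ℓ : ℕ) (hℓ : ℓ.Prime) :
    mD K D ℓ ≤ Nat.card (K ≃ₐ[ℚ] K) := by
  haveI : Fact ℓ.Prime := ⟨hℓ⟩
  haveI : (span {(ℓ : ℤ)}).IsPrime :=
    (span_singleton_prime (by exact_mod_cast hℓ.ne_zero)).2 (Nat.prime_iff_prime_int.mp hℓ)
  have h1 := ncard_primesOver_mul_ramificationIdxIn_mul_inertiaDegIn (span {(ℓ : ℤ)}) (𝓞 K)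
    (K ≃ₐ[ℚ] K)
  have hsub : {Q : Ideal (𝓞 K) | Q.IsPrime ∧ (ℓ : 𝓞 K) ∈ Q ∧ stabilizer (K ≃ₐ[ℚ] K) Q = D} ⊆
      (span {(ℓ : ℤ)}).primesOver (𝓞 K) := fun Q hQ =>
    (mem_primesOver_span_iff Q ℓ hℓ).2 ⟨hQ.1, hQ.2.1⟩
  have hfin : ((span {(ℓ : ℤ)}).primesOver (𝓞 K)).Finite :=
    Algebra.QuasiFinite.finite_primesOver _
  have h2 : mD K D ℓ ≤ ((span {(ℓ : ℤ)}).primesOver (𝓞 K)).ncard := Set.ncard_le_ncard hsub hfin
  have hpos : 0 < Nat.card (K ≃ₐ[ℚ] K) := Nat.card_pos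
  have h3 : 0 < (span {(ℓ : ℤ)}).ramificationIdxIn (𝓞 K) * (span {(ℓ : ℤ)}).inertiaDegIn (𝓞 K) := by
    rcases Nat.eq_zero_or_pos ((span {(ℓ : ℤ)}).ramificationIdxIn (𝓞 K) *
      (span {(ℓ : ℤ)}).inertiaDegIn (𝓞 K)) with h0 | h0
    · rw [h0, mul_zero] at h1
      omega
    · exact h0
  calc mD K D ℓ ≤ ((span {(ℓ : ℤ)}).primesOver (𝓞 K)).ncard := h2
    _ ≤ ((span {(ℓ : ℤ)}).primesOver (𝓞 K)).ncard *
        ((span {(ℓ : ℤ)}).ramificationIdxIn (𝓞 K) * (span {(ℓ : ℤ)}).inertiaDegIn (𝓞 K)) :=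
      Nat.le_mul_of_pos_right _ h3
    _ = Nat.card (K ≃ₐ[ℚ] K) := h1

/-- the defining series of `F_D(s)` converges for `s > 1`. -/
theorem summable_FD_term (T : Finset ℕ) (D : Subgroup (K ≃ₐ[ℚ] K)) {s : ℝ} (hs : 1 < s) :
    Summable fun ℓ : Nat.Primes => if (ℓ : ℕ) ∈ T then 0 else
      ((Nat.card D : ℝ) * (mD K D ℓ : ℝ)) * ((ℓ : ℕ) : ℝ) ^ (-s) := by
  have hsum : Summable fun ℓ : Nat.Primes => ((ℓ : ℕ) : ℝ) ^ (-s) :=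
    Nat.Primes.summable_rpow.2 (by linarith)
  refine Summable.of_nonneg_of_le (fun ℓ => FD_term_nonneg T D s ℓ) (fun ℓ => ?_)
    (hsum.mul_left ((Nat.card D : ℝ) * (Nat.card (K ≃ₐ[ℚ] K) : ℝ)))
  have hr : (0 : ℝ) ≤ ((ℓ : ℕ) : ℝ) ^ (-s) := Real.rpow_nonneg (Nat.cast_nonneg _) _
  split_ifs
  · exact mul_nonneg (mul_nonneg (Nat.cast_nonneg _) (Nat.cast_nonneg _)) hr
  · refine mul_le_mul_of_nonneg_right ?_ hr
    refine mul_le_mul_of_nonneg_left ?_ (Nat.cast_nonneg _)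
    exact_mod_cast mD_le D ℓ ℓ.2

/-- **(DT) summed over `ℓ`**: `∑_{D ≤ H} F_D(s) = |H| * ∑'_{ℓ ∉ T} primeCount E ℓ * ℓ^(-s)`,
`E` the fixed field of `H`. -/
theorem finsum_FD_eq (T : Finset ℕ)
    (hT : ∀ ℓ : ℕ, ℓ.Prime → ℓ ∉ T → ∀ P : Ideal (𝓞 K), P.IsPrime → (ℓ : 𝓞 K) ∈ P →
      Ideal.inertia (K ≃ₐ[ℚ] K) P = ⊥)
    (H : Subgroup (K ≃ₐ[ℚ] K)) {s : ℝ} (hs : 1 < s) :
    ∑ᶠ D ∈ {D : Subgroup (K ≃ₐ[ℚ] K) | D ≤ H}, FD K T D s =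
      (Nat.card H : ℝ) * ∑' ℓ : Nat.Primes, if (ℓ : ℕ) ∈ T then 0 else
        (primeCount (IntermediateField.fixedField H) ℓ : ℝ) * ((ℓ : ℕ) : ℝ) ^ (-s) := by
  classical
  have hfinD : {D : Subgroup (K ≃ₐ[ℚ] K) | D ≤ H}.Finite := Set.toFinite _
  rw [finsum_mem_eq_finite_toFinset_sum _ hfinD, ← tsum_mul_left]
  unfold FD
  rw [← Summable.tsum_finsetSum fun D _ => summable_FD_term T D hs]
  refine tsum_congr fun ℓ => ?_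
  by_cases hℓT : (ℓ : ℕ) ∈ T
  · simp only [if_pos hℓT, Finset.sum_const_zero, mul_zero]
  · simp only [if_neg hℓT]
    have hdt := card_mul_card_heightOneSpectrum_eq_finsum_subgroup H ℓ ℓ.2
      (hT ℓ ℓ.2 hℓT)
    rw [finsum_mem_eq_finite_toFinset_sum _ hfinD] at hdt
    have hdt' : ((Nat.card H : ℝ)) * (primeCount (IntermediateField.fixedField H) ℓ : ℝ) =
        ∑ D ∈ hfinD.toFinset, (Nat.card D : ℝ) * (mD K D ℓ : ℝ) := by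
      unfold primeCount mD
      exact_mod_cast hdt
    rw [← mul_assoc, hdt', Finset.sum_mul]

/-- **(DT-Σ)**: for every subgroup `H`, `∑_{D ≤ H} F_D(s) = |H| * log (1/(s-1)) + O(1)` as
`s → 1⁺`. -/
theorem finsum_FD_two_sided (T : Finset ℕ)
    (hT : ∀ ℓ : ℕ, ℓ.Prime → ℓ ∉ T → ∀ P : Ideal (𝓞 K), P.IsPrime → (ℓ : 𝓞 K) ∈ P →
      Ideal.inertia (K ≃ₐ[ℚ] K) P = ⊥)
    (H : Subgroup (K ≃ₐ[ℚ] K)) :
    ∃ C : ℝ, ∀ᶠ s in 𝓝[>] (1 : ℝ),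
      |∑ᶠ D ∈ {D : Subgroup (K ≃ₐ[ℚ] K) | D ≤ H}, FD K T D s -
        (Nat.card H : ℝ) * Real.log (1 / (s - 1))| ≤ C := by
  obtain ⟨C, hC⟩ := primeCount_two_sided (IntermediateField.fixedField H) T
  refine ⟨(Nat.card H : ℝ) * C, ?_⟩
  filter_upwards [hC, self_mem_nhdsWithin] with s h hs1
  have hs : (1 : ℝ) < s := hs1
  have key : (∑ᶠ (D : Subgroup (K ≃ₐ[ℚ] K)) (_ : D ≤ H), FD K T D s) =
      (Nat.card H : ℝ) * ∑' ℓ : Nat.Primes, if (ℓ : ℕ) ∈ T then 0 else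
        (primeCount (IntermediateField.fixedField H) ℓ : ℝ) * ((ℓ : ℕ) : ℝ) ^ (-s) :=
    finsum_FD_eq T hT H hs
  rw [key, ← mul_sub, abs_mul, abs_of_nonneg (Nat.cast_nonneg _)]
  exact mul_le_mul_of_nonneg_left h (Nat.cast_nonneg _)

end Fermat.Agent.S29.FDCSum
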