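/-
S29 / S42, block [FD] (generator-Frobenius density), leaf (CYC): at a prime with trivial inertia
every element of the decomposition group is a power of any Frobenius element.

`K` a number field, `G = Gal(K/ℚ) = (K ≃ₐ[ℚ] K)` acting on `𝓞 K`, `P ∋ ℓ` a prime of `𝓞 K` with
`Ideal.inertia G P = ⊥`.  If `τ` stabilises `P` and `σ b ≡ b ^ ℓ (mod P)` for all `b`, then
`τ = σ ^ j` for some `j : ℕ`.
-/
import Mathlib

set_option autoImplicit false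

namespace Fermat.Agent.S29.FDCyc

open NumberField

/-- Every ring endomorphism of a finite field of characteristic `ℓ` is a power of the Frobenius
`x ↦ x ^ ℓ`. -/
theorem exists_pow_frobenius {k : Type*} [Field k] [Finite k] {ℓ : ℕ} [Fact ℓ.Prime] [CharP k ℓ]
    (φ : k →+* k) : ∃ j : ℕ, ∀ x : k, φ x = x ^ (ℓ ^ j) := by
  let _ : Algebra (ZMod ℓ) k := ZMod.algebra k ℓ
  let φ' : k →ₐ[ZMod ℓ] k :=
    { φ with
      commutes' := fun x => by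
        have h : φ.comp (algebraMap (ZMod ℓ) k) = algebraMap (ZMod ℓ) k := Subsingleton.elim _ _
        exact congrArg (fun f : ZMod ℓ →+* k => f x) h }
  obtain ⟨n, hn⟩ := (FiniteField.bijective_frobeniusAlgHom_pow (ZMod ℓ) k).2 φ'
  refine ⟨n.1, fun x => ?_⟩
  have h := DFunLike.congr_fun hn x
  simp only [AlgHom.coe_pow, FiniteField.coe_frobeniusAlgHom, pow_iterate, ZMod.card] at h
  exact h.symm

variable (K : Type*) [Field K] [NumberField K]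

/-- **(CYC), elementwise form.** -/
theorem exists_pow_eq_of_forall {ℓ : ℕ} (hℓ : ℓ.Prime) (P : Ideal (𝓞 K)) (hP : P.IsPrime)
    (hℓP : (ℓ : 𝓞 K) ∈ P) (hI : Ideal.inertia (K ≃ₐ[ℚ] K) P = ⊥) (τ : K ≃ₐ[ℚ] K)
    (hτ : ∀ b : 𝓞 K, b ∈ P → τ • b ∈ P) (hτ' : ∀ b : 𝓞 K, b ∈ P → τ⁻¹ • b ∈ P)
    (σ : K ≃ₐ[ℚ] K) (hσ : ∀ b : 𝓞 K, σ • b - b ^ ℓ ∈ P) :
    ∃ j : ℕ, τ = σ ^ j := by
  classical
  have : Fact ℓ.Prime := ⟨hℓ⟩
  have hP0 : P ≠ ⊥ := by
    intro h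
    rw [h, Ideal.mem_bot] at hℓP
    exact hℓ.ne_zero (by exact_mod_cast hℓP)
  have hPmax : P.IsMaximal := hP.isMaximal hP0
  let _ : Field (𝓞 K ⧸ P) := Ideal.Quotient.field P
  have : Finite (𝓞 K ⧸ P) := Ideal.finiteQuotientOfFreeOfNeBot P hP0
  have : CharP (𝓞 K ⧸ P) ℓ := by
    rw [CharP.charP_iff_prime_eq_zero hℓ, ← map_natCast (Ideal.Quotient.mk P),
      Ideal.Quotient.eq_zero_iff_mem]
    exact hℓP
  -- the endomorphism of the residue field induced by `τ`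
  let f : 𝓞 K →+* 𝓞 K := MulSemiringAction.toRingHom (K ≃ₐ[ℚ] K) (𝓞 K) τ
  have hf : ∀ b : 𝓞 K, f b = τ • b := fun b => rfl
  have hle : P ≤ P.comap f := fun b hb => by
    rw [Ideal.mem_comap, hf]
    exact hτ b hb
  let τbar : (𝓞 K ⧸ P) →+* (𝓞 K ⧸ P) := Ideal.quotientMap P f hle
  obtain ⟨j, hj⟩ := exists_pow_frobenius (ℓ := ℓ) τbar
  have hτj : ∀ b : 𝓞 K, Ideal.Quotient.mk P (τ • b) = (Ideal.Quotient.mk P b) ^ (ℓ ^ j) := by
    intro b
    have h := hj (Ideal.Quotient.mk P b)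
    rw [Ideal.quotientMap_mk, hf] at h
    exact h
  have hσ1 : ∀ b : 𝓞 K, Ideal.Quotient.mk P (σ • b) = (Ideal.Quotient.mk P b) ^ ℓ := by
    intro b
    have h := hσ b
    rw [← Ideal.Quotient.eq_zero_iff_mem, map_sub, map_pow, sub_eq_zero] at h
    exact h
  have hσj : ∀ (i : ℕ) (b : 𝓞 K),
      Ideal.Quotient.mk P ((σ ^ i) • b) = (Ideal.Quotient.mk P b) ^ (ℓ ^ i) := by
    intro i
    induction i with
    | zero => intro b; simp
    | succ i ih =>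
      intro b
      rw [pow_succ', mul_smul, hσ1, ih, ← pow_mul, ← pow_succ]
  refine ⟨j, ?_⟩
  have hmem : τ⁻¹ * σ ^ j ∈ Ideal.inertia (K ≃ₐ[ℚ] K) P := by
    intro b
    have h1 : (σ ^ j) • b - τ • b ∈ P := by
      rw [← Ideal.Quotient.eq_zero_iff_mem, map_sub, hσj, hτj, sub_self]
    have h2 := hτ' _ h1
    have h3 : τ⁻¹ • ((σ ^ j) • b - τ • b) = (τ⁻¹ * σ ^ j) • b - b := by
      rw [smul_sub, inv_smul_smul, mul_smul]
    rw [h3] at h2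
    exact h2
  rw [hI, Subgroup.mem_bot, inv_mul_eq_one] at hmem
  exact hmem

open scoped Pointwise in
/-- **(CYC).** At a prime `P ∋ ℓ` of `𝓞 K` with trivial inertia, every `τ` in the decomposition
group is a power of any `σ` inducing the Frobenius `b ↦ b ^ ℓ` modulo `P`. -/
theorem exists_pow_eq {ℓ : ℕ} (hℓ : ℓ.Prime) (P : Ideal (𝓞 K)) (hP : P.IsPrime)
    (hℓP : (ℓ : 𝓞 K) ∈ P) (hI : Ideal.inertia (K ≃ₐ[ℚ] K) P = ⊥) (τ : K ≃ₐ[ℚ] K)
    (hτ : τ ∈ MulAction.stabilizer (K ≃ₐ[ℚ] K) P) (σ : K ≃ₐ[ℚ] K)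
    (hσ : ∀ b : 𝓞 K, RingOfIntegers.mapRingHom (σ : K →+* K) b - b ^ ℓ ∈ P) :
    ∃ j : ℕ, τ = σ ^ j := by
  rw [MulAction.mem_stabilizer_iff] at hτ
  refine exists_pow_eq_of_forall K hℓ P hP hℓP hI τ (fun b hb => ?_) (fun b hb => ?_) σ hσ
  · have h : τ • b ∈ τ • P := Ideal.smul_mem_pointwise_smul_iff.mpr hb
    rwa [hτ] at h
  · have h : b ∈ τ • P := by rw [hτ]; exact hb
    exact Ideal.mem_pointwise_smul_iff_inv_smul_mem.mp h

end Fermat.Agent.S29.FDCyc
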