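/-
S29 / S42, block [FD] (generator-Frobenius density), leaf (U): trivial inertia outside a finite
set of rational primes.

For a number field `K` with `G = Gal(K/ℚ) = (K ≃ₐ[ℚ] K)` acting on `𝓞 K`: there is a finite set
`T` of rational primes such that for every prime `ℓ ∉ T` and every prime ideal `P ∋ ℓ` of `𝓞 K`
the inertia group `Ideal.inertia G P = {σ | ∀ x, σ • x - x ∈ P}` is trivial.
(No Galois hypothesis on `K/ℚ` is needed.)
-/
import Mathlib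

set_option autoImplicit false

namespace Fermat.Agent.S29.FDUnram

open NumberField

variable (K : Type*) [Field K] [NumberField K]

/-- A nontrivial automorphism of `K` moves some algebraic integer. -/
theorem exists_smul_ne {τ : K ≃ₐ[ℚ] K} (hτ : τ ≠ 1) : ∃ a : 𝓞 K, τ • a ≠ a := by
  by_contra h
  push Not at h
  apply hτ
  ext x
  obtain ⟨a, b, -, rfl⟩ := IsFractionRing.div_surjective (A := 𝓞 K) x
  have ha : τ (algebraMap (𝓞 K) K a) = algebraMap (𝓞 K) K a :=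
    congrArg (fun y : 𝓞 K => algebraMap (𝓞 K) K y) (h a)
  have hb : τ (algebraMap (𝓞 K) K b) = algebraMap (𝓞 K) K b :=
    congrArg (fun y : 𝓞 K => algebraMap (𝓞 K) K y) (h b)
  rw [map_div₀, ha, hb, AlgEquiv.one_apply]

/-- **(U), bound form**: for every rational prime `ℓ` larger than some bound, every prime of
`𝓞 K` above `ℓ` has trivial inertia group in `Gal(K/ℚ)`. -/
theorem exists_bound_inertia_eq_bot :
    ∃ N : ℕ, ∀ ℓ : ℕ, ℓ.Prime → N < ℓ → ∀ P : Ideal (𝓞 K), P.IsPrime → (ℓ : 𝓞 K) ∈ P →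
      Ideal.inertia (K ≃ₐ[ℚ] K) P = ⊥ := by
  classical
  have : Fintype (K ≃ₐ[ℚ] K) := Fintype.ofFinite _
  have hθ : ∀ τ : K ≃ₐ[ℚ] K, ∃ a : 𝓞 K, τ ≠ 1 → τ • a ≠ a := fun τ => by
    by_cases h : τ = 1
    · exact ⟨0, fun h' => absurd h h'⟩
    · obtain ⟨a, ha⟩ := exists_smul_ne K h
      exact ⟨a, fun _ => ha⟩
  choose θ hθ using hθ
  let φ : (K ≃ₐ[ℚ] K) → ℕ := fun τ => Ideal.absNorm (Ideal.span {τ • θ τ - θ τ})
  refine ⟨∑ τ, φ τ, ?_⟩
  intro ℓ hℓ hNℓ P hP hℓP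
  rw [Subgroup.eq_bot_iff_forall]
  intro τ hτ
  by_contra hne
  have hmem : τ • θ τ - θ τ ∈ P := hτ (θ τ)
  have hn0 : φ τ ≠ 0 := by
    show Ideal.absNorm (Ideal.span {τ • θ τ - θ τ}) ≠ 0
    rw [Ne, Ideal.absNorm_eq_zero_iff, Ideal.span_singleton_eq_bot, sub_eq_zero]
    exact hθ τ hne
  have hnle : φ τ ≤ ∑ τ, φ τ :=
    Finset.single_le_sum (f := φ) (fun _ _ => Nat.zero_le _) (Finset.mem_univ τ)
  have hnP : ((φ τ : ℕ) : 𝓞 K) ∈ P := by
    have h1 : ((φ τ : ℕ) : 𝓞 K) ∈ Ideal.span {τ • θ τ - θ τ} := Ideal.absNorm_mem _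
    have h2 : Ideal.span {τ • θ τ - θ τ} ≤ P := (Ideal.span_singleton_le_iff_mem P).mpr hmem
    exact h2 h1
  have hcop : Nat.Coprime ℓ (φ τ) := by
    rw [Nat.Prime.coprime_iff_not_dvd hℓ]
    intro hdvd
    have := Nat.le_of_dvd (Nat.pos_of_ne_zero hn0) hdvd
    omega
  obtain ⟨u, v, huv⟩ := (Nat.Coprime.cast (R := 𝓞 K) hcop)
  apply hP.ne_top
  rw [Ideal.eq_top_iff_one, ← huv]
  exact P.add_mem (P.mul_mem_left _ hℓP) (P.mul_mem_left _ hnP)

/-- **(U), finset form**: outside a finite set `T` of rational primes, every prime of `𝓞 K`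
has trivial inertia group in `Gal(K/ℚ)`. -/
theorem exists_finset_inertia_eq_bot :
    ∃ T : Finset ℕ, ∀ ℓ : ℕ, ℓ.Prime → ℓ ∉ T → ∀ P : Ideal (𝓞 K), P.IsPrime → (ℓ : 𝓞 K) ∈ P →
      Ideal.inertia (K ≃ₐ[ℚ] K) P = ⊥ := by
  obtain ⟨N, hN⟩ := exists_bound_inertia_eq_bot K
  refine ⟨Finset.range (N + 1), fun ℓ hℓ hℓT P hP hℓP => hN ℓ hℓ ?_ P hP hℓP⟩
  rw [Finset.mem_range, not_lt] at hℓT
  omega

end Fermat.Agent.S29.FDUnram
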