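/-
S29 / block [FD], route C (decomposition groups): the assembly -- helper67 (cut of helper5).

* `core'`: for a finite Galois extension `K/ℚ`, `τ ∈ Gal(K/ℚ)` and a bound `B` there are a prime
  `ℓ > B` and a prime `P ∋ ℓ` of `𝓞 K` such that every `σ` with `σ b ≡ b ^ ℓ (mod P)` satisfies
  `τ = σ ^ j` for some `j` (the shape of `S41/FLB.core`, without any hypothesis on the order of
  `τ`).  Proof: `FDUnram` (trivial inertia outside a finite set), `FDCSum` (the decomposition-group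
  count summed over `ℓ`), `FDCComb` (inversion on the subgroup lattice: the primes whose
  decomposition group is exactly `⟨τ⟩` carry a positive proportion of the pole), `FDCyc`.
* `powStatement : FDTop.PowStatement`: the wrapper over `AlgebraicClosure ℚ` (tail of
  `S41/FLB.exists_frobenius_of_prime_order` with `core'` in place of `core`).
* `fdStatement : FDStatement`: the block deliverable, via `FDTop.fdStatement_of_pow`
  (independent-technique spare of `FDStmt.fdStatement`).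
-/
import Mathlib
import Fermat.Agent.S29.FDUnram
import Fermat.Agent.S29.FDCSum
import Fermat.Agent.S29.FDCComb
import Fermat.Agent.S29.FDCyc
import Fermat.Agent.S29.FDTop
import Fermat.Agent.S41.FLB
import Fermat.Agent.S14Z.ZetaPole

set_option autoImplicit false

namespace Fermat.Agent.S29.FDCCore

open NumberField Filter Topology

/-- general-order core (route C). -/
theorem core' (K : Type*) [Field K] [NumberField K] [IsGalois ℚ K] (τ : K ≃ₐ[ℚ] K) (B : ℕ) :
    ∃ (ℓ : ℕ) (P : Ideal (𝓞 K)), ℓ.Prime ∧ B < ℓ ∧ P.IsPrime ∧ (ℓ : 𝓞 K) ∈ P ∧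
      ∀ σ : K ≃ₐ[ℚ] K, (∀ b : 𝓞 K, RingOfIntegers.mapRingHom (σ : K →+* K) b - b ^ ℓ ∈ P) →
        ∃ j : ℕ, τ = σ ^ j := by
  classical
  obtain ⟨T₀, hT₀⟩ := Fermat.Agent.S29.FDUnram.exists_finset_inertia_eq_bot K
  set T : Finset ℕ := T₀ ∪ Finset.range (B + 1) with hTdef
  have hT : ∀ ℓ : ℕ, ℓ.Prime → ℓ ∉ T → ∀ P : Ideal (𝓞 K), P.IsPrime → (ℓ : 𝓞 K) ∈ P →
      Ideal.inertia (K ≃ₐ[ℚ] K) P = ⊥ := fun ℓ hℓ hℓT P hP hℓP =>
    hT₀ ℓ hℓ (fun h => hℓT (Finset.mem_union_left _ h)) P hP hℓP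
  obtain ⟨s, -, hs⟩ := Fermat.Agent.S29.FDCComb.exists_ne_zero
    (fun s : ℝ => Real.log (1 / (s - 1))) (𝓝[>] (1 : ℝ))
    Fermat.Agent.S14Z.tendsto_log_one_div_sub_one (Fermat.Agent.S29.FDCSum.FD K T)
    (fun H => Fermat.Agent.S29.FDCSum.finsum_FD_two_sided T hT H) τ (fun _ => True)
    (Eventually.of_forall fun _ => trivial)
  obtain ⟨ℓ, hℓ, hℓT, P, hP, hℓP, hstab⟩ :=
    Fermat.Agent.S29.FDCSum.exists_of_FD_ne_zero (ne_of_gt hs)
  refine ⟨ℓ, P, hℓ, ?_, hP, hℓP, fun σ hσ => ?_⟩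
  · by_contra hlt
    exact hℓT (Finset.mem_union_right _ (Finset.mem_range.2 (by omega)))
  · exact Fermat.Agent.S29.FDCyc.exists_pow_eq K hℓ P hP hℓP (hT ℓ hℓ hℓT P hP hℓP) τ
      (by rw [hstab]; exact Subgroup.mem_zpowers τ) σ hσ

local notation "Qbar" => AlgebraicClosure ℚ
local notation "GQ" => (AlgebraicClosure ℚ ≃ₐ[ℚ] AlgebraicClosure ℚ)
local notation "Zbar" => integralClosure ℤ (AlgebraicClosure ℚ)

attribute [local instance] Fermat.Agent.S54.FrobIntB.isAlgClosure_rat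
attribute [local instance] Fermat.Agent.S54.isAlgebraic_int_algebraicClosure_rat

open Fermat.Agent.S41.FLB in
/-- **[FD], route C**: the `S41/FL`-shaped consumer statement in general order. -/
theorem powStatement : Fermat.Agent.S29.FDTop.PowStatement := by
  classical
  intro S hS τ B
  set K : IntermediateField ℚ Qbar := IntermediateField.adjoin ℚ (S : Set Qbar) with hK
  have hKfd : FiniteDimensional ℚ K := fd_adjoin S
  have hKn : Normal ℚ K := normal_adjoin S hS
  have : NumberField K := { to_charZero := inferInstance, to_finiteDimensional := hKfd }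
  have hKgal : IsGalois ℚ K := ⟨⟩
  let res : GQ →* (K ≃ₐ[ℚ] K) := AlgEquiv.restrictNormalHom K
  have hres : ∀ (g : GQ) (x : K), ((res g x : K) : Qbar) = g (x : Qbar) := fun g x =>
    AlgEquiv.restrictNormal_commutes g K x
  have hSK : ∀ x ∈ S, x ∈ K := fun x hx => IntermediateField.subset_adjoin ℚ _ hx
  obtain ⟨ℓ, P, hℓ, hBℓ, hPprime, hℓP, hcore⟩ := core' K (res τ) B
  -- the embedding of `𝓞 K` into the ring of all algebraic integers
  let ιK : 𝓞 K →+* Zbar :=
    RingHom.codRestrict ((algebraMap K Qbar).comp (algebraMap (𝓞 K) K)) (integralClosure ℤ Qbar)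
      (fun x => (RingOfIntegers.isIntegral_coe x).algebraMap)
  have hιK : ∀ x : 𝓞 K, ((ιK x : Zbar) : Qbar) = ((x : K) : Qbar) := fun x => rfl
  have hιinj : Function.Injective ιK := by
    intro x y hxy
    have h1 : ((ιK x : Zbar) : Qbar) = ((ιK y : Zbar) : Qbar) := by rw [hxy]
    rw [hιK, hιK] at h1
    exact RingOfIntegers.ext (Subtype.ext h1)
  have hker : RingHom.ker ιK = ⊥ := (RingHom.injective_iff_ker_eq_bot _).mp hιinj
  -- a prime of `Zbar` above `P`
  obtain ⟨Q, hQprime, hQP⟩ : ∃ Q : Ideal Zbar, Q.IsPrime ∧ Q.comap ιK = P := by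
    let _ : Algebra (𝓞 K) Zbar := ιK.toAlgebra
    have hint : Algebra.IsIntegral (𝓞 K) Zbar :=
      ⟨fun b => (Algebra.IsIntegral.isIntegral (R := ℤ) b).tower_top⟩
    exact Ideal.exists_ideal_over_prime_of_isIntegral_of_isDomain (S := Zbar) P (by
      show RingHom.ker ιK ≤ P
      rw [hker]
      exact bot_le)
  have hℓQ : (ℓ : Zbar) ∈ Q := by
    have h1 : (ℓ : 𝓞 K) ∈ Q.comap ιK := by rw [hQP]; exact hℓP
    rw [Ideal.mem_comap, map_natCast] at h1
    exact h1
  have h1Q : (1 : Zbar) ∉ Q := (Ideal.ne_top_iff_one Q).mp hQprime.ne_top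
  obtain ⟨σ, hσfrob, hσ⟩ := exists_frob_valSub ℓ hℓ Q hℓQ
  obtain ⟨j, hj⟩ := hcore (res σ) (by
    intro b
    rw [← hQP, Ideal.mem_comap, map_sub, map_pow]
    refine hσ (ιK b) (ιK (RingOfIntegers.mapRingHom ((res σ : K ≃ₐ[ℚ] K) : K →+* K) b)) ?_
    rw [hιK, hιK, RingOfIntegers.mapRingHom_apply]
    exact hres σ _)
  refine ⟨ℓ, Fermat.Agent.S54.valSub Q, σ, j, hℓ, hBℓ, ?_, hσfrob, ?_⟩
  · exact Fermat.Agent.S54.mem_nonunits_valSub Q (ℓ : Zbar) 1 hℓQ h1Q (by simp)
  · intro x hx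
    have h1 := hres τ ⟨x, hSK x hx⟩
    have h2 := hres (σ ^ j) ⟨x, hSK x hx⟩
    rw [map_pow, ← hj] at h2
    exact h1.symm.trans h2

/-- **[FD] block deliverable** via route C. -/
theorem fdStatement : Fermat.Agent.S29.FDStatement :=
  Fermat.Agent.S29.FDTop.fdStatement_of_pow powStatement

end Fermat.Agent.S29.FDCCore
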