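/-
S29 / S42, block [FD] (generator-Frobenius density), leaf (FD-C): the counting step.

Abstract inclusion–exclusion over the proper subgroups of a finite cyclic group `C`.
`V` is an index set ("good primes of degree one"), `D v` a subgroup of `C` ("decomposition
group"), `w s v ≥ 0` a weight ("`N v ^ (-s)`").  If for EVERY subgroup `H` the partial sums over
`{v | D v ≤ H}` are `(|H| / |C|) * log (1 / (s - 1)) + O(1)` as `s → 1+`, then some `v` has
`D v = ⊤`: the coefficient of `log (1 / (s - 1))` in the sum over `{v | D v = ⊤}` is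
`#{generators of C} / |C| > 0`.
-/
import Mathlib

set_option autoImplicit false

namespace Fermat.Agent.S29.FDCount

open Filter Topology

open scoped Classical in
/-- `∑_{R ⊆ 𝓗} (-1)^{|R|} [K ≤ ⨅ R] = ∏_{H ∈ 𝓗} (1 - [K ≤ H])`. -/
theorem sum_powerset_eq_prod {C : Type*} [Group C] (𝓗 : Finset (Subgroup C)) (K : Subgroup C) :
    ∑ R ∈ 𝓗.powerset, (-1 : ℝ) ^ R.card * (if K ≤ R.inf id then 1 else 0) =
      ∏ H ∈ 𝓗, (1 - if K ≤ H then (1 : ℝ) else 0) := by
  have h := Finset.prod_add (fun H : Subgroup C => -(if K ≤ H then (1 : ℝ) else 0))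
    (fun _ => (1 : ℝ)) 𝓗
  have h' : (∏ H ∈ 𝓗, (1 - if K ≤ H then (1 : ℝ) else 0)) =
      ∏ H ∈ 𝓗, (-(if K ≤ H then (1 : ℝ) else 0) + 1) :=
    Finset.prod_congr rfl (fun H _ => by ring)
  rw [h', h]
  refine Finset.sum_congr rfl fun R _ => ?_
  rw [Finset.prod_const_one, mul_one, Finset.prod_neg, Finset.prod_boole]
  congr 1
  simp only [Finset.le_inf_iff, id]

theorem tendsto_log_one_div_sub_one :
    Tendsto (fun s : ℝ => Real.log (1 / (s - 1))) (𝓝[>] (1 : ℝ)) atTop := by
  have h1 : Tendsto (fun s : ℝ => s - 1) (𝓝[>] (1 : ℝ)) (𝓝[>] (0 : ℝ)) := by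
    rw [tendsto_nhdsWithin_iff]
    constructor
    · have : Tendsto (fun s : ℝ => s - 1) (𝓝 (1 : ℝ)) (𝓝 (1 - 1)) := tendsto_id.sub_const 1
      rw [sub_self] at this
      exact this.mono_left nhdsWithin_le_nhds
    · filter_upwards [self_mem_nhdsWithin] with s hs
      have : (1 : ℝ) < s := hs
      exact Set.mem_Ioi.2 (by linarith)
  have h2 : Tendsto (fun s : ℝ => (s - 1)⁻¹) (𝓝[>] (1 : ℝ)) atTop :=
    tendsto_inv_nhdsGT_zero.comp h1
  have h3 := Real.tendsto_log_atTop.comp h2
  refine h3.congr fun s => ?_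
  simp [one_div]

open scoped Classical in
/-- **(FD-C)** the counting step of the generator-Frobenius density theorem. -/
theorem exists_eq_top {C : Type*} [Group C] [Finite C] [IsCyclic C] {V : Type*}
    (D : V → Subgroup C) (w : ℝ → V → ℝ) (hw0 : ∀ s v, 0 ≤ w s v)
    (hws : ∀ s, 1 < s → Summable (w s))
    (hH : ∀ H : Subgroup C, ∃ c : ℝ, ∀ᶠ s in 𝓝[>] (1 : ℝ),
      |(∑' v : {v // D v ≤ H}, w s v) -
        ((Nat.card H : ℝ) / (Nat.card C : ℝ)) * Real.log (1 / (s - 1))| ≤ c) :
    ∃ v, D v = ⊤ := by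
  by_contra hne
  push Not at hne
  have : Fintype C := Fintype.ofFinite C
  have : Fintype (Subgroup C) := Fintype.ofFinite _
  set 𝓗 : Finset (Subgroup C) := Finset.univ.filter (fun H => H ≠ ⊤) with h𝓗
  set m : ℝ → Subgroup C → ℝ := fun s H => ∑' v : {v // D v ≤ H}, w s v with hm
  -- the inclusion–exclusion identity
  have hid : ∀ s, 1 < s → ∑ R ∈ 𝓗.powerset, (-1 : ℝ) ^ R.card * m s (R.inf id) = 0 := by
    intro s hs
    have hsum := hws s hs
    have hmH : ∀ H : Subgroup C, m s H = ∑' v, (if D v ≤ H then w s v else 0) := by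
      intro H
      have h1 := tsum_subtype {v | D v ≤ H} (w s)
      have h2 : ({v | D v ≤ H} : Set V).indicator (w s) =
          fun v => if D v ≤ H then w s v else 0 := by
        funext v
        by_cases hv : D v ≤ H
        · rw [Set.indicator_of_mem (by exact hv), if_pos hv]
        · rw [Set.indicator_of_notMem (by exact hv), if_neg hv]
      rw [h2] at h1
      exact h1
    have hsumH : ∀ H : Subgroup C, Summable (fun v => if D v ≤ H then w s v else 0) := by
      intro H
      have h1 := hsum.indicator {v | D v ≤ H}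
      have h2 : ({v | D v ≤ H} : Set V).indicator (w s) =
          fun v => if D v ≤ H then w s v else 0 := by
        funext v
        by_cases hv : D v ≤ H
        · rw [Set.indicator_of_mem (by exact hv), if_pos hv]
        · rw [Set.indicator_of_notMem (by exact hv), if_neg hv]
      rw [h2] at h1
      exact h1
    have hz : ∀ v, ∑ R ∈ 𝓗.powerset,
        (-1 : ℝ) ^ R.card * (if D v ≤ R.inf id then w s v else 0) = 0 := by
      intro v
      have h1 := sum_powerset_eq_prod 𝓗 (D v)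
      have h2 : ∏ H ∈ 𝓗, (1 - if D v ≤ H then (1 : ℝ) else 0) = 0 := by
        apply Finset.prod_eq_zero (i := D v)
        · rw [h𝓗, Finset.mem_filter]
          exact ⟨Finset.mem_univ _, hne v⟩
        · rw [if_pos le_rfl, sub_self]
      have h3 : ∑ R ∈ 𝓗.powerset, (-1 : ℝ) ^ R.card * (if D v ≤ R.inf id then w s v else 0)
          = w s v * ∑ R ∈ 𝓗.powerset, (-1 : ℝ) ^ R.card * (if D v ≤ R.inf id then 1 else 0) := by
        rw [Finset.mul_sum]
        refine Finset.sum_congr rfl fun R _ => ?_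
        split_ifs <;> ring
      rw [h3, h1, h2, mul_zero]
    calc ∑ R ∈ 𝓗.powerset, (-1 : ℝ) ^ R.card * m s (R.inf id)
        = ∑ R ∈ 𝓗.powerset, ∑' v, (-1 : ℝ) ^ R.card * (if D v ≤ R.inf id then w s v else 0) := by
          refine Finset.sum_congr rfl fun R _ => ?_
          rw [hmH, tsum_mul_left]
      _ = ∑' v, ∑ R ∈ 𝓗.powerset, (-1 : ℝ) ^ R.card * (if D v ≤ R.inf id then w s v else 0) := by
          rw [Summable.tsum_finsetSum]
          intro R _
          exact (hsumH _).mul_left _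
      _ = 0 := by
          simp_rw [hz]
          exact tsum_zero
  -- the density coefficient is positive
  have hcard : ∀ H : Subgroup C,
      (Nat.card H : ℝ) = ∑ x : C, (if Subgroup.zpowers x ≤ H then (1 : ℝ) else 0) := by
    intro H
    rw [Finset.sum_boole, Nat.card_eq_fintype_card, Fintype.card_subtype]
    congr 2
    ext x
    simp only [Finset.mem_filter, Finset.mem_univ, true_and, Subgroup.zpowers_le]
  have hsumx : ∑ R ∈ 𝓗.powerset, (-1 : ℝ) ^ R.card * (Nat.card (R.inf id : Subgroup C) : ℝ) =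
      ∑ x : C, ∏ H ∈ 𝓗, (1 - if Subgroup.zpowers x ≤ H then (1 : ℝ) else 0) := by
    simp_rw [hcard, Finset.mul_sum]
    rw [Finset.sum_comm]
    refine Finset.sum_congr rfl fun x _ => ?_
    exact sum_powerset_eq_prod 𝓗 (Subgroup.zpowers x)
  have hge : (1 : ℝ) ≤ ∑ R ∈ 𝓗.powerset,
      (-1 : ℝ) ^ R.card * (Nat.card (R.inf id : Subgroup C) : ℝ) := by
    rw [hsumx]
    obtain ⟨x₀, hx₀⟩ := IsCyclic.exists_generator (α := C)
    have htop : Subgroup.zpowers x₀ = ⊤ := by
      rw [Subgroup.eq_top_iff']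
      exact hx₀
    have hterm : ∏ H ∈ 𝓗, (1 - if Subgroup.zpowers x₀ ≤ H then (1 : ℝ) else 0) = 1 := by
      apply Finset.prod_eq_one
      intro H hHmem
      rw [h𝓗, Finset.mem_filter] at hHmem
      have : ¬ Subgroup.zpowers x₀ ≤ H := by
        intro hle
        apply hHmem.2
        rw [htop] at hle
        exact top_le_iff.mp hle
      rw [if_neg this, sub_zero]
    have hnn : ∀ x ∈ (Finset.univ : Finset C),
        0 ≤ ∏ H ∈ 𝓗, (1 - if Subgroup.zpowers x ≤ H then (1 : ℝ) else 0) := by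
      intro x _
      apply Finset.prod_nonneg
      intro H _
      split_ifs <;> norm_num
    calc (1 : ℝ) = ∏ H ∈ 𝓗, (1 - if Subgroup.zpowers x₀ ≤ H then (1 : ℝ) else 0) := hterm.symm
      _ ≤ _ := Finset.single_le_sum hnn (Finset.mem_univ x₀)
  have hCpos : (0 : ℝ) < Nat.card C := by
    exact_mod_cast Nat.card_pos
  set κ : ℝ := ∑ R ∈ 𝓗.powerset,
    (-1 : ℝ) ^ R.card * ((Nat.card (R.inf id : Subgroup C) : ℝ) / (Nat.card C : ℝ)) with hκ
  have hκpos : 0 < κ := by
    have : κ = (∑ R ∈ 𝓗.powerset,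
        (-1 : ℝ) ^ R.card * (Nat.card (R.inf id : Subgroup C) : ℝ)) / (Nat.card C : ℝ) := by
      rw [hκ, Finset.sum_div]
      refine Finset.sum_congr rfl fun R _ => ?_
      ring
    rw [this]
    exact div_pos (lt_of_lt_of_le one_pos hge) hCpos
  -- the error terms
  choose c hc using hH
  have hev : ∀ᶠ s in 𝓝[>] (1 : ℝ), ∀ R ∈ 𝓗.powerset,
      |m s (R.inf id) - ((Nat.card (R.inf id : Subgroup C) : ℝ) / (Nat.card C : ℝ)) *
        Real.log (1 / (s - 1))| ≤ c (R.inf id) :=
    (Filter.eventually_all_finset _).2 fun R _ => hc (R.inf id)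
  set B : ℝ := ∑ R ∈ 𝓗.powerset, c (R.inf id) with hB
  have hbig : ∀ᶠ s in 𝓝[>] (1 : ℝ), B / κ < Real.log (1 / (s - 1)) :=
    tendsto_log_one_div_sub_one.eventually_gt_atTop _
  obtain ⟨s, ⟨hs1, hs2⟩, hs3⟩ := ((hev.and hbig).and self_mem_nhdsWithin).exists
  have hs : (1 : ℝ) < s := hs3
  have h0 := hid s hs
  have hkl : κ * Real.log (1 / (s - 1)) = ∑ R ∈ 𝓗.powerset, (-1 : ℝ) ^ R.card *
      (((Nat.card (R.inf id : Subgroup C) : ℝ) / (Nat.card C : ℝ)) * Real.log (1 / (s - 1)) -
        m s (R.inf id)) := by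
    have e1 : ∑ R ∈ 𝓗.powerset, (-1 : ℝ) ^ R.card *
        (((Nat.card (R.inf id : Subgroup C) : ℝ) / (Nat.card C : ℝ)) * Real.log (1 / (s - 1)) -
          m s (R.inf id)) =
        ∑ R ∈ 𝓗.powerset, (-1 : ℝ) ^ R.card *
          (((Nat.card (R.inf id : Subgroup C) : ℝ) / (Nat.card C : ℝ)) * Real.log (1 / (s - 1))) -
        ∑ R ∈ 𝓗.powerset, (-1 : ℝ) ^ R.card * m s (R.inf id) := by
      rw [← Finset.sum_sub_distrib]
      refine Finset.sum_congr rfl fun R _ => ?_
      ring
    rw [e1, h0, sub_zero, hκ, Finset.sum_mul]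
    refine Finset.sum_congr rfl fun R _ => ?_
    ring
  have hle : κ * Real.log (1 / (s - 1)) ≤ B := by
    rw [hkl, hB]
    refine Finset.sum_le_sum fun R hR => ?_
    have h1 := hs1 R hR
    have h2 : |(-1 : ℝ) ^ R.card *
        (((Nat.card (R.inf id : Subgroup C) : ℝ) / (Nat.card C : ℝ)) * Real.log (1 / (s - 1)) -
          m s (R.inf id))| ≤ c (R.inf id) := by
      rw [abs_mul, abs_pow, abs_neg, abs_one, one_pow, one_mul, abs_sub_comm]
      exact h1
    exact (le_abs_self _).trans h2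
  rw [div_lt_iff₀ hκpos] at hs2
  linarith

end Fermat.Agent.S29.FDCount
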