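/-
S29 block [FD] (owner helper84), algebraic half — BINDING definitions (FL-style, everything inside
`ℚ̄`), on top of the landed `S41/FL.lean`.

Setting: `S ⊂ ℚ̄` a finite Galois-stable set, `K = ℚ(S)`, `τ ∈ Gal(ℚ̄/ℚ)`.
* `KS S`            the field `ℚ(S)`;
* `E S τ d`         the fixed field of `τ ^ d` in `K` (`E S τ 1 = F`, the fixed field of `τ`);
* `conjHom E g`     the ring hom `𝓞 E → ℤ̄`, `b ↦ g b`;
* `IsFrob Q ℓ σ`    `σ` is `b ↦ b ^ ℓ` modulo the prime `Q` of `ℤ̄` on algebraic integers.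
-/
import Mathlib
import Fermat.Agent.S41.FL

set_option autoImplicit false

namespace Fermat.Agent.S29.FD

open NumberField IsDedekindDomain Polynomial
open Fermat.Agent.S41.FL

/-- `ℚ̄`. -/
abbrev Qb : Type := AlgebraicClosure ℚ

/-- the absolute Galois group. -/
abbrev GQ : Type := AlgebraicClosure ℚ ≃ₐ[ℚ] AlgebraicClosure ℚ

/-- the ring of all algebraic integers. -/
abbrev Zb : Type := integralClosure ℤ (AlgebraicClosure ℚ)

/-- the field generated by `S`. -/
noncomputable def KS (S : Finset Qb) : IntermediateField ℚ Qb :=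
  IntermediateField.adjoin ℚ (S : Set Qb)

/-- the fixed field of `τ ^ d` in `ℚ(S)`. -/
noncomputable def E (S : Finset Qb) (τ : GQ) (d : ℕ) : IntermediateField ℚ Qb :=
  KS S ⊓ eqField (τ ^ d) 1

theorem mem_E {S : Finset Qb} {τ : GQ} {d : ℕ} {x : Qb} :
    x ∈ E S τ d ↔ x ∈ KS S ∧ (τ ^ d) x = x := by
  unfold E
  rw [IntermediateField.mem_inf, mem_eqField]
  rfl

theorem E_le_KS (S : Finset Qb) (τ : GQ) (d : ℕ) : E S τ d ≤ KS S := inf_le_left

instance finiteDimensional_KS (S : Finset Qb) : FiniteDimensional ℚ (KS S) := by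
  have h0 : Algebra.IsAlgebraic ℚ Qb := AlgebraicClosure.isAlgebraic ℚ
  exact IntermediateField.finiteDimensional_adjoin (fun x _ => (h0.isAlgebraic x).isIntegral)

instance finiteDimensional_E (S : Finset Qb) (τ : GQ) (d : ℕ) : FiniteDimensional ℚ (E S τ d) :=
  FiniteDimensional.of_injective (IntermediateField.inclusion (E_le_KS S τ d)).toLinearMap
    (IntermediateField.inclusion (E_le_KS S τ d)).injective

instance numberField_KS (S : Finset Qb) : NumberField (KS S) := numberField_of_fd _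

instance numberField_E (S : Finset Qb) (τ : GQ) (d : ℕ) : NumberField (E S τ d) :=
  numberField_of_fd _

/-- the ring hom `𝓞 E → ℤ̄`, `b ↦ g b`. -/
noncomputable def conjHom (E' : IntermediateField ℚ Qb) [NumberField E'] (g : GQ) : 𝓞 E' →+* Zb :=
  (galZb g).comp (iota E')

theorem conjHom_coe (E' : IntermediateField ℚ Qb) [NumberField E'] (g : GQ) (b : 𝓞 E') :
    ((conjHom E' g b : Zb) : Qb) = g ((b : E') : Qb) := rfl

theorem conjHom_one (E' : IntermediateField ℚ Qb) [NumberField E'] : conjHom E' 1 = iota E' :=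
  RingHom.ext fun _ => Subtype.ext rfl

/-- `σ` is `b ↦ b ^ ℓ` modulo `Q` on algebraic integers. -/
def IsFrob (Q : Ideal Zb) (ℓ : ℕ) (σ : GQ) : Prop :=
  ∀ b c : Zb, (c : Qb) = σ b → c - b ^ ℓ ∈ Q

end Fermat.Agent.S29.FD
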