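/-
S29 block [FD] (generator-Frobenius density), analytic core (helper51).

* `split_upper`, `split_lower`, `split_density`: for number fields `F`, `M`, an integer `e ≥ 1` and
  a set `V` of primes of `F` such that every `v ∈ V` has `e` primes of `M` of the same norm
  attached to it (injectively) and almost every prime-norm prime of `M` is attached to some
  `v ∈ V` of the same norm (at most `e` of them to each `v`):
  `e * ∑_{v ∈ V} N v ^ (-s) = log (1/(s-1)) + O(1)` as `s → 1⁺`.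
* `infinite_delta_eq_one` (Möbius): if `δ v ∣ n` on a set `P` of primes of `F` and, for every
  `e ∣ n`, `e * ∑_{v ∈ P, e ∣ δ v} N v ^ (-s) = log (1/(s-1)) + O(1)`, then infinitely many `v ∈ P`
  have `δ v = 1` (they carry the proportion `φ(n)/n` of the pole).

Inputs: `S14A/ZetaIdeal.lean` (prime sums versus `log ζ`, pole bounds), `S14Z/NonPrimeNorm.lean`,
`S14Z/ZetaPole.lean`.
-/
import Mathlib
import Fermat.Agent.S14A.ZetaIdeal
import Fermat.Agent.S14Z.NonPrimeNorm
import Fermat.Agent.S14Z.ZetaPole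

set_option autoImplicit false

namespace Fermat.Agent.S29.FDDens

open IsDedekindDomain Filter Topology NumberField
open Fermat.Agent.S14A Fermat.Agent.S14Z

/-! ### (D1) two-sided density of "split" primes -/

section split

variable {F : Type*} [Field F] [NumberField F] {M : Type*} [Field M] [NumberField M]

/-- upper half: if every `v ∈ V` has `e` primes of `M` of the same norm attached injectively, then
`e * ∑_{v ∈ V} N v ^ (-s) ≤ log (1/(s-1)) + C` near `1⁺`. -/
theorem split_upper {e : ℕ} (V : Set (HeightOneSpectrum (𝓞 F)))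
    (φ : V × Fin e → HeightOneSpectrum (𝓞 M)) (hφ : Function.Injective φ)
    (hN : ∀ x, Ideal.absNorm (φ x).asIdeal = Ideal.absNorm x.1.1.asIdeal) :
    ∃ C : ℝ, ∀ᶠ s in 𝓝[>] (1 : ℝ),
      (e : ℝ) * ∑' v : V, (Ideal.absNorm v.1.asIdeal : ℝ) ^ (-s) ≤
        Real.log (1 / (s - 1)) + C := by
  obtain ⟨cM, CM, hcM, hM⟩ := zetaR_pole M
  refine ⟨Real.log CM, ?_⟩
  filter_upwards [hM, self_mem_nhdsWithin] with s hsM hs1
  have hs : (1 : ℝ) < s := hs1
  have hs0 : 0 < s - 1 := by linarith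
  have h1 := mul_tsum_le_tsum φ hφ hN hs
  have h2 := tsum_prime_le_log_zetaR M hs
  have hMpos : 0 < zetaR M s := zetaR_pos M hs
  have hCM : 0 < CM := by
    by_contra h
    have h' : CM ≤ 0 := not_lt.1 h
    have := div_nonpos_of_nonpos_of_nonneg h' hs0.le
    linarith [hsM.2]
  have h3 : Real.log (zetaR M s) ≤ Real.log CM - Real.log (s - 1) := by
    rw [← Real.log_div hCM.ne' hs0.ne']
    exact Real.log_le_log hMpos hsM.2
  have hlog : Real.log (1 / (s - 1)) = - Real.log (s - 1) := by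
    rw [one_div, Real.log_inv]
  rw [hlog]
  linarith

/-- a sum over the source of a map with fibres of cardinality `≤ e` is at most `e` times the
sum over the target. -/
theorem tsum_le_mul_tsum_of_fibre_le {α β : Type*} (ψ : α → β) (f : β → ℝ) (hf0 : ∀ b, 0 ≤ f b)
    (hf : Summable f) {e : ℕ}
    (hfib : ∀ b : β, ∀ t : Finset α, (∀ a ∈ t, ψ a = b) → t.card ≤ e) :
    ∑' a, f (ψ a) ≤ (e : ℝ) * ∑' b, f b := by
  classical
  refine Real.tsum_le_of_sum_le (fun a => hf0 _) (fun u => ?_)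
  rw [Finset.sum_comp f ψ]
  calc ∑ b ∈ u.image ψ, (Finset.card {a ∈ u | ψ a = b}) • f b
      ≤ ∑ b ∈ u.image ψ, (e : ℝ) * f b := by
        refine Finset.sum_le_sum fun b _ => ?_
        rw [nsmul_eq_mul]
        refine mul_le_mul_of_nonneg_right ?_ (hf0 b)
        have := hfib b {a ∈ u | ψ a = b} (fun a ha => (Finset.mem_filter.mp ha).2)
        exact_mod_cast this
    _ = (e : ℝ) * ∑ b ∈ u.image ψ, f b := by rw [Finset.mul_sum]
    _ ≤ (e : ℝ) * ∑' b, f b :=
        mul_le_mul_of_nonneg_left (hf.sum_le_tsum _ (fun b _ => hf0 b)) (Nat.cast_nonneg e)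

/-- lower half: if almost every prime-norm prime of `M` is attached to some `v ∈ V` of the same
norm, at most `e` of them to each `v`, then `log (1/(s-1)) - C ≤ e * ∑_{v ∈ V} N v ^ (-s)`
near `1⁺`. -/
theorem split_lower {e : ℕ} (V : Set (HeightOneSpectrum (𝓞 F)))
    (T₁ : Finset (HeightOneSpectrum (𝓞 M)))
    (ψ : {w : HeightOneSpectrum (𝓞 M) // (Ideal.absNorm w.asIdeal).Prime ∧ w ∉ T₁} → V)
    (hN : ∀ w, Ideal.absNorm (ψ w).1.asIdeal = Ideal.absNorm w.1.asIdeal)
    (hfib : ∀ v : V,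
      ∀ t : Finset {w : HeightOneSpectrum (𝓞 M) // (Ideal.absNorm w.asIdeal).Prime ∧ w ∉ T₁},
        (∀ w ∈ t, ψ w = v) → t.card ≤ e) :
    ∃ C : ℝ, ∀ᶠ s in 𝓝[>] (1 : ℝ),
      Real.log (1 / (s - 1)) - C ≤
        (e : ℝ) * ∑' v : V, (Ideal.absNorm v.1.asIdeal : ℝ) ^ (-s) := by
  classical
  obtain ⟨c, hc⟩ := log_zetaR_le M
  obtain ⟨cM, CM, hcM, hM⟩ := zetaR_pole M
  refine ⟨c + c1 M + T₁.card - Real.log cM, ?_⟩
  filter_upwards [hM, self_mem_nhdsWithin] with s hsM hs1
  have hs : (1 : ℝ) < s := hs1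
  have hs0 : 0 < s - 1 := by linarith
  set g : HeightOneSpectrum (𝓞 M) → ℝ := fun w => (Ideal.absNorm w.asIdeal : ℝ) ^ (-s) with hg
  set f : HeightOneSpectrum (𝓞 F) → ℝ := fun v => (Ideal.absNorm v.asIdeal : ℝ) ^ (-s) with hf
  have hg0 : ∀ w, 0 ≤ g w := fun w => rpow_neg_nonneg M w s
  have hf0 : ∀ v, 0 ≤ f v := fun v => rpow_neg_nonneg F v s
  have hsumM : Summable g := summable_prime_rpow M hs
  have hsumF : Summable f := summable_prime_rpow F hs
  set W : Set (HeightOneSpectrum (𝓞 M)) := {w | (Ideal.absNorm w.asIdeal).Prime ∧ w ∉ T₁} with hW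
  -- Step A: split the sum over all primes of `M`
  have hpt : ∀ w, g w ≤ W.indicator g w + (nonPrimeNorm M).indicator g w +
      (T₁ : Set (HeightOneSpectrum (𝓞 M))).indicator g w := by
    intro w
    have e1 := Set.indicator_nonneg (s := W) (f := g) (fun w _ => hg0 w) w
    have e2 := Set.indicator_nonneg (s := nonPrimeNorm M) (f := g) (fun w _ => hg0 w) w
    have e3 := Set.indicator_nonneg (s := (T₁ : Set (HeightOneSpectrum (𝓞 M)))) (f := g)
      (fun w _ => hg0 w) w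
    by_cases h2 : w ∈ T₁
    · have : w ∈ (T₁ : Set (HeightOneSpectrum (𝓞 M))) := h2
      rw [Set.indicator_of_mem this]; linarith
    · by_cases h3 : (Ideal.absNorm w.asIdeal).Prime
      · have : w ∈ W := ⟨h3, h2⟩
        rw [Set.indicator_of_mem this]; linarith
      · have : w ∈ nonPrimeNorm M := h3
        rw [Set.indicator_of_mem this]; linarith
  have hA : ∑' w, g w ≤ ∑' w : W, g w + ∑' w : nonPrimeNorm M, g w +
      ∑' w : (T₁ : Set (HeightOneSpectrum (𝓞 M))), g w := by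
    have h1 := hsumM.indicator W
    have h2 := hsumM.indicator (nonPrimeNorm M)
    have h3 := hsumM.indicator (T₁ : Set (HeightOneSpectrum (𝓞 M)))
    have := hsumM.tsum_le_tsum hpt ((h1.add h2).add h3)
    rw [(h1.add h2).tsum_add h3, h1.tsum_add h2] at this
    simpa only [tsum_subtype] using this
  have hT1 : ∑' w : (T₁ : Set (HeightOneSpectrum (𝓞 M))), g w ≤ T₁.card := by
    rw [Finset.tsum_subtype' T₁ g]
    calc ∑ w ∈ T₁, g w ≤ ∑ _w ∈ T₁, (1 : ℝ) :=
          Finset.sum_le_sum fun w _ => rpow_neg_le_one M w (by linarith)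
      _ = T₁.card := by simp
  have hNP : ∑' w : nonPrimeNorm M, g w ≤ c1 M := tsum_nonPrimeNorm_le M hs.le
  -- Step B: the prime-norm primes of `M` against `V`
  have hB : ∑' w : W, g w ≤ (e : ℝ) * ∑' v : V, f v := by
    have hcongr : ∀ w : W, g w = f (ψ w).1 := fun w => by
      simp only [hg, hf]
      rw [hN w]
    have h1 : ∑' w : W, g w = ∑' w : W, (fun v : V => f v.1) (ψ w) :=
      tsum_congr hcongr
    rw [h1]
    exact tsum_le_mul_tsum_of_fibre_le ψ (fun v : V => f v.1) (fun v => hf0 v.1)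
      (hsumF.subtype V) hfib
  -- Step C: the pole
  have hC1 : Real.log (zetaR M s) ≤ ∑' w, g w + c := hc s hs
  have hC2 : Real.log cM - Real.log (s - 1) ≤ Real.log (zetaR M s) := by
    rw [← Real.log_div hcM.ne' hs0.ne']
    exact Real.log_le_log (div_pos hcM hs0) hsM.1
  have hlog : Real.log (1 / (s - 1)) = - Real.log (s - 1) := by
    rw [one_div, Real.log_inv]
  rw [hlog]
  linarith

/-- **(D1)** two-sided density of split primes. -/
theorem split_density {e : ℕ} (V : Set (HeightOneSpectrum (𝓞 F)))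
    (up : ∃ φ : V × Fin e → HeightOneSpectrum (𝓞 M), Function.Injective φ ∧
      ∀ x, Ideal.absNorm (φ x).asIdeal = Ideal.absNorm x.1.1.asIdeal)
    (down : ∃ (T₁ : Finset (HeightOneSpectrum (𝓞 M)))
      (ψ : {w : HeightOneSpectrum (𝓞 M) // (Ideal.absNorm w.asIdeal).Prime ∧ w ∉ T₁} → V),
      (∀ w, Ideal.absNorm (ψ w).1.asIdeal = Ideal.absNorm w.1.asIdeal) ∧
      ∀ v : V,
        ∀ t : Finset {w : HeightOneSpectrum (𝓞 M) // (Ideal.absNorm w.asIdeal).Prime ∧ w ∉ T₁},
          (∀ w ∈ t, ψ w = v) → t.card ≤ e) :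
    ∃ C : ℝ, ∀ᶠ s in 𝓝[>] (1 : ℝ),
      |(e : ℝ) * ∑' v : V, (Ideal.absNorm v.1.asIdeal : ℝ) ^ (-s) - Real.log (1 / (s - 1))| ≤ C := by
  obtain ⟨φ, hφ, hN⟩ := up
  obtain ⟨T₁, ψ, hN', hfib⟩ := down
  obtain ⟨C₁, h₁⟩ := split_upper V φ hφ hN
  obtain ⟨C₂, h₂⟩ := split_lower V T₁ ψ hN' hfib
  refine ⟨max C₁ C₂, ?_⟩
  filter_upwards [h₁, h₂] with s hs₁ hs₂
  rw [abs_le]
  constructor
  · have := le_max_right C₁ C₂
    linarith
  · have := le_max_left C₁ C₂
    linarith

end split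

/-! ### (D2) Möbius -/

section moebius

open ArithmeticFunction

/-- `∑_{e ∣ n} μ(e) [e ∣ d] = [d = 1]` for `d ∣ n`, `n > 0`. -/
theorem sum_moebius_ite_dvd {n d : ℕ} (hn : 0 < n) (hd : d ∣ n) :
    ∑ e ∈ n.divisors, ((ArithmeticFunction.moebius e : ℤ) : ℝ) * (if e ∣ d then (1 : ℝ) else 0) =
      if d = 1 then 1 else 0 := by
  classical
  have hd0 : d ≠ 0 := fun h => by rw [h, zero_dvd_iff] at hd; omega
  have h1 : ∑ e ∈ n.divisors, ((ArithmeticFunction.moebius e : ℤ) : ℝ) *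
      (if e ∣ d then (1 : ℝ) else 0) = ∑ e ∈ d.divisors, ((ArithmeticFunction.moebius e : ℤ) : ℝ) := by
    have hsub : d.divisors ⊆ n.divisors := Nat.divisors_subset_of_dvd hn.ne' hd
    rw [← Finset.sum_subset hsub (f := fun e => ((ArithmeticFunction.moebius e : ℤ) : ℝ) *
      (if e ∣ d then (1 : ℝ) else 0))]
    · refine Finset.sum_congr rfl fun e he => ?_
      rw [if_pos (Nat.dvd_of_mem_divisors he), mul_one]
    · intro e _ he
      have : ¬ e ∣ d := fun h => he (Nat.mem_divisors.mpr ⟨h, hd0⟩)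
      rw [if_neg this, mul_zero]
  rw [h1]
  have h2 : (∑ e ∈ d.divisors, (ArithmeticFunction.moebius e : ℤ)) = if d = 1 then 1 else 0 := by
    have := congrArg (fun f : ArithmeticFunction ℤ => f d) ArithmeticFunction.moebius_mul_coe_zeta
    simp only [ArithmeticFunction.coe_mul_zeta_apply, ArithmeticFunction.one_apply] at this
    exact this
  have h3 : (∑ e ∈ d.divisors, ((ArithmeticFunction.moebius e : ℤ) : ℝ)) =
      ((∑ e ∈ d.divisors, (ArithmeticFunction.moebius e : ℤ) : ℤ) : ℝ) := by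
    push_cast; rfl
  rw [h3, h2]
  split_ifs <;> simp

/-- `∑_{e ∣ n} μ(e)/e = φ(n)/n`. -/
theorem sum_moebius_div {n : ℕ} (hn : 0 < n) :
    ∑ e ∈ n.divisors, ((ArithmeticFunction.moebius e : ℤ) : ℝ) / (e : ℝ) =
      (n.totient : ℝ) / (n : ℝ) := by
  have key := (ArithmeticFunction.sum_eq_iff_sum_mul_moebius_eq (R := ℝ)
    (f := fun m => (m.totient : ℝ)) (g := fun m => (m : ℝ))).mp
    (fun m _ => by
      have := Nat.sum_totient m
      exact_mod_cast this) n hn
  rw [Nat.sum_divisorsAntidiagonal (f := fun a b => ((ArithmeticFunction.moebius a : ℤ) : ℝ) * (b : ℝ))] at key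
  rw [← key, Finset.sum_div]
  refine Finset.sum_congr rfl fun e he => ?_
  have hen : e ∣ n := Nat.dvd_of_mem_divisors he
  have he0 : (e : ℝ) ≠ 0 := by
    have : e ≠ 0 := fun h => by rw [h, zero_dvd_iff] at hen; omega
    exact_mod_cast this
  have hn0 : (n : ℝ) ≠ 0 := by exact_mod_cast hn.ne'
  rw [Nat.cast_div hen he0]
  field_simp

theorem sum_moebius_div_pos {n : ℕ} (hn : 0 < n) :
    0 < ∑ e ∈ n.divisors, ((ArithmeticFunction.moebius e : ℤ) : ℝ) / (e : ℝ) := by
  rw [sum_moebius_div hn]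
  have h1 : (0 : ℝ) < n.totient := by exact_mod_cast Nat.totient_pos.mpr hn
  have h2 : (0 : ℝ) < n := by exact_mod_cast hn
  positivity

variable (F : Type*) [Field F] [NumberField F]

/-- **(D2)** Möbius: if `δ v ∣ n` on `P` and for every `e ∣ n` the primes `v ∈ P` with `e ∣ δ v`
carry the proportion `1/e` of the pole, then infinitely many `v ∈ P` have `δ v = 1`. -/
theorem infinite_delta_eq_one {n : ℕ} (hn : 0 < n) (P : Set (HeightOneSpectrum (𝓞 F)))
    (δ : HeightOneSpectrum (𝓞 F) → ℕ) (hδ : ∀ v ∈ P, δ v ∣ n)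
    (H : ∀ e ∈ n.divisors, ∃ C : ℝ, ∀ᶠ s in 𝓝[>] (1 : ℝ),
      |(e : ℝ) * ∑' v : {v | v ∈ P ∧ e ∣ δ v}, (Ideal.absNorm v.1.asIdeal : ℝ) ^ (-s) -
        Real.log (1 / (s - 1))| ≤ C) :
    {v | v ∈ P ∧ δ v = 1}.Infinite := by
  classical
  intro hfin
  choose! C hC using H
  have hall : ∀ᶠ s in 𝓝[>] (1 : ℝ), ∀ e ∈ n.divisors,
      |(e : ℝ) * ∑' v : {v | v ∈ P ∧ e ∣ δ v}, (Ideal.absNorm v.1.asIdeal : ℝ) ^ (-s) -
        Real.log (1 / (s - 1))| ≤ C e :=
    (Filter.eventually_all_finset n.divisors).mpr hC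
  set cn : ℝ := ∑ e ∈ n.divisors, ((ArithmeticFunction.moebius e : ℤ) : ℝ) / (e : ℝ) with hcn
  have hcnpos : 0 < cn := sum_moebius_div_pos hn
  set Ctot : ℝ := ∑ e ∈ n.divisors, |((ArithmeticFunction.moebius e : ℤ) : ℝ) / (e : ℝ)| * C e
    with hCtot
  set K : ℝ := (hfin.toFinset.card : ℝ) with hK
  have hbig : ∀ᶠ s in 𝓝[>] (1 : ℝ), (K + Ctot) / cn < Real.log (1 / (s - 1)) :=
    tendsto_log_one_div_sub_one.eventually_gt_atTop _
  obtain ⟨s, ⟨hs1, hs2⟩, hs3⟩ := ((hall.and hbig).and self_mem_nhdsWithin).exists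
  have hs : (1 : ℝ) < s := hs3
  set f : HeightOneSpectrum (𝓞 F) → ℝ := fun v => (Ideal.absNorm v.asIdeal : ℝ) ^ (-s) with hf
  have hf0 : ∀ v, 0 ≤ f v := fun v => rpow_neg_nonneg F v s
  have hsumF : Summable f := summable_prime_rpow F hs
  set L : ℝ := Real.log (1 / (s - 1)) with hL
  -- the finite set carries at most `K`
  have hle : ∑' v : {v | v ∈ P ∧ δ v = 1}, f v ≤ K := by
    rw [← Set.Finite.coe_toFinset hfin, Finset.tsum_subtype' hfin.toFinset f]
    calc ∑ v ∈ hfin.toFinset, f v ≤ ∑ _v ∈ hfin.toFinset, (1 : ℝ) :=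
          Finset.sum_le_sum fun v _ => rpow_neg_le_one F v (by linarith)
      _ = K := by simp [hK]
  -- Möbius decomposition
  have hdecomp : ∑' v : {v | v ∈ P ∧ δ v = 1}, f v =
      ∑ e ∈ n.divisors, ((ArithmeticFunction.moebius e : ℤ) : ℝ) *
        ∑' v : {v | v ∈ P ∧ e ∣ δ v}, f v := by
    have hpt : ∀ v, ({v | v ∈ P ∧ δ v = 1} : Set (HeightOneSpectrum (𝓞 F))).indicator f v =
        ∑ e ∈ n.divisors, ((ArithmeticFunction.moebius e : ℤ) : ℝ) *
          ({v | v ∈ P ∧ e ∣ δ v} : Set (HeightOneSpectrum (𝓞 F))).indicator f v := by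
      intro v
      by_cases hv : v ∈ P
      · have h1 : ∀ e : ℕ, ({v | v ∈ P ∧ e ∣ δ v} : Set (HeightOneSpectrum (𝓞 F))).indicator f v =
            (if e ∣ δ v then (1 : ℝ) else 0) * f v := by
          intro e
          by_cases he : e ∣ δ v
          · rw [Set.indicator_of_mem (show v ∈ {v | v ∈ P ∧ e ∣ δ v} from ⟨hv, he⟩), if_pos he,
              one_mul]
          · rw [Set.indicator_of_notMem (show v ∉ {v | v ∈ P ∧ e ∣ δ v} from fun h => he h.2),
              if_neg he, zero_mul]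
        simp_rw [h1, ← mul_assoc]
        rw [← Finset.sum_mul, sum_moebius_ite_dvd hn (hδ v hv)]
        by_cases h1' : δ v = 1
        · rw [Set.indicator_of_mem (show v ∈ {v | v ∈ P ∧ δ v = 1} from ⟨hv, h1'⟩), if_pos h1',
            one_mul]
        · rw [Set.indicator_of_notMem (show v ∉ {v | v ∈ P ∧ δ v = 1} from fun h => h1' h.2),
            if_neg h1', zero_mul]
      · rw [Set.indicator_of_notMem (show v ∉ {v | v ∈ P ∧ δ v = 1} from fun h => hv h.1)]
        symm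
        refine Finset.sum_eq_zero fun e _ => ?_
        rw [Set.indicator_of_notMem (show v ∉ {v | v ∈ P ∧ e ∣ δ v} from fun h => hv h.1),
          mul_zero]
    rw [tsum_subtype ({v | v ∈ P ∧ δ v = 1} : Set (HeightOneSpectrum (𝓞 F))) f]
    rw [tsum_congr hpt]
    rw [Summable.tsum_finsetSum (fun e _ => (hsumF.indicator _).mul_left _)]
    refine Finset.sum_congr rfl fun e _ => ?_
    rw [tsum_mul_left, tsum_subtype ({v | v ∈ P ∧ e ∣ δ v} : Set (HeightOneSpectrum (𝓞 F))) f]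
  -- lower bound
  have hlow : cn * L - Ctot ≤ ∑ e ∈ n.divisors, ((ArithmeticFunction.moebius e : ℤ) : ℝ) *
      ∑' v : {v | v ∈ P ∧ e ∣ δ v}, f v := by
    have hterm : ∀ e ∈ n.divisors,
        ((ArithmeticFunction.moebius e : ℤ) : ℝ) / (e : ℝ) * L -
          |((ArithmeticFunction.moebius e : ℤ) : ℝ) / (e : ℝ)| * C e ≤
        ((ArithmeticFunction.moebius e : ℤ) : ℝ) * ∑' v : {v | v ∈ P ∧ e ∣ δ v}, f v := by
      intro e he
      have he0 : (e : ℝ) ≠ 0 := by
        have : e ≠ 0 := (Nat.pos_of_mem_divisors he).ne'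
        exact_mod_cast this
      set G : ℝ := ∑' v : {v | v ∈ P ∧ e ∣ δ v}, f v with hG
      set x : ℝ := ((ArithmeticFunction.moebius e : ℤ) : ℝ) / (e : ℝ) with hx
      have hb : |(e : ℝ) * G - L| ≤ C e := hs1 e he
      have e1 : ((ArithmeticFunction.moebius e : ℤ) : ℝ) * G = x * L + x * ((e : ℝ) * G - L) := by
        rw [hx]; field_simp; ring
      have e2 : -(|x| * C e) ≤ x * ((e : ℝ) * G - L) := by
        have h1 : |x * ((e : ℝ) * G - L)| ≤ |x| * C e := by
          rw [abs_mul]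
          exact mul_le_mul_of_nonneg_left hb (abs_nonneg x)
        exact (abs_le.mp h1).1
      rw [e1]
      linarith
    have := Finset.sum_le_sum hterm
    rw [Finset.sum_sub_distrib, ← Finset.sum_mul] at this
    exact this
  rw [div_lt_iff₀ hcnpos] at hs2
  rw [hdecomp] at hle
  nlinarith

end moebius

end Fermat.Agent.S29.FDDens
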