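/-
S29 block [FD] (owner helper84), algebraic half, leaf (G): the detector.

For a finite Galois-stable `S ⊂ ℚ̄`, `K = ℚ(S)` and `τ` with `τ ^ n = 1` on `S`, every divisor
`d ∣ n` gets a finite set `D d` of algebraic integers of `E_d = K^{τ^d}` such that
* an automorphism fixing `D d` acts on `K` as a power of `τ ^ d`;
* for all large primes `ℓ` and every prime `Q ∣ ℓ` of `ℤ̄`, two conjugates of an element of `D d`
  which are congruent modulo `Q` are equal.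
(`FL.galois_step` for `τ ^ d` with `r = n / d`, and `FL.exists_bound_eq_of_sub_mem_nonunits`.)
-/
import Mathlib
import Fermat.Agent.S29.FDDefs

set_option autoImplicit false

namespace Fermat.Agent.S29.FD

open NumberField IsDedekindDomain Polynomial
open Fermat.Agent.S41.FL
open Fermat.Agent.S54

attribute [local instance] isAlgebraic_int_algebraicClosure_rat

/-- the detector for one divisor `d ∣ n`. -/
theorem exists_detector_aux (S : Finset Qb) (hS : ∀ g : GQ, ∀ x ∈ S, g x ∈ S) (τ : GQ) (n : ℕ)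
    (hn : 0 < n) (hτn : ∀ x ∈ S, (τ ^ n) x = x) (d : ℕ) (hd : d ∣ n) :
    ∃ (B : ℕ) (C : Finset Qb),
      (∀ c ∈ C, c ∈ E S τ d ∧ IsIntegral ℤ c) ∧
      (∀ g : GQ, (∀ c ∈ C, g c = c) → ∃ t : ℕ, ∀ x ∈ KS S, g x = (τ ^ (d * t)) x) ∧
      (∀ ℓ : ℕ, ℓ.Prime → B < ℓ → ∀ Q : Ideal Zb, Q.IsPrime → (ℓ : Zb) ∈ Q →
        ∀ g₁ g₂ : GQ, ∀ c ∈ C, ∀ y₁ y₂ : Zb, (y₁ : Qb) = g₁ c → (y₂ : Qb) = g₂ c →
          y₁ - y₂ ∈ Q → g₁ c = g₂ c) := by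
  classical
  have hd0 : 0 < d := Nat.pos_of_dvd_of_pos hd hn
  have hr : 0 < n / d := Nat.div_pos (Nat.le_of_dvd hn hd) hd0
  have hτr : ∀ x ∈ S, ((τ ^ d) ^ (n / d)) x = x := by
    intro x hx
    rw [← pow_mul, Nat.mul_div_cancel' hd]
    exact hτn x hx
  obtain ⟨x₁, C, hC, hx₁, hroot⟩ := galois_step S hS (τ ^ d) (n / d) hr hτr
  obtain ⟨B, hB⟩ := exists_bound_eq_of_sub_mem_nonunits (conjSet C)
  refine ⟨B, C, ?_, ?_, ?_⟩
  · intro c hc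
    obtain ⟨hcK, hcτ, hcint⟩ := hC c hc
    exact ⟨mem_E.mpr ⟨hcK, hcτ⟩, hcint⟩
  · intro g hg
    obtain ⟨i, -, hi⟩ := hroot g hg
    refine ⟨i, fun x hx => ?_⟩
    rw [hx₁ g ((τ ^ d) ^ i) hi x hx, ← pow_mul]
  · intro ℓ hℓ hBℓ Q hQ hℓQ g₁ g₂ c hc y₁ y₂ hy₁ hy₂ hsub
    have hA : (ℓ : Qb) ∈ (valSub Q).nonunits :=
      Fermat.Agent.S41.FrobA.natCast_mem_nonunits_valSub ℓ Q hℓQ
    have hnon : g₁ c - g₂ c ∈ (valSub Q).nonunits :=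
      mem_nonunits_valSub Q (y₁ - y₂) 1 hsub ((Ideal.ne_top_iff_one Q).mp hQ.ne_top) (by
        rw [OneMemClass.coe_one, one_mul, ← hy₁, ← hy₂]
        rfl)
    have hcS : c ∈ conjSet C := subset_conjSet _ hc
    exact hB ℓ hℓ hBℓ (valSub Q) hA (g₁ c) (conjSet_stable _ g₁ hcS) (g₂ c)
      (conjSet_stable _ g₂ hcS) hnon

/-- **(G) detector.** -/
theorem exists_detector (S : Finset Qb) (hS : ∀ g : GQ, ∀ x ∈ S, g x ∈ S) (τ : GQ) (n : ℕ)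
    (hn : 0 < n) (hτn : ∀ x ∈ S, (τ ^ n) x = x) :
    ∃ (B₀ : ℕ) (D : ℕ → Finset Qb), ∀ d, d ∣ n →
      (∀ c ∈ D d, c ∈ E S τ d ∧ IsIntegral ℤ c) ∧
      (∀ g : GQ, (∀ c ∈ D d, g c = c) → ∃ t : ℕ, ∀ x ∈ KS S, g x = (τ ^ (d * t)) x) ∧
      (∀ ℓ : ℕ, ℓ.Prime → B₀ < ℓ → ∀ Q : Ideal Zb, Q.IsPrime → (ℓ : Zb) ∈ Q →
        ∀ g₁ g₂ : GQ, ∀ c ∈ D d, ∀ y₁ y₂ : Zb, (y₁ : Qb) = g₁ c → (y₂ : Qb) = g₂ c →
          y₁ - y₂ ∈ Q → g₁ c = g₂ c) := by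
  classical
  choose B C h1 h2 h3 using exists_detector_aux S hS τ n hn hτn
  refine ⟨n.divisors.sup fun d => if h : d ∣ n then B d h else 0,
    fun d => if h : d ∣ n then C d h else ∅, fun d hd => ?_⟩
  have hle : B d hd ≤ n.divisors.sup fun d => if h : d ∣ n then B d h else 0 := by
    have := Finset.le_sup (f := fun d => if h : d ∣ n then B d h else 0)
      (Nat.mem_divisors.mpr ⟨hd, hn.ne'⟩)
    simpa only [dif_pos hd] using this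
  simp only [dif_pos hd]
  exact ⟨h1 d hd, h2 d hd, fun ℓ hℓ hBℓ => h3 d hd ℓ hℓ (lt_of_le_of_lt hle hBℓ)⟩

end Fermat.Agent.S29.FD
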