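/-
S29 block [FD] (owner helper84), leaf (N) (helper118): NORM lemmas for the primes
`Q.comap φ` of `𝓞 E'` cut out by a prime `Q` of `ℤ̄` along a ring hom `φ : 𝓞 E' →+* ℤ̄`
(in use: `φ = conjHom E' g`).

* `absNorm_comap_eq_of_pow_sub_mem` : if `ℓ ∈ Q` and `φ b ^ ℓ ≡ φ b` mod `Q` for all `b`,
  then `Q.comap φ` has absolute norm `ℓ`;
* `pow_sub_mem_of_absNorm_comap_eq` : conversely, norm `ℓ` gives `φ b ^ ℓ ≡ φ b` mod `Q`;
* `exists_prime_comap_iota_eq` : lying over for `iota E' : 𝓞 E' →+* ℤ̄`.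
-/
import Mathlib
import Fermat.Agent.S29.FDDefs

set_option autoImplicit false

namespace Fermat.Agent.S29.FD

open NumberField IsDedekindDomain Polynomial
open Fermat.Agent.S41.FL

/-- If `ℓ ∈ Q` and every `φ b` is fixed by `x ↦ x ^ ℓ` modulo `Q`, then the prime `Q.comap φ`
of `𝓞 E'` has absolute norm `ℓ`. -/
theorem absNorm_comap_eq_of_pow_sub_mem (E' : IntermediateField ℚ Qb) [NumberField E']
    (φ : 𝓞 E' →+* Zb) (ℓ : ℕ) (hℓ : ℓ.Prime) (Q : Ideal Zb) [Q.IsPrime]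
    (hℓQ : (ℓ : Zb) ∈ Q) (h : ∀ b : 𝓞 E', φ b ^ ℓ - φ b ∈ Q) :
    Ideal.absNorm (Q.comap φ) = ℓ := by
  classical
  have hP : (Q.comap φ).IsPrime := Ideal.comap_isPrime φ Q
  -- residues are integers `< ℓ`
  have hres : ∀ b : 𝓞 E', ∃ n : ℕ, n < ℓ ∧ b - (n : 𝓞 E') ∈ Q.comap φ := by
    intro b
    obtain ⟨n, hn, hmem⟩ := exists_nat_sub_mem ℓ hℓ Q hℓQ (φ b) (h b)
    refine ⟨n, hn, ?_⟩
    rw [Ideal.mem_comap, map_sub, map_natCast]
    exact hmem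
  have hsurj : Function.Surjective
      (fun n : Fin ℓ => Ideal.Quotient.mk (Q.comap φ) ((n : ℕ) : 𝓞 E')) := by
    intro x
    obtain ⟨b, rfl⟩ := Ideal.Quotient.mk_surjective x
    obtain ⟨n, hn, hmem⟩ := hres b
    exact ⟨⟨n, hn⟩, (Ideal.Quotient.eq.mpr hmem).symm⟩
  have hfin : Finite (𝓞 E' ⧸ Q.comap φ) := Finite.of_surjective _ hsurj
  have hle : Nat.card (𝓞 E' ⧸ Q.comap φ) ≤ ℓ := by
    have h1 := Nat.card_le_card_of_surjective _ hsurj
    simpa using h1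
  -- the quotient is a nontrivial ring of characteristic `ℓ`
  have hge : ℓ ≤ Nat.card (𝓞 E' ⧸ Q.comap φ) := by
    have : Fact ℓ.Prime := ⟨hℓ⟩
    have h0 : ((ℓ : ℕ) : 𝓞 E' ⧸ Q.comap φ) = 0 := by
      rw [← map_natCast (Ideal.Quotient.mk (Q.comap φ))]
      apply Ideal.Quotient.eq_zero_iff_mem.mpr
      rw [Ideal.mem_comap, map_natCast]
      exact hℓQ
    have : CharP (𝓞 E' ⧸ Q.comap φ) ℓ := (CharP.charP_iff_prime_eq_zero hℓ).mpr h0
    have hinj : Function.Injective (ZMod.castHom (dvd_refl ℓ) (𝓞 E' ⧸ Q.comap φ)) :=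
      RingHom.injective _
    have h1 := Nat.card_le_card_of_injective _ hinj
    rwa [Nat.card_zmod] at h1
  rw [Ideal.absNorm_apply, Submodule.cardQuot_apply]
  exact le_antisymm hle hge

/-- If the prime `Q.comap φ` of `𝓞 E'` has absolute norm `ℓ`, then every `φ b` is fixed by
`x ↦ x ^ ℓ` modulo `Q`. -/
theorem pow_sub_mem_of_absNorm_comap_eq (E' : IntermediateField ℚ Qb) [NumberField E']
    (φ : 𝓞 E' →+* Zb) (ℓ : ℕ) (hℓ : ℓ.Prime) (Q : Ideal Zb) [Q.IsPrime]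
    (h : Ideal.absNorm (Q.comap φ) = ℓ) (b : 𝓞 E') : φ b ^ ℓ - φ b ∈ Q := by
  have hP : (Q.comap φ).IsPrime := Ideal.comap_isPrime φ Q
  have hbot : Q.comap φ ≠ ⊥ := by
    intro hb
    rw [hb, Ideal.absNorm_bot] at h
    exact hℓ.ne_zero h.symm
  have h1 := pow_absNorm_sub_mem (⟨Q.comap φ, hP, hbot⟩ : HeightOneSpectrum (𝓞 E')) b
  have h2 : b ^ ℓ - b ∈ Q.comap φ := by
    rw [← h]
    exact h1
  rw [Ideal.mem_comap, map_sub, map_pow] at h2
  exact h2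

/-- Lying over for `iota E' : 𝓞 E' →+* ℤ̄`. -/
theorem exists_prime_comap_iota_eq (E' : IntermediateField ℚ Qb) [NumberField E']
    (w : Ideal (𝓞 E')) [w.IsPrime] : ∃ Q : Ideal Zb, Q.IsPrime ∧ Q.comap (iota E') = w := by
  let _ : Algebra (𝓞 E') Zb := (iota E').toAlgebra
  have hint : Algebra.IsIntegral (𝓞 E') Zb :=
    ⟨fun z => (Algebra.IsIntegral.isIntegral (R := ℤ) z).tower_top⟩
  obtain ⟨Q, hQprime, hQw⟩ := Ideal.exists_ideal_over_prime_of_isIntegral_of_isDomain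
    (S := Zb) w (by
      show RingHom.ker (iota E') ≤ w
      rw [(RingHom.injective_iff_ker_eq_bot _).mp (iota_injective E')]
      exact bot_le)
  exact ⟨Q, hQprime, hQw⟩

end Fermat.Agent.S29.FD
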