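/-
S29 route, block [FD]: the block deliverable `fdStatement : FDStatement` of `S29/Defs.lean`
(helper5), from the wrapper `FDTop.fdStatement_of_pow` and the landed route-B theorem
`FDB.exists_frobenius_pow'` (helper62).
-/
import Mathlib
import Fermat.Agent.S29.FDTop
import Fermat.Agent.S29.FDB

set_option autoImplicit false

namespace Fermat.Agent.S29.FDStmt

open Fermat.Agent.S29

/-- [FD] in the `S41/FL` shape, general order (route B). -/
theorem powStatement : FDTop.PowStatement :=
  fun S hS τ B => FDB.exists_frobenius_pow' S hS τ B

/-- **[FD], block deliverable**: every element of a finite level is a power of a Frobenius element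
at a prime outside any given finite set. -/
theorem fdStatement : FDStatement :=
  FDTop.fdStatement_of_pow powStatement

end Fermat.Agent.S29.FDStmt
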