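/-
S29 block [FD] (owner helper84), leaf (T) (helper54): TRANSITIVITY of `⟨τ⟩` on the primes of
`E_d` (the fixed field of `τ ^ d` in `ℚ(S)`) over a prime of `F = E_1`.

If two primes `Q`, `Q'` of `ℤ̄` (over the rational prime `ℓ`) have the same trace on `𝓞 F`, then the
trace of `Q'` on `𝓞 E_d` is one of the `d` conjugates `Q.comap (b ↦ τ^k b)`, `k < d`, of the trace
of `Q`.  Proof: prime avoidance and the norm `∏_{k<d} τ^k b ∈ F`.
-/
import Mathlib
import Fermat.Agent.S29.FDDefs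

set_option autoImplicit false

namespace Fermat.Agent.S29.FD

open NumberField IsDedekindDomain Polynomial
open Fermat.Agent.S41.FL

/-- the conjugates `τ^k b`, `k < d`, of an element fixed by `τ^d` are permuted by `τ`: their
product is fixed by `τ`. -/
theorem map_prod_range_pow (τ : GQ) (d : ℕ) (x : Qb) (hx : (τ ^ d) x = x) :
    τ (∏ k ∈ Finset.range d, (τ ^ k) x) = ∏ k ∈ Finset.range d, (τ ^ k) x := by
  rw [map_prod]
  have h1 : ∀ k ∈ Finset.range d, τ ((τ ^ k) x) = (τ ^ (k + 1)) x := by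
    intro k _
    rw [pow_succ', AlgEquiv.mul_apply]
  rw [Finset.prod_congr rfl h1]
  by_cases hx0 : x = 0
  · subst hx0
    simp
  · have e1 := Finset.prod_range_succ' (fun k => (τ ^ k) x) d
    have e2 := Finset.prod_range_succ (fun k => (τ ^ k) x) d
    rw [e2] at e1
    simp only [pow_zero, AlgEquiv.one_apply, hx] at e1
    exact (mul_right_cancel₀ hx0 e1).symm

/-- **(T)**: transitivity of `⟨τ⟩` on the primes of `E_d` over a prime of `F = E_1`. -/
theorem exists_comap_conjHom_eq (S : Finset Qb) (hS : ∀ g : GQ, ∀ x ∈ S, g x ∈ S) (τ : GQ)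
    (d : ℕ) (hd : 0 < d) (ℓ : ℕ) (hℓ : ℓ.Prime) (Q Q' : Ideal Zb) [Q.IsPrime] [Q'.IsPrime]
    (hℓQ : (ℓ : Zb) ∈ Q)
    (h : Q.comap (iota (E S τ 1)) = Q'.comap (iota (E S τ 1))) :
    ∃ k < d, Q'.comap (iota (E S τ d)) = Q.comap (conjHom (E S τ d) (τ ^ k)) := by
  classical
  -- `ℓ ∈ Q'`
  have hℓQ' : (ℓ : Zb) ∈ Q' := by
    have h1 : (ℓ : 𝓞 (E S τ 1)) ∈ Q.comap (iota (E S τ 1)) := by
      rw [Ideal.mem_comap, map_natCast]; exact hℓQ
    rw [h, Ideal.mem_comap, map_natCast] at h1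
    exact h1
  -- the prime `w'` of `𝓞 E_d` is maximal
  have hw'prime : (Q'.comap (iota (E S τ d))).IsPrime := Ideal.comap_isPrime _ _
  have hw'ne : Q'.comap (iota (E S τ d)) ≠ ⊥ := by
    intro hbot
    have h1 : (ℓ : 𝓞 (E S τ d)) ∈ Q'.comap (iota (E S τ d)) := by
      rw [Ideal.mem_comap, map_natCast]; exact hℓQ'
    rw [hbot, Ideal.mem_bot] at h1
    have h2 : ((ℓ : ℕ) : 𝓞 (E S τ d)) ≠ 0 := Nat.cast_ne_zero.mpr hℓ.ne_zero
    exact h2 h1
  have hw'max : (Q'.comap (iota (E S τ d))).IsMaximal := hw'prime.isMaximal hw'ne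
  -- the conjugate primes
  have hwk : ∀ k : ℕ, (Q.comap (conjHom (E S τ d) (τ ^ k))).IsPrime :=
    fun k => Ideal.comap_isPrime _ _
  -- it suffices to find `k < d` with `w' ≤ w_k`
  suffices hle : ∃ k ∈ Finset.range d,
      Q'.comap (iota (E S τ d)) ≤ Q.comap (conjHom (E S τ d) (τ ^ k)) by
    obtain ⟨k, hk, hkle⟩ := hle
    exact ⟨k, Finset.mem_range.mp hk, hw'max.eq_of_le (hwk k).ne_top hkle⟩
  by_contra hno
  -- prime avoidance
  have hnot : ¬ ((Q'.comap (iota (E S τ d)) : Set (𝓞 (E S τ d))) ⊆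
      ⋃ k ∈ ((Finset.range d : Finset ℕ) : Set ℕ),
        (Q.comap (conjHom (E S τ d) (τ ^ k)) : Set (𝓞 (E S τ d)))) := by
    intro hsub
    exact hno ((Ideal.subset_union_prime (s := Finset.range d)
      (f := fun k => Q.comap (conjHom (E S τ d) (τ ^ k))) 0 0
      (fun k _ _ _ => hwk k)).mp hsub)
  rw [Set.not_subset] at hnot
  obtain ⟨b, hbw', hbnot⟩ := hnot
  have hbk : ∀ k ∈ Finset.range d, conjHom (E S τ d) (τ ^ k) b ∉ Q := by
    intro k hk hmem
    apply hbnot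
    simp only [Set.mem_iUnion, SetLike.mem_coe, exists_prop]
    exact ⟨k, hk, hmem⟩
  -- the norm
  set β : Zb := ∏ k ∈ Finset.range d, conjHom (E S τ d) (τ ^ k) b with hβ
  have hβQ' : β ∈ Q' := by
    have h0 : (0 : ℕ) ∈ Finset.range d := Finset.mem_range.mpr hd
    have h1 : conjHom (E S τ d) (τ ^ 0) b ∈ Q' := by
      rw [pow_zero, conjHom_one]
      exact hbw'
    exact Ideal.mem_of_dvd _ (Finset.dvd_prod_of_mem _ h0) h1
  have hbE : ((b : E S τ d) : Qb) ∈ E S τ d := (b : E S τ d).2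
  have hbKS : ((b : E S τ d) : Qb) ∈ KS S := (mem_E.mp hbE).1
  have hbfix : (τ ^ d) ((b : E S τ d) : Qb) = ((b : E S τ d) : Qb) := (mem_E.mp hbE).2
  have hβcoe : (β : Qb) = ∏ k ∈ Finset.range d, (τ ^ k) ((b : E S τ d) : Qb) := by
    rw [hβ]
    have := map_prod (algebraMap Zb Qb) (fun k => conjHom (E S τ d) (τ ^ k) b) (Finset.range d)
    exact this
  have hβF : (β : Qb) ∈ E S τ 1 := by
    rw [mem_E, hβcoe]
    refine ⟨?_, ?_⟩
    · refine prod_mem fun k _ => ?_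
      exact map_mem_adjoin (S : Set Qb) (fun g x hx => hS g x hx) (τ ^ k) _ hbKS
    · rw [pow_one]
      exact map_prod_range_pow τ d _ hbfix
  obtain ⟨β', hβ'⟩ := exists_iota_eq (E S τ 1) β hβF
  have hβ'Q' : β' ∈ Q'.comap (iota (E S τ 1)) := by
    rw [Ideal.mem_comap, hβ']; exact hβQ'
  rw [← h, Ideal.mem_comap, hβ'] at hβ'Q'
  obtain ⟨k, hk, hkQ⟩ := (Ideal.IsPrime.prod_mem_iff (p := Q)).mp hβ'Q'
  exact hbk k hk hkQ

end Fermat.Agent.S29.FD
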