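/-
S29 block [K], row [R2Model] support (helper79; asked for by helper15): a multiplicative order
function on the nonzero elements of a domain extends to an additive `ℤ`-valued function on the
nonzero elements of its fraction field.

* `exists_fracOrd'` : the extension `ν`, with `ν (a / b) = ord a - ord b`.
* `exists_fracOrd`  : the same, keeping only multiplicativity and the values on the domain.
-/
import Mathlib

set_option autoImplicit false

namespace Fermat.Agent.S29.FracOrd

variable {O F : Type*} [CommRing O] [IsDomain O] [Field F] [Algebra O F] [IsFractionRing O F]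

/-- Cross-multiplication: two fractions with nonzero numerators and denominators that are equal
have the same `ord`-difference. -/
theorem ord_add_eq_of_div_eq (ord : O → ℕ)
    (hmul : ∀ a b : O, a ≠ 0 → b ≠ 0 → ord (a * b) = ord a + ord b)
    {a b a' b' : O} (ha : a ≠ 0) (hb : b ≠ 0) (ha' : a' ≠ 0) (hb' : b' ≠ 0)
    (h : algebraMap O F a / algebraMap O F b = algebraMap O F a' / algebraMap O F b') :
    (ord a : ℤ) - ord b = (ord a' : ℤ) - ord b' := by
  have hinj : Function.Injective (algebraMap O F) := IsFractionRing.injective O F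
  have hb0 : algebraMap O F b ≠ 0 := fun h0 => hb (hinj (h0.trans (map_zero _).symm))
  have hb0' : algebraMap O F b' ≠ 0 := fun h0 => hb' (hinj (h0.trans (map_zero _).symm))
  have h1 : a * b' = a' * b := by
    apply hinj
    rw [map_mul, map_mul]
    field_simp at h
    rw [h]
    ring
  have h2 : ord a + ord b' = ord a' + ord b := by
    rw [← hmul a b' ha hb', ← hmul a' b ha' hb, h1]
  omega

/-- **Extension of a multiplicative order to the fraction field**, with the value on every
fraction. -/
theorem exists_fracOrd' (ord : O → ℕ)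
    (hmul : ∀ a b : O, a ≠ 0 → b ≠ 0 → ord (a * b) = ord a + ord b) :
    ∃ ν : F → ℤ, (∀ x y : F, x ≠ 0 → y ≠ 0 → ν (x * y) = ν x + ν y) ∧
      (∀ a : O, a ≠ 0 → ν (algebraMap O F a) = (ord a : ℤ)) ∧
      ∀ a b : O, a ≠ 0 → b ≠ 0 →
        ν (algebraMap O F a / algebraMap O F b) = (ord a : ℤ) - ord b := by
  classical
  have hinj : Function.Injective (algebraMap O F) := IsFractionRing.injective O F
  have hne : ∀ {b : O}, b ≠ 0 → algebraMap O F b ≠ 0 := fun hb h0 =>
    hb (hinj (h0.trans (map_zero _).symm))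
  have hsurj : ∀ x : F, ∃ ab : O × O, ab.2 ≠ 0 ∧
      algebraMap O F ab.1 / algebraMap O F ab.2 = x := by
    intro x
    obtain ⟨a, b, hb, hx⟩ := IsFractionRing.div_surjective (A := O) x
    exact ⟨(a, b), nonZeroDivisors.ne_zero hb, hx⟩
  choose r hr2 hr using hsurj
  have hr1 : ∀ x : F, x ≠ 0 → (r x).1 ≠ 0 := by
    intro x hx h0
    apply hx
    rw [← hr x, h0, map_zero, zero_div]
  let ν : F → ℤ := fun x => (ord (r x).1 : ℤ) - ord (r x).2
  have hν : ∀ a b : O, a ≠ 0 → b ≠ 0 →
      ν (algebraMap O F a / algebraMap O F b) = (ord a : ℤ) - ord b := by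
    intro a b ha hb
    have hx : algebraMap O F a / algebraMap O F b ≠ 0 := div_ne_zero (hne ha) (hne hb)
    exact ord_add_eq_of_div_eq ord hmul (hr1 _ hx) (hr2 _) ha hb (hr _)
  have hone : ord (1 : O) = 0 := by
    have h := hmul 1 1 one_ne_zero one_ne_zero
    rw [mul_one] at h
    omega
  refine ⟨ν, fun x y hx hy => ?_, fun a ha => ?_, hν⟩
  · have hx1 := hr1 x hx
    have hy1 := hr1 y hy
    have hx2 := hr2 x
    have hy2 := hr2 y
    have e : x * y = algebraMap O F ((r x).1 * (r y).1) / algebraMap O F ((r x).2 * (r y).2) := by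
      conv_lhs => rw [← hr x, ← hr y]
      rw [map_mul, map_mul, div_mul_div_comm]
    have h1 : ν (x * y) = (ord ((r x).1 * (r y).1) : ℤ) - ord ((r x).2 * (r y).2) := by
      rw [e]
      exact hν _ _ (mul_ne_zero hx1 hy1) (mul_ne_zero hx2 hy2)
    rw [h1, hmul _ _ hx1 hy1, hmul _ _ hx2 hy2]
    show _ = ((ord (r x).1 : ℤ) - ord (r x).2) + ((ord (r y).1 : ℤ) - ord (r y).2)
    push_cast
    ring
  · have h := hν a 1 ha one_ne_zero
    rw [map_one, div_one, hone] at h
    rw [h]
    simp

/-- **Extension of a multiplicative order to the fraction field.** -/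
theorem exists_fracOrd (ord : O → ℕ)
    (hmul : ∀ a b : O, a ≠ 0 → b ≠ 0 → ord (a * b) = ord a + ord b) :
    ∃ ν : F → ℤ, (∀ x y : F, x ≠ 0 → y ≠ 0 → ν (x * y) = ν x + ν y) ∧
      ∀ a : O, a ≠ 0 → ν (algebraMap O F a) = (ord a : ℤ) := by
  obtain ⟨ν, h1, h2, -⟩ := exists_fracOrd' (F := F) ord hmul
  exact ⟨ν, h1, h2⟩

end Fermat.Agent.S29.FracOrd
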