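/-
S29 / S42, block [K], leaf [KPInv], route D, part 1 (owner: helper28).

An elementary "Newton polygon" lemma for polynomials over a commutative ring `R` with a
valuation-like function `v : R → ℕ∞` (`IsVal v`: `v 0 = ⊤`, `v 1 = 0`, `v (x y) = v x + v y`,
`min (v x) (v y) ≤ v (x + y)`, `v (-x) = v x`).

For `A : R[X]` and `a : ℕ` put `wt v a A k = v (A.coeff k) + k * a` (the order of the `k`-th term
of `A (r)` when `v r = a`).

* `exists_two_min_of_root` (easy direction): if a monic `A` has a root `r` with `v r = a`, then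
  the minimum of the weights is attained at two different indices.
* `exists_eq_of_two_min` (hard direction, for an explicit product): if the minimum of the weights
  of `∏ i ∈ s, (X - C (Y i))` is attained at two different indices, then `v (Y i) = a` for some
  `i ∈ s`.
-/
import Mathlib

set_option autoImplicit false

namespace Fermat.Agent.S29.GaussNewton

open Polynomial

variable {R : Type*} [CommRing R]

/-- A valuation-like function with values in `ℕ∞`. -/
structure IsVal (v : R → ℕ∞) : Prop where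
  map_zero : v 0 = ⊤
  map_one : v 1 = 0
  map_mul : ∀ x y, v (x * y) = v x + v y
  map_add : ∀ x y, min (v x) (v y) ≤ v (x + y)
  map_neg : ∀ x, v (-x) = v x

namespace IsVal

variable {v : R → ℕ∞} (hv : IsVal v)
include hv

theorem map_sub (x y : R) : min (v x) (v y) ≤ v (x - y) := by
  have h := hv.map_add x (-y)
  rwa [hv.map_neg, ← sub_eq_add_neg] at h

theorem map_add_eq_of_lt {x y : R} (h : v x < v y) : v (x + y) = v x := by
  refine le_antisymm ?_ ?_
  · have h1 := hv.map_sub (x + y) y
    rw [add_sub_cancel_right] at h1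
    rcases min_le_iff.mp h1 with h2 | h2
    · exact h2
    · exact absurd (lt_of_lt_of_le h h2) (lt_irrefl _)
  · have h1 := hv.map_add x y
    rwa [min_eq_left h.le] at h1

theorem map_sub_eq_left {x y : R} (h : v x < v y) : v (x - y) = v x := by
  rw [sub_eq_add_neg]
  exact hv.map_add_eq_of_lt (by rwa [hv.map_neg])

theorem map_sub_eq_right {x y : R} (h : v y < v x) : v (x - y) = v y := by
  rw [← neg_sub, hv.map_neg]
  exact hv.map_sub_eq_left h

theorem map_mul_pow (x r : R) (n : ℕ) : v (x * r ^ n) = v x + n * v r := by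
  induction n with
  | zero => simp
  | succ n ih =>
    rw [pow_succ, ← mul_assoc, hv.map_mul, ih, Nat.cast_succ, add_mul, one_mul, add_assoc]

theorem lt_sum {ι : Type*} (s : Finset ι) (t : ι → R) {c : ℕ∞} (hc : c < ⊤)
    (h : ∀ n ∈ s, c < v (t n)) : c < v (∑ n ∈ s, t n) := by
  classical
  induction s using Finset.induction_on with
  | empty => simpa [hv.map_zero] using hc
  | insert i s hi ih =>
    rw [Finset.sum_insert hi]
    refine lt_of_lt_of_le ?_ (hv.map_add _ _)
    exact lt_min (h i (Finset.mem_insert_self i s))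
      (ih fun n hn => h n (Finset.mem_insert_of_mem hn))

end IsVal

/-- The weight of the `k`-th term of `A` at slope `a`. -/
noncomputable def wt (v : R → ℕ∞) (a : ℕ) (A : R[X]) (k : ℕ) : ℕ∞ := v (A.coeff k) + k * a

/-- "The minimum of the weights is attained at two different indices". -/
def TwoMin (v : R → ℕ∞) (a : ℕ) (A : R[X]) : Prop :=
  ∃ k l : ℕ, k ≠ l ∧ (∀ n, wt v a A k ≤ wt v a A n) ∧ wt v a A l = wt v a A k

/-- `TwoMin` only depends on the weights. -/
theorem TwoMin.congr {R' : Type*} [CommRing R'] {v : R → ℕ∞} {v' : R' → ℕ∞} {a : ℕ} {A : R[X]}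
    {A' : R'[X]} (h : ∀ k, wt v' a A' k = wt v a A k) (hA : TwoMin v a A) : TwoMin v' a A' := by
  obtain ⟨k, l, hkl, hmin, heq⟩ := hA
  exact ⟨k, l, hkl, fun n => by rw [h, h]; exact hmin n, by rw [h, h]; exact heq⟩

/-! ### The easy direction -/

theorem exists_two_min_of_root {v : R → ℕ∞} (hv : IsVal v) {A : R[X]} {r : R} {a : ℕ}
    (hA : A.Monic) (hr : A.eval r = 0) (hva : v r = a) : TwoMin v a A := by
  classical
  set s := Finset.range (A.natDegree + 1) with hs
  have hne : s.Nonempty := ⟨0, by simp [hs]⟩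
  obtain ⟨k, hks, hkmin⟩ := Finset.exists_min_image s (wt v a A) hne
  have hout : ∀ n, n ∉ s → wt v a A n = ⊤ := by
    intro n hn
    have hn' : A.natDegree < n := by
      simp only [hs, Finset.mem_range, not_lt] at hn
      omega
    simp [wt, Polynomial.coeff_eq_zero_of_natDegree_lt hn', hv.map_zero]
  have hglob : ∀ n, wt v a A k ≤ wt v a A n := by
    intro n
    by_cases hn : n ∈ s
    · exact hkmin n hn
    · rw [hout n hn]; exact le_top
  have hfin : wt v a A k < ⊤ := by
    refine lt_of_le_of_lt (hglob A.natDegree) ?_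
    have h1 : A.coeff A.natDegree = 1 := hA.coeff_natDegree
    rw [wt, h1, hv.map_one, zero_add, ← Nat.cast_mul]
    exact ENat.natCast_lt_top _
  by_contra hcon
  have huniq : ∀ n ∈ s, n ≠ k → wt v a A k < wt v a A n := by
    intro n _ hnk
    refine lt_of_le_of_ne (hglob n) fun heq => hcon ⟨k, n, fun h => hnk h.symm, hglob, heq.symm⟩
  have hterm : ∀ n, v (A.coeff n * r ^ n) = wt v a A n := by
    intro n
    rw [hv.map_mul_pow, hva, wt]
  have hsum : A.eval r = A.coeff k * r ^ k + ∑ n ∈ s.erase k, A.coeff n * r ^ n := by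
    rw [Polynomial.eval_eq_sum_range]
    exact (Finset.add_sum_erase s (fun n => A.coeff n * r ^ n) hks).symm
  have hrest : wt v a A k < v (∑ n ∈ s.erase k, A.coeff n * r ^ n) := by
    refine hv.lt_sum _ _ hfin fun n hn => ?_
    rw [hterm]
    exact huniq n (Finset.mem_of_mem_erase hn) (Finset.ne_of_mem_erase hn)
  have h1 : v (A.eval r) = wt v a A k := by
    rw [hsum, hv.map_add_eq_of_lt (by rw [hterm]; exact hrest), hterm]
  rw [hr, hv.map_zero] at h1
  exact absurd h1.symm hfin.ne

/-! ### Arithmetic in `ℕ∞` -/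

theorem enat_add_lt_add (m b : ℕ) (x y : ℕ∞)
    (h : ((m : ℕ∞) ≤ x ∧ (b : ℕ∞) < y) ∨ ((m : ℕ∞) < x ∧ (b : ℕ∞) ≤ y)) :
    ((m + b : ℕ) : ℕ∞) < x + y := by
  induction x using ENat.recTopCoe with
  | top => simp
  | coe x =>
    induction y using ENat.recTopCoe with
    | top => simp
    | coe y =>
      norm_cast at h ⊢
      omega

/-! ### The hard direction -/

section Hard

variable {v : R → ℕ∞} (hv : IsVal v)
include hv

theorem wt_mul_zero (a : ℕ) (A : R[X]) (r : R) :
    wt v a (A * (X - C r)) 0 = wt v a A 0 + v r := by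
  have h : (A * (X - C r)).coeff 0 = -(A.coeff 0 * r) := by
    rw [Polynomial.mul_coeff_zero]
    simp
  rw [wt, wt, h, hv.map_neg, hv.map_mul]
  simp

omit hv in
theorem wt_succ (a : ℕ) (A : R[X]) (j : ℕ) :
    wt v a A (j + 1) = v (A.coeff (j + 1)) + ((j * a + a : ℕ) : ℕ∞) := by
  simp only [wt]
  push_cast
  ring

omit hv in
theorem wt_add (a : ℕ) (A : R[X]) (j : ℕ) :
    wt v a A j + a = v (A.coeff j) + ((j * a + a : ℕ) : ℕ∞) := by
  simp only [wt]
  push_cast
  ring

omit hv in
theorem wt_mul_succ (a : ℕ) (A : R[X]) (r : R) (j : ℕ) :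
    wt v a (A * (X - C r)) (j + 1) =
      v (A.coeff j - A.coeff (j + 1) * r) + ((j * a + a : ℕ) : ℕ∞) := by
  rw [wt_succ, Polynomial.coeff_mul_X_sub_C]

theorem wt_mul_succ_ge (a : ℕ) (A : R[X]) (r : R) (j : ℕ) :
    min (wt v a A j + a) (wt v a A (j + 1) + v r) ≤ wt v a (A * (X - C r)) (j + 1) := by
  have h1 := hv.map_sub (A.coeff j) (A.coeff (j + 1) * r)
  rw [hv.map_mul] at h1
  rw [wt_mul_succ, wt_add, wt_succ, add_right_comm, min_add_add_right]
  gcongr

theorem wt_mul_succ_eq_left (a : ℕ) (A : R[X]) (r : R) (j : ℕ)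
    (h : wt v a A j + a < wt v a A (j + 1) + v r) :
    wt v a (A * (X - C r)) (j + 1) = wt v a A j + a := by
  have hlt : v (A.coeff j) < v (A.coeff (j + 1) * r) := by
    rw [hv.map_mul]
    rw [wt_add, wt_succ, add_right_comm] at h
    exact (ENat.add_lt_add_iff_right (ENat.natCast_ne_top _)).mp h
  rw [wt_mul_succ, hv.map_sub_eq_left hlt, wt_add]

theorem wt_mul_succ_eq_right (a : ℕ) (A : R[X]) (r : R) (j : ℕ)
    (h : wt v a A (j + 1) + v r < wt v a A j + a) :
    wt v a (A * (X - C r)) (j + 1) = wt v a A (j + 1) + v r := by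
  have hlt : v (A.coeff (j + 1) * r) < v (A.coeff j) := by
    rw [hv.map_mul]
    rw [wt_add, wt_succ, add_right_comm] at h
    exact (ENat.add_lt_add_iff_right (ENat.natCast_ne_top _)).mp h
  rw [wt_mul_succ, hv.map_sub_eq_right hlt, hv.map_mul, wt_succ, add_right_comm]

/-- "The minimum of the weights is attained exactly once". -/
def UniqueMin (v : R → ℕ∞) (a : ℕ) (A : R[X]) : Prop :=
  ∃ (k₀ m : ℕ), wt v a A k₀ = m ∧ ∀ n, n ≠ k₀ → (m : ℕ∞) < wt v a A n

omit hv in
theorem UniqueMin.not_twoMin {a : ℕ} {A : R[X]} (h : UniqueMin v a A) : ¬ TwoMin v a A := by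
  obtain ⟨k₀, m, hk₀, hlt⟩ := h
  rintro ⟨k, l, hkl, hmin, heq⟩
  have hk : k = k₀ := by
    by_contra hne
    exact absurd (lt_of_lt_of_le (hlt k hne) (hmin k₀)) (by rw [hk₀]; exact lt_irrefl _)
  have hl : l = k₀ := by
    by_contra hne
    have h1 := hlt l hne
    rw [heq, hk, hk₀] at h1
    exact lt_irrefl _ h1
  exact hkl (hk.trans hl.symm)

theorem uniqueMin_one (a : ℕ) : UniqueMin v a (1 : R[X]) := by
  refine ⟨0, 0, by simp [wt, hv.map_one], fun n hn => ?_⟩
  have h : (1 : R[X]).coeff n = 0 := by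
    rw [Polynomial.coeff_one, if_neg hn]
  simp [wt, h, hv.map_zero]

theorem uniqueMin_mul {a : ℕ} {A : R[X]} {r : R} (hr : v r ≠ a) (hA : UniqueMin v a A) :
    UniqueMin v a (A * (X - C r)) := by
  obtain ⟨k₀, m, hk₀, hlt⟩ := hA
  have hge : ∀ n, (m : ℕ∞) ≤ wt v a A n := by
    intro n
    by_cases hn : n = k₀
    · rw [hn, hk₀]
    · exact (hlt n hn).le
  rcases lt_or_gt_of_ne hr with hra | hra
  · -- `v r < a`
    obtain ⟨b, hb⟩ := ENat.ne_top_iff_exists.mp (ne_top_of_lt hra)
    have hba : b < a := by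
      rw [← hb] at hra
      exact_mod_cast hra
    refine ⟨k₀, m + b, ?_, fun n hn => ?_⟩
    · cases k₀ with
      | zero => rw [wt_mul_zero hv, hk₀, ← hb]; norm_cast
      | succ j =>
        have h1 : wt v a A (j + 1) + v r < wt v a A j + a := by
          rw [hk₀, ← hb]
          have := enat_add_lt_add m b (wt v a A j) (a : ℕ∞)
            (Or.inr ⟨hlt j (by omega), by exact_mod_cast hba.le⟩)
          exact_mod_cast this
        rw [wt_mul_succ_eq_right hv a A r j h1, hk₀, ← hb]
        norm_cast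
    · cases n with
      | zero =>
        rw [wt_mul_zero hv, ← hb]
        exact enat_add_lt_add m b _ _ (Or.inr ⟨hlt 0 hn, le_rfl⟩)
      | succ j =>
        refine lt_of_lt_of_le (lt_min ?_ ?_) (wt_mul_succ_ge hv a A r j)
        · exact enat_add_lt_add m b _ _ (Or.inl ⟨hge j, by exact_mod_cast hba⟩)
        · rw [← hb]
          exact enat_add_lt_add m b _ _ (Or.inr ⟨hlt (j + 1) hn, le_rfl⟩)
  · -- `a < v r`
    refine ⟨k₀ + 1, m + a, ?_, fun n hn => ?_⟩
    · have h1 : wt v a A k₀ + a < wt v a A (k₀ + 1) + v r := by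
        rw [hk₀]
        have := enat_add_lt_add m a (wt v a A (k₀ + 1)) (v r)
          (Or.inr ⟨hlt (k₀ + 1) (by omega), hra.le⟩)
        exact_mod_cast this
      rw [wt_mul_succ_eq_left hv a A r k₀ h1, hk₀]
      norm_cast
    · cases n with
      | zero =>
        rw [wt_mul_zero hv]
        exact enat_add_lt_add m a _ _ (Or.inl ⟨hge 0, hra⟩)
      | succ j =>
        have hj : j ≠ k₀ := fun h => hn (by rw [h])
        refine lt_of_lt_of_le (lt_min ?_ ?_) (wt_mul_succ_ge hv a A r j)
        · exact enat_add_lt_add m a _ _ (Or.inr ⟨hlt j hj, le_rfl⟩)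
        · exact enat_add_lt_add m a _ _ (Or.inl ⟨hge (j + 1), hra⟩)

theorem uniqueMin_prod {ι : Type*} (s : Finset ι) (Y : ι → R) {a : ℕ}
    (h : ∀ i ∈ s, v (Y i) ≠ a) : UniqueMin v a (∏ i ∈ s, (X - C (Y i))) := by
  classical
  induction s using Finset.induction_on with
  | empty => simpa using uniqueMin_one hv a
  | insert i s hi ih =>
    rw [Finset.prod_insert hi, mul_comm]
    exact uniqueMin_mul hv (h i (Finset.mem_insert_self i s))
      (ih fun n hn => h n (Finset.mem_insert_of_mem hn))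

/-- **Hard direction** for an explicit product of linear factors. -/
theorem exists_eq_of_two_min {ι : Type*} (s : Finset ι) (Y : ι → R) {a : ℕ}
    (h : TwoMin v a (∏ i ∈ s, (X - C (Y i)))) : ∃ i ∈ s, v (Y i) = a := by
  by_contra hcon
  exact (uniqueMin_prod hv s Y fun i hi hia => hcon ⟨i, hi, hia⟩).not_twoMin h

end Hard

end Fermat.Agent.S29.GaussNewton
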