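/-
S29 — Glue.lean (helper18): the ABSTRACT ORBIT-SPAN leaf (consumer shape of the integration
captain helper85).

`M` an abelian group with a `ℤ`-linear action `gal` of `G_ℚ` in which every element has finite
level, `𝔽` a field, `v ≠ 0` in `𝔽 ⊗[ℤ] M` a simultaneous eigenvector of the operators `T ℓ`
(`P ℓ`), which commute with `gal`.  Then the `𝔽`-span `V` of the `G_ℚ`-orbit of `v` is a
finite-dimensional nontrivial representation of `G_ℚ` factoring through a finite level, and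
the Eichler–Shimura relation `σ² − T_ℓ σ + ℓ = 0` / inertia-triviality on `M` become
`ρ(σ)² − λ_ℓ ρ(σ) + ℓ = 0` / `ρ(τ) = 1` on `V`.

Mathlib + Prelude `Def_GaloisRep_Residual` (+ `S29/FinLevel` for the normal-closure lemma).
-/
import Mathlib
import Fermat.Prelude.Def_GaloisRep_Residual
import Fermat.Agent.S29.FinLevel

set_option autoImplicit false

namespace Fermat.Agent.S29.Glue

open TensorProduct

local notation "Qb" => AlgebraicClosure ℚ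
local notation "GQ" => (AlgebraicClosure ℚ ≃ₐ[ℚ] AlgebraicClosure ℚ)

section

variable {𝔽 : Type} [Field 𝔽] {M : Type} [AddCommGroup M]

/-- The base-changed action of `G_ℚ` on `𝔽 ⊗ M`. -/
noncomputable def act (gal : GQ →* Module.End ℤ M) : GQ →* Module.End 𝔽 (𝔽 ⊗[ℤ] M) where
  toFun σ := (gal σ).baseChange 𝔽
  map_one' := by rw [map_one, LinearMap.baseChange_one]
  map_mul' σ τ := by rw [map_mul, LinearMap.baseChange_mul]

theorem act_tmul (gal : GQ →* Module.End ℤ M) (σ : GQ) (c : 𝔽) (x : M) :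
    act (𝔽 := 𝔽) gal σ (c ⊗ₜ[ℤ] x) = c ⊗ₜ[ℤ] gal σ x :=
  LinearMap.baseChange_tmul _ _ _

/-- Every tensor has finite level. -/
theorem exists_level (gal : GQ →* Module.End ℤ M)
    (hfl : ∀ x : M, ∃ L : IntermediateField ℚ Qb, FiniteDimensional ℚ L ∧
      ∀ σ : GQ, (∀ a ∈ L, σ a = a) → gal σ x = x) (w : 𝔽 ⊗[ℤ] M) :
    ∃ L : IntermediateField ℚ Qb, FiniteDimensional ℚ L ∧
      ∀ σ : GQ, (∀ a ∈ L, σ a = a) → act (𝔽 := 𝔽) gal σ w = w := by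
  induction w using TensorProduct.induction_on with
  | zero => exact ⟨⊥, inferInstance, fun σ _ => map_zero _⟩
  | tmul c x =>
    obtain ⟨L, hL, h⟩ := hfl x
    exact ⟨L, hL, fun σ hσ => by rw [act_tmul, h σ hσ]⟩
  | add w₁ w₂ h₁ h₂ =>
    obtain ⟨L₁, hL₁, f₁⟩ := h₁
    obtain ⟨L₂, hL₂, f₂⟩ := h₂
    refine ⟨L₁ ⊔ L₂, IntermediateField.finiteDimensional_sup L₁ L₂, fun σ hσ => ?_⟩
    rw [map_add, f₁ σ fun a ha => hσ a ((le_sup_left : L₁ ≤ L₁ ⊔ L₂) ha),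
      f₂ σ fun a ha => hσ a ((le_sup_right : L₂ ≤ L₁ ⊔ L₂) ha)]

/-- The orbit of a tensor of finite level is finite. -/
theorem finite_orbit (gal : GQ →* Module.End ℤ M) (w : 𝔽 ⊗[ℤ] M)
    (L : IntermediateField ℚ Qb) [FiniteDimensional ℚ L]
    (h : ∀ σ : GQ, (∀ a ∈ L, σ a = a) → act (𝔽 := 𝔽) gal σ w = w) :
    (Set.range fun σ : GQ => act (𝔽 := 𝔽) gal σ w).Finite := by
  classical
  let r : GQ → (L →ₐ[ℚ] Qb) := fun σ => (σ : Qb →ₐ[ℚ] Qb).comp L.val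
  have hfac : Function.FactorsThrough (fun σ : GQ => act (𝔽 := 𝔽) gal σ w) r := by
    intro σ τ hστ
    have h1 : ∀ a ∈ L, (τ⁻¹ * σ) a = a := by
      intro a ha
      have h2 : σ a = τ a := congrArg (fun f : L →ₐ[ℚ] Qb => f ⟨a, ha⟩) hστ
      show τ⁻¹ (σ a) = a
      rw [h2]
      exact τ.symm_apply_apply a
    have h3 := h (τ⁻¹ * σ) h1
    have h4 : act (𝔽 := 𝔽) gal σ w = act (𝔽 := 𝔽) gal τ (act (𝔽 := 𝔽) gal (τ⁻¹ * σ) w) := by
      rw [← Module.End.mul_apply, ← map_mul, mul_inv_cancel_left]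
    show act (𝔽 := 𝔽) gal σ w = act (𝔽 := 𝔽) gal τ w
    rw [h4, h3]
  refine (Set.finite_range (Function.extend r (fun σ : GQ => act (𝔽 := 𝔽) gal σ w) 0)).subset ?_
  rintro _ ⟨σ, rfl⟩
  exact ⟨r σ, hfac.extend_apply _ σ⟩

/-- The span of the orbit. -/
noncomputable def orbitSpan (gal : GQ →* Module.End ℤ M) (v : 𝔽 ⊗[ℤ] M) :
    Submodule 𝔽 (𝔽 ⊗[ℤ] M) :=
  Submodule.span 𝔽 (Set.range fun σ : GQ => act (𝔽 := 𝔽) gal σ v)

theorem mem_orbitSpan_self (gal : GQ →* Module.End ℤ M) (v : 𝔽 ⊗[ℤ] M) :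
    v ∈ orbitSpan gal v :=
  Submodule.subset_span ⟨1, by
    show act (𝔽 := 𝔽) gal 1 v = v
    rw [map_one]
    rfl⟩

theorem act_mem_orbitSpan (gal : GQ →* Module.End ℤ M) (v : 𝔽 ⊗[ℤ] M) (τ : GQ)
    {w : 𝔽 ⊗[ℤ] M} (hw : w ∈ orbitSpan gal v) : act (𝔽 := 𝔽) gal τ w ∈ orbitSpan gal v := by
  unfold orbitSpan at hw ⊢
  induction hw using Submodule.span_induction with
  | mem x hx =>
    obtain ⟨σ, rfl⟩ := hx
    refine Submodule.subset_span ⟨τ * σ, ?_⟩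
    show act (𝔽 := 𝔽) gal (τ * σ) v = act (𝔽 := 𝔽) gal τ (act (𝔽 := 𝔽) gal σ v)
    rw [map_mul]
    rfl
  | zero => rw [map_zero]; exact Submodule.zero_mem _
  | add x y _ _ hx hy => rw [map_add]; exact Submodule.add_mem _ hx hy
  | smul a x _ hx => rw [map_smul]; exact Submodule.smul_mem _ a hx

/-- A linear identity on the orbit holds on its span. -/
theorem eq_on_orbitSpan (gal : GQ →* Module.End ℤ M) (v : 𝔽 ⊗[ℤ] M)
    (f g : Module.End 𝔽 (𝔽 ⊗[ℤ] M))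
    (h : ∀ σ : GQ, f (act (𝔽 := 𝔽) gal σ v) = g (act (𝔽 := 𝔽) gal σ v))
    {w : 𝔽 ⊗[ℤ] M} (hw : w ∈ orbitSpan gal v) : f w = g w := by
  unfold orbitSpan at hw
  induction hw using Submodule.span_induction with
  | mem x hx =>
    obtain ⟨σ, rfl⟩ := hx
    exact h σ
  | zero => rw [map_zero, map_zero]
  | add x y _ _ hx hy => rw [map_add, map_add, hx, hy]
  | smul a x _ hx => rw [map_smul, map_smul, hx]

/-- The representation on the span of the orbit. -/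
noncomputable def rep (gal : GQ →* Module.End ℤ M) (v : 𝔽 ⊗[ℤ] M) :
    GQ →* Module.End 𝔽 (orbitSpan gal v) where
  toFun σ := (act (𝔽 := 𝔽) gal σ).restrict fun _ hw => act_mem_orbitSpan gal v σ hw
  map_one' := by
    refine LinearMap.ext fun w => Subtype.ext ?_
    show act (𝔽 := 𝔽) gal 1 (w : 𝔽 ⊗[ℤ] M) = w
    rw [map_one]
    rfl
  map_mul' σ τ := by
    refine LinearMap.ext fun w => Subtype.ext ?_
    show act (𝔽 := 𝔽) gal (σ * τ) (w : 𝔽 ⊗[ℤ] M)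
      = act (𝔽 := 𝔽) gal σ (act (𝔽 := 𝔽) gal τ (w : 𝔽 ⊗[ℤ] M))
    rw [map_mul]
    rfl

theorem coe_rep_apply (gal : GQ →* Module.End ℤ M) (v : 𝔽 ⊗[ℤ] M) (σ : GQ)
    (w : orbitSpan gal v) :
    ((rep gal v σ w : orbitSpan gal v) : 𝔽 ⊗[ℤ] M) = act (𝔽 := 𝔽) gal σ (w : 𝔽 ⊗[ℤ] M) :=
  rfl

end

/-- **The abstract orbit-span leaf** (consumer shape of `S29/Plan.lean`). -/
theorem exists_module_of_eigenvector {𝔽 : Type} [Field 𝔽] {M : Type} [AddCommGroup M]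
    (gal : GQ →* Module.End ℤ M)
    (hfl : ∀ x : M, ∃ L : IntermediateField ℚ Qb, FiniteDimensional ℚ L ∧
      ∀ σ : GQ, (∀ a ∈ L, σ a = a) → gal σ x = x)
    (P : ℕ → Prop) (T : ℕ → Module.End ℤ M) (lam : ℕ → 𝔽)
    (hcomm : ∀ ℓ, P ℓ → ∀ (σ : GQ) (x : M), T ℓ (gal σ x) = gal σ (T ℓ x))
    (hES : ∀ ℓ, P ℓ → ∀ A : ValuationSubring Qb, A.LiesOverPrime ℓ →
      ∀ σ : GQ, A.IsFrobeniusAt σ ℓ →
        ∀ x : M, gal σ (gal σ x) - T ℓ (gal σ x) + ℓ • x = 0)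
    (hI : ∀ ℓ, P ℓ → ∀ A : ValuationSubring Qb, A.LiesOverPrime ℓ →
      ∀ τ ∈ A.inertiaSubgroupIn ℚ, ∀ x : M, gal τ x = x)
    (v : 𝔽 ⊗[ℤ] M) (hv : v ≠ 0)
    (heig : ∀ ℓ, P ℓ → (T ℓ).baseChange 𝔽 v = lam ℓ • v) :
    ∃ (V : Type) (_ : AddCommGroup V) (_ : Module 𝔽 V) (ρV : GQ →* Module.End 𝔽 V),
      Module.Finite 𝔽 V ∧ Nontrivial V ∧ GaloisFactorsThroughFiniteLevel ρV ∧
      (∀ ℓ, P ℓ → ∀ A : ValuationSubring Qb, A.LiesOverPrime ℓ →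
        ∀ σ : GQ, A.IsFrobeniusAt σ ℓ →
          ρV σ ^ 2 - lam ℓ • ρV σ + (ℓ : 𝔽) • 1 = 0) ∧
      (∀ ℓ, P ℓ → ∀ A : ValuationSubring Qb, A.LiesOverPrime ℓ →
        ∀ τ ∈ A.inertiaSubgroupIn ℚ, ρV τ = 1) := by
  classical
  obtain ⟨L, hL, hLv⟩ := exists_level (𝔽 := 𝔽) gal hfl v
  obtain ⟨L', hLL', hL', hst⟩ := FinLevel.exists_stable_ge L
  refine ⟨orbitSpan gal v, inferInstance, inferInstance, rep gal v, ?_, ?_, ?_, ?_, ?_⟩
  · -- finite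
    exact Module.Finite.span_of_finite 𝔽 (finite_orbit gal v L hLv)
  · -- nontrivial
    refine ⟨⟨⟨v, mem_orbitSpan_self gal v⟩, 0, fun h => hv ?_⟩⟩
    exact congrArg Subtype.val h
  · -- finite level
    refine ⟨L', hL', fun σ hσ => ?_⟩
    refine LinearMap.ext fun w => Subtype.ext ?_
    rw [coe_rep_apply]
    show act (𝔽 := 𝔽) gal σ (w : 𝔽 ⊗[ℤ] M) = (1 : Module.End 𝔽 (𝔽 ⊗[ℤ] M)) (w : 𝔽 ⊗[ℤ] M)
    refine eq_on_orbitSpan gal v _ _ (fun τ => ?_) w.2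
    have h1 : ∀ a ∈ L, (τ⁻¹ * σ * τ) a = a := by
      intro a ha
      show τ⁻¹ (σ (τ a)) = a
      rw [hσ (τ a) (hst τ a (hLL' ha))]
      exact τ.symm_apply_apply a
    have h2 := hLv (τ⁻¹ * σ * τ) h1
    have h3 : act (𝔽 := 𝔽) gal σ (act (𝔽 := 𝔽) gal τ v)
        = act (𝔽 := 𝔽) gal τ (act (𝔽 := 𝔽) gal (τ⁻¹ * σ * τ) v) := by
      rw [← Module.End.mul_apply, ← Module.End.mul_apply, ← map_mul, ← map_mul]
      congr 2
      group
    rw [h3, h2]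
    rfl
  · -- Eichler–Shimura
    intro ℓ hℓ A hA σ hσ
    -- `T_𝔽 = lam` on the span
    have hT : ∀ w ∈ orbitSpan gal v, (T ℓ).baseChange 𝔽 w = lam ℓ • w := by
      intro w hw
      refine eq_on_orbitSpan gal v ((T ℓ).baseChange 𝔽)
        (lam ℓ • (1 : Module.End 𝔽 (𝔽 ⊗[ℤ] M))) (fun τ => ?_) hw
      have hc : (T ℓ).baseChange 𝔽 ∘ₗ (gal τ).baseChange 𝔽
          = (gal τ).baseChange 𝔽 ∘ₗ (T ℓ).baseChange 𝔽 := by
        rw [← LinearMap.baseChange_comp, ← LinearMap.baseChange_comp]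
        congr 1
        exact LinearMap.ext fun x => hcomm ℓ hℓ τ x
      have h1 : (T ℓ).baseChange 𝔽 (act (𝔽 := 𝔽) gal τ v)
          = act (𝔽 := 𝔽) gal τ ((T ℓ).baseChange 𝔽 v) :=
        congrArg (fun f : 𝔽 ⊗[ℤ] M →ₗ[𝔽] 𝔽 ⊗[ℤ] M => f v) hc
      rw [h1, heig ℓ hℓ, map_smul]
      rfl
    -- the relation on `𝔽 ⊗ M`
    have hrel : ∀ w : 𝔽 ⊗[ℤ] M,
        act (𝔽 := 𝔽) gal σ (act (𝔽 := 𝔽) gal σ w)
          - (T ℓ).baseChange 𝔽 (act (𝔽 := 𝔽) gal σ w) + (ℓ : 𝔽) • w = 0 := by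
      intro w
      induction w using TensorProduct.induction_on with
      | zero => simp
      | tmul c x =>
        rw [act_tmul, act_tmul, LinearMap.baseChange_tmul, TensorProduct.smul_tmul',
          ← TensorProduct.tmul_sub]
        have h1 : ((ℓ : 𝔽) • c) ⊗ₜ[ℤ] x = c ⊗ₜ[ℤ] (ℓ • x) := by
          rw [Nat.cast_smul_eq_nsmul, ← Nat.cast_smul_eq_nsmul ℤ ℓ c,
            ← Nat.cast_smul_eq_nsmul ℤ ℓ x, TensorProduct.smul_tmul]
        rw [h1, ← TensorProduct.tmul_add, hES ℓ hℓ A hA σ hσ x, TensorProduct.tmul_zero]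
      | add w₁ w₂ h₁ h₂ =>
        have : act (𝔽 := 𝔽) gal σ (act (𝔽 := 𝔽) gal σ (w₁ + w₂))
            - (T ℓ).baseChange 𝔽 (act (𝔽 := 𝔽) gal σ (w₁ + w₂)) + (ℓ : 𝔽) • (w₁ + w₂)
            = (act (𝔽 := 𝔽) gal σ (act (𝔽 := 𝔽) gal σ w₁)
                - (T ℓ).baseChange 𝔽 (act (𝔽 := 𝔽) gal σ w₁) + (ℓ : 𝔽) • w₁)
              + (act (𝔽 := 𝔽) gal σ (act (𝔽 := 𝔽) gal σ w₂)
                - (T ℓ).baseChange 𝔽 (act (𝔽 := 𝔽) gal σ w₂) + (ℓ : 𝔽) • w₂) := by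
          simp only [map_add, smul_add]
          abel
        rw [this, h₁, h₂, add_zero]
    refine LinearMap.ext fun w => Subtype.ext ?_
    have h1 := hrel (w : 𝔽 ⊗[ℤ] M)
    rw [hT _ (act_mem_orbitSpan gal v σ w.2)] at h1
    rw [pow_two]
    exact h1
  · -- inertia
    intro ℓ hℓ A hA τ hτ
    refine LinearMap.ext fun w => Subtype.ext ?_
    rw [coe_rep_apply]
    have h1 : gal τ = 1 := LinearMap.ext fun x => hI ℓ hℓ A hA τ hτ x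
    show (gal τ).baseChange 𝔽 (w : 𝔽 ⊗[ℤ] M) = w
    rw [h1, LinearMap.baseChange_one]
    rfl

end Fermat.Agent.S29.Glue
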