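/-
S29 / S42, block [K], leaf (K6b) — HeckeProdQx.lean (helper127): the q-EXPANSION of the Hecke
product (row (K6b) of helper88's table).

For a nice function `A` on the upper half plane (holomorphic, `1`-periodic, bounded at `i∞`:
`A ∈ S23.niceSub`) and the prelude coset representatives `α_x = heckeRep ℓ x`
(`x : OnePoint (ZMod ℓ)`), the weight-`w` Hecke product `∏_x A ∣[w] α_x` is again nice and

  `qx (∏_x A ∣[w] α_x) = (ℓ^(w-1) · ℓ^(-ℓ)) • kronT ζ ℓ (qx A)`,   `ζ = exp(2πi/ℓ)`,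

where `KC.kronT ζ ℓ y = y(q^ℓ) · (∏_{i<ℓ} y(ζ^i q))(q^{1/ℓ})` is the formal operator of `S37/KC`.

* formal: `kronT_mul`, `kronT_one`, `kronT_ne_zero` (multiplicativity of `kronT` for a primitive
  root of unity in a domain);
* (b1) shift law: `shift_mem_niceSub`, `qx_shift : qx (A(x + ·)) = twist (exp(2πi x)) (qx A)`;
* (b2) `upperProd ℓ A z = ∏_j A((z + j)/ℓ)`: `upperProd_mem_niceSub`, `qExpand_qx_upperProd`,
  `qx_upperProd`;
* (b3) `prod_slash_heckeRep_eq` (pointwise formula), `prod_slash_heckeRep_mem_niceSub`,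
  `qx_prod_slash_heckeRep_eq` (explicit constants), `qx_prod_slash_heckeRep` (consumer shape).
-/
import Mathlib
import Fermat.Agent.S29.KDefs
import Fermat.Agent.S29.HeckeProd
import Fermat.Agent.S37.KC
import Fermat.Agent.S24.AnBridge
import Fermat.Agent.S24.AnCuspShift

set_option autoImplicit false

noncomputable section

namespace Fermat.Agent.S29.HeckeProdQx

open UpperHalfPlane ModularForm CongruenceSubgroup ModularCurve Filter
open scoped MatrixGroups ModularForm Manifold Real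
open P2MW.S_ModularForm_heckeT_slash_eq_self_of_mem_Gamma0.ModularForm.HeckeSlashInvariance
open Fermat.Agent.S37 Fermat.Agent.S24

local notation "𝕢" => Function.Periodic.qParam

/-! ### Formal part: `kronT` is multiplicative -/

section Formal

variable {R : Type*} [CommRing R] [IsDomain R]

theorem kronT_mul {ζ : Rˣ} {ℓ : ℕ} [NeZero ℓ] (hζ : IsPrimitiveRoot (ζ : R) ℓ)
    (x y : LaurentSeries R) :
    KC.kronT ζ ℓ (x * y) = KC.kronT ζ ℓ x * KC.kronT ζ ℓ y := by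
  unfold KC.kronT
  have h1 : ∏ i ∈ Finset.range ℓ, KC.twist (ζ ^ i) (x * y) =
      (∏ i ∈ Finset.range ℓ, KC.twist (ζ ^ i) x) * ∏ i ∈ Finset.range ℓ, KC.twist (ζ ^ i) y := by
    rw [← Finset.prod_mul_distrib]
    exact Finset.prod_congr rfl fun i _ => map_mul _ _ _
  rw [h1, map_mul]
  conv_lhs =>
    rw [← KC.qExpand_qContract_prod_twist hζ x, ← KC.qExpand_qContract_prod_twist hζ y,
      KC.qContract_qExpand_mul]
  ring

omit [IsDomain R] in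
theorem kronT_one {ζ : Rˣ} {ℓ : ℕ} [NeZero ℓ] : KC.kronT ζ ℓ (1 : LaurentSeries R) = 1 := by
  unfold KC.kronT
  simp only [map_one, Finset.prod_const_one, one_mul]
  have h : (1 : LaurentSeries R) = qExpand R ℓ 1 := (map_one _).symm
  conv_lhs => rw [h, KC.qContract_qExpand]

end Formal

section FormalField

variable {K : Type*} [Field K]

theorem kronT_ne_zero {ζ : Kˣ} {ℓ : ℕ} [NeZero ℓ] (hζ : IsPrimitiveRoot (ζ : K) ℓ)
    {y : LaurentSeries K} (hy : y ≠ 0) : KC.kronT ζ ℓ y ≠ 0 := by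
  intro h
  have h1 := KC.qExpand_kronT hζ y
  rw [h, map_zero] at h1
  have h2 : qExpand K ℓ (qExpand K ℓ y) ≠ 0 := by
    simpa using hy
  have h3 : ∏ i ∈ Finset.range ℓ, KC.twist (ζ ^ i) y ≠ 0 := by
    rw [Finset.prod_ne_zero_iff]
    intro i _
    exact (map_ne_zero_iff _ (KC.twist_injective (ζ ^ i))).mpr hy
  exact mul_ne_zero h2 h3 h1.symm

end FormalField

/-! ### (b1) the shift law for period-one q-expansions -/

/-- `exp (2πi x)` as a unit of `ℂ`. -/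
def expUnit (x : ℝ) : ℂˣ := Units.mk0 (Complex.exp (2 * π * Complex.I * x)) (Complex.exp_ne_zero _)

@[simp] theorem coe_expUnit (x : ℝ) :
    ((expUnit x : ℂˣ) : ℂ) = Complex.exp (2 * π * Complex.I * x) := rfl

theorem periodic_of_mem_niceSub {A : ℍ → ℂ} (hA : A ∈ S23.niceSub) (z : ℍ) :
    A ((1 : ℝ) +ᵥ z) = A z := by
  have h := hA.1 (z : ℂ)
  simp only [Function.comp_apply, ofComplex_apply] at h
  rw [← h]
  congr 1
  have him : 0 < ((z : ℂ) + 1).im := by simpa using z.im_pos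
  apply UpperHalfPlane.ext
  rw [ofComplex_apply_of_im_pos him, UpperHalfPlane.coe_vadd]
  push_cast
  ring

theorem shift_mem_niceSub {A : ℍ → ℂ} (hA : A ∈ S23.niceSub) (x : ℝ) :
    (fun z : ℍ => A (x +ᵥ z)) ∈ S23.niceSub := by
  refine ⟨?_, anCuspShift_mdiff hA.2.1 x, anCuspShift_bdd hA.2.2 x⟩
  have h1 : ∀ z : ℍ, (fun z : ℍ => A (x +ᵥ z)) ((1 : ℝ) +ᵥ z) = (fun z : ℍ => A (x +ᵥ z)) z := by
    intro z
    show A (x +ᵥ ((1 : ℝ) +ᵥ z)) = A (x +ᵥ z)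
    rw [vadd_comm, periodic_of_mem_niceSub hA]
  have := anCuspShift_periodic (h := 1) (f := fun z : ℍ => A (x +ᵥ z)) h1
  simpa using this

theorem qParam_shift (x : ℝ) (τ : ℍ) :
    𝕢 (1 : ℝ) ((x +ᵥ τ : ℍ) : ℂ) = Complex.exp (2 * π * Complex.I * x) * 𝕢 (1 : ℝ) (τ : ℂ) := by
  rw [UpperHalfPlane.coe_vadd]
  unfold Function.Periodic.qParam
  rw [← Complex.exp_add]
  congr 1
  push_cast
  ring

theorem qExpansion_shift_coeff' {A : ℍ → ℂ} (hA : A ∈ S23.niceSub) (x : ℝ) (n : ℕ) :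
    (qExpansion 1 (fun z : ℍ => A (x +ᵥ z))).coeff n
      = Complex.exp (2 * π * Complex.I * x) ^ n * (qExpansion 1 A).coeff n := by
  have hper : Function.Periodic (A ∘ ofComplex) ((1 : ℝ) : ℂ) := by
    simpa using hA.1
  have hg := shift_mem_niceSub hA x
  have hgan : AnalyticAt ℂ (cuspFunction 1 (fun z : ℍ => A (x +ᵥ z))) 0 :=
    S23.analyticAt_cuspFunction_of_mem_niceSub hg
  have hsum : ∀ τ : ℍ, HasSum (fun m : ℕ =>
      (Complex.exp (2 * π * Complex.I * x) ^ m * (qExpansion 1 A).coeff m)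
        • 𝕢 (1 : ℝ) (τ : ℂ) ^ m) ((fun z : ℍ => A (x +ᵥ z)) τ) := by
    intro τ
    have h1 := hasSum_qExpansion one_pos hper hA.2.1 hA.2.2 (x +ᵥ τ)
    rw [qParam_shift] at h1
    convert h1 using 2 with m
    simp only [smul_eq_mul]
    ring
  exact (anCuspShift_coeff_unique one_pos hgan hsum n).symm

/-- **Shift law**: `qx (A(x + ·)) = twist (exp(2πi x)) (qx A)`. -/
theorem qx_shift {A : ℍ → ℂ} (hA : A ∈ S23.niceSub) (x : ℝ) :
    K.qx (fun z : ℍ => A (x +ᵥ z)) = KC.twist (expUnit x) (K.qx A) := by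
  unfold K.qx
  ext n
  rw [KC.twist_coeff]
  rcases lt_or_ge n 0 with hn | hn
  · rw [ofPowerSeries_coeff_of_neg _ hn, ofPowerSeries_coeff_of_neg _ hn, mul_zero]
  · obtain ⟨m, rfl⟩ := Int.eq_ofNat_of_zero_le hn
    rw [HahnSeries.ofPowerSeries_apply_coeff, HahnSeries.ofPowerSeries_apply_coeff,
      qExpansion_shift_coeff' hA x m, zpow_natCast, Units.val_pow_eq_pow_val, coe_expUnit]

/-- finite products of holomorphic functions bounded at `i∞`. -/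
theorem mdiff_bdd_prod {ι : Type*} (s : Finset ι) (f : ι → ℍ → ℂ)
    (h : ∀ i ∈ s, MDiff (f i) ∧ IsBoundedAtImInfty (f i)) :
    MDiff (fun z : ℍ => ∏ i ∈ s, f i z) ∧ IsBoundedAtImInfty (fun z : ℍ => ∏ i ∈ s, f i z) := by
  classical
  induction s using Finset.induction_on with
  | empty =>
    simp only [Finset.prod_empty]
    exact ⟨mdifferentiable_const, Filter.const_boundedAtFilter _ (1 : ℂ)⟩
  | insert a s ha ih =>
    have e : (fun z : ℍ => ∏ i ∈ insert a s, f i z) = f a * fun z : ℍ => ∏ i ∈ s, f i z := by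
      funext z
      rw [Finset.prod_insert ha, Pi.mul_apply]
    rw [e]
    obtain ⟨h1, h2⟩ := ih fun i hi => h i (Finset.mem_insert_of_mem hi)
    obtain ⟨h3, h4⟩ := h a (Finset.mem_insert_self a s)
    exact ⟨h3.mul h1, h4.mul h2⟩

/-- a product over `ZMod ℓ` of a function of `val` is the product over `range ℓ`. -/
theorem prod_zmod_val {M : Type*} [CommMonoid M] (ℓ : ℕ) [NeZero ℓ] (f : ℕ → M) :
    ∏ j : ZMod ℓ, f j.val = ∏ i ∈ Finset.range ℓ, f i := by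
  rw [← Fin.prod_univ_eq_prod_range]
  obtain ⟨n, rfl⟩ : ∃ n, ℓ = n + 1 := Nat.exists_eq_succ_of_ne_zero (NeZero.ne ℓ)
  rfl

/-- the product of `A` over the `ℓ` upper-triangular representatives `z ↦ (z + j) / ℓ`. -/
def upperProd (ℓ : ℕ) [NeZero ℓ] (A : ℍ → ℂ) : ℍ → ℂ := fun z => ∏ j : ZMod ℓ, A (heckeMatrix ℓ j.val • z)

theorem heckeMatrix_smul_mulN (ℓ : ℕ) [NeZero ℓ] (j : ℕ) (z : ℍ) :
    heckeMatrix ℓ j • S23.mulN ℓ z = ((j : ℝ) / ℓ) +ᵥ z := by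
  apply UpperHalfPlane.ext
  rw [coe_heckeMatrix_smul (NeZero.ne ℓ), S23.coe_mulN, UpperHalfPlane.coe_vadd]
  have hℓ : (ℓ : ℂ) ≠ 0 := by exact_mod_cast NeZero.ne ℓ
  push_cast
  field_simp
  ring

theorem heckeDiagMatrix_smul_eq_mulN (ℓ : ℕ) [NeZero ℓ] (z : ℍ) :
    heckeDiagMatrix ℓ • z = S23.mulN ℓ z := by
  apply UpperHalfPlane.ext
  rw [coe_heckeDiagMatrix_smul (NeZero.ne ℓ), S23.coe_mulN]


/-- `A` evaluated at `(z + j)/ℓ`, through the `1`-periodic function `A ∘ ofComplex`. -/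
theorem apply_heckeMatrix_smul (ℓ : ℕ) [NeZero ℓ] (A : ℍ → ℂ) (j : ℕ) (z : ℍ) :
    A (heckeMatrix ℓ j • z) = (A ∘ ofComplex) (((z : ℂ) + j) / ℓ) := by
  rw [Function.comp_apply, ← coe_heckeMatrix_smul (NeZero.ne ℓ), ofComplex_apply]

theorem upperProd_vadd_one (ℓ : ℕ) [NeZero ℓ] {A : ℍ → ℂ} (hA : A ∈ S23.niceSub) (z : ℍ) :
    upperProd ℓ A ((1 : ℝ) +ᵥ z) = upperProd ℓ A z := by
  unfold upperProd
  have hℓ : (ℓ : ℂ) ≠ 0 := by exact_mod_cast NeZero.ne ℓ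
  have h1 : ∀ j : ZMod ℓ, A (heckeMatrix ℓ j.val • ((1 : ℝ) +ᵥ z)) =
      A (heckeMatrix ℓ (j + 1).val • z) := by
    intro j
    rw [apply_heckeMatrix_smul ℓ A, apply_heckeMatrix_smul ℓ A, UpperHalfPlane.coe_vadd]
    have hv : (j + 1).val + ℓ * ((j.val + 1) / ℓ) = j.val + 1 := by
      rw [ZMod.val_add, ZMod.val_one_eq_one_mod, Nat.add_mod_mod]
      exact Nat.mod_add_div _ _
    have hper := (hA.1.nat_mul ((j.val + 1) / ℓ)) ((((z : ℂ) + ((j + 1).val : ℕ)) / ℓ))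
    rw [← hper]
    congr 1
    have hv' : (((j + 1).val : ℕ) : ℂ) + (ℓ : ℂ) * (((j.val + 1) / ℓ : ℕ) : ℂ) = (j.val : ℂ) + 1 := by
      exact_mod_cast congrArg (Nat.cast : ℕ → ℂ) hv
    push_cast
    field_simp
    linear_combination -hv'
  rw [Finset.prod_congr rfl fun j _ => h1 j]
  exact Equiv.prod_comp (Equiv.addRight (1 : ZMod ℓ)) (fun j => A (heckeMatrix ℓ j.val • z))


theorem upperProd_mem_niceSub (ℓ : ℕ) [NeZero ℓ] {A : ℍ → ℂ} (hA : A ∈ S23.niceSub) :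
    upperProd ℓ A ∈ S23.niceSub := by
  have h := mdiff_bdd_prod (Finset.univ : Finset (ZMod ℓ))
    (fun j z => A (heckeMatrix ℓ j.val • z)) (fun j _ => by
      refine ⟨HeckeProd.mdifferentiable_comp_heckeRep ℓ (j : OnePoint (ZMod ℓ)) A hA.2.1, ?_⟩
      have ht := HeckeProd.tendsto_heckeRep_smul_atImInfty ℓ (j : OnePoint (ZMod ℓ))
      exact hA.2.2.comp_tendsto ht)
  refine ⟨?_, h.1, h.2⟩
  have := anCuspShift_periodic (h := 1) (f := upperProd ℓ A) (upperProd_vadd_one ℓ hA)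
  simpa using this

/-- `U(ℓ z) = ∏_j A(z + j/ℓ)`. -/
theorem upperProd_mulN (ℓ : ℕ) [NeZero ℓ] (A : ℍ → ℂ) (z : ℍ) :
    upperProd ℓ A (S23.mulN ℓ z) = ∏ j : ZMod ℓ, A ((((j.val : ℕ) : ℝ) / ℓ) +ᵥ z) := by
  unfold upperProd
  exact Finset.prod_congr rfl fun j _ => by rw [heckeMatrix_smul_mulN]


/-! ### (b2) the q-expansion of the upper product -/

/-- `exp(2πi/ℓ)` as a unit of `ℂ`. -/
def zetaC (ℓ : ℕ) : ℂˣ := expUnit (1 / ℓ)

theorem zetaC_isPrimitiveRoot (ℓ : ℕ) [NeZero ℓ] : IsPrimitiveRoot ((zetaC ℓ : ℂˣ) : ℂ) ℓ := by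
  have h := Complex.isPrimitiveRoot_exp ℓ (NeZero.ne ℓ)
  have e : ((zetaC ℓ : ℂˣ) : ℂ) = Complex.exp (2 * π * Complex.I / ℓ) := by
    rw [zetaC, coe_expUnit]
    congr 1
    push_cast
    ring
  rw [e]
  exact h

theorem expUnit_div (ℓ : ℕ) (j : ℕ) : expUnit ((j : ℝ) / ℓ) = zetaC ℓ ^ j := by
  apply Units.ext
  rw [Units.val_pow_eq_pow_val, coe_expUnit, zetaC, coe_expUnit, ← Complex.exp_nat_mul]
  congr 1
  push_cast
  ring

theorem qx_upperProd_mulN (ℓ : ℕ) [NeZero ℓ] {A : ℍ → ℂ} (hA : A ∈ S23.niceSub) :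
    K.qx (fun z : ℍ => upperProd ℓ A (S23.mulN ℓ z)) =
      ∏ i ∈ Finset.range ℓ, KC.twist (zetaC ℓ ^ i) (K.qx A) := by
  let C : ZMod ℓ → S23.niceSub := fun j =>
    ⟨fun z : ℍ => A ((((j.val : ℕ) : ℝ) / ℓ) +ᵥ z), shift_mem_niceSub hA _⟩
  have h1 : (fun z : ℍ => upperProd ℓ A (S23.mulN ℓ z)) = ((∏ j, C j : S23.niceSub) : ℍ → ℂ) := by
    funext z
    rw [upperProd_mulN, SubmonoidClass.coe_finsetProd, Finset.prod_apply]
  have h2 : K.qx ((∏ j, C j : S23.niceSub) : ℍ → ℂ) = AnBridge.Phi (∏ j, C j) := rfl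
  rw [h1, h2, map_prod]
  have h3 : ∀ j : ZMod ℓ, AnBridge.Phi (C j) = KC.twist (zetaC ℓ ^ j.val) (K.qx A) := by
    intro j
    show K.qx (fun z : ℍ => A ((((j.val : ℕ) : ℝ) / ℓ) +ᵥ z)) = _
    rw [qx_shift hA, expUnit_div]
  rw [Finset.prod_congr rfl fun j _ => h3 j]
  exact prod_zmod_val ℓ (fun i => KC.twist (zetaC ℓ ^ i) (K.qx A))

/-- `(qx U)(q^ℓ) = ∏_{i<ℓ} (qx A)(ζ^i q)`. -/
theorem qExpand_qx_upperProd (ℓ : ℕ) [NeZero ℓ] {A : ℍ → ℂ} (hA : A ∈ S23.niceSub) :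
    qExpand ℂ ℓ (K.qx (upperProd ℓ A)) =
      ∏ i ∈ Finset.range ℓ, KC.twist (zetaC ℓ ^ i) (K.qx A) := by
  rw [← qx_upperProd_mulN ℓ hA]
  exact (AnBridge.ofPowerSeries_qExpansion_scale ℓ (upperProd_mem_niceSub ℓ hA)).symm

theorem qx_upperProd (ℓ : ℕ) [NeZero ℓ] {A : ℍ → ℂ} (hA : A ∈ S23.niceSub) :
    K.qx (upperProd ℓ A) =
      KC.qContract ℓ (∏ i ∈ Finset.range ℓ, KC.twist (zetaC ℓ ^ i) (K.qx A)) := by
  rw [← qExpand_qx_upperProd ℓ hA, KC.qContract_qExpand]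

/-! ### (b3) the Hecke product -/

/-- the constant of the slash normalisation: `ℓ^(w-1) · ℓ^(-ℓ)`. -/
def heckeConst (ℓ : ℕ) (w : ℤ) : ℂ := (ℓ : ℂ) ^ (w - 1) * ((ℓ : ℂ)⁻¹) ^ ℓ

theorem heckeConst_ne_zero (ℓ : ℕ) [NeZero ℓ] (w : ℤ) : heckeConst ℓ w ≠ 0 := by
  have hℓ : (ℓ : ℂ) ≠ 0 := by exact_mod_cast NeZero.ne ℓ
  exact mul_ne_zero (zpow_ne_zero _ hℓ) (pow_ne_zero _ (inv_ne_zero hℓ))

/-- pointwise formula for the Hecke product. -/
theorem prod_slash_heckeRep_eq (ℓ : ℕ) [NeZero ℓ] (w : ℤ) (A : ℍ → ℂ) :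
    (∏ x : OnePoint (ZMod ℓ), A ∣[w] heckeRep ℓ x) =
      heckeConst ℓ w • ((fun z : ℍ => A (S23.mulN ℓ z)) * upperProd ℓ A) := by
  funext z
  have hℓ0 : ℓ ≠ 0 := NeZero.ne ℓ
  rw [Finset.prod_apply]
  have h1 := Fintype.prod_option (fun x : OnePoint (ZMod ℓ) => (A ∣[w] heckeRep ℓ x) z)
  refine h1.trans ?_
  have h2 : (A ∣[w] heckeRep ℓ (none : OnePoint (ZMod ℓ))) z =
      (ℓ : ℂ) ^ (w - 1) * A (S23.mulN ℓ z) := by
    show (A ∣[w] heckeDiagMatrix ℓ) z = _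
    rw [slash_heckeDiagMatrix_apply w hℓ0, heckeDiagMatrix_smul_eq_mulN]
  have h3 : ∀ j : ZMod ℓ, (A ∣[w] heckeRep ℓ (some j : OnePoint (ZMod ℓ))) z =
      (ℓ : ℂ)⁻¹ * A (heckeMatrix ℓ j.val • z) := by
    intro j
    show (A ∣[w] heckeMatrix ℓ j.val) z = _
    rw [slash_heckeMatrix_apply w hℓ0]
  rw [h2, Finset.prod_congr rfl fun j _ => h3 j, Finset.prod_mul_distrib, Finset.prod_const,
    Finset.card_univ, ZMod.card]
  simp only [Pi.smul_apply, Pi.mul_apply, smul_eq_mul, heckeConst, upperProd]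
  ring

theorem prod_slash_heckeRep_mem_niceSub (ℓ : ℕ) [NeZero ℓ] (w : ℤ) {A : ℍ → ℂ}
    (hA : A ∈ S23.niceSub) :
    (∏ x : OnePoint (ZMod ℓ), A ∣[w] heckeRep ℓ x) ∈ S23.niceSub := by
  rw [prod_slash_heckeRep_eq]
  exact S23.niceSub.smul_mem
    (S23.niceSub.mul_mem (AnBridge.scale_mem_niceSub ℓ hA) (upperProd_mem_niceSub ℓ hA)) _

theorem algebraMap_mul_eq_smul (c : ℂ) (x : LaurentSeries ℂ) :
    algebraMap ℂ (LaurentSeries ℂ) c * x = c • x := by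
  rw [algebraMap_laurentSeries_eq_single, ← HahnSeries.C_mul_eq_smul]
  rfl

/-- **(K6b)**, explicit form: the q-expansion of the Hecke product of a nice function. -/
theorem qx_prod_slash_heckeRep_eq (ℓ : ℕ) [NeZero ℓ] (w : ℤ) {A : ℍ → ℂ}
    (hA : A ∈ S23.niceSub) :
    K.qx (∏ x : OnePoint (ZMod ℓ), A ∣[w] heckeRep ℓ x) =
      heckeConst ℓ w • KC.kronT (zetaC ℓ) ℓ (K.qx A) := by
  rw [prod_slash_heckeRep_eq]
  let a : S23.niceSub := ⟨fun z : ℍ => A (S23.mulN ℓ z), AnBridge.scale_mem_niceSub ℓ hA⟩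
  let u : S23.niceSub := ⟨upperProd ℓ A, upperProd_mem_niceSub ℓ hA⟩
  have h1 : heckeConst ℓ w • ((fun z : ℍ => A (S23.mulN ℓ z)) * upperProd ℓ A) =
      ((algebraMap ℂ S23.niceSub (heckeConst ℓ w) * (a * u) : S23.niceSub) : ℍ → ℂ) := by
    rw [← Algebra.smul_def]
    rfl
  have h2 : ∀ F : S23.niceSub, K.qx (F : ℍ → ℂ) = AnBridge.Phi F := fun _ => rfl
  rw [h1, h2, map_mul, map_mul, AnBridge.Phi_algebraMap, algebraMap_mul_eq_smul, ← h2 a, ← h2 u]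
  congr 1
  show K.qx (fun z : ℍ => A (S23.mulN ℓ z)) * K.qx (upperProd ℓ A) = _
  rw [qx_upperProd ℓ hA]
  unfold KC.kronT
  congr 1
  exact AnBridge.ofPowerSeries_qExpansion_scale ℓ hA

/-- **(K6b)**, consumer shape (helper88's table #2015). -/
theorem qx_prod_slash_heckeRep (ℓ : ℕ) [NeZero ℓ] (_hℓ : ℓ.Prime) (w : ℤ) :
    ∃ (c : ℂ) (ζ : ℂˣ), c ≠ 0 ∧ IsPrimitiveRoot (ζ : ℂ) ℓ ∧ ∀ A ∈ S23.niceSub,
      K.qx (∏ x : OnePoint (ZMod ℓ), A ∣[w] heckeRep ℓ x) = c • KC.kronT ζ ℓ (K.qx A) :=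
  ⟨heckeConst ℓ w, zetaC ℓ, heckeConst_ne_zero ℓ w, zetaC_isPrimitiveRoot ℓ,
    fun _ hA => qx_prod_slash_heckeRep_eq ℓ w hA⟩

end Fermat.Agent.S29.HeckeProdQx
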