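import Mathlib

/-!
# S29 [K] (L-alg): integrality over `k[t]` versus `k[t⁻¹]`

If `x` is integral over `k[t]` then `x * t⁻¹ ^ m` is integral over `k[t⁻¹]` for all large `m`.
Mathlib only.
-/

namespace Fermat.Agent.S29.IntAlg

open Polynomial

/-- `P(t) * t⁻¹ ^ d ∈ k[t⁻¹]` as soon as `deg P ≤ d`. -/
theorem aeval_mul_inv_pow_mem {k F : Type*} [Field k] [Field F] [Algebra k F] (t : F)
    (ht : t ≠ 0) (P : Polynomial k) (d : ℕ) (hd : P.natDegree ≤ d) :
    Polynomial.aeval t P * t⁻¹ ^ d ∈ Algebra.adjoin k ({t⁻¹} : Set F) := by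
  have hti : t⁻¹ ∈ Algebra.adjoin k ({t⁻¹} : Set F) :=
    Algebra.subset_adjoin (Set.mem_singleton _)
  rw [Polynomial.aeval_eq_sum_range' (Nat.lt_succ_of_le hd), Finset.sum_mul]
  refine Subalgebra.sum_mem _ fun i hi => ?_
  have hi' : i ≤ d := Nat.lt_succ_iff.mp (Finset.mem_range.mp hi)
  have h1 : t ^ i * t⁻¹ ^ d = t⁻¹ ^ (d - i) := by
    obtain ⟨e, rfl⟩ := Nat.exists_eq_add_of_le hi'
    rw [Nat.add_sub_cancel_left, _root_.pow_add, ← mul_assoc, ← mul_pow, mul_inv_cancel₀ ht,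
      one_pow, one_mul]
  rw [Algebra.smul_mul_assoc, h1]
  exact Subalgebra.smul_mem _ (Subalgebra.pow_mem _ hti _) _

/-- Every element of `k[t]` becomes an element of `k[t⁻¹]` after multiplication by a large power
of `t⁻¹` (monotone form). -/
theorem exists_forall_mul_inv_pow_mem {k F : Type*} [Field k] [Field F] [Algebra k F] (t : F)
    (ht : t ≠ 0) (c : F) (hc : c ∈ Algebra.adjoin k ({t} : Set F)) :
    ∃ m₀ : ℕ, ∀ d : ℕ, m₀ ≤ d → c * t⁻¹ ^ d ∈ Algebra.adjoin k ({t⁻¹} : Set F) := by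
  rw [Algebra.adjoin_singleton_eq_range_aeval] at hc
  obtain ⟨P, rfl⟩ := hc
  exact ⟨P.natDegree, fun d hd => aeval_mul_inv_pow_mem t ht P d hd⟩

/-- A monic polynomial over `F` all of whose coefficients lie in a subalgebra `S` witnesses
integrality over `S` of each of its roots. -/
theorem isIntegral_of_monic_of_coeff_mem {k F : Type*} [Field k] [Field F] [Algebra k F]
    (S : Subalgebra k F) (q : Polynomial F) (hq : q.Monic) (hcoeff : ∀ i, q.coeff i ∈ S)
    (y : F) (hy : q.eval y = 0) : IsIntegral S y := by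
  have hlift : q ∈ Polynomial.lifts (algebraMap S F) := by
    rw [Polynomial.lifts_iff_coeff_lifts]
    intro i
    exact ⟨⟨q.coeff i, hcoeff i⟩, rfl⟩
  obtain ⟨r, hr, -, hrm⟩ := Polynomial.lifts_and_natDegree_eq_and_monic hlift hq
  refine ⟨r, hrm, ?_⟩
  rw [← Polynomial.eval_map, hr, hy]

/-- Monotone form: if `x` is integral over `k[t]`, then `x * t⁻¹ ^ m` is integral over `k[t⁻¹]`
for all sufficiently large `m`. -/
theorem exists_forall_isIntegral_inv_pow {k F : Type*} [Field k] [Field F] [Algebra k F]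
    (t x : F) (ht : t ≠ 0) (hx : IsIntegral (Algebra.adjoin k ({t} : Set F)) x) :
    ∃ m₀ : ℕ, ∀ m : ℕ, m₀ ≤ m → IsIntegral (Algebra.adjoin k ({t⁻¹} : Set F)) (x * t⁻¹ ^ m) := by
  obtain ⟨p, hpm, hpx⟩ := hx
  -- the image of `p` in `F[X]`
  set P : Polynomial F := p.map (algebraMap (Algebra.adjoin k ({t} : Set F)) F) with hP
  have hPm : P.Monic := hpm.map _
  have hPx : P.eval x = 0 := by rw [hP, Polynomial.eval_map]; exact hpx
  have hPc : ∀ i, P.coeff i ∈ Algebra.adjoin k ({t} : Set F) := by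
    intro i
    rw [hP, Polynomial.coeff_map]
    exact (p.coeff i).2
  -- a uniform bound
  choose M hM using fun i => exists_forall_mul_inv_pow_mem t ht (P.coeff i) (hPc i)
  refine ⟨(Finset.range (P.natDegree + 1)).sup M, fun m hm => ?_⟩
  have hti : t⁻¹ ∈ Algebra.adjoin k ({t⁻¹} : Set F) :=
    Algebra.subset_adjoin (Set.mem_singleton _)
  refine isIntegral_of_monic_of_coeff_mem _ (P.scaleRoots (t⁻¹ ^ m))
    ((Polynomial.monic_scaleRoots_iff _).mpr hPm) ?_ _ ?_
  · intro i
    rw [Polynomial.coeff_scaleRoots]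
    rcases lt_trichotomy i P.natDegree with hi | hi | hi
    · -- `P.natDegree - i ≥ 1`, so the exponent is at least `m`
      have h1 : M i ≤ m * (P.natDegree - i) := by
        have h2 : M i ≤ m :=
          le_trans (Finset.le_sup (f := M) (Finset.mem_range.mpr (by omega))) hm
        have h3 : 1 ≤ P.natDegree - i := by omega
        calc M i ≤ m := h2
          _ = m * 1 := (mul_one m).symm
          _ ≤ m * (P.natDegree - i) := Nat.mul_le_mul_left m h3
      rw [← pow_mul]
      exact hM i _ h1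
    · rw [hi, Nat.sub_self, pow_zero, mul_one, hPm.coeff_natDegree]
      exact Subalgebra.one_mem _
    · rw [Polynomial.coeff_eq_zero_of_natDegree_lt hi, zero_mul]
      exact Subalgebra.zero_mem _
  · have := Polynomial.scaleRoots_eval₂_mul (RingHom.id F) x (t⁻¹ ^ m) (p := P)
    simp only [Polynomial.eval₂_id, RingHom.id_apply] at this
    rw [mul_comm x, this, hPx, mul_zero]

/-- **(L-alg)**: if `x` is integral over `k[t]`, then `x * t⁻¹ ^ m` is integral over `k[t⁻¹]`
for some `m`. -/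
theorem exists_isIntegral_inv_pow {k F : Type*} [Field k] [Field F] [Algebra k F] (t x : F)
    (ht : t ≠ 0) (hx : IsIntegral (Algebra.adjoin k {t}) x) :
    ∃ m : ℕ, IsIntegral (Algebra.adjoin k {t⁻¹}) (x * t⁻¹ ^ m) := by
  obtain ⟨m₀, h⟩ := exists_forall_isIntegral_inv_pow t x ht hx
  exact ⟨m₀, h m₀ le_rfl⟩

end Fermat.Agent.S29.IntAlg
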