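import Mathlib
import Fermat.Agent.S29.KPlanDefs
import Fermat.Agent.S29.K1
import Fermat.Agent.S29.K2Sub

/-!
# S29 block [K]: the (K1)/(K2Sub) rows at the Props of `KPlanDefs` (owner: helper17)

One-line citations, so that the top assembly can consume the rows of the (K1)/(K2) table at the
exact types of `KPlanDefs.lean`.
-/

set_option autoImplicit false

namespace Fermat.Agent.S29.K

/-- Row 4 of the [K] master table: `Mchi N 1 = F_ℂ`. -/
theorem k1Statement (N : ℕ) [NeZero N] : KPlan.K1Statement N :=
  Mchi_one_eq

/-- Row 5 of the [K] master table. -/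
theorem k2SubStatement (N : ℕ) : KPlan.K2SubStatement N :=
  fun χ hT => coe_VchiSub χ hT

/-- Row 6 of the [K] master table. -/
theorem k2VMStatement (N : ℕ) [NeZero N] : KPlan.K2VMStatement N :=
  fun χ => Vchi_subset_Mchi χ

end Fermat.Agent.S29.K
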