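import Mathlib
import Fermat.Agent.S29.K1IntB
import Fermat.Agent.S29.K2Div

/-!
# S29 block [K], leaf (K1Int): forms of weight `12 m` give integral elements of `F_ℂ`

The table statement (board #1922) verbatim: for `G ∈ MF N (12 m)` the q-series
`x = qx G / DeltaC ^ m` lies in `FC N`, is integral over `ℂ[jC]`, and `x · jC⁻ᵐ` is integral over
`ℂ[jC⁻¹]`.  Core = `K1IntB` (coset norm + level-one structure), membership = the (K1) top
`K2Div.mchi_one_eq_FC`.
-/

set_option autoImplicit false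

namespace Fermat.Agent.S29.K

open UpperHalfPlane ModularForm CongruenceSubgroup ModularCurve
open scoped MatrixGroups ModularForm Manifold

/-- **(K1Int).** For `G ∈ MF N (12 m)` and `x · DeltaC ^ m = qx G`: `x ∈ F_ℂ`, `x` is integral
over `ℂ[jC]` and `x · jC⁻ᵐ` is integral over `ℂ[jC⁻¹]`. -/
theorem isIntegral_of_form {N : ℕ} [NeZero N] (m : ℕ) {G : ℍ → ℂ} (hG : G ∈ S20.MF N (12 * m))
    {x : LaurentSeries ℂ} (hx : x * DeltaC ^ m = qx G) :
    x ∈ FC N ∧ IsIntegral (Algebra.adjoin ℂ ({jC} : Set (LaurentSeries ℂ))) x ∧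
      IsIntegral (Algebra.adjoin ℂ ({jC⁻¹} : Set (LaurentSeries ℂ))) (x * jC⁻¹ ^ m) :=
  K1IntB.isIntegral_of_form_of_K1 (K2Div.mchi_one_eq_FC N).subset m hG hx

end Fermat.Agent.S29.K
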