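/-
S29 block [K], leaf [K1Sym] of helper17's table (#1922) — K1Sym.lean (helper50).

For `A, B ∈ MF N w` (`B ≠ 0`) the homogeneous polynomial `∏_q (cj B q · X − cj A q · Y)`
(product over the cosets `q ∈ SL(2, ℤ) ⧸ Γ₀(N)`) has level-one coefficients `s r ∈ LF (μ · w)`
(`μ = [SL(2, ℤ) : Γ₀(N)]`), nonzero leading coefficient `s μ = ∏_q cj B q`, and vanishes at
`(X, Y) = (A, B)`:   `∑_r s r · A ^ r · B ^ (μ − r) = 0`.

The coefficients are produced by Lagrange interpolation from the level-one forms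
`S20.esymQ N w (t • B − A) μ = ∏_q (t · cj B q − cj A q)`, `t = 0, 1, …, μ`.
-/
import Mathlib
import Fermat.Agent.S29.KDefs
import Fermat.Agent.S20.Basic
import Fermat.Agent.S20.Sym
import Fermat.Agent.S24.AnTaylor

set_option autoImplicit false

noncomputable section

namespace Fermat.Agent.S29.K

open UpperHalfPlane ModularForm CongruenceSubgroup Polynomial
open scoped MatrixGroups ModularForm Manifold

namespace K1Sym

/-- Holomorphic functions on `ℍ` have no zero divisors. -/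
theorem eq_zero_or_eq_zero_of_mul {f g : ℍ → ℂ} (hf : MDiff f) (hg : MDiff g)
    (h : f * g = 0) : f = 0 ∨ g = 0 := by
  have h1 : S24.taylorAt UpperHalfPlane.I f * S24.taylorAt UpperHalfPlane.I g = 0 := by
    rw [← S24.taylorAt_mul UpperHalfPlane.I hf hg, h, S24.taylorAt_zero]
  rcases mul_eq_zero.mp h1 with h2 | h2
  · exact Or.inl (S24.eq_zero_of_taylorAt_eq_zero UpperHalfPlane.I hf h2)
  · exact Or.inr (S24.eq_zero_of_taylorAt_eq_zero UpperHalfPlane.I hg h2)

/-- A finite product of nonzero holomorphic functions on `ℍ` is nonzero (and holomorphic). -/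
theorem prod_mdiff_ne_zero {ι : Type*} (s : Finset ι) (f : ι → ℍ → ℂ)
    (hf : ∀ i ∈ s, MDiff (f i)) (h0 : ∀ i ∈ s, f i ≠ 0) :
    MDiff (∏ i ∈ s, f i) ∧ ∏ i ∈ s, f i ≠ 0 := by
  classical
  induction s using Finset.induction_on with
  | empty =>
    refine ⟨?_, ?_⟩
    · simp only [Finset.prod_empty]
      exact mdifferentiable_const
    · simp only [Finset.prod_empty]
      intro h
      have := congrFun h UpperHalfPlane.I
      simp at this
  | insert a s ha ih =>
    have ih' := ih (fun i hi => hf i (Finset.mem_insert_of_mem hi))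
      (fun i hi => h0 i (Finset.mem_insert_of_mem hi))
    rw [Finset.prod_insert ha]
    refine ⟨(hf a (Finset.mem_insert_self a s)).mul ih'.1, fun h => ?_⟩
    rcases eq_zero_or_eq_zero_of_mul (hf a (Finset.mem_insert_self a s)) ih'.1 h with h1 | h1
    · exact h0 a (Finset.mem_insert_self a s) h1
    · exact ih'.2 h1

variable {N : ℕ}

/-- A conjugate of a nonzero function is nonzero. -/
theorem cj_ne_zero (w : ℤ) {B : ℍ → ℂ} (hB0 : B ≠ 0) (q : S20.Q N) : S20.cj N w B q ≠ 0 := by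
  intro h
  apply hB0
  have h1 : (S20.cj N w B q) ∣[w] (Quotient.out q) = B := by
    unfold S20.cj
    rw [← SlashAction.slash_mul, inv_mul_cancel, SlashAction.slash_one]
  rw [← h1, h, SlashAction.zero_slash]

/-- The pointwise polynomial `∏_q (cj B q z · X − cj A q z)`. -/
def sp (N : ℕ) [NeZero N] (w : ℤ) (A B : ℍ → ℂ) (z : ℍ) : ℂ[X] :=
  ∏ q : S20.Q N, (C (S20.cj N w B q z) * X - C (S20.cj N w A q z))

theorem natDegree_sp_le [NeZero N] (w : ℤ) (A B : ℍ → ℂ) (z : ℍ) :
    (sp N w A B z).natDegree ≤ Fintype.card (S20.Q N) := by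
  unfold sp
  refine (natDegree_prod_le _ _).trans ?_
  have h : ∀ q ∈ (Finset.univ : Finset (S20.Q N)),
      (C (S20.cj N w B q z) * X - C (S20.cj N w A q z) : ℂ[X]).natDegree ≤ 1 := by
    intro q _
    refine (natDegree_sub_le _ _).trans (max_le ?_ ?_)
    · exact (natDegree_C_mul_le _ _).trans natDegree_X_le
    · rw [natDegree_C]
      exact zero_le_one
  have h2 := Finset.sum_le_card_nsmul (Finset.univ : Finset (S20.Q N))
    (fun q => (C (S20.cj N w B q z) * X - C (S20.cj N w A q z) : ℂ[X]).natDegree) 1 h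
  rw [Finset.card_univ, smul_eq_mul, mul_one] at h2
  exact h2

theorem eval_sp [NeZero N] (w : ℤ) (A B : ℍ → ℂ) (z : ℍ) (t : ℂ) :
    (sp N w A B z).eval t = ∏ q : S20.Q N, (S20.cj N w B q z * t - S20.cj N w A q z) := by
  unfold sp
  rw [eval_prod]
  simp

theorem coeff_sp_card [NeZero N] (w : ℤ) (A B : ℍ → ℂ) (z : ℍ) :
    (sp N w A B z).coeff (Fintype.card (S20.Q N)) = ∏ q : S20.Q N, S20.cj N w B q z := by
  unfold sp
  have h := coeff_prod_of_natDegree_le (s := (Finset.univ : Finset (S20.Q N)))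
    (fun q : S20.Q N => C (S20.cj N w B q z) * X - C (S20.cj N w A q z)) 1 (fun q _ => by
      refine (natDegree_sub_le _ _).trans (max_le ?_ ?_)
      · exact (natDegree_C_mul_le _ _).trans natDegree_X_le
      · rw [natDegree_C]
        exact zero_le_one)
  rw [Finset.card_univ, mul_one] at h
  rw [h]
  refine Finset.prod_congr rfl fun q _ => ?_
  simp

/-- `esymQ` at the full cardinality is the product of the conjugates. -/
theorem esymQ_card [NeZero N] (w : ℤ) (f : ℍ → ℂ) :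
    S20.esymQ N w f (Fintype.card (S20.Q N)) = ∏ q : S20.Q N, S20.cj N w f q := by
  rw [S20.Sym.esymQ_eq_sum, ← Finset.card_univ, Finset.powersetCard_self, Finset.sum_singleton]

theorem esymQ_card_apply [NeZero N] (w : ℤ) (A B : ℍ → ℂ) (t : ℂ) (z : ℍ) :
    S20.esymQ N w (t • B - A) (Fintype.card (S20.Q N)) z = (sp N w A B z).eval t := by
  rw [esymQ_card, eval_sp, Finset.prod_apply]
  refine Finset.prod_congr rfl fun q _ => ?_
  rw [S20.cj_sub, S20.cj_const_smul]
  simp [mul_comm]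

/-- The interpolation nodes `0, 1, …, μ`. -/
def node (μ : ℕ) : Fin (μ + 1) → ℂ := fun i => ((i : ℕ) : ℂ)

theorem node_injective (μ : ℕ) : Function.Injective (node μ) := fun _ _ h =>
  Fin.val_injective (Nat.cast_injective (R := ℂ) h)

/-- The coefficient functions. -/
def coeffFun (N : ℕ) [NeZero N] (w : ℤ) (A B : ℍ → ℂ) (r : ℕ) : ℍ → ℂ :=
  ∑ i : Fin (Fintype.card (S20.Q N) + 1),
    ((Lagrange.basis Finset.univ (node (Fintype.card (S20.Q N))) i).coeff r) •
      S20.esymQ N w (node (Fintype.card (S20.Q N)) i • B - A) (Fintype.card (S20.Q N))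

theorem coeffFun_apply [NeZero N] (w : ℤ) (A B : ℍ → ℂ) (r : ℕ) (z : ℍ) :
    coeffFun N w A B r z = (sp N w A B z).coeff r := by
  have hdeg : (sp N w A B z).degree <
      (Finset.univ : Finset (Fin (Fintype.card (S20.Q N) + 1))).card := by
    rw [Finset.card_univ, Fintype.card_fin]
    refine (degree_le_of_natDegree_le (natDegree_sp_le w A B z)).trans_lt ?_
    exact_mod_cast Nat.lt_succ_self _
  have h := Lagrange.eq_interpolate (s := (Finset.univ : Finset (Fin (Fintype.card (S20.Q N) + 1))))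
    (v := node (Fintype.card (S20.Q N))) (f := sp N w A B z)
    ((node_injective _).injOn) hdeg
  conv_rhs => rw [h]
  rw [Lagrange.interpolate_apply, finsetSum_coeff]
  unfold coeffFun
  rw [Finset.sum_apply]
  refine Finset.sum_congr rfl fun i _ => ?_
  rw [coeff_C_mul, Pi.smul_apply, smul_eq_mul, esymQ_card_apply, mul_comm]

theorem coeffFun_mem_LF [NeZero N] {w : ℤ} {A B : ℍ → ℂ} (hA : A ∈ S20.MF N w)
    (hB : B ∈ S20.MF N w) (r : ℕ) :
    coeffFun N w A B r ∈ S20.LF ((Fintype.card (S20.Q N) : ℤ) * w) := by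
  unfold coeffFun
  refine Submodule.sum_mem _ fun i _ => Submodule.smul_mem _ _ ?_
  exact S20.esymQ_mem_LF ((S20.MF N w).sub_mem ((S20.MF N w).smul_mem _ hB) hA) _

theorem coeffFun_card [NeZero N] (w : ℤ) (A B : ℍ → ℂ) :
    coeffFun N w A B (Fintype.card (S20.Q N)) = ∏ q : S20.Q N, S20.cj N w B q := by
  funext z
  rw [coeffFun_apply, coeff_sp_card, Finset.prod_apply]

/-- The relation, pointwise. -/
theorem relation_apply [NeZero N] {w : ℤ} {A B : ℍ → ℂ} (hA : S20.IsInv N w A)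
    (hB : S20.IsInv N w B) (z : ℍ) :
    ∑ r ∈ Finset.range (Fintype.card (S20.Q N) + 1),
      (sp N w A B z).coeff r * A z ^ r * B z ^ (Fintype.card (S20.Q N) - r) = 0 := by
  classical
  set μ := Fintype.card (S20.Q N) with hμ
  have hA1 : S20.cj N w A ((1 : SL(2, ℤ)) : S20.Q N) z = A z := by rw [S20.cj_one hA]
  have hB1 : S20.cj N w B ((1 : SL(2, ℤ)) : S20.Q N) z = B z := by rw [S20.cj_one hB]
  by_cases hy : B z = 0
  · -- every term vanishes
    refine Finset.sum_eq_zero fun r hr => ?_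
    rw [Finset.mem_range] at hr
    rcases Nat.lt_succ_iff_lt_or_eq.mp hr with hlt | heq
    · have : μ - r ≠ 0 := by omega
      rw [hy, zero_pow this, mul_zero]
    · rw [heq, coeff_sp_card]
      have : ∏ q : S20.Q N, S20.cj N w B q z = 0 :=
        Finset.prod_eq_zero (Finset.mem_univ ((1 : SL(2, ℤ)) : S20.Q N)) (by rw [hB1, hy])
      rw [this, zero_mul, zero_mul]
  · have h1 : ∀ r ∈ Finset.range (μ + 1),
        (sp N w A B z).coeff r * A z ^ r * B z ^ (μ - r) =
          B z ^ μ * ((sp N w A B z).coeff r * (A z / B z) ^ r) := by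
      intro r hr
      rw [Finset.mem_range] at hr
      have hle : r ≤ μ := by omega
      have hpow : B z ^ μ = B z ^ (μ - r) * B z ^ r := by
        rw [← pow_add, Nat.sub_add_cancel hle]
      rw [hpow, div_pow]
      field_simp
    rw [Finset.sum_congr rfl h1, ← Finset.mul_sum,
      ← eval_eq_sum_range' (Nat.lt_succ_of_le (natDegree_sp_le w A B z)) (A z / B z), eval_sp]
    have : ∏ q : S20.Q N, (S20.cj N w B q z * (A z / B z) - S20.cj N w A q z) = 0 := by
      refine Finset.prod_eq_zero (Finset.mem_univ ((1 : SL(2, ℤ)) : S20.Q N)) ?_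
      rw [hA1, hB1]
      field_simp
      ring
    rw [this, mul_zero]

/-- Core statement, with the index `μ = Fintype.card (Q N)` abstracted. -/
theorem core [NeZero N] {w : ℤ} {A B : ℍ → ℂ} (hA : A ∈ S20.MF N w) (hB : B ∈ S20.MF N w)
    (hB0 : B ≠ 0) (μ : ℕ) (hμ : Fintype.card (S20.Q N) = μ) :
    ∃ s : Fin (μ + 1) → ℍ → ℂ, (∀ r, s r ∈ S20.LF ((μ : ℤ) * w)) ∧ s (Fin.last _) ≠ 0 ∧
      ∑ r, s r * A ^ (r : ℕ) * B ^ (μ - (r : ℕ)) = 0 := by
  subst hμ
  obtain ⟨hAd, hAi, -⟩ := S20.mem_MF_iff.mp hA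
  obtain ⟨hBd, hBi, -⟩ := S20.mem_MF_iff.mp hB
  refine ⟨fun r => coeffFun N w A B (r : ℕ), fun r => coeffFun_mem_LF hA hB _, ?_, ?_⟩
  · show coeffFun N w A B (Fintype.card (S20.Q N)) ≠ 0
    rw [coeffFun_card]
    exact (prod_mdiff_ne_zero Finset.univ (fun q : S20.Q N => S20.cj N w B q)
      (fun q _ => S20.mdiff_cj hBd q) (fun q _ => cj_ne_zero w hB0 q)).2
  · funext z
    rw [Finset.sum_apply]
    have h := relation_apply hAi hBi z
    rw [← Fin.sum_univ_eq_sum_range
      (fun r => (sp N w A B z).coeff r * A z ^ r * B z ^ (Fintype.card (S20.Q N) - r))] at h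
    rw [Pi.zero_apply, ← h]
    refine Finset.sum_congr rfl fun r _ => ?_
    simp only [Pi.mul_apply, Pi.pow_apply]
    rw [coeffFun_apply]

end K1Sym

/-- **[K1Sym]** For `A, B ∈ MF N w`, `B ≠ 0`, there are level-one forms `s r` of weight `μ · w`
(`μ = [SL(2, ℤ) : Γ₀(N)]`), `s μ ≠ 0`, with `∑_r s r · A ^ r · B ^ (μ − r) = 0`
(the coefficients of `∏_q (cj B q · X − cj A q)`). -/
theorem exists_levelOne_relation {N : ℕ} [NeZero N] {w : ℤ} {A B : ℍ → ℂ} (hA : A ∈ S20.MF N w)
    (hB : B ∈ S20.MF N w) (hB0 : B ≠ 0) :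
    ∃ s : Fin (Nat.card (S20.Q N) + 1) → ℍ → ℂ,
      (∀ r, s r ∈ S20.LF ((Nat.card (S20.Q N) : ℤ) * w)) ∧ s (Fin.last _) ≠ 0 ∧
      ∑ r, s r * A ^ (r : ℕ) * B ^ (Nat.card (S20.Q N) - (r : ℕ)) = 0 :=
  K1Sym.core hA hB hB0 (Nat.card (S20.Q N)) Nat.card_eq_fintype_card.symm

end Fermat.Agent.S29.K
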