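/-
S29 block [K], the (K1) top in HYPOTHESIS FORM (helper69; B-copy, A = helper17).

`Mchi N 1 = FC N` from the three leaves [K1Gen], [K1Deg], [K1Rank] of helper17's table (taken as
hypotheses, verbatim) and the landed [K1Field] + [K1Prim]; plus the `ℚ̄`-rational corollary
through `RatDescent`.
-/
import Mathlib
import Fermat.Agent.S29.KDefs
import Fermat.Agent.S29.K1Field
import Fermat.Agent.S29.K1Prim
import Fermat.Agent.S29.RatDescent

set_option autoImplicit false

namespace Fermat.Agent.S29.K.K1TopB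

open UpperHalfPlane ModularForm CongruenceSubgroup ModularCurve
open scoped MatrixGroups ModularForm Manifold

variable {N : ℕ}

/-- The formal `j` lies in `FC N`. -/
theorem jC_mem_FC [NeZero N] : jC ∈ FC N := by
  have h := jqd_mem_full N (one_dvd N)
  rw [qExpand_one_apply] at h
  exact coeffEmb_mem_laurentBaseChange ℂ h

/-- A subfield of `ℂ((q))` containing `ℂ` and the generators `j(q^d)`, `d ∣ N`, contains `FC N`. -/
theorem FC_le_of_gen [NeZero N] (L : IntermediateField ℂ (LaurentSeries ℂ))
    (hGen : ∀ (d : ℕ) [NeZero d], d ∣ N → coeffEmb ℂ (qExpand ℚ d jq) ∈ L) : FC N ≤ L := by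
  -- the `ℚ`-subfield of `ℚ((q))` of series whose base change lies in `L`
  let M : IntermediateField ℚ (LaurentSeries ℚ) :=
    { toSubalgebra :=
        { carrier := {y | coeffEmb ℂ y ∈ L}
          mul_mem' := fun {a b} ha hb => by
            show coeffEmb ℂ (a * b) ∈ L
            rw [map_mul]
            exact mul_mem ha hb
          add_mem' := fun {a b} ha hb => by
            show coeffEmb ℂ (a + b) ∈ L
            rw [map_add]
            exact add_mem ha hb
          algebraMap_mem' := fun r => by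
            show coeffEmb ℂ (algebraMap ℚ (LaurentSeries ℚ) r) ∈ L
            have h : coeffEmb ℂ (algebraMap ℚ (LaurentSeries ℚ) r) =
                algebraMap ℂ (LaurentSeries ℂ) (algebraMap ℚ ℂ r) := by
              rw [algebraMap_laurentSeries_eq_single, algebraMap_laurentSeries_eq_single, coeffEmb,
                coeffMap_single]
            rw [h]
            exact L.algebraMap_mem _ }
      inv_mem' := fun a ha => by
        show coeffEmb ℂ a⁻¹ ∈ L
        rw [map_inv₀]
        exact inv_mem ha }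
  have hM : modularFunctionFieldFull N ≤ M := by
    rw [modularFunctionFieldFull, IntermediateField.adjoin_le_iff]
    rintro x ⟨d, hd0, hd, rfl⟩
    exact hGen d hd
  show IntermediateField.adjoin ℂ
    (⇑(coeffEmb ℂ) '' (modularFunctionFieldFull N : Set (LaurentSeries ℚ))) ≤ L
  rw [IntermediateField.adjoin_le_iff]
  rintro _ ⟨y, hy, rfl⟩
  exact hM hy

/-- **(K1) top, hypothesis form**: `Mchi N 1 = FC N` from [K1Gen], [K1Deg], [K1Rank]. -/
theorem Mchi_one_eq_of_leaves [NeZero N]
    (hGen : ∀ (d : ℕ) [NeZero d], d ∣ N → coeffEmb ℂ (qExpand ℚ d jq) ∈ Mchi N 1)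
    (hDeg : ∀ x ∈ Mchi N 1,
      ∃ P : Polynomial ↥(IntermediateField.adjoin ℂ ({jC} : Set (LaurentSeries ℂ))),
        P ≠ 0 ∧ P.natDegree ≤ Nat.card (S20.Q N) ∧ Polynomial.aeval x P = 0)
    (hRank : ∃ b : Fin (Nat.card (S20.Q N)) → LaurentSeries ℂ, (∀ i, b i ∈ FC N) ∧
      LinearIndependent ↥(IntermediateField.adjoin ℂ ({jC} : Set (LaurentSeries ℂ))) b) :
    Mchi N 1 = (FC N : Set (LaurentSeries ℂ)) := by
  obtain ⟨L, hL⟩ := exists_intermediateField_Mchi_one (N := N)
  have hmem : ∀ x, x ∈ L ↔ x ∈ Mchi N 1 := fun x => by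
    rw [← hL]
    rfl
  have hFL : FC N ≤ L := FC_le_of_gen L (fun d _ hd => (hmem _).mpr (hGen d hd))
  have hjF : IntermediateField.adjoin ℂ ({jC} : Set (LaurentSeries ℂ)) ≤ FC N := by
    rw [IntermediateField.adjoin_le_iff]
    rintro _ rfl
    exact jC_mem_FC
  have hjL : IntermediateField.adjoin ℂ ({jC} : Set (LaurentSeries ℂ)) ≤ L := hjF.trans hFL
  obtain ⟨b, hb, hli⟩ := hRank
  have hEq : IntermediateField.extendScalars hjL = IntermediateField.extendScalars hjF := by
    refine K1Prim.eq_of_degree_le (IntermediateField.extendScalars hjF)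
      (IntermediateField.extendScalars hjL) ?_ (Nat.card (S20.Q N)) b ?_ hli ?_
    · intro x hx
      rw [IntermediateField.mem_extendScalars] at hx ⊢
      exact hFL hx
    · intro i
      rw [IntermediateField.mem_extendScalars]
      exact hb i
    · intro x hx
      rw [IntermediateField.mem_extendScalars] at hx
      exact hDeg x ((hmem x).mp hx)
  ext x
  rw [← hmem x]
  have h1 : x ∈ IntermediateField.extendScalars hjL ↔ x ∈ IntermediateField.extendScalars hjF := by
    rw [hEq]
  rw [IntermediateField.mem_extendScalars, IntermediateField.mem_extendScalars] at h1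
  exact h1

/-- **`ℚ̄`-rational form** (with `RatDescent`): a series with `ℚ̄`-coefficients whose base change
along any `φ : ℚ̄ → ℂ` is a quotient of modular forms of level `Γ₀(N)` lies in `F̄_N`. -/
theorem coeffMap_mem_Mchi_one_iff_of_leaves [NeZero N]
    (hGen : ∀ (d : ℕ) [NeZero d], d ∣ N → coeffEmb ℂ (qExpand ℚ d jq) ∈ Mchi N 1)
    (hDeg : ∀ x ∈ Mchi N 1,
      ∃ P : Polynomial ↥(IntermediateField.adjoin ℂ ({jC} : Set (LaurentSeries ℂ))),
        P ≠ 0 ∧ P.natDegree ≤ Nat.card (S20.Q N) ∧ Polynomial.aeval x P = 0)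
    (hRank : ∃ b : Fin (Nat.card (S20.Q N)) → LaurentSeries ℂ, (∀ i, b i ∈ FC N) ∧
      LinearIndependent ↥(IntermediateField.adjoin ℂ ({jC} : Set (LaurentSeries ℂ))) b)
    (φ : AlgebraicClosure ℚ →+* ℂ) (y : LaurentSeries (AlgebraicClosure ℚ)) :
    coeffMap φ y ∈ Mchi N 1 ↔ y ∈ modularFunctionFieldBar N := by
  rw [Mchi_one_eq_of_leaves hGen hDeg hRank]
  exact RatDescent.coeffMap_mem_iff_mem_modularFunctionFieldBar φ N y

end Fermat.Agent.S29.K.K1TopB
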