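/-
S29 block [K], route B of [KPInv] (helper95) — two generic algebra lemmas (Mathlib only).

* `exists_extend_order` : an additive "order" function on the nonzero elements of a domain extends
  to the fraction field.
* `exists_ringEquiv_restrict` : a ring automorphism of `F` which, together with its inverse,
  preserves the image of `𝒪` restricts to a ring automorphism of `𝒪`.
-/
import Mathlib

set_option autoImplicit false

namespace Fermat.Agent.S29.K3Alg

theorem exists_extend_order {𝒪 F : Type*} [CommRing 𝒪] [IsDomain 𝒪] [Field F] [Algebra 𝒪 F]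
    [IsFractionRing 𝒪 F] (o : 𝒪 → ℤ)
    (ho : ∀ a b : 𝒪, a ≠ 0 → b ≠ 0 → o (a * b) = o a + o b) :
    ∃ ν : F → ℤ, (∀ x y : F, x ≠ 0 → y ≠ 0 → ν (x * y) = ν x + ν y) ∧
      ∀ a : 𝒪, a ≠ 0 → ν (algebraMap 𝒪 F a) = o a := by
  classical
  have hinj : Function.Injective (algebraMap 𝒪 F) := IsFractionRing.injective 𝒪 F
  have hne : ∀ a : 𝒪, a ≠ 0 → algebraMap 𝒪 F a ≠ 0 := fun a ha h =>
    ha (hinj (h.trans (map_zero _).symm))
  have ho1 : o 1 = 0 := by
    have h := ho 1 1 one_ne_zero one_ne_zero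
    rw [mul_one] at h
    linarith
  -- a chosen fraction representation
  have hrep : ∀ x : F, ∃ ab : 𝒪 × 𝒪, ab.2 ≠ 0 ∧
      algebraMap 𝒪 F ab.1 / algebraMap 𝒪 F ab.2 = x := by
    intro x
    obtain ⟨a, b, hb, hab⟩ := IsFractionRing.div_surjective (A := 𝒪) x
    exact ⟨(a, b), nonZeroDivisors.ne_zero hb, hab⟩
  choose r hr2 hr using hrep
  have hr1 : ∀ x : F, x ≠ 0 → (r x).1 ≠ 0 := by
    intro x hx h
    apply hx
    rw [← hr x, h, map_zero, zero_div]
  -- the key well-definedness statement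
  have key : ∀ (x : F) (a b : 𝒪), a ≠ 0 → b ≠ 0 → algebraMap 𝒪 F a / algebraMap 𝒪 F b = x →
      o (r x).1 - o (r x).2 = o a - o b := by
    intro x a b ha hb hab
    have hx : x ≠ 0 := by
      rw [← hab]
      exact div_ne_zero (hne a ha) (hne b hb)
    have h1 : algebraMap 𝒪 F (r x).1 / algebraMap 𝒪 F (r x).2
        = algebraMap 𝒪 F a / algebraMap 𝒪 F b := (hr x).trans hab.symm
    rw [div_eq_div_iff (hne _ (hr2 x)) (hne b hb), ← map_mul, ← map_mul] at h1
    have h2 := hinj h1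
    have h3 := congrArg o h2
    rw [ho _ _ (hr1 x hx) hb, ho _ _ ha (hr2 x)] at h3
    linarith
  refine ⟨fun x => o (r x).1 - o (r x).2, ?_, ?_⟩
  · intro x y hx hy
    have hxy := key (x * y) ((r x).1 * (r y).1) ((r x).2 * (r y).2)
      (mul_ne_zero (hr1 x hx) (hr1 y hy)) (mul_ne_zero (hr2 x) (hr2 y)) (by
        rw [map_mul, map_mul, ← div_mul_div_comm, hr x, hr y])
    simp only at hxy ⊢
    rw [hxy, ho _ _ (hr1 x hx) (hr1 y hy), ho _ _ (hr2 x) (hr2 y)]
    ring
  · intro a ha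
    have h := key (algebraMap 𝒪 F a) a 1 ha one_ne_zero (by rw [map_one, div_one])
    simp only at h ⊢
    rw [h, ho1, sub_zero]

theorem exists_ringEquiv_restrict {𝒪 F : Type*} [CommRing 𝒪] [Field F] [Algebra 𝒪 F]
    (hinj : Function.Injective (algebraMap 𝒪 F)) (σ : F ≃+* F)
    (h1 : ∀ a : 𝒪, σ (algebraMap 𝒪 F a) ∈ Set.range (algebraMap 𝒪 F))
    (h2 : ∀ a : 𝒪, σ.symm (algebraMap 𝒪 F a) ∈ Set.range (algebraMap 𝒪 F)) :
    ∃ τ : 𝒪 ≃+* 𝒪, ∀ a : 𝒪, σ (algebraMap 𝒪 F a) = algebraMap 𝒪 F (τ a) := by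
  classical
  choose f hf using h1
  choose g hg using h2
  refine ⟨{ toFun := f
            invFun := g
            left_inv := ?_
            right_inv := ?_
            map_mul' := ?_
            map_add' := ?_ }, fun a => (hf a).symm⟩
  · intro a
    apply hinj
    rw [hg, hf, RingEquiv.symm_apply_apply]
  · intro a
    apply hinj
    rw [hf, hg, RingEquiv.apply_symm_apply]
  · intro a b
    apply hinj
    rw [hf, map_mul, map_mul, map_mul, hf, hf]
  · intro a b
    apply hinj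
    rw [hf, map_add, map_add, map_add, hf, hf]

end Fermat.Agent.S29.K3Alg
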