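/-
S29 block [K], row [O-Ded] (helper52; dealt by helper16 #1998): the coordinate ring of the affine
modular curve over `ℂ`.

* `jC_eq`                  : `K.jC = jqModC ℂ`;
* `FC_eq`                  : `F_ℂ = K.FC N = laurentBaseChange ℂ (modularFunctionFieldFull N)` is
                             `modularFunctionFieldFullC ℂ N` (the two shapes of `F_ℂ` agree);
* `jCF N : ↥(K.FC N)`      : `j` as an element of `F_ℂ`;
* `transcendental_jCF`, `finiteDimensional_FC` : `j` is transcendental over `ℂ` and `F_ℂ` is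
                             finite over `ℂ(j)`;
* `ON N`                   : `O_N`, the integral closure of `ℂ[j]` in `F_ℂ`;
* `isDedekindDomain_ON`, `isFractionRing_ON`   : `O_N` is a Dedekind domain with fraction field
                             `F_ℂ`.
-/
import Mathlib
import Fermat.Prelude.Thm_ModularCurve_coeffMap_qExpand
import Fermat.Agent.S29.KDefs
import Fermat.Agent.S18.SepDeg
import Fermat.Agent.S18.ConstK
import Fermat.Agent.S24.RamSum

set_option autoImplicit false

noncomputable section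

namespace Fermat.Agent.S29.ODed

open ModularCurve IntermediateField HahnSeries
open Fermat.Agent.S18

/-- The formal `j`-invariant over `ℂ` is `jqModC ℂ`. -/
theorem jC_eq : K.jC = jqModC ℂ := by
  unfold K.jC
  rw [coeffEmb, ← jqModC_rat]
  exact coeffMap_jqModC (algebraMap ℚ ℂ)

/-- `coeffEmb ℂ` of `j(q^d)` over `ℚ` is `j(q^d)` over `ℂ`. -/
theorem coeffEmb_qExpand_jq (d : ℕ) [NeZero d] :
    coeffEmb ℂ (qExpand ℚ d jq) = qExpand ℂ d (jqModC ℂ) := by
  rw [coeffEmb, coeffMap_qExpand, ← jqModC_rat, coeffMap_jqModC]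

/-- `coeffEmb ℂ` maps `F_ℚ(N)` into `modularFunctionFieldFullC ℂ N`. -/
theorem coeffEmb_mem_fullC (N : ℕ) [NeZero N] {x : LaurentSeries ℚ}
    (hx : x ∈ modularFunctionFieldFull N) : coeffEmb ℂ x ∈ modularFunctionFieldFullC ℂ N := by
  unfold modularFunctionFieldFull at hx
  induction hx using IntermediateField.adjoin_induction with
  | mem x hx =>
    obtain ⟨d, hd0, hd, rfl⟩ := hx
    rw [coeffEmb_qExpand_jq]
    exact jqModCd_mem_full ℂ N hd
  | algebraMap r =>
    have h : coeffEmb ℂ (algebraMap ℚ (LaurentSeries ℚ) r) =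
        algebraMap ℂ (LaurentSeries ℂ) (algebraMap ℚ ℂ r) := by
      rw [algebraMap_laurentSeries_eq_single, algebraMap_laurentSeries_eq_single, coeffEmb,
        coeffMap_single]
    rw [h]
    exact (modularFunctionFieldFullC ℂ N).algebraMap_mem _
  | add x y _ _ hx hy =>
    rw [map_add]
    exact add_mem hx hy
  | inv x _ hx =>
    rw [map_inv₀]
    exact inv_mem hx
  | mul x y _ _ hx hy =>
    rw [map_mul]
    exact mul_mem hx hy

/-- **The two shapes of `F_ℂ` agree.** -/
theorem FC_eq (N : ℕ) [NeZero N] : K.FC N = modularFunctionFieldFullC ℂ N := by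
  apply le_antisymm
  · unfold K.FC laurentBaseChange
    rw [IntermediateField.adjoin_le_iff]
    rintro _ ⟨x, hx, rfl⟩
    exact coeffEmb_mem_fullC N hx
  · unfold modularFunctionFieldFullC
    rw [IntermediateField.adjoin_le_iff]
    rintro _ ⟨d, hd0, hd, rfl⟩
    rw [← coeffEmb_qExpand_jq]
    exact coeffEmb_mem_laurentBaseChange ℂ (jqd_mem_full N hd)

/-- `j` as an element of `F_ℂ`. -/
def jCF (N : ℕ) : ↥(K.FC N) :=
  ⟨K.jC, coeffEmb_mem_laurentBaseChange ℂ (by
    have h := jqd_mem_full N (one_dvd N)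
    rwa [qExpand_one_apply] at h)⟩

@[simp]
theorem coe_jCF (N : ℕ) : ((jCF N : ↥(K.FC N)) : LaurentSeries ℂ) = K.jC := rfl

/-- Transport of the landed facts on `modularFunctionFieldFullC ℂ N` along an equality. -/
theorem transc_fin_aux (N : ℕ) [NeZero N] (E : IntermediateField ℂ (LaurentSeries ℂ))
    (hE : E = modularFunctionFieldFullC ℂ N) (t : ↥E) (ht : (t : LaurentSeries ℂ) = jqModC ℂ) :
    Transcendental ℂ t ∧ FiniteDimensional ↥(ℂ⟮t⟯) ↥E := by
  subst hE
  have h : t = SepDeg.jb ℂ N := Subtype.ext ht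
  subst h
  exact ⟨ConstK.transcendental_jb ℂ N, SepDeg.finiteDimensional_full ℂ N⟩

/-- `j` is transcendental over `ℂ`. -/
theorem transcendental_jCF (N : ℕ) [NeZero N] : Transcendental ℂ (jCF N) :=
  (transc_fin_aux N (K.FC N) (FC_eq N) (jCF N) jC_eq).1

/-- `F_ℂ` is finite over `ℂ(j)`. -/
theorem finiteDimensional_FC (N : ℕ) [NeZero N] : FiniteDimensional ↥(ℂ⟮jCF N⟯) ↥(K.FC N) :=
  (transc_fin_aux N (K.FC N) (FC_eq N) (jCF N) jC_eq).2

/-- `O_N`: the integral closure of `ℂ[j]` in `F_ℂ`. -/
abbrev ON (N : ℕ) : Type := S24.RamSum.B ℂ (jCF N)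

/-- **`O_N` is a Dedekind domain.** -/
theorem isDedekindDomain_ON (N : ℕ) [NeZero N] : IsDedekindDomain (ON N) :=
  haveI := finiteDimensional_FC N
  S24.RamSum.isDedekindDomain (jCF N) (transcendental_jCF N)

/-- **`F_ℂ` is the fraction field of `O_N`.** -/
theorem isFractionRing_ON (N : ℕ) [NeZero N] : IsFractionRing (ON N) ↥(K.FC N) :=
  haveI := finiteDimensional_FC N
  S24.RamSum.isFractionRing (jCF N) (transcendental_jCF N)

end Fermat.Agent.S29.ODed
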