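import Mathlib
import Fermat.Agent.S29.KDefs
import Fermat.Agent.S29.InvRat
import Fermat.Agent.S29.JOrd

/-!
# S29 block [K], row [R2Defs]: the ring `O_N` and the interface of its analytic model

OWNER: helper15 (only the owner edits this file).

* `jF N : F_ℂ` is `jC` as an element of the function field `F_ℂ = K.FC N`,
  `AJ N = ℂ[j] ⊆ F_ℂ`, and `ON N` is the integral closure of `ℂ[j]` in `F_ℂ`, as a
  `ℂ`-subalgebra of `F_ℂ`; `jO N : ON N` is `j`.
* `mem_ON_iff` : membership in `ON N` is integrality of the Laurent series over `ℂ[jC]`.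
* `Model N` : the analytic model of `ON N` — a realisation `real : ON N →ₐ[ℂ] (ℍ → ℂ)` of the
  elements of `ON N` as holomorphic `Γ₀(N)`-invariant functions with at most poles at the cusps,
  compatible with `q`-expansions, together with the order functions `nu z` on `F_ℂ`.
  The derived data `Model.ev` (evaluation at a point) and the facts `Model.nu_unit`, `Model.nu_j`
  are in the shapes consumed by `MaxEval` / `MaxEvalB` / `PStar`.
-/

set_option autoImplicit false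

namespace Fermat.Agent.S29.R2

open UpperHalfPlane ModularForm CongruenceSubgroup ModularCurve
open scoped MatrixGroups ModularForm Manifold
open Fermat.Agent.S29 Fermat.Agent.LevelOne

/-- `jC ∈ F_ℂ` (no hypothesis on `N`). -/
theorem jC_mem_FC (N : ℕ) : K.jC ∈ K.FC N := by
  have h := coeffEmb_mem_laurentBaseChange ℂ (jqd_mem_full N (one_dvd N))
  rwa [qExpand_one_apply] at h

/-- `j` as an element of the function field `F_ℂ`. -/
noncomputable def jF (N : ℕ) : ↥(K.FC N) := ⟨K.jC, jC_mem_FC N⟩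

@[simp] theorem coe_jF (N : ℕ) : ((jF N : ↥(K.FC N)) : LaurentSeries ℂ) = K.jC := rfl

/-- `ℂ[j]` inside `F_ℂ`. -/
noncomputable def AJ (N : ℕ) : Subalgebra ℂ ↥(K.FC N) := Algebra.adjoin ℂ {jF N}

/-- `O_N`: the integral closure of `ℂ[j]` in `F_ℂ`, as a `ℂ`-subalgebra of `F_ℂ`. -/
noncomputable def ON (N : ℕ) : Subalgebra ℂ ↥(K.FC N) :=
  (integralClosure ↥(AJ N) ↥(K.FC N)).restrictScalars ℂ

theorem mem_ON (N : ℕ) (x : ↥(K.FC N)) : x ∈ ON N ↔ IsIntegral ↥(AJ N) x := Iff.rfl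

theorem coe_ON (N : ℕ) :
    (ON N : Set ↥(K.FC N)) = (integralClosure ↥(AJ N) ↥(K.FC N) : Set ↥(K.FC N)) := rfl

/-- The identification of `ℂ[j] ⊆ F_ℂ` with `ℂ[jC] ⊆ ℂ((q))`. -/
noncomputable def ajEquiv (N : ℕ) :
    ↥(AJ N) ≃ₐ[ℂ] ↥(Algebra.adjoin ℂ ({K.jC} : Set (LaurentSeries ℂ))) :=
  (Subalgebra.equivMapOfInjective (AJ N) (K.FC N).val Subtype.val_injective).trans
    (Subalgebra.equivOfEq _ _ (by
      unfold AJ
      rw [AlgHom.map_adjoin]
      congr 1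
      ext y
      simp [jF]))

theorem coe_ajEquiv (N : ℕ) (a : ↥(AJ N)) :
    ((ajEquiv N a : ↥(Algebra.adjoin ℂ ({K.jC} : Set (LaurentSeries ℂ)))) : LaurentSeries ℂ)
      = ((a : ↥(K.FC N)) : LaurentSeries ℂ) := rfl

theorem coe_ajEquiv_symm (N : ℕ) (b : ↥(Algebra.adjoin ℂ ({K.jC} : Set (LaurentSeries ℂ)))) :
    ((((ajEquiv N).symm b : ↥(AJ N)) : ↥(K.FC N)) : LaurentSeries ℂ) = (b : LaurentSeries ℂ) := by
  rw [← coe_ajEquiv, AlgEquiv.apply_symm_apply]

/-- Membership in `O_N` is integrality over `ℂ[jC]` inside `ℂ((q))`. -/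
theorem mem_ON_iff (N : ℕ) (x : ↥(K.FC N)) :
    x ∈ ON N ↔ IsIntegral ↥(Algebra.adjoin ℂ ({K.jC} : Set (LaurentSeries ℂ)))
      (x : LaurentSeries ℂ) := by
  rw [mem_ON]
  constructor
  · intro h
    exact IsIntegral.map_of_comp_eq (ajEquiv N : ↥(AJ N) →+* _)
      ((K.FC N).val : ↥(K.FC N) →+* LaurentSeries ℂ) (RingHom.ext fun a => rfl) h
  · rintro ⟨p, hp, hpx⟩
    refine ⟨p.map ((ajEquiv N).symm : _ →+* ↥(AJ N)), hp.map _, ?_⟩
    have hinj : Function.Injective ((K.FC N).val : ↥(K.FC N) →+* LaurentSeries ℂ) :=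
      Subtype.val_injective
    apply hinj
    rw [map_zero, Polynomial.eval₂_map, Polynomial.hom_eval₂]
    have e : ((K.FC N).val : ↥(K.FC N) →+* LaurentSeries ℂ).comp
        ((algebraMap ↥(AJ N) ↥(K.FC N)).comp ((ajEquiv N).symm : _ →+* ↥(AJ N)))
        = algebraMap ↥(Algebra.adjoin ℂ ({K.jC} : Set (LaurentSeries ℂ))) (LaurentSeries ℂ) :=
      RingHom.ext fun b => coe_ajEquiv_symm N b
    rw [e]
    exact hpx

theorem jF_mem_AJ (N : ℕ) : jF N ∈ AJ N := Algebra.self_mem_adjoin_singleton ℂ (jF N)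

theorem jF_mem_ON (N : ℕ) : jF N ∈ ON N := by
  rw [mem_ON]
  exact isIntegral_algebraMap (R := ↥(AJ N)) (x := ⟨jF N, jF_mem_AJ N⟩)

/-- `j` as an element of `O_N`. -/
noncomputable def jO (N : ℕ) : ↥(ON N) := ⟨jF N, jF_mem_ON N⟩

@[simp] theorem coe_jO (N : ℕ) : ((jO N : ↥(ON N)) : ↥(K.FC N)) = jF N := rfl

theorem coe_coe_jO (N : ℕ) : (((jO N : ↥(ON N)) : ↥(K.FC N)) : LaurentSeries ℂ) = K.jC := rfl

/-- The analytic model of `O_N`: every element of `O_N` is realised as a holomorphic,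
`Γ₀(N)`-invariant function on `ℍ` with at most poles at the cusps, compatibly with `q`-expansions;
`nu z` is the order of vanishing at `z`, extended to the fraction field `F_ℂ`. -/
structure Model (N : ℕ) [NeZero N] where
  /-- The realisation of an element of `O_N` as a function on `ℍ`. -/
  real : ↥(ON N) →ₐ[ℂ] (ℍ → ℂ)
  real_injective : Function.Injective real
  real_jO : real (jO N) = jFun
  real_mdiff : ∀ x : ↥(ON N), MDiff (real x)
  real_inv : ∀ (x : ↥(ON N)) (γ : SL(2, ℤ)), γ ∈ Gamma0 N → ∀ z : ℍ, real x (γ • z) = real x z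
  real_bdd : ∀ x : ↥(ON N), ∃ m : ℕ, ∀ g : SL(2, ℤ),
    IsBoundedAtImInfty (fun z : ℍ => ModularForm.discriminant z ^ m * real x (g • z))
  exists_form : ∀ x : ↥(ON N), ∃ (m : ℕ) (G : ℍ → ℂ), G ∈ S20.MF N (12 * (m : ℤ)) ∧
    ((x : ↥(K.FC N)) : LaurentSeries ℂ) * K.DeltaC ^ m = K.qx G
  real_spec : ∀ (x : ↥(ON N)) (m : ℕ) (G : ℍ → ℂ), G ∈ S20.MF N (12 * (m : ℤ)) →
    ((x : ↥(K.FC N)) : LaurentSeries ℂ) * K.DeltaC ^ m = K.qx G →
    ∀ z : ℍ, real x z * ModularForm.discriminant z ^ m = G z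
  /-- The order at `z`, on the fraction field. -/
  nu : ℍ → ↥(K.FC N) → ℤ
  nu_mul : ∀ (z : ℍ) (x y : ↥(K.FC N)), x ≠ 0 → y ≠ 0 → nu z (x * y) = nu z x + nu z y
  nu_algebraMap : ∀ (z : ℍ) (a : ↥(ON N)), a ≠ 0 → ∃ n : ℕ,
    nu z (algebraMap ↥(ON N) ↥(K.FC N) a) = (n : ℤ) ∧
    analyticOrderAt (fun w : ℂ => real a (ofComplex w)) (z : ℂ) = (n : ℕ∞)

namespace Model

variable {N : ℕ} [NeZero N] (M : Model N)

/-- Evaluation at a point of `ℍ`. -/
noncomputable def ev (z : ℍ) : ↥(ON N) →ₐ[ℂ] ℂ :=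
  (Pi.evalAlgHom ℂ (fun _ : ℍ => ℂ) z).comp M.real

theorem ev_apply (z : ℍ) (a : ↥(ON N)) : M.ev z a = M.real a z := rfl

theorem ev_jO (z : ℍ) : M.ev z (jO N) = jFun z := by
  rw [ev_apply, M.real_jO]

theorem real_eq_zero_iff (a : ↥(ON N)) : M.real a = 0 ↔ a = 0 := by
  constructor
  · intro h
    exact M.real_injective (h.trans (map_zero M.real).symm)
  · rintro rfl
    exact map_zero M.real

/-- A function of `O_N` not vanishing at `z` has order `0` at `z`. -/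
theorem nu_unit (z : ℍ) (a : ↥(ON N)) (h : M.ev z a ≠ 0) :
    M.nu z (algebraMap ↥(ON N) ↥(K.FC N) a) = 0 := by
  have ha : a ≠ 0 := by
    rintro rfl
    exact h (map_zero _)
  obtain ⟨n, h1, h2⟩ := M.nu_algebraMap z a ha
  have h3 : InvRat.ordH (M.real a) z = 0 := (InvRat.ordH_eq_zero (M.real_mdiff a) z).mpr h
  have h4 : InvRat.ordH (M.real a) z = (n : ℕ∞) := h2
  rw [h3] at h4
  have : n = 0 := by exact_mod_cast h4.symm
  rw [h1, this]
  rfl

/-- The order of `j - j(z)` at `z` is `3`, `2`, `1` according to `j(z) = 0`, `1728`, other. -/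
theorem nu_j (z : ℍ) :
    M.nu z (algebraMap ↥(ON N) ↥(K.FC N) (jO N - algebraMap ℂ ↥(ON N) (M.ev z (jO N))))
      = (JOrd.jE (M.ev z (jO N)) : ℤ) := by
  have hreal : M.real (jO N - algebraMap ℂ ↥(ON N) (M.ev z (jO N)))
      = fun w : ℍ => jFun w - jFun z := by
    rw [map_sub, AlgHom.commutes, M.real_jO, M.ev_jO]
    rfl
  have hord : analyticOrderAt (fun w : ℂ =>
      M.real (jO N - algebraMap ℂ ↥(ON N) (M.ev z (jO N))) (ofComplex w)) (z : ℂ)
      = (JOrd.jE (jFun z) : ℕ∞) := by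
    rw [hreal]
    exact JOrd.analyticOrderAt_jFun_sub z
  have ha : jO N - algebraMap ℂ ↥(ON N) (M.ev z (jO N)) ≠ 0 := by
    intro h0
    rw [h0, map_zero] at hord
    have : analyticOrderAt (fun _ : ℂ => (0 : ℂ)) (z : ℂ) = ⊤ := by
      rw [analyticOrderAt_eq_top]
      exact Filter.Eventually.of_forall fun _ => rfl
    rw [show (fun w : ℂ => (0 : ℍ → ℂ) (ofComplex w)) = fun _ : ℂ => (0 : ℂ) from rfl, this]
      at hord
    exact ENat.top_ne_natCast _ hord
  obtain ⟨n, h1, h2⟩ := M.nu_algebraMap z _ ha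
  rw [hord] at h2
  have : JOrd.jE (jFun z) = n := by exact_mod_cast h2
  rw [h1, M.ev_jO, this]

end Model

end Fermat.Agent.S29.R2
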