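/-
S29 block [K], row [O-Ded], bridge file (helper52; asked by helper15, R2Defs #2108): the two
landed shapes of the coordinate ring `O_N` of the affine modular curve over `ℂ` agree.

* `ODed.ON N = S24.RamSum.B ℂ (ODed.jCF N)` (the integral closure of `ℂ[j]` in `F_ℂ`, as the
  carrier of a subalgebra over `ℂ[j]`) and
* `↥(R2.ON N)` (the same integral closure, as a `ℂ`-subalgebra of `F_ℂ`)

have the same carrier; `R2.ON N` is a Dedekind domain with fraction field `F_ℂ`, and `onEquiv N`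
identifies the two rings compatibly with the inclusions into `F_ℂ`, with `j`, and with the
constants.
-/
import Mathlib
import Fermat.Agent.S29.ODed
import Fermat.Agent.S29.R2Defs

set_option autoImplicit false

noncomputable section

namespace Fermat.Agent.S29.ODedR2

open ModularCurve
open Fermat.Agent.S29

/-- The two names of `j ∈ F_ℂ` agree. -/
theorem jF_eq_jCF (N : ℕ) : R2.jF N = ODed.jCF N := rfl

/-- **`R2.ON N` is a Dedekind domain.** -/
theorem isDedekindDomain_ON (N : ℕ) [NeZero N] : IsDedekindDomain ↥(R2.ON N) :=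
  ODed.isDedekindDomain_ON N

/-- **`F_ℂ` is the fraction field of `R2.ON N`.** -/
theorem isFractionRing_ON (N : ℕ) [NeZero N] : IsFractionRing ↥(R2.ON N) ↥(K.FC N) :=
  ODed.isFractionRing_ON N

instance instIsDedekindDomainON (N : ℕ) [NeZero N] : IsDedekindDomain ↥(R2.ON N) :=
  isDedekindDomain_ON N

instance instIsFractionRingON (N : ℕ) [NeZero N] : IsFractionRing ↥(R2.ON N) ↥(K.FC N) :=
  isFractionRing_ON N

/-- The identification of the two shapes of `O_N` (the identity on carriers). -/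
def onEquiv (N : ℕ) : ODed.ON N ≃+* ↥(R2.ON N) where
  toFun a := ⟨a.1, a.2⟩
  invFun a := ⟨a.1, a.2⟩
  left_inv _ := rfl
  right_inv _ := rfl
  map_mul' _ _ := rfl
  map_add' _ _ := rfl

@[simp]
theorem coe_onEquiv (N : ℕ) (a : ODed.ON N) :
    ((onEquiv N a : ↥(R2.ON N)) : ↥(K.FC N)) = algebraMap (ODed.ON N) ↥(K.FC N) a := rfl

@[simp]
theorem coe_onEquiv_symm (N : ℕ) (a : ↥(R2.ON N)) :
    algebraMap (ODed.ON N) ↥(K.FC N) ((onEquiv N).symm a) = (a : ↥(K.FC N)) := rfl

/-- `onEquiv` commutes with the inclusions into `F_ℂ`. -/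
theorem algebraMap_onEquiv (N : ℕ) (a : ODed.ON N) :
    algebraMap ↥(R2.ON N) ↥(K.FC N) (onEquiv N a) = algebraMap (ODed.ON N) ↥(K.FC N) a := rfl

theorem algebraMap_onEquiv_symm (N : ℕ) (a : ↥(R2.ON N)) :
    algebraMap (ODed.ON N) ↥(K.FC N) ((onEquiv N).symm a) = algebraMap ↥(R2.ON N) ↥(K.FC N) a :=
  rfl

/-- `onEquiv` maps `j` to `j`. -/
theorem onEquiv_tB (N : ℕ) : onEquiv N (S24.RamSum.tB ℂ (ODed.jCF N)) = R2.jO N := rfl

/-- `onEquiv` is the identity on the constants. -/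
theorem onEquiv_algebraMap (N : ℕ) (c : ℂ) :
    onEquiv N (algebraMap ℂ (ODed.ON N) c) = algebraMap ℂ ↥(R2.ON N) c := rfl

theorem onEquiv_symm_algebraMap (N : ℕ) (c : ℂ) :
    (onEquiv N).symm (algebraMap ℂ ↥(R2.ON N) c) = algebraMap ℂ (ODed.ON N) c := rfl

/-- The identification of the two shapes of `O_N`, as an isomorphism of `ℂ`-algebras. -/
def onAlgEquiv (N : ℕ) : ODed.ON N ≃ₐ[ℂ] ↥(R2.ON N) :=
  { onEquiv N with commutes' := fun _ => rfl }

@[simp]
theorem onAlgEquiv_apply (N : ℕ) (a : ODed.ON N) : onAlgEquiv N a = onEquiv N a := rfl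

/-- Membership in either shape of `O_N`, for an element of `F_ℂ`. -/
theorem mem_ON_iff_exists (N : ℕ) (x : ↥(K.FC N)) :
    x ∈ R2.ON N ↔ ∃ a : ODed.ON N, algebraMap (ODed.ON N) ↥(K.FC N) a = x :=
  ⟨fun h => ⟨⟨x, h⟩, rfl⟩, fun ⟨a, ha⟩ => ha ▸ a.2⟩

end Fermat.Agent.S29.ODedR2
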