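/-
S29, block [K], leaf (R2-abs) — MaxEvalB.lean (helper61).  Mathlib-only.
(`MaxEval.lean` is helper95's file: finite-family shapes of the same facts.)

The abstract core of the "places of `F_ℂ`" step (lead's refinement (R2b)–(R2d)):

* (R2b) `exists_ker_eval_eq`: `𝒪` a `k`-algebra, `j ∈ 𝒪`, `ev z : 𝒪 →ₐ[k] k` a family of
  evaluations such that above every `j₀ : k` there are only finitely many kernels and every
  `h ∈ 𝒪` has a "norm" `c(j) ∈ h 𝒪`, `c ∈ k[X]`, with `c(j₀) ≠ 0` as soon as `h` does not vanish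
  at the points above `j₀`.  Then every maximal ideal of `𝒪` containing `j - j₀` is the kernel
  of an evaluation at a point above `j₀`.
  (Model: `𝒪` = integral closure of `ℂ[j]` in `F_ℂ`, `Z = ℍ`, `c(j)` = constant term of
  `∏_cosets (X - h ∘ γ)`.)
* (R2c) `exists_eq_mul_ordAt`: `𝒪` a Dedekind domain with fraction field `F`, `w` a height-one
  prime, `ν : F → ℤ` additive on products and zero on the elements of `𝒪` outside `w`.  Then
  `ν = e · ord_w` on `F ∖ 0`.  (Model: `ν` = analytic order at a point of `ℍ`.)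
* (R2d) `PDiv p x` := "`p` divides `ord_w x` at every height-one prime `w`" is invariant under
  automorphisms (`pDiv_map`), and is equivalent to "`p ∣ ν_z x` for all `z`" when the local
  indices are prime to `p` (`pDiv_of_forall_dvd`, `forall_dvd_of_pDiv`).
-/
import Mathlib

set_option autoImplicit false

namespace Fermat.Agent.S29.MaxEvalB

open Polynomial IsDedekindDomain

/-! ### (R2b) maximal ideals are evaluation points -/

section MaxIdeals

variable {k 𝒪 Z : Type*} [Field k] [CommRing 𝒪] [Algebra k 𝒪]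

/-- If `P(h) = 0` for a polynomial `P` with coefficients in `k[j]`, the constant term `c(j)` of `P`
is a multiple of `h`. -/
theorem dvd_aeval_coeff_zero (j h : 𝒪) (P : Polynomial (Polynomial k))
    (h0 : P.eval₂ (Polynomial.aeval j).toRingHom h = 0) :
    h ∣ Polynomial.aeval j (P.coeff 0) := by
  have h1 := congrArg (fun Q : Polynomial (Polynomial k) =>
    Q.eval₂ (Polynomial.aeval j).toRingHom h) (Polynomial.divX_mul_X_add P)
  simp only [Polynomial.eval₂_add, Polynomial.eval₂_mul, Polynomial.eval₂_X,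
    Polynomial.eval₂_C] at h1
  rw [h0] at h1
  refine ⟨-(P.divX.eval₂ (Polynomial.aeval j).toRingHom h), ?_⟩
  have h2 : Polynomial.aeval j (P.coeff 0) =
      -(P.divX.eval₂ (Polynomial.aeval j).toRingHom h * h) := by
    have h3 : (Polynomial.aeval j).toRingHom (P.coeff 0) = Polynomial.aeval j (P.coeff 0) := rfl
    rw [h3] at h1
    exact eq_neg_of_add_eq_zero_right h1
  rw [h2]
  ring

/-- The kernel of a `k`-point is a maximal ideal. -/
theorem ker_isMaximal (χ : 𝒪 →ₐ[k] k) : (RingHom.ker χ.toRingHom).IsMaximal :=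
  RingHom.ker_isMaximal_of_surjective χ.toRingHom fun c =>
    ⟨algebraMap k 𝒪 c, by show χ (algebraMap k 𝒪 c) = c; rw [AlgHom.commutes]; rfl⟩

/-- **(R2b)** every maximal ideal containing `j - j₀` is the kernel of an evaluation at a point
above `j₀`. -/
theorem exists_ker_eval_eq (j : 𝒪) (ev : Z → 𝒪 →ₐ[k] k)
    (hfin : ∀ j₀ : k,
      {I : Ideal 𝒪 | ∃ z, ev z j = j₀ ∧ RingHom.ker (ev z).toRingHom = I}.Finite)
    (hnorm : ∀ h : 𝒪, ∃ c : Polynomial k, h ∣ Polynomial.aeval j c ∧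
      ∀ j₀ : k, (∀ z, ev z j = j₀ → ev z h ≠ 0) → c.eval j₀ ≠ 0)
    (𝔪 : Ideal 𝒪) (h𝔪 : 𝔪.IsMaximal) (j₀ : k) (hj₀ : j - algebraMap k 𝒪 j₀ ∈ 𝔪) :
    ∃ z, ev z j = j₀ ∧ RingHom.ker (ev z).toRingHom = 𝔪 := by
  classical
  by_contra hcon0
  have hcon : ∀ z, ev z j = j₀ → RingHom.ker (ev z).toRingHom ≠ 𝔪 :=
    fun z hz h => hcon0 ⟨z, hz, h⟩
  set s : Finset (Ideal 𝒪) := (hfin j₀).toFinset with hs
  have hmem : ∀ I : Ideal 𝒪, I ∈ s ↔ ∃ z, ev z j = j₀ ∧ RingHom.ker (ev z).toRingHom = I := by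
    intro I
    rw [hs, Set.Finite.mem_toFinset]
    rfl
  -- prime avoidance
  have hnot : ¬ ((𝔪 : Set 𝒪) ⊆ ⋃ I ∈ (↑s : Set (Ideal 𝒪)), (I : Set 𝒪)) := by
    intro hsub
    have hprime : ∀ I ∈ s, I ≠ 𝔪 → I ≠ 𝔪 → I.IsPrime := by
      intro I hI _ _
      obtain ⟨z, -, rfl⟩ := (hmem I).mp hI
      exact (ker_isMaximal (ev z)).isPrime
    obtain ⟨I, hI, hle⟩ := (Ideal.subset_union_prime (f := fun I : Ideal 𝒪 => I) 𝔪 𝔪 hprime).mp hsub
    obtain ⟨z, hz, rfl⟩ := (hmem I).mp hI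
    exact hcon z hz (h𝔪.eq_of_le (ker_isMaximal (ev z)).ne_top hle).symm
  obtain ⟨h, hh𝔪, hhnot⟩ := Set.not_subset.mp hnot
  have hev : ∀ z, ev z j = j₀ → ev z h ≠ 0 := by
    intro z hz h0
    apply hhnot
    simp only [Set.mem_iUnion]
    exact ⟨RingHom.ker (ev z).toRingHom, Finset.mem_coe.mpr ((hmem _).mpr ⟨z, hz, rfl⟩), h0⟩
  obtain ⟨c, hdvd, hc⟩ := hnorm h
  have hc0 := hc j₀ hev
  have h1 : Polynomial.aeval j c ∈ 𝔪 := by
    obtain ⟨d, hd⟩ := hdvd
    rw [hd]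
    exact 𝔪.mul_mem_right _ hh𝔪
  have h2 : Polynomial.aeval j c - algebraMap k 𝒪 (c.eval j₀) ∈ 𝔪 := by
    have hd : (X - C j₀) ∣ c - C (c.eval j₀) := by
      rw [Polynomial.dvd_iff_isRoot]
      simp
    obtain ⟨d, hd⟩ := hd
    have h3 : Polynomial.aeval j c - algebraMap k 𝒪 (c.eval j₀) =
        (j - algebraMap k 𝒪 j₀) * Polynomial.aeval j d := by
      have h4 := congrArg (Polynomial.aeval j) hd
      simpa [map_sub, map_mul, Polynomial.aeval_X, Polynomial.aeval_C] using h4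
    rw [h3]
    exact 𝔪.mul_mem_right _ hj₀
  have h3 : algebraMap k 𝒪 (c.eval j₀) ∈ 𝔪 := by
    have h4 := 𝔪.sub_mem h1 h2
    simpa using h4
  exact h𝔪.ne_top (Ideal.eq_top_of_isUnit_mem _ h3 ((IsUnit.mk0 _ hc0).map _))

/-- If `𝒪` is integral over `k[j]`, the residue field of `𝒪` at a maximal ideal is algebraic
over `k`. -/
theorem isAlgebraic_quotient_of_isIntegral (j : 𝒪)
    (hint : ∀ x : 𝒪, IsIntegral (Algebra.adjoin k {j}) x) (I : Ideal 𝒪) [I.IsMaximal] :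
    Algebra.IsAlgebraic k (𝒪 ⧸ I) := by
  classical
  let _ : Field (𝒪 ⧸ I) := Ideal.Quotient.field I
  set tb : 𝒪 ⧸ I := Ideal.Quotient.mk I j with htb
  have hmem : ∀ z ∈ Algebra.adjoin k {j}, Ideal.Quotient.mk I z ∈ Algebra.adjoin k {tb} := by
    intro z hz
    have h1 : (Ideal.Quotient.mkₐ k I) z ∈ (Algebra.adjoin k {j}).map (Ideal.Quotient.mkₐ k I) :=
      ⟨z, hz, rfl⟩
    rw [AlgHom.map_adjoin_singleton] at h1
    exact h1
  let φ : Algebra.adjoin k {j} →+* Algebra.adjoin k {tb} :=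
    ((Ideal.Quotient.mk I).comp (Algebra.adjoin k {j}).val.toRingHom).codRestrict
      (Algebra.adjoin k {tb}).toSubring (fun z => hmem z z.2)
  have hS : ∀ y : 𝒪 ⧸ I, IsIntegral (Algebra.adjoin k {tb}) y := by
    intro y
    obtain ⟨x, rfl⟩ := Ideal.Quotient.mk_surjective y
    exact IsIntegral.map_of_comp_eq φ (Ideal.Quotient.mk I) (by ext z; rfl) (hint x)
  have : Algebra.IsIntegral (Algebra.adjoin k {tb}) (𝒪 ⧸ I) := ⟨hS⟩
  have hSf : IsField (Algebra.adjoin k {tb}) :=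
    isField_of_isIntegral_of_isField (S := 𝒪 ⧸ I) Subtype.val_injective (Field.toIsField _)
  have htalg : IsAlgebraic k tb := by
    by_cases h0 : tb = 0
    · rw [h0]
      exact isAlgebraic_zero
    · have htS : tb ∈ Algebra.adjoin k {tb} := Algebra.self_mem_adjoin_singleton k tb
      have hne : (⟨tb, htS⟩ : Algebra.adjoin k {tb}) ≠ 0 := fun h => h0 (congrArg Subtype.val h)
      obtain ⟨u, hu⟩ := hSf.mul_inv_cancel hne
      have huS : (u : 𝒪 ⧸ I) ∈ (Polynomial.aeval (R := k) tb).range := by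
        rw [← Algebra.adjoin_singleton_eq_range_aeval]
        exact u.2
      obtain ⟨p, hp⟩ := huS
      have hu' : tb * (u : 𝒪 ⧸ I) = 1 := congrArg Subtype.val hu
      refine ⟨Polynomial.X * p - 1, ?_, ?_⟩
      · intro h
        have := congrArg (fun q => Polynomial.coeff q 0) h
        simp at this
      · have hp' : Polynomial.aeval tb p = (u : 𝒪 ⧸ I) := hp
        rw [map_sub, map_mul, Polynomial.aeval_X, map_one, hp', hu', sub_self]
  have : Algebra.IsIntegral k (Algebra.adjoin k {tb}) :=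
    Algebra.IsIntegral.adjoin (fun x hx => by
      rw [Set.mem_singleton_iff] at hx
      rw [hx]
      exact htalg.isIntegral)
  exact ⟨fun y => (isIntegral_trans (R := k) (A := Algebra.adjoin k {tb}) y (hS y)).isAlgebraic⟩

/-- For `k` algebraically closed and `𝒪` integral over `k[j]`, every maximal ideal contains
`j - j₀` for some `j₀ : k`. -/
theorem exists_sub_mem_of_isIntegral [IsAlgClosed k] (j : 𝒪)
    (hint : ∀ x : 𝒪, IsIntegral (Algebra.adjoin k {j}) x) (𝔪 : Ideal 𝒪) (h𝔪 : 𝔪.IsMaximal) :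
    ∃ j₀ : k, j - algebraMap k 𝒪 j₀ ∈ 𝔪 := by
  have := h𝔪
  let _ : Field (𝒪 ⧸ 𝔪) := Ideal.Quotient.field 𝔪
  have halg : Algebra.IsAlgebraic k (𝒪 ⧸ 𝔪) := isAlgebraic_quotient_of_isIntegral j hint 𝔪
  have : Algebra.IsIntegral k (𝒪 ⧸ 𝔪) := Algebra.IsAlgebraic.isIntegral
  have hbij : Function.Bijective (algebraMap k (𝒪 ⧸ 𝔪)) :=
    IsAlgClosed.algebraMap_bijective_of_isIntegral
  obtain ⟨j₀, hj₀⟩ := hbij.2 (Ideal.Quotient.mk 𝔪 j)
  refine ⟨j₀, ?_⟩
  rw [← Ideal.Quotient.eq_zero_iff_mem, map_sub, ← hj₀, sub_eq_zero]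
  rfl

/-- **(R2b)**, integral form: for `k` algebraically closed and `𝒪` integral over `k[j]`, every
maximal ideal of `𝒪` is the kernel of an evaluation. -/
theorem exists_ker_eval_eq_of_isIntegral [IsAlgClosed k] (j : 𝒪) (ev : Z → 𝒪 →ₐ[k] k)
    (hfin : ∀ j₀ : k,
      {I : Ideal 𝒪 | ∃ z, ev z j = j₀ ∧ RingHom.ker (ev z).toRingHom = I}.Finite)
    (hnorm : ∀ h : 𝒪, ∃ c : Polynomial k, h ∣ Polynomial.aeval j c ∧
      ∀ j₀ : k, (∀ z, ev z j = j₀ → ev z h ≠ 0) → c.eval j₀ ≠ 0)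
    (hint : ∀ x : 𝒪, IsIntegral (Algebra.adjoin k {j}) x)
    (𝔪 : Ideal 𝒪) (h𝔪 : 𝔪.IsMaximal) :
    ∃ z, RingHom.ker (ev z).toRingHom = 𝔪 := by
  obtain ⟨j₀, hj₀⟩ := exists_sub_mem_of_isIntegral j hint 𝔪 h𝔪
  obtain ⟨z, -, hz⟩ := exists_ker_eval_eq j ev hfin hnorm 𝔪 h𝔪 j₀ hj₀
  exact ⟨z, hz⟩

end MaxIdeals

/-! ### (R2c) order functions on a Dedekind domain -/

section Order

variable {𝒪 F : Type*} [CommRing 𝒪] [IsDedekindDomain 𝒪] [Field F] [Algebra 𝒪 F]
  [IsFractionRing 𝒪 F]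

/-- The order of `x : F` at the height-one prime `w` (`0` for `x = 0`). -/
noncomputable def ordAt (w : HeightOneSpectrum 𝒪) (x : F) : ℤ :=
  -(WithZero.log (w.valuation F x))

theorem ordAt_mul (w : HeightOneSpectrum 𝒪) {x y : F} (hx : x ≠ 0) (hy : y ≠ 0) :
    ordAt w (x * y) = ordAt w x + ordAt w y := by
  unfold ordAt
  rw [map_mul, WithZero.log_mul ((Valuation.ne_zero_iff _).mpr hx)
    ((Valuation.ne_zero_iff _).mpr hy)]
  ring

@[simp]
theorem ordAt_one (w : HeightOneSpectrum 𝒪) : ordAt w (1 : F) = 0 := by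
  simp [ordAt]

@[simp]
theorem ordAt_zero (w : HeightOneSpectrum 𝒪) : ordAt w (0 : F) = 0 := by
  simp [ordAt]

theorem ordAt_pow (w : HeightOneSpectrum 𝒪) (x : F) (n : ℕ) :
    ordAt w (x ^ n) = n * ordAt w x := by
  unfold ordAt
  rw [map_pow, WithZero.log_pow]
  simp

/-- Elements of `𝒪` have nonnegative order. -/
theorem ordAt_algebraMap_nonneg (w : HeightOneSpectrum 𝒪) (a : 𝒪) :
    0 ≤ ordAt w (algebraMap 𝒪 F a) := by
  unfold ordAt
  rcases eq_or_ne a 0 with rfl | ha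
  · simp
  have hne : w.valuation F (algebraMap 𝒪 F a) ≠ 0 :=
    (Valuation.ne_zero_iff _).mpr ((map_ne_zero_iff _ (IsFractionRing.injective 𝒪 F)).mpr ha)
  have h1 : WithZero.log (w.valuation F (algebraMap 𝒪 F a)) ≤ 0 := by
    rw [WithZero.log_le_iff_le_exp hne, WithZero.exp_zero]
    exact w.valuation_le_one a
  omega

/-- Elements of `𝒪` outside `w` have order zero. -/
theorem ordAt_algebraMap_eq_zero (w : HeightOneSpectrum 𝒪) {a : 𝒪} (ha : a ∉ w.asIdeal) :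
    ordAt w (algebraMap 𝒪 F a) = 0 := by
  unfold ordAt
  rw [(w.valuation_eq_one_iff_notMem (K := F)).mpr ha]
  simp

/-- Nonzero elements of `w` have positive order. -/
theorem ordAt_algebraMap_pos (w : HeightOneSpectrum 𝒪) {a : 𝒪} (ha : a ∈ w.asIdeal)
    (ha0 : a ≠ 0) : 0 < ordAt w (algebraMap 𝒪 F a) := by
  unfold ordAt
  have hne : w.valuation F (algebraMap 𝒪 F a) ≠ 0 :=
    (Valuation.ne_zero_iff _).mpr ((map_ne_zero_iff _ (IsFractionRing.injective 𝒪 F)).mpr ha0)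
  have hlt : w.valuation F (algebraMap 𝒪 F a) < 1 := (w.valuation_lt_one_iff_mem a).mpr ha
  have h1 : WithZero.log (w.valuation F (algebraMap 𝒪 F a)) < 0 := by
    rw [WithZero.log_lt_iff_lt_exp hne, WithZero.exp_zero]
    exact hlt
  omega

/-- A nonzero element of `𝒪` of positive order lies in `w`. -/
theorem mem_of_ordAt_algebraMap_pos (w : HeightOneSpectrum 𝒪) {a : 𝒪}
    (h : 0 < ordAt w (algebraMap 𝒪 F a)) : a ∈ w.asIdeal := by
  by_contra ha
  rw [ordAt_algebraMap_eq_zero w ha] at h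
  exact lt_irrefl _ h

/-- There is a uniformizer in `𝒪`. -/
theorem exists_ordAt_eq_one (w : HeightOneSpectrum 𝒪) :
    ∃ π : 𝒪, π ≠ 0 ∧ π ∈ w.asIdeal ∧ ordAt w (algebraMap 𝒪 F π) = 1 := by
  obtain ⟨π, hπ⟩ := w.intValuation_exists_uniformizer
  have hval : w.valuation F (algebraMap 𝒪 F π) = WithZero.exp (-1 : ℤ) := by
    rw [HeightOneSpectrum.valuation_of_algebraMap, hπ]
  have hord : ordAt w (algebraMap 𝒪 F π) = 1 := by
    unfold ordAt
    rw [hval, WithZero.log_exp]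
    norm_num
  have hπ0 : π ≠ 0 := by
    rintro rfl
    rw [map_zero, ordAt_zero] at hord
    exact zero_ne_one hord
  exact ⟨π, hπ0, mem_of_ordAt_algebraMap_pos (F := F) w (by rw [hord]; exact one_pos), hord⟩

/-- Normal form of a nonzero element of `𝒪` at `w`: `a · d = m · π ^ n` with `d, m ∉ w`. -/
theorem exists_mul_eq_mul_pow (w : HeightOneSpectrum 𝒪) {π : 𝒪}
    (hπ : ordAt w (algebraMap 𝒪 F π) = 1) {a : 𝒪} (ha : a ≠ 0) :
    ∃ (n : ℕ) (d m : 𝒪), d ∉ w.asIdeal ∧ m ∉ w.asIdeal ∧ a * d = m * π ^ n ∧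
      ordAt w (algebraMap 𝒪 F a) = n := by
  have hinj := IsFractionRing.injective 𝒪 F
  have hπ0 : algebraMap 𝒪 F π ≠ 0 := by
    intro h0
    rw [h0, ordAt_zero] at hπ
    exact zero_ne_one hπ
  have ha0 : algebraMap 𝒪 F a ≠ 0 := (map_ne_zero_iff _ hinj).mpr ha
  obtain ⟨n, hn⟩ := Int.eq_ofNat_of_zero_le (ordAt_algebraMap_nonneg (F := F) w a)
  set u : F := algebraMap 𝒪 F a / algebraMap 𝒪 F π ^ n with hu
  have hu0 : u ≠ 0 := div_ne_zero ha0 (pow_ne_zero n hπ0)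
  have hua : u * algebraMap 𝒪 F π ^ n = algebraMap 𝒪 F a := by
    rw [hu]
    field_simp
  have hordu : ordAt w u = 0 := by
    have h1 := ordAt_mul w hu0 (pow_ne_zero n hπ0)
    rw [hua, ordAt_pow, hπ, hn] at h1
    omega
  have hvalu : w.valuation F u = 1 := by
    have hne : w.valuation F u ≠ 0 := (Valuation.ne_zero_iff _).mpr hu0
    have h1 : WithZero.log (w.valuation F u) = 0 := by
      unfold ordAt at hordu
      omega
    rw [← WithZero.exp_log hne, h1, WithZero.exp_zero]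
  obtain ⟨m, d, hmd⟩ := w.exists_primeCompl_mul_eq_of_integer u hvalu.le
  have hd : (d : 𝒪) ∉ w.asIdeal := d.2
  have hm : m ∉ w.asIdeal := by
    rw [← w.valuation_eq_one_iff_notMem (K := F), ← hmd, map_mul, hvalu,
      (w.valuation_eq_one_iff_notMem (K := F)).mpr hd, one_mul]
  refine ⟨n, d, m, hd, hm, ?_, hn⟩
  apply hinj
  rw [map_mul, map_mul, map_pow, ← hmd, ← hua]
  ring

/-- **(R2c)** an integer-valued function on `F` which is additive on products and vanishes on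
the elements of `𝒪` outside `w` is a multiple of the order at `w`. -/
theorem exists_eq_mul_ordAt (w : HeightOneSpectrum 𝒪) (ν : F → ℤ)
    (hmul : ∀ x y : F, x ≠ 0 → y ≠ 0 → ν (x * y) = ν x + ν y)
    (hunit : ∀ a : 𝒪, a ∉ w.asIdeal → ν (algebraMap 𝒪 F a) = 0) :
    ∃ e : ℤ, (∀ π : 𝒪, ordAt w (algebraMap 𝒪 F π) = 1 → ν (algebraMap 𝒪 F π) = e) ∧
      ∀ x : F, x ≠ 0 → ν x = e * ordAt w x := by
  have hinj := IsFractionRing.injective 𝒪 F
  obtain ⟨π, hπ0, -, hπ⟩ := exists_ordAt_eq_one (F := F) w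
  have hπF : algebraMap 𝒪 F π ≠ 0 := (map_ne_zero_iff _ hinj).mpr hπ0
  have hν1 : ν 1 = 0 := by
    have h1 := hmul 1 1 one_ne_zero one_ne_zero
    rw [mul_one] at h1
    omega
  have hνpow : ∀ n : ℕ, ν (algebraMap 𝒪 F π ^ n) = n * ν (algebraMap 𝒪 F π) := by
    intro n
    induction n with
    | zero => simp [hν1]
    | succ n ih =>
      rw [pow_succ, hmul _ _ (pow_ne_zero n hπF) hπF, ih]
      push_cast
      ring
  -- the formula on `𝒪`
  have hO : ∀ a : 𝒪, a ≠ 0 →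
      ν (algebraMap 𝒪 F a) = ν (algebraMap 𝒪 F π) * ordAt w (algebraMap 𝒪 F a) := by
    intro a ha
    obtain ⟨n, d, m, hd, hm, hadm, hn⟩ := exists_mul_eq_mul_pow (F := F) w hπ ha
    have hd0 : algebraMap 𝒪 F d ≠ 0 := by
      refine (map_ne_zero_iff _ hinj).mpr ?_
      rintro rfl
      exact hd w.asIdeal.zero_mem
    have hm0 : algebraMap 𝒪 F m ≠ 0 := by
      refine (map_ne_zero_iff _ hinj).mpr ?_
      rintro rfl
      exact hm w.asIdeal.zero_mem
    have ha0 : algebraMap 𝒪 F a ≠ 0 := (map_ne_zero_iff _ hinj).mpr ha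
    have h1 : algebraMap 𝒪 F a * algebraMap 𝒪 F d =
        algebraMap 𝒪 F m * algebraMap 𝒪 F π ^ n := by
      rw [← map_mul, hadm, map_mul, map_pow]
    have h2 := congrArg ν h1
    rw [hmul _ _ ha0 hd0, hmul _ _ hm0 (pow_ne_zero n hπF), hunit d hd, hunit m hm, hνpow] at h2
    rw [hn]
    linarith
  refine ⟨ν (algebraMap 𝒪 F π), ?_, ?_⟩
  · intro π' hπ'
    have hπ'0 : π' ≠ 0 := by
      rintro rfl
      rw [map_zero, ordAt_zero] at hπ'
      exact zero_ne_one hπ'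
    rw [hO π' hπ'0, hπ', mul_one]
  · intro x hx
    obtain ⟨a, b, hb, rfl⟩ := IsFractionRing.div_surjective (A := 𝒪) x
    have hb0 : (b : 𝒪) ≠ 0 := nonZeroDivisors.ne_zero hb
    have hbF : algebraMap 𝒪 F b ≠ 0 := (map_ne_zero_iff _ hinj).mpr hb0
    have ha0 : a ≠ 0 := by
      rintro rfl
      rw [map_zero, zero_div] at hx
      exact hx rfl
    have hxb : algebraMap 𝒪 F a / algebraMap 𝒪 F b * algebraMap 𝒪 F b = algebraMap 𝒪 F a := by
      field_simp
    have h1 := hmul _ _ hx hbF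
    have h2 := ordAt_mul w hx hbF
    rw [hxb] at h1 h2
    rw [hO a ha0, hO b hb0] at h1
    rw [h2] at h1
    linarith

/-- **(R2c)** with positivity: if moreover `ν` is positive on the nonzero elements of `w`, the
factor `e` is positive. -/
theorem exists_pos_eq_mul_ordAt (w : HeightOneSpectrum 𝒪) (ν : F → ℤ)
    (hmul : ∀ x y : F, x ≠ 0 → y ≠ 0 → ν (x * y) = ν x + ν y)
    (hunit : ∀ a : 𝒪, a ∉ w.asIdeal → ν (algebraMap 𝒪 F a) = 0)
    (hpos : ∀ a : 𝒪, a ∈ w.asIdeal → a ≠ 0 → 0 < ν (algebraMap 𝒪 F a)) :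
    ∃ e : ℤ, 0 < e ∧ ∀ x : F, x ≠ 0 → ν x = e * ordAt w x := by
  obtain ⟨e, he, hform⟩ := exists_eq_mul_ordAt w ν hmul hunit
  obtain ⟨π, hπ0, hπw, hπ⟩ := exists_ordAt_eq_one (F := F) w
  exact ⟨e, by rw [← he π hπ]; exact hpos π hπw hπ0, hform⟩

end Order

/-! ### (R2d) the property `𝒫` and its invariance -/

section PDivSection

variable {𝒪 F : Type*} [CommRing 𝒪] [IsDedekindDomain 𝒪] [Field F] [Algebra 𝒪 F]
  [IsFractionRing 𝒪 F]

/-- **Property `𝒫`**: `p` divides the order of `x` at every height-one prime of `𝒪`. -/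
def PDiv (𝒪 : Type*) {F : Type*} [CommRing 𝒪] [IsDedekindDomain 𝒪] [Field F] [Algebra 𝒪 F]
    [IsFractionRing 𝒪 F] (p : ℕ) (x : F) : Prop :=
  ∀ w : HeightOneSpectrum 𝒪, (p : ℤ) ∣ ordAt w x

theorem pDiv_zero (p : ℕ) : PDiv 𝒪 p (0 : F) := fun w => by
  rw [ordAt_zero]
  exact dvd_zero _

theorem pDiv_pow (p : ℕ) (y : F) : PDiv 𝒪 p (y ^ p) := fun w => by
  rw [ordAt_pow]
  exact dvd_mul_right _ _

theorem PDiv.mul {p : ℕ} {x y : F} (hx : PDiv 𝒪 p x) (hy : PDiv 𝒪 p y) : PDiv 𝒪 p (x * y) := by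
  intro w
  rcases eq_or_ne x 0 with rfl | hx0
  · rw [zero_mul, ordAt_zero]
    exact dvd_zero _
  rcases eq_or_ne y 0 with rfl | hy0
  · rw [mul_zero, ordAt_zero]
    exact dvd_zero _
  rw [ordAt_mul w hx0 hy0]
  exact dvd_add (hx w) (hy w)

/-- Transport of a height-one prime along a ring automorphism of `𝒪`. -/
def comapEquiv (τ : 𝒪 ≃+* 𝒪) (w : HeightOneSpectrum 𝒪) : HeightOneSpectrum 𝒪 :=
  ⟨w.asIdeal.comap (τ : 𝒪 →+* 𝒪), Ideal.comap_isPrime _ _, by
    intro hbot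
    apply w.ne_bot
    rw [eq_bot_iff]
    intro a ha
    have h1 : τ.symm a ∈ w.asIdeal.comap (τ : 𝒪 →+* 𝒪) := by
      rw [Ideal.mem_comap]
      simpa using ha
    rw [hbot, Ideal.mem_bot] at h1
    have h2 : a = 0 := by simpa using congrArg τ h1
    rw [h2]
    exact Ideal.zero_mem _⟩

omit [IsDedekindDomain 𝒪] in
theorem comap_eq_map_symm (τ : 𝒪 ≃+* 𝒪) (I : Ideal 𝒪) :
    I.comap (τ : 𝒪 →+* 𝒪) = I.map (τ.symm : 𝒪 →+* 𝒪) := by
  ext x
  rw [Ideal.mem_comap, Ideal.mem_map_iff_of_surjective (τ.symm : 𝒪 →+* 𝒪) τ.symm.surjective]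
  constructor
  · intro h
    exact ⟨τ x, h, by simp⟩
  · rintro ⟨y, hy, rfl⟩
    simpa using hy

omit [IsDedekindDomain 𝒪] in
theorem mem_comapEquiv_pow (τ : 𝒪 ≃+* 𝒪) (w : HeightOneSpectrum 𝒪) (n : ℕ) (a : 𝒪) :
    a ∈ (comapEquiv τ w).asIdeal ^ n ↔ τ a ∈ w.asIdeal ^ n := by
  show a ∈ (w.asIdeal.comap (τ : 𝒪 →+* 𝒪)) ^ n ↔ _
  rw [comap_eq_map_symm, ← Ideal.map_pow, ← comap_eq_map_symm, Ideal.mem_comap]
  rfl

open WithZero in
/-- Two elements of `ℤᵐ⁰` below `1` with the same position relative to all `exp (-n)` agree. -/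
theorem le_of_forall_le_exp {x y : ℤᵐ⁰} (hx : x ≤ 1)
    (h : ∀ n : ℕ, x ≤ exp (-(n : ℤ)) → y ≤ exp (-(n : ℤ))) : y ≤ x := by
  rcases eq_or_ne x 0 with rfl | hx0
  · by_contra hy
    have hy0 : y ≠ 0 := fun h0 => hy (h0 ▸ le_refl _)
    have h1 := h ((-(log y)).toNat + 1) zero_le
    rw [← log_le_iff_le_exp hy0] at h1
    push_cast at h1
    have h2 := Int.self_le_toNat (-(log y))
    omega
  · have hlog : log x ≤ 0 := by
      rw [log_le_iff_le_exp hx0, exp_zero]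
      exact hx
    have h1 := h ((-(log x)).toNat) (by
      rw [← log_le_iff_le_exp hx0, Int.toNat_of_nonneg (by omega)]
      omega)
    rw [Int.toNat_of_nonneg (by omega), neg_neg, exp_log hx0] at h1
    exact h1

/-- The valuation at the transported prime. -/
theorem intValuation_comapEquiv (τ : 𝒪 ≃+* 𝒪) (w : HeightOneSpectrum 𝒪) (a : 𝒪) :
    (comapEquiv τ w).intValuation a = w.intValuation (τ a) := by
  apply le_antisymm
  · refine le_of_forall_le_exp (w.intValuation_le_one _) fun n hn => ?_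
    rw [HeightOneSpectrum.intValuation_le_pow_iff_mem] at hn ⊢
    exact (mem_comapEquiv_pow τ w n a).mpr hn
  · refine le_of_forall_le_exp ((comapEquiv τ w).intValuation_le_one _) fun n hn => ?_
    rw [HeightOneSpectrum.intValuation_le_pow_iff_mem] at hn ⊢
    exact (mem_comapEquiv_pow τ w n a).mp hn

/-- The valuation of `σ x` at `w` is the valuation of `x` at the transported prime. -/
theorem valuation_map (σ : F ≃+* F) (τ : 𝒪 ≃+* 𝒪)
    (hστ : ∀ a : 𝒪, σ (algebraMap 𝒪 F a) = algebraMap 𝒪 F (τ a))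
    (w : HeightOneSpectrum 𝒪) (x : F) :
    w.valuation F (σ x) = (comapEquiv τ w).valuation F x := by
  obtain ⟨a, b, -, rfl⟩ := IsFractionRing.div_surjective (A := 𝒪) x
  rw [map_div₀, hστ, hστ, map_div₀, map_div₀, HeightOneSpectrum.valuation_of_algebraMap,
    HeightOneSpectrum.valuation_of_algebraMap, HeightOneSpectrum.valuation_of_algebraMap,
    HeightOneSpectrum.valuation_of_algebraMap, intValuation_comapEquiv, intValuation_comapEquiv]

theorem ordAt_map (σ : F ≃+* F) (τ : 𝒪 ≃+* 𝒪)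
    (hστ : ∀ a : 𝒪, σ (algebraMap 𝒪 F a) = algebraMap 𝒪 F (τ a))
    (w : HeightOneSpectrum 𝒪) (x : F) :
    ordAt w (σ x) = ordAt (comapEquiv τ w) x := by
  unfold ordAt
  rw [valuation_map σ τ hστ]

/-- **(R2d)** `𝒫` is invariant under automorphisms of `F` preserving `𝒪`. -/
theorem pDiv_map (σ : F ≃+* F) (τ : 𝒪 ≃+* 𝒪)
    (hστ : ∀ a : 𝒪, σ (algebraMap 𝒪 F a) = algebraMap 𝒪 F (τ a)) {p : ℕ} {x : F}
    (hx : PDiv 𝒪 p x) : PDiv 𝒪 p (σ x) := fun w => by
  rw [ordAt_map σ τ hστ]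
  exact hx _

variable {k Z : Type*} [Field k] [Algebra k 𝒪]

/-- The height-one prime `ker (ev z)` of an evaluation with nonzero kernel. -/
def kerPrime (χ : 𝒪 →ₐ[k] k) (hne : RingHom.ker χ.toRingHom ≠ ⊥) : HeightOneSpectrum 𝒪 :=
  ⟨RingHom.ker χ.toRingHom, (ker_isMaximal χ).isPrime, hne⟩

/-- **Backward direction**: `𝒫(x)` implies that `p` divides every "analytic order" of `x`. -/
theorem forall_dvd_of_pDiv (ev : Z → 𝒪 →ₐ[k] k) (hne : ∀ z, RingHom.ker (ev z).toRingHom ≠ ⊥)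
    (ν : Z → F → ℤ)
    (hmul : ∀ (z : Z) (x y : F), x ≠ 0 → y ≠ 0 → ν z (x * y) = ν z x + ν z y)
    (hunit : ∀ (z : Z) (a : 𝒪), ev z a ≠ 0 → ν z (algebraMap 𝒪 F a) = 0)
    {p : ℕ} {x : F} (hx : x ≠ 0) (h : PDiv 𝒪 p x) (z : Z) : (p : ℤ) ∣ ν z x := by
  obtain ⟨e, -, he⟩ := exists_eq_mul_ordAt (kerPrime (ev z) (hne z)) (ν z) (hmul z)
    (fun a ha => hunit z a fun h0 => ha h0)
  rw [he x hx]
  exact Dvd.dvd.mul_left (h _) e

/-- **Forward direction**: if every height-one prime is the kernel of an evaluation and the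
local index at every point is prime to `p` (witnessed by one function vanishing at the point
with analytic order prime to `p`), then "`p` divides every analytic order of `x`" implies
`𝒫(x)`. -/
theorem pDiv_of_forall_dvd (ev : Z → 𝒪 →ₐ[k] k)
    (hsurj : ∀ w : HeightOneSpectrum 𝒪, ∃ z, RingHom.ker (ev z).toRingHom = w.asIdeal)
    (ν : Z → F → ℤ)
    (hmul : ∀ (z : Z) (x y : F), x ≠ 0 → y ≠ 0 → ν z (x * y) = ν z x + ν z y)
    (hunit : ∀ (z : Z) (a : 𝒪), ev z a ≠ 0 → ν z (algebraMap 𝒪 F a) = 0)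
    {p : ℕ}
    (hcop : ∀ z, ∃ a : 𝒪, a ≠ 0 ∧ IsCoprime (p : ℤ) (ν z (algebraMap 𝒪 F a)))
    {x : F} (h : ∀ z, (p : ℤ) ∣ ν z x) : PDiv 𝒪 p x := by
  intro w
  rcases eq_or_ne x 0 with rfl | hx
  · rw [ordAt_zero]
    exact dvd_zero _
  obtain ⟨z, hz⟩ := hsurj w
  obtain ⟨e, -, he⟩ := exists_eq_mul_ordAt w (ν z) (hmul z) (fun a ha => hunit z a fun h0 => by
    apply ha
    rw [← hz]
    exact h0)
  obtain ⟨a, ha0, hcopa⟩ := hcop z
  have haF : algebraMap 𝒪 F a ≠ 0 :=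
    (map_ne_zero_iff _ (IsFractionRing.injective 𝒪 F)).mpr ha0
  rw [he _ haF] at hcopa
  have hcope : IsCoprime (p : ℤ) e := hcopa.of_mul_right_left
  have h1 := h z
  rw [he x hx] at h1
  exact hcope.dvd_of_dvd_mul_left h1

end PDivSection

end Fermat.Agent.S29.MaxEvalB
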