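/-
S29, block [K], leaf (R2d*) — PStar.lean (helper20).  Imports Mathlib + `S29/MaxEvalB` (helper61).

The `j`-normalised divisibility property `𝒫*`, which replaces the property `𝒫` of (R2d) and makes
the `ℂ`-side of block [K] uniform in the prime `p` (no stabiliser / ramification bookkeeping for
`p ∈ {2, 3}`).

Setting: `𝒪` a Dedekind domain with fraction field `F`, a `k`-algebra, `j ∈ 𝒪`, and a function
`E : k → ℕ` (model: `𝒪` = integral closure of `ℂ[j]` in `F_ℂ`, `E = jE`, i.e. `3` at `0`, `2` at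
`1728`, `1` elsewhere — the order of vanishing of `j - j₀` at any point of `ℍ` above `j₀`;
`S29/JOrd.lean`, `jE`).

  `PStar j E p x` :⟺ for every height-one prime `w` and every `j₀ : k` with `j - j₀ ∈ w`:
                      `p * ord_w (j - j₀) ∣ E j₀ * ord_w x`.

* `forall_dvd_of_pStar` (backward): `𝒫*(x)` ⇒ `p` divides every "analytic order" `ν z x`.
* `pStar_of_forall_dvd` (forward): if every height-one prime containing some `j - j₀` is the
  kernel of an evaluation, then "`p ∣ ν z x` for all `z`" ⇒ `𝒫*(x)` — for EVERY `p`, without any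
  coprimality hypothesis on local indices.
* `pStar_map`: `𝒫*` is invariant under automorphisms of `F` preserving `𝒪`, fixing `j` and acting
  on the constants through an automorphism `s` of `k` with `E ∘ s = E`.
* `forall_dvd_map`: the composite "`p ∣ ν z x` for all `z`" ⇒ "`p ∣ ν z (σ x)` for all `z`".

In the model `E = JOrd.jE` (`3` at `0`, `2` at `1728`, `1` elsewhere), `hE` is
`JOrd.analyticOrderAt_jFun_sub` and the invariance `E ∘ s = E` is `JOrd.jE_map`.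

The "analytic orders" enter only through the hypotheses `hmul`, `hunit` (as in
`MaxEvalB.forall_dvd_of_pDiv`) and `hE : ν z (j - j(z)) = E (j(z))`.
-/
import Mathlib
import Fermat.Agent.S29.MaxEvalB

set_option autoImplicit false
set_option linter.dupNamespace false

namespace Fermat.Agent.S29.PStar

open IsDedekindDomain
open Fermat.Agent.S29.MaxEvalB

section Basic

variable {k 𝒪 F : Type*} [Field k] [CommRing 𝒪] [IsDedekindDomain 𝒪] [Field F] [Algebra 𝒪 F]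
  [IsFractionRing 𝒪 F] [Algebra k 𝒪]

/-- **Property `𝒫*`**: for every height-one prime `w` of `𝒪` and every constant `j₀` with
`j - j₀ ∈ w`, the integer `p * ord_w (j - j₀)` divides `E j₀ * ord_w x`. -/
def PStar (j : 𝒪) (E : k → ℕ) (p : ℕ) (x : F) : Prop :=
  ∀ (w : HeightOneSpectrum 𝒪) (j₀ : k), j - algebraMap k 𝒪 j₀ ∈ w.asIdeal →
    (p : ℤ) * ordAt w (algebraMap 𝒪 F (j - algebraMap k 𝒪 j₀)) ∣ (E j₀ : ℤ) * ordAt w x

theorem pStar_zero (j : 𝒪) (E : k → ℕ) (p : ℕ) : PStar j E p (0 : F) := fun w j₀ _ => by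
  rw [ordAt_zero, mul_zero]
  exact dvd_zero _

theorem pStar_one (j : 𝒪) (E : k → ℕ) (p : ℕ) : PStar j E p (1 : F) := fun w j₀ _ => by
  rw [ordAt_one, mul_zero]
  exact dvd_zero _

theorem PStar.mul {j : 𝒪} {E : k → ℕ} {p : ℕ} {x y : F} (hx : PStar j E p x)
    (hy : PStar j E p y) : PStar j E p (x * y) := by
  intro w j₀ hj₀
  rcases eq_or_ne x 0 with rfl | hx0
  · rw [zero_mul, ordAt_zero, mul_zero]
    exact dvd_zero _
  rcases eq_or_ne y 0 with rfl | hy0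
  · rw [mul_zero, ordAt_zero, mul_zero]
    exact dvd_zero _
  rw [ordAt_mul w hx0 hy0, mul_add]
  exact dvd_add (hx w j₀ hj₀) (hy w j₀ hj₀)

/-- The order of the inverse. -/
theorem ordAt_inv (w : HeightOneSpectrum 𝒪) (x : F) : ordAt w x⁻¹ = -ordAt w x := by
  unfold ordAt
  rw [map_inv₀, WithZero.log_inv]

theorem PStar.inv {j : 𝒪} {E : k → ℕ} {p : ℕ} {x : F} (hx : PStar j E p x) :
    PStar j E p x⁻¹ := by
  intro w j₀ hj₀
  rw [ordAt_inv, mul_neg]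
  exact (dvd_neg).mpr (hx w j₀ hj₀)

theorem PStar.div {j : 𝒪} {E : k → ℕ} {p : ℕ} {x y : F} (hx : PStar j E p x)
    (hy : PStar j E p y) : PStar j E p (x / y) := by
  rw [div_eq_mul_inv]
  exact hx.mul hy.inv

end Basic

section Points

variable {k 𝒪 F Z : Type*} [Field k] [CommRing 𝒪] [IsDedekindDomain 𝒪] [Field F] [Algebra 𝒪 F]
  [IsFractionRing 𝒪 F] [Algebra k 𝒪]

omit [IsDedekindDomain 𝒪] in
/-- `j - j(z)` lies in the kernel of the evaluation at `z`. -/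
theorem sub_mem_ker (j : 𝒪) (χ : 𝒪 →ₐ[k] k) :
    j - algebraMap k 𝒪 (χ j) ∈ RingHom.ker χ.toRingHom := by
  rw [RingHom.mem_ker]
  show χ (j - algebraMap k 𝒪 (χ j)) = 0
  rw [map_sub, AlgHom.commutes]
  exact sub_self _

omit [IsDedekindDomain 𝒪] in
/-- If `j - j₀` lies in the kernel of the evaluation at `z` then `j(z) = j₀`. -/
theorem eval_eq_of_sub_mem_ker (j : 𝒪) (χ : 𝒪 →ₐ[k] k) {j₀ : k}
    (h : j - algebraMap k 𝒪 j₀ ∈ RingHom.ker χ.toRingHom) : χ j = j₀ := by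
  rw [RingHom.mem_ker] at h
  have h' : χ (j - algebraMap k 𝒪 j₀) = 0 := h
  rw [map_sub, AlgHom.commutes] at h'
  exact sub_eq_zero.mp h'

/-- The key cancellation: if `ν = e · ord_w` on `F ∖ 0`, `ν (j - j₀) = E` and `j - j₀` is a nonzero
element of `w`, then `p * ord_w (j - j₀) ∣ E * ord_w x ↔ p ∣ ν x`. -/
theorem mul_dvd_mul_iff_dvd (w : HeightOneSpectrum 𝒪) (ν : F → ℤ) {e : ℤ}
    (he : ∀ x : F, x ≠ 0 → ν x = e * ordAt w x) {a : 𝒪} (ha : a ∈ w.asIdeal) (ha0 : a ≠ 0)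
    {E : ℤ} (hE : ν (algebraMap 𝒪 F a) = E) (p : ℤ) {x : F} (hx : x ≠ 0) :
    p * ordAt w (algebraMap 𝒪 F a) ∣ E * ordAt w x ↔ p ∣ ν x := by
  have haF : algebraMap 𝒪 F a ≠ 0 :=
    (map_ne_zero_iff _ (IsFractionRing.injective 𝒪 F)).mpr ha0
  have hm : 0 < ordAt w (algebraMap 𝒪 F a) := ordAt_algebraMap_pos w ha ha0
  rw [he x hx, ← hE, he _ haF]
  have e1 : e * ordAt w (algebraMap 𝒪 F a) * ordAt w x =
      (e * ordAt w x) * ordAt w (algebraMap 𝒪 F a) := by ring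
  rw [e1]
  exact mul_dvd_mul_iff_right hm.ne'

/-- **Backward direction** (all `p`): `𝒫*(x)` implies that `p` divides every "analytic order"
of `x`.  Only (R2c) at the point `z` is used. -/
theorem forall_dvd_of_pStar (j : 𝒪) (E : k → ℕ) (hj : ∀ c : k, j ≠ algebraMap k 𝒪 c)
    (ev : Z → 𝒪 →ₐ[k] k) (hne : ∀ z, RingHom.ker (ev z).toRingHom ≠ ⊥)
    (ν : Z → F → ℤ)
    (hmul : ∀ (z : Z) (x y : F), x ≠ 0 → y ≠ 0 → ν z (x * y) = ν z x + ν z y)
    (hunit : ∀ (z : Z) (a : 𝒪), ev z a ≠ 0 → ν z (algebraMap 𝒪 F a) = 0)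
    (hE : ∀ z, ν z (algebraMap 𝒪 F (j - algebraMap k 𝒪 (ev z j))) = E (ev z j))
    {p : ℕ} {x : F} (hx : x ≠ 0) (h : PStar j E p x) (z : Z) : (p : ℤ) ∣ ν z x := by
  obtain ⟨e, -, he⟩ := exists_eq_mul_ordAt (kerPrime (ev z) (hne z)) (ν z) (hmul z)
    (fun a ha => hunit z a fun h0 => ha h0)
  have hmem : j - algebraMap k 𝒪 (ev z j) ∈ (kerPrime (ev z) (hne z)).asIdeal :=
    sub_mem_ker j (ev z)
  have h1 := h (kerPrime (ev z) (hne z)) (ev z j) hmem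
  exact (mul_dvd_mul_iff_dvd (kerPrime (ev z) (hne z)) (ν z) he hmem
    (sub_ne_zero.mpr (hj _)) (hE z) (p : ℤ) hx).mp h1

/-- **Forward direction** (all `p`, no coprimality hypothesis): if every height-one prime
containing some `j - j₀` is the kernel of an evaluation, then "`p` divides every analytic order of
`x`" implies `𝒫*(x)`. -/
theorem pStar_of_forall_dvd (j : 𝒪) (E : k → ℕ) (hj : ∀ c : k, j ≠ algebraMap k 𝒪 c)
    (ev : Z → 𝒪 →ₐ[k] k)
    (hsurj : ∀ (w : HeightOneSpectrum 𝒪) (j₀ : k), j - algebraMap k 𝒪 j₀ ∈ w.asIdeal →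
      ∃ z, RingHom.ker (ev z).toRingHom = w.asIdeal)
    (ν : Z → F → ℤ)
    (hmul : ∀ (z : Z) (x y : F), x ≠ 0 → y ≠ 0 → ν z (x * y) = ν z x + ν z y)
    (hunit : ∀ (z : Z) (a : 𝒪), ev z a ≠ 0 → ν z (algebraMap 𝒪 F a) = 0)
    (hE : ∀ z, ν z (algebraMap 𝒪 F (j - algebraMap k 𝒪 (ev z j))) = E (ev z j))
    {p : ℕ} {x : F} (h : ∀ z, (p : ℤ) ∣ ν z x) : PStar j E p x := by
  intro w j₀ hj₀
  rcases eq_or_ne x 0 with rfl | hx
  · rw [ordAt_zero, mul_zero]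
    exact dvd_zero _
  obtain ⟨z, hz⟩ := hsurj w j₀ hj₀
  obtain ⟨e, -, he⟩ := exists_eq_mul_ordAt w (ν z) (hmul z) (fun a ha => hunit z a fun h0 => by
    apply ha
    rw [← hz]
    exact h0)
  have hjz : ev z j = j₀ := eval_eq_of_sub_mem_ker j (ev z) (by rw [hz]; exact hj₀)
  have hE' : ν z (algebraMap 𝒪 F (j - algebraMap k 𝒪 j₀)) = ((E j₀ : ℕ) : ℤ) := by
    have := hE z
    rw [hjz] at this
    exact this
  exact (mul_dvd_mul_iff_dvd w (ν z) he hj₀ (sub_ne_zero.mpr (hj _)) hE' (p : ℤ) hx).mpr (h z)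

/-- `𝒫*(x) ↔ p` divides every analytic order of `x` (`x ≠ 0`). -/
theorem pStar_iff_forall_dvd (j : 𝒪) (E : k → ℕ) (hj : ∀ c : k, j ≠ algebraMap k 𝒪 c)
    (ev : Z → 𝒪 →ₐ[k] k) (hne : ∀ z, RingHom.ker (ev z).toRingHom ≠ ⊥)
    (hsurj : ∀ (w : HeightOneSpectrum 𝒪) (j₀ : k), j - algebraMap k 𝒪 j₀ ∈ w.asIdeal →
      ∃ z, RingHom.ker (ev z).toRingHom = w.asIdeal)
    (ν : Z → F → ℤ)
    (hmul : ∀ (z : Z) (x y : F), x ≠ 0 → y ≠ 0 → ν z (x * y) = ν z x + ν z y)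
    (hunit : ∀ (z : Z) (a : 𝒪), ev z a ≠ 0 → ν z (algebraMap 𝒪 F a) = 0)
    (hE : ∀ z, ν z (algebraMap 𝒪 F (j - algebraMap k 𝒪 (ev z j))) = E (ev z j))
    {p : ℕ} {x : F} (hx : x ≠ 0) : PStar j E p x ↔ ∀ z, (p : ℤ) ∣ ν z x :=
  ⟨fun h z => forall_dvd_of_pStar j E hj ev hne ν hmul hunit hE hx h z,
    fun h => pStar_of_forall_dvd j E hj ev hsurj ν hmul hunit hE h⟩

/-- A `p`-th power of an element whose orders are the analytic orders of a "function" has `𝒫*`: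
the forward direction in the form used for `x = (F / Δ) ^ p`-type elements, where only
`ν z x ∈ pℤ` is known. (Restatement of `pStar_of_forall_dvd`.) -/
theorem pStar_of_forall_exists_eq_mul (j : 𝒪) (E : k → ℕ) (hj : ∀ c : k, j ≠ algebraMap k 𝒪 c)
    (ev : Z → 𝒪 →ₐ[k] k)
    (hsurj : ∀ (w : HeightOneSpectrum 𝒪) (j₀ : k), j - algebraMap k 𝒪 j₀ ∈ w.asIdeal →
      ∃ z, RingHom.ker (ev z).toRingHom = w.asIdeal)
    (ν : Z → F → ℤ)
    (hmul : ∀ (z : Z) (x y : F), x ≠ 0 → y ≠ 0 → ν z (x * y) = ν z x + ν z y)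
    (hunit : ∀ (z : Z) (a : 𝒪), ev z a ≠ 0 → ν z (algebraMap 𝒪 F a) = 0)
    (hE : ∀ z, ν z (algebraMap 𝒪 F (j - algebraMap k 𝒪 (ev z j))) = E (ev z j))
    {p : ℕ} {x : F} (h : ∀ z, ∃ n : ℤ, ν z x = p * n) : PStar j E p x :=
  pStar_of_forall_dvd j E hj ev hsurj ν hmul hunit hE fun z => by
    obtain ⟨n, hn⟩ := h z
    exact ⟨n, hn⟩

end Points

section Invariance

variable {k 𝒪 F : Type*} [Field k] [CommRing 𝒪] [IsDedekindDomain 𝒪] [Field F] [Algebra 𝒪 F]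
  [IsFractionRing 𝒪 F] [Algebra k 𝒪]

/-- **`𝒫*` is invariant under automorphisms**: `σ` an automorphism of `F` inducing `τ` on `𝒪`,
with `τ j = j` and `τ` acting on the constants through an automorphism `s` of `k` under which `E`
is invariant. -/
theorem pStar_map (j : 𝒪) (E : k → ℕ) (σ : F ≃+* F) (τ : 𝒪 ≃+* 𝒪)
    (hστ : ∀ a : 𝒪, σ (algebraMap 𝒪 F a) = algebraMap 𝒪 F (τ a))
    (s : k ≃+* k) (hτk : ∀ c : k, τ (algebraMap k 𝒪 c) = algebraMap k 𝒪 (s c))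
    (hτj : τ j = j) (hE : ∀ c : k, E (s c) = E c) {p : ℕ} {x : F}
    (hx : PStar j E p x) : PStar j E p (σ x) := by
  intro w j₀ hj₀
  have hτ : τ (j - algebraMap k 𝒪 (s.symm j₀)) = j - algebraMap k 𝒪 j₀ := by
    rw [map_sub, hτj, hτk, RingEquiv.apply_symm_apply]
  have hmem : j - algebraMap k 𝒪 (s.symm j₀) ∈ (comapEquiv τ w).asIdeal := by
    show j - algebraMap k 𝒪 (s.symm j₀) ∈ w.asIdeal.comap (τ : 𝒪 →+* 𝒪)
    rw [Ideal.mem_comap]
    show τ (j - algebraMap k 𝒪 (s.symm j₀)) ∈ w.asIdeal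
    rw [hτ]
    exact hj₀
  have h1 := hx (comapEquiv τ w) (s.symm j₀) hmem
  have h2 : ordAt (comapEquiv τ w) (algebraMap 𝒪 F (j - algebraMap k 𝒪 (s.symm j₀))) =
      ordAt w (algebraMap 𝒪 F (j - algebraMap k 𝒪 j₀)) := by
    rw [← ordAt_map σ τ hστ, hστ, hτ]
  have h3 : E (s.symm j₀) = E j₀ := by
    have := hE (s.symm j₀)
    rw [RingEquiv.apply_symm_apply] at this
    exact this.symm
  rw [ordAt_map σ τ hστ, ← h2, ← h3]
  exact h1

/-- `𝒫*` is reflected as well (apply `pStar_map` to the inverse automorphisms). -/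
theorem pStar_map_iff (j : 𝒪) (E : k → ℕ) (σ : F ≃+* F) (τ : 𝒪 ≃+* 𝒪)
    (hστ : ∀ a : 𝒪, σ (algebraMap 𝒪 F a) = algebraMap 𝒪 F (τ a))
    (s : k ≃+* k) (hτk : ∀ c : k, τ (algebraMap k 𝒪 c) = algebraMap k 𝒪 (s c))
    (hτj : τ j = j) (hE : ∀ c : k, E (s c) = E c) {p : ℕ} {x : F} :
    PStar j E p (σ x) ↔ PStar j E p x := by
  refine ⟨fun h => ?_, pStar_map j E σ τ hστ s hτk hτj hE⟩
  have h' := pStar_map j E σ.symm τ.symm (fun a => by
      apply σ.injective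
      rw [RingEquiv.apply_symm_apply, hστ, RingEquiv.apply_symm_apply]) s.symm (fun c => by
      apply τ.injective
      rw [RingEquiv.apply_symm_apply, hτk, RingEquiv.apply_symm_apply])
    (by apply τ.injective; rw [RingEquiv.apply_symm_apply, hτj]) (fun c => by
      have := hE (s.symm c)
      rw [RingEquiv.apply_symm_apply] at this
      exact this.symm) h
  rwa [RingEquiv.symm_apply_apply] at h'

end Invariance

section Transport

variable {k 𝒪 F Z : Type*} [Field k] [CommRing 𝒪] [IsDedekindDomain 𝒪] [Field F] [Algebra 𝒪 F]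
  [IsFractionRing 𝒪 F] [Algebra k 𝒪]

/-- **Transport of "`p` divides all analytic orders" along an automorphism** (abstract form of the
order-stability step, uniform in `p`): forward direction, invariance of `𝒫*`, backward
direction. -/
theorem forall_dvd_map (j : 𝒪) (E : k → ℕ) (hj : ∀ c : k, j ≠ algebraMap k 𝒪 c)
    (ev : Z → 𝒪 →ₐ[k] k) (hne : ∀ z, RingHom.ker (ev z).toRingHom ≠ ⊥)
    (hsurj : ∀ (w : HeightOneSpectrum 𝒪) (j₀ : k), j - algebraMap k 𝒪 j₀ ∈ w.asIdeal →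
      ∃ z, RingHom.ker (ev z).toRingHom = w.asIdeal)
    (ν : Z → F → ℤ)
    (hmul : ∀ (z : Z) (x y : F), x ≠ 0 → y ≠ 0 → ν z (x * y) = ν z x + ν z y)
    (hunit : ∀ (z : Z) (a : 𝒪), ev z a ≠ 0 → ν z (algebraMap 𝒪 F a) = 0)
    (hE : ∀ z, ν z (algebraMap 𝒪 F (j - algebraMap k 𝒪 (ev z j))) = E (ev z j))
    (σ : F ≃+* F) (τ : 𝒪 ≃+* 𝒪)
    (hστ : ∀ a : 𝒪, σ (algebraMap 𝒪 F a) = algebraMap 𝒪 F (τ a))
    (s : k ≃+* k) (hτk : ∀ c : k, τ (algebraMap k 𝒪 c) = algebraMap k 𝒪 (s c))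
    (hτj : τ j = j) (hEs : ∀ c : k, E (s c) = E c)
    {p : ℕ} {x : F} (hx : x ≠ 0) (h : ∀ z, (p : ℤ) ∣ ν z x) (z : Z) : (p : ℤ) ∣ ν z (σ x) :=
  forall_dvd_of_pStar j E hj ev hne ν hmul hunit hE
    ((map_ne_zero_iff σ σ.injective).mpr hx)
    (pStar_map j E σ τ hστ s hτk hτj hEs
      (pStar_of_forall_dvd j E hj ev hsurj ν hmul hunit hE h)) z

end Transport

end Fermat.Agent.S29.PStar
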