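/-
S29 block [K], route B of [KPInv] (helper95) — the assembly.

`kpInv_of_model`: [KPInv] (σ-invariance of "all zero orders on ℍ are divisible by `p`") from
* an analytic model `M : R2.Model N` of `O_N` (helper15's `R2Defs`),
* "every maximal ideal of `O_N` is the kernel of an evaluation" (`hmax`; row [R2b-inst]),
* the forward dictionary `K1Int` (first two clauses),
via helper20's abstract `PStar.forall_dvd_map`.  No hypothesis on `p`.
-/
import Mathlib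
import Fermat.Agent.S29.R2Defs
import Fermat.Agent.S29.ODedR2
import Fermat.Agent.S29.PStar
import Fermat.Agent.S29.SigmaFix
import Fermat.Agent.S29.K3Alg
import Fermat.Agent.S29.KBasic

set_option autoImplicit false

namespace Fermat.Agent.S29.K3Model

open UpperHalfPlane ModularForm CongruenceSubgroup ModularCurve IsDedekindDomain
open scoped MatrixGroups ModularForm Manifold
open Fermat.Agent.S29 Fermat.Agent.LevelOne

/-! ### The action of `σ` on `F_ℂ` and on `O_N` -/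

/-- The automorphism of `F_ℂ` induced by `σ` acting on coefficients. -/
noncomputable def sigF (N : ℕ) (σ : ℂ ≃+* ℂ) : ↥(K.FC N) ≃+* ↥(K.FC N) :=
  arithmeticRingAut (modularFunctionFieldFull N) (SigmaFix.toRatAlgEquiv σ)

theorem coe_sigF (N : ℕ) (σ : ℂ ≃+* ℂ) (x : ↥(K.FC N)) :
    ((sigF N σ x : ↥(K.FC N)) : LaurentSeries ℂ)
      = coeffMap (σ : ℂ →+* ℂ) (x : LaurentSeries ℂ) := by
  rw [sigF, coe_arithmeticRingAut_apply, coeffMap_congr (SigmaFix.coe_toRatAlgEquiv σ)]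

theorem coe_sigF_symm (N : ℕ) (σ : ℂ ≃+* ℂ) (x : ↥(K.FC N)) :
    (((sigF N σ).symm x : ↥(K.FC N)) : LaurentSeries ℂ)
      = coeffMap (σ.symm : ℂ →+* ℂ) (x : LaurentSeries ℂ) := by
  have h : ((sigF N σ).symm x : ↥(K.FC N)) = sigF N σ.symm x := by
    apply (sigF N σ).injective
    rw [RingEquiv.apply_symm_apply]
    apply Subtype.ext
    rw [coe_sigF, coe_sigF, coeffMap_coeffMap,
      coeffMap_congr (g := RingHom.id ℂ) (RingHom.ext fun a => σ.apply_symm_apply a),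
      coeffMap_id]
  rw [h, coe_sigF]

theorem sigF_mem_ON (N : ℕ) (σ : ℂ ≃+* ℂ) {x : ↥(K.FC N)} (hx : x ∈ R2.ON N) :
    sigF N σ x ∈ R2.ON N := by
  rw [R2.mem_ON_iff] at hx ⊢
  rw [coe_sigF]
  exact SigmaFix.isIntegral_jC_coeffMap _ hx

theorem sigF_symm_mem_ON (N : ℕ) (σ : ℂ ≃+* ℂ) {x : ↥(K.FC N)} (hx : x ∈ R2.ON N) :
    (sigF N σ).symm x ∈ R2.ON N := by
  rw [R2.mem_ON_iff] at hx ⊢
  rw [coe_sigF_symm]
  exact SigmaFix.isIntegral_jC_coeffMap _ hx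

/-- `σ` restricts to a ring automorphism of `O_N`. -/
theorem exists_sigO (N : ℕ) (σ : ℂ ≃+* ℂ) :
    ∃ τ : ↥(R2.ON N) ≃+* ↥(R2.ON N), ∀ a : ↥(R2.ON N),
      sigF N σ (algebraMap ↥(R2.ON N) ↥(K.FC N) a) = algebraMap ↥(R2.ON N) ↥(K.FC N) (τ a) :=
  K3Alg.exists_ringEquiv_restrict Subtype.val_injective (sigF N σ)
    (fun a => ⟨⟨_, sigF_mem_ON N σ a.2⟩, rfl⟩) (fun a => ⟨⟨_, sigF_symm_mem_ON N σ a.2⟩, rfl⟩)

/-! ### Orders -/

/-- If `a ∈ O_N` has the form `G` of weight `12 m`, the orders of `G` and of `real a` agree. -/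
theorem order_eq {N : ℕ} [NeZero N] (M : R2.Model N) (a : ↥(R2.ON N)) (m : ℕ) {G : ℍ → ℂ}
    (hG : G ∈ S20.MF N (12 * (m : ℤ)))
    (h : ((a : ↥(K.FC N)) : LaurentSeries ℂ) * K.DeltaC ^ m = K.qx G) (z : ℍ) :
    analyticOrderAt (fun w : ℂ => G (ofComplex w)) (z : ℂ)
      = analyticOrderAt (fun w : ℂ => M.real a (ofComplex w)) (z : ℂ) := by
  have hspec := M.real_spec a m G hG h
  have hfun : G = M.real a * fun w : ℍ => ModularForm.discriminant w ^ m :=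
    funext fun w => (hspec w).symm
  have hΔm : MDiff (fun w : ℍ => ModularForm.discriminant w ^ m) := InvRat.mdiff_discriminant_pow m
  have h1 : InvRat.ordH G z = InvRat.ordH (M.real a) z
      + InvRat.ordH (fun w : ℍ => ModularForm.discriminant w ^ m) z := by
    rw [hfun]
    exact InvRat.ordH_mul (M.real_mdiff a) hΔm z
  have h2 : InvRat.ordH (fun w : ℍ => ModularForm.discriminant w ^ m) z = 0 :=
    (InvRat.ordH_eq_zero hΔm z).mpr (pow_ne_zero m (ModularForm.discriminant_ne_zero z))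
  rw [h2, add_zero] at h1
  exact h1

/-! ### The assembly -/

/-- **[KPInv], route B, from a model.** -/
theorem kpInv_of_model (N : ℕ) [NeZero N] (M : R2.Model N) (p m : ℕ) (σ : ℂ ≃+* ℂ)
    (hmax : ∀ 𝔪 : Ideal ↥(R2.ON N), 𝔪.IsMaximal →
      ∃ z : ℍ, ∀ a : ↥(R2.ON N), a ∈ 𝔪 ↔ M.real a z = 0)
    (hK1Int : ∀ {G : ℍ → ℂ}, G ∈ S20.MF N (12 * (m : ℤ)) → ∀ {x : LaurentSeries ℂ},
      x * K.DeltaC ^ m = K.qx G →
      x ∈ K.FC N ∧ IsIntegral (Algebra.adjoin ℂ ({K.jC} : Set (LaurentSeries ℂ))) x)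
    (G G' : ℍ → ℂ) (hG : G ∈ S20.MF N (12 * (m : ℤ))) (hG' : G' ∈ S20.MF N (12 * (m : ℤ)))
    (hG0 : G ≠ 0) (hq : K.qx G' = coeffMap (σ : ℂ →+* ℂ) (K.qx G))
    (hord : ∀ z₀ : ℍ, ∃ n : ℕ,
      analyticOrderAt (fun z : ℂ => G (ofComplex z)) (z₀ : ℂ) = ((p * n : ℕ) : ℕ∞)) :
    ∀ z₀ : ℍ, ∃ n : ℕ,
      analyticOrderAt (fun z : ℂ => G' (ofComplex z)) (z₀ : ℂ) = ((p * n : ℕ) : ℕ∞) := by
  classical
  -- the element `a = qx G / Δ^m` of `O_N`
  have hΔ0 : K.DeltaC ^ m ≠ 0 := pow_ne_zero m K.DeltaC_ne_zero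
  obtain ⟨xL, hxLG⟩ : ∃ xL : LaurentSeries ℂ, xL * K.DeltaC ^ m = K.qx G :=
    ⟨K.qx G * (K.DeltaC ^ m)⁻¹, by rw [mul_assoc, inv_mul_cancel₀ hΔ0, mul_one]⟩
  obtain ⟨hxF, hxint⟩ := hK1Int hG hxLG
  have hqG0 : K.qx G ≠ 0 := K.qx_ne_zero (K.mem_niceSub_of_mem_MF hG) hG0
  have hxL0 : xL ≠ 0 := by
    rintro rfl
    rw [zero_mul] at hxLG
    exact hqG0 hxLG.symm
  obtain ⟨a, haL⟩ : ∃ a : ↥(R2.ON N), ((a : ↥(K.FC N)) : LaurentSeries ℂ) = xL :=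
    ⟨⟨⟨xL, hxF⟩, (R2.mem_ON_iff N ⟨xL, hxF⟩).mpr hxint⟩, rfl⟩
  have ha0 : a ≠ 0 := by
    rintro rfl
    exact hxL0 haL.symm
  have haG : ((a : ↥(K.FC N)) : LaurentSeries ℂ) * K.DeltaC ^ m = K.qx G := by
    rw [haL, hxLG]
  -- the automorphisms
  obtain ⟨τ, hτ⟩ := exists_sigO N σ
  have hcoeτ : ∀ b : ↥(R2.ON N), (((τ b : ↥(R2.ON N)) : ↥(K.FC N)) : LaurentSeries ℂ)
      = coeffMap (σ : ℂ →+* ℂ) ((b : ↥(K.FC N)) : LaurentSeries ℂ) := by
    intro b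
    have h1 : ((sigF N σ (algebraMap ↥(R2.ON N) ↥(K.FC N) b) : ↥(K.FC N)) : LaurentSeries ℂ)
        = ((algebraMap ↥(R2.ON N) ↥(K.FC N) (τ b) : ↥(K.FC N)) : LaurentSeries ℂ) :=
      congrArg (fun y : ↥(K.FC N) => (y : LaurentSeries ℂ)) (hτ b)
    rw [coe_sigF] at h1
    exact h1.symm
  have hτk : ∀ c : ℂ, τ (algebraMap ℂ ↥(R2.ON N) c) = algebraMap ℂ ↥(R2.ON N) (σ c) := by
    intro c
    apply Subtype.ext
    apply Subtype.ext
    rw [hcoeτ]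
    exact coeffMap_algebraMap (σ : ℂ →+* ℂ) c
  have hτj : τ (R2.jO N) = R2.jO N := by
    apply Subtype.ext
    apply Subtype.ext
    rw [hcoeτ]
    exact SigmaFix.coeffMap_jC _
  -- `j` is not constant
  have hj : ∀ c : ℂ, R2.jO N ≠ algebraMap ℂ ↥(R2.ON N) c := by
    intro c hc
    have h1 : ODed.jCF N = algebraMap ℂ ↥(K.FC N) c :=
      congrArg (fun b : ↥(R2.ON N) => (b : ↥(K.FC N))) hc
    exact ODed.transcendental_jCF N (h1 ▸ isAlgebraic_algebraMap c)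
  -- kernels of evaluations are nonzero
  have hne : ∀ z : ℍ, RingHom.ker (M.ev z).toRingHom ≠ ⊥ := by
    intro z hbot
    have hmem : R2.jO N - algebraMap ℂ ↥(R2.ON N) (jFun z) ∈ RingHom.ker (M.ev z).toRingHom := by
      rw [RingHom.mem_ker]
      change M.ev z (R2.jO N - algebraMap ℂ ↥(R2.ON N) (jFun z)) = 0
      rw [map_sub, M.ev_jO, AlgHom.commutes]
      exact sub_self _
    rw [hbot, Ideal.mem_bot, sub_eq_zero] at hmem
    exact hj _ hmem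
  -- every height one prime is the kernel of an evaluation
  have hsurj : ∀ (w : HeightOneSpectrum ↥(R2.ON N)) (j₀ : ℂ),
      R2.jO N - algebraMap ℂ ↥(R2.ON N) j₀ ∈ w.asIdeal →
      ∃ z, RingHom.ker (M.ev z).toRingHom = w.asIdeal := by
    intro w j₀ _
    obtain ⟨z, hz⟩ := hmax w.asIdeal w.isMaximal
    refine ⟨z, ?_⟩
    ext b
    rw [RingHom.mem_ker, hz b]
    rfl
  -- divisibility for `x = a`
  have hdvd : ∀ z : ℍ, (p : ℤ) ∣ M.nu z (algebraMap ↥(R2.ON N) ↥(K.FC N) a) := by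
    intro z
    obtain ⟨n, h1, h2⟩ := M.nu_algebraMap z a ha0
    obtain ⟨k, hk⟩ := hord z
    rw [order_eq M a m hG haG z, h2] at hk
    have hnk : n = p * k := by exact_mod_cast hk
    rw [h1, hnk]
    exact ⟨(k : ℤ), by push_cast; ring⟩
  have hx0 : algebraMap ↥(R2.ON N) ↥(K.FC N) a ≠ 0 := by
    intro h0
    exact ha0 (Subtype.ext h0)
  have key := PStar.forall_dvd_map (R2.jO N) JOrd.jE hj M.ev hne hsurj M.nu M.nu_mul M.nu_unit
    M.nu_j (sigF N σ) τ hτ σ hτk hτj (fun c => JOrd.jE_map (σ : ℂ →+* ℂ) c) hx0 hdvd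
  -- read off the orders of `G'`
  have hτa0 : τ a ≠ 0 := (map_ne_zero_iff τ τ.injective).mpr ha0
  have hτaG' : (((τ a : ↥(R2.ON N)) : ↥(K.FC N)) : LaurentSeries ℂ) * K.DeltaC ^ m = K.qx G' := by
    rw [hcoeτ, hq, ← haG, map_mul, map_pow, SigmaFix.coeffMap_DeltaC]
  intro z
  obtain ⟨n, h1, h2⟩ := M.nu_algebraMap z (τ a) hτa0
  have hk := key z
  rw [hτ a, h1] at hk
  obtain ⟨k, hk⟩ := Int.natCast_dvd_natCast.mp hk
  refine ⟨k, ?_⟩
  rw [order_eq M (τ a) m hG' hτaG' z, h2, hk]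

end Fermat.Agent.S29.K3Model
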