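/-
S29 block [K], leaf (K4-core) — PthRootCore.lean (helper70).  Mathlib-only.

Holomorphic `p`-th roots.  Let `U ⊆ ℂ` be open and exhausted by an increasing sequence of open
discs whose closures lie in `U` (e.g. the upper half plane), and let `f` be holomorphic on `U`
such that the order of vanishing of `f` at every point of `U` is finite and divisible by `p`.
Then `f = u ^ p` for a holomorphic `u` on `U`.

Route: on each disc strip the finitely many zeros, take a continuous root of the nonvanishing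
cofactor (`Complex.exists_continuousOn_pow_eq`), which is automatically holomorphic; normalise
the roots at a base point and glue along the exhaustion.
-/
import Mathlib

set_option autoImplicit false

noncomputable section

namespace Fermat.Agent.S29.PthRoot

open Set Filter Topology Metric

/-- A local holomorphic inverse of `w ↦ w ^ p` near `w₀ ≠ 0`, in the form used for continuous
roots: every function `v` continuous at `z₀` with `v z₀ = w₀` satisfies `L (v z ^ p) = v z`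
near `z₀`. -/
theorem exists_local_root_inverse {p : ℕ} (hp : p ≠ 0) (w₀ : ℂ) (hw₀ : w₀ ≠ 0) :
    ∃ L : ℂ → ℂ, DifferentiableAt ℂ L (w₀ ^ p) ∧
      ∀ (v : ℂ → ℂ) (z₀ : ℂ), ContinuousAt v z₀ → v z₀ = w₀ →
        ∀ᶠ z in 𝓝 z₀, L (v z ^ p) = v z := by
  have hf : HasStrictDerivAt (fun w : ℂ => w ^ p) ((p : ℂ) * w₀ ^ (p - 1)) w₀ :=
    hasStrictDerivAt_pow p w₀
  have hf' : (p : ℂ) * w₀ ^ (p - 1) ≠ 0 :=
    mul_ne_zero (Nat.cast_ne_zero.mpr hp) (pow_ne_zero _ hw₀)
  refine ⟨hf.localInverse (fun w : ℂ => w ^ p) _ w₀ hf', ?_, ?_⟩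
  · exact (hf.to_localInverse hf').hasDerivAt.differentiableAt
  · intro v z₀ hv hvz
    have h1 := hf.eventually_left_inverse hf'
    have h2 : Tendsto v (𝓝 z₀) (𝓝 w₀) := by
      have := hv.tendsto
      rwa [hvz] at this
    exact h2.eventually h1

/-- A continuous `p`-th root of a nonvanishing holomorphic function is holomorphic. -/
theorem differentiableOn_of_pow_eq {p : ℕ} (hp : p ≠ 0) {D : Set ℂ} (hD : IsOpen D)
    {v g : ℂ → ℂ} (hv : ContinuousOn v D) (hg : DifferentiableOn ℂ g D)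
    (hvg : ∀ z ∈ D, v z ^ p = g z) (hg0 : ∀ z ∈ D, g z ≠ 0) : DifferentiableOn ℂ v D := by
  intro z₀ hz₀
  have hDn : D ∈ 𝓝 z₀ := hD.mem_nhds hz₀
  have hv0 : v z₀ ≠ 0 := by
    intro h
    apply hg0 z₀ hz₀
    rw [← hvg z₀ hz₀, h, zero_pow hp]
  obtain ⟨L, hL, hLv⟩ := exists_local_root_inverse hp (v z₀) hv0
  have h1 := hLv v z₀ (hv.continuousAt hDn) rfl
  have h2 : v =ᶠ[𝓝 z₀] fun z => L (g z) := by
    filter_upwards [h1, hDn] with z hz hzD
    rw [← hvg z hzD, hz]
  have hL' : DifferentiableAt ℂ L (g z₀) := by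
    rw [← hvg z₀ hz₀]
    exact hL
  have h3 : DifferentiableAt ℂ (fun z => L (g z)) z₀ :=
    DifferentiableAt.comp (g := L) z₀ hL' (hg.differentiableAt hDn)
  exact (h3.congr_of_eventuallyEq h2).differentiableWithinAt

/-- Two holomorphic `p`-th roots of the same function on a connected open set which agree, with
a nonzero value, at one point coincide. -/
theorem eqOn_of_pow_eq {p : ℕ} (hp : p ≠ 0) {D : Set ℂ} (hD : IsOpen D)
    (hDc : IsPreconnected D) {v₁ v₂ : ℂ → ℂ} (h₁ : DifferentiableOn ℂ v₁ D)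
    (h₂ : DifferentiableOn ℂ v₂ D) (hpow : ∀ z ∈ D, v₁ z ^ p = v₂ z ^ p) {z₀ : ℂ} (hz₀ : z₀ ∈ D)
    (heq : v₁ z₀ = v₂ z₀) (hne : v₁ z₀ ≠ 0) : EqOn v₁ v₂ D := by
  have hDn : D ∈ 𝓝 z₀ := hD.mem_nhds hz₀
  obtain ⟨L, -, hLv⟩ := exists_local_root_inverse hp (v₁ z₀) hne
  have e1 := hLv v₁ z₀ ((h₁.continuousOn).continuousAt hDn) rfl
  have e2 := hLv v₂ z₀ ((h₂.continuousOn).continuousAt hDn) heq.symm
  have h3 : v₁ =ᶠ[𝓝 z₀] v₂ := by
    filter_upwards [e1, e2, hDn] with z hz1 hz2 hzD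
    rw [← hz1, ← hz2, hpow z hzD]
  exact (h₁.analyticOnNhd hD).eqOn_of_preconnected_of_eventuallyEq (h₂.analyticOnNhd hD) hDc hz₀ h3

/-- A nonvanishing holomorphic function on an open disc has a holomorphic `p`-th root. -/
theorem exists_root_ball_of_ne_zero {p : ℕ} (hp : p ≠ 0) (c : ℂ) (r : ℝ) {g : ℂ → ℂ}
    (hg : DifferentiableOn ℂ g (ball c r)) (hg0 : ∀ z ∈ ball c r, g z ≠ 0) :
    ∃ v : ℂ → ℂ, DifferentiableOn ℂ v (ball c r) ∧ ∀ z ∈ ball c r, v z ^ p = g z := by
  by_cases hr : 0 < r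
  · have hsc : IsSimplyConnected (ball c r) := by
      have : ContractibleSpace (ball c r) :=
        (convex_ball c r).contractibleSpace ⟨c, mem_ball_self hr⟩
      show SimplyConnectedSpace (ball c r)
      infer_instance
    have h0 : (0 : ℂ) ∉ g '' ball c r := by
      rintro ⟨z, hz, hz0⟩
      exact hg0 z hz hz0
    obtain ⟨v, hvc, hv⟩ :=
      Complex.exists_continuousOn_pow_eq hsc isOpen_ball hg.continuousOn h0 hp
    exact ⟨v, differentiableOn_of_pow_eq hp isOpen_ball hvc hg (fun z _ => hv z) hg0,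
      fun z _ => hv z⟩
  · have he : ball c r = ∅ := ball_eq_empty.mpr (not_lt.mp hr)
    refine ⟨fun _ => 0, ?_, ?_⟩
    · rw [he]
      exact differentiableOn_empty
    · intro z hz
      rw [he] at hz
      exact absurd hz (Set.notMem_empty z)

/-- Stripping a zero of exact order `n`: `f = (z - z₀) ^ n * g` with `g` holomorphic and
`g z₀ ≠ 0`. -/
theorem exists_eq_pow_mul {U : Set ℂ} (hU : IsOpen U) {f : ℂ → ℂ} (hf : DifferentiableOn ℂ f U)
    {z₀ : ℂ} (hz₀ : z₀ ∈ U) {n : ℕ} (hn : analyticOrderAt f z₀ = n) :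
    ∃ g : ℂ → ℂ, DifferentiableOn ℂ g U ∧ g z₀ ≠ 0 ∧ ∀ z, f z = (z - z₀) ^ n * g z := by
  have hfa : AnalyticAt ℂ f z₀ := hf.analyticAt (hU.mem_nhds hz₀)
  obtain ⟨g₀, hg₀a, hg₀ne, hg₀⟩ := hfa.analyticOrderAt_eq_natCast.mp hn
  simp only [smul_eq_mul] at hg₀
  refine ⟨fun z => if z = z₀ then g₀ z₀ else f z / (z - z₀) ^ n, ?_, ?_, ?_⟩
  · intro z hz
    by_cases hzz : z = z₀
    · subst hzz
      have h1 : (fun w => if w = z then g₀ z else f w / (w - z) ^ n) =ᶠ[𝓝 z] g₀ := by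
        filter_upwards [hg₀] with w hw
        by_cases hwz : w = z
        · rw [if_pos hwz, hwz]
        · rw [if_neg hwz, hw]
          have : (w - z) ^ n ≠ 0 := pow_ne_zero _ (sub_ne_zero.mpr hwz)
          field_simp
      exact (hg₀a.differentiableAt.congr_of_eventuallyEq h1).differentiableWithinAt
    · have hopen : IsOpen ({z₀}ᶜ : Set ℂ) := isOpen_compl_singleton
      have h1 : (fun w => if w = z₀ then g₀ z₀ else f w / (w - z₀) ^ n) =ᶠ[𝓝 z]
          fun w => f w / (w - z₀) ^ n := by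
        filter_upwards [hopen.mem_nhds hzz] with w hw
        rw [if_neg (Set.mem_compl_singleton_iff.mp hw)]
      have h2 : DifferentiableAt ℂ (fun w => f w / (w - z₀) ^ n) z := by
        refine (hf.differentiableAt (hU.mem_nhds hz)).div ?_ ?_
        · exact ((differentiableAt_id).sub_const z₀).pow n
        · exact pow_ne_zero _ (sub_ne_zero.mpr hzz)
      exact (h2.congr_of_eventuallyEq h1).differentiableWithinAt
  · simp only [if_true]
    exact hg₀ne
  · intro z
    by_cases hzz : z = z₀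
    · subst hzz
      beta_reduce
      rw [if_pos rfl]
      exact hg₀.self_of_nhds
    · beta_reduce
      rw [if_neg hzz]
      have : (z - z₀) ^ n ≠ 0 := pow_ne_zero _ (sub_ne_zero.mpr hzz)
      field_simp

/-- Orders away from the stripped zero are unchanged. -/
theorem analyticOrderAt_eq_of_eq_pow_mul {U : Set ℂ} (hU : IsOpen U) {f g : ℂ → ℂ}
    (hg : DifferentiableOn ℂ g U) {z₀ : ℂ} {n : ℕ} (hfg : ∀ z, f z = (z - z₀) ^ n * g z)
    {z₁ : ℂ} (hz₁ : z₁ ∈ U) (hne : z₁ ≠ z₀) : analyticOrderAt g z₁ = analyticOrderAt f z₁ := by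
  have hga : AnalyticAt ℂ g z₁ := hg.analyticAt (hU.mem_nhds hz₁)
  have hpa : AnalyticAt ℂ (fun z : ℂ => (z - z₀) ^ n) z₁ := by fun_prop
  have hfe : f = (fun z : ℂ => (z - z₀) ^ n) * g := funext hfg
  have hp0 : analyticOrderAt (fun z : ℂ => (z - z₀) ^ n) z₁ = 0 :=
    hpa.analyticOrderAt_eq_zero.mpr (pow_ne_zero _ (sub_ne_zero.mpr hne))
  rw [hfe, analyticOrderAt_mul hpa hga, hp0, zero_add]

/-- A holomorphic function whose orders are all finite has finitely many zeros on a compact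
subset. -/
theorem finite_zeros_of_isCompact {U : Set ℂ} (hU : IsOpen U) {f : ℂ → ℂ}
    (hf : DifferentiableOn ℂ f U) (hord : ∀ z ∈ U, analyticOrderAt f z ≠ ⊤) {K : Set ℂ}
    (hK : IsCompact K) (hKU : K ⊆ U) : {z | z ∈ K ∧ f z = 0}.Finite := by
  by_contra hinf
  obtain ⟨x, hxK, hacc⟩ :=
    Set.Infinite.exists_accPt_of_subset_isCompact (s := {z | z ∈ K ∧ f z = 0}) hinf hK
      (fun z hz => hz.1)
  rw [accPt_iff_frequently_nhdsNE] at hacc
  have hfa : AnalyticAt ℂ f x := hf.analyticAt (hU.mem_nhds (hKU hxK))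
  have h1 : ∃ᶠ z in 𝓝[≠] x, f z = 0 := hacc.mono fun z hz => hz.2
  have h2 := hfa.frequently_zero_iff_eventually_zero.mp h1
  exact hord x (hKU hxK) (analyticOrderAt_eq_top.mpr h2)

/-- Root on a disc, by induction on a finite set containing the zeros in the closed disc. -/
theorem exists_root_ball_aux {p : ℕ} (hp : p ≠ 0) {U : Set ℂ} (hU : IsOpen U) (c : ℂ) (r : ℝ)
    (hsub : closedBall c r ⊆ U) (Z : Finset ℂ) :
    ∀ f : ℂ → ℂ, DifferentiableOn ℂ f U →
      (∀ z ∈ U, ∃ m : ℕ, analyticOrderAt f z = ((p * m : ℕ) : ℕ∞)) →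
      (∀ z ∈ closedBall c r, f z = 0 → z ∈ Z) →
      ∃ v : ℂ → ℂ, DifferentiableOn ℂ v (ball c r) ∧ ∀ z ∈ ball c r, v z ^ p = f z := by
  classical
  induction Z using Finset.induction_on with
  | empty =>
    intro f hf _ hZ
    refine exists_root_ball_of_ne_zero hp c r
      (hf.mono (ball_subset_closedBall.trans hsub)) ?_
    intro z hz h0
    exact absurd (hZ z (ball_subset_closedBall hz) h0) (Finset.notMem_empty z)
  | insert z₀ Z' hz₀ ih =>
    intro f hf hord hZ
    by_cases h : z₀ ∈ closedBall c r ∧ f z₀ = 0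
    · have hz₀U : z₀ ∈ U := hsub h.1
      obtain ⟨m, hm⟩ := hord z₀ hz₀U
      obtain ⟨g, hgd, hg0, hfg⟩ := exists_eq_pow_mul hU hf hz₀U hm
      have hordg : ∀ z ∈ U, ∃ m' : ℕ, analyticOrderAt g z = ((p * m' : ℕ) : ℕ∞) := by
        intro z hz
        by_cases hzz : z = z₀
        · refine ⟨0, ?_⟩
          rw [hzz, (hgd.analyticAt (hU.mem_nhds hz₀U)).analyticOrderAt_eq_zero.mpr hg0]
          simp
        · rw [analyticOrderAt_eq_of_eq_pow_mul hU hgd hfg hz hzz]
          exact hord z hz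
      have hZg : ∀ z ∈ closedBall c r, g z = 0 → z ∈ Z' := by
        intro z hz hgz
        have hzz : z ≠ z₀ := by
          rintro rfl
          exact hg0 hgz
        have hfz : f z = 0 := by rw [hfg z, hgz, mul_zero]
        exact (Finset.mem_insert.mp (hZ z hz hfz)).resolve_left hzz
      obtain ⟨v, hvd, hv⟩ := ih g hgd hordg hZg
      refine ⟨fun z => (z - z₀) ^ m * v z, ?_, ?_⟩
      · exact (((differentiable_id).sub_const z₀).pow m).differentiableOn.mul hvd
      · intro z hz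
        show ((z - z₀) ^ m * v z) ^ p = f z
        rw [mul_pow, hv z hz, hfg z, ← pow_mul, mul_comm m p]
    · refine ih f hf hord ?_
      intro z hz hfz
      refine (Finset.mem_insert.mp (hZ z hz hfz)).resolve_left ?_
      rintro rfl
      exact h ⟨hz, hfz⟩

/-- Root on a disc whose closure lies in `U`. -/
theorem exists_root_ball {p : ℕ} (hp : p ≠ 0) {U : Set ℂ} (hU : IsOpen U) (c : ℂ) (r : ℝ)
    (hsub : closedBall c r ⊆ U) {f : ℂ → ℂ} (hf : DifferentiableOn ℂ f U)
    (hord : ∀ z ∈ U, ∃ m : ℕ, analyticOrderAt f z = ((p * m : ℕ) : ℕ∞)) :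
    ∃ v : ℂ → ℂ, DifferentiableOn ℂ v (ball c r) ∧ ∀ z ∈ ball c r, v z ^ p = f z := by
  have hfin : {z | z ∈ closedBall c r ∧ f z = 0}.Finite := by
    refine finite_zeros_of_isCompact hU hf ?_ (isCompact_closedBall c r) hsub
    intro z hz
    obtain ⟨m, hm⟩ := hord z hz
    rw [hm]
    exact ENat.natCast_ne_top _
  refine exists_root_ball_aux hp hU c r hsub hfin.toFinset f hf hord ?_
  intro z hz hfz
  exact hfin.mem_toFinset.mpr ⟨hz, hfz⟩

/-- Root on a disc, normalised at a base point. -/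
theorem exists_root_ball_normalized {p : ℕ} (hp : p ≠ 0) {U : Set ℂ} (hU : IsOpen U) (c : ℂ)
    (r : ℝ) (hsub : closedBall c r ⊆ U) {f : ℂ → ℂ} (hf : DifferentiableOn ℂ f U)
    (hord : ∀ z ∈ U, ∃ m : ℕ, analyticOrderAt f z = ((p * m : ℕ) : ℕ∞)) {zs ws : ℂ}
    (hzs : zs ∈ ball c r) (hfzs : f zs ≠ 0) (hws : ws ^ p = f zs) :
    ∃ v : ℂ → ℂ, DifferentiableOn ℂ v (ball c r) ∧ (∀ z ∈ ball c r, v z ^ p = f z) ∧
      v zs = ws := by
  obtain ⟨v₀, hv₀d, hv₀⟩ := exists_root_ball hp hU c r hsub hf hord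
  have h0 : v₀ zs ≠ 0 := by
    intro h
    apply hfzs
    rw [← hv₀ zs hzs, h, zero_pow hp]
  refine ⟨fun z => ws / v₀ zs * v₀ z, ?_, ?_, ?_⟩
  · exact hv₀d.const_mul _
  · intro z hz
    show (ws / v₀ zs * v₀ z) ^ p = f z
    rw [mul_pow, div_pow, hws, hv₀ zs hzs, hv₀ z hz, div_self hfzs, one_mul]
  · show ws / v₀ zs * v₀ zs = ws
    field_simp

/-- **Holomorphic `p`-th roots on a domain exhausted by discs.** -/
theorem exists_differentiableOn_pow_eq_of_exhaustion {p : ℕ} (hp : p ≠ 0) {U : Set ℂ}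
    (hU : IsOpen U) (c : ℕ → ℂ) (r : ℕ → ℝ) (hsub : ∀ n, closedBall (c n) (r n) ⊆ U)
    (hmono : ∀ n, ball (c n) (r n) ⊆ ball (c (n + 1)) (r (n + 1)))
    (hcover : U ⊆ ⋃ n, ball (c n) (r n)) {f : ℂ → ℂ} (hf : DifferentiableOn ℂ f U)
    (hord : ∀ z ∈ U, ∃ m : ℕ, analyticOrderAt f z = ((p * m : ℕ) : ℕ∞)) :
    ∃ u : ℂ → ℂ, DifferentiableOn ℂ u U ∧ ∀ z ∈ U, u z ^ p = f z := by
  classical
  rcases U.eq_empty_or_nonempty with hUe | ⟨z₁, hz₁⟩
  · refine ⟨fun _ => 0, ?_, ?_⟩
    · rw [hUe]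
      exact differentiableOn_empty
    · intro z hz
      rw [hUe] at hz
      exact absurd hz (Set.notMem_empty z)
  -- a base point where `f` does not vanish
  obtain ⟨zs, hzsU, hfzs⟩ : ∃ zs ∈ U, f zs ≠ 0 := by
    obtain ⟨m, hm⟩ := hord z₁ hz₁
    have h1 : ¬ ∀ᶠ z in 𝓝 z₁, f z = 0 := by
      intro h
      have := analyticOrderAt_eq_top.mpr h
      rw [hm] at this
      exact ENat.natCast_ne_top _ this
    have h2 : ∃ᶠ z in 𝓝 z₁, f z ≠ 0 := Filter.not_eventually.mp h1
    obtain ⟨z, hz, hzU⟩ := (h2.and_eventually (hU.mem_nhds hz₁)).exists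
    exact ⟨z, hzU, hz⟩
  have hmono' : Monotone fun n => ball (c n) (r n) := monotone_nat_of_le_succ hmono
  obtain ⟨n₀, hn₀⟩ : ∃ n₀, zs ∈ ball (c n₀) (r n₀) := by
    simpa using hcover hzsU
  obtain ⟨ws, hws⟩ := IsAlgClosed.exists_pow_nat_eq (f zs) (Nat.pos_of_ne_zero hp)
  have hws0 : ws ≠ 0 := by
    intro h
    apply hfzs
    rw [← hws, h, zero_pow hp]
  have hzsn : ∀ n, zs ∈ ball (c (n₀ + n)) (r (n₀ + n)) := fun n =>
    hmono' (Nat.le_add_right n₀ n) hn₀
  have hex : ∀ n, ∃ v : ℂ → ℂ, DifferentiableOn ℂ v (ball (c (n₀ + n)) (r (n₀ + n))) ∧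
      (∀ z ∈ ball (c (n₀ + n)) (r (n₀ + n)), v z ^ p = f z) ∧ v zs = ws := fun n =>
    exists_root_ball_normalized hp hU _ _ (hsub _) hf hord (hzsn n) hfzs hws
  choose v hvd hvp hvz using hex
  -- compatibility
  have hstep : ∀ n, EqOn (v n) (v (n + 1)) (ball (c (n₀ + n)) (r (n₀ + n))) := by
    intro n
    have hss : ball (c (n₀ + n)) (r (n₀ + n)) ⊆ ball (c (n₀ + (n + 1))) (r (n₀ + (n + 1))) :=
      hmono' (by omega)
    refine eqOn_of_pow_eq hp isOpen_ball (convex_ball _ _).isPreconnected (hvd n)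
      ((hvd (n + 1)).mono hss) ?_ (hzsn n) ?_ ?_
    · intro z hz
      rw [hvp n z hz, hvp (n + 1) z (hss hz)]
    · rw [hvz n, hvz (n + 1)]
    · rw [hvz n]
      exact hws0
  have hcompat : ∀ m n, m ≤ n → EqOn (v m) (v n) (ball (c (n₀ + m)) (r (n₀ + m))) := by
    intro m n hmn
    induction n, hmn using Nat.le_induction with
    | base => exact fun z _ => rfl
    | succ n hmn ih =>
      intro z hz
      rw [ih hz]
      exact hstep n (hmono' (by omega) hz)
  -- every point of `U` lies in some disc of the shifted exhaustion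
  have hidx : ∀ z ∈ U, ∃ n, z ∈ ball (c (n₀ + n)) (r (n₀ + n)) := by
    intro z hz
    obtain ⟨k, hk⟩ : ∃ k, z ∈ ball (c k) (r k) := by simpa using hcover hz
    exact ⟨k, hmono' (Nat.le_add_left k n₀) hk⟩
  let idx : ℂ → ℕ := fun z => if h : ∃ n, z ∈ ball (c (n₀ + n)) (r (n₀ + n)) then h.choose else 0
  have hidx_mem : ∀ z, (∃ n, z ∈ ball (c (n₀ + n)) (r (n₀ + n))) →
      z ∈ ball (c (n₀ + idx z)) (r (n₀ + idx z)) := by
    intro z h
    simp only [idx, dif_pos h]
    exact h.choose_spec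
  have hu : ∀ n, EqOn (fun z => v (idx z) z) (v n) (ball (c (n₀ + n)) (r (n₀ + n))) := by
    intro n z hz
    have hz' := hidx_mem z ⟨n, hz⟩
    show v (idx z) z = v n z
    rcases le_total (idx z) n with hle | hle
    · exact hcompat _ _ hle hz'
    · exact (hcompat _ _ hle hz).symm
  refine ⟨fun z => v (idx z) z, ?_, ?_⟩
  · intro z hz
    obtain ⟨n, hn⟩ := hidx z hz
    have h1 : (fun z => v (idx z) z) =ᶠ[𝓝 z] v n :=
      Filter.eventuallyEq_of_mem (isOpen_ball.mem_nhds hn) (hu n)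
    have h2 : DifferentiableAt ℂ (v n) z := (hvd n).differentiableAt (isOpen_ball.mem_nhds hn)
    exact (h2.congr_of_eventuallyEq h1).differentiableWithinAt
  · intro z hz
    obtain ⟨n, hn⟩ := hidx z hz
    have e : v (idx z) z = v n z := hu n hn
    show v (idx z) z ^ p = f z
    rw [e, hvp n z hn]

/-! ### The upper half plane -/

/-- Centres of the exhausting discs of the upper half plane. -/
def discCentre (n : ℕ) : ℂ := (((n : ℝ) + 2 : ℝ) : ℂ) * Complex.I

/-- Radii of the exhausting discs of the upper half plane. -/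
def discRadius (n : ℕ) : ℝ := ((n : ℝ) + 2) - 1 / ((n : ℝ) + 2)

theorem discCentre_re (n : ℕ) : (discCentre n).re = 0 := by simp [discCentre]

theorem discCentre_im (n : ℕ) : (discCentre n).im = (n : ℝ) + 2 := by simp [discCentre]

theorem closedBall_disc_subset (n : ℕ) : closedBall (discCentre n) (discRadius n) ⊆ {z : ℂ | 0 < z.im} := by
  intro z hz
  rw [mem_closedBall, dist_eq_norm] at hz
  have h1 : |(z - discCentre n).im| ≤ ‖z - discCentre n‖ := Complex.abs_im_le_norm _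
  have h2 : (z - discCentre n).im = z.im - ((n : ℝ) + 2) := by rw [Complex.sub_im, discCentre_im]
  rw [h2] at h1
  have h3 : -(discRadius n) ≤ z.im - ((n : ℝ) + 2) := by
    have := neg_abs_le (z.im - ((n : ℝ) + 2))
    linarith
  have hpos : (0 : ℝ) < 1 / ((n : ℝ) + 2) := by positivity
  show 0 < z.im
  unfold discRadius at h3
  linarith

theorem ball_disc_subset_succ (n : ℕ) : ball (discCentre n) (discRadius n) ⊆ ball (discCentre (n + 1)) (discRadius (n + 1)) := by
  apply ball_subset_ball'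
  have hd : dist (discCentre n) (discCentre (n + 1)) = 1 := by
    rw [dist_eq_norm]
    have : discCentre n - discCentre (n + 1) = -Complex.I := by
      simp only [discCentre]
      push_cast
      ring
    rw [this, norm_neg, Complex.norm_I]
  rw [hd]
  unfold discRadius
  have h1 : (0 : ℝ) < (n : ℝ) + 2 := by positivity
  have h2 : (1 : ℝ) / (((n + 1 : ℕ) : ℝ) + 2) ≤ 1 / ((n : ℝ) + 2) := by
    apply one_div_le_one_div_of_le h1
    push_cast
    linarith
  push_cast at h2 ⊢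
  linarith

theorem subset_iUnion_ball_disc : {z : ℂ | 0 < z.im} ⊆ ⋃ n, ball (discCentre n) (discRadius n) := by
  intro z hz
  have hy : 0 < z.im := hz
  obtain ⟨n, hn⟩ := exists_nat_gt ((z.re ^ 2 + z.im ^ 2 + 2) / (2 * z.im))
  refine mem_iUnion.mpr ⟨n, ?_⟩
  rw [mem_ball, dist_eq_norm]
  have hM : (0 : ℝ) < (n : ℝ) + 2 := by positivity
  have hM1 : (1 : ℝ) ≤ (n : ℝ) + 2 := by
    have : (0 : ℝ) ≤ (n : ℝ) := Nat.cast_nonneg n
    linarith
  have hrpos : 0 < discRadius n := by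
    unfold discRadius
    have : 1 / ((n : ℝ) + 2) ≤ 1 := by
      rw [div_le_one hM]
      exact hM1
    linarith
  have hkey : z.re ^ 2 + z.im ^ 2 + 2 < 2 * z.im * ((n : ℝ) + 2) := by
    have h1 : (z.re ^ 2 + z.im ^ 2 + 2) / (2 * z.im) < (n : ℝ) + 2 := by linarith
    have h2 : (0 : ℝ) < 2 * z.im := by positivity
    rw [div_lt_iff₀ h2] at h1
    linarith
  have hsq : ‖z - discCentre n‖ ^ 2 < discRadius n ^ 2 := by
    rw [Complex.sq_norm, Complex.normSq_apply, Complex.sub_re, Complex.sub_im, discCentre_re, discCentre_im]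
    unfold discRadius
    have h3 : ((n : ℝ) + 2 - 1 / ((n : ℝ) + 2)) ^ 2
        = ((n : ℝ) + 2) ^ 2 - 2 + (1 / ((n : ℝ) + 2)) ^ 2 := by
      field_simp
      ring
    rw [h3]
    have h4 : (0 : ℝ) < (1 / ((n : ℝ) + 2)) ^ 2 := by positivity
    nlinarith
  exact lt_of_pow_lt_pow_left₀ 2 hrpos.le hsq

/-- **Holomorphic `p`-th roots on the upper half plane**: a holomorphic function on the upper
half plane, not identically zero, all of whose orders of vanishing are divisible by `p`, is the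
`p`-th power of a holomorphic function. -/
theorem exists_differentiableOn_pow_eq (p : ℕ) (hp : p ≠ 0) {f : ℂ → ℂ}
    (hf : DifferentiableOn ℂ f {z : ℂ | 0 < z.im}) (_hne : ∃ z : ℂ, 0 < z.im ∧ f z ≠ 0)
    (hord : ∀ z : ℂ, 0 < z.im → ∃ m : ℕ, analyticOrderAt f z = ((p * m : ℕ) : ℕ∞)) :
    ∃ u : ℂ → ℂ, DifferentiableOn ℂ u {z : ℂ | 0 < z.im} ∧ ∀ z : ℂ, 0 < z.im → u z ^ p = f z := by
  have hU : IsOpen {z : ℂ | 0 < z.im} := isOpen_lt continuous_const Complex.continuous_im
  exact exists_differentiableOn_pow_eq_of_exhaustion hp hU discCentre discRadius closedBall_disc_subset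
    ball_disc_subset_succ subset_iUnion_ball_disc hf hord

end Fermat.Agent.S29.PthRoot
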