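/-
S29 block [K], leaf (K4-core) — PthRoot.lean (helper70): holomorphic `p`-th roots on the upper
half plane in the S24 vocabulary (`holSub`, `taylorHom`).

* `exists_mdiff_pow_eq`       : `g : ℍ → ℂ` holomorphic, `g ≠ 0`, all analytic orders divisible by
                                `p`  ⟹  `g = c ^ p` with `c` holomorphic;
* `exists_holSub_pow_eq`      : the same for `g : holSub`, orders = orders of the Taylor
                                expansions `taylorHom z₀ g`;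
* `exists_holSub_root_of_quot`: the meromorphic form: if all orders of `a / b` are divisible by
                                `p` then `a / b = (c / b) ^ p`, i.e. `c ^ p * b = a * b ^ p`;
* `exists_smul_eq_of_pow_eq`  : two roots differ by a `p`-th root of unity.
-/
import Mathlib
import Fermat.Agent.S24.AnDefs
import Fermat.Agent.S24.AnTaylorHom
import Fermat.Agent.S24.AnTaylorOrd
import Fermat.Agent.S29.PthRootCore

set_option autoImplicit false

noncomputable section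

namespace Fermat.Agent.S29.PthRoot

open UpperHalfPlane Fermat.Agent.S24
open scoped Manifold

/-- The upper half plane as a subset of `ℂ` is open. -/
theorem isOpen_im_pos : IsOpen {z : ℂ | 0 < z.im} :=
  isOpen_lt continuous_const Complex.continuous_im

/-- **Holomorphic `p`-th roots on `ℍ`** (function form). -/
theorem exists_mdiff_pow_eq (p : ℕ) (hp : p ≠ 0) {g : ℍ → ℂ} (hg : MDiff g) (hg0 : g ≠ 0)
    (hord : ∀ z₀ : ℍ, ∃ m : ℕ,
      analyticOrderAt (fun z : ℂ => g (ofComplex z)) (z₀ : ℂ) = ((p * m : ℕ) : ℕ∞)) :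
    ∃ c : ℍ → ℂ, MDiff c ∧ ∀ z : ℍ, c z ^ p = g z := by
  have hd : DifferentiableOn ℂ (fun z : ℂ => g (ofComplex z)) {z : ℂ | 0 < z.im} :=
    UpperHalfPlane.mdifferentiable_iff.mp hg
  have hne : ∃ z : ℂ, 0 < z.im ∧ (fun z : ℂ => g (ofComplex z)) z ≠ 0 := by
    obtain ⟨z, hz⟩ : ∃ z : ℍ, g z ≠ 0 := by
      by_contra h
      exact hg0 (funext fun z => not_not.mp fun hz => h ⟨z, hz⟩)
    refine ⟨(z : ℂ), z.im_pos, ?_⟩
    show g (ofComplex (z : ℂ)) ≠ 0
    rw [ofComplex_apply]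
    exact hz
  have hord' : ∀ z : ℂ, 0 < z.im → ∃ m : ℕ,
      analyticOrderAt (fun z : ℂ => g (ofComplex z)) z = ((p * m : ℕ) : ℕ∞) := by
    intro z hz
    exact hord ⟨z, hz⟩
  obtain ⟨u, hud, hu⟩ := exists_differentiableOn_pow_eq p hp hd hne hord'
  refine ⟨fun z : ℍ => u (z : ℂ), ?_, ?_⟩
  · rw [UpperHalfPlane.mdifferentiable_iff]
    refine hud.congr ?_
    intro z hz
    show u ((ofComplex z : ℍ) : ℂ) = u z
    rw [ofComplex_apply_of_im_pos hz]
  · intro z
    have := hu (z : ℂ) z.im_pos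
    show u (z : ℂ) ^ p = g z
    rw [this]
    show g (ofComplex (z : ℂ)) = g z
    rw [ofComplex_apply]

/-- **Holomorphic `p`-th roots on `ℍ`** (`holSub` form): if the orders of all Taylor expansions
of `g ≠ 0` are divisible by `p`, then `g` is a `p`-th power in `holSub`. -/
theorem exists_holSub_pow_eq (p : ℕ) (hp : p ≠ 0) (g : holSub) (hg : g ≠ 0)
    (hord : ∀ z₀ : ℍ, ∃ m : ℕ, (taylorHom z₀ g).order = ((p * m : ℕ) : ℕ∞)) :
    ∃ c : holSub, c ^ p = g := by
  have hg' : MDiff (g : ℍ → ℂ) := g.2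
  have hg0 : (g : ℍ → ℂ) ≠ 0 := fun h => hg (Subtype.ext h)
  obtain ⟨c, hc, hcp⟩ := exists_mdiff_pow_eq p hp hg' hg0 (by
    intro z₀
    obtain ⟨m, hm⟩ := hord z₀
    refine ⟨m, ?_⟩
    rw [← order_taylorAt hg' z₀, ← taylorHom_apply]
    exact hm)
  refine ⟨⟨c, hc⟩, Subtype.ext ?_⟩
  funext z
  exact hcp z

/-- The order of the Taylor expansion of a nonzero holomorphic function is finite. -/
theorem order_taylorHom_ne_top (z₀ : ℍ) {a : holSub} (ha : a ≠ 0) :
    (taylorHom z₀ a).order ≠ ⊤ := by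
  intro h
  apply ha
  apply taylorHom_injective z₀
  rw [map_zero]
  exact PowerSeries.order_eq_top.mp h

/-- **Meromorphic `p`-th roots on `ℍ`**: if all orders of `a / b` are divisible by `p`, then
`a / b = (c / b) ^ p` for a holomorphic `c`, i.e. `c ^ p * b = a * b ^ p`. -/
theorem exists_holSub_root_of_quot (p : ℕ) (hp : p ≠ 0) (a b : holSub) (ha : a ≠ 0) (hb : b ≠ 0)
    (hord : ∀ z₀ : ℍ, ∃ m : ℤ,
      (((taylorHom z₀ a).order.toNat : ℤ) - ((taylorHom z₀ b).order.toNat : ℤ)) = p * m) :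
    ∃ c : holSub, c ^ p * b = a * b ^ p := by
  obtain ⟨q, rfl⟩ : ∃ q, p = q + 1 := Nat.exists_eq_succ_of_ne_zero hp
  have hG0 : a * b ^ q ≠ 0 := by
    intro h
    have z₀ : ℍ := ⟨Complex.I, by simp⟩
    have h1 := congrArg (taylorHom z₀) h
    rw [map_mul, map_pow, map_zero] at h1
    rcases mul_eq_zero.mp h1 with h2 | h2
    · exact ha (taylorHom_injective z₀ (by rw [h2, map_zero]))
    · have h3 : taylorHom z₀ b = 0 := (pow_eq_zero_iff'.mp h2).1
      exact hb (taylorHom_injective z₀ (by rw [h3, map_zero]))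
  obtain ⟨c, hc⟩ := exists_holSub_pow_eq (q + 1) hp (a * b ^ q) hG0 (by
    intro z₀
    obtain ⟨m, hm⟩ := hord z₀
    have hA := order_taylorHom_ne_top z₀ ha
    have hB := order_taylorHom_ne_top z₀ hb
    obtain ⟨A, hA'⟩ := ENat.ne_top_iff_exists.mp hA
    obtain ⟨B, hB'⟩ := ENat.ne_top_iff_exists.mp hB
    rw [← hA', ← hB'] at hm
    simp only [ENat.toNat_natCast] at hm
    rw [map_mul, map_pow, PowerSeries.order_mul, PowerSeries.order_pow, ← hA', ← hB']
    have hnn : 0 ≤ m + B := by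
      have h1 : ((q : ℤ) + 1) * (m + B) = A + q * B := by
        push_cast at hm
        linear_combination (-1 : ℤ) * hm
      have h2 : (0 : ℤ) ≤ A + q * B := by positivity
      have h3 : (0 : ℤ) < (q : ℤ) + 1 := by positivity
      by_contra hneg
      have hneg' : m + B < 0 := not_le.mp hneg
      nlinarith
    refine ⟨(m + B).toNat, ?_⟩
    have h4 : (A + q * B : ℕ) = (q + 1) * (m + B).toNat := by
      have h1 : ((q : ℤ) + 1) * (m + B) = A + q * B := by
        push_cast at hm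
        linear_combination (-1 : ℤ) * hm
      have h5 : (((m + B).toNat : ℕ) : ℤ) = m + B := Int.toNat_of_nonneg hnn
      have : ((A + q * B : ℕ) : ℤ) = (((q + 1) * (m + B).toNat : ℕ) : ℤ) := by
        push_cast
        rw [h5]
        linarith
      exact_mod_cast this
    rw [← h4]
    push_cast
    rfl)
  refine ⟨c, ?_⟩
  rw [hc, pow_succ]
  ring

/-- The upper half plane as a subset of `ℂ` is preconnected. -/
theorem isPreconnected_im_pos : IsPreconnected {z : ℂ | 0 < z.im} :=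
  (convex_halfSpace_im_gt 0).isPreconnected

/-- **Uniqueness up to `μ_p`**: two holomorphic functions on `ℍ` with the same `p`-th power differ
by a `p`-th root of unity. -/
theorem exists_smul_eq_of_pow_eq (p : ℕ) (hp : p ≠ 0) (c c' : holSub) (hc : c ≠ 0)
    (h : c ^ p = c' ^ p) : ∃ ζ : ℂ, ζ ^ p = 1 ∧ c' = ζ • c := by
  obtain ⟨z₀, hz₀⟩ : ∃ z : ℍ, (c : ℍ → ℂ) z ≠ 0 := by
    by_contra hh
    exact hc (Subtype.ext (funext fun z => not_not.mp fun hz => hh ⟨z, hz⟩))
  have hpt : ∀ z : ℍ, (c : ℍ → ℂ) z ^ p = (c' : ℍ → ℂ) z ^ p := by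
    intro z
    have := congrArg (fun f : holSub => (f : ℍ → ℂ) z) h
    simpa using this
  have hζ : ((c' : ℍ → ℂ) z₀ / (c : ℍ → ℂ) z₀) ^ p = 1 := by
    rw [div_pow, ← hpt z₀, div_self (pow_ne_zero _ hz₀)]
  refine ⟨(c' : ℍ → ℂ) z₀ / (c : ℍ → ℂ) z₀, hζ, ?_⟩
  have hd : DifferentiableOn ℂ (fun z : ℂ => (c : ℍ → ℂ) (ofComplex z)) {z : ℂ | 0 < z.im} :=
    UpperHalfPlane.mdifferentiable_iff.mp c.2
  have hd' : DifferentiableOn ℂ (fun z : ℂ => (c' : ℍ → ℂ) (ofComplex z)) {z : ℂ | 0 < z.im} :=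
    UpperHalfPlane.mdifferentiable_iff.mp c'.2
  have hEq := eqOn_of_pow_eq hp isOpen_im_pos isPreconnected_im_pos
    (v₁ := fun z : ℂ => (c' : ℍ → ℂ) z₀ / (c : ℍ → ℂ) z₀ * (c : ℍ → ℂ) (ofComplex z))
    (v₂ := fun z : ℂ => (c' : ℍ → ℂ) (ofComplex z)) (hd.const_mul _) hd'
    (by
      intro z _
      show ((c' : ℍ → ℂ) z₀ / (c : ℍ → ℂ) z₀ * (c : ℍ → ℂ) (ofComplex z)) ^ p
        = (c' : ℍ → ℂ) (ofComplex z) ^ p
      rw [mul_pow, hζ, one_mul, hpt])
    (z₀ := (z₀ : ℂ)) z₀.im_pos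
    (by
      show (c' : ℍ → ℂ) z₀ / (c : ℍ → ℂ) z₀ * (c : ℍ → ℂ) (ofComplex (z₀ : ℂ))
        = (c' : ℍ → ℂ) (ofComplex (z₀ : ℂ))
      rw [ofComplex_apply]
      field_simp)
    (by
      show (c' : ℍ → ℂ) z₀ / (c : ℍ → ℂ) z₀ * (c : ℍ → ℂ) (ofComplex (z₀ : ℂ)) ≠ 0
      rw [ofComplex_apply]
      refine mul_ne_zero (div_ne_zero ?_ hz₀) hz₀
      intro h0
      have := hpt z₀
      rw [h0, zero_pow hp] at this
      exact hz₀ (pow_eq_zero_iff hp |>.mp this))
  refine Subtype.ext (funext fun z => ?_)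
  have := hEq z.im_pos
  simp only [ofComplex_apply] at this
  show (c' : ℍ → ℂ) z = ((c' : ℍ → ℂ) z₀ / (c : ℍ → ℂ) z₀) • (c : ℍ → ℂ) z
  rw [smul_eq_mul]
  exact this.symm

end Fermat.Agent.S29.PthRoot
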