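/-
S29 block [K] — RootChar.lean (helper57): the character of a holomorphic `p`-th root.

* `exists_smul_of_pow_eq` (C1): in a domain containing `ℂ`, `A ^ p = B ^ p` forces `A = ζ • B`
  for a `p`-th root of unity `ζ ∈ ℂ`.
* `exists_character_of_pow_slash` (C2): a holomorphic function `F ≠ 0` on `ℍ` whose `p`-th power
  is slash-invariant of weight `p * k` under a subgroup `Γ` transforms under `Γ` by a character
  with values in the `p`-th roots of unity.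
* `periodic_of_pow_eq` (C3): if moreover `F ^ p` is `1`-periodic with order at `i∞` divisible by
  `p`, then `F` is `1`-periodic.
* `isBoundedAtImInfty_of_pow`, `isBoundedAtImInfty_slash_of_pow` (C4): bounds of the root.
-/
import Mathlib
import Fermat.Agent.S24.AnTaylorHom

set_option autoImplicit false

noncomputable section

namespace Fermat.Agent.S29.RootChar

open UpperHalfPlane ModularForm Filter Topology
open scoped MatrixGroups Manifold Real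

/-! ### (C1) `A ^ p = B ^ p` in a domain -/

/-- (C1), ring homomorphism form: for a ring homomorphism `f : ℂ →+* R` into a domain,
`A ^ p = B ^ p` implies `A = f ζ * B` for some `p`-th root of unity `ζ ∈ ℂ`. -/
theorem exists_mul_of_pow_eq {R : Type*} [CommRing R] [IsDomain R] (f : ℂ →+* R) {p : ℕ}
    (hp : p ≠ 0) {A B : R} (h : A ^ p = B ^ p) : ∃ ζ : ℂ, ζ ^ p = 1 ∧ A = f ζ * B := by
  have hpos : 0 < p := Nat.pos_of_ne_zero hp
  have : NeZero p := ⟨hp⟩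
  obtain ⟨ζ₀, hζ₀⟩ : ∃ ζ₀ : ℂ, IsPrimitiveRoot ζ₀ p := ⟨_, Complex.isPrimitiveRoot_exp p hp⟩
  have hinj : Function.Injective f := f.injective
  have hζR : IsPrimitiveRoot (f ζ₀) p := hζ₀.map_of_injective hinj
  have hprod := hζR.pow_sub_pow_eq_prod_sub_mul A B hpos
  rw [h, sub_self] at hprod
  obtain ⟨ξ, hξmem, hξ⟩ := Finset.prod_eq_zero_iff.mp hprod.symm
  rw [Polynomial.mem_nthRootsFinset hpos] at hξmem
  obtain ⟨i, -, hi⟩ := hζR.eq_pow_of_pow_eq_one hξmem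
  refine ⟨ζ₀ ^ i, ?_, ?_⟩
  · rw [← pow_mul, mul_comm, pow_mul, hζ₀.pow_eq_one, one_pow]
  · rw [map_pow, hi]
    exact sub_eq_zero.mp hξ

/-- **(C1)** In a domain which is a `ℂ`-algebra, `A ^ p = B ^ p` implies `A = ζ • B` for some
`p`-th root of unity `ζ ∈ ℂ`. -/
theorem exists_smul_of_pow_eq {R : Type*} [CommRing R] [IsDomain R] [Algebra ℂ R] {p : ℕ}
    (hp : p ≠ 0) {A B : R} (h : A ^ p = B ^ p) : ∃ ζ : ℂ, ζ ^ p = 1 ∧ A = ζ • B := by
  obtain ⟨ζ, hζ, hAB⟩ := exists_mul_of_pow_eq (algebraMap ℂ R) hp h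
  exact ⟨ζ, hζ, by rw [Algebra.smul_def, hAB]⟩

/-- (C1) for Laurent series: `A ^ p = B ^ p` in `ℂ((q))` forces `A = C ζ * B`, `ζ ^ p = 1`. -/
theorem exists_mul_laurent {p : ℕ} (hp : p ≠ 0) {A B : LaurentSeries ℂ} (h : A ^ p = B ^ p) :
    ∃ ζ : ℂ, ζ ^ p = 1 ∧ A = HahnSeries.C ζ * B :=
  exists_mul_of_pow_eq (HahnSeries.C : ℂ →+* LaurentSeries ℂ) hp h

/-! ### The slash action and powers -/

/-- The slash action of `SL(2, ℤ)` commutes with powers (the weight is multiplied). -/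
theorem pow_slash (F : ℍ → ℂ) (p : ℕ) (k : ℤ) (g : SL(2, ℤ)) :
    (F ^ p) ∣[(p : ℤ) * k] g = (F ∣[k] g) ^ p := by
  induction p with
  | zero =>
    simp only [Nat.cast_zero, zero_mul, pow_zero]
    exact is_invariant_one g
  | succ n ih =>
    rw [pow_succ, pow_succ, ← ih]
    have e : ((n + 1 : ℕ) : ℤ) * k = (n : ℤ) * k + k := by push_cast; ring
    rw [e]
    exact mul_slash_SL2 _ _ g _ _

/-- Holomorphic functions on `ℍ` form a domain: in function form. -/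
theorem exists_smul_of_pow_eq_fun {p : ℕ} (hp : p ≠ 0) {A B : ℍ → ℂ} (hA : MDiff A)
    (hB : MDiff B) (h : A ^ p = B ^ p) : ∃ ζ : ℂ, ζ ^ p = 1 ∧ A = ζ • B := by
  have : IsDomain ↥Fermat.Agent.S24.holSub :=
    (Fermat.Agent.S24.taylorHom_injective I).isDomain
      (Fermat.Agent.S24.taylorHom I : ↥Fermat.Agent.S24.holSub →+* PowerSeries ℂ)
  obtain ⟨ζ, hζ, hAB⟩ := exists_smul_of_pow_eq (R := ↥Fermat.Agent.S24.holSub) hp
    (A := ⟨A, hA⟩) (B := ⟨B, hB⟩) (Subtype.ext h)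
  exact ⟨ζ, hζ, congrArg Subtype.val hAB⟩

/-! ### (C2) the character of a `p`-th root -/

/-- **(C2)** A nonzero holomorphic function `F` on `ℍ` whose `p`-th power is slash-invariant of
weight `p * k` under the subgroup `Γ` of `SL(2, ℤ)` transforms under `Γ` by a character with values
in the `p`-th roots of unity. -/
theorem exists_character_of_pow_slash {p : ℕ} (hp : p ≠ 0) (k : ℤ) (Γ : Subgroup SL(2, ℤ))
    {F : ℍ → ℂ} (hF : MDiff F) (hF0 : F ≠ 0)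
    (hinv : ∀ γ ∈ Γ, (F ^ p) ∣[(p : ℤ) * k] γ = F ^ p) :
    ∃ χ : ↥Γ →* ℂˣ, (∀ γ, χ γ ^ p = 1) ∧
      ∀ γ : ↥Γ, F ∣[k] (γ : SL(2, ℤ)) = ((χ γ : ℂˣ) : ℂ) • F := by
  classical
  obtain ⟨z₀, hz₀⟩ : ∃ z₀, F z₀ ≠ 0 := by
    by_contra hcon
    push Not at hcon
    exact hF0 (funext hcon)
  have huniq : ∀ a b : ℂ, a • F = b • F → a = b := by
    intro a b hab
    have h1 := congrFun hab z₀
    simp only [Pi.smul_apply, smul_eq_mul] at h1
    exact mul_right_cancel₀ hz₀ h1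
  have key : ∀ γ : ↥Γ, ∃ ζ : ℂˣ, ζ ^ p = 1 ∧ F ∣[k] (γ : SL(2, ℤ)) = (ζ : ℂ) • F := by
    intro γ
    have h1 : (F ∣[k] (γ : SL(2, ℤ))) ^ p = F ^ p := by
      rw [← pow_slash]
      exact hinv γ γ.2
    have hmd : MDiff (F ∣[k] (γ : SL(2, ℤ))) := hF.slash k _
    obtain ⟨ζ, hζ, hζF⟩ := exists_smul_of_pow_eq_fun hp hmd hF h1
    have hζ0 : ζ ≠ 0 := by
      rintro rfl
      rw [zero_pow hp] at hζ
      exact zero_ne_one hζ
    refine ⟨Units.mk0 ζ hζ0, ?_, hζF⟩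
    ext
    simpa using hζ
  choose χ hχ1 hχ using key
  refine ⟨MonoidHom.mk' χ ?_, hχ1, hχ⟩
  intro γ γ'
  apply Units.ext
  apply huniq
  rw [← hχ (γ * γ'), Subgroup.coe_mul, SlashAction.slash_mul, hχ γ, SL_smul_slash, hχ γ',
    smul_smul, Units.val_mul]

/-! ### (C4) bounds of the root -/

/-- **(C4)** A function whose `p`-th power is bounded at `i∞` is bounded at `i∞`. -/
theorem isBoundedAtImInfty_of_pow {p : ℕ} (hp : p ≠ 0) {f : ℍ → ℂ}
    (h : IsBoundedAtImInfty (f ^ p)) : IsBoundedAtImInfty f := by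
  rw [UpperHalfPlane.isBoundedAtImInfty_iff] at h ⊢
  obtain ⟨M, A, hMA⟩ := h
  refine ⟨max M 1, A, fun z hz => ?_⟩
  have h1 := hMA z hz
  rw [Pi.pow_apply, norm_pow] at h1
  by_contra hcon
  push Not at hcon
  have h2 : (1 : ℝ) < ‖f z‖ := lt_of_le_of_lt (le_max_right M 1) hcon
  have h3 : ‖f z‖ ≤ ‖f z‖ ^ p := le_self_pow₀ h2.le hp
  exact absurd (lt_of_le_of_lt (le_max_left M 1) hcon) (not_lt.mpr (h3.trans h1))

/-- **(C4)**, slash form: cusp bounds of a `p`-th root. -/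
theorem isBoundedAtImInfty_slash_of_pow {p : ℕ} (hp : p ≠ 0) (k : ℤ) {F : ℍ → ℂ} (g : SL(2, ℤ))
    (h : IsBoundedAtImInfty ((F ^ p) ∣[(p : ℤ) * k] g)) : IsBoundedAtImInfty (F ∣[k] g) := by
  rw [pow_slash] at h
  exact isBoundedAtImInfty_of_pow hp h

/-! ### (C3) periodicity of the root -/

/-- Topological core of (C3): there is `ε > 0` such that a continuous path `φ` of `ε`-approximate
`p`-th roots of unity starting at `1` and ending at a `p`-th root of unity ends at `1`. -/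
theorem exists_eps_path (p : ℕ) (hp : p ≠ 0) :
    ∃ ε : ℝ, 0 < ε ∧ ∀ φ : ℝ → ℂ, ContinuousOn φ (Set.Icc 0 1) → φ 0 = 1 →
      (∀ t ∈ Set.Icc (0 : ℝ) 1, ‖φ t ^ p - 1‖ < ε) → φ 1 ^ p = 1 → φ 1 = 1 := by
  classical
  have hpos : 0 < p := Nat.pos_of_ne_zero hp
  -- the `p`-th roots of unity other than `1` stay away from `1`
  obtain ⟨δ, hδ, hδmin⟩ : ∃ δ : ℝ, 0 < δ ∧ ∀ w : ℂ, w ^ p = 1 → w ≠ 1 → δ ≤ ‖w - 1‖ := by
    by_cases hne : ((Polynomial.nthRootsFinset p (1 : ℂ)).erase 1).Nonempty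
    · obtain ⟨w₀, hw₀, hmin⟩ := Finset.exists_min_image _ (fun w : ℂ => ‖w - 1‖) hne
      refine ⟨‖w₀ - 1‖, ?_, fun w hw hw1 => ?_⟩
      · rw [norm_pos_iff, sub_ne_zero]
        exact (Finset.mem_erase.mp hw₀).1
      · exact hmin w (Finset.mem_erase.mpr ⟨hw1, (Polynomial.mem_nthRootsFinset hpos 1).mpr hw⟩)
    · refine ⟨1, one_pos, fun w hw hw1 => ?_⟩
      exact absurd ⟨w, Finset.mem_erase.mpr ⟨hw1, (Polynomial.mem_nthRootsFinset hpos 1).mpr hw⟩⟩ hne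
  -- the minimum of `‖w ^ p - 1‖` on the circle of radius `δ / 2` around `1`
  have hr : (0 : ℝ) < δ / 2 := by positivity
  have hScomp : IsCompact (Metric.sphere (1 : ℂ) (δ / 2)) := isCompact_sphere _ _
  have hSne : (Metric.sphere (1 : ℂ) (δ / 2)).Nonempty := by
    refine ⟨1 + ((δ / 2 : ℝ) : ℂ), ?_⟩
    rw [mem_sphere_iff_norm, add_sub_cancel_left, Complex.norm_real, Real.norm_of_nonneg hr.le]
  have hcont : ContinuousOn (fun w : ℂ => ‖w ^ p - 1‖) (Metric.sphere (1 : ℂ) (δ / 2)) :=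
    (by fun_prop : Continuous (fun w : ℂ => ‖w ^ p - 1‖)).continuousOn
  obtain ⟨w₁, hw₁S, hw₁min⟩ := hScomp.exists_isMinOn hSne hcont
  have hw₁ : ‖w₁ - 1‖ = δ / 2 := mem_sphere_iff_norm.mp hw₁S
  have hε : 0 < ‖w₁ ^ p - 1‖ := by
    rw [norm_pos_iff, sub_ne_zero]
    intro hw
    have hw1 : w₁ ≠ 1 := by
      rintro rfl
      rw [sub_self, norm_zero] at hw₁
      linarith
    have := hδmin w₁ hw hw1
    linarith
  refine ⟨‖w₁ ^ p - 1‖, hε, fun φ hφ h0 happ h1 => ?_⟩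
  by_contra hne
  have hδ1 : δ ≤ ‖φ 1 - 1‖ := hδmin _ h1 hne
  have hψ : ContinuousOn (fun t : ℝ => ‖φ t - 1‖) (Set.Icc 0 1) :=
    (hφ.sub continuousOn_const).norm
  have hmem : δ / 2 ∈ Set.Icc ((fun t : ℝ => ‖φ t - 1‖) 0) ((fun t : ℝ => ‖φ t - 1‖) 1) := by
    constructor
    · simp only [h0, sub_self, norm_zero]
      exact hr.le
    · simp only
      linarith
  obtain ⟨t, ht, hteq⟩ := intermediate_value_Icc zero_le_one hψ hmem
  have htS : φ t ∈ Metric.sphere (1 : ℂ) (δ / 2) := mem_sphere_iff_norm.mpr hteq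
  have h2 : ‖w₁ ^ p - 1‖ ≤ ‖φ t ^ p - 1‖ := hw₁min htS
  exact absurd (happ t ht) (not_lt.mpr h2)

/-- **(C3)** Let `F` be holomorphic on `ℍ` such that `F ^ p` is `1`-periodic and has order
`p * m` at `i∞` (leading coefficient `c ≠ 0`).  Then `F` is `1`-periodic. -/
theorem periodic_of_pow_eq {p : ℕ} (hp : p ≠ 0) {F : ℍ → ℂ} (hF : MDiff F)
    (hper : ∀ z : ℍ, F ((1 : ℝ) +ᵥ z) ^ p = F z ^ p) (m : ℤ) {c : ℂ} (hc : c ≠ 0)
    (hlim : Tendsto (fun z : ℍ => F z ^ p *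
      Complex.exp (-(2 * π * Complex.I * ((p : ℂ) * m) * z))) atImInfty (𝓝 c)) :
    ∀ z : ℍ, F ((1 : ℝ) +ᵥ z) = F z := by
  -- `F ∘ T = ζ • F`
  have hA : MDiff (fun z : ℍ => F ((1 : ℝ) +ᵥ z)) := by
    have h1 : MDiff (F ∣[(0 : ℤ)] (ModularGroup.T : SL(2, ℤ))) := hF.slash 0 _
    have h2 : F ∣[(0 : ℤ)] (ModularGroup.T : SL(2, ℤ)) = fun z : ℍ => F ((1 : ℝ) +ᵥ z) := by
      funext z
      rw [SL_slash_apply, modular_T_smul, neg_zero, zpow_zero, mul_one]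
    rwa [h2] at h1
  obtain ⟨ζ, hζ, hζF⟩ := exists_smul_of_pow_eq_fun hp hA hF (funext hper)
  have hT : ∀ z : ℍ, F ((1 : ℝ) +ᵥ z) = ζ * F z := fun z => congrFun hζF z
  suffices hζ1 : ζ = 1 by
    intro z
    rw [hT, hζ1, one_mul]
  -- the auxiliary function `H = F · e^{-2πimz}`
  set H : ℍ → ℂ := fun z => F z * Complex.exp (-(2 * π * Complex.I * m * z)) with hH
  set K : ℍ → ℂ := fun z => F z ^ p * Complex.exp (-(2 * π * Complex.I * ((p : ℂ) * m) * z))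
    with hK
  have hHK : ∀ z, H z ^ p = K z := by
    intro z
    simp only [hH, hK]
    rw [mul_pow, ← Complex.exp_nat_mul]
    congr 2
    ring
  have hHT : ∀ z : ℍ, H ((1 : ℝ) +ᵥ z) = ζ * H z := by
    intro z
    simp only [hH]
    rw [hT, coe_vadd]
    have e1 : -(2 * π * Complex.I * m * (((1 : ℝ) : ℂ) + (z : ℂ))) =
        -(2 * π * Complex.I * m * z) + (-m : ℤ) * (2 * π * Complex.I) := by
      push_cast
      ring
    rw [e1, Complex.exp_add, Complex.exp_int_mul_two_pi_mul_I, mul_one, mul_assoc]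
  have hHcont : Continuous H := by
    simp only [hH]
    exact hF.continuous.mul (Complex.continuous_exp.comp
      ((continuous_const.mul UpperHalfPlane.continuous_coe).neg))
  -- choose the height
  obtain ⟨ε, hε, hpath⟩ := exists_eps_path p hp
  have hcpos : 0 < ‖c‖ := norm_pos_iff.mpr hc
  set η₀ : ℝ := min (‖c‖ / 2) (ε * ‖c‖ / 8) with hηdef
  have hηpos : 0 < η₀ := lt_min (by positivity) (by positivity)
  have hev : ∀ᶠ z in atImInfty, ‖K z - c‖ < η₀ := by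
    have := (Metric.tendsto_nhds.mp hlim) η₀ hηpos
    simpa only [dist_eq_norm] using this
  obtain ⟨Y, hY⟩ := (atImInfty_mem _).mp hev
  set z₀ : ℍ := UpperHalfPlane.mk ⟨0, max Y 1⟩ (by simp) with hz₀
  have hz₀im : Y ≤ z₀.im := by
    have : z₀.im = max Y 1 := rfl
    rw [this]
    exact le_max_left _ _
  have hKt : ∀ t : ℝ, ‖K (t +ᵥ z₀) - c‖ < η₀ := by
    intro t
    apply hY
    show Y ≤ (t +ᵥ z₀).im
    rw [vadd_im]
    exact hz₀im
  have hK0 : ‖K z₀ - c‖ < η₀ := by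
    have := hKt 0
    rwa [zero_vadd] at this
  have hK0norm : ‖c‖ / 2 ≤ ‖K z₀‖ := by
    have h1 : ‖c‖ - ‖K z₀‖ ≤ ‖K z₀ - c‖ := by
      rw [← norm_sub_rev]
      exact norm_sub_norm_le _ _
    have h2 : η₀ ≤ ‖c‖ / 2 := min_le_left _ _
    linarith
  have hK0ne : K z₀ ≠ 0 := by
    intro h
    rw [h, norm_zero] at hK0norm
    linarith
  have hH0ne : H z₀ ≠ 0 := by
    intro h
    apply hK0ne
    rw [← hHK, h, zero_pow hp]
  -- the path
  have hφcont : ContinuousOn (fun t : ℝ => H (t +ᵥ z₀) / H z₀) (Set.Icc 0 1) := by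
    apply Continuous.continuousOn
    refine Continuous.div_const (hHcont.comp ?_) _
    rw [UpperHalfPlane.isEmbedding_coe.continuous_iff]
    have : ((↑) : ℍ → ℂ) ∘ (fun t : ℝ => t +ᵥ z₀) = fun t : ℝ => (t : ℂ) + (z₀ : ℂ) := by
      funext t
      exact coe_vadd t z₀
    rw [this]
    fun_prop
  have hφ0 : (fun t : ℝ => H (t +ᵥ z₀) / H z₀) 0 = 1 := by
    simp only [zero_vadd]
    exact div_self hH0ne
  have hφ1 : (fun t : ℝ => H (t +ᵥ z₀) / H z₀) 1 = ζ := by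
    simp only
    rw [hHT, mul_div_assoc, div_self hH0ne, mul_one]
  have happ : ∀ t ∈ Set.Icc (0 : ℝ) 1, ‖(fun t : ℝ => H (t +ᵥ z₀) / H z₀) t ^ p - 1‖ < ε := by
    intro t _
    simp only
    rw [div_pow, hHK, hHK]
    have e : K (t +ᵥ z₀) / K z₀ - 1 = (K (t +ᵥ z₀) - K z₀) / K z₀ := by
      field_simp
    rw [e, norm_div]
    have h1 : ‖K (t +ᵥ z₀) - K z₀‖ < 2 * η₀ := by
      have h2 : K (t +ᵥ z₀) - K z₀ = (K (t +ᵥ z₀) - c) - (K z₀ - c) := by ring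
      rw [h2]
      calc ‖(K (t +ᵥ z₀) - c) - (K z₀ - c)‖ ≤ ‖K (t +ᵥ z₀) - c‖ + ‖K z₀ - c‖ := norm_sub_le _ _
        _ < η₀ + η₀ := add_lt_add (hKt t) hK0
        _ = 2 * η₀ := by ring
    have h3 : η₀ ≤ ε * ‖c‖ / 8 := min_le_right _ _
    have hK0pos : 0 < ‖K z₀‖ := norm_pos_iff.mpr hK0ne
    rw [div_lt_iff₀ hK0pos]
    calc ‖K (t +ᵥ z₀) - K z₀‖ < 2 * η₀ := h1
      _ ≤ 2 * (ε * ‖c‖ / 8) := by linarith
      _ = ε * (‖c‖ / 2) / 2 := by ring
      _ ≤ ε * ‖K z₀‖ / 2 := by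
        have := mul_le_mul_of_nonneg_left hK0norm hε.le
        linarith
      _ < ε * ‖K z₀‖ := by
        have : 0 < ε * ‖K z₀‖ := mul_pos hε hK0pos
        linarith
  have h1 : H ((1 : ℝ) +ᵥ z₀) / H z₀ = ζ := hφ1
  have h2 : H ((1 : ℝ) +ᵥ z₀) / H z₀ = 1 := hpath _ hφcont hφ0 happ (by
    show (H ((1 : ℝ) +ᵥ z₀) / H z₀) ^ p = 1
    rw [h1]
    exact hζ)
  rw [h1] at h2
  exact h2

/-! ### Corollaries in character form -/

/-- The weight `k` slash action of `T` is the translation by `1`. -/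
theorem slash_T_apply (k : ℤ) (F : ℍ → ℂ) (z : ℍ) :
    (F ∣[k] (ModularGroup.T : SL(2, ℤ))) z = F ((1 : ℝ) +ᵥ z) := by
  rw [SL_slash_apply, modular_T_smul]
  have hd : denom (ModularGroup.T : SL(2, ℤ)) z = 1 := by
    simp [denom, ModularGroup.coe_T]
  rw [hd, one_zpow, mul_one]

/-- A `1`-periodic function is invariant under the slash action of `T` (any weight). -/
theorem slash_T_eq_of_periodic (k : ℤ) {F : ℍ → ℂ} (h : ∀ z : ℍ, F ((1 : ℝ) +ᵥ z) = F z) :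
    F ∣[k] (ModularGroup.T : SL(2, ℤ)) = F := by
  funext z
  rw [slash_T_apply, h]

/-- If `F ^ p` is invariant under the slash action of `T`, then `F ^ p` is `1`-periodic. -/
theorem pow_vadd_eq_of_slash_T {p : ℕ} (k : ℤ) {F : ℍ → ℂ}
    (h : (F ^ p) ∣[(p : ℤ) * k] (ModularGroup.T : SL(2, ℤ)) = F ^ p) (z : ℍ) :
    F ((1 : ℝ) +ᵥ z) ^ p = F z ^ p := by
  have h1 := congrFun h z
  rw [slash_T_apply] at h1
  exact h1

/-- **(C3), character form**: in the situation of (C2), if `T ∈ Γ` and `F ^ p` has order `p * m`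
at `i∞`, the character of the root `F` is trivial at `T`. -/
theorem character_T_eq_one {p : ℕ} (hp : p ≠ 0) (k : ℤ) (Γ : Subgroup SL(2, ℤ))
    {F : ℍ → ℂ} (hF : MDiff F) (hF0 : F ≠ 0) (χ : ↥Γ →* ℂˣ)
    (hχ : ∀ γ : ↥Γ, F ∣[k] (γ : SL(2, ℤ)) = ((χ γ : ℂˣ) : ℂ) • F)
    (hT : (ModularGroup.T : SL(2, ℤ)) ∈ Γ)
    (hinvT : (F ^ p) ∣[(p : ℤ) * k] (ModularGroup.T : SL(2, ℤ)) = F ^ p)
    (m : ℤ) {c : ℂ} (hc : c ≠ 0)
    (hlim : Tendsto (fun z : ℍ => F z ^ p *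
      Complex.exp (-(2 * π * Complex.I * ((p : ℂ) * m) * z))) atImInfty (𝓝 c)) :
    χ ⟨ModularGroup.T, hT⟩ = 1 := by
  have hper := periodic_of_pow_eq hp hF (pow_vadd_eq_of_slash_T k hinvT) m hc hlim
  have h1 := hχ ⟨ModularGroup.T, hT⟩
  rw [slash_T_eq_of_periodic k hper] at h1
  obtain ⟨z₀, hz₀⟩ : ∃ z₀, F z₀ ≠ 0 := by
    by_contra hcon
    push Not at hcon
    exact hF0 (funext hcon)
  have h2 := congrFun h1 z₀
  simp only [Pi.smul_apply, smul_eq_mul] at h2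
  apply Units.ext
  have h3 : ((χ ⟨ModularGroup.T, hT⟩ : ℂˣ) : ℂ) * F z₀ = 1 * F z₀ := by rw [← h2, one_mul]
  exact mul_right_cancel₀ hz₀ h3

end Fermat.Agent.S29.RootChar
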