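/-
S29 block [K], leaf (R3-form) — RootForm.lean (helper79).

A weight-`12p` form on `Γ₀(N)` all of whose zero orders (on `ℍ` and at `i∞`) are divisible by `p`
is the `p`-th power of a weight-`12` form with a `μ_p`-valued character `χ`, `χ(T) = 1`:

* `exists_tendsto_mul_exp_of_order` : the leading term of the `q`-expansion;
* `exists_root_mem_MFchi`           : the root, in the vocabulary of `KDefs` (`MFchi`, `TG`).

Glue of `PthRoot.exists_mdiff_pow_eq` (the holomorphic root), `RootChar.exists_character_of_pow_slash`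
(its character), `RootChar.isBoundedAtImInfty_of_pow` (cusp bounds) and
`RootChar.periodic_of_pow_eq` (`χ(T) = 1`).
-/
import Mathlib
import Fermat.Agent.S29.KDefs
import Fermat.Agent.S29.PthRoot
import Fermat.Agent.S29.RootChar

set_option autoImplicit false

noncomputable section

namespace Fermat.Agent.S29.RootForm

open UpperHalfPlane ModularForm CongruenceSubgroup Filter Topology Function
open scoped MatrixGroups ModularForm Manifold Real

/-- **Leading term of the `q`-expansion.**  If the `q`-expansion of `G` has order `M`, then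
`G(z) · q^{-M}` tends to a nonzero limit as `Im z → ∞`. -/
theorem exists_tendsto_mul_exp_of_order {G : ℍ → ℂ} (hper : Periodic (G ∘ ofComplex) 1)
    (hhol : MDiff G) (hbdd : IsBoundedAtImInfty G) {M : ℕ}
    (hM : (qExpansion 1 G).order = (M : ℕ∞)) :
    ∃ c : ℂ, c ≠ 0 ∧
      Tendsto (fun z : ℍ => G z * Complex.exp (-(2 * π * Complex.I * (M : ℂ) * z)))
        atImInfty (𝓝 c) := by
  have hφ : AnalyticAt ℂ (cuspFunction 1 G) 0 :=
    analyticAt_cuspFunction_zero one_pos hper hhol hbdd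
  have hcoef := PowerSeries.order_eq_nat.mp hM
  have hord : analyticOrderAt (cuspFunction 1 G) 0 = M := by
    rw [analyticOrderAt_eq_nat_iff_iteratedDeriv_eq_zero hφ]
    constructor
    · intro k hk
      have h1 := hcoef.2 k hk
      rw [qExpansion_coeff] at h1
      rcases mul_eq_zero.mp h1 with h2 | h2
      · exact absurd h2 (inv_ne_zero (Nat.cast_ne_zero.mpr (Nat.factorial_ne_zero k)))
      · exact h2
    · intro h0
      apply hcoef.1
      rw [qExpansion_coeff, h0, mul_zero]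
  obtain ⟨g, hg, hg0, hev⟩ := hφ.analyticOrderAt_eq_natCast.mp hord
  refine ⟨g 0, hg0, ?_⟩
  have hq : Tendsto (fun z : ℍ => Periodic.qParam 1 (z : ℂ)) atImInfty (𝓝 0) :=
    qParam_tendsto_atImInfty one_pos
  have h1 : Tendsto (fun z : ℍ => g (Periodic.qParam 1 (z : ℂ))) atImInfty (𝓝 (g 0)) :=
    hg.continuousAt.tendsto.comp hq
  refine h1.congr' ?_
  filter_upwards [hq.eventually hev] with z hz
  have h2 : cuspFunction 1 G (Periodic.qParam 1 (z : ℂ)) = G z :=
    eq_cuspFunction z one_ne_zero hper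
  rw [h2, sub_zero, smul_eq_mul] at hz
  have h3 : Periodic.qParam 1 (z : ℂ) ^ M *
      Complex.exp (-(2 * π * Complex.I * (M : ℂ) * z)) = 1 := by
    rw [Periodic.qParam, ← Complex.exp_nat_mul, ← Complex.exp_add]
    convert Complex.exp_zero using 2
    push_cast
    ring
  rw [hz]
  calc g (Periodic.qParam 1 (z : ℂ))
      = (Periodic.qParam 1 (z : ℂ) ^ M * Complex.exp (-(2 * π * Complex.I * (M : ℂ) * z))) *
          g (Periodic.qParam 1 (z : ℂ)) := by rw [h3, one_mul]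
    _ = Periodic.qParam 1 (z : ℂ) ^ M * g (Periodic.qParam 1 (z : ℂ)) *
          Complex.exp (-(2 * π * Complex.I * (M : ℂ) * z)) := by ring

/-- A function on `ℍ` invariant under `z ↦ z + 1` is `1`-periodic after `ofComplex`. -/
theorem periodic_comp_ofComplex {G : ℍ → ℂ} (h : ∀ z : ℍ, G ((1 : ℝ) +ᵥ z) = G z) :
    Periodic (G ∘ ofComplex) 1 := by
  intro w
  by_cases hw : 0 < w.im
  · have hw' : 0 < (w + 1).im := by simpa using hw
    simp only [comp_apply, ofComplex_apply_of_im_pos hw', ofComplex_apply_of_im_pos hw]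
    rw [← h ⟨w, hw⟩]
    congr 1
    ext
    simp [add_comm]
  · have hw0 : w.im ≤ 0 := not_lt.mp hw
    have hw' : (w + 1).im ≤ 0 := by simpa using hw0
    simp [ofComplex_apply_of_im_nonpos hw', ofComplex_apply_of_im_nonpos hw0]

/-- **The `p`-th root of a form whose zero orders are divisible by `p`.**  `G` a weight-`12p`
form on `Γ₀(N)`, nonzero, whose analytic orders at all points of `ℍ` and whose `q`-order at `i∞`
are divisible by `p`.  Then `G = F ^ p` with `F` a weight-`12` form with a character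
`χ : Γ₀(N) → μ_p`, trivial on `T`. -/
theorem exists_root_mem_MFchi {N : ℕ} [NeZero N] {p : ℕ} (hp : p ≠ 0) {G : ℍ → ℂ}
    (hG : G ∈ S20.MF N ((p : ℤ) * 12)) (hG0 : G ≠ 0)
    (hord : ∀ z₀ : ℍ, ∃ m : ℕ,
      analyticOrderAt (fun z : ℂ => G (ofComplex z)) (z₀ : ℂ) = ((p * m : ℕ) : ℕ∞))
    (hinf : ∃ m : ℕ, (qExpansion 1 G).order = ((p * m : ℕ) : ℕ∞)) :
    ∃ (χ : ↥(Gamma0 N) →* ℂˣ) (F : ℍ → ℂ),
      χ ^ p = 1 ∧ χ (K.TG N) = 1 ∧ F ∈ K.MFchi N 12 χ ∧ F ^ p = G := by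
  obtain ⟨hGhol, hGinv, hGbdd⟩ := S20.mem_MF_iff'.mp hG
  -- the holomorphic root
  obtain ⟨F, hFhol, hFp⟩ := PthRoot.exists_mdiff_pow_eq p hp hGhol hG0 hord
  have hFpow : F ^ p = G := funext hFp
  have hF0 : F ≠ 0 := by
    rintro rfl
    apply hG0
    rw [← hFpow, zero_pow hp]
  -- its character
  obtain ⟨χ, hχp, hχ⟩ := RootChar.exists_character_of_pow_slash hp 12 (Gamma0 N) hFhol hF0
    (fun γ hγ => by rw [hFpow]; exact hGinv γ hγ)
  -- cusp bounds
  have hFbdd : ∀ g : SL(2, ℤ), IsBoundedAtImInfty (F ∣[(12 : ℤ)] g) := fun g => by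
    refine RootChar.isBoundedAtImInfty_of_pow hp ?_
    rw [← RootChar.pow_slash, hFpow]
    exact hGbdd g
  -- translation by `1`
  have hFT : ∀ z : ℍ, F ((1 : ℝ) +ᵥ z) = ((χ (K.TG N) : ℂˣ) : ℂ) * F z := fun z => by
    have h := congrFun (hχ (K.TG N)) z
    rw [show ((K.TG N : ↥(Gamma0 N)) : SL(2, ℤ)) = ModularGroup.T from rfl, RootChar.slash_T_apply] at h
    exact h
  have hGT : ∀ z : ℍ, G ((1 : ℝ) +ᵥ z) = G z := fun z => by
    rw [← hFp, ← hFp, hFT, mul_pow]
    have h1 : ((χ (K.TG N) : ℂˣ) : ℂ) ^ p = 1 := by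
      have := congrArg (fun u : ℂˣ => (u : ℂ)) (hχp (K.TG N))
      simpa using this
    rw [h1, one_mul]
  have hFper : ∀ z : ℍ, F ((1 : ℝ) +ᵥ z) ^ p = F z ^ p := fun z => by
    rw [hFp, hFp, hGT]
  -- the leading term of `G` at `i∞`
  obtain ⟨m, hm⟩ := hinf
  have hGb : IsBoundedAtImInfty G := by
    have := hGbdd 1
    rwa [SlashAction.slash_one] at this
  obtain ⟨c, hc, hlim⟩ := exists_tendsto_mul_exp_of_order (periodic_comp_ofComplex hGT) hGhol
    hGb hm
  have hlim' : Tendsto (fun z : ℍ => F z ^ p *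
      Complex.exp (-(2 * π * Complex.I * ((p : ℂ) * ((m : ℤ) : ℂ)) * z))) atImInfty (𝓝 c) := by
    refine hlim.congr fun z => ?_
    rw [hFp]
    push_cast
    ring_nf
  have hFone : ∀ z : ℍ, F ((1 : ℝ) +ᵥ z) = F z :=
    RootChar.periodic_of_pow_eq hp hFhol hFper (m : ℤ) hc hlim'
  have hχT : χ (K.TG N) = 1 := by
    obtain ⟨z, hz⟩ : ∃ z, F z ≠ 0 := by
      by_contra hcon
      exact hF0 (funext fun z => not_not.mp fun hz => hcon ⟨z, hz⟩)
    have h1 := hFT z
    rw [hFone z] at h1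
    have h2 : ((χ (K.TG N) : ℂˣ) : ℂ) = 1 := by
      have h3 : (((χ (K.TG N) : ℂˣ) : ℂ) - 1) * F z = 0 := by
        rw [sub_mul, one_mul, ← h1, sub_self]
      rcases mul_eq_zero.mp h3 with h4 | h4
      · exact sub_eq_zero.mp h4
      · exact absurd h4 hz
    exact Units.ext h2
  exact ⟨χ, F, MonoidHom.ext fun γ => hχp γ, hχT, ⟨hFhol, hχ, hFbdd⟩, hFpow⟩

/-- A weight-`w` form with character `χ`, `χ(T) = 1`, is `1`-periodic, holomorphic and bounded at
`i∞`. -/
theorem mem_niceSub_of_mem_MFchi {N : ℕ} {w : ℤ} {χ : ↥(Gamma0 N) →* ℂˣ} (hT : χ (K.TG N) = 1)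
    {F : ℍ → ℂ} (hF : F ∈ K.MFchi N w χ) : F ∈ S23.niceSub := by
  obtain ⟨hFhol, hχ, hFbdd⟩ := hF
  refine ⟨periodic_comp_ofComplex fun z => ?_, hFhol, ?_⟩
  · have h := congrFun (hχ (K.TG N)) z
    rw [show ((K.TG N : ↥(Gamma0 N)) : SL(2, ℤ)) = ModularGroup.T from rfl,
      RootChar.slash_T_apply, hT] at h
    simpa using h
  · have := hFbdd 1
    rwa [SlashAction.slash_one] at this

/-- **The `p`-th root, `q`-series form**: in addition `qx F ^ p = qx G` in `ℂ((q))`. -/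
theorem exists_root_qx {N : ℕ} [NeZero N] {p : ℕ} (hp : p ≠ 0) {G : ℍ → ℂ}
    (hG : G ∈ S20.MF N ((p : ℤ) * 12)) (hG0 : G ≠ 0)
    (hord : ∀ z₀ : ℍ, ∃ m : ℕ,
      analyticOrderAt (fun z : ℂ => G (ofComplex z)) (z₀ : ℂ) = ((p * m : ℕ) : ℕ∞))
    (hinf : ∃ m : ℕ, (qExpansion 1 G).order = ((p * m : ℕ) : ℕ∞)) :
    ∃ (χ : ↥(Gamma0 N) →* ℂˣ) (F : ℍ → ℂ),
      χ ^ p = 1 ∧ χ (K.TG N) = 1 ∧ F ∈ K.MFchi N 12 χ ∧ F ^ p = G ∧ K.qx F ^ p = K.qx G := by
  obtain ⟨χ, F, hχp, hχT, hF, hFG⟩ := exists_root_mem_MFchi hp hG hG0 hord hinf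
  refine ⟨χ, F, hχp, hχT, hF, hFG, ?_⟩
  have hnice : F ∈ S23.niceSub := mem_niceSub_of_mem_MFchi hχT hF
  have h1 : qExpansion 1 (F ^ p) = qExpansion 1 F ^ p := by
    have h2 := map_pow S23.qHom (⟨F, hnice⟩ : S23.niceSub) p
    rw [S23.qHom_apply, S23.qHom_apply] at h2
    exact h2
  unfold K.qx
  rw [← hFG, h1, map_pow]

end Fermat.Agent.S29.RootForm
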