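/-
S29 block [K], leaf [KSigma] — B-copy (helper82): KSigmaB.lean.

`σ`-stability of the family `V(χ')` (`χ' ^ p = 1`, `χ'(T) = 1`) under the coefficientwise action
of a ring automorphism `σ` of `ℂ`, in HYPOTHESIS FORM: the only input that is not yet a theorem
is `[STAB]` (`StabStatement N p`, the statement `coeffMap_root_form` of the (WE) owner's ruling):

  the set `{x : x · Δ^m = qx G, G ∈ M_{12m}(Γ₀(N)), p ∣ ord_z G for all z ∈ ℍ}` is stable
  under `coeffMap σ`.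

* `exists_mul_nat_order_pow`     : analytic orders of `F ^ p` on `ℍ` are multiples of `p`;
* `exists_order_eq_of_pow`       : a power series which is a `p`-th power in `ℂ((q))` has order
                                   divisible by `p`;
* `kSigma_of_stab`               : `[KSigma]` from `[STAB]` (`σ : ℂ ≃+* ℂ`);
* `kSigma_algEquiv_of_stab`      : the same for `σ : ℂ ≃ₐ[ℚ̄] ℂ` (the shape of `KDesc.hsig`).

Everything else used here is on main: `KBasic` (helper17), `RootForm.exists_root_qx` (helper79),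
`RootChar.exists_mul_laurent` (helper57), `PthRoot` (helper70), `S24` Taylor expansions.
-/
import Mathlib
import Fermat.Agent.S24.AnDefs
import Fermat.Agent.S24.AnRoots
import Fermat.Agent.S24.AnTaylorHom
import Fermat.Agent.S24.AnTaylorOrd
import Fermat.Agent.S29.KDefs
import Fermat.Agent.S29.KBasic
import Fermat.Agent.S29.PthRoot
import Fermat.Agent.S29.RootChar
import Fermat.Agent.S29.RootForm

set_option autoImplicit false

noncomputable section

namespace Fermat.Agent.S29.KSigmaB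

open UpperHalfPlane ModularForm CongruenceSubgroup ModularCurve Fermat.Agent.S24
  Fermat.Agent.S29.K
open scoped MatrixGroups ModularForm Manifold

/-- `[STAB]` (the net statement of (R2a–d) + (K-CUSP)): for every `m` and every ring automorphism
`σ` of `ℂ`, the set of `x` with `x · Δ^m = qx G`, `G ∈ M_{12m}(Γ₀(N))` all of whose zero orders on
`ℍ` are divisible by `p`, is stable under `coeffMap σ`. -/
def StabStatement (N p : ℕ) : Prop :=
  ∀ (m : ℕ) (σ : ℂ ≃+* ℂ) {x : LaurentSeries ℂ} {G : ℍ → ℂ}, G ∈ S20.MF N (12 * m) →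
    x * DeltaC ^ m = qx G →
    (∀ z : ℍ, ∃ k : ℕ,
      analyticOrderAt (fun w : ℂ => G (ofComplex w)) (z : ℂ) = ((p * k : ℕ) : ℕ∞)) →
    ∃ G' : ℍ → ℂ, G' ∈ S20.MF N (12 * m) ∧ coeffMap (σ : ℂ →+* ℂ) x * DeltaC ^ m = qx G' ∧
      ∀ z : ℍ, ∃ k : ℕ,
        analyticOrderAt (fun w : ℂ => G' (ofComplex w)) (z : ℂ) = ((p * k : ℕ) : ℕ∞)

/-- The analytic orders of a `p`-th power `F ^ p` (`F ≠ 0` holomorphic on `ℍ`) are multiples of
`p`. -/
theorem exists_mul_nat_order_pow {F : ℍ → ℂ} (hF : MDiff F) (hF0 : F ≠ 0) (p : ℕ) (z : ℍ) :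
    ∃ k : ℕ, analyticOrderAt (fun w : ℂ => (F ^ p) (ofComplex w)) (z : ℂ) = ((p * k : ℕ) : ℕ∞) := by
  have h1 := order_taylorAt (hF.pow p) z
  rw [← h1]
  have h2 : taylorAt z (F ^ p) = (taylorHom z ⟨F, hF⟩) ^ p := by
    rw [← map_pow]
    rfl
  rw [h2, PowerSeries.order_pow]
  have h3 : (taylorHom z ⟨F, hF⟩).order ≠ ⊤ :=
    PthRoot.order_taylorHom_ne_top z (a := ⟨F, hF⟩) (fun h => hF0 (congrArg Subtype.val h))
  obtain ⟨k, hk⟩ := ENat.ne_top_iff_exists.mp h3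
  refine ⟨k, ?_⟩
  rw [← hk]
  push_cast
  rfl

/-- A nonzero power series which, as a Laurent series, is a `p`-th power (`p ≠ 0`) has order
divisible by `p`. -/
theorem exists_order_eq_of_pow {p : ℕ} (hp : p ≠ 0) {P : PowerSeries ℂ} (hP : P ≠ 0)
    {v : LaurentSeries ℂ} (h : HahnSeries.ofPowerSeries ℤ ℂ P = v ^ p) :
    ∃ m : ℕ, P.order = ((p * m : ℕ) : ℕ∞) := by
  have h1 : (HahnSeries.ofPowerSeries ℤ ℂ P).order = (P.order.toNat : ℤ) :=
    AnRoots.order_ofPowerSeries hP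
  rw [h, HahnSeries.order_pow] at h1
  -- `p • v.order = P.order.toNat`, hence `v.order ≥ 0`
  have h2 : (p : ℤ) * v.order = (P.order.toNat : ℤ) := by
    rw [← h1]
    simp
  have hp' : (0 : ℤ) < p := by exact_mod_cast Nat.pos_of_ne_zero hp
  have h3 : 0 ≤ v.order := by
    by_contra hneg
    have hneg' : v.order < 0 := not_le.mp hneg
    have h4 : (p : ℤ) * v.order < 0 := mul_neg_of_pos_of_neg hp' hneg'
    have h5 : (0 : ℤ) ≤ (P.order.toNat : ℤ) := Int.natCast_nonneg _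
    omega
  refine ⟨v.order.toNat, ?_⟩
  have h6 : P.order ≠ ⊤ := fun h => hP (PowerSeries.order_eq_top.mp h)
  have h7 : P.order.toNat = p * v.order.toNat := by
    have h8 : ((v.order.toNat : ℕ) : ℤ) = v.order := Int.toNat_of_nonneg h3
    have : ((P.order.toNat : ℕ) : ℤ) = ((p * v.order.toNat : ℕ) : ℤ) := by
      push_cast
      rw [h8, h2]
    exact_mod_cast this
  rw [← h7]
  exact (ENat.natCast_toNat h6).symm

/-- **[KSigma] from [STAB]** (`σ : ℂ ≃+* ℂ`): the coefficientwise action of a ring automorphism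
of `ℂ` maps `V(χ)` (`χ ^ p = 1`, `χ(T) = 1`) into some `V(χ')` with `χ' ^ p = 1`, `χ'(T) = 1`. -/
theorem kSigma_of_stab (N : ℕ) [NeZero N] (p : ℕ) (hp : p.Prime) (hstab : StabStatement N p)
    (σ : ℂ ≃+* ℂ) (χ : ↥(Gamma0 N) →* ℂˣ) (hχ : χ ^ p = 1) (hT : χ (TG N) = 1)
    {w : LaurentSeries ℂ} (hw : w ∈ Vchi N χ) :
    ∃ χ' : ↥(Gamma0 N) →* ℂˣ, χ' ^ p = 1 ∧ χ' (TG N) = 1 ∧
      coeffMap (σ : ℂ →+* ℂ) w ∈ Vchi N χ' := by
  have hp0 : p ≠ 0 := hp.ne_zero
  obtain ⟨F, hF, hwF⟩ := hw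
  by_cases hF0 : F = 0
  · -- the trivial case `w = 0`
    subst hF0
    rw [qx_zero] at hwF
    have hw0 : w = 0 := (mul_eq_zero.mp hwF).resolve_right DeltaC_ne_zero
    refine ⟨χ, hχ, hT, ?_⟩
    rw [hw0, map_zero]
    exact ⟨0, (MFchi N 12 χ).zero_mem, by rw [zero_mul, qx_zero]⟩
  · have hFnice : F ∈ S23.niceSub := mem_niceSub_of_mem_MFchi hT hF
    have hFhol : MDiff F := mdiff_of_mem_MFchi hF
    -- `G := F ^ p` is a form of weight `12 p` with trivial multiplier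
    have hG : F ^ p ∈ S20.MF N (12 * (p : ℤ)) := by
      have h1 := pow_mem_MFchi hF p
      rw [hχ] at h1
      exact mem_MFchi_one_iff.mp (MFchi_congr_weight (mul_comm (p : ℤ) 12) h1)
    have hx : w ^ p * DeltaC ^ p = qx (F ^ p) := by
      rw [← mul_pow, hwF, qx_pow hFnice]
    -- [STAB]
    obtain ⟨G', hG', hxG', hordG'⟩ := hstab p σ hG hx (exists_mul_nat_order_pow hFhol hF0 p)
    -- `v := σ(w) · Δ` is a `p`-th root of `qx G'` in `ℂ((q))`
    set v : LaurentSeries ℂ := coeffMap (σ : ℂ →+* ℂ) w * DeltaC with hv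
    have hvG' : qx G' = v ^ p := by
      rw [← hxG', hv, mul_pow, map_pow]
    have hG'w : G' ∈ S20.MF N ((p : ℤ) * 12) := by
      rw [mul_comm]
      exact hG'
    have hG'hol : MDiff G' := (S20.mem_MF_iff'.mp hG').1
    have hG'0 : G' ≠ 0 := by
      rintro rfl
      obtain ⟨k, hk⟩ := hordG' UpperHalfPlane.I
      have htop : analyticOrderAt (fun w : ℂ => (0 : ℍ → ℂ) (ofComplex w))
          ((UpperHalfPlane.I : ℍ) : ℂ) = ⊤ := by
        rw [analyticOrderAt_eq_top]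
        exact Filter.Eventually.of_forall fun _ => rfl
      rw [htop] at hk
      exact ENat.natCast_ne_top _ hk.symm
    have hG'nice : G' ∈ S23.niceSub := mem_niceSub_of_mem_MF hG'
    have hqG'0 : qExpansion 1 G' ≠ 0 := by
      intro h0
      have : qx G' = 0 := by
        unfold qx
        rw [h0, map_zero]
      exact hG'0 ((qx_eq_zero_iff hG'nice).mp this)
    have hinf : ∃ m : ℕ, (qExpansion 1 G').order = ((p * m : ℕ) : ℕ∞) :=
      exists_order_eq_of_pow hp0 hqG'0 hvG'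
    -- the root of `G'` (helper79's RootForm)
    obtain ⟨χ', F', hχ'p, hχ'T, hF', -, hqF'⟩ :=
      RootForm.exists_root_qx hp0 hG'w hG'0 hordG' hinf
    -- `qx F' = ζ · v`
    obtain ⟨ζ, hζ, hζv⟩ := RootChar.exists_mul_laurent hp0 (hqF'.trans hvG')
    have hζ0 : ζ ≠ 0 := by
      rintro rfl
      rw [zero_pow hp0] at hζ
      exact zero_ne_one hζ
    have hF'nice : F' ∈ S23.niceSub := mem_niceSub_of_mem_MFchi hχ'T hF'
    refine ⟨χ', hχ'p, hχ'T, ζ⁻¹ • F', (MFchi N 12 χ').smul_mem ζ⁻¹ hF', ?_⟩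
    rw [qx_smul ζ⁻¹ hF'nice, hζv, ← hv, ← HahnSeries.C_mul_eq_smul, ← mul_assoc, ← map_mul,
      inv_mul_cancel₀ hζ0, map_one, one_mul]

/-- **[KSigma] from [STAB]**, for `σ ∈ Aut(ℂ/ℚ̄)` (the shape consumed by `KDesc`). -/
theorem kSigma_algEquiv_of_stab (N : ℕ) [NeZero N] (p : ℕ) (hp : p.Prime)
    (hstab : StabStatement N p) (σ : ℂ ≃ₐ[AlgebraicClosure ℚ] ℂ) (χ : ↥(Gamma0 N) →* ℂˣ)
    (hχ : χ ^ p = 1) (hT : χ (TG N) = 1) {w : LaurentSeries ℂ} (hw : w ∈ Vchi N χ) :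
    ∃ χ' : ↥(Gamma0 N) →* ℂˣ, χ' ^ p = 1 ∧ χ' (TG N) = 1 ∧
      coeffMap ((σ : ℂ ≃ₐ[AlgebraicClosure ℚ] ℂ) : ℂ →+* ℂ) w ∈ Vchi N χ' :=
  kSigma_of_stab N p hp hstab (σ : ℂ ≃+* ℂ) χ hχ hT hw

end Fermat.Agent.S29.KSigmaB
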