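/-
S29 block [K], (WE) chain, row [STAB] (helper95) — FINAL, hypothesis-free, every `p`.

`coeffMap_root_form`: the set `{qx G / Δ^m : G ∈ M_{12m}(Γ₀(N)), p ∣ ord_z G ∀ z ∈ ℍ}` is stable
under `coeffMap σ` for every ring automorphism `σ` of `ℂ`.

Assembly: `K3StabCore.coeffMap_root_form_of` with `K1Int` (helper119/helper128), `K1IntConv`
(helper94), `SigmaFix` (helper16) and `[KPInv]` = `KPInvNP.kpInv` (helper37, Newton polygon).
Consumer shapes: `stabStatement` (= `KSigmaB.StabStatement`), `hstab` (= the hypothesis of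
`KSigma.hsig_of_stab`).
-/
import Mathlib
import Fermat.Agent.S29.K3StabCore
import Fermat.Agent.S29.K1Int
import Fermat.Agent.S29.K1IntConvFC
import Fermat.Agent.S29.SigmaFix
import Fermat.Agent.S29.KPInvNP
import Fermat.Agent.S29.KSigmaB

set_option autoImplicit false

namespace Fermat.Agent.S29.K3Stab

open UpperHalfPlane ModularCurve Fermat.Agent.S29.K
open scoped MatrixGroups

/-- **[STAB]** (no hypothesis on `p`). -/
theorem coeffMap_root_form (N : ℕ) [NeZero N] (p m : ℕ) (σ : ℂ ≃+* ℂ)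
    {x : LaurentSeries ℂ} {G : ℍ → ℂ} (hG : G ∈ S20.MF N (12 * m))
    (hx : x * DeltaC ^ m = qx G)
    (hord : ∀ z : ℍ, ∃ k : ℕ,
      analyticOrderAt (fun w : ℂ => G (ofComplex w)) (z : ℂ) = ((p * k : ℕ) : ℕ∞)) :
    ∃ G' : ℍ → ℂ, G' ∈ S20.MF N (12 * m) ∧ coeffMap (σ : ℂ →+* ℂ) x * DeltaC ^ m = qx G' ∧
      ∀ z : ℍ, ∃ k : ℕ,
        analyticOrderAt (fun w : ℂ => G' (ofComplex w)) (z : ℂ) = ((p * k : ℕ) : ℕ∞) :=
  coeffMap_root_form_of N p m σ (@fun _ hG _ hx => K.isIntegral_of_form m hG hx)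
    (@fun _ hx h1 h2 => K.exists_form_of_isIntegral m hx h1 h2)
    (fun _ hx => SigmaFix.coeffMap_mem_FC N σ hx) (SigmaFix.coeffMap_jC _)
    (SigmaFix.coeffMap_DeltaC _) (fun _ hx => SigmaFix.isIntegral_jC_coeffMap _ hx)
    (fun _ hx => SigmaFix.isIntegral_jC_inv_coeffMap _ hx) (KPInvNP.kpInv N p σ m) hG hx hord

/-- [STAB] in the shape of helper16's Ruling #1 (with the unused hypothesis `hp`). -/
theorem coeffMap_root_form_prime (N : ℕ) [NeZero N] (p m : ℕ) (_hp : p.Prime) (σ : ℂ ≃+* ℂ)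
    {x : LaurentSeries ℂ} {G : ℍ → ℂ} (hG : G ∈ S20.MF N (12 * m))
    (hx : x * DeltaC ^ m = qx G)
    (hord : ∀ z : ℍ, ∃ k : ℕ,
      analyticOrderAt (fun w : ℂ => G (ofComplex w)) (z : ℂ) = ((p * k : ℕ) : ℕ∞)) :
    ∃ G' : ℍ → ℂ, G' ∈ S20.MF N (12 * m) ∧ coeffMap (σ : ℂ →+* ℂ) x * DeltaC ^ m = qx G' ∧
      ∀ z : ℍ, ∃ k : ℕ,
        analyticOrderAt (fun w : ℂ => G' (ofComplex w)) (z : ℂ) = ((p * k : ℕ) : ℕ∞) :=
  coeffMap_root_form N p m σ hG hx hord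

/-- [STAB] as the `Prop` consumed by `KSigmaB.kSigma_of_stab`. -/
theorem stabStatement (N p : ℕ) [NeZero N] : KSigmaB.StabStatement N p :=
  fun m σ _ _ hG hx hord => coeffMap_root_form N p m σ hG hx hord

/-- [STAB] in the shape of the hypothesis `hstab` of `KSigma.hsig_of_stab`. -/
theorem hstab (N p : ℕ) [NeZero N] :
    ∀ (σ : ℂ ≃+* ℂ) (x : LaurentSeries ℂ) (G : ℍ → ℂ), G ∈ S20.MF N (12 * p) →
      x * DeltaC ^ p = qx G →
      (∀ z : ℍ, ∃ k : ℕ,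
        analyticOrderAt (fun u : ℂ => G (ofComplex u)) (z : ℂ) = ((p * k : ℕ) : ℕ∞)) →
      ∃ G' : ℍ → ℂ, G' ∈ S20.MF N (12 * p) ∧
        coeffMap (σ : ℂ →+* ℂ) x * DeltaC ^ p = qx G' ∧
        ∀ z : ℍ, ∃ k : ℕ,
          analyticOrderAt (fun u : ℂ => G' (ofComplex u)) (z : ℂ) = ((p * k : ℕ) : ℕ∞) :=
  fun σ _ _ hG hx hord => coeffMap_root_form N p p σ hG hx hord

end Fermat.Agent.S29.K3Stab
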