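/-
S29 block [K], leaf (L1) of the order-transport route to [KPInv] — TaylorMer.lean (helper1).

TAYLOR EXPANSION OF MODULAR FUNCTIONS GIVEN BY q-SERIES.

`merField ⊆ ℂ((q))` is the field of q-expansions of quotients `A / B` of *nice* functions
(`S23.niceSub`: holomorphic on `ℍ`, `1`-periodic, bounded at `i∞`).  For every `z : ℍ` the
Taylor expansion at `z` (in the Cayley coordinate, `S24.taylorAt`) extends to a field embedding

  `tauM z : merField →+* ℂ((s))`,   `tauM z x * T_z(B) = T_z(A)`  whenever  `x * q(B) = q(A)`.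

It is `ℂ`-linear (`tauM_algebraMap`), and the function field `F_ℂ = K.FC N` of `X₀(N)` over `ℂ`
lies in `merField` (`FC_le_merField`), so `tauM z` restricts to the Taylor embedding of `F_ℂ`
at `z`.  The formal `j` goes to the Taylor series of `jFun` (`tauM_jC`), and
`ord_s (tauM z (j - j(z))) = jE (j z) ∈ {1, 2, 3}` (`order_tauM_jC_sub`).
-/
import Mathlib
import Fermat.Agent.S23.Basic
import Fermat.Agent.S24.AnBridge
import Fermat.Agent.S24.Bridge
import Fermat.Agent.S24.AnEmb
import Fermat.Agent.S24.AnRoots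
import Fermat.Agent.S24.AnTaylorOrd
import Fermat.Agent.LevelOne.JDef
import Fermat.Agent.S29.KDefs
import Fermat.Agent.S29.JOrd

set_option autoImplicit false

noncomputable section

namespace Fermat.Agent.S29.TaylorMer

open UpperHalfPlane ModularCurve ModularForm Fermat.Agent
open scoped MatrixGroups Manifold

/-! ### Nice functions -/

theorem niceSub_le_holSub : S23.niceSub ≤ S24.holSub := fun _ hF => hF.2.1

theorem isDomain_niceSub : IsDomain S23.niceSub :=
  Function.Injective.isDomain S24.AnBridge.Phi S24.AnBridge.Phi_injective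

/-- Taylor expansion at `z` of a nice function, as a Laurent series. -/
def taylorNice (z : ℍ) : S23.niceSub →+* LaurentSeries ℂ :=
  (S24.taylorLaurent z : S24.holSub →+* LaurentSeries ℂ).comp
    (Subalgebra.inclusion niceSub_le_holSub : S23.niceSub →+* S24.holSub)

theorem taylorNice_apply (z : ℍ) (A : S23.niceSub) :
    taylorNice z A = HahnSeries.ofPowerSeries ℤ ℂ (S24.taylorAt z (A : ℍ → ℂ)) := rfl

theorem taylorNice_injective (z : ℍ) : Function.Injective (taylorNice z) :=
  (S24.taylorLaurent_injective z).comp (Subalgebra.inclusion_injective niceSub_le_holSub)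

theorem taylorNice_algebraMap (z : ℍ) (c : ℂ) :
    taylorNice z (algebraMap ℂ S23.niceSub c) = algebraMap ℂ (LaurentSeries ℂ) c := by
  show S24.taylorLaurent z (Subalgebra.inclusion niceSub_le_holSub (algebraMap ℂ S23.niceSub c))
    = _
  rw [show Subalgebra.inclusion niceSub_le_holSub (algebraMap ℂ S23.niceSub c)
      = algebraMap ℂ S24.holSub c from rfl, AlgHom.commutes]

/-! ### The fraction field of nice functions and its two embeddings -/

attribute [local instance] isDomain_niceSub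

/-- q-expansion on the fraction field of nice functions. -/
def fracQ : FractionRing S23.niceSub →+* LaurentSeries ℂ :=
  IsFractionRing.lift S24.AnBridge.Phi_injective

/-- Taylor expansion at `z` on the fraction field of nice functions. -/
def fracT (z : ℍ) : FractionRing S23.niceSub →+* LaurentSeries ℂ :=
  IsFractionRing.lift (taylorNice_injective z)

theorem fracQ_algebraMap (A : S23.niceSub) :
    fracQ (algebraMap S23.niceSub (FractionRing S23.niceSub) A) = S24.AnBridge.Phi A :=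
  IsFractionRing.lift_algebraMap _ A

theorem fracT_algebraMap (z : ℍ) (A : S23.niceSub) :
    fracT z (algebraMap S23.niceSub (FractionRing S23.niceSub) A) = taylorNice z A :=
  IsFractionRing.lift_algebraMap _ A

/-- The field of q-expansions of quotients of nice functions. -/
def merField : Subfield (LaurentSeries ℂ) := fracQ.fieldRange

theorem Phi_ne_zero {B : S23.niceSub} (hB : B ≠ 0) : S24.AnBridge.Phi B ≠ 0 := fun h =>
  hB (S24.AnBridge.Phi_injective (by rw [h, map_zero]))

theorem taylorNice_ne_zero (z : ℍ) {B : S23.niceSub} (hB : B ≠ 0) : taylorNice z B ≠ 0 := fun h =>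
  hB (taylorNice_injective z (by rw [h, map_zero]))

theorem mem_merField_iff {x : LaurentSeries ℂ} :
    x ∈ merField ↔
      ∃ A B : S23.niceSub, B ≠ 0 ∧ x * S24.AnBridge.Phi B = S24.AnBridge.Phi A := by
  constructor
  · intro hx
    obtain ⟨k, rfl⟩ := RingHom.mem_fieldRange.mp hx
    obtain ⟨A, B, hB, rfl⟩ := IsFractionRing.div_surjective S23.niceSub k
    have hB0 : B ≠ 0 := nonZeroDivisors.ne_zero hB
    refine ⟨A, B, hB0, ?_⟩
    rw [map_div₀, fracQ_algebraMap, fracQ_algebraMap, div_mul_cancel₀ _ (Phi_ne_zero hB0)]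
  · rintro ⟨A, B, hB, h⟩
    refine RingHom.mem_fieldRange.mpr
      ⟨algebraMap S23.niceSub (FractionRing S23.niceSub) A /
        algebraMap S23.niceSub (FractionRing S23.niceSub) B, ?_⟩
    rw [map_div₀, fracQ_algebraMap, fracQ_algebraMap, ← h, mul_div_cancel_right₀ _ (Phi_ne_zero hB)]

/-- The preimage of an element of `merField` in the fraction field of nice functions. -/
def preimHom : merField →+* FractionRing S23.niceSub :=
  (fracQ.rangeRestrictFieldEquiv.symm : fracQ.fieldRange ≃+* FractionRing S23.niceSub).toRingHom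

theorem fracQ_preimHom (x : merField) : fracQ (preimHom x) = (x : LaurentSeries ℂ) :=
  RingHom.rangeRestrictFieldEquiv_apply_symm_apply fracQ x

/-- **The Taylor embedding** at `z` of the field of modular q-series. -/
def tauM (z : ℍ) : merField →+* LaurentSeries ℂ :=
  (fracT z).comp preimHom

theorem tauM_injective (z : ℍ) : Function.Injective (tauM z) := (tauM z).injective

/-- Compatibility of `tauM` with holomorphic realisations. -/
theorem tauM_mul (z : ℍ) (x : merField) (A B : S23.niceSub)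
    (h : (x : LaurentSeries ℂ) * S24.AnBridge.Phi B = S24.AnBridge.Phi A) :
    tauM z x * taylorNice z B = taylorNice z A := by
  by_cases hB : B = 0
  · subst hB
    rw [map_zero, mul_zero] at h
    have hA : A = 0 := S24.AnBridge.Phi_injective (by rw [← h, map_zero])
    rw [hA, map_zero, mul_zero]
  · set k : FractionRing S23.niceSub :=
      algebraMap S23.niceSub (FractionRing S23.niceSub) A /
        algebraMap S23.niceSub (FractionRing S23.niceSub) B with hk
    have hq : fracQ k = (x : LaurentSeries ℂ) := by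
      rw [hk, map_div₀, fracQ_algebraMap, fracQ_algebraMap, ← h,
        mul_div_cancel_right₀ _ (Phi_ne_zero hB)]
    have hx : preimHom x = k :=
      fracQ.injective ((fracQ_preimHom x).trans hq.symm)
    show fracT z (preimHom x) * taylorNice z B = taylorNice z A
    rw [hx, hk, map_div₀, fracT_algebraMap, fracT_algebraMap,
      div_mul_cancel₀ _ (taylorNice_ne_zero z hB)]

/-- Function-level form of `tauM_mul` in the vocabulary of `KDefs` (`K.qx`). -/
theorem tauM_mul_qx (z : ℍ) (x : merField) {A B : ℍ → ℂ} (hA : A ∈ S23.niceSub)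
    (hB : B ∈ S23.niceSub) (h : (x : LaurentSeries ℂ) * K.qx B = K.qx A) :
    tauM z x * HahnSeries.ofPowerSeries ℤ ℂ (S24.taylorAt z B)
      = HahnSeries.ofPowerSeries ℤ ℂ (S24.taylorAt z A) :=
  tauM_mul z x ⟨A, hA⟩ ⟨B, hB⟩ h

/-- A q-series realised by a single nice function. -/
theorem tauM_eq_of_qx (z : ℍ) (x : merField) {A : ℍ → ℂ} (hA : A ∈ S23.niceSub)
    (h : (x : LaurentSeries ℂ) = K.qx A) :
    tauM z x = HahnSeries.ofPowerSeries ℤ ℂ (S24.taylorAt z A) := by
  have h1 : (x : LaurentSeries ℂ) * S24.AnBridge.Phi (1 : S23.niceSub)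
      = S24.AnBridge.Phi ⟨A, hA⟩ := by
    rw [map_one, mul_one, h]
    rfl
  have h2 := tauM_mul z x ⟨A, hA⟩ 1 h1
  rw [map_one, mul_one] at h2
  exact h2

/-! ### Constants -/

theorem algebraMap_mem_merField (c : ℂ) : algebraMap ℂ (LaurentSeries ℂ) c ∈ merField :=
  mem_merField_iff.mpr ⟨algebraMap ℂ S23.niceSub c, 1, one_ne_zero, by
    rw [map_one, mul_one, S24.AnBridge.Phi_algebraMap]⟩

theorem tauM_algebraMap (z : ℍ) (c : ℂ) (h : algebraMap ℂ (LaurentSeries ℂ) c ∈ merField) :
    tauM z ⟨algebraMap ℂ (LaurentSeries ℂ) c, h⟩ = HahnSeries.C c := by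
  have h1 : ((⟨algebraMap ℂ (LaurentSeries ℂ) c, h⟩ : merField) : LaurentSeries ℂ)
      * S24.AnBridge.Phi (1 : S23.niceSub)
      = S24.AnBridge.Phi (algebraMap ℂ S23.niceSub c) := by
    rw [map_one, mul_one, S24.AnBridge.Phi_algebraMap]
  have h2 := tauM_mul z _ _ _ h1
  rw [map_one, mul_one, taylorNice_algebraMap] at h2
  rw [h2, algebraMap_laurentSeries_eq_single]
  rfl

/-! ### Orders -/

/-- The order of the Taylor series of a nonzero holomorphic function, as a Laurent series. -/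
theorem order_ofPowerSeries_taylorAt {f : ℍ → ℂ} (hf : MDiff f) (z : ℍ) {n : ℕ}
    (hn : analyticOrderAt (fun w : ℂ => f (ofComplex w)) (z : ℂ) = (n : ℕ∞)) :
    (HahnSeries.ofPowerSeries ℤ ℂ (S24.taylorAt z f)).order = (n : ℤ) :=
  S24.AnRoots.order_ofPowerSeries_of_order_eq (by rw [S24.order_taylorAt hf z, hn])

/-- Value at the point: the constant coefficient of the Taylor series. -/
theorem coeff_zero_ofPowerSeries_taylorAt (f : ℍ → ℂ) (z : ℍ) :
    (HahnSeries.ofPowerSeries ℤ ℂ (S24.taylorAt z f)).coeff 0 = f z := by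
  have h := HahnSeries.ofPowerSeries_apply_coeff (Γ := ℤ) (R := ℂ) (S24.taylorAt z f) 0
  simp only [Nat.cast_zero] at h
  rw [h, PowerSeries.coeff_zero_eq_constantCoeff_apply, S24.constantCoeff_taylorAt]

/-- The Taylor series of a holomorphic function has non-negative order. -/
theorem order_ofPowerSeries_nonneg (P : PowerSeries ℂ) :
    0 ≤ (HahnSeries.ofPowerSeries ℤ ℂ P).order := by
  by_cases hP : P = 0
  · rw [hP, map_zero, HahnSeries.order_zero]
  · rw [S24.AnRoots.order_ofPowerSeries hP]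
    exact Int.natCast_nonneg _

/-- A Taylor series with nonzero value at the point has order `0`. -/
theorem order_ofPowerSeries_taylorAt_of_ne_zero (f : ℍ → ℂ) (z : ℍ) (hz : f z ≠ 0) :
    (HahnSeries.ofPowerSeries ℤ ℂ (S24.taylorAt z f)).order = 0 := by
  apply S24.AnRoots.order_ofPowerSeries_of_order_eq
  rw [Nat.cast_zero, PowerSeries.order_zero_of_unit]
  rw [PowerSeries.isUnit_iff_constantCoeff, S24.constantCoeff_taylorAt]
  exact isUnit_iff_ne_zero.mpr hz

/-! ### The function field `F_ℂ` of `X₀(N)` lies in `merField` -/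

/-- `j(q^d)` over `ℂ` is a quotient of nice functions. -/
theorem jd_mem_merField (d : ℕ) [NeZero d] :
    coeffEmb ℂ (qExpand ℚ d jq) ∈ merField := by
  have hd : d ∈ d.divisors := Nat.mem_divisors_self d (NeZero.ne d)
  have h1 : coeffEmb ℂ (qExpand ℚ d jq) = S24.AnBridge.GN d ⟨d, hd⟩ := by
    rw [S24.AnBridge.GN, S24.AnBridge.coeffMap_embC_JFam, coeffEmb, coeffMap_qExpand]
  rw [h1]
  refine mem_merField_iff.mpr ⟨S24.AnBridge.eN d ⟨d, hd⟩ ^ 3, S24.AnBridge.uN d ⟨d, hd⟩, ?_, ?_⟩
  · intro h0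
    have h2 := congrArg (fun F : S23.niceSub => (F : ℍ → ℂ) UpperHalfPlane.I) h0
    exact ModularForm.discriminant_ne_zero _ h2
  · rw [map_pow]
    exact S24.AnBridge.GN_mul_Phi_uN (N := d) S24.jRel ⟨d, hd⟩

/-- The function field of `X₀(N)` over `ℂ` consists of quotients of nice functions. -/
theorem FC_le_merField (N : ℕ) [NeZero N] : ∀ x ∈ K.FC N, x ∈ merField := by
  intro x hx
  rw [mem_laurentBaseChange_iff] at hx
  refine Subfield.closure_le.mpr ?_ hx
  rintro y (⟨c, rfl⟩ | ⟨y, hy, rfl⟩)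
  · exact algebraMap_mem_merField c
  · -- `y ∈ ℚ(j(q^d) : d ∣ N)`
    have hy' : y ∈ Subfield.closure
        (Set.range (algebraMap ℚ (LaurentSeries ℚ)) ∪ divisorExpansions N) := hy
    have hle : Subfield.closure
        (Set.range (algebraMap ℚ (LaurentSeries ℚ)) ∪ divisorExpansions N)
        ≤ merField.comap (coeffEmb ℂ) := by
      refine Subfield.closure_le.mpr ?_
      rintro w (⟨r, rfl⟩ | ⟨d, hne, hdvd, rfl⟩)
      · show coeffEmb ℂ (algebraMap ℚ (LaurentSeries ℚ) r) ∈ merField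
        have h2 : coeffEmb ℂ (algebraMap ℚ (LaurentSeries ℚ) r)
            = algebraMap ℂ (LaurentSeries ℂ) (algebraMap ℚ ℂ r) := by
          rw [algebraMap_laurentSeries_eq_single, algebraMap_laurentSeries_eq_single, coeffEmb,
            coeffMap_single]
        rw [h2]
        exact algebraMap_mem_merField _
      · have := hne
        exact jd_mem_merField d
    exact hle hy'

/-- The Taylor embedding of `F_ℂ` at `z`. -/
def tauC (N : ℕ) [NeZero N] (z : ℍ) : ↥(K.FC N) →+* LaurentSeries ℂ :=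
  (tauM z).comp (Subfield.inclusion (show (K.FC N).toSubfield ≤ merField from
    fun x hx => FC_le_merField N x hx))

theorem tauC_apply (N : ℕ) [NeZero N] (z : ℍ) (x : ↥(K.FC N)) :
    tauC N z x = tauM z ⟨(x : LaurentSeries ℂ), FC_le_merField N _ x.2⟩ := rfl

theorem tauC_algebraMap (N : ℕ) [NeZero N] (z : ℍ) (c : ℂ) :
    tauC N z (algebraMap ℂ ↥(K.FC N) c) = HahnSeries.C c :=
  tauM_algebraMap z c _

/-! ### The coordinate `j` of `F_ℂ` and the realisation hypothesis -/

theorem jC_mem_FC (N : ℕ) [NeZero N] : K.jC ∈ K.FC N := by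
  have h := jqd_mem_full N (one_dvd N)
  rw [qExpand_one_apply] at h
  exact coeffEmb_mem_laurentBaseChange ℂ h

/-- The coordinate `j` of the function field `F_ℂ`. -/
def jF (N : ℕ) [NeZero N] : ↥(K.FC N) := ⟨K.jC, jC_mem_FC N⟩

/-- **Realisation hypothesis** (the direction `⊆` of the dictionary (R2a); `K1IntConv` for some
`m`): every element of `F_ℂ` integral over `ℂ[j]` is `G / Δ^m` for a holomorphic modular form `G`
of weight `12 m`. -/
def IntReal (N : ℕ) : Prop :=
  ∀ x ∈ K.FC N, IsIntegral (Algebra.adjoin ℂ ({K.jC} : Set (LaurentSeries ℂ))) x →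
    ∃ (m : ℕ) (G : ℍ → ℂ), G ∈ S20.MF N (12 * m) ∧ x * K.DeltaC ^ m = K.qx G

/-! ### The `j`-function -/

theorem jC_mem_merField : K.jC ∈ merField := by
  have h := jd_mem_merField 1
  rwa [qExpand_one_apply] at h

theorem jFun_mul_discriminant_fun :
    Fermat.Agent.LevelOne.jFun * (ModularForm.discriminant : ℍ → ℂ)
      = (fun z : ℍ => E₄ z ^ 3) := by
  funext z
  exact Fermat.Agent.LevelOne.jFun_mul_discriminant z

/-- The formal `j` goes to the Taylor series of the analytic `j`. -/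
theorem tauM_jC (z : ℍ) :
    tauM z ⟨K.jC, jC_mem_merField⟩
      = HahnSeries.ofPowerSeries ℤ ℂ (S24.taylorAt z Fermat.Agent.LevelOne.jFun) := by
  have hΔ : (ModularForm.discriminant : ℍ → ℂ) ∈ S23.niceSub :=
    S24.AnBridge.discriminant_mem_niceSub
  have hE : (fun z : ℍ => E₄ z ^ 3) ∈ S23.niceSub := by
    have h4 : ((E₄ : ModularForm _ _) : ℍ → ℂ) ∈ S23.niceSub :=
      S24.AnBridge.levelOne_mem_niceSub E₄
    exact S23.niceSub.pow_mem h4 3
  have hrel : (K.jC : LaurentSeries ℂ) * K.qx (ModularForm.discriminant : ℍ → ℂ)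
      = K.qx (fun z : ℍ => E₄ z ^ 3) := by
    have h := S24.jRel
    unfold S24.AnBridge.JRel at h
    have h3 : K.qx (fun z : ℍ => E₄ z ^ 3)
        = HahnSeries.ofPowerSeries ℤ ℂ (qExpansion 1 (E₄ : ℍ → ℂ)) ^ 3 := by
      have h5 : S24.AnBridge.Phi (⟨(E₄ : ℍ → ℂ), S24.AnBridge.levelOne_mem_niceSub E₄⟩ ^ 3)
          = S24.AnBridge.Phi ⟨(E₄ : ℍ → ℂ), S24.AnBridge.levelOne_mem_niceSub E₄⟩ ^ 3 :=
        map_pow _ _ _
      exact h5
    rw [h3, ← h]
    rfl
  have h1 := tauM_mul_qx z ⟨K.jC, jC_mem_merField⟩ hE hΔ hrel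
  have h2 : HahnSeries.ofPowerSeries ℤ ℂ (S24.taylorAt z (fun z : ℍ => E₄ z ^ 3))
      = HahnSeries.ofPowerSeries ℤ ℂ (S24.taylorAt z Fermat.Agent.LevelOne.jFun)
        * HahnSeries.ofPowerSeries ℤ ℂ (S24.taylorAt z (ModularForm.discriminant : ℍ → ℂ)) := by
    rw [← map_mul, ← S24.taylorAt_mul z Fermat.Agent.LevelOne.jFun_mdifferentiable hΔ.2.1,
      jFun_mul_discriminant_fun]
  rw [h2] at h1
  have h0 : HahnSeries.ofPowerSeries ℤ ℂ (S24.taylorAt z (ModularForm.discriminant : ℍ → ℂ))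
      ≠ 0 := by
    intro h0
    have h3 := coeff_zero_ofPowerSeries_taylorAt (ModularForm.discriminant : ℍ → ℂ) z
    rw [h0, HahnSeries.coeff_zero] at h3
    exact ModularForm.discriminant_ne_zero z h3.symm
  exact mul_right_cancel₀ h0 h1

/-- `tauM z (j - c)` is the Taylor series of `jFun - c`. -/
theorem tauM_jC_sub (z : ℍ) (c : ℂ) (h : K.jC - algebraMap ℂ (LaurentSeries ℂ) c ∈ merField) :
    tauM z ⟨K.jC - algebraMap ℂ (LaurentSeries ℂ) c, h⟩
      = HahnSeries.ofPowerSeries ℤ ℂ
          (S24.taylorAt z Fermat.Agent.LevelOne.jFun - PowerSeries.C c) := by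
  have h1 : (⟨K.jC - algebraMap ℂ (LaurentSeries ℂ) c, h⟩ : merField)
      = ⟨K.jC, jC_mem_merField⟩ - ⟨algebraMap ℂ (LaurentSeries ℂ) c, algebraMap_mem_merField c⟩ :=
    rfl
  rw [h1, map_sub, tauM_jC, tauM_algebraMap, map_sub, HahnSeries.ofPowerSeries_C]

/-- **Order of `j - j(z)` at `z`**: it is `jE (j z) ∈ {1, 2, 3}`. -/
theorem order_tauM_jC_sub (z : ℍ)
    (h : K.jC - algebraMap ℂ (LaurentSeries ℂ) (Fermat.Agent.LevelOne.jFun z) ∈ merField) :
    (tauM z ⟨K.jC - algebraMap ℂ (LaurentSeries ℂ) (Fermat.Agent.LevelOne.jFun z), h⟩).order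
      = (JOrd.jE (Fermat.Agent.LevelOne.jFun z) : ℤ) := by
  rw [tauM_jC_sub]
  apply S24.AnRoots.order_ofPowerSeries_of_order_eq
  rw [S24.order_taylorAt_sub Fermat.Agent.LevelOne.jFun_mdifferentiable z]
  exact JOrd.analyticOrderAt_jFun_sub z

/-- If `c ≠ j(z)` then `j - c` is a unit at `z`. -/
theorem order_tauM_jC_sub_of_ne (z : ℍ) (c : ℂ) (hc : Fermat.Agent.LevelOne.jFun z ≠ c)
    (h : K.jC - algebraMap ℂ (LaurentSeries ℂ) c ∈ merField) :
    (tauM z ⟨K.jC - algebraMap ℂ (LaurentSeries ℂ) c, h⟩).order = 0 := by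
  rw [tauM_jC_sub]
  apply S24.AnRoots.order_ofPowerSeries_of_order_eq
  rw [Nat.cast_zero, PowerSeries.order_zero_of_unit]
  rw [PowerSeries.isUnit_iff_constantCoeff, map_sub, S24.constantCoeff_taylorAt,
    PowerSeries.constantCoeff_C]
  exact isUnit_iff_ne_zero.mpr (sub_ne_zero.mpr hc)

/-! ### The same for the Taylor embedding `tauC` of `F_ℂ` -/

theorem tauC_mul_qx (N : ℕ) [NeZero N] (z : ℍ) (x : ↥(K.FC N)) {A B : ℍ → ℂ}
    (hA : A ∈ S23.niceSub) (hB : B ∈ S23.niceSub)
    (h : (x : LaurentSeries ℂ) * K.qx B = K.qx A) :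
    tauC N z x * HahnSeries.ofPowerSeries ℤ ℂ (S24.taylorAt z B)
      = HahnSeries.ofPowerSeries ℤ ℂ (S24.taylorAt z A) :=
  tauM_mul_qx z ⟨(x : LaurentSeries ℂ), FC_le_merField N _ x.2⟩ hA hB h

theorem tauC_jF (N : ℕ) [NeZero N] (z : ℍ) :
    tauC N z (jF N)
      = HahnSeries.ofPowerSeries ℤ ℂ (S24.taylorAt z Fermat.Agent.LevelOne.jFun) :=
  tauM_jC z

theorem order_tauC_jF_nonneg (N : ℕ) [NeZero N] (z : ℍ) : 0 ≤ (tauC N z (jF N)).order := by
  rw [tauC_jF]
  exact order_ofPowerSeries_nonneg _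

/-- `ord_s (tauC z (j - j(z))) = jE (j z)`. -/
theorem order_tauC_jF_sub (N : ℕ) [NeZero N] (z : ℍ) :
    (tauC N z (jF N - algebraMap ℂ ↥(K.FC N) (Fermat.Agent.LevelOne.jFun z))).order
      = (JOrd.jE (Fermat.Agent.LevelOne.jFun z) : ℤ) :=
  order_tauM_jC_sub z _

/-- If `c ≠ j(z)` then `j - c` is a unit at `z`. -/
theorem order_tauC_jF_sub_of_ne (N : ℕ) [NeZero N] (z : ℍ) (c : ℂ)
    (hc : Fermat.Agent.LevelOne.jFun z ≠ c) :
    (tauC N z (jF N - algebraMap ℂ ↥(K.FC N) c)).order = 0 :=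
  order_tauM_jC_sub_of_ne z c hc _

/-- Order of `tauC z x` for `x = G / D` with `D` nonvanishing at `z`: the analytic order of
`G` at `z`. -/
theorem order_tauC_of_qx (N : ℕ) [NeZero N] (z : ℍ) (x : ↥(K.FC N)) {G D : ℍ → ℂ}
    (hG : G ∈ S23.niceSub) (hD : D ∈ S23.niceSub) (hDz : D z ≠ 0)
    (h : (x : LaurentSeries ℂ) * K.qx D = K.qx G) {n : ℕ}
    (hn : analyticOrderAt (fun w : ℂ => G (ofComplex w)) (z : ℂ) = (n : ℕ∞)) :
    (tauC N z x).order = (n : ℤ) := by
  have h1 := tauC_mul_qx N z x hG hD h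
  have h2 := order_ofPowerSeries_taylorAt hG.2.1 z hn
  have h3 := order_ofPowerSeries_taylorAt_of_ne_zero D z hDz
  have hT0 : HahnSeries.ofPowerSeries ℤ ℂ (S24.taylorAt z G) ≠ 0 := by
    intro h0
    have hG0 : S24.taylorAt z G = 0 := HahnSeries.ofPowerSeries_injective (by rw [h0, map_zero])
    have h4 := S24.order_taylorAt hG.2.1 z
    rw [hG0, PowerSeries.order_zero, hn] at h4
    exact ENat.top_ne_natCast n h4
  have hx0 : tauC N z x ≠ 0 := by
    intro h0
    rw [h0, zero_mul] at h1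
    exact hT0 h1.symm
  have hD0 : HahnSeries.ofPowerSeries ℤ ℂ (S24.taylorAt z D) ≠ 0 := by
    intro h0
    rw [h0, mul_zero] at h1
    exact hT0 h1.symm
  have h5 := HahnSeries.order_mul hx0 hD0
  rw [h1, h2, h3, add_zero] at h5
  exact h5.symm

end Fermat.Agent.S29.TaylorMer
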