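/-
S29 block [K], leaf (L8) of the order-transport route to [KPInv] — OrdTransport.lean (helper1).

ORDER TRANSPORT UNDER `Aut(ℂ)`.

Let `G, G₁` be holomorphic modular forms of weight `12 m` on `Γ₀(N)` and `x, x₁ ∈ ℂ((q))` the
q-series `G / Δ^m`, `G₁ / Δ^m`, with `x ∈ F_ℂ = K.FC N` and `x₁ = σ x` (coefficientwise) for a
field automorphism `σ` of `ℂ`.  Then every zero of `G₁` on `ℍ` has the same order as a zero of `G`:

  `∀ z₁, ∃ z, j(z₁) = σ (j(z)) ∧ ord_{z₁} G₁ = ord_z G`.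

In particular "all zero orders on `ℍ` divisible by `p`" is preserved by `σ`, for every `p`
(`forall_dvd_of_forall_dvd`; this is [KPInv]).

Proof.  The Taylor embedding `tauC N z₁` induces a place `Q₁` of `F_ℂ` (index `e₁`), the place
`Q := σ⁻¹ • Q₁` is centred on the integral closure of `ℂ[j]`, hence is an evaluation place
(`EvalPlace`): it is induced by `tauC N z` (index `e`) for a point `z` with `j(z) = t₀`,
`σ t₀ = j(z₁)`.  Comparing the orders of `j - t₀` and `j - σ t₀ = σ (j - t₀)`: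
`e · v = jE t₀ = jE (σ t₀) = e₁ · v` with `v = v_Q (j - t₀) = v_{Q₁} (j - σ t₀) > 0`, so `e = e₁`, and
`ord_{z₁} G₁ = e₁ · v_{Q₁} (σ x) = e · v_Q (x) = ord_z G`.

The three inputs of the proof are stated as the `Prop`s `NormStatement` (the norm hypothesis of
`EvalPlace` in the model; file `R2Norm`), `AlgStatement` (the algebra of the integral closure;
file `R2Alg`) and `PlaceStatement` (Taylor embeddings induce places; file `R2Place`).
-/
import Mathlib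
import Fermat.Prelude.Def_ModularCurve_ArithmeticGalois
import Fermat.Agent.S16.WTraceQ
import Fermat.Agent.S24.EmbDefs
import Fermat.Agent.LevelOne.JSurj
import Fermat.Agent.S29.KBasic
import Fermat.Agent.S29.JOrd
import Fermat.Agent.S29.TaylorMer

set_option autoImplicit false

namespace Fermat.Agent.S29.OrdTransport

open UpperHalfPlane ModularCurve AlgebraicCurve ModularForm Fermat.Agent
open Fermat.Agent.S24 (EmbInduces)
open scoped MatrixGroups Manifold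

/-! ### The three inputs -/

/-- Integrality over `ℂ[j]` inside `F_ℂ`. -/
def IsInt (N : ℕ) [NeZero N] (x : ↥(K.FC N)) : Prop :=
  IsIntegral (Algebra.adjoin ℂ ({TaylorMer.jF N} : Set ↥(K.FC N))) x

/-- The norm hypothesis at the value `t₀` for the finite set of points `s`. -/
def NormAt (N : ℕ) [NeZero N] (t₀ : ℂ) (s : Finset ℍ) : Prop :=
  ∀ h : ↥(K.FC N), IsInt N h → (∀ z ∈ s, (TaylorMer.tauC N z h).coeff 0 ≠ 0) →
    ∃ c : Polynomial ℂ, c.eval t₀ ≠ 0 ∧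
      ∃ g : ↥(K.FC N), IsInt N g ∧ Polynomial.aeval (TaylorMer.jF N) c = h * g

/-- Integral elements have Taylor expansions of non-negative order. -/
def RegStatement (N : ℕ) [NeZero N] : Prop :=
  ∀ (z : ℍ) (x : ↥(K.FC N)), IsInt N x → 0 ≤ (TaylorMer.tauC N z x).order

/-- Leaf `R2Norm`: over every point `z₁` there is a finite set of points with the same
`j`-value for which the norm hypothesis holds. -/
def NormStatement (N : ℕ) [NeZero N] : Prop :=
  ∀ z₁ : ℍ, ∃ s : Finset ℍ,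
    (∀ z ∈ s, LevelOne.jFun z = LevelOne.jFun z₁) ∧ NormAt N (LevelOne.jFun z₁) s

/-- Leaf `R2Alg`: a place of `F_ℂ` at which `j` is regular has a `j`-value `t₀`, and is induced by
one of the Taylor embeddings at the points of `s`, for every finite `s` with the norm
hypothesis. -/
def AlgStatement (N : ℕ) [NeZero N] : Prop :=
  ∀ Q : Place ℂ ↥(K.FC N), TaylorMer.jF N ∈ Q.toValuationSubring →
    ∃ t₀ : ℂ, TaylorMer.jF N - algebraMap ℂ ↥(K.FC N) t₀ ∈ Q.toValuationSubring.nonunits ∧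
      ∀ s : Finset ℍ, NormAt N t₀ s → ∃ z ∈ s, ∃ e : ℕ, EmbInduces (TaylorMer.tauC N z) Q e

/-- Leaf `R2Place`: the Taylor embedding at `z` induces a place at which `j` is regular. -/
def PlaceStatement (N : ℕ) [NeZero N] : Prop :=
  ∀ z : ℍ, ∃ (Q : Place ℂ ↥(K.FC N)) (e : ℕ),
    EmbInduces (TaylorMer.tauC N z) Q e ∧ TaylorMer.jF N ∈ Q.toValuationSubring

/-! ### The semilinear action of `Aut(ℂ)` on `F_ℂ` and its places -/

/-- The semilinear automorphism of `F_ℂ` induced by `σ`. -/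
noncomputable abbrev gal (N : ℕ) [NeZero N] (σ : ℂ ≃ₐ[ℚ] ℂ) : SemilinearAut ℂ ↥(K.FC N) :=
  arithmeticGalois (modularFunctionFieldFull N) σ

theorem coe_gal_smul (N : ℕ) [NeZero N] (σ : ℂ ≃ₐ[ℚ] ℂ) (y : ↥(K.FC N)) :
    ((gal N σ • y : ↥(K.FC N)) : LaurentSeries ℂ)
      = coeffMap (σ : ℂ →+* ℂ) (y : LaurentSeries ℂ) := rfl

theorem gal_smul_jF (N : ℕ) [NeZero N] (σ : ℂ ≃ₐ[ℚ] ℂ) :
    gal N σ • TaylorMer.jF N = TaylorMer.jF N := by
  apply Subtype.ext
  rw [coe_gal_smul]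
  exact coeffMap_coeffEmb σ jq

theorem gal_smul_algebraMap (N : ℕ) [NeZero N] (σ : ℂ ≃ₐ[ℚ] ℂ) (c : ℂ) :
    gal N σ • algebraMap ℂ ↥(K.FC N) c = algebraMap ℂ ↥(K.FC N) (σ c) :=
  SemilinearAut.smul_algebraMap (gal N σ) c

theorem gal_smul_sub (N : ℕ) [NeZero N] (σ : ℂ ≃ₐ[ℚ] ℂ) (c : ℂ) :
    gal N σ • (TaylorMer.jF N - algebraMap ℂ ↥(K.FC N) c)
      = TaylorMer.jF N - algebraMap ℂ ↥(K.FC N) (σ c) := by
  rw [smul_sub, gal_smul_jF, gal_smul_algebraMap]

/-- Orders at the transported place. -/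
theorem ord_inv_smul (N : ℕ) [NeZero N] (σ : ℂ ≃ₐ[ℚ] ℂ) (Q1 : Place ℂ ↥(K.FC N))
    (y : ↥(K.FC N)) : ((gal N σ)⁻¹ • Q1).ord y = Q1.ord (gal N σ • y) := by
  have h := SemilinearAut.ord_smul (gal N σ)⁻¹ Q1 (gal N σ • y)
  rwa [inv_smul_smul] at h

theorem jF_mem_inv_smul (N : ℕ) [NeZero N] (σ : ℂ ≃ₐ[ℚ] ℂ) (Q1 : Place ℂ ↥(K.FC N))
    (h : TaylorMer.jF N ∈ Q1.toValuationSubring) :
    TaylorMer.jF N ∈ ((gal N σ)⁻¹ • Q1).toValuationSubring := by
  have h1 : (gal N σ)⁻¹ • TaylorMer.jF N = TaylorMer.jF N := by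
    rw [inv_smul_eq_iff, gal_smul_jF]
  have h2 := ValuationSubring.smul_mem_pointwise_smul (gal N σ)⁻¹ (TaylorMer.jF N)
    Q1.toValuationSubring h
  rw [h1] at h2
  exact h2

/-! ### Analytic orders of nonzero holomorphic functions -/

theorem exists_analyticOrderAt_eq_natCast {G : ℍ → ℂ} (hG : MDiff G) (hG0 : G ≠ 0) (z : ℍ) :
    ∃ n : ℕ, analyticOrderAt (fun w : ℂ => G (ofComplex w)) (z : ℂ) = (n : ℕ∞) := by
  have h1 : analyticOrderAt (fun w : ℂ => G (ofComplex w)) (z : ℂ) ≠ ⊤ := by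
    intro htop
    have h2 := S24.order_taylorAt hG z
    rw [htop, PowerSeries.order_eq_top] at h2
    have h3 : S24.taylorAt z G = S24.taylorAt z (0 : ℍ → ℂ) := by
      rw [h2, S24.taylorAt_zero]
    exact hG0 (S24.eq_of_taylorAt_eq z hG mdifferentiable_const h3)
  exact ⟨_, (ENat.natCast_toNat h1).symm⟩

theorem discriminant_pow_mem_niceSub (m : ℕ) :
    ((ModularForm.discriminant : ℍ → ℂ) ^ m) ∈ S23.niceSub :=
  S23.niceSub.pow_mem S24.AnBridge.discriminant_mem_niceSub m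

theorem qx_discriminant_pow (m : ℕ) :
    K.qx ((ModularForm.discriminant : ℍ → ℂ) ^ m) = K.DeltaC ^ m :=
  K.qx_pow S24.AnBridge.discriminant_mem_niceSub m

/-- Order of the Taylor expansion of `x = G / Δ^m` at `z`. -/
theorem order_tauC_of_form (N : ℕ) [NeZero N] (m : ℕ) {G : ℍ → ℂ}
    (hG : G ∈ S20.MF N (12 * m)) (x : ↥(K.FC N))
    (hxG : (x : LaurentSeries ℂ) * K.DeltaC ^ m = K.qx G) (z : ℍ) {n : ℕ}
    (hn : analyticOrderAt (fun w : ℂ => G (ofComplex w)) (z : ℂ) = (n : ℕ∞)) :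
    (TaylorMer.tauC N z x).order = (n : ℤ) := by
  refine TaylorMer.order_tauC_of_qx N z x (S16.WTraceQ.nice_of_mem_MF hG)
    (discriminant_pow_mem_niceSub m) ?_ ?_ hn
  · exact pow_ne_zero m (ModularForm.discriminant_ne_zero z)
  · rw [qx_discriminant_pow]
    exact hxG

/-! ### The transport theorem -/

/-- **Order transport**, from the three leaf statements. -/
theorem exists_analyticOrderAt_eq_of_leaves (N : ℕ) [NeZero N]
    (hnorm : NormStatement N) (halg : AlgStatement N) (hplace : PlaceStatement N)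
    (σ : ℂ ≃ₐ[ℚ] ℂ) (m : ℕ) {G G1 : ℍ → ℂ}
    (hG : G ∈ S20.MF N (12 * m)) (hG1 : G1 ∈ S20.MF N (12 * m))
    {x x1 : LaurentSeries ℂ} (hx : x ∈ K.FC N) (hxG : x * K.DeltaC ^ m = K.qx G)
    (hxG1 : x1 * K.DeltaC ^ m = K.qx G1) (hσ : x1 = coeffMap (σ : ℂ →+* ℂ) x) (z1 : ℍ) :
    ∃ z : ℍ, LevelOne.jFun z1 = σ (LevelOne.jFun z) ∧
      analyticOrderAt (fun w : ℂ => G1 (ofComplex w)) (z1 : ℂ)
        = analyticOrderAt (fun w : ℂ => G (ofComplex w)) (z : ℂ) := by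
  have hGn : G ∈ S23.niceSub := S16.WTraceQ.nice_of_mem_MF hG
  have hG1n : G1 ∈ S23.niceSub := S16.WTraceQ.nice_of_mem_MF hG1
  have hΔm : K.DeltaC ^ m ≠ 0 := pow_ne_zero m K.DeltaC_ne_zero
  by_cases hG0 : G = 0
  · -- degenerate case: both forms vanish identically
    have hx0 : x = 0 := by
      rw [hG0, K.qx_zero] at hxG
      exact (mul_eq_zero.mp hxG).resolve_right hΔm
    have hx10 : x1 = 0 := by rw [hσ, hx0, map_zero]
    have hG10 : G1 = 0 := by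
      rw [hx10, zero_mul] at hxG1
      exact (K.qx_eq_zero_iff hG1n).mp hxG1.symm
    obtain ⟨z, hz⟩ := LevelOne.jFun_surjective (σ.symm (LevelOne.jFun z1))
    refine ⟨z, ?_, ?_⟩
    · rw [hz, AlgEquiv.apply_symm_apply]
    · rw [hG0, hG10]
      have h0 : ∀ c : ℂ, analyticOrderAt (fun w : ℂ => (0 : ℍ → ℂ) (ofComplex w)) c = ⊤ :=
        fun c => analyticOrderAt_eq_top.mpr (Filter.Eventually.of_forall fun _ => rfl)
      rw [h0, h0]
  -- main case
  have hx0 : x ≠ 0 := by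
    rintro rfl
    rw [zero_mul] at hxG
    exact hG0 ((K.qx_eq_zero_iff hGn).mp hxG.symm)
  have hx10 : x1 ≠ 0 := by
    rw [hσ]
    exact (map_ne_zero _).mpr hx0
  have hG10 : G1 ≠ 0 := by
    rintro rfl
    rw [K.qx_zero] at hxG1
    exact hx10 ((mul_eq_zero.mp hxG1).resolve_right hΔm)
  set X : ↥(K.FC N) := ⟨x, hx⟩ with hX
  have hX0 : X ≠ 0 := fun h => hx0 (congrArg Subtype.val h)
  set X1 : ↥(K.FC N) := gal N σ • X with hX1
  have hX1coe : (X1 : LaurentSeries ℂ) = x1 := by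
    rw [hX1, coe_gal_smul, hσ]
  have hX10 : X1 ≠ 0 := fun h => hx10 (by rw [← hX1coe, h]; rfl)
  -- the place of `z1`
  obtain ⟨Q1, e1, hind1, hjQ1⟩ := hplace z1
  -- its transport
  set Q : Place ℂ ↥(K.FC N) := (gal N σ)⁻¹ • Q1 with hQ
  have hjQ : TaylorMer.jF N ∈ Q.toValuationSubring := jF_mem_inv_smul N σ Q1 hjQ1
  obtain ⟨t₀, -, hall⟩ := halg Q hjQ
  obtain ⟨z₀, hz₀⟩ := LevelOne.jFun_surjective t₀
  obtain ⟨s, hs, hns⟩ := hnorm z₀
  rw [hz₀] at hns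
  obtain ⟨z, hzs, e, hind⟩ := hall s hns
  have hjz : LevelOne.jFun z = t₀ := by rw [hs z hzs, hz₀]
  -- the element `j - t₀` and its transport `j - σ t₀`
  set u : ↥(K.FC N) := TaylorMer.jF N - algebraMap ℂ ↥(K.FC N) t₀ with hu
  set u1 : ↥(K.FC N) := TaylorMer.jF N - algebraMap ℂ ↥(K.FC N) (σ t₀) with hu1
  have hgu : gal N σ • u = u1 := gal_smul_sub N σ t₀
  have hordu : (TaylorMer.tauC N z u).order = (JOrd.jE t₀ : ℤ) := by
    have h := TaylorMer.order_tauC_jF_sub N z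
    rw [hjz] at h
    exact h
  have hu0 : u ≠ 0 := by
    intro h0
    rw [h0, map_zero, HahnSeries.order_zero] at hordu
    have := JOrd.jE_pos t₀
    omega
  have hu10 : u1 ≠ 0 := by
    rw [← hgu]
    exact (smul_ne_zero_iff_ne _).mpr hu0
  have hepos : (0 : ℤ) < e := by exact_mod_cast hind.pos
  have he1pos : (0 : ℤ) < e1 := by exact_mod_cast hind1.pos
  -- `v = v_Q (j - t₀) = v_{Q₁} (j - σ t₀) > 0`
  have h1 : (JOrd.jE t₀ : ℤ) = (e : ℤ) * Q.ord u := by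
    rw [← hordu]
    exact hind.order_eq hu0
  have hv : Q1.ord u1 = Q.ord u := by
    rw [hQ, ord_inv_smul, hgu]
  have hvpos : 0 < Q.ord u := by
    have hjE : (0 : ℤ) < JOrd.jE t₀ := by exact_mod_cast JOrd.jE_pos t₀
    by_contra hneg
    push Not at hneg
    have : (e : ℤ) * Q.ord u ≤ 0 := mul_nonpos_of_nonneg_of_nonpos hepos.le hneg
    omega
  have h2 : (TaylorMer.tauC N z1 u1).order = (e1 : ℤ) * Q.ord u := by
    rw [← hv]
    exact hind1.order_eq hu10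
  -- hence `j(z1) = σ t₀`
  have hjz1 : LevelOne.jFun z1 = σ t₀ := by
    by_contra hne
    have h3 := TaylorMer.order_tauC_jF_sub_of_ne N z1 (σ t₀) hne
    rw [← hu1, h2] at h3
    have : 0 < (e1 : ℤ) * Q.ord u := mul_pos he1pos hvpos
    omega
  have h3 : (JOrd.jE t₀ : ℤ) = (e1 : ℤ) * Q.ord u := by
    have h := TaylorMer.order_tauC_jF_sub N z1
    rw [hjz1, ← hu1, h2] at h
    have h4 : JOrd.jE (σ t₀) = JOrd.jE t₀ := JOrd.jE_map (σ : ℂ →+* ℂ) t₀
    rw [h, h4]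
  have hee : (e : ℤ) = e1 := by
    have h4 : (e : ℤ) * Q.ord u = (e1 : ℤ) * Q.ord u := by rw [← h1, ← h3]
    exact mul_right_cancel₀ hvpos.ne' h4
  -- orders of `x` and `σ x`
  obtain ⟨n, hn⟩ := exists_analyticOrderAt_eq_natCast hGn.2.1 hG0 z
  obtain ⟨n1, hn1⟩ := exists_analyticOrderAt_eq_natCast hG1n.2.1 hG10 z1
  have h5 : (TaylorMer.tauC N z X).order = (n : ℤ) := order_tauC_of_form N m hG X hxG z hn
  have h6 : (TaylorMer.tauC N z1 X1).order = (n1 : ℤ) :=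
    order_tauC_of_form N m hG1 X1 (by rw [hX1coe]; exact hxG1) z1 hn1
  have h7 : (n : ℤ) = (e : ℤ) * Q.ord X := by
    rw [← h5]
    exact hind.order_eq hX0
  have h8 : (n1 : ℤ) = (e1 : ℤ) * Q.ord X := by
    rw [← h6, hind1.order_eq hX10, hX1, ← ord_inv_smul]
  refine ⟨z, ?_, ?_⟩
  · rw [hjz1, hjz]
  · rw [hn, hn1]
    have h9 : (n1 : ℤ) = (n : ℤ) := by rw [h7, h8, hee]
    exact_mod_cast congrArg (fun k : ℤ => k) h9

/-- **[KPInv]**, from the three leaf statements: divisibility by `p` of all zero orders on `ℍ` is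
preserved by `Aut(ℂ)` — for every natural number `p`. -/
theorem forall_dvd_of_leaves (N : ℕ) [NeZero N]
    (hnorm : NormStatement N) (halg : AlgStatement N) (hplace : PlaceStatement N)
    (σ : ℂ ≃ₐ[ℚ] ℂ) (m : ℕ) {G G1 : ℍ → ℂ}
    (hG : G ∈ S20.MF N (12 * m)) (hG1 : G1 ∈ S20.MF N (12 * m))
    {x x1 : LaurentSeries ℂ} (hx : x ∈ K.FC N) (hxG : x * K.DeltaC ^ m = K.qx G)
    (hxG1 : x1 * K.DeltaC ^ m = K.qx G1) (hσ : x1 = coeffMap (σ : ℂ →+* ℂ) x) (p : ℕ)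
    (hp : ∀ z₀ : ℍ, ∃ k : ℕ,
      analyticOrderAt (fun w : ℂ => G (ofComplex w)) (z₀ : ℂ) = ((p * k : ℕ) : ℕ∞)) :
    ∀ z₀ : ℍ, ∃ k : ℕ,
      analyticOrderAt (fun w : ℂ => G1 (ofComplex w)) (z₀ : ℂ) = ((p * k : ℕ) : ℕ∞) := by
  intro z1
  obtain ⟨z, -, hz⟩ :=
    exists_analyticOrderAt_eq_of_leaves N hnorm halg hplace σ m hG hG1 hx hxG hxG1 hσ z1
  obtain ⟨k, hk⟩ := hp z
  exact ⟨k, by rw [hz, hk]⟩

end Fermat.Agent.S29.OrdTransport
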