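/-
S29 block [K], [KPInv] route A (order transport, helper1), leaf (P1) — R2Alg.lean (helper21).

THE ALGEBRAIC HALF OF THE ASSEMBLY.  Every place `Q` of `F_ℂ = K.FC N` at which `j` is regular
has a value `t₀ = j(Q) ∈ ℂ`, and — for ANY family of ring embeddings `τ z : F_ℂ → ℂ((s))`
which are `ℂ`-linear and non-negative on the integral closure of `ℂ[j]` — `Q` is induced by
one of the `τ z`, `z` in any finite set `s` satisfying the coset-norm condition `hnorm` at `t₀`.

This is helper1's landed `EvalPlace.exists_embInduces` instantiated with the LANDED commutative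
algebra of `S37/SpFib` (integral closure of `k[t]` in `FullC k N`: `B ⊆ O_Q`, `O_Q` a
localisation of `B`) and `S37/PMPlacesK2.exists_valAt_fullC` (every regular function has a
value), through the identification `hE : K.FC N = modularFunctionFieldFullC ℂ N`
(= DegC (B1)/(D3), kept as a hypothesis).
-/
import Mathlib
import Fermat.Agent.S18.SepDeg
import Fermat.Agent.S18.ConstK
import Fermat.Agent.S37.SpFib
import Fermat.Agent.S37.PMPlacesK2
import Fermat.Agent.S29.KDefs
import Fermat.Agent.S29.EvalPlace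
import Fermat.Agent.S29.TaylorMer

set_option autoImplicit false
set_option synthInstance.maxHeartbeats 400000
set_option maxHeartbeats 1000000

noncomputable section

namespace Fermat.Agent.S29.R2Alg

open AlgebraicCurve ModularCurve Fermat.Agent Fermat.Agent.S24

/-- `j̄` is a chart coordinate of `FullC k N` in characteristic `0`. -/
theorem isCoord_jb_charZero (k : Type*) [Field k] [IsAlgClosed k] [CharZero k] (N : ℕ)
    [NeZero N] : S37.SpFib.IsCoord k N (S18.SepDeg.jb k N) := by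
  have hfd := S18.SepDeg.finiteDimensional_full k N
  have : CharZero ↥(IntermediateField.adjoin k ({S18.SepDeg.jb k N} :
      Set ↥(modularFunctionFieldFullC k N))) :=
    charZero_of_injective_algebraMap (algebraMap k _).injective
  have : Algebra.IsAlgebraic ↥(IntermediateField.adjoin k ({S18.SepDeg.jb k N} :
      Set ↥(modularFunctionFieldFullC k N))) ↥(modularFunctionFieldFullC k N) :=
    Algebra.IsAlgebraic.of_finite _ _
  exact ⟨S18.ConstK.transcendental_jb k N, hfd,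
    Algebra.IsAlgebraic.isSeparable_of_perfectField⟩

/-- The formal `j` over `ℂ` in the two vocabularies. -/
theorem jC_eq_jqModC : K.jC = jqModC ℂ := by
  show coeffEmb ℂ jq = jqModC ℂ
  rw [← jqModC_rat, coeffEmb, coeffMap_jqModC]

/-- Generic form: `E` any intermediate field equal to `FullC ℂ N`, `t : E` with underlying
series the formal `j`. -/
theorem exists_embInduces_of_eq (N : ℕ) [NeZero N]
    (E : IntermediateField ℂ (LaurentSeries ℂ)) (hE : E = modularFunctionFieldFullC ℂ N)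
    (t : E) (ht : (t : LaurentSeries ℂ) = jqModC ℂ)
    {Z : Type*} (τ : Z → ↥E →+* LaurentSeries ℂ)
    (hτ : ∀ z, ∀ x : ↥E, IsIntegral (Algebra.adjoin ℂ ({t} : Set ↥E)) x → 0 ≤ (τ z x).order)
    (hconst : ∀ z (c : ℂ), τ z (algebraMap ℂ ↥E c) = HahnSeries.C c)
    (Q : Place ℂ ↥E) (hjQ : t ∈ Q.toValuationSubring) :
    ∃ t₀ : ℂ, t - algebraMap ℂ ↥E t₀ ∈ Q.toValuationSubring.nonunits ∧ ∀ s : Finset Z,
      (∀ h : ↥E, IsIntegral (Algebra.adjoin ℂ ({t} : Set ↥E)) h →
        (∀ z ∈ s, (τ z h).coeff 0 ≠ 0) →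
        ∃ c : Polynomial ℂ, c.eval t₀ ≠ 0 ∧
          ∃ g : ↥E, IsIntegral (Algebra.adjoin ℂ ({t} : Set ↥E)) g ∧
            Polynomial.aeval t c = h * g) →
      ∃ z ∈ s, ∃ e : ℕ, EmbInduces (τ z) Q e := by
  subst hE
  have htj : t = S18.SepDeg.jb ℂ N := Subtype.ext ht
  subst htj
  have hcoord := isCoord_jb_charZero ℂ N
  obtain ⟨t₀, ht₀⟩ := S37.PMPlacesK2.exists_valAt_fullC ℂ N Q (S18.SepDeg.jb ℂ N) hjQ
  refine ⟨t₀, ht₀, fun s hnorm => ?_⟩
  exact EvalPlace.exists_embInduces (S18.SepDeg.jb ℂ N)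
    (S37.SpFib.spFibAlg ℂ N (S18.SepDeg.jb ℂ N)) τ
    (fun z x hx => hτ z x hx) hconst Q
    (S37.SpFib.spFibAlg_le Q hjQ)
    (S37.SpFib.exists_frac_of_mem hcoord Q hjQ)
    (fun x hx => S37.PMPlacesK2.exists_valAt_fullC ℂ N Q x hx)
    t₀ ht₀ s
    (fun h hh hz => by
      obtain ⟨c, hc, g, hg, hcg⟩ := hnorm h hh hz
      exact ⟨c, hc, g, hg, hcg⟩)

/-- **(P1)**, helper1's statement verbatim: the algebraic half of the order-transport assembly
for `F_ℂ = K.FC N`. -/
theorem exists_embInduces_FC (N : ℕ) [NeZero N]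
    (hE : K.FC N = modularFunctionFieldFullC ℂ N)
    {Z : Type*} (τ : Z → ↥(K.FC N) →+* LaurentSeries ℂ)
    (hτ : ∀ z, ∀ x : ↥(K.FC N),
      IsIntegral (Algebra.adjoin ℂ ({TaylorMer.jF N} : Set ↥(K.FC N))) x → 0 ≤ (τ z x).order)
    (hconst : ∀ z (c : ℂ), τ z (algebraMap ℂ ↥(K.FC N) c) = HahnSeries.C c)
    (Q : Place ℂ ↥(K.FC N)) (hjQ : TaylorMer.jF N ∈ Q.toValuationSubring) :
    ∃ t₀ : ℂ, TaylorMer.jF N - algebraMap ℂ ↥(K.FC N) t₀ ∈ Q.toValuationSubring.nonunits ∧
      ∀ s : Finset Z,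
      (∀ h : ↥(K.FC N),
        IsIntegral (Algebra.adjoin ℂ ({TaylorMer.jF N} : Set ↥(K.FC N))) h →
        (∀ z ∈ s, (τ z h).coeff 0 ≠ 0) →
        ∃ c : Polynomial ℂ, c.eval t₀ ≠ 0 ∧
          ∃ g : ↥(K.FC N),
            IsIntegral (Algebra.adjoin ℂ ({TaylorMer.jF N} : Set ↥(K.FC N))) g ∧
            Polynomial.aeval (TaylorMer.jF N) c = h * g) →
      ∃ z ∈ s, ∃ e : ℕ, EmbInduces (τ z) Q e :=
  exists_embInduces_of_eq N (K.FC N) hE (TaylorMer.jF N) jC_eq_jqModC τ hτ hconst Q hjQ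

end Fermat.Agent.S29.R2Alg
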