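/-
S29 block [K], leaf (L7) of the order-transport route to [KPInv] — R2Norm.lean (helper92).

THE NORM ARGUMENT IN THE MODEL (the hypotheses `hτ` / `hnorm` of `EvalPlace.exists_embInduces`
for `B :=` the integral closure of `ℂ[j]` in `F_ℂ = K.FC N` and `τ z := TaylorMer.tauC N z`).

Let `h ∈ F_ℂ` be integral over `ℂ[j]`.  By the realisation hypothesis `TaylorMer.IntReal N`
(`K1IntConv`), `h = G / Δ^m` for a holomorphic form `G` of weight `12 m` on `Γ₀(N)`; the function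
`H := G / Δ^m` is holomorphic on `ℍ`, `Γ₀(N)`-invariant, `O(|q|^{-m})` at every cusp, and
`tauC N z h` is the Taylor series of `H` at `z` (so it has order `≥ 0`, with value `H z`).  The
coset polynomial `P = ∏_{cosets} (X - H ∘ g) ∈ ℂ[j][X]` (`CuspBound.exists_monic_of_invariant`)
kills `h`, and its constant term `c(j)` does not vanish at `j(z₁)` unless some translate of `H`
vanishes at `z₁`; `c(j) = h · g` with `g` integral over `ℂ[j]`.

* `order_tauC_nonneg`   — (N1)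
* `exists_norm'`        — (N2) with `CuspBound` imported (no side hypothesis)
* `exists_norm`         — (N2) in the exact consumer shape (with the unused hypothesis `hC3`)
-/
import Mathlib
import Fermat.Agent.S20.Basic
import Fermat.Agent.LevelOne.JDef
import Fermat.Agent.S29.KDefs
import Fermat.Agent.S29.KBasic
import Fermat.Agent.S29.TaylorMer
import Fermat.Agent.S29.CuspBound

set_option autoImplicit false

noncomputable section

namespace Fermat.Agent.S29.R2Norm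

open UpperHalfPlane ModularCurve ModularForm Fermat.Agent Polynomial
open scoped MatrixGroups Manifold ModularForm

/-! ### The holomorphic realisation `G / Δ^m` -/

/-- The function `G / Δ^m` on the upper half plane. -/
def hol (G : ℍ → ℂ) (m : ℕ) : ℍ → ℂ := fun z => G z / ModularForm.discriminant z ^ m

theorem hol_apply (G : ℍ → ℂ) (m : ℕ) (z : ℍ) :
    hol G m z = G z / ModularForm.discriminant z ^ m := rfl

theorem hol_mul_discriminant_pow (G : ℍ → ℂ) (m : ℕ) :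
    hol G m * (ModularForm.discriminant : ℍ → ℂ) ^ m = G := by
  funext z
  show G z / ModularForm.discriminant z ^ m * ModularForm.discriminant z ^ m = G z
  rw [div_mul_cancel₀ _ (pow_ne_zero m (ModularForm.discriminant_ne_zero z))]

theorem mdiff_discriminant : MDiff (ModularForm.discriminant : ℍ → ℂ) :=
  ModularFormClass.holo CuspForm.discriminant

theorem mdiff_hol {G : ℍ → ℂ} (hG : MDiff G) (m : ℕ) : MDiff (hol G m) := by
  have hΔ : MDiff (ModularForm.discriminant : ℍ → ℂ) := mdiff_discriminant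
  rw [UpperHalfPlane.mdifferentiable_iff] at hG hΔ ⊢
  have h : DifferentiableOn ℂ
      (fun w : ℂ => (G ∘ ofComplex) w / ((ModularForm.discriminant : ℍ → ℂ) ∘ ofComplex) w ^ m)
      {w | 0 < w.im} :=
    hG.div (hΔ.pow m) (fun w _ => pow_ne_zero m (ModularForm.discriminant_ne_zero _))
  exact h

/-- The weight-`12 m` slash of `G` is `Δ^m` times the translate of `G / Δ^m`. -/
theorem discriminant_pow_mul_hol_smul (G : ℍ → ℂ) (m : ℕ) (g : SL(2, ℤ)) (z : ℍ) :
    ModularForm.discriminant z ^ m * hol G m (g • z) = (G ∣[(12 * m : ℤ)] g) z := by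
  have hd : denom g z ≠ 0 := denom_ne_zero g z
  have hΔ : ModularForm.discriminant z ≠ 0 := ModularForm.discriminant_ne_zero z
  rw [SL_slash_apply, hol_apply, Fermat.Agent.LevelOne.discriminant_apply_smul g z]
  have e1 : denom g z ^ (12 : ℤ) = denom g z ^ (12 : ℕ) := by norm_cast
  have e2 : denom g z ^ (-(12 * (m : ℤ))) = ((denom g z ^ (12 : ℕ)) ^ m)⁻¹ := by
    rw [zpow_neg, ← pow_mul, ← zpow_natCast]
    push_cast
    rfl
  rw [e1, e2, mul_pow]
  have h12 : (denom g z ^ (12 : ℕ)) ^ m ≠ 0 := pow_ne_zero _ (pow_ne_zero _ hd)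
  have hΔm : ModularForm.discriminant z ^ m ≠ 0 := pow_ne_zero _ hΔ
  field_simp

theorem hol_smul_of_mem_MF {N : ℕ} [NeZero N] {m : ℕ} {G : ℍ → ℂ}
    (hG : G ∈ S20.MF N (12 * m)) (γ : SL(2, ℤ)) (hγ : γ ∈ CongruenceSubgroup.Gamma0 N) (z : ℍ) :
    hol G m (γ • z) = hol G m z := by
  have hinv := (S20.mem_MF_iff'.mp hG).2.1 γ hγ
  have h1 := discriminant_pow_mul_hol_smul G m γ z
  rw [hinv] at h1
  have hΔm : ModularForm.discriminant z ^ m ≠ 0 :=
    pow_ne_zero _ (ModularForm.discriminant_ne_zero z)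
  have h2 : ModularForm.discriminant z ^ m * hol G m z = G z := by
    rw [hol_apply, mul_div_cancel₀ _ hΔm]
  exact mul_left_cancel₀ hΔm (h1.trans h2.symm)

theorem isBoundedAtImInfty_hol {N : ℕ} [NeZero N] {m : ℕ} {G : ℍ → ℂ}
    (hG : G ∈ S20.MF N (12 * m)) (g : SL(2, ℤ)) :
    IsBoundedAtImInfty (fun z : ℍ => ModularForm.discriminant z ^ m * hol G m (g • z)) := by
  have h := (S20.mem_MF_iff'.mp hG).2.2 g
  have e : (fun z : ℍ => ModularForm.discriminant z ^ m * hol G m (g • z))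
      = G ∣[(12 * m : ℤ)] g := by
    funext z
    exact discriminant_pow_mul_hol_smul G m g z
  rw [e]
  exact h

/-! ### The Taylor embedding on realised elements -/

theorem discriminant_pow_mem_niceSub (m : ℕ) :
    (ModularForm.discriminant : ℍ → ℂ) ^ m ∈ S23.niceSub :=
  S23.niceSub.pow_mem S24.AnBridge.discriminant_mem_niceSub m

theorem qx_discriminant_pow (m : ℕ) :
    K.qx ((ModularForm.discriminant : ℍ → ℂ) ^ m) = K.DeltaC ^ m :=
  K.qx_pow S24.AnBridge.discriminant_mem_niceSub m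

/-- `tauC N z h` is the Taylor series at `z` of the holomorphic realisation `G / Δ^m` of `h`. -/
theorem tauC_eq_taylorAt_hol (N : ℕ) [NeZero N] (z : ℍ) (h : ↥(K.FC N)) {m : ℕ} {G : ℍ → ℂ}
    (hG : G ∈ S20.MF N (12 * m)) (hh : (h : LaurentSeries ℂ) * K.DeltaC ^ m = K.qx G) :
    TaylorMer.tauC N z h = HahnSeries.ofPowerSeries ℤ ℂ (S24.taylorAt z (hol G m)) := by
  have hGn : G ∈ S23.niceSub := K.mem_niceSub_of_mem_MF hG
  have hGm : MDiff G := hGn.2.1
  have hΔm := discriminant_pow_mem_niceSub m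
  have h1 := TaylorMer.tauC_mul_qx N z h hGn hΔm (by rw [qx_discriminant_pow]; exact hh)
  have h2 : HahnSeries.ofPowerSeries ℤ ℂ (S24.taylorAt z G)
      = HahnSeries.ofPowerSeries ℤ ℂ (S24.taylorAt z (hol G m))
        * HahnSeries.ofPowerSeries ℤ ℂ
            (S24.taylorAt z ((ModularForm.discriminant : ℍ → ℂ) ^ m)) := by
    rw [← map_mul, ← S24.taylorAt_mul z (mdiff_hol hGm m) hΔm.2.1, hol_mul_discriminant_pow]
  rw [h2] at h1
  have h0 : HahnSeries.ofPowerSeries ℤ ℂ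
      (S24.taylorAt z ((ModularForm.discriminant : ℍ → ℂ) ^ m)) ≠ 0 := by
    intro h0
    have h3 := TaylorMer.coeff_zero_ofPowerSeries_taylorAt
      ((ModularForm.discriminant : ℍ → ℂ) ^ m) z
    rw [h0, HahnSeries.coeff_zero] at h3
    exact pow_ne_zero m (ModularForm.discriminant_ne_zero z) h3.symm
  exact mul_right_cancel₀ h0 h1

theorem coeff_zero_tauC (N : ℕ) [NeZero N] (z : ℍ) (h : ↥(K.FC N)) {m : ℕ} {G : ℍ → ℂ}
    (hG : G ∈ S20.MF N (12 * m)) (hh : (h : LaurentSeries ℂ) * K.DeltaC ^ m = K.qx G) :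
    (TaylorMer.tauC N z h).coeff 0 = hol G m z := by
  rw [tauC_eq_taylorAt_hol N z h hG hh, TaylorMer.coeff_zero_ofPowerSeries_taylorAt]

/-! ### Integrality: from `F_ℂ` to `ℂ((q))` -/

/-- Integrality over `ℂ[j]` inside `F_ℂ` gives integrality over `ℂ[j]` inside `ℂ((q))`. -/
theorem isIntegral_coe (N : ℕ) [NeZero N] (x : ↥(K.FC N))
    (hx : IsIntegral (Algebra.adjoin ℂ ({TaylorMer.jF N} : Set ↥(K.FC N))) x) :
    IsIntegral (Algebra.adjoin ℂ ({K.jC} : Set (LaurentSeries ℂ))) (x : LaurentSeries ℂ) := by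
  have hmap : ∀ r : ↥(Algebra.adjoin ℂ ({TaylorMer.jF N} : Set ↥(K.FC N))),
      ((IntermediateField.val (K.FC N)).comp
        (Algebra.adjoin ℂ ({TaylorMer.jF N} : Set ↥(K.FC N))).val) r
        ∈ Algebra.adjoin ℂ ({K.jC} : Set (LaurentSeries ℂ)) := by
    intro r
    have e : (Algebra.adjoin ℂ ({TaylorMer.jF N} : Set ↥(K.FC N))).map
        (IntermediateField.val (K.FC N))
        = Algebra.adjoin ℂ ({K.jC} : Set (LaurentSeries ℂ)) := by
      rw [AlgHom.map_adjoin, Set.image_singleton]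
      rfl
    rw [← e]
    exact ⟨(r : ↥(K.FC N)), r.2, rfl⟩
  exact IsIntegral.map_of_comp_eq
    (((IntermediateField.val (K.FC N)).comp
        (Algebra.adjoin ℂ ({TaylorMer.jF N} : Set ↥(K.FC N))).val).codRestrict
      (Algebra.adjoin ℂ ({K.jC} : Set (LaurentSeries ℂ))) hmap).toRingHom
    (IntermediateField.val (K.FC N)).toRingHom (by ext r; rfl) hx

/-- Elements of `F_ℂ` integral over `ℂ[j]` are realised by holomorphic forms. -/
theorem exists_real (N : ℕ) [NeZero N] (hreal : TaylorMer.IntReal N) (x : ↥(K.FC N))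
    (hx : IsIntegral (Algebra.adjoin ℂ ({TaylorMer.jF N} : Set ↥(K.FC N))) x) :
    ∃ (m : ℕ) (G : ℍ → ℂ), G ∈ S20.MF N (12 * m) ∧
      (x : LaurentSeries ℂ) * K.DeltaC ^ m = K.qx G :=
  hreal (x : LaurentSeries ℂ) x.2 (isIntegral_coe N x hx)

/-- **(N1)** The Taylor embeddings are non-negative on the integral closure of `ℂ[j]`. -/
theorem order_tauC_nonneg (N : ℕ) [NeZero N] (hreal : TaylorMer.IntReal N) (z : ℍ)
    (x : ↥(K.FC N))
    (hx : IsIntegral (Algebra.adjoin ℂ ({TaylorMer.jF N} : Set ↥(K.FC N))) x) :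
    0 ≤ (TaylorMer.tauC N z x).order := by
  obtain ⟨m, G, hG, hh⟩ := exists_real N hreal x hx
  rw [tauC_eq_taylorAt_hol N z x hG hh]
  exact TaylorMer.order_ofPowerSeries_nonneg _

/-! ### Polynomials in `j`: formal versus analytic -/

/-- The analytic `j` as a holomorphic function. -/
def jHol : S24.holSub := ⟨Fermat.Agent.LevelOne.jFun, Fermat.Agent.LevelOne.jFun_mdifferentiable⟩

/-- Evaluation of holomorphic functions at a point. -/
def evHol (z : ℍ) : S24.holSub →+* ℂ :=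
  (Pi.evalRingHom (fun _ : ℍ => ℂ) z).comp (S24.holSub.val : S24.holSub →+* (ℍ → ℂ))

theorem evHol_apply (z : ℍ) (f : S24.holSub) : evHol z f = (f : ℍ → ℂ) z := rfl

theorem evHol_comp_aeval (z : ℍ) :
    (evHol z).comp ((Polynomial.aeval jHol : ℂ[X] →ₐ[ℂ] S24.holSub) : ℂ[X] →+* S24.holSub)
      = Polynomial.evalRingHom (Fermat.Agent.LevelOne.jFun z) := by
  apply Polynomial.ringHom_ext
  · intro a
    simp [evHol_apply]
  · simp [evHol_apply, jHol]

/-- The Taylor embedding of `F_ℂ` on polynomials in the formal `j` is the Taylor expansion of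
the same polynomial in the analytic `j`. -/
theorem tauC_comp_aeval (N : ℕ) [NeZero N] (z : ℍ) :
    (TaylorMer.tauC N z).comp
        ((Polynomial.aeval (TaylorMer.jF N) : ℂ[X] →ₐ[ℂ] ↥(K.FC N)) : ℂ[X] →+* ↥(K.FC N))
      = ((S24.taylorLaurent z : S24.holSub →ₐ[ℂ] LaurentSeries ℂ) : S24.holSub →+* LaurentSeries ℂ).comp
          ((Polynomial.aeval jHol : ℂ[X] →ₐ[ℂ] S24.holSub) : ℂ[X] →+* S24.holSub) := by
  apply Polynomial.ringHom_ext
  · intro a
    have h1 : (Polynomial.aeval (TaylorMer.jF N) : ℂ[X] →ₐ[ℂ] ↥(K.FC N)) (Polynomial.C a)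
        = algebraMap ℂ ↥(K.FC N) a := Polynomial.aeval_C _ a
    have h2 : (Polynomial.aeval jHol : ℂ[X] →ₐ[ℂ] S24.holSub) (Polynomial.C a)
        = algebraMap ℂ S24.holSub a := Polynomial.aeval_C _ a
    show TaylorMer.tauC N z ((Polynomial.aeval (TaylorMer.jF N) : ℂ[X] →ₐ[ℂ] ↥(K.FC N))
        (Polynomial.C a))
      = S24.taylorLaurent z ((Polynomial.aeval jHol : ℂ[X] →ₐ[ℂ] S24.holSub) (Polynomial.C a))
    rw [h1, h2, TaylorMer.tauC_algebraMap, AlgHom.commutes, algebraMap_laurentSeries_eq_single]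
    rfl
  · have h1 : (Polynomial.aeval (TaylorMer.jF N) : ℂ[X] →ₐ[ℂ] ↥(K.FC N)) Polynomial.X
        = TaylorMer.jF N := Polynomial.aeval_X _
    have h2 : (Polynomial.aeval jHol : ℂ[X] →ₐ[ℂ] S24.holSub) Polynomial.X = jHol :=
      Polynomial.aeval_X _
    show TaylorMer.tauC N z ((Polynomial.aeval (TaylorMer.jF N) : ℂ[X] →ₐ[ℂ] ↥(K.FC N))
        Polynomial.X)
      = S24.taylorLaurent z ((Polynomial.aeval jHol : ℂ[X] →ₐ[ℂ] S24.holSub) Polynomial.X)
    rw [h1, h2, TaylorMer.tauC_jF, S24.taylorLaurent_apply]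
    rfl

/-- **Transfer of polynomial relations** from functions to `F_ℂ`: if `P ∈ ℂ[j][X]` kills the
holomorphic realisation of `h` pointwise, then `P(h) = 0` in `F_ℂ`. -/
theorem eval₂_eq_zero_of_pointwise (N : ℕ) [NeZero N] (h : ↥(K.FC N)) {m : ℕ} {G : ℍ → ℂ}
    (hG : G ∈ S20.MF N (12 * m)) (hh : (h : LaurentSeries ℂ) * K.DeltaC ^ m = K.qx G)
    (P : Polynomial (Polynomial ℂ))
    (hP : ∀ z : ℍ,
      (P.map (Polynomial.evalRingHom (Fermat.Agent.LevelOne.jFun z))).eval (hol G m z) = 0) :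
    P.eval₂ ((Polynomial.aeval (TaylorMer.jF N) : ℂ[X] →ₐ[ℂ] ↥(K.FC N)) : ℂ[X] →+* ↥(K.FC N)) h
      = 0 := by
  have hGm : MDiff G := (S20.mem_MF_iff'.mp hG).1
  set Hs : S24.holSub := ⟨hol G m, mdiff_hol hGm m⟩ with hHs
  -- the relation holds in the ring of holomorphic functions
  have hfun : P.eval₂ ((Polynomial.aeval jHol : ℂ[X] →ₐ[ℂ] S24.holSub) : ℂ[X] →+* S24.holSub) Hs
      = 0 := by
    apply Subtype.ext
    funext z
    have h1 : evHol z (P.eval₂
        ((Polynomial.aeval jHol : ℂ[X] →ₐ[ℂ] S24.holSub) : ℂ[X] →+* S24.holSub) Hs)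
        = (P.map (Polynomial.evalRingHom (Fermat.Agent.LevelOne.jFun z))).eval (hol G m z) := by
      rw [Polynomial.hom_eval₂, evHol_comp_aeval, Polynomial.eval₂_eq_eval_map]
      rfl
    exact h1.trans (hP z)
  -- transport through the Taylor embedding at any point
  have z₀ : ℍ := UpperHalfPlane.I
  apply (TaylorMer.tauC N z₀).injective
  rw [map_zero, Polynomial.hom_eval₂, tauC_comp_aeval, tauC_eq_taylorAt_hol N z₀ h hG hh]
  have h3 : HahnSeries.ofPowerSeries ℤ ℂ (S24.taylorAt z₀ (hol G m))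
      = ((S24.taylorLaurent z₀ : S24.holSub →ₐ[ℂ] LaurentSeries ℂ) :
          S24.holSub →+* LaurentSeries ℂ) Hs := rfl
  rw [h3, ← Polynomial.hom_eval₂, hfun, map_zero]

/-! ### The cofactor -/

/-- A polynomial expression in an integral element with coefficients in `ℂ[j]` is integral. -/
theorem isIntegral_eval₂ (N : ℕ) [NeZero N] (h : ↥(K.FC N))
    (hx : IsIntegral (Algebra.adjoin ℂ ({TaylorMer.jF N} : Set ↥(K.FC N))) h)
    (Q : Polynomial (Polynomial ℂ)) :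
    IsIntegral (Algebra.adjoin ℂ ({TaylorMer.jF N} : Set ↥(K.FC N)))
      (Q.eval₂ ((Polynomial.aeval (TaylorMer.jF N) : ℂ[X] →ₐ[ℂ] ↥(K.FC N)) :
        ℂ[X] →+* ↥(K.FC N)) h) := by
  rw [Polynomial.eval₂_eq_sum_range]
  refine IsIntegral.sum _ fun i _ => ?_
  refine IsIntegral.mul ?_ (hx.pow i)
  have hmem : (Polynomial.aeval (TaylorMer.jF N) : ℂ[X] →ₐ[ℂ] ↥(K.FC N)) (Q.coeff i)
      ∈ Algebra.adjoin ℂ ({TaylorMer.jF N} : Set ↥(K.FC N)) :=
    Polynomial.aeval_mem_adjoin_singleton ℂ (TaylorMer.jF N)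
  exact isIntegral_algebraMap
    (x := (⟨_, hmem⟩ : ↥(Algebra.adjoin ℂ ({TaylorMer.jF N} : Set ↥(K.FC N)))))

/-- If `P(h) = 0` then the constant term of `P` is `h` times an integral cofactor. -/
theorem exists_cofactor (N : ℕ) [NeZero N] (h : ↥(K.FC N))
    (hx : IsIntegral (Algebra.adjoin ℂ ({TaylorMer.jF N} : Set ↥(K.FC N))) h)
    (P : Polynomial (Polynomial ℂ))
    (hP : P.eval₂ ((Polynomial.aeval (TaylorMer.jF N) : ℂ[X] →ₐ[ℂ] ↥(K.FC N)) :
      ℂ[X] →+* ↥(K.FC N)) h = 0) :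
    ∃ g : ↥(K.FC N), IsIntegral (Algebra.adjoin ℂ ({TaylorMer.jF N} : Set ↥(K.FC N))) g ∧
      Polynomial.aeval (TaylorMer.jF N) (P.coeff 0) = h * g := by
  set φ : ℂ[X] →+* ↥(K.FC N) :=
    ((Polynomial.aeval (TaylorMer.jF N) : ℂ[X] →ₐ[ℂ] ↥(K.FC N)) : ℂ[X] →+* ↥(K.FC N)) with hφ
  refine ⟨-(P.divX.eval₂ φ h), (isIntegral_eval₂ N h hx P.divX).neg, ?_⟩
  have h1 : P.divX * Polynomial.X + Polynomial.C (P.coeff 0) = P := Polynomial.divX_mul_X_add P
  have h2 : (P.divX * Polynomial.X + Polynomial.C (P.coeff 0)).eval₂ φ h = 0 := by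
    rw [h1]; exact hP
  rw [Polynomial.eval₂_add, Polynomial.eval₂_mul, Polynomial.eval₂_X, Polynomial.eval₂_C] at h2
  have h3 : φ (P.coeff 0) = -(P.divX.eval₂ φ h * h) := eq_neg_of_add_eq_zero_right h2
  show φ (P.coeff 0) = h * -(P.divX.eval₂ φ h)
  rw [h3]
  ring

/-! ### The norm -/

/-- The finite set of points over `j(z₁)`: one for each coset of `Γ₀(N)`. -/
def fibre (N : ℕ) [NeZero N] (z₁ : ℍ) : Finset ℍ :=
  (Set.finite_range (fun q : S20.Q N => (Quotient.out q)⁻¹ • z₁)).toFinset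

theorem mem_fibre_iff (N : ℕ) [NeZero N] (z₁ z : ℍ) :
    z ∈ fibre N z₁ ↔ ∃ q : S20.Q N, (Quotient.out q)⁻¹ • z₁ = z := by
  rw [fibre, Set.Finite.mem_toFinset, Set.mem_range]

theorem jFun_of_mem_fibre (N : ℕ) [NeZero N] (z₁ : ℍ) {z : ℍ} (hz : z ∈ fibre N z₁) :
    Fermat.Agent.LevelOne.jFun z = Fermat.Agent.LevelOne.jFun z₁ := by
  obtain ⟨q, rfl⟩ := (mem_fibre_iff N z₁ z).mp hz
  exact Fermat.Agent.LevelOne.jFun_smul _ _

/-- Every `SL(2, ℤ)`-translate of `z₁` is `Γ₀(N)`-equivalent to a point of the fibre. -/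
theorem exists_mem_fibre (N : ℕ) [NeZero N] (z₁ : ℍ) (g : SL(2, ℤ)) :
    ∃ z ∈ fibre N z₁, ∃ γ ∈ CongruenceSubgroup.Gamma0 N, z = γ • (g • z₁) := by
  obtain ⟨γ, hγ⟩ := QuotientGroup.mk_out_eq_mul (CongruenceSubgroup.Gamma0 N) g⁻¹
  refine ⟨(Quotient.out ((g⁻¹ : SL(2, ℤ)) : S20.Q N))⁻¹ • z₁,
    (mem_fibre_iff N z₁ _).mpr ⟨_, rfl⟩, (γ : SL(2, ℤ))⁻¹, inv_mem γ.2, ?_⟩
  rw [hγ, mul_inv_rev, inv_inv, mul_smul]

/-- **(N2)** The norm hypothesis of `EvalPlace.exists_embInduces` in the model. -/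
theorem exists_norm' (N : ℕ) [NeZero N] (hreal : TaylorMer.IntReal N) (z₁ : ℍ) :
    ∃ s : Finset ℍ,
      (∀ z ∈ s, Fermat.Agent.LevelOne.jFun z = Fermat.Agent.LevelOne.jFun z₁) ∧
      ∀ h : ↥(K.FC N),
        IsIntegral (Algebra.adjoin ℂ ({TaylorMer.jF N} : Set ↥(K.FC N))) h →
        (∀ z ∈ s, (TaylorMer.tauC N z h).coeff 0 ≠ 0) →
        ∃ c : Polynomial ℂ, c.eval (Fermat.Agent.LevelOne.jFun z₁) ≠ 0 ∧
          ∃ g : ↥(K.FC N),
            IsIntegral (Algebra.adjoin ℂ ({TaylorMer.jF N} : Set ↥(K.FC N))) g ∧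
            Polynomial.aeval (TaylorMer.jF N) c = h * g := by
  refine ⟨fibre N z₁, fun z hz => jFun_of_mem_fibre N z₁ hz, fun h hx hne => ?_⟩
  obtain ⟨m, G, hG, hh⟩ := exists_real N hreal h hx
  have hGm : MDiff G := (S20.mem_MF_iff'.mp hG).1
  obtain ⟨P, -, -, -, hroot, hconst⟩ :=
    CuspBound.exists_monic_of_invariant (Γ := CongruenceSubgroup.Gamma0 N) (hol G m)
      (mdiff_hol hGm m) (fun γ hγ z => hol_smul_of_mem_MF hG γ hγ z) m
      (fun g => isBoundedAtImInfty_hol hG g)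
  refine ⟨P.coeff 0, fun h0 => ?_, ?_⟩
  · obtain ⟨g, hg⟩ := hconst z₁ h0
    obtain ⟨z, hz, γ, hγ, rfl⟩ := exists_mem_fibre N z₁ g
    apply hne _ hz
    rw [coeff_zero_tauC N _ h hG hh, hol_smul_of_mem_MF hG γ hγ, hg]
  · refine exists_cofactor N h hx P (eval₂_eq_zero_of_pointwise N h hG hh P fun z => ?_)
    have := hroot 1 z
    rwa [one_smul] at this

/-- **(N2)**, exact consumer shape: the hypothesis `hC3` (the symmetric-function lemma
`CuspBound.exists_monic_of_bounded` at `ι := S20.Q N`) is not needed, since `CuspBound` is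
imported; it is kept so that the statement matches its consumer verbatim. -/
theorem exists_norm (N : ℕ) [NeZero N] (hreal : TaylorMer.IntReal N)
    (_hC3 : ∀ (m : ℕ) (Y : S20.Q N → ℍ → ℂ), (∀ q, MDiff (Y q)) →
      (∀ γ : SL(2, ℤ), ∃ σ : Equiv.Perm (S20.Q N), ∀ q z, Y q (γ • z) = Y (σ q) z) →
      (∀ q, IsBoundedAtImInfty (fun z : ℍ => ModularForm.discriminant z ^ m * Y q z)) →
      ∃ P : Polynomial (Polynomial ℂ), P.Monic ∧
        ∀ z : ℍ, P.map (Polynomial.evalRingHom (Fermat.Agent.LevelOne.jFun z))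
          = ∏ q, (Polynomial.X - Polynomial.C (Y q z)))
    (z₁ : ℍ) :
    ∃ s : Finset ℍ,
      (∀ z ∈ s, Fermat.Agent.LevelOne.jFun z = Fermat.Agent.LevelOne.jFun z₁) ∧
      ∀ h : ↥(K.FC N),
        IsIntegral (Algebra.adjoin ℂ ({TaylorMer.jF N} : Set ↥(K.FC N))) h →
        (∀ z ∈ s, (TaylorMer.tauC N z h).coeff 0 ≠ 0) →
        ∃ c : Polynomial ℂ, c.eval (Fermat.Agent.LevelOne.jFun z₁) ≠ 0 ∧
          ∃ g : ↥(K.FC N),
            IsIntegral (Algebra.adjoin ℂ ({TaylorMer.jF N} : Set ↥(K.FC N))) g ∧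
            Polynomial.aeval (TaylorMer.jF N) c = h * g :=
  exists_norm' N hreal z₁

end Fermat.Agent.S29.R2Norm
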