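/-
S29 block [K], [KPInv] route A — R2Place.lean (helper14; dealt by helper1, m32404480).

* `exists_place_tauC` (P2): the Taylor embedding `tauC N z : F_ℂ →+* ℂ((s))` at a point `z` of the
  upper half plane induces a place `Q` of `F_ℂ / ℂ` (with some index `e ≥ 1`), and the coordinate
  `j` is regular at `Q`.
* `coeffMap_DeltaC` (P2b), `coeffMap_jC` (P2c): the `q`-expansions of `Δ` and `j` are fixed by
  every coefficientwise ring endomorphism of `ℂ` (restated from `S29/SigmaFix.lean`).
-/
import Mathlib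
import Fermat.Agent.S24.EmbPlace
import Fermat.Agent.S29.KDefs
import Fermat.Agent.S29.JOrd
import Fermat.Agent.S29.TaylorMer
import Fermat.Agent.S29.SigmaFix

set_option autoImplicit false

namespace Fermat.Agent.S29.R2Place

open UpperHalfPlane ModularCurve AlgebraicCurve Fermat.Agent
open Fermat.Agent.S24 (EmbInduces)

/-- **(P2)** The Taylor embedding of `F_ℂ` at `z` induces a place of `F_ℂ / ℂ`, at which the
coordinate `j` is regular. -/
theorem exists_place_tauC (N : ℕ) [NeZero N] (z : ℍ) :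
    ∃ (Q : Place ℂ ↥(K.FC N)) (e : ℕ), EmbInduces (TaylorMer.tauC N z) Q e ∧
      TaylorMer.jF N ∈ Q.toValuationSubring := by
  obtain ⟨Q, e, hQ⟩ := S24.exists_place_of_emb' (K := ℂ) (TaylorMer.tauC N z)
    (TaylorMer.jF N - algebraMap ℂ ↥(K.FC N) (Fermat.Agent.LevelOne.jFun z)) (by
      rw [TaylorMer.order_tauC_jF_sub]
      exact_mod_cast (JOrd.jE_pos _).ne')
  refine ⟨Q, e, hQ, ?_⟩
  by_cases hj0 : TaylorMer.jF N = 0
  · rw [hj0]
    exact zero_mem _
  · rw [S24.EmbDefs.mem_iff_ord_nonneg Q hj0]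
    have h1 := hQ.order_eq hj0
    have h2 := TaylorMer.order_tauC_jF_nonneg N z
    rw [h1] at h2
    have he : (0 : ℤ) < (e : ℤ) := by exact_mod_cast hQ.pos
    by_contra hneg
    push Not at hneg
    have h3 : (e : ℤ) * Q.ord (TaylorMer.jF N) < 0 := mul_neg_of_pos_of_neg he hneg
    omega

/-- **(P2b)** The `q`-expansion of `Δ` is fixed by every coefficientwise ring endomorphism. -/
theorem coeffMap_DeltaC (σ : ℂ →+* ℂ) : coeffMap σ K.DeltaC = K.DeltaC :=
  SigmaFix.coeffMap_DeltaC σ

/-- **(P2c)** The formal `j` is fixed by every coefficientwise ring endomorphism. -/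
theorem coeffMap_jC (σ : ℂ →+* ℂ) : coeffMap σ K.jC = K.jC :=
  SigmaFix.coeffMap_jC σ

end Fermat.Agent.S29.R2Place
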