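/-
S29 block [K], (WE) chain, leaf **[KPInv]** — ROUTE A, closed form (helper1).

`kpInv`: for every field automorphism `σ` of `ℂ` and every natural number `p`, if `G, G'` are
holomorphic modular forms of weight `12 m` on `Γ₀(N)` with `qx G' = σ (qx G)` (coefficientwise)
and every zero order of `G` on `ℍ` is a multiple of `p`, then so is every zero order of `G'`.
(helper48's leaf statement verbatim; `p` arbitrary.)

Assembly of the order-transport route:
* `OrdTransport.forall_dvd_of_leaves` (places of `F_ℂ`, semilinear action of `Aut(ℂ)`),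
* `R2Norm` (norm hypothesis in the model), `R2Alg` (the algebra of the integral closure of
  `ℂ[j]`, every `j`-regular place is an evaluation place), `R2Place` (Taylor embeddings induce
  places),
* the dictionary `K1IntB` / `K1` / `K1IntConvFC` and `IntAlg`, `SigmaFix`, `ODed.FC_eq`.
-/
import Mathlib
import Fermat.Agent.S29.KDefs
import Fermat.Agent.S29.KBasic
import Fermat.Agent.S29.K1
import Fermat.Agent.S29.K1IntB
import Fermat.Agent.S29.K1IntConvFC
import Fermat.Agent.S29.IntAlg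
import Fermat.Agent.S29.SigmaFix
import Fermat.Agent.S29.ODed
import Fermat.Agent.S29.TaylorMer
import Fermat.Agent.S29.OrdTransport
import Fermat.Agent.S29.R2Norm
import Fermat.Agent.S29.R2Alg
import Fermat.Agent.S29.R2Place

set_option autoImplicit false

namespace Fermat.Agent.S29.KPInvA

open UpperHalfPlane ModularCurve AlgebraicCurve ModularForm Fermat.Agent
open scoped MatrixGroups Manifold

/-- Elements of `F_ℂ` integral over `ℂ[j]` are realised by holomorphic forms (from the backward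
dictionary [K1IntConv] and the pole-order bound at `j = ∞`). -/
theorem intReal (N : ℕ) [NeZero N] : TaylorMer.IntReal N := by
  intro x hx hint
  obtain ⟨m, hm⟩ := IntAlg.exists_isIntegral_inv_pow K.jC x K.K1IntB.jC_ne_zero hint
  obtain ⟨G, hG, hxG⟩ := K.exists_form_of_isIntegral m hx hint hm
  exact ⟨m, G, hG, hxG⟩

/-- Leaf `R2Norm`, closed. -/
theorem normStatement (N : ℕ) [NeZero N] : OrdTransport.NormStatement N :=
  fun z₁ => R2Norm.exists_norm' N (intReal N) z₁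

/-- Leaf `R2Alg`, closed. -/
theorem algStatement (N : ℕ) [NeZero N] : OrdTransport.AlgStatement N :=
  fun Q hQ => R2Alg.exists_embInduces_FC N (ODed.FC_eq N) (TaylorMer.tauC N)
    (fun z x hx => R2Norm.order_tauC_nonneg N (intReal N) z x hx)
    (fun z c => TaylorMer.tauC_algebraMap N z c) Q hQ

/-- Leaf `R2Place`, closed. -/
theorem placeStatement (N : ℕ) [NeZero N] : OrdTransport.PlaceStatement N :=
  fun z => R2Place.exists_place_tauC N z

/-- **Order transport under `Aut(ℂ)`**, closed form: every zero of `G'` on `ℍ` has the order of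
a zero of `G`, at a point whose `j`-value is the `σ`-preimage. -/
theorem exists_analyticOrderAt_eq (N : ℕ) [NeZero N] (σ : ℂ ≃+* ℂ) (m : ℕ) {G G' : ℍ → ℂ}
    (hG : G ∈ S20.MF N (12 * m)) (hG' : G' ∈ S20.MF N (12 * m))
    (hq : K.qx G' = coeffMap (σ : ℂ →+* ℂ) (K.qx G)) (z₁ : ℍ) :
    ∃ z : ℍ, LevelOne.jFun z₁ = σ (LevelOne.jFun z) ∧
      analyticOrderAt (fun w : ℂ => G' (ofComplex w)) (z₁ : ℂ)
        = analyticOrderAt (fun w : ℂ => G (ofComplex w)) (z : ℂ) := by
  have hΔm : K.DeltaC ^ m ≠ 0 := pow_ne_zero m K.DeltaC_ne_zero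
  have hxG : K.qx G * (K.DeltaC ^ m)⁻¹ * K.DeltaC ^ m = K.qx G := by
    rw [mul_assoc, inv_mul_cancel₀ hΔm, mul_one]
  have hxG' : K.qx G' * (K.DeltaC ^ m)⁻¹ * K.DeltaC ^ m = K.qx G' := by
    rw [mul_assoc, inv_mul_cancel₀ hΔm, mul_one]
  have hx : K.qx G * (K.DeltaC ^ m)⁻¹ ∈ K.FC N :=
    K.mem_Mchi_one_iff.mp (K.K1IntB.mem_Mchi_one_of_form m hG hxG)
  have hσ : K.qx G' * (K.DeltaC ^ m)⁻¹
      = coeffMap ((SigmaFix.toRatAlgEquiv σ : ℂ ≃ₐ[ℚ] ℂ) : ℂ →+* ℂ)
          (K.qx G * (K.DeltaC ^ m)⁻¹) := by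
    rw [SigmaFix.coe_toRatAlgEquiv, map_mul, map_inv₀, map_pow, SigmaFix.coeffMap_DeltaC, hq]
  obtain ⟨z, hz, hord⟩ := OrdTransport.exists_analyticOrderAt_eq_of_leaves N (normStatement N)
    (algStatement N) (placeStatement N) (SigmaFix.toRatAlgEquiv σ) m hG hG' hx hxG hxG' hσ z₁
  exact ⟨z, hz, hord⟩

/-- **[KPInv]** (helper48's leaf, verbatim; `p` arbitrary). -/
theorem kpInv (N : ℕ) [NeZero N] (p : ℕ) (σ : ℂ ≃+* ℂ) (m : ℕ) (G G' : ℍ → ℂ)
    (hG : G ∈ S20.MF N (12 * m)) (hG' : G' ∈ S20.MF N (12 * m)) (_hG0 : G ≠ 0)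
    (hq : K.qx G' = coeffMap (σ : ℂ →+* ℂ) (K.qx G))
    (hord : ∀ z₀ : ℍ, ∃ n : ℕ,
      analyticOrderAt (fun z : ℂ => G (ofComplex z)) (z₀ : ℂ) = ((p * n : ℕ) : ℕ∞)) :
    ∀ z₀ : ℍ, ∃ n : ℕ,
      analyticOrderAt (fun z : ℂ => G' (ofComplex z)) (z₀ : ℂ) = ((p * n : ℕ) : ℕ∞) := by
  intro z₁
  obtain ⟨z, -, hz⟩ := exists_analyticOrderAt_eq N σ m hG hG' hq z₁
  obtain ⟨n, hn⟩ := hord z
  exact ⟨n, by rw [hz, hn]⟩

end Fermat.Agent.S29.KPInvA
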