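/-
S29 block [K] — KRelAbs.lean (helper99).  The formal last step of [K]: a *graph*
`R : Lpar N → JZero N → Prop` of the comparison map which is total, single-valued, additive,
`p`-torsion valued, with kernel in `p · Lpar N` and compatible with the Hecke operators yields
`KStatement N p` (`S29/Defs.lean`).  In the route, `R u x` is "some witness `y` of the character
`γ ↦ ζ_p ^ (u γ)` has `x = [(1/p) · div (y ^ p)]`".
-/
import Fermat.Agent.S29.Defs

set_option autoImplicit false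

namespace Fermat.Agent.S29.KRelAbs

open ModularCurve
open Fermat.Agent.S41 (Lpar)

/-- **[K] from the graph of `θ`.** -/
theorem kStatement_of_rel (N p : ℕ) [NeZero N] (R : Lpar N → JZero N → Prop)
    (hex : ∀ u, ∃ x, R u x)
    (huniq : ∀ u x x', R u x → R u x' → x = x')
    (hadd : ∀ u u' x x', R u x → R u' x' → R (u + u') (x + x'))
    (htors : ∀ u x, R u x → p • x = 0)
    (hker : ∀ u, R u 0 → ∃ z : Lpar N, u = (p : ℤ) • z)
    (hhecke : ∀ (ℓ : ℕ) (hℓ : ℓ.Prime) (hℓN : ¬ ℓ ∣ N), ℓ ≠ p → ∀ u x, R u x →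
      R (heckeLpar N ℓ hℓ hℓN u) (heckeOperatorBar N ⟨ℓ, hℓ⟩ x)) :
    KStatement N p := by
  choose θ hθ using hex
  refine ⟨AddMonoidHom.mk' θ fun u u' =>
    huniq _ _ _ (hθ (u + u')) (hadd u u' _ _ (hθ u) (hθ u')), ?_, ?_, ?_⟩
  · intro u
    exact htors u _ (hθ u)
  · intro u hu
    apply hker u
    have h := hθ u
    rw [AddMonoidHom.mk'_apply] at hu
    rwa [hu] at h
  · intro ℓ hℓ hℓN hℓp u
    exact huniq _ _ _ (hθ _) (hhecke ℓ hℓ hℓN hℓp u _ (hθ u))

end Fermat.Agent.S29.KRelAbs
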