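/-
S29 block [K], row [KSigma] — KSigma.lean (A = helper18; dealt by helper16, Rulings #1/#2).

σ-STABILITY of the family `V(χ')`, `χ' ^ p = 1`, `χ'(T) = 1` (hypothesis `hsig` of
`KDesc.exists_rational_mem_Vchi`), in HYPOTHESIS FORM: the only input is the net statement
[STAB] (`coeffMap_root_form`, helper16's Ruling #1, for `m := p`), taken as `hstab`.

* `exists_order_of_ofPowerSeries_eq_pow` : a power series which is a `p`-th power in `ℂ((q))`
                                           has order divisible by `p`;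
* `exists_analyticOrderAt_pow`           : the orders of `F ^ p` on `ℍ` are `p ·` those of `F`;
* `exists_mem_Vchi_coeffMap_of_stab`     : [KSigma] for one `σ : ℂ ≃+* ℂ` from [STAB] for `σ`;
* `hsig_of_stab`                         : the same in the exact shape of `KDesc`'s `hsig`.

Chain: `w · Δ = qx F`, `F ∈ MFchi N 12 χ`, `F ≠ 0`; `G := F ^ p ∈ MF N (12p)`, `x := w ^ p`,
`x · Δ ^ p = qx G`, `ord_z G = p · ord_z F`; [STAB] gives `G' ∈ MF N (12p)` with
`σx · Δ ^ p = qx G'` and `p ∣ ord_z G'`; the `q`-order of `G'` is `p · ord (σw · Δ)`;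
`RootForm.exists_root_qx` gives `χ'`, `F'` with `(qx F') ^ p = qx G' = (σw · Δ) ^ p`;
`RootChar.exists_mul_laurent` gives `σw · Δ = qx (ζ • F')`.
-/
import Mathlib
import Fermat.Agent.S24.AnDefs
import Fermat.Agent.S29.KDefs
import Fermat.Agent.S29.KBasic
import Fermat.Agent.S29.RootForm

set_option autoImplicit false

namespace Fermat.Agent.S29.KSigma

open UpperHalfPlane ModularForm CongruenceSubgroup ModularCurve Fermat.Agent.S24
  Fermat.Agent.S29.K
open scoped MatrixGroups ModularForm Manifold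

/-- A nonzero power series which is a `p`-th power in the field of Laurent series has order
divisible by `p`. -/
theorem exists_order_of_ofPowerSeries_eq_pow {p : ℕ} (hp : p ≠ 0) {P : PowerSeries ℂ}
    (hP : P ≠ 0) {A : LaurentSeries ℂ} (h : HahnSeries.ofPowerSeries ℤ ℂ P = A ^ p) :
    ∃ m : ℕ, P.order = ((p * m : ℕ) : ℕ∞) := by
  -- the order of `P` as a natural number
  obtain ⟨k, hk⟩ : ∃ k : ℕ, P.order = (k : ℕ∞) := by
    have h1 : P.order ≠ ⊤ := fun h1 => hP (PowerSeries.order_eq_top.mp h1)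
    exact ⟨P.order.toNat, (ENat.natCast_toNat h1).symm⟩
  have hk' := PowerSeries.order_eq_nat.mp hk
  -- the Hahn series order of `ofPowerSeries P` is `k`
  have hord : (HahnSeries.ofPowerSeries ℤ ℂ P).order = (k : ℤ) := by
    have hne : HahnSeries.ofPowerSeries ℤ ℂ P ≠ 0 := by
      intro h0
      apply hP
      apply HahnSeries.ofPowerSeries_injective (Γ := ℤ)
      rw [h0, map_zero]
    apply le_antisymm
    · apply HahnSeries.order_le_of_coeff_ne_zero
      rw [PowerSeries.coeff_coe]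
      simpa using hk'.1
    · by_contra hlt
      rw [not_le] at hlt
      have h2 : (HahnSeries.ofPowerSeries ℤ ℂ P).coeff (HahnSeries.ofPowerSeries ℤ ℂ P).order ≠ 0 :=
        fun h0 => hne (HahnSeries.coeff_order_eq_zero.mp h0)
      rw [PowerSeries.coeff_coe] at h2
      by_cases hneg : (HahnSeries.ofPowerSeries ℤ ℂ P).order < 0
      · rw [if_pos hneg] at h2
        exact h2 rfl
      · rw [if_neg hneg] at h2
        apply h2
        apply hk'.2
        omega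
  rw [h, HahnSeries.order_pow] at hord
  have hA : 0 ≤ A.order := by
    by_contra hneg
    rw [not_le] at hneg
    have h3 : p • A.order < 0 := by
      rw [nsmul_eq_mul]
      exact mul_neg_of_pos_of_neg (by exact_mod_cast Nat.pos_of_ne_zero hp) hneg
    omega
  refine ⟨A.order.toNat, ?_⟩
  rw [hk]
  have h4 : (k : ℤ) = ((p * A.order.toNat : ℕ) : ℤ) := by
    rw [← hord, nsmul_eq_mul]
    push_cast
    rw [Int.toNat_of_nonneg hA]
  exact_mod_cast h4

/-- The analytic orders of `F ^ p` on `ℍ` are `p` times natural numbers (`F ≠ 0` holomorphic). -/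
theorem exists_analyticOrderAt_pow (p : ℕ) {F : ℍ → ℂ} (hF : MDiff F) (hF0 : F ≠ 0) (z : ℍ) :
    ∃ k : ℕ, analyticOrderAt (fun u : ℂ => (F ^ p) (ofComplex u)) (z : ℂ) = ((p * k : ℕ) : ℕ∞) := by
  have h1 := order_taylorAt (hF.pow p) z
  have h2 : taylorAt z (F ^ p) = taylorAt z F ^ p :=
    map_pow (taylorHom z) (⟨F, hF⟩ : holSub) p
  have h3 : (taylorAt z F).order ≠ ⊤ :=
    PthRoot.order_taylorHom_ne_top z (a := ⟨F, hF⟩) (fun h => hF0 (congrArg Subtype.val h))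
  refine ⟨(taylorAt z F).order.toNat, ?_⟩
  rw [← h1, h2, PowerSeries.order_pow]
  conv_lhs => rw [← ENat.natCast_toNat h3]
  push_cast
  rw [nsmul_eq_mul]

/-- **[KSigma], hypothesis form** (one automorphism `σ`).  `hstab` is [STAB]
(`coeffMap_root_form`, `m := p`) for this `σ`. -/
theorem exists_mem_Vchi_coeffMap_of_stab (N p : ℕ) [NeZero N] (hp : p ≠ 0) (σ : ℂ ≃+* ℂ)
    (hstab : ∀ (x : LaurentSeries ℂ) (G : ℍ → ℂ), G ∈ S20.MF N (12 * p) →
      x * DeltaC ^ p = qx G →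
      (∀ z : ℍ, ∃ k : ℕ,
        analyticOrderAt (fun u : ℂ => G (ofComplex u)) (z : ℂ) = ((p * k : ℕ) : ℕ∞)) →
      ∃ G' : ℍ → ℂ, G' ∈ S20.MF N (12 * p) ∧
        coeffMap (σ : ℂ →+* ℂ) x * DeltaC ^ p = qx G' ∧
        ∀ z : ℍ, ∃ k : ℕ,
          analyticOrderAt (fun u : ℂ => G' (ofComplex u)) (z : ℂ) = ((p * k : ℕ) : ℕ∞))
    (χ : ↥(Gamma0 N) →* ℂˣ) (hχp : χ ^ p = 1) (hχT : χ (TG N) = 1) {w : LaurentSeries ℂ}
    (hw : w ∈ Vchi N χ) :
    ∃ χ' : ↥(Gamma0 N) →* ℂˣ, χ' ^ p = 1 ∧ χ' (TG N) = 1 ∧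
      coeffMap (σ : ℂ →+* ℂ) w ∈ Vchi N χ' := by
  obtain ⟨F, hF, hwF⟩ := hw
  by_cases hF0 : F = 0
  · -- `w = 0`
    subst hF0
    rw [qx_zero] at hwF
    have hw0 : w = 0 := by
      rcases mul_eq_zero.mp hwF with h | h
      · exact h
      · exact absurd h DeltaC_ne_zero
    refine ⟨χ, hχp, hχT, ?_⟩
    rw [hw0, map_zero]
    exact ⟨0, Submodule.zero_mem _, by rw [zero_mul, qx_zero]⟩
  · have hFnice : F ∈ S23.niceSub := mem_niceSub_of_mem_MFchi hχT hF
    have hFhol : MDiff F := hF.1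
    -- `G := F ^ p`
    have hG : F ^ p ∈ S20.MF N (12 * p) := by
      have h1 := pow_mem_MFchi hF p
      rw [hχp] at h1
      have h2 : F ^ p ∈ MFchi N (12 * (p : ℤ)) 1 := MFchi_congr_weight (mul_comm _ _) h1
      exact mem_MFchi_one_iff.mp h2
    have hx : w ^ p * DeltaC ^ p = qx (F ^ p) := by
      rw [qx_pow hFnice, ← mul_pow, hwF]
    obtain ⟨G', hG', hxG', hord'⟩ := hstab (w ^ p) (F ^ p) hG hx
      (fun z => exists_analyticOrderAt_pow p hFhol hF0 z)
    -- `qx G' = (σw · Δ) ^ p`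
    have hqG' : qx G' = (coeffMap (σ : ℂ →+* ℂ) w * DeltaC) ^ p := by
      rw [← hxG', map_pow, mul_pow]
    have hw0 : w ≠ 0 := by
      rintro rfl
      rw [zero_mul] at hwF
      exact hF0 ((qx_eq_zero_iff hFnice).mp hwF.symm)
    have hσw0 : coeffMap (σ : ℂ →+* ℂ) w ≠ 0 := by
      intro h
      apply hw0
      have hinj : Function.Injective (coeffMap (σ : ℂ →+* ℂ)) := RingHom.injective _
      exact hinj (by rw [h, map_zero])
    have hqG'0 : qx G' ≠ 0 := by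
      rw [hqG']
      exact pow_ne_zero p (mul_ne_zero hσw0 DeltaC_ne_zero)
    have hG'0 : G' ≠ 0 := by
      rintro rfl
      exact hqG'0 qx_zero
    have hP0 : qExpansion 1 G' ≠ 0 := by
      intro h
      apply hqG'0
      unfold qx
      rw [h, map_zero]
    have hinf : ∃ m : ℕ, (qExpansion 1 G').order = ((p * m : ℕ) : ℕ∞) :=
      exists_order_of_ofPowerSeries_eq_pow hp hP0 hqG'
    -- the root
    have hG'' : G' ∈ S20.MF N ((p : ℤ) * 12) := by
      have e : (12 * (p : ℤ)) = (p : ℤ) * 12 := mul_comm _ _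
      exact e ▸ hG'
    obtain ⟨χ', F', hχ'p, hχ'T, hF', -, hqF'⟩ :=
      RootForm.exists_root_qx hp hG'' hG'0 hord' hinf
    have hF'nice : F' ∈ S23.niceSub := mem_niceSub_of_mem_MFchi hχ'T hF'
    -- `(σw · Δ) ^ p = (qx F') ^ p`
    obtain ⟨ζ, -, hζ⟩ := RootChar.exists_mul_laurent hp
      (A := coeffMap (σ : ℂ →+* ℂ) w * DeltaC) (B := qx F') (by rw [hqF', hqG'])
    refine ⟨χ', hχ'p, hχ'T, ζ • F', Submodule.smul_mem _ ζ hF', ?_⟩
    rw [hζ, qx_smul ζ hF'nice, HahnSeries.C_mul_eq_smul]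

/-- **[KSigma]** in the exact shape of the hypothesis `hsig` of
`KDesc.exists_rational_mem_Vchi` (the `ℚ̄`-algebra structure on `ℂ` is `S24.algKC`), from
[STAB] (`coeffMap_root_form` with `m := p`) for all ring automorphisms of `ℂ`. -/
theorem hsig_of_stab (N p : ℕ) [NeZero N] (hp : p ≠ 0)
    (hstab : ∀ (σ : ℂ ≃+* ℂ) (x : LaurentSeries ℂ) (G : ℍ → ℂ), G ∈ S20.MF N (12 * p) →
      x * DeltaC ^ p = qx G →
      (∀ z : ℍ, ∃ k : ℕ,
        analyticOrderAt (fun u : ℂ => G (ofComplex u)) (z : ℂ) = ((p * k : ℕ) : ℕ∞)) →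
      ∃ G' : ℍ → ℂ, G' ∈ S20.MF N (12 * p) ∧
        coeffMap (σ : ℂ →+* ℂ) x * DeltaC ^ p = qx G' ∧
        ∀ z : ℍ, ∃ k : ℕ,
          analyticOrderAt (fun u : ℂ => G' (ofComplex u)) (z : ℂ) = ((p * k : ℕ) : ℕ∞)) :
    ∀ (σ : ℂ ≃ₐ[AlgebraicClosure ℚ] ℂ) (χ : ↥(Gamma0 N) →* ℂˣ), χ ^ p = 1 →
      χ (TG N) = 1 → ∀ w ∈ Vchi N χ, ∃ χ' : ↥(Gamma0 N) →* ℂˣ, χ' ^ p = 1 ∧ χ' (TG N) = 1 ∧
        coeffMap ((σ : ℂ ≃ₐ[AlgebraicClosure ℚ] ℂ) : ℂ →+* ℂ) w ∈ Vchi N χ' := by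
  intro σ χ hχp hχT w hw
  exact exists_mem_Vchi_coeffMap_of_stab N p hp (σ : ℂ ≃+* ℂ) (hstab (σ : ℂ ≃+* ℂ)) χ hχp hχT hw

end Fermat.Agent.S29.KSigma
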