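import Fermat.Agent.S29.JOrd

/-!
# S29 block [K]: the splitting condition `Split_p` (pure algebra)

For `c : ℂ` let `jE c` (from `JOrd`) be `3`, `2`, `1` according to `c = 0`, `c = 1728`, otherwise,
and let `iota c : ℂ[j] →+* ℂ⟦s⟧` be `j ↦ c + s ^ jE c`.  A polynomial `F ∈ ℂ[j][Y]` satisfies
`SplitP p F` when, for every `c`, the polynomial `F^{iota c}(Y ^ p) ∈ ℂ⟦s⟧[Y]` splits.

* `splitP_map` : the condition is invariant under every field automorphism of `ℂ`
  (applied to the coefficients);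
* `splits_comp_of_prod` : `∏ (Y - v i ^ p)` becomes split after `Y ↦ Y ^ p` (forward direction);
* `exists_pow_eq_of_root` : every root of `F^{iota c}` in `ℂ⟦s⟧` is a `p`-th power (backward
  direction), hence has order divisible by `p` (`dvd_order_of_root`).
-/

set_option autoImplicit false

namespace Fermat.Agent.S29.SplitAlg

open Polynomial

noncomputable section

/-- `iota c : ℂ[j] →+* ℂ⟦s⟧`, `j ↦ c + s ^ JOrd.jE c`. -/
def iota (c : ℂ) : ℂ[X] →+* PowerSeries ℂ :=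
  eval₂RingHom (PowerSeries.C (R := ℂ)) (PowerSeries.C c + PowerSeries.X ^ JOrd.jE c)

@[simp] theorem iota_C (c a : ℂ) : iota c (C a) = PowerSeries.C a := by
  rw [iota]
  exact eval₂_C _ _

@[simp] theorem iota_X (c : ℂ) : iota c X = PowerSeries.C c + PowerSeries.X ^ JOrd.jE c := by
  rw [iota]
  exact eval₂_X _ _

/-- A ring hom `ℂ[j] →+* ℂ⟦s⟧` that is `PowerSeries.C` on constants and sends `j` to
`c + s ^ JOrd.jE c` is `iota c`. -/
theorem eq_iota {c : ℂ} {φ : ℂ[X] →+* PowerSeries ℂ} (hC : ∀ a : ℂ, φ (C a) = PowerSeries.C a)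
    (hX : φ X = PowerSeries.C c + PowerSeries.X ^ JOrd.jE c) : φ = iota c := by
  apply Polynomial.ringHom_ext
  · intro a
    rw [hC, iota_C]
  · rw [hX, iota_X]

/-- The splitting condition `Split_p`. -/
def SplitP (p : ℕ) (F : ℂ[X][X]) : Prop :=
  ∀ c : ℂ, ((F.map (iota c)).comp (X ^ p)).Splits

theorem map_comp_iota (σ : ℂ ≃+* ℂ) (c : ℂ) :
    (PowerSeries.map (σ : ℂ →+* ℂ)).comp (iota c) =
      (iota (σ c)).comp (mapRingHom (σ : ℂ →+* ℂ)) := by
  apply Polynomial.ringHom_ext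
  · intro a
    simp
  · have hj : JOrd.jE (σ c) = JOrd.jE c := JOrd.jE_map (σ : ℂ →+* ℂ) c
    simp [hj]

/-- **σ-invariance.** `Split_p` is stable under field automorphisms of `ℂ` acting on the
coefficients. -/
theorem splitP_map (p : ℕ) (σ : ℂ ≃+* ℂ) {F : ℂ[X][X]} (h : SplitP p F) :
    SplitP p (F.map (mapRingHom (σ : ℂ →+* ℂ))) := by
  intro c'
  have hc : σ (σ.symm c') = c' := σ.apply_symm_apply c'
  have key : ((F.map (mapRingHom (σ : ℂ →+* ℂ))).map (iota c')).comp (X ^ p) =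
      (((F.map (iota (σ.symm c'))).comp (X ^ p))).map (PowerSeries.map (σ : ℂ →+* ℂ)) := by
    rw [Polynomial.map_comp, Polynomial.map_pow, Polynomial.map_X, Polynomial.map_map,
      Polynomial.map_map, map_comp_iota, hc]
  rw [key]
  exact (h (σ.symm c')).map _

/-- The constant power series `exp (2πi/p)` is a primitive `p`-th root of unity in `ℂ⟦s⟧`. -/
theorem isPrimitiveRoot_C (p : ℕ) (hp : 0 < p) :
    IsPrimitiveRoot (PowerSeries.C (R := ℂ) (Complex.exp (2 * Real.pi * Complex.I / p))) p :=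
  (Complex.isPrimitiveRoot_exp p hp.ne').map_of_injective (PowerSeries.C_injective)

/-- `Y ^ p - v ^ p` splits over `ℂ⟦s⟧`. -/
theorem splits_X_pow_sub_C_pow (p : ℕ) (hp : 0 < p) (v : PowerSeries ℂ) :
    (X ^ p - C (v ^ p) : (PowerSeries ℂ)[X]).Splits := by
  rw [X_pow_sub_C_eq_prod (isPrimitiveRoot_C p hp) hp rfl]
  exact Splits.prod fun i _ => Splits.X_sub_C _

/-- **Forward direction (algebraic core).** `∏ (Y - v i ^ p)` splits after `Y ↦ Y ^ p`. -/
theorem splits_comp_of_prod (p : ℕ) (hp : 0 < p) {ι : Type*} (s : Finset ι)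
    (v : ι → PowerSeries ℂ) :
    ((∏ i ∈ s, (X - C (v i ^ p)) : (PowerSeries ℂ)[X]).comp (X ^ p)).Splits := by
  have e : (∏ i ∈ s, (X - C (v i ^ p)) : (PowerSeries ℂ)[X]).comp (X ^ p) =
      ∏ i ∈ s, (X ^ p - C (v i ^ p)) := by
    rw [Polynomial.prod_comp]
    refine Finset.prod_congr rfl fun i _ => ?_
    simp
  rw [e]
  exact Splits.prod fun i _ => splits_X_pow_sub_C_pow p hp (v i)

/-- **Backward direction (algebraic core).** If `F` is monic with `Split_p(F)`, every root of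
`F^{iota c}` in `ℂ⟦s⟧` is a `p`-th power. -/
theorem exists_pow_eq_of_root (p : ℕ) (hp : 0 < p) {F : ℂ[X][X]} (hF : F.Monic)
    (h : SplitP p F) (c : ℂ) (ξ : PowerSeries ℂ) (hξ : (F.map (iota c)).eval ξ = 0) :
    ∃ r : PowerSeries ℂ, r ^ p = ξ := by
  set G : (PowerSeries ℂ)[X] := F.map (iota c) with hG
  have hGm : G.Monic := hF.map _
  have hdvd : (X - C ξ) ∣ G := dvd_iff_isRoot.mpr hξ
  have hXp : (X ^ p : (PowerSeries ℂ)[X]).Monic := monic_X_pow p
  have hXdeg : (X ^ p : (PowerSeries ℂ)[X]).natDegree ≠ 0 := by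
    rw [natDegree_X_pow]
    exact hp.ne'
  have hne : G.comp (X ^ p) ≠ 0 := (hGm.comp hXp hXdeg).ne_zero
  have hdvd' : (X ^ p - C ξ : (PowerSeries ℂ)[X]) ∣ G.comp (X ^ p) := by
    obtain ⟨H, hH⟩ := hdvd
    refine ⟨H.comp (X ^ p), ?_⟩
    rw [hH, mul_comp]
    simp
  have hs : (X ^ p - C ξ : (PowerSeries ℂ)[X]).Splits := (h c).of_dvd hne hdvd'
  have hdeg : (X ^ p - C ξ : (PowerSeries ℂ)[X]).degree ≠ 0 := by
    rw [degree_X_pow_sub_C hp]
    exact_mod_cast hp.ne'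
  obtain ⟨r, hr⟩ := hs.exists_eval_eq_zero hdeg
  refine ⟨r, ?_⟩
  simpa [sub_eq_zero] using hr

/-- **Backward direction, order form.** The order of every root of `F^{iota c}` in `ℂ⟦s⟧` is a
multiple of `p`. -/
theorem dvd_order_of_root (p : ℕ) (hp : 0 < p) {F : ℂ[X][X]} (hF : F.Monic)
    (h : SplitP p F) (c : ℂ) (ξ : PowerSeries ℂ) (hξ : (F.map (iota c)).eval ξ = 0) :
    ∃ k : ℕ∞, ξ.order = p * k := by
  obtain ⟨r, rfl⟩ := exists_pow_eq_of_root p hp hF h c ξ hξ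
  exact ⟨r.order, by rw [PowerSeries.order_pow, nsmul_eq_mul]⟩

end

end Fermat.Agent.S29.SplitAlg
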