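import Mathlib
import Fermat.Agent.S24.AnDefs
import Fermat.Agent.S24.AnTaylor
import Fermat.Agent.S24.AnTaylorHom
import Fermat.Agent.S24.AnTaylorOrd
import Fermat.Agent.S29.JOrd

/-!
# S29 block [K]: the uniformised Taylor homomorphism at a point of `ℍ`

OWNER: helper38 (only the owner edits this file).

For `z₀ : ℍ` let `e := jE (j z₀)` be the local order of `j - j z₀` at `z₀` (`3`, `2` or `1`).
There is a `ℂ`-algebra homomorphism `τ : holSub → ℂ⟦X⟧` (the Taylor expansion in a local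
coordinate `s` at `z₀` with `j = j z₀ + s ^ e`) such that

* `τ j = C (j z₀) + X ^ e`,
* `order (τ f) = ord_{z₀} f` for every holomorphic `f`.

Generic part: `exists_unif` (an analytic germ of order `e ≥ 1` at `0` is `s ^ e` in a suitable
analytic local coordinate) and the Taylor series `gT` of analytic germs at `0`.
-/

set_option autoImplicit false

noncomputable section

namespace Fermat.Agent.S29.UnifTaylor

open UpperHalfPlane Filter Topology Fermat.Agent.LevelOne Fermat.Agent.S24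
open scoped Manifold Nat

/-! ### Uniformising an analytic germ -/

/-- An analytic germ `g` of finite order `e ≥ 1` at `0` is the `e`-th power of an analytic
local coordinate: there is `ψ` analytic at `0`, `ψ 0 = 0`, `ψ' 0 ≠ 0`, with `g (ψ s) = s ^ e`
near `0`. -/
theorem exists_unif {g : ℂ → ℂ} (hg : AnalyticAt ℂ g 0) {e : ℕ} (he : 0 < e)
    (hord : analyticOrderAt g 0 = (e : ℕ∞)) :
    ∃ ψ : ℂ → ℂ, AnalyticAt ℂ ψ 0 ∧ ψ 0 = 0 ∧ deriv ψ 0 ≠ 0 ∧
      ∀ᶠ s in 𝓝 (0 : ℂ), g (ψ s) = s ^ e := by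
  obtain ⟨u, hu, hu0, hgu⟩ := hg.analyticOrderAt_eq_natCast.mp hord
  obtain ⟨c₀, hc₀⟩ := IsAlgClosed.exists_pow_nat_eq (u 0) he
  have hc₀0 : c₀ ≠ 0 := by
    intro h
    rw [h, zero_pow he.ne'] at hc₀
    exact hu0 hc₀.symm
  have he0 : (e : ℂ) ≠ 0 := Nat.cast_ne_zero.mpr he.ne'
  -- the `e`-th root of `u` near `0`
  have hq : AnalyticAt ℂ (fun w => u w / u 0) 0 := hu.div analyticAt_const hu0
  have hq1 : (fun w => u w / u 0) 0 ∈ Complex.slitPlane := by
    show u 0 / u 0 ∈ Complex.slitPlane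
    rw [div_self hu0]
    exact Complex.one_mem_slitPlane
  have hl : AnalyticAt ℂ (fun w => Complex.log (u w / u 0)) 0 := hq.clog hq1
  have hv : AnalyticAt ℂ (fun w => c₀ * Complex.exp (Complex.log (u w / u 0) / e)) 0 :=
    analyticAt_const.mul (hl.div analyticAt_const he0).cexp'
  set v : ℂ → ℂ := fun w => c₀ * Complex.exp (Complex.log (u w / u 0) / e) with hvdef
  have hv0 : v 0 = c₀ := by
    simp only [hvdef]
    rw [div_self hu0, Complex.log_one, zero_div, Complex.exp_zero, mul_one]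
  have hvpow : ∀ᶠ w in 𝓝 (0 : ℂ), v w ^ e = u w := by
    filter_upwards [hu.continuousAt.eventually_ne hu0] with w hw
    simp only [hvdef]
    rw [mul_pow, hc₀, ← Complex.exp_nat_mul, mul_div_cancel₀ _ he0,
      Complex.exp_log (div_ne_zero hw hu0), mul_div_cancel₀ _ hu0]
  -- the local coordinate `ph w = w * v w`
  set ph : ℂ → ℂ := fun w => w * v w with hphdef
  have hph : AnalyticAt ℂ ph 0 := analyticAt_id.mul hv
  have hph0 : ph 0 = 0 := by simp [hphdef]
  have hphd : HasDerivAt ph c₀ 0 := by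
    have h1 := (hasDerivAt_id (0 : ℂ)).mul hv.differentiableAt.hasDerivAt
    simp only [id_eq, one_mul, zero_mul, add_zero] at h1
    rw [hv0] at h1
    exact h1
  have hphd' : deriv ph 0 ≠ 0 := by
    rw [hphd.deriv]
    exact hc₀0
  have hphpow : ∀ᶠ w in 𝓝 (0 : ℂ), ph w ^ e = g w := by
    filter_upwards [hvpow, hgu] with w h1 h2
    rw [h2, sub_zero, smul_eq_mul, ← h1]
    simp only [hphdef]
    rw [mul_pow]
  -- the local inverse
  set ψ : ℂ → ℂ := hph.hasStrictDerivAt.localInverse ph (deriv ph 0) 0 hphd' with hψdef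
  have hψ : AnalyticAt ℂ ψ (ph 0) := hph.analyticAt_localInverse hphd'
  rw [hph0] at hψ
  have hψ0 : ψ 0 = 0 := by
    have h1 : ψ (ph 0) = 0 := HasStrictFDerivAt.localInverse_apply_image ..
    rwa [hph0] at h1
  have hψd : HasStrictDerivAt ψ (deriv ph 0)⁻¹ (ph 0) :=
    hph.hasStrictDerivAt.to_localInverse hphd'
  rw [hph0] at hψd
  have hright : ∀ᶠ s in 𝓝 (ph 0), ph (ψ s) = s :=
    hph.hasStrictDerivAt.eventually_right_inverse hphd'
  rw [hph0] at hright
  refine ⟨ψ, hψ, hψ0, ?_, ?_⟩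
  · rw [hψd.hasDerivAt.deriv]
    exact inv_ne_zero hphd'
  · have hcont : ∀ᶠ s in 𝓝 (0 : ℂ), ph (ψ s) ^ e = g (ψ s) := by
      have h1 : Tendsto ψ (𝓝 0) (𝓝 (ψ 0)) := hψ.continuousAt
      rw [hψ0] at h1
      exact h1.eventually hphpow
    filter_upwards [hcont, hright] with s h1 h2
    rw [← h1, h2]

/-! ### Taylor series of analytic germs at `0` -/

/-- The Taylor series at `0` of a function `ℂ → ℂ`. -/
def gT (F : ℂ → ℂ) : PowerSeries ℂ :=
  PowerSeries.mk fun n => ((n.factorial : ℂ))⁻¹ * iteratedDeriv n F 0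

theorem coeff_gT (F : ℂ → ℂ) (n : ℕ) :
    (gT F).coeff n = ((n.factorial : ℂ))⁻¹ * iteratedDeriv n F 0 := by
  simp [gT]

theorem gT_congr {F G : ℂ → ℂ} (h : F =ᶠ[𝓝 0] G) : gT F = gT G := by
  ext n
  rw [coeff_gT, coeff_gT, h.iteratedDeriv_eq n]

theorem gT_add {F G : ℂ → ℂ} (hF : AnalyticAt ℂ F 0) (hG : AnalyticAt ℂ G 0) :
    gT (F + G) = gT F + gT G := by
  ext n
  simp [coeff_gT, iteratedDeriv_add hF.contDiffAt hG.contDiffAt, mul_add]

theorem gT_mul {F G : ℂ → ℂ} (hF : AnalyticAt ℂ F 0) (hG : AnalyticAt ℂ G 0) :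
    gT (F * G) = gT F * gT G := by
  ext n
  simp only [coeff_gT, iteratedDeriv_mul hF.contDiffAt hG.contDiffAt,
    Finset.mul_sum, PowerSeries.coeff_mul, Finset.Nat.sum_antidiagonal_eq_sum_range_succ_mk,
    Nat.succ_eq_add_one]
  refine Finset.sum_congr rfl fun i hi ↦ ?_
  rw [Nat.cast_choose _ (by grind)]
  field_simp [Nat.factorial_ne_zero]

theorem gT_const (c : ℂ) : gT (fun _ => c) = PowerSeries.C c := by
  ext n
  rw [coeff_gT, PowerSeries.coeff_C]
  rcases n with _ | n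
  · simp
  · simp [iteratedDeriv_succ']

theorem gT_id : gT (fun s : ℂ => s) = PowerSeries.X := by
  ext n
  rw [coeff_gT, PowerSeries.coeff_X]
  rcases n with _ | n
  · simp
  · rw [iteratedDeriv_succ']
    have h1 : deriv (fun s : ℂ => s) = fun _ => (1 : ℂ) := deriv_id''
    rw [h1]
    rcases n with _ | n
    · simp
    · simp [iteratedDeriv_succ']

theorem gT_pow {F : ℂ → ℂ} (hF : AnalyticAt ℂ F 0) (n : ℕ) : gT (F ^ n) = gT F ^ n := by
  induction n with
  | zero =>
    have h := gT_const 1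
    rw [map_one] at h
    rw [pow_zero, pow_zero]
    exact h
  | succ n ih => rw [pow_succ, gT_mul (hF.pow n) hF, ih, pow_succ]

theorem order_gT {F : ℂ → ℂ} (hF : AnalyticAt ℂ F 0) : (gT F).order = analyticOrderAt F 0 :=
  anTaylorOrd_order_mk hF

/-! ### The uniformised Taylor homomorphism -/

/-- **Uniformised Taylor homomorphism.** For every `z₀ : ℍ` there is a `ℂ`-algebra homomorphism
`τ : holSub → ℂ⟦X⟧` with `τ j = C (j z₀) + X ^ e`, `e = jE (j z₀)` the local order of `j - j z₀`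
at `z₀`, which computes analytic orders at `z₀`: `order (τ f) = ord_{z₀} f`. -/
theorem exists_unif_taylorHom (z₀ : ℍ) :
    ∃ τ : holSub →ₐ[ℂ] PowerSeries ℂ,
      τ ⟨jFun, jFun_mdifferentiable⟩ =
        PowerSeries.C (jFun z₀) + PowerSeries.X ^ JOrd.jE (jFun z₀) ∧
      ∀ f : holSub, (τ f).order = analyticOrderAt ((f : ℍ → ℂ) ∘ ofComplex) (z₀ : ℂ) := by
  set e := JOrd.jE (jFun z₀) with he
  have hjm : MDiff (fun z : ℍ => jFun z - jFun z₀) :=
    jFun_mdifferentiable.sub mdifferentiable_const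
  set g : ℂ → ℂ := cayFun z₀ (fun z => jFun z - jFun z₀) with hgdef
  have hg : AnalyticAt ℂ g 0 := analyticAt_cayFun z₀ hjm (by simp)
  have hgord : analyticOrderAt g 0 = (e : ℕ∞) := by
    have h1 := anTaylorOrd_analyticOrderAt_comp z₀ (fun w : ℂ => jFun (ofComplex w) - jFun z₀)
    have h2 : g = (fun w : ℂ => jFun (ofComplex w) - jFun z₀) ∘ cayInv z₀ := rfl
    rw [h2, h1, JOrd.analyticOrderAt_jFun_sub]
  obtain ⟨ψ, hψ, hψ0, hψd, hψg⟩ := exists_unif hg (JOrd.jE_pos _) hgord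
  have han : ∀ f : holSub, AnalyticAt ℂ (cayFun z₀ (f : ℍ → ℂ) ∘ ψ) 0 := by
    intro f
    have h1 : AnalyticAt ℂ (cayFun z₀ (f : ℍ → ℂ)) (ψ 0) := by
      rw [hψ0]
      exact analyticAt_cayFun z₀ f.2 (by simp)
    exact h1.comp hψ
  let τ : holSub →ₐ[ℂ] PowerSeries ℂ :=
    { toFun := fun f => gT (cayFun z₀ (f : ℍ → ℂ) ∘ ψ)
      map_one' := by
        show gT (fun _ => (1 : ℂ)) = 1
        rw [gT_const, map_one]
      map_mul' := fun f g => gT_mul (han f) (han g)
      map_zero' := by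
        show gT (fun _ => (0 : ℂ)) = 0
        rw [gT_const, map_zero]
      map_add' := fun f g => gT_add (han f) (han g)
      commutes' := fun c => gT_const c }
  have hid : AnalyticAt ℂ (fun s : ℂ => s) 0 := analyticAt_id
  refine ⟨τ, ?_, fun f => ?_⟩
  · show gT (cayFun z₀ jFun ∘ ψ) = _
    have h1 : (cayFun z₀ jFun ∘ ψ) =ᶠ[𝓝 0] ((fun _ : ℂ => jFun z₀) + (fun s : ℂ => s) ^ e) := by
      filter_upwards [hψg] with s hs
      have h2 : cayFun z₀ jFun (ψ s) - jFun z₀ = s ^ e := hs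
      simp only [Function.comp_apply, Pi.add_apply, Pi.pow_apply]
      linear_combination h2
    rw [gT_congr h1, gT_add analyticAt_const (hid.pow e), gT_const, gT_pow hid, gT_id]
  · show (gT (cayFun z₀ (f : ℍ → ℂ) ∘ ψ)).order = _
    rw [order_gT (han f), analyticOrderAt_comp_of_deriv_ne_zero hψ hψd, hψ0]
    exact anTaylorOrd_analyticOrderAt_comp z₀ (fun z : ℂ => (f : ℍ → ℂ) (ofComplex z))

/-- The same statement with the order written as `analyticOrderAt (fun w => f (ofComplex w))`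
(the `[SplitUnif]` row of the `[KSplit]` route, verbatim). -/
theorem exists_unifTaylor (z₀ : ℍ) :
    ∃ τ : holSub →ₐ[ℂ] PowerSeries ℂ,
      τ ⟨jFun, jFun_mdifferentiable⟩ =
        PowerSeries.C (jFun z₀) + PowerSeries.X ^ JOrd.jE (jFun z₀) ∧
      ∀ f : holSub, (τ f).order =
        analyticOrderAt (fun w : ℂ => (f : ℍ → ℂ) (ofComplex w)) (z₀ : ℂ) :=
  exists_unif_taylorHom z₀

end Fermat.Agent.S29.UnifTaylor
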