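import Mathlib
import Fermat.Agent.S24.AnDefs
import Fermat.Agent.LevelOne.JDef
import Fermat.Agent.LevelOne.JSurj
import Fermat.Agent.S29.JOrd
import Fermat.Agent.S29.SplitAlg
import Fermat.Agent.S29.UnifTaylor

/-!
# S29 block [K], route [KSplit]: the splitting condition at function level

OWNER: helper57 (only the owner edits this file).

`SplitAlg.SplitP p F` is a purely algebraic condition on `F ∈ ℂ[j][Y]`.  This file connects it
with holomorphic functions on the upper half plane, through the uniformised Taylor homomorphisms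
of `UnifTaylor`:

* `splitP_of_pow` (forward): if `F(j(z), Y) = ∏ i, (Y - W i z ^ p)` for all `z`, with the `W i`
  holomorphic, then `SplitP p F`;
* `exists_order_eq_of_root` (backward): if `F` is monic with `SplitP p F` and `Y` is a holomorphic
  function with `F(j(z), Y z) = 0` for all `z`, then every order of vanishing of `Y` is a
  multiple of `p`.
-/

set_option autoImplicit false

namespace Fermat.Agent.S29.SplitNorm

open Polynomial UpperHalfPlane Fermat.Agent.LevelOne Fermat.Agent.S24
open scoped Manifold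

noncomputable section

/-- The `j`-function as an element of the algebra of holomorphic functions. -/
def jH : ↥holSub := ⟨jFun, jFun_mdifferentiable⟩

/-- Evaluation at a point, on the algebra of holomorphic functions. -/
def evH (z : ℍ) : ↥holSub →ₐ[ℂ] ℂ := (Pi.evalAlgHom ℂ (fun _ : ℍ => ℂ) z).comp holSub.val

theorem evH_apply (z : ℍ) (f : ↥holSub) : evH z f = (f : ℍ → ℂ) z := rfl

theorem holSub_ext {f g : ↥holSub} (h : ∀ z, evH z f = evH z g) : f = g :=
  Subtype.ext (funext h)

/-- Two polynomials over the holomorphic functions that agree at every point are equal. -/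
theorem poly_ext {A B : (↥holSub)[X]}
    (h : ∀ z, A.map (evH z : ↥holSub →+* ℂ) = B.map (evH z : ↥holSub →+* ℂ)) : A = B := by
  ext n : 1
  apply holSub_ext
  intro z
  have h1 := congrArg (fun q : ℂ[X] => q.coeff n) (h z)
  simp only [coeff_map] at h1
  exact h1

/-- A ring homomorphism commutes with evaluation of polynomials. -/
theorem map_eval_eq {S T : Type*} [CommRing S] [CommRing T] (g : S →+* T) (q : S[X]) (x : S) :
    g (q.eval x) = (q.map g).eval (g x) := by
  rw [Polynomial.eval_map, Polynomial.eval₂_hom]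

/-- A holomorphic function as an element of `holSub`. -/
def mkH (Y : ℍ → ℂ) (hY : MDiff Y) : ↥holSub := ⟨Y, mem_holSub.mpr hY⟩

theorem evH_mkH (z : ℍ) (Y : ℍ → ℂ) (hY : MDiff Y) : evH z (mkH Y hY) = Y z := rfl

/-- The ring homomorphism `ℂ[j] → holSub`, `j ↦ jFun`. -/
def jHom : ℂ[X] →+* ↥holSub := (aeval jH : ℂ[X] →ₐ[ℂ] ↥holSub)

theorem jHom_C (a : ℂ) : jHom (C a) = algebraMap ℂ ↥holSub a := by
  rw [jHom]
  exact aeval_C jH a

theorem jHom_X : jHom X = jH := by
  rw [jHom]
  exact aeval_X jH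

theorem evH_comp_jHom (z : ℍ) :
    (evH z : ↥holSub →+* ℂ).comp jHom = evalRingHom (jFun z) := by
  apply Polynomial.ringHom_ext
  · intro a
    rw [RingHom.comp_apply, jHom_C]
    simp
  · rw [RingHom.comp_apply, jHom_X]
    simp [evH_apply, jH]

/-- Composing the uniformised Taylor homomorphism at a point over `c` with `j ↦ jFun` gives
`SplitAlg.iota c`. -/
theorem comp_jHom_eq_iota {c : ℂ} {z₁ : ℍ} (hz₁ : jFun z₁ = c)
    {τ : ↥holSub →ₐ[ℂ] PowerSeries ℂ}
    (hτ : τ ⟨jFun, jFun_mdifferentiable⟩ =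
      PowerSeries.C (jFun z₁) + PowerSeries.X ^ JOrd.jE (jFun z₁)) :
    (τ : ↥holSub →+* PowerSeries ℂ).comp jHom = SplitAlg.iota c := by
  apply SplitAlg.eq_iota
  · intro a
    rw [RingHom.comp_apply, jHom_C]
    simp
  · rw [RingHom.comp_apply, jHom_X]
    show τ jH = _
    rw [jH, hτ, hz₁]

/-- **Forward direction.** If `P(j(z), Y) = ∏ i, (Y - W i z ^ p)` for every `z`, with holomorphic
`W i`, then `P` satisfies the splitting condition `Split_p`. -/
theorem splitP_of_pow (p : ℕ) (hp : 0 < p) {ι : Type*} [Fintype ι] (W : ι → ℍ → ℂ)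
    (hW : ∀ i, MDiff (W i)) (P : ℂ[X][X])
    (hP : ∀ z : ℍ, P.map (Polynomial.evalRingHom (jFun z)) = ∏ i, (X - C (W i z ^ p))) :
    SplitAlg.SplitP p P := by
  have hF1 : P.map jHom = ∏ i, (X - C (mkH (W i) (hW i) ^ p)) := by
    apply poly_ext
    intro z
    rw [Polynomial.map_map, evH_comp_jHom, hP z, Polynomial.map_prod]
    refine Finset.prod_congr rfl fun i _ => ?_
    simp [evH_mkH]
  intro c
  obtain ⟨z₁, hz₁⟩ := jFun_surjective c
  obtain ⟨τ, hτj, -⟩ := UnifTaylor.exists_unifTaylor z₁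
  have hφ := comp_jHom_eq_iota hz₁ hτj
  have hmap : P.map (SplitAlg.iota c) =
      ∏ i, (X - C ((τ (mkH (W i) (hW i))) ^ p)) := by
    rw [← hφ, ← Polynomial.map_map, hF1, Polynomial.map_prod]
    refine Finset.prod_congr rfl fun i _ => ?_
    simp
  rw [hmap]
  exact SplitAlg.splits_comp_of_prod p hp Finset.univ _

/-- **Backward direction.** If `F` is monic with `Split_p(F)` and the holomorphic function `Y`
satisfies `F(j(z), Y z) = 0` for all `z`, then the order of vanishing of `Y` at every point is a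
multiple of `p`. -/
theorem exists_order_eq_of_root (p : ℕ) (hp : 0 < p) {F : ℂ[X][X]} (hF : F.Monic)
    (hS : SplitAlg.SplitP p F) {Y : ℍ → ℂ} (hY : MDiff Y)
    (hroot : ∀ z : ℍ, (F.map (Polynomial.evalRingHom (jFun z))).eval (Y z) = 0) (z₀ : ℍ) :
    ∃ k : ℕ∞, analyticOrderAt (fun w : ℂ => Y (ofComplex w)) (z₀ : ℂ) = p * k := by
  have hroot' : (F.map jHom).eval (mkH Y hY) = 0 := by
    apply holSub_ext
    intro z
    rw [map_zero]
    have h1 := map_eval_eq (evH z : ↥holSub →+* ℂ) (F.map jHom) (mkH Y hY)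
    rw [Polynomial.map_map, evH_comp_jHom] at h1
    exact h1.trans (hroot z)
  obtain ⟨τ, hτj, hτo⟩ := UnifTaylor.exists_unifTaylor z₀
  have hφ := comp_jHom_eq_iota (c := jFun z₀) rfl hτj
  have hξ : (F.map (SplitAlg.iota (jFun z₀))).eval (τ (mkH Y hY)) = 0 := by
    have h1 := map_eval_eq (τ : ↥holSub →+* PowerSeries ℂ) (F.map jHom) (mkH Y hY)
    rw [Polynomial.map_map, hφ, hroot', map_zero] at h1
    exact h1.symm
  obtain ⟨k, hk⟩ := SplitAlg.dvd_order_of_root p hp hF hS (jFun z₀) _ hξ
  refine ⟨k, ?_⟩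
  rw [← hk, hτo]
  rfl

end

end Fermat.Agent.S29.SplitNorm
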