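/-
S29 block [K], route [KSplit] (dealt by helper4), row [SplitPrep] (helper79): the function-level
facts about the weight-zero quotient `Xq = G / Δ ^ m` of a modular form `G` of weight `12 m` on
`Γ₀(N)`.

* `mdiff_quot`        : `Xq` is holomorphic;
* `quot_smul`         : `Xq (γ • z) = (G ∣[12 m] γ) z / Δ z ^ m` for every `γ ∈ SL(2, ℤ)`;
* `quot_inv`          : `Xq` is `Γ₀(N)`-invariant;
* `quot_bdd`          : `Δ ^ m * Xq ∘ g` is bounded at `i∞` for every `g ∈ SL(2, ℤ)`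
                        (the three inputs `hY`, `hinv`, `hbdd` of `CuspBound.exists_monic_of_invariant`);
* `analyticOrderAt_quot` : `Xq` and `G` have the same analytic order at every point;
* `analyticOrderAt_ne_top` : a nonzero holomorphic function has finite order everywhere;
* `exists_pow_eq_quot` : if all orders of `G ≠ 0` are divisible by `p` then `Xq = W ^ p` with
                        `W` holomorphic.
-/
import Mathlib
import Fermat.Agent.S20.Basic
import Fermat.Agent.S23.Distinct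
import Fermat.Agent.S29.PthRoot

set_option autoImplicit false

namespace Fermat.Agent.S29.SplitPrep

open UpperHalfPlane ModularForm Filter Topology
open scoped MatrixGroups ModularForm Manifold

local notation "Δ" => ModularForm.discriminant

/-- The discriminant is holomorphic. -/
theorem mdiff_discriminant : MDiff (Δ : ℍ → ℂ) := ModularFormClass.holo CuspForm.discriminant

/-- A holomorphic function on `ℍ` is analytic (as a function of `ℂ` through `ofComplex`) at every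
point of `ℍ`. -/
theorem analyticAt_comp_ofComplex {G : ℍ → ℂ} (hG : MDiff G) (z₀ : ℍ) :
    AnalyticAt ℂ (fun w : ℂ => G (ofComplex w)) (z₀ : ℂ) := by
  have hd : DifferentiableOn ℂ (fun w : ℂ => G (ofComplex w)) {z : ℂ | 0 < z.im} :=
    UpperHalfPlane.mdifferentiable_iff.mp hG
  exact hd.analyticAt (PthRoot.isOpen_im_pos.mem_nhds z₀.im_pos)

/-- (a) general form: the quotient of a holomorphic function by a power of `Δ` is holomorphic. -/
theorem mdiff_quot_of_mdiff {G : ℍ → ℂ} (hG : MDiff G) (m : ℕ) :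
    MDiff (fun z : ℍ => G z / Δ z ^ m) :=
  hG.div (mdiff_discriminant.pow m) (fun z => pow_ne_zero m (ModularForm.discriminant_ne_zero z))

/-- (a) `G / Δ ^ m` is holomorphic. -/
theorem mdiff_quot {N : ℕ} [NeZero N] {m : ℕ} {G : ℍ → ℂ} (hG : G ∈ S20.MF N (12 * m)) :
    MDiff (fun z : ℍ => G z / Δ z ^ m) :=
  mdiff_quot_of_mdiff (S20.mem_MF_iff'.mp hG).1 m

/-- The transformation of `G / Δ ^ m` under `SL(2, ℤ)` in terms of the weight `12 m` slash
action. -/
theorem quot_smul (G : ℍ → ℂ) (m : ℕ) (γ : SL(2, ℤ)) (z : ℍ) :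
    G (γ • z) / Δ (γ • z) ^ m = (G ∣[(12 * m : ℤ)] γ) z / Δ z ^ m := by
  have hden : denom γ z ≠ 0 := denom_ne_zero _ _
  have h1 : (G ∣[(12 * m : ℤ)] γ) z = G (γ • z) * denom γ z ^ (-(12 * m : ℤ)) :=
    ModularForm.SL_slash_apply _ _ _
  have h2 : Δ (γ • z) = Δ z * denom γ z ^ (12 : ℤ) := S23.discriminant_smul_eq γ z
  have hΔ : Δ z ≠ 0 := ModularForm.discriminant_ne_zero z
  have h3 : (denom γ z ^ (12 : ℤ)) ^ m = denom γ z ^ (12 * m : ℤ) := by
    rw [zpow_mul, zpow_natCast]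
  have hz : denom γ z ^ (12 * m : ℤ) ≠ 0 := zpow_ne_zero _ hden
  rw [h1, h2, mul_pow, h3, zpow_neg]
  field_simp

/-- (b) `G / Δ ^ m` is `Γ₀(N)`-invariant. -/
theorem quot_inv {N : ℕ} [NeZero N] {m : ℕ} {G : ℍ → ℂ} (hG : G ∈ S20.MF N (12 * m)) :
    ∀ γ ∈ CongruenceSubgroup.Gamma0 N, ∀ z : ℍ,
      (fun z : ℍ => G z / Δ z ^ m) (γ • z) = (fun z : ℍ => G z / Δ z ^ m) z := by
  intro γ hγ z
  show G (γ • z) / Δ (γ • z) ^ m = G z / Δ z ^ m
  rw [quot_smul, (S20.mem_MF_iff'.mp hG).2.1 γ hγ]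

/-- (c) `G / Δ ^ m` is `O(|q|^{-m})` at every cusp. -/
theorem quot_bdd {N : ℕ} [NeZero N] {m : ℕ} {G : ℍ → ℂ} (hG : G ∈ S20.MF N (12 * m)) :
    ∀ g : SL(2, ℤ), IsBoundedAtImInfty
      (fun z : ℍ => Δ z ^ m * (fun z : ℍ => G z / Δ z ^ m) (g • z)) := by
  intro g
  have e : (fun z : ℍ => Δ z ^ m * (fun z : ℍ => G z / Δ z ^ m) (g • z)) =
      G ∣[(12 * m : ℤ)] g := by
    funext z
    show Δ z ^ m * (G (g • z) / Δ (g • z) ^ m) = _
    rw [quot_smul]
    have hΔ : Δ z ^ m ≠ 0 := pow_ne_zero m (ModularForm.discriminant_ne_zero z)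
    field_simp
  rw [e]
  exact (S20.mem_MF_iff'.mp hG).2.2 g

/-- (d) general form: `G / Δ ^ m` and `G` have the same analytic order at every point. -/
theorem analyticOrderAt_quot_of_mdiff {G : ℍ → ℂ} (hG : MDiff G) (m : ℕ) (z₀ : ℍ) :
    analyticOrderAt (fun w : ℂ => (fun z : ℍ => G z / Δ z ^ m) (ofComplex w)) (z₀ : ℂ) =
      analyticOrderAt (fun w : ℂ => G (ofComplex w)) (z₀ : ℂ) := by
  have hGa := analyticAt_comp_ofComplex hG z₀
  have hΔa := analyticAt_comp_ofComplex mdiff_discriminant z₀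
  have hz : ofComplex (z₀ : ℂ) = z₀ := ofComplex_apply z₀
  have hne : (fun w : ℂ => Δ (ofComplex w) ^ m) (z₀ : ℂ) ≠ 0 := by
    show Δ (ofComplex (z₀ : ℂ)) ^ m ≠ 0
    exact pow_ne_zero m (ModularForm.discriminant_ne_zero _)
  have hpa : AnalyticAt ℂ (fun w : ℂ => Δ (ofComplex w) ^ m) (z₀ : ℂ) := hΔa.pow m
  have hinv : AnalyticAt ℂ (fun w : ℂ => (Δ (ofComplex w) ^ m)⁻¹) (z₀ : ℂ) := hpa.inv hne
  have h0 : analyticOrderAt (fun w : ℂ => (Δ (ofComplex w) ^ m)⁻¹) (z₀ : ℂ) = 0 := by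
    rw [hinv.analyticOrderAt_eq_zero]
    exact inv_ne_zero hne
  have e : (fun w : ℂ => (fun z : ℍ => G z / Δ z ^ m) (ofComplex w)) =
      (fun w : ℂ => G (ofComplex w)) * fun w : ℂ => (Δ (ofComplex w) ^ m)⁻¹ := by
    funext w
    show G (ofComplex w) / Δ (ofComplex w) ^ m = G (ofComplex w) * (Δ (ofComplex w) ^ m)⁻¹
    rw [div_eq_mul_inv]
  rw [e, analyticOrderAt_mul hGa hinv, h0, add_zero]

/-- (d) `G / Δ ^ m` and `G` have the same analytic order at every point. -/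
theorem analyticOrderAt_quot {N : ℕ} [NeZero N] {m : ℕ} {G : ℍ → ℂ}
    (hG : G ∈ S20.MF N (12 * m)) (z₀ : ℍ) :
    analyticOrderAt (fun w : ℂ => (fun z : ℍ => G z / Δ z ^ m) (ofComplex w)) (z₀ : ℂ) =
      analyticOrderAt (fun w : ℂ => G (ofComplex w)) (z₀ : ℂ) :=
  analyticOrderAt_quot_of_mdiff (S20.mem_MF_iff'.mp hG).1 m z₀

/-- (f) A nonzero holomorphic function on `ℍ` has finite analytic order at every point. -/
theorem analyticOrderAt_ne_top {G : ℍ → ℂ} (hG : MDiff G) (hG0 : G ≠ 0) (z₀ : ℍ) :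
    analyticOrderAt (fun w : ℂ => G (ofComplex w)) (z₀ : ℂ) ≠ ⊤ := by
  intro htop
  apply hG0
  have hd : DifferentiableOn ℂ (fun w : ℂ => G (ofComplex w)) {z : ℂ | 0 < z.im} :=
    UpperHalfPlane.mdifferentiable_iff.mp hG
  have han : AnalyticOnNhd ℂ (fun w : ℂ => G (ofComplex w)) {z : ℂ | 0 < z.im} :=
    hd.analyticOnNhd PthRoot.isOpen_im_pos
  have hpre : IsPreconnected {z : ℂ | 0 < z.im} := (convex_halfSpace_im_gt 0).isPreconnected
  have hev : (fun w : ℂ => G (ofComplex w)) =ᶠ[𝓝 (z₀ : ℂ)] 0 := analyticOrderAt_eq_top.mp htop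
  have hEq := han.eqOn_zero_of_preconnected_of_eventuallyEq_zero hpre z₀.im_pos hev
  funext z
  have h := hEq z.im_pos
  simpa [ofComplex_apply] using h

/-- (e) general form: if all analytic orders of the nonzero holomorphic `G` are divisible by
`p`, then `G / Δ ^ m` is the `p`-th power of a holomorphic function. -/
theorem exists_pow_eq_quot_of_mdiff {G : ℍ → ℂ} (hG : MDiff G) (m : ℕ) (p : ℕ) (hp : 0 < p)
    (hG0 : G ≠ 0)
    (hord : ∀ z₀ : ℍ, ∃ n : ℕ,
      analyticOrderAt (fun w : ℂ => G (ofComplex w)) (z₀ : ℂ) = ((p * n : ℕ) : ℕ∞)) :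
    ∃ W : ℍ → ℂ, MDiff W ∧ (fun z : ℍ => G z / Δ z ^ m) = W ^ p := by
  have hX0 : (fun z : ℍ => G z / Δ z ^ m) ≠ 0 := by
    intro h
    apply hG0
    funext z
    have hz := congrFun h z
    have hΔ : Δ z ^ m ≠ 0 := pow_ne_zero m (ModularForm.discriminant_ne_zero z)
    simpa [hΔ] using hz
  obtain ⟨W, hW, hWp⟩ := PthRoot.exists_mdiff_pow_eq p hp.ne' (mdiff_quot_of_mdiff hG m) hX0
    (fun z₀ => by
      obtain ⟨n, hn⟩ := hord z₀
      exact ⟨n, by rw [analyticOrderAt_quot_of_mdiff hG m z₀, hn]⟩)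
  exact ⟨W, hW, funext fun z => (hWp z).symm⟩

/-- (e) if all analytic orders of `G ≠ 0` are divisible by `p`, then `G / Δ ^ m` is the `p`-th
power of a holomorphic function. -/
theorem exists_pow_eq_quot {N : ℕ} [NeZero N] {m : ℕ} {G : ℍ → ℂ}
    (hG : G ∈ S20.MF N (12 * m)) (p : ℕ) (hp : 0 < p) (hG0 : G ≠ 0)
    (hord : ∀ z₀ : ℍ, ∃ n : ℕ,
      analyticOrderAt (fun w : ℂ => G (ofComplex w)) (z₀ : ℂ) = ((p * n : ℕ) : ℕ∞)) :
    ∃ W : ℍ → ℂ, MDiff W ∧ (fun z : ℍ => G z / Δ z ^ m) = W ^ p :=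
  exists_pow_eq_quot_of_mdiff (S20.mem_MF_iff'.mp hG).1 m p hp hG0 hord

end Fermat.Agent.S29.SplitPrep
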