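import Mathlib
import Fermat.Agent.S29.KDefs
import Fermat.Agent.S29.KBasic
import Fermat.Agent.S29.SigmaFix
import Fermat.Agent.S29.K1IntB

/-!
# S29 block [K], route [KSplit]: `σ`-transport of a polynomial relation over `ℂ[j]`

OWNER: helper38 (only the owner edits this file).

Let `G, G' ∈ MF N (12 m)` with `qx G' = coeffMap σ (qx G)` for a ring homomorphism
`σ : ℂ →+* ℂ`.  If `X := G / Δ ^ m` is a root (pointwise on `ℍ`) of a polynomial
`P ∈ ℂ[j][Y]` whose coefficients satisfy `deg (P.coeff i) ≤ (deg P - i) * m`, then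
`X' := G' / Δ ^ m` is a root of `P^σ`.

Proof: multiply by `Δ ^ (m · deg P)`; the relation becomes an identity between nice functions,
hence an identity of `q`-expansions in `ℂ((q))`; `coeffMap σ` fixes `jC` and `DeltaC`; go back
by injectivity of the `q`-expansion.
-/

set_option autoImplicit false

namespace Fermat.Agent.S29.SplitTrans

open UpperHalfPlane ModularForm CongruenceSubgroup ModularCurve Polynomial
open Fermat.Agent.LevelOne Fermat.Agent.S29.K Fermat.Agent.S29.K.K1IntB
open scoped MatrixGroups ModularForm Manifold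

/-- The nice function `Δ ^ D · c(j)` (for `deg c ≤ D`), as an element of `niceSub`. -/
noncomputable def levN (c : ℂ[X]) (D : ℕ) : S23.niceSub :=
  ∑ i ∈ Finset.range (D + 1),
    algebraMap ℂ S23.niceSub (c.coeff i) * (E4N ^ 3) ^ i * DeltaN ^ (D - i)

theorem levN_apply {c : ℂ[X]} {D : ℕ} (hc : c.natDegree ≤ D) (z : ℍ) :
    (levN c D : ℍ → ℂ) z = ModularForm.discriminant z ^ D * c.eval (jFun z) := by
  show evN z (levN c D) = _
  rw [levN, map_sum]
  simp only [map_mul, map_pow, evN_algebraMap]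
  rw [Polynomial.eval_eq_sum_range' (Nat.lt_succ_of_le hc), Finset.mul_sum]
  refine Finset.sum_congr rfl fun i hi => ?_
  have hi' : i ≤ D := Nat.lt_succ_iff.mp (Finset.mem_range.mp hi)
  show c.coeff i * (E₄ z ^ 3) ^ i * ModularForm.discriminant z ^ (D - i) = _
  rw [← jFun_mul_discriminant z, mul_pow]
  have h1 : ModularForm.discriminant z ^ D =
      ModularForm.discriminant z ^ i * ModularForm.discriminant z ^ (D - i) := by
    rw [← pow_add]
    congr 1
    omega
  rw [h1]
  ring

theorem Phi_levN {c : ℂ[X]} {D : ℕ} (hc : c.natDegree ≤ D) :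
    S24.AnBridge.Phi (levN c D) = Polynomial.aeval jC c * DeltaC ^ D :=
  Phi_eq_of_eval hc (levN c D) (levN_apply hc)

/-- `coeffMap σ` acts on `c(jC)` through the coefficients of `c`. -/
theorem coeffMap_aeval_jC (σ : ℂ →+* ℂ) (c : ℂ[X]) :
    coeffMap σ (Polynomial.aeval jC c) = Polynomial.aeval jC (c.map σ) := by
  rw [Polynomial.aeval_def, Polynomial.aeval_def, Polynomial.hom_eval₂, Polynomial.eval₂_map,
    SigmaFix.coeffMap_jC]
  congr 1
  refine RingHom.ext fun a => ?_
  simp only [RingHom.coe_comp, Function.comp_apply]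
  exact coeffMap_algebraMap σ a

/-- Evaluation of a two-variable polynomial, as a finite sum. -/
theorem eval_map_evalRingHom (Q : ℂ[X][X]) {n : ℕ} (hQ : Q.natDegree ≤ n) (w x : ℂ) :
    (Q.map (Polynomial.evalRingHom w)).eval x =
      ∑ i ∈ Finset.range (n + 1), (Q.coeff i).eval w * x ^ i := by
  rw [Polynomial.eval_eq_sum_range'
    (lt_of_le_of_lt (Polynomial.natDegree_map_le) (Nat.lt_succ_of_le hQ))]
  refine Finset.sum_congr rfl fun i _ => ?_
  rw [Polynomial.coeff_map, Polynomial.coe_evalRingHom]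

theorem term_eq {d x : ℂ} (hd : d ≠ 0) {n i m : ℕ} (hi : i ≤ n) (c : ℂ) :
    d ^ (n * m) * (c * (x / d ^ m) ^ i) = d ^ ((n - i) * m) * c * x ^ i := by
  have h1 : n * m = (n - i) * m + m * i := by
    rw [mul_comm m i, ← Nat.add_mul, Nat.sub_add_cancel hi]
  rw [h1, pow_add, div_pow, ← pow_mul]
  field_simp

/-- **[SplitTrans].** `σ`-transport of a root of a polynomial over `ℂ[j]`. -/
theorem root_of_coeffMap (N : ℕ) [NeZero N] (m : ℕ) (σ : ℂ →+* ℂ) {G G' : ℍ → ℂ}
    (hG : G ∈ S20.MF N (12 * m)) (hG' : G' ∈ S20.MF N (12 * m))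
    (hq : qx G' = coeffMap σ (qx G)) (P : ℂ[X][X])
    (hdeg : ∀ i ≤ P.natDegree, (P.coeff i).natDegree ≤ (P.natDegree - i) * m)
    (hroot : ∀ z : ℍ, (P.map (Polynomial.evalRingHom (jFun z))).eval
      (G z / ModularForm.discriminant z ^ m) = 0) :
    ∀ z : ℍ, ((P.map (Polynomial.mapRingHom σ)).map (Polynomial.evalRingHom (jFun z))).eval
      (G' z / ModularForm.discriminant z ^ m) = 0 := by
  set n := P.natDegree with hn
  have hGn : G ∈ S23.niceSub := K.mem_niceSub_of_mem_MF hG
  have hGn' : G' ∈ S23.niceSub := K.mem_niceSub_of_mem_MF hG'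
  set a : S23.niceSub := ⟨G, hGn⟩ with ha
  set a' : S23.niceSub := ⟨G', hGn'⟩ with ha'
  have hdegσ : ∀ i ≤ n, ((P.coeff i).map σ).natDegree ≤ (n - i) * m := fun i hi =>
    (Polynomial.natDegree_map_le).trans (hdeg i hi)
  -- Step 1: the relation in `niceSub`
  have hR : ∑ i ∈ Finset.range (n + 1), levN (P.coeff i) ((n - i) * m) * a ^ i = 0 := by
    apply niceSub_ext
    intro z
    rw [map_sum, map_zero]
    have hd : ModularForm.discriminant z ≠ 0 := ModularForm.discriminant_ne_zero z
    have h1 := hroot z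
    rw [eval_map_evalRingHom P le_rfl] at h1
    have h2 : ModularForm.discriminant z ^ (n * m) *
        ∑ i ∈ Finset.range (n + 1), (P.coeff i).eval (jFun z) *
          (G z / ModularForm.discriminant z ^ m) ^ i = 0 := by
      rw [h1, mul_zero]
    rw [Finset.mul_sum] at h2
    rw [← h2]
    refine Finset.sum_congr rfl fun i hi => ?_
    have hi' : i ≤ n := Nat.lt_succ_iff.mp (Finset.mem_range.mp hi)
    rw [map_mul, map_pow, evN_apply, evN_apply, levN_apply (hdeg i hi'), term_eq hd hi']
  -- Step 2: the relation in `ℂ((q))`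
  have hS : ∑ i ∈ Finset.range (n + 1),
      Polynomial.aeval jC (P.coeff i) * DeltaC ^ ((n - i) * m) * qx G ^ i = 0 := by
    have h1 := congrArg S24.AnBridge.Phi hR
    rw [map_sum, map_zero] at h1
    rw [← h1]
    refine Finset.sum_congr rfl fun i hi => ?_
    have hi' : i ≤ n := Nat.lt_succ_iff.mp (Finset.mem_range.mp hi)
    rw [map_mul, map_pow, Phi_levN (hdeg i hi'), K.qx_eq_Phi hGn]
  -- Step 3: apply `coeffMap σ`
  have hS' : ∑ i ∈ Finset.range (n + 1),
      Polynomial.aeval jC ((P.coeff i).map σ) * DeltaC ^ ((n - i) * m) * qx G' ^ i = 0 := by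
    have h1 := congrArg (coeffMap σ) hS
    rw [map_sum, map_zero] at h1
    rw [← h1]
    refine Finset.sum_congr rfl fun i _ => ?_
    rw [map_mul, map_mul, map_pow, map_pow, coeffMap_aeval_jC, SigmaFix.coeffMap_DeltaC, hq]
  -- Step 4: back to `niceSub`
  have hR' : ∑ i ∈ Finset.range (n + 1),
      levN ((P.coeff i).map σ) ((n - i) * m) * a' ^ i = 0 := by
    apply S24.AnBridge.Phi_injective
    rw [map_sum, map_zero, ← hS']
    refine Finset.sum_congr rfl fun i hi => ?_
    have hi' : i ≤ n := Nat.lt_succ_iff.mp (Finset.mem_range.mp hi)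
    rw [map_mul, map_pow, Phi_levN (hdegσ i hi'), K.qx_eq_Phi hGn']
  -- Step 5: pointwise
  intro z
  have hd : ModularForm.discriminant z ≠ 0 := ModularForm.discriminant_ne_zero z
  have hnat : (P.map (Polynomial.mapRingHom σ)).natDegree ≤ n := Polynomial.natDegree_map_le
  rw [eval_map_evalRingHom _ hnat]
  have h1 := congrArg (evN z) hR'
  rw [map_sum, map_zero] at h1
  have h2 : ModularForm.discriminant z ^ (n * m) *
      ∑ i ∈ Finset.range (n + 1), ((P.map (Polynomial.mapRingHom σ)).coeff i).eval (jFun z) *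
        (G' z / ModularForm.discriminant z ^ m) ^ i = 0 := by
    rw [← h1, Finset.mul_sum]
    refine Finset.sum_congr rfl fun i hi => ?_
    have hi' : i ≤ n := Nat.lt_succ_iff.mp (Finset.mem_range.mp hi)
    rw [map_mul, map_pow, evN_apply, evN_apply, levN_apply (hdegσ i hi'), term_eq hd hi',
      Polynomial.coeff_map, Polynomial.coe_mapRingHom]
  exact (mul_eq_zero.mp h2).resolve_left (pow_ne_zero _ hd)

end Fermat.Agent.S29.SplitTrans
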