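import Mathlib
import Fermat.Agent.S29.SplitAlg
import Fermat.Agent.S29.SplitNorm
import Fermat.Agent.S29.SplitTrans
import Fermat.Agent.S29.SplitPrep
import Fermat.Agent.S29.CuspBound

/-!
# S29 block [K]: `[KPInv]` by the splitting condition `Split_p` (route [KSplit])

OWNER: helper4 (only the owner edits this file).

Let `G, G' ∈ M_{12m}(Γ₀(N))` with `qx G' = coeffMap σ (qx G)` for a field automorphism `σ` of `ℂ`.
If all zero orders of `G` on `ℍ` are divisible by `p`, the same holds for `G'` (`kpInv`, for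
every natural number `p`).

Proof.  Put `x := G / Δ^m`, `x' := G' / Δ^m` (holomorphic on `ℍ`, `Γ₀(N)`-invariant, of moderate
growth: `SplitPrep`).  The coset norm polynomial `P ∈ ℂ[j][Y]` of `x`
(`CuspBound.exists_monic_of_bounded`) is monic with `P(j(z), Y) = ∏_q (Y - x (g_q⁻¹ z))` and
controlled `j`-degrees.  Since `x = w ^ p` for a holomorphic `w` on `ℍ`, `P` satisfies the
splitting condition `SplitP p` (`SplitNorm.splitP_of_pow`); the condition is `Aut(ℂ)`-invariant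
(`SplitAlg.splitP_map`), so `P^σ` satisfies it; `x'` is a root of `P^σ`
(`SplitTrans.root_of_coeffMap`); hence all orders of `x'` — which are the orders of `G'` — are
divisible by `p` (`SplitNorm.exists_order_eq_of_root`).
-/

set_option autoImplicit false

namespace Fermat.Agent.S29.KSplit

open UpperHalfPlane ModularForm CongruenceSubgroup ModularCurve Polynomial
open Fermat.Agent.LevelOne
open scoped MatrixGroups ModularForm Manifold

/-- `σ`-conjugate forms vanish together. -/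
theorem ne_zero_of_qx_eq (σ : ℂ ≃+* ℂ) (N : ℕ) [NeZero N] (m : ℕ) {G G' : ℍ → ℂ}
    (hG : G ∈ S20.MF N (12 * m)) (hG' : G' ∈ S20.MF N (12 * m)) (hG0 : G ≠ 0)
    (hq : K.qx G' = coeffMap (σ : ℂ →+* ℂ) (K.qx G)) : G' ≠ 0 := by
  intro h0
  apply hG0
  have h1 : K.qx G' = 0 := (K.qx_eq_zero_iff (K.mem_niceSub_of_mem_MF hG')).mpr h0
  rw [hq] at h1
  have h2 : K.qx G = 0 := (coeffMap (σ : ℂ →+* ℂ)).injective (by rw [h1, map_zero])
  exact (K.qx_eq_zero_iff (K.mem_niceSub_of_mem_MF hG)).mp h2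

/-- **[KPInv] for `0 < p`.** -/
theorem kpInv_pos (σ : ℂ ≃+* ℂ) (N : ℕ) [NeZero N] (p m : ℕ) (hp : 0 < p)
    (G G' : ℍ → ℂ) (hG : G ∈ S20.MF N (12 * m)) (hG' : G' ∈ S20.MF N (12 * m)) (hG0 : G ≠ 0)
    (hq : K.qx G' = coeffMap (σ : ℂ →+* ℂ) (K.qx G))
    (hord : ∀ z₀ : ℍ, ∃ n : ℕ,
      analyticOrderAt (fun z : ℂ => G (ofComplex z)) (z₀ : ℂ) = ((p * n : ℕ) : ℕ∞)) :
    ∀ z₀ : ℍ, ∃ n : ℕ,
      analyticOrderAt (fun z : ℂ => G' (ofComplex z)) (z₀ : ℂ) = ((p * n : ℕ) : ℕ∞) := by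
  classical
  have hGd' : MDiff G' := (S20.mem_MF_iff'.mp hG').1
  -- `x := G / Δ^m`
  have hxd : MDiff (fun z : ℍ => G z / ModularForm.discriminant z ^ m) := SplitPrep.mdiff_quot hG
  have hinv := SplitPrep.quot_inv hG
  have hbdd := SplitPrep.quot_bdd hG
  -- the `p`-th root of `x`
  obtain ⟨w, hwd, hw⟩ := SplitPrep.exists_pow_eq_quot hG p hp hG0 hord
  -- the coset norm polynomial
  letI : Fintype (SL(2, ℤ) ⧸ Gamma0 N) := Fintype.ofFinite _
  obtain ⟨P, hPm, hPdeg, hPc, hPmap⟩ := CuspBound.exists_monic_of_bounded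
    (CuspBound.cosetFun (Gamma0 N) (fun z : ℍ => G z / ModularForm.discriminant z ^ m))
    (fun q => CuspBound.mdifferentiable_cosetFun hxd q)
    (fun γ => ⟨MulAction.toPerm γ⁻¹, fun q z => CuspBound.cosetFun_smul hinv γ q z⟩) m
    (fun q => hbdd (Quotient.out q)⁻¹)
  -- forward half: `P` satisfies the splitting condition
  have hS : SplitAlg.SplitP p P := by
    refine SplitNorm.splitP_of_pow p hp (fun q => CuspBound.cosetFun (Gamma0 N) w q)
      (fun q => CuspBound.mdifferentiable_cosetFun hwd q) P (fun z => ?_)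
    rw [hPmap z]
    refine Finset.prod_congr rfl fun q _ => ?_
    show Polynomial.X - Polynomial.C
        ((fun z : ℍ => G z / ModularForm.discriminant z ^ m) ((Quotient.out q)⁻¹ • z)) =
      Polynomial.X - Polynomial.C (w ((Quotient.out q)⁻¹ • z) ^ p)
    rw [hw]
    rfl
  -- `σ`-invariance
  have hS' : SplitAlg.SplitP p (P.map (Polynomial.mapRingHom (σ : ℂ →+* ℂ))) :=
    SplitAlg.splitP_map p σ hS
  have hPm' : (P.map (Polynomial.mapRingHom (σ : ℂ →+* ℂ))).Monic := hPm.map _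
  -- `x` is a root of `P`
  have hroot : ∀ z : ℍ, (P.map (Polynomial.evalRingHom (jFun z))).eval
      (G z / ModularForm.discriminant z ^ m) = 0 := by
    intro z
    rw [hPmap z, Polynomial.eval_prod]
    refine Finset.prod_eq_zero (Finset.mem_univ ((1 : SL(2, ℤ)) : SL(2, ℤ) ⧸ Gamma0 N)) ?_
    rw [CuspBound.cosetFun_mk hinv, inv_one, one_smul, Polynomial.eval_sub, Polynomial.eval_X,
      Polynomial.eval_C]
    exact sub_self _
  have hdeg : ∀ i ≤ P.natDegree, (P.coeff i).natDegree ≤ (P.natDegree - i) * m := by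
    intro i hi
    rw [hPdeg] at hi ⊢
    exact hPc i hi
  -- transport
  have hroot' := SplitTrans.root_of_coeffMap N m (σ : ℂ →+* ℂ) hG hG' hq P hdeg hroot
  have hG0' : G' ≠ 0 := ne_zero_of_qx_eq σ N m hG hG' hG0 hq
  -- backward half
  intro z₀
  obtain ⟨k, hk⟩ := SplitNorm.exists_order_eq_of_root p hp hPm' hS' (SplitPrep.mdiff_quot hG')
    hroot' z₀
  rw [SplitPrep.analyticOrderAt_quot hG' z₀] at hk
  have hfin := SplitPrep.analyticOrderAt_ne_top hGd' hG0' z₀
  have hktop : k ≠ ⊤ := by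
    rintro rfl
    have hp' : (p : ℕ∞) ≠ 0 := by exact_mod_cast hp.ne'
    rw [ENat.mul_top hp'] at hk
    exact hfin hk
  lift k to ℕ using hktop
  refine ⟨k, ?_⟩
  rw [hk]
  push_cast
  rfl

/-- **[KPInv]** (every natural number `p`; the case `p = 0` follows from the cases `p > 0`: an
order divisible by all positive integers is zero).  This is the hypothesis `hKPInv` of
`K3Stab.coeffMap_root_form_of`, verbatim. -/
theorem kpInv (σ : ℂ ≃+* ℂ) (N : ℕ) [NeZero N] (p m : ℕ) :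
    ∀ G G' : ℍ → ℂ, G ∈ S20.MF N (12 * m) → G' ∈ S20.MF N (12 * m) → G ≠ 0 →
      K.qx G' = coeffMap (σ : ℂ →+* ℂ) (K.qx G) →
      (∀ z₀ : ℍ, ∃ n : ℕ,
        analyticOrderAt (fun z : ℂ => G (ofComplex z)) (z₀ : ℂ) = ((p * n : ℕ) : ℕ∞)) →
      ∀ z₀ : ℍ, ∃ n : ℕ,
        analyticOrderAt (fun z : ℂ => G' (ofComplex z)) (z₀ : ℂ) = ((p * n : ℕ) : ℕ∞) := by
  intro G G' hG hG' hG0 hq hord
  rcases Nat.eq_zero_or_pos p with hp | hp
  · subst hp
    intro z₀
    have hGd' : MDiff G' := (S20.mem_MF_iff'.mp hG').1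
    have hG0' : G' ≠ 0 := ne_zero_of_qx_eq σ N m hG hG' hG0 hq
    have hfin := SplitPrep.analyticOrderAt_ne_top hGd' hG0' z₀
    obtain ⟨n, hn⟩ : ∃ n : ℕ,
        analyticOrderAt (fun z : ℂ => G' (ofComplex z)) (z₀ : ℂ) = (n : ℕ∞) :=
      ⟨_, (ENat.natCast_toNat hfin).symm⟩
    have hord' : ∀ z₁ : ℍ, ∃ k : ℕ,
        analyticOrderAt (fun z : ℂ => G (ofComplex z)) (z₁ : ℂ) = (((n + 1) * k : ℕ) : ℕ∞) := by
      intro z₁
      obtain ⟨k, hk⟩ := hord z₁
      exact ⟨0, by rw [hk]; simp⟩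
    obtain ⟨k, hk⟩ := kpInv_pos σ N (n + 1) m (Nat.succ_pos n) G G' hG hG' hG0 hq hord' z₀
    rw [hn] at hk
    have hk2 : n = (n + 1) * k := by exact_mod_cast hk
    have hk0 : k = 0 := by
      rcases Nat.eq_zero_or_pos k with h | h
      · exact h
      · exfalso
        have : n + 1 ≤ (n + 1) * k := Nat.le_mul_of_pos_right _ h
        omega
    have hn0 : n = 0 := by
      rw [hk0, Nat.mul_zero] at hk2
      exact hk2
    refine ⟨0, ?_⟩
    rw [hn, hn0]
  · exact kpInv_pos σ N p m hp G G' hG hG' hG0 hq hord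

end Fermat.Agent.S29.KSplit
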