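/-
S29 block [K], lead's design (R2b)/(R2c) in ABSTRACT form — MaxEval.lean (helper95).  Mathlib only.

* `exists_sub_mem_of_isMaximal` : in an algebra integral over `k[J]` (`k` algebraically closed),
  every maximal ideal contains `J - j₀` for some `j₀ : k`.
* `exists_eq_ker_of_sub_mem` : (R2b) if over `j₀` there is a finite family of `k`-points `ev i`
  such that every `h` not vanishing at any of them divides (in `O`) some `P(J)` with `P(j₀) ≠ 0`
  (model: `P(j) = ∏_cosets h ∘ γ`), then every maximal ideal containing `J - j₀` is the kernel of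
  one of the `ev i`.
* `exists_eq_mul_log_valuation` : (R2c) an additive order function on the fraction field of a
  Dedekind domain which vanishes on `O ∖ 𝔪` and is positive on `𝔪 ∖ 0` is `e ·` the `𝔪`-adic
  order, `e ≥ 1`.
-/
import Mathlib

set_option autoImplicit false

namespace Fermat.Agent.S29.MaxEval

open Polynomial IsDedekindDomain

theorem exists_sub_mem_of_isMaximal {k O : Type*} [Field k] [IsAlgClosed k] [CommRing O]
    [Algebra k O] (J : O) (hint : ∀ x : O, IsIntegral (Algebra.adjoin k {J}) x)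
    (𝔪 : Ideal O) [𝔪.IsMaximal] : ∃ j₀ : k, J - algebraMap k O j₀ ∈ 𝔪 := by
  classical
  let _ : Field (O ⧸ 𝔪) := Ideal.Quotient.field 𝔪
  set x : O ⧸ 𝔪 := Ideal.Quotient.mk 𝔪 J with hx
  -- the composite `k[X] → k[J] → O → O ⧸ 𝔪` is integral
  let Jₐ : Algebra.adjoin k {J} := ⟨J, Algebra.subset_adjoin (Set.mem_singleton J)⟩
  let φ : k[X] →ₐ[k] Algebra.adjoin k {J} := aeval Jₐ
  have hφ : Function.Surjective φ := by
    rintro ⟨a, ha⟩
    rw [Algebra.adjoin_singleton_eq_range_aeval] at ha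
    obtain ⟨p, rfl⟩ := ha
    exact ⟨p, Subtype.ext (Polynomial.aeval_subalgebra_coe p _ Jₐ)⟩
  have h1 : (algebraMap (Algebra.adjoin k {J}) O).IsIntegral := hint
  have h2 : (φ : k[X] →+* Algebra.adjoin k {J}).IsIntegral :=
    RingHom.isIntegral_of_surjective _ hφ
  have h3 : (Ideal.Quotient.mk 𝔪).IsIntegral :=
    RingHom.isIntegral_of_surjective _ Ideal.Quotient.mk_surjective
  have h4 := (h2.trans _ _ h1).trans _ _ h3
  have hcomp : ∀ p : k[X], ((Ideal.Quotient.mk 𝔪).comp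
      ((algebraMap (Algebra.adjoin k {J}) O).comp (φ : k[X] →+* Algebra.adjoin k {J}))) p
      = aeval x p := by
    intro p
    have : aeval x p = Ideal.Quotient.mkₐ k 𝔪 (aeval J p) :=
      Polynomial.aeval_algHom_apply (Ideal.Quotient.mkₐ k 𝔪) J p
    rw [this]
    have h5 : ((φ p : Algebra.adjoin k {J}) : O) = aeval J p :=
      Polynomial.aeval_subalgebra_coe p _ Jₐ
    change Ideal.Quotient.mk 𝔪 ((φ p : Algebra.adjoin k {J}) : O) = Ideal.Quotient.mk 𝔪 (aeval J p)
    rw [h5]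
  have halg : IsAlgebraic k x := by
    by_contra htr
    have hinj : Function.Injective (aeval x : k[X] →ₐ[k] O ⧸ 𝔪) :=
      transcendental_iff_injective.mp htr
    set f : k[X] →+* O ⧸ 𝔪 := (Ideal.Quotient.mk 𝔪).comp
      ((algebraMap (Algebra.adjoin k {J}) O).comp (φ : k[X] →+* Algebra.adjoin k {J})) with hf
    have hfinj : Function.Injective f := by
      intro p q hpq
      apply hinj
      rw [← hcomp p, ← hcomp q]
      exact hpq
    let _ : Algebra k[X] (O ⧸ 𝔪) := f.toAlgebra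
    have : Algebra.IsIntegral k[X] (O ⧸ 𝔪) := ⟨h4⟩
    exact Polynomial.not_isField k
      (isField_of_isIntegral_of_isField (R := k[X]) (S := O ⧸ 𝔪) hfinj (Field.toIsField _))
  have hxi : IsIntegral k x := halg.isIntegral
  have hdeg := IsAlgClosed.degree_eq_one_of_irreducible k (minpoly.irreducible hxi)
  obtain ⟨r, hr⟩ := minpoly.degree_eq_one_iff.mp hdeg
  refine ⟨r, ?_⟩
  rw [← Ideal.Quotient.eq_zero_iff_mem, map_sub, ← hx, ← hr]
  exact sub_eq_zero.mpr rfl

theorem exists_eq_ker_of_sub_mem {k O ι : Type*} [Field k] [CommRing O] [Algebra k O] [Finite ι]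
    (J : O) (j₀ : k) (ev : ι → O →ₐ[k] k)
    (hnorm : ∀ h : O, (∀ i, ev i h ≠ 0) →
      ∃ (P : k[X]) (b : O), aeval J P = h * b ∧ P.eval j₀ ≠ 0)
    (𝔪 : Ideal O) [h𝔪 : 𝔪.IsMaximal] (hJ : J - algebraMap k O j₀ ∈ 𝔪) :
    ∃ i, 𝔪 = RingHom.ker (ev i : O →+* k) := by
  classical
  by_contra hcon
  push Not at hcon
  have hker : ∀ i, (RingHom.ker (ev i : O →+* k)).IsMaximal := fun i =>
    RingHom.ker_isMaximal_of_surjective _ (fun c => ⟨algebraMap k O c, by simp⟩)
  have hnle : ∀ i, ¬ (𝔪 ≤ RingHom.ker (ev i : O →+* k)) := fun i hle =>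
    hcon i (h𝔪.eq_of_le (hker i).ne_top hle)
  obtain ⟨h, hh𝔪, hh⟩ : ∃ h ∈ 𝔪, ∀ i, ev i h ≠ 0 := by
    cases nonempty_fintype ι
    by_contra hno
    push Not at hno
    rcases isEmpty_or_nonempty ι with hι | ⟨⟨i₀⟩⟩
    · obtain ⟨i, -⟩ := hno 0 𝔪.zero_mem
      exact hι.elim i
    · have hsub : (𝔪 : Set O) ⊆ ⋃ i ∈ ((Finset.univ : Finset ι) : Set ι),
          (RingHom.ker (ev i : O →+* k) : Set O) := by
        intro y hy
        obtain ⟨i, hi⟩ := hno y hy
        simp only [Set.mem_iUnion]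
        exact ⟨i, Finset.mem_coe.mpr (Finset.mem_univ i), hi⟩
      obtain ⟨i, -, hi⟩ := (Ideal.subset_union_prime i₀ i₀
        (fun i _ _ _ => (hker i).isPrime)).1 hsub
      exact hnle i hi
  obtain ⟨P, b, hP, hP0⟩ := hnorm h hh
  have h1 : aeval J P ∈ 𝔪 := hP ▸ 𝔪.mul_mem_right b hh𝔪
  have h2 : aeval J P - algebraMap k O (P.eval j₀) ∈ 𝔪 := by
    have hdvd := Polynomial.sub_dvd_eval_sub J (algebraMap k O j₀) (P.map (algebraMap k O))
    rw [Polynomial.eval_map_algebraMap, Polynomial.eval_map_algebraMap,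
      Polynomial.aeval_algebraMap_apply] at hdvd
    obtain ⟨c, hc⟩ := hdvd
    rw [show (aeval j₀) P = P.eval j₀ from (Polynomial.coe_aeval_eq_eval j₀ ▸ rfl)] at hc
    rw [hc]
    exact 𝔪.mul_mem_right c hJ
  have h3 : algebraMap k O (P.eval j₀) ∈ 𝔪 := by
    have := 𝔪.sub_mem h1 h2
    simpa using this
  exact h𝔪.ne_top (Ideal.eq_top_of_isUnit_mem 𝔪 h3 ((isUnit_iff_ne_zero.mpr hP0).map _))

theorem exists_eq_mul_log_valuation {O F : Type*} [CommRing O] [IsDedekindDomain O] [Field F]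
    [Algebra O F] [IsFractionRing O F] (v : HeightOneSpectrum O) (w : F → ℤ)
    (hmul : ∀ x y : F, x ≠ 0 → y ≠ 0 → w (x * y) = w x + w y)
    (hunit : ∀ a : O, a ∉ v.asIdeal → w (algebraMap O F a) = 0)
    (hpos : ∀ a : O, a ∈ v.asIdeal → a ≠ 0 → 0 < w (algebraMap O F a)) :
    ∃ e : ℕ, 0 < e ∧ ∀ x : F, x ≠ 0 → w x = -((e : ℤ) * WithZero.log (v.valuation F x)) := by
  classical
  obtain ⟨π, hπ⟩ := v.intValuation_exists_uniformizer
  have hπ0 : π ≠ 0 := by
    rintro rfl
    rw [map_zero] at hπ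
    exact WithZero.exp_ne_zero hπ.symm
  have hπm : π ∈ v.asIdeal := by
    rw [← v.intValuation_lt_one_iff_mem, hπ, ← WithZero.exp_zero, WithZero.exp_lt_exp]
    norm_num
  have hπF : algebraMap O F π ≠ 0 := by
    simpa using hπ0
  have hwπ : 0 < w (algebraMap O F π) := hpos π hπm hπ0
  have hw1 : w 1 = 0 := by
    have h := hmul 1 1 one_ne_zero one_ne_zero
    rw [mul_one] at h
    linarith
  have hwinv : ∀ x : F, x ≠ 0 → w x⁻¹ = - w x := by
    intro x hx
    have h := hmul x x⁻¹ hx (inv_ne_zero hx)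
    rw [mul_inv_cancel₀ hx, hw1] at h
    linarith
  have hwnpow : ∀ n : ℕ, w ((algebraMap O F π) ^ n) = n * w (algebraMap O F π) := by
    intro n
    induction n with
    | zero => simp [hw1]
    | succ n ih =>
      rw [pow_succ, hmul _ _ (pow_ne_zero _ hπF) hπF, ih]
      push_cast
      ring
  have hwpow : ∀ n : ℤ, w ((algebraMap O F π) ^ n) = n * w (algebraMap O F π) := by
    intro n
    obtain ⟨m, rfl | rfl⟩ := Int.eq_nat_or_neg n
    · rw [zpow_natCast, hwnpow]
    · rw [zpow_neg, zpow_natCast, hwinv _ (pow_ne_zero _ hπF), hwnpow]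
      ring
  have hw_unit : ∀ y : F, v.valuation F y = 1 → w y = 0 := by
    intro y hy
    have hy0 : y ≠ 0 := by
      rintro rfl
      simp at hy
    obtain ⟨n, d, hnd⟩ := v.exists_primeCompl_mul_eq_of_integer y hy.le
    have hd : (d : O) ∉ v.asIdeal := d.2
    have hvd : v.valuation F (algebraMap O F (d : O)) = 1 :=
      (v.valuation_eq_one_iff_notMem (K := F)).mpr hd
    have hvn : v.valuation F (algebraMap O F n) = 1 := by
      rw [← hnd, map_mul, hy, hvd, one_mul]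
    have hn : n ∉ v.asIdeal := (v.valuation_eq_one_iff_notMem (K := F)).mp hvn
    have hd0 : algebraMap O F (d : O) ≠ 0 := by
      intro h
      rw [h] at hvd
      simp at hvd
    have h := hmul y (algebraMap O F (d : O)) hy0 hd0
    rw [hnd, hunit n hn, hunit _ hd] at h
    linarith
  refine ⟨(w (algebraMap O F π)).toNat, by omega, ?_⟩
  intro x hx
  have hvx0 : v.valuation F x ≠ 0 := by simpa using hx
  have hvx : v.valuation F x = WithZero.exp (WithZero.log (v.valuation F x)) :=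
    (WithZero.exp_log hvx0).symm
  have hvπ : v.valuation F (algebraMap O F π) = WithZero.exp (-1 : ℤ) := by
    rw [HeightOneSpectrum.valuation_of_algebraMap, hπ]
  have hvy : v.valuation F (x * (algebraMap O F π) ^ (WithZero.log (v.valuation F x))) = 1 := by
    rw [map_mul, map_zpow₀, hvπ, ← WithZero.exp_zsmul]
    nth_rewrite 1 [hvx]
    rw [← WithZero.exp_add, ← WithZero.exp_zero]
    congr 1
    simp
  have h0 := hw_unit _ hvy
  rw [hmul x _ hx (zpow_ne_zero _ hπF), hwpow] at h0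
  rw [Int.toNat_of_nonneg hwπ.le]
  linarith

/-- Divisibility transfer, forward: `p ∣ ord_𝔪 x ⇒ p ∣ w x`. -/
theorem dvd_of_dvd_log {O F : Type*} [CommRing O] [IsDedekindDomain O] [Field F]
    [Algebra O F] [IsFractionRing O F] (v : HeightOneSpectrum O) (w : F → ℤ)
    (hmul : ∀ x y : F, x ≠ 0 → y ≠ 0 → w (x * y) = w x + w y)
    (hunit : ∀ a : O, a ∉ v.asIdeal → w (algebraMap O F a) = 0)
    (hpos : ∀ a : O, a ∈ v.asIdeal → a ≠ 0 → 0 < w (algebraMap O F a))
    (p : ℤ) {x : F} (hx : x ≠ 0) (h : p ∣ WithZero.log (v.valuation F x)) : p ∣ w x := by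
  obtain ⟨e, -, he⟩ := exists_eq_mul_log_valuation v w hmul hunit hpos
  rw [he x hx]
  exact (Dvd.dvd.mul_left h _).neg_right

/-- Divisibility transfer, backward: if `p` is prime, `p ∣ w x` and `p ∤ w t` for some `t ≠ 0`
(so `p ∤ e`), then `p ∣ ord_𝔪 x`. -/
theorem dvd_log_of_dvd {O F : Type*} [CommRing O] [IsDedekindDomain O] [Field F]
    [Algebra O F] [IsFractionRing O F] (v : HeightOneSpectrum O) (w : F → ℤ)
    (hmul : ∀ x y : F, x ≠ 0 → y ≠ 0 → w (x * y) = w x + w y)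
    (hunit : ∀ a : O, a ∉ v.asIdeal → w (algebraMap O F a) = 0)
    (hpos : ∀ a : O, a ∈ v.asIdeal → a ≠ 0 → 0 < w (algebraMap O F a))
    {p : ℕ} (hp : p.Prime) {t : F} (ht : t ≠ 0) (hpt : ¬ (p : ℤ) ∣ w t)
    {x : F} (hx : x ≠ 0) (h : (p : ℤ) ∣ w x) : (p : ℤ) ∣ WithZero.log (v.valuation F x) := by
  obtain ⟨e, -, he⟩ := exists_eq_mul_log_valuation v w hmul hunit hpos
  have hpe : ¬ (p : ℤ) ∣ (e : ℤ) := by
    intro hpe
    apply hpt
    rw [he t ht]
    exact (Dvd.dvd.mul_right hpe _).neg_right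
  rw [he x hx, dvd_neg] at h
  exact ((Nat.prime_iff_prime_int.mp hp).dvd_or_dvd h).resolve_left hpe

/-- (R2b), packaged: `O` integral over `k[J]`, `k` algebraically closed, and for every `j₀` a
finite set `s j₀` of points (of any type `Z` of `k`-points of `O`) with the norm property.  Then
every maximal ideal of `O` is the kernel of the evaluation at a point of some `s j₀`, where `j₀`
is the value of `J` at that ideal. -/
theorem exists_eq_ker_of_isMaximal {k O Z : Type*} [Field k] [IsAlgClosed k] [CommRing O]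
    [Algebra k O] (J : O) (hint : ∀ x : O, IsIntegral (Algebra.adjoin k {J}) x)
    (ev : Z → O →ₐ[k] k) (s : k → Finset Z)
    (hnorm : ∀ (j₀ : k) (h : O), (∀ z ∈ s j₀, ev z h ≠ 0) →
      ∃ (P : k[X]) (b : O), aeval J P = h * b ∧ P.eval j₀ ≠ 0)
    (𝔪 : Ideal O) [𝔪.IsMaximal] :
    ∃ j₀ : k, J - algebraMap k O j₀ ∈ 𝔪 ∧ ∃ z ∈ s j₀, 𝔪 = RingHom.ker (ev z : O →+* k) := by
  obtain ⟨j₀, hj₀⟩ := exists_sub_mem_of_isMaximal J hint 𝔪
  refine ⟨j₀, hj₀, ?_⟩
  obtain ⟨i, hi⟩ := exists_eq_ker_of_sub_mem (ι := {z // z ∈ s j₀}) J j₀ (fun i => ev i.1)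
    (fun h hh => hnorm j₀ h (fun z hz => hh ⟨z, hz⟩)) 𝔪 hj₀
  exact ⟨i.1, i.2, hi⟩

end Fermat.Agent.S29.MaxEval
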