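import Mathlib
import Fermat.Agent.S29.KDefs
import Fermat.Agent.S29.KBasic
import Fermat.Agent.S29.InvRat
import Fermat.Agent.S29.JOrd
import Fermat.Agent.S29.K1IntAux

/-!
# S29 block [K], (R2)-model: the ring of holomorphic `Γ₀(N)`-invariant functions of moderate growth

OWNER: helper15 (only the owner edits this file).

* `Ran N` : the `ℂ`-algebra of functions `f : ℍ → ℂ` such that `f * Δ ^ m` is a modular form of
  weight `12 m` and level `Γ₀(N)` for some `m` (holomorphic, `Γ₀(N)`-invariant, at most a pole of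
  order `m` at every cusp).
* `Psi N : Ran N →ₐ[ℂ] ℂ((q))` : the `q`-expansion `f ↦ qx (f * Δ ^ m) / DeltaC ^ m`, an injective
  algebra homomorphism; `Psi_mul_pow` is its defining property, `Psi_jR` says `Psi j = jC`.
* `ev N z : Ran N →ₐ[ℂ] ℂ` : evaluation at a point.
* `ordR`, the order of vanishing at a point, with its calculus (`ordR_mul`, `ordR_eq_zero`,
  `ordR_jR_sub`).
-/

set_option autoImplicit false

namespace Fermat.Agent.S29.OAn

open UpperHalfPlane ModularForm CongruenceSubgroup ModularCurve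
open scoped MatrixGroups ModularForm Manifold
open Fermat.Agent.S29.K Fermat.Agent.LevelOne

local notation "Δ" => (ModularForm.discriminant : ℍ → ℂ)

variable (N : ℕ)

/-- `f * Δ ^ m` is a modular form of weight `12 m` on `Γ₀(N)`. -/
def IsMod (m : ℕ) (f : ℍ → ℂ) : Prop := f * Δ ^ m ∈ S20.MF N (12 * (m : ℤ))

variable {N}

theorem discriminant_pow_mem_MF (N : ℕ) (k : ℕ) : Δ ^ k ∈ S20.MF N (12 * (k : ℤ)) :=
  S20.Base.cast_mem_MF (by ring) (S20.Base.pow_mem_MF (discriminant_mem_MF N) k)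

theorem IsMod.add_right {m : ℕ} {f : ℍ → ℂ} (h : IsMod N m f) (k : ℕ) : IsMod N (m + k) f := by
  have h1 := S20.Base.mul_mem_MF h (discriminant_pow_mem_MF N k)
  have e : f * Δ ^ (m + k) = f * Δ ^ m * Δ ^ k := by rw [pow_add, mul_assoc]
  unfold IsMod
  rw [e]
  exact S20.Base.cast_mem_MF (by push_cast; ring) h1

theorem IsMod.of_le {m m' : ℕ} {f : ℍ → ℂ} (h : IsMod N m f) (hm : m ≤ m') : IsMod N m' f := by
  obtain ⟨k, rfl⟩ := Nat.exists_eq_add_of_le hm
  exact h.add_right k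

theorem IsMod.mul {m m' : ℕ} {f g : ℍ → ℂ} (hf : IsMod N m f) (hg : IsMod N m' g) :
    IsMod N (m + m') (f * g) := by
  have h1 := S20.Base.mul_mem_MF hf hg
  have e : f * g * Δ ^ (m + m') = f * Δ ^ m * (g * Δ ^ m') := by rw [pow_add]; ring
  unfold IsMod
  rw [e]
  exact S20.Base.cast_mem_MF (by push_cast; ring) h1

theorem IsMod.add {m : ℕ} {f g : ℍ → ℂ} (hf : IsMod N m f) (hg : IsMod N m g) :
    IsMod N m (f + g) := by
  unfold IsMod at hf hg ⊢
  rw [add_mul]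
  exact (S20.MF N _).add_mem hf hg

theorem isMod_const (N : ℕ) (c : ℂ) : IsMod N 0 (algebraMap ℂ (ℍ → ℂ) c) := by
  unfold IsMod
  rw [pow_zero, mul_one]
  have h : algebraMap ℂ (ℍ → ℂ) c = c • (1 : ℍ → ℂ) := by
    ext z; simp
  rw [h]
  exact (S20.MF N _).smul_mem c (by simpa using S20.Base.one_mem_MF N)

variable (N)

/-- The algebra of holomorphic `Γ₀(N)`-invariant functions on `ℍ` with at most poles at the
cusps. -/
def Ran : Subalgebra ℂ (ℍ → ℂ) where
  carrier := {f | ∃ m : ℕ, IsMod N m f}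
  mul_mem' := by
    rintro f g ⟨m, hf⟩ ⟨m', hg⟩
    exact ⟨m + m', hf.mul hg⟩
  add_mem' := by
    rintro f g ⟨m, hf⟩ ⟨m', hg⟩
    exact ⟨m + m', (hf.add_right m').add (hg.of_le (Nat.le_add_left _ _))⟩
  algebraMap_mem' := fun c => ⟨0, isMod_const N c⟩

variable {N}

theorem mem_Ran {f : ℍ → ℂ} : f ∈ Ran N ↔ ∃ m : ℕ, IsMod N m f := Iff.rfl

theorem IsMod.mem_niceSub [NeZero N] {m : ℕ} {f : ℍ → ℂ} (h : IsMod N m f) :
    f * Δ ^ m ∈ S23.niceSub := mem_niceSub_of_mem_MF h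

theorem discriminant_pow_mem_niceSub (k : ℕ) : Δ ^ k ∈ S23.niceSub :=
  S23.niceSub.pow_mem S24.AnBridge.discriminant_mem_niceSub k

theorem qx_discriminant_pow (k : ℕ) : qx (Δ ^ k) = DeltaC ^ k :=
  qx_pow S24.AnBridge.discriminant_mem_niceSub k

theorem mdiff_of_isMod {m : ℕ} {f : ℍ → ℂ} (h : IsMod N m f) : MDiff f := by
  have h1 : MDiff (f * Δ ^ m) := S20.Base.mdiff_of_mem_MF h
  have h2 : MDiff (Δ ^ m) := (ModularFormClass.holo CuspForm.discriminant).pow m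
  rw [UpperHalfPlane.mdifferentiable_iff] at h1 h2 ⊢
  have h3 : DifferentiableOn ℂ
      (fun w : ℂ => ((f * Δ ^ m) ∘ ofComplex) w / ((Δ ^ m) ∘ ofComplex) w) {w | 0 < w.im} :=
    h1.div h2 (fun w _ => pow_ne_zero m (ModularForm.discriminant_ne_zero _))
  refine h3.congr (fun w _ => ?_)
  simp only [Function.comp_apply, Pi.mul_apply, Pi.pow_apply]
  rw [mul_div_assoc, div_self (pow_ne_zero m (ModularForm.discriminant_ne_zero _)), mul_one]

theorem mdiff_of_mem_Ran {f : ℍ → ℂ} (hf : f ∈ Ran N) : MDiff f := by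
  obtain ⟨m, hm⟩ := hf
  exact mdiff_of_isMod hm

/-- The `q`-expansion of `f` computed with the exponent `m`. -/
noncomputable def psiFun (f : ℍ → ℂ) (m : ℕ) : LaurentSeries ℂ := qx (f * Δ ^ m) * (DeltaC⁻¹) ^ m

theorem psiFun_mul_pow (f : ℍ → ℂ) (m : ℕ) : psiFun f m * DeltaC ^ m = qx (f * Δ ^ m) := by
  unfold psiFun
  rw [mul_assoc, ← mul_pow, inv_mul_cancel₀ DeltaC_ne_zero, one_pow, mul_one]

theorem psiFun_add_right [NeZero N] {m : ℕ} {f : ℍ → ℂ} (h : IsMod N m f) (k : ℕ) :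
    psiFun f (m + k) = psiFun f m := by
  have e : f * Δ ^ (m + k) = f * Δ ^ m * Δ ^ k := by rw [pow_add, mul_assoc]
  have h1 : qx (f * Δ ^ (m + k)) = qx (f * Δ ^ m) * DeltaC ^ k := by
    rw [e, qx_mul h.mem_niceSub (discriminant_pow_mem_niceSub k), qx_discriminant_pow]
  have hk : DeltaC ^ k * DeltaC⁻¹ ^ k = 1 := by
    rw [← mul_pow, mul_inv_cancel₀ DeltaC_ne_zero, one_pow]
  unfold psiFun
  rw [h1, pow_add]
  calc qx (f * Δ ^ m) * DeltaC ^ k * (DeltaC⁻¹ ^ m * DeltaC⁻¹ ^ k)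
      = qx (f * Δ ^ m) * DeltaC⁻¹ ^ m * (DeltaC ^ k * DeltaC⁻¹ ^ k) := by ring
    _ = qx (f * Δ ^ m) * DeltaC⁻¹ ^ m := by rw [hk, mul_one]

theorem psiFun_eq [NeZero N] {m m' : ℕ} {f : ℍ → ℂ} (h : IsMod N m f) (h' : IsMod N m' f) :
    psiFun f m = psiFun f m' := by
  rw [← psiFun_add_right h m', ← psiFun_add_right h' m, add_comm]

variable (N)

/-- The `q`-expansion map on `Ran N`, as a function. -/
noncomputable def psi (f : Ran N) : LaurentSeries ℂ := psiFun (f : ℍ → ℂ) (Classical.choose f.2)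

variable {N}

theorem psi_eq [NeZero N] (f : Ran N) {m : ℕ} (h : IsMod N m (f : ℍ → ℂ)) :
    psi N f = psiFun (f : ℍ → ℂ) m :=
  psiFun_eq (Classical.choose_spec f.2) h

theorem psi_mul_pow [NeZero N] (f : Ran N) {m : ℕ} (h : IsMod N m (f : ℍ → ℂ)) :
    psi N f * DeltaC ^ m = qx ((f : ℍ → ℂ) * Δ ^ m) := by
  rw [psi_eq f h, psiFun_mul_pow]

theorem eq_of_mul_pow_eq {x y : LaurentSeries ℂ} {m : ℕ} (h : x * DeltaC ^ m = y * DeltaC ^ m) :
    x = y :=
  mul_right_cancel₀ (pow_ne_zero m DeltaC_ne_zero) h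

variable (N)

/-- The `q`-expansion map on `Ran N`, as an algebra homomorphism into `ℂ((q))`. -/
noncomputable def Psi [NeZero N] : Ran N →ₐ[ℂ] LaurentSeries ℂ where
  toFun := psi N
  map_one' := by
    have h : IsMod N 0 (((1 : Ran N) : ℍ → ℂ)) := by
      have := isMod_const N 1
      simpa using this
    have h1 := psi_mul_pow (1 : Ran N) h
    rw [pow_zero, mul_one, pow_zero, mul_one] at h1
    rw [h1]
    exact qx_one
  map_mul' := by
    rintro ⟨f, m, hf⟩ ⟨g, m', hg⟩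
    have hfg : IsMod N (m + m') (f * g) := hf.mul hg
    have h1 := psi_mul_pow (⟨f, m, hf⟩ * ⟨g, m', hg⟩ : Ran N) hfg
    have h2 := psi_mul_pow (⟨f, m, hf⟩ : Ran N) hf
    have h3 := psi_mul_pow (⟨g, m', hg⟩ : Ran N) hg
    apply eq_of_mul_pow_eq (m := m + m')
    rw [h1]
    have e : ((⟨f, m, hf⟩ * ⟨g, m', hg⟩ : Ran N) : ℍ → ℂ) * Δ ^ (m + m')
        = f * Δ ^ m * (g * Δ ^ m') := by
      show f * g * Δ ^ (m + m') = _
      rw [pow_add]; ring
    rw [e, qx_mul hf.mem_niceSub hg.mem_niceSub, ← h2, ← h3, pow_add]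
    ring
  map_zero' := by
    have h : IsMod N 0 (((0 : Ran N) : ℍ → ℂ)) := by
      have := isMod_const N 0
      simpa using this
    have h1 := psi_mul_pow (0 : Ran N) h
    rw [pow_zero, mul_one, pow_zero, mul_one] at h1
    rw [h1]
    exact qx_zero
  map_add' := by
    rintro ⟨f, m, hf⟩ ⟨g, m', hg⟩
    have hf' : IsMod N (m + m') f := hf.add_right m'
    have hg' : IsMod N (m + m') g := hg.of_le (Nat.le_add_left _ _)
    have hfg : IsMod N (m + m') (f + g) := hf'.add hg'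
    have h1 := psi_mul_pow (⟨f, m, hf⟩ + ⟨g, m', hg⟩ : Ran N) hfg
    have h2 := psi_mul_pow (⟨f, m, hf⟩ : Ran N) hf'
    have h3 := psi_mul_pow (⟨g, m', hg⟩ : Ran N) hg'
    apply eq_of_mul_pow_eq (m := m + m')
    rw [h1]
    have e : ((⟨f, m, hf⟩ + ⟨g, m', hg⟩ : Ran N) : ℍ → ℂ) * Δ ^ (m + m')
        = f * Δ ^ (m + m') + g * Δ ^ (m + m') := by
      show (f + g) * Δ ^ (m + m') = _
      rw [add_mul]
    rw [e, qx_add hf'.mem_niceSub hg'.mem_niceSub, ← h2, ← h3, add_mul]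
  commutes' := by
    intro c
    have h : IsMod N 0 ((algebraMap ℂ (Ran N) c : Ran N) : ℍ → ℂ) := isMod_const N c
    have h1 := psi_mul_pow (algebraMap ℂ (Ran N) c) h
    rw [pow_zero, mul_one, pow_zero, mul_one] at h1
    rw [h1]
    have e : ((algebraMap ℂ (Ran N) c : Ran N) : ℍ → ℂ) = fun _ : ℍ => c := by
      ext z; simp
    rw [e, qx_const, algebraMap_laurentSeries_eq_single]
    rfl

variable {N}

theorem Psi_mul_pow [NeZero N] (f : Ran N) {m : ℕ} (h : IsMod N m (f : ℍ → ℂ)) :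
    Psi N f * DeltaC ^ m = qx ((f : ℍ → ℂ) * Δ ^ m) := psi_mul_pow f h

theorem Psi_injective [NeZero N] : Function.Injective (Psi N) := by
  rw [injective_iff_map_eq_zero]
  rintro ⟨f, m, hf⟩ h0
  have h1 := Psi_mul_pow (⟨f, m, hf⟩ : Ran N) hf
  rw [h0, zero_mul] at h1
  have h2 : f * Δ ^ m = 0 := (qx_eq_zero_iff hf.mem_niceSub).mp h1.symm
  apply Subtype.ext
  funext z
  have h3 := congrFun h2 z
  simp only [Pi.mul_apply, Pi.pow_apply, Pi.zero_apply] at h3
  exact (mul_eq_zero.mp h3).resolve_right (pow_ne_zero m (ModularForm.discriminant_ne_zero z))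

/-- Every value of `Psi` is a quotient of two forms of the same weight (a member of the witness
class `Mchi N 1`). -/
theorem Psi_mem_Mchi_one [NeZero N] (f : Ran N) : Psi N f ∈ Mchi N 1 := by
  obtain ⟨m, hm⟩ := f.2
  refine ⟨12 * (m : ℤ), (f : ℍ → ℂ) * Δ ^ m, Δ ^ m, mem_MFchi_one_iff.mpr hm,
    discriminant_pow_mem_MF N m, ?_, ?_⟩
  · intro h
    have := congrFun h UpperHalfPlane.I
    exact pow_ne_zero m (ModularForm.discriminant_ne_zero _) this
  · rw [qx_discriminant_pow]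
    exact Psi_mul_pow f hm

/-! ### Invariance, growth, and the inverse of `Psi` -/

theorem discriminant_pow_ne_zero (m : ℕ) : (Δ ^ m : ℍ → ℂ) ≠ 0 := by
  intro h
  have := congrFun h UpperHalfPlane.I
  exact pow_ne_zero m (ModularForm.discriminant_ne_zero _) this

theorem IsMod.apply_smul [NeZero N] {m : ℕ} {f : ℍ → ℂ} (h : IsMod N m f) {γ : SL(2, ℤ)}
    (hγ : γ ∈ Gamma0 N) (z : ℍ) : f (γ • z) = f z :=
  K1IntAux.apply_smul_eq_of_mul_eq h (discriminant_pow_mem_MF N m) (discriminant_pow_ne_zero m)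
    (mdiff_of_isMod h) (fun _ => rfl) hγ z

theorem IsMod.bdd [NeZero N] {m : ℕ} {f : ℍ → ℂ} (h : IsMod N m f) (g : SL(2, ℤ)) :
    IsBoundedAtImInfty (fun z : ℍ => ModularForm.discriminant z ^ m * f (g • z)) := by
  have h1 := (S20.mem_MF_iff'.mp h).2.2 g
  have e : f * Δ ^ m = fun z => ModularForm.discriminant z ^ m * f z := by
    funext z
    simp only [Pi.mul_apply, Pi.pow_apply]
    ring
  rw [e, K1IntAux.slash_discriminant_pow_mul] at h1
  exact h1

theorem isMod_div {m : ℕ} {G : ℍ → ℂ} (hG : G ∈ S20.MF N (12 * (m : ℤ))) :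
    IsMod N m (fun z => G z / ModularForm.discriminant z ^ m) := by
  have e : (fun z => G z / ModularForm.discriminant z ^ m) * Δ ^ m = G := by
    funext z
    simp only [Pi.mul_apply, Pi.pow_apply]
    rw [div_mul_cancel₀ _ (pow_ne_zero m (ModularForm.discriminant_ne_zero z))]
  unfold IsMod
  rw [e]
  exact hG

/-- A Laurent series `x` with `x * DeltaC ^ m = qx G`, `G` a form of weight `12 m`, is the
`q`-expansion of the element `G / Δ ^ m` of `Ran N`. -/
theorem exists_Psi_eq [NeZero N] {m : ℕ} {G : ℍ → ℂ} (hG : G ∈ S20.MF N (12 * (m : ℤ)))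
    {x : LaurentSeries ℂ} (hx : x * DeltaC ^ m = qx G) :
    ∃ f : Ran N, Psi N f = x ∧ ∀ z : ℍ, (f : ℍ → ℂ) z * ModularForm.discriminant z ^ m = G z := by
  refine ⟨⟨fun z => G z / ModularForm.discriminant z ^ m, m, isMod_div hG⟩, ?_, fun z => ?_⟩
  · apply eq_of_mul_pow_eq (m := m)
    rw [Psi_mul_pow _ (isMod_div hG), hx]
    congr 1
    funext z
    simp only [Pi.mul_apply, Pi.pow_apply]
    rw [div_mul_cancel₀ _ (pow_ne_zero m (ModularForm.discriminant_ne_zero z))]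
  · show G z / ModularForm.discriminant z ^ m * ModularForm.discriminant z ^ m = G z
    rw [div_mul_cancel₀ _ (pow_ne_zero m (ModularForm.discriminant_ne_zero z))]

theorem apply_smul_of_mem_Ran [NeZero N] (f : Ran N) {γ : SL(2, ℤ)} (hγ : γ ∈ Gamma0 N) (z : ℍ) :
    (f : ℍ → ℂ) (γ • z) = (f : ℍ → ℂ) z := by
  obtain ⟨m, hm⟩ := f.2
  exact hm.apply_smul hγ z

theorem bdd_of_mem_Ran [NeZero N] (f : Ran N) : ∃ m : ℕ, ∀ g : SL(2, ℤ),
    IsBoundedAtImInfty (fun z : ℍ => ModularForm.discriminant z ^ m * (f : ℍ → ℂ) (g • z)) := by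
  obtain ⟨m, hm⟩ := f.2
  exact ⟨m, fun g => hm.bdd g⟩


/-! ### The function `j` -/

theorem isMod_jFun (N : ℕ) : IsMod N 1 jFun := by
  have h : jFun * Δ ^ 1 = (E₄ : ℍ → ℂ) ^ 3 := by
    funext z
    simp only [Pi.mul_apply, Pi.pow_apply, pow_one]
    exact jFun_mul_discriminant z
  unfold IsMod
  rw [h]
  exact S20.Base.LF_le_MF N _ (S20.Base.cast_mem_LF (by norm_num)
    (S20.Base.pow_mem_LF S20.Base.E4_mem_LF 3))

variable (N)

/-- The function `j` as an element of `Ran N`. -/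
noncomputable def jR : Ran N := ⟨jFun, 1, isMod_jFun N⟩

variable {N}

@[simp] theorem coe_jR : ((jR N : Ran N) : ℍ → ℂ) = jFun := rfl

theorem Psi_jR [NeZero N] : Psi N (jR N) = jC := by
  have h1 := Psi_mul_pow (jR N) (isMod_jFun N)
  have h : jFun * Δ ^ 1 = (E₄ : ℍ → ℂ) ^ 3 := by
    funext z
    simp only [Pi.mul_apply, Pi.pow_apply, pow_one]
    exact jFun_mul_discriminant z
  rw [coe_jR, h, qx_pow (S24.AnBridge.levelOne_mem_niceSub E₄) 3, ← jC_mul_DeltaC] at h1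
  apply eq_of_mul_pow_eq (m := 1)
  rw [h1, pow_one]

/-! ### Evaluation and orders -/

variable (N)

/-- Evaluation at a point of the upper half plane. -/
noncomputable def ev (z : ℍ) : Ran N →ₐ[ℂ] ℂ :=
  (Pi.evalAlgHom ℂ (fun _ : ℍ => ℂ) z).comp (Ran N).val

variable {N}

@[simp] theorem ev_apply (z : ℍ) (f : Ran N) : ev N z f = (f : ℍ → ℂ) z := rfl

theorem ev_jR (z : ℍ) : ev N z (jR N) = jFun z := rfl

/-- The order of vanishing of an element of `Ran N` at a point (`0` for the zero function). -/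
noncomputable def ordR (z : ℍ) (f : Ran N) : ℕ := (InvRat.ordH (f : ℍ → ℂ) z).toNat

theorem coe_ne_zero {f : Ran N} (hf : f ≠ 0) : ∃ z, (f : ℍ → ℂ) z ≠ 0 := by
  by_contra hcon
  simp only [not_exists, not_not] at hcon
  exact hf (Subtype.ext (funext hcon))

theorem cast_ordR (z : ℍ) {f : Ran N} (hf : f ≠ 0) :
    ((ordR z f : ℕ) : ℕ∞) = InvRat.ordH (f : ℍ → ℂ) z :=
  ENat.natCast_toNat (InvRat.ordH_ne_top (mdiff_of_mem_Ran f.2) (coe_ne_zero hf) z)

theorem ordR_mul (z : ℍ) {f g : Ran N} (hf : f ≠ 0) (hg : g ≠ 0) :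
    ordR z (f * g) = ordR z f + ordR z g := by
  have h := InvRat.ordH_mul (mdiff_of_mem_Ran f.2) (mdiff_of_mem_Ran g.2) z
  have e : ordR z (f * g) = (InvRat.ordH ((f : ℍ → ℂ) * (g : ℍ → ℂ)) z).toNat := rfl
  rw [e, h, ← cast_ordR z hf, ← cast_ordR z hg, ← Nat.cast_add, ENat.toNat_natCast]

theorem ordR_eq_zero_of_ev_ne_zero (z : ℍ) {f : Ran N} (h : ev N z f ≠ 0) : ordR z f = 0 := by
  unfold ordR
  rw [(InvRat.ordH_eq_zero (mdiff_of_mem_Ran f.2) z).mpr h]
  rfl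

theorem ordR_pos_of_ev_eq_zero (z : ℍ) {f : Ran N} (hf : f ≠ 0) (h : ev N z f = 0) :
    0 < ordR z f := by
  rw [Nat.pos_iff_ne_zero]
  intro h0
  have h1 := cast_ordR z hf
  rw [h0, Nat.cast_zero] at h1
  exact (InvRat.ordH_eq_zero (mdiff_of_mem_Ran f.2) z).mp h1.symm h

theorem ordR_jR_sub (z : ℍ) :
    ordR z (jR N - algebraMap ℂ (Ran N) (jFun z)) = JOrd.jE (jFun z) := by
  have h := JOrd.analyticOrderAt_jFun_sub z
  have e : InvRat.ordH ((jR N - algebraMap ℂ (Ran N) (jFun z) : Ran N) : ℍ → ℂ) z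
      = analyticOrderAt (fun w : ℂ => jFun (ofComplex w) - jFun z) (z : ℂ) := by
    unfold InvRat.ordH
    congr 1
  unfold ordR
  rw [e, h]
  rfl

end Fermat.Agent.S29.OAn
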