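/-
S29 block [K], row [PP] (helper72): the `σ`-action on `F_ℂ` and on `O_N` in the `ODed` shape
(independent spare; route B of [KPInv] builds its own action on `R2.ON N` in `K3Model.lean`).

For a ring automorphism `σ` of `ℂ`, the coefficientwise map `coeffMap σ` of `ℂ((q))` induces ring
automorphisms

* `sigF N σ : F_ℂ ≃+* F_ℂ`            (`F_ℂ = K.FC N`),
* `sigO N σ : O_N ≃+* O_N`            (`O_N = ODed.ON N`, the integral closure of `ℂ[j]` in `F_ℂ`),

which are compatible (`sigF_algebraMap`), act on the constants through `σ` (`sigO_algebraMap`) and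
fix `j` (`sigO_jO`).  Together with `jO_ne_algebraMap` (`j` is not a constant) and `jE_sigma`
(`JOrd.jE ∘ σ = JOrd.jE`) these are the hypotheses `hστ`, `hτk`, `hτj`, `hj`, `hEs` of
`PStar.pStar_map` / `PStar.forall_dvd_map` (helper20's `S29/PStar.lean`).

Also: `mem_ON_iff` (membership of `O_N` in the vocabulary of the dictionary leaves: integrality of
the Laurent series over `ℂ[jC]`) and the generic `isIntegral_map_iff` (integrality over a
subalgebra is preserved and reflected by injective algebra maps).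
-/
import Mathlib
import Fermat.Agent.S29.KDefs
import Fermat.Agent.S29.ODed
import Fermat.Agent.S29.SigmaFix
import Fermat.Agent.S29.JOrd

set_option autoImplicit false

noncomputable section

namespace Fermat.Agent.S29.PPAut

open ModularCurve
open Fermat.Agent.S29

/-! ### Integrality and injective algebra maps -/

/-- Integrality over a subalgebra is preserved and reflected by an injective algebra map. -/
theorem isIntegral_map_iff {R A B : Type*} [CommRing R] [CommRing A] [CommRing B] [Algebra R A]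
    [Algebra R B] (f : A →ₐ[R] B) (hf : Function.Injective f) (S : Subalgebra R A) (x : A) :
    IsIntegral ↥(S.map f) (f x) ↔ IsIntegral ↥S x := by
  let e : ↥S ≃ₐ[R] ↥(S.map f) := S.equivMapOfInjective f hf
  constructor
  · rintro ⟨p, hp, hpx⟩
    refine ⟨p.map (e.symm : ↥(S.map f) →+* ↥S), hp.map _, ?_⟩
    apply hf
    rw [map_zero, ← hpx, Polynomial.eval₂_map]
    have h1 := Polynomial.hom_eval₂ p ((algebraMap ↥S A).comp (e.symm : ↥(S.map f) →+* ↥S))
      (f : A →+* B) x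
    have h2 : (f : A →+* B).comp ((algebraMap ↥S A).comp (e.symm : ↥(S.map f) →+* ↥S)) =
        algebraMap ↥(S.map f) B := by
      refine RingHom.ext fun b => ?_
      have h3 : ((e (e.symm b) : ↥(S.map f)) : B) = f ((e.symm b : ↥S) : A) := rfl
      rw [AlgEquiv.apply_symm_apply] at h3
      exact h3.symm
    rw [h2] at h1
    exact h1
  · intro h
    exact h.map_of_comp_eq (e : ↥S →+* ↥(S.map f)) (f : A →+* B) (RingHom.ext fun a => rfl)

/-- Integrality only depends on the subalgebra. -/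
theorem isIntegral_congr {R A : Type*} [CommRing R] [CommRing A] [Algebra R A]
    {S T : Subalgebra R A} (h : S = T) (x : A) : IsIntegral ↥S x ↔ IsIntegral ↥T x := by
  subst h
  rfl

/-! ### The action on `F_ℂ` -/

variable (N : ℕ)

/-- `coeffMap σ` on `F_ℂ`, as a ring endomorphism. -/
def sigFHom (σ : ℂ ≃+* ℂ) : ↥(K.FC N) →+* ↥(K.FC N) :=
  ((coeffMap (σ : ℂ →+* ℂ)).comp (algebraMap ↥(K.FC N) (LaurentSeries ℂ))).codRestrict (K.FC N)
    (fun x => SigmaFix.coeffMap_mem_FC N σ x.2)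

theorem coe_sigFHom (σ : ℂ ≃+* ℂ) (x : ↥(K.FC N)) :
    ((sigFHom N σ x : ↥(K.FC N)) : LaurentSeries ℂ) =
      coeffMap (σ : ℂ →+* ℂ) (x : LaurentSeries ℂ) := rfl

theorem coeffMap_symm_coeffMap (σ : ℂ ≃+* ℂ) (x : LaurentSeries ℂ) :
    coeffMap (σ.symm : ℂ →+* ℂ) (coeffMap (σ : ℂ →+* ℂ) x) = x := by
  have h : (σ.symm : ℂ →+* ℂ).comp (σ : ℂ →+* ℂ) = RingHom.id ℂ :=
    RingHom.ext fun c => σ.symm_apply_apply c
  rw [coeffMap_coeffMap, h, coeffMap_id]

theorem coeffMap_coeffMap_symm (σ : ℂ ≃+* ℂ) (x : LaurentSeries ℂ) :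
    coeffMap (σ : ℂ →+* ℂ) (coeffMap (σ.symm : ℂ →+* ℂ) x) = x := by
  have h : (σ : ℂ →+* ℂ).comp (σ.symm : ℂ →+* ℂ) = RingHom.id ℂ :=
    RingHom.ext fun c => σ.apply_symm_apply c
  rw [coeffMap_coeffMap, h, coeffMap_id]

/-- **The automorphism of `F_ℂ` induced by `σ ∈ Aut(ℂ)`** (`coeffMap σ` on `q`-expansions). -/
def sigF (σ : ℂ ≃+* ℂ) : ↥(K.FC N) ≃+* ↥(K.FC N) :=
  RingEquiv.ofRingHom (sigFHom N σ) (sigFHom N σ.symm)
    (RingHom.ext fun x => Subtype.ext (coeffMap_coeffMap_symm σ x))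
    (RingHom.ext fun x => Subtype.ext (coeffMap_symm_coeffMap σ x))

@[simp]
theorem coe_sigF (σ : ℂ ≃+* ℂ) (x : ↥(K.FC N)) :
    ((sigF N σ x : ↥(K.FC N)) : LaurentSeries ℂ) =
      coeffMap (σ : ℂ →+* ℂ) (x : LaurentSeries ℂ) := rfl

theorem sigF_mk (σ : ℂ ≃+* ℂ) {x : LaurentSeries ℂ} (hx : x ∈ K.FC N) :
    sigF N σ ⟨x, hx⟩ = ⟨coeffMap (σ : ℂ →+* ℂ) x, SigmaFix.coeffMap_mem_FC N σ hx⟩ := rfl

/-! ### `O_N` and the action on it -/

/-- **Membership of `O_N`** in the vocabulary of the dictionary leaves: `x ∈ F_ℂ` lies in the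
integral closure of `ℂ[j]` iff its Laurent series is integral over `ℂ[jC] ⊆ ℂ((q))`. -/
theorem mem_ON_iff (x : ↥(K.FC N)) :
    x ∈ integralClosure ↥(Algebra.adjoin ℂ {ODed.jCF N}) ↥(K.FC N) ↔
      IsIntegral ↥(Algebra.adjoin ℂ ({K.jC} : Set (LaurentSeries ℂ))) (x : LaurentSeries ℂ) := by
  rw [mem_integralClosure_iff]
  have h1 := isIntegral_map_iff (K.FC N).val Subtype.val_injective
    (Algebra.adjoin ℂ {ODed.jCF N}) x
  have h2 : (Algebra.adjoin ℂ {ODed.jCF N}).map (K.FC N).val =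
      Algebra.adjoin ℂ ({K.jC} : Set (LaurentSeries ℂ)) := by
    rw [AlgHom.map_adjoin, Set.image_singleton]
    rfl
  rw [← h1]
  exact isIntegral_congr h2 _

theorem isIntegral_coe_ON (a : ODed.ON N) :
    IsIntegral ↥(Algebra.adjoin ℂ ({K.jC} : Set (LaurentSeries ℂ)))
      (((a : ↥(K.FC N)) : LaurentSeries ℂ)) :=
  (mem_ON_iff N (a : ↥(K.FC N))).mp a.2

theorem sigFHom_mem_ON (σ : ℂ ≃+* ℂ) {x : ↥(K.FC N)}
    (hx : x ∈ integralClosure ↥(Algebra.adjoin ℂ {ODed.jCF N}) ↥(K.FC N)) :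
    sigFHom N σ x ∈ integralClosure ↥(Algebra.adjoin ℂ {ODed.jCF N}) ↥(K.FC N) := by
  rw [mem_ON_iff] at hx ⊢
  exact SigmaFix.isIntegral_jC_coeffMap (σ : ℂ →+* ℂ) hx

/-- `coeffMap σ` on `O_N`, as a ring endomorphism. -/
def sigOHom (σ : ℂ ≃+* ℂ) : ODed.ON N →+* ODed.ON N :=
  ((sigFHom N σ).comp (algebraMap (ODed.ON N) ↥(K.FC N))).codRestrict
    (integralClosure ↥(Algebra.adjoin ℂ {ODed.jCF N}) ↥(K.FC N))
    (fun a => sigFHom_mem_ON N σ a.2)

/-- **The automorphism of `O_N` induced by `σ ∈ Aut(ℂ)`.** -/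
def sigO (σ : ℂ ≃+* ℂ) : ODed.ON N ≃+* ODed.ON N :=
  RingEquiv.ofRingHom (sigOHom N σ) (sigOHom N σ.symm)
    (RingHom.ext fun _ => Subtype.ext (Subtype.ext (coeffMap_coeffMap_symm σ _)))
    (RingHom.ext fun _ => Subtype.ext (Subtype.ext (coeffMap_symm_coeffMap σ _)))

@[simp]
theorem coe_sigO (σ : ℂ ≃+* ℂ) (a : ODed.ON N) :
    (((sigO N σ a : ODed.ON N) : ↥(K.FC N)) : LaurentSeries ℂ) =
      coeffMap (σ : ℂ →+* ℂ) ((a : ↥(K.FC N)) : LaurentSeries ℂ) := rfl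

/-- `hστ`: the actions on `O_N` and `F_ℂ` are compatible. -/
theorem sigF_algebraMap (σ : ℂ ≃+* ℂ) (a : ODed.ON N) :
    sigF N σ (algebraMap (ODed.ON N) ↥(K.FC N) a) =
      algebraMap (ODed.ON N) ↥(K.FC N) (sigO N σ a) := rfl

/-- `hτk`: the action on the constants is `σ`. -/
theorem sigO_algebraMap (σ : ℂ ≃+* ℂ) (c : ℂ) :
    sigO N σ (algebraMap ℂ (ODed.ON N) c) = algebraMap ℂ (ODed.ON N) (σ c) := by
  apply Subtype.ext
  apply Subtype.ext
  change coeffMap (σ : ℂ →+* ℂ) (algebraMap ℂ (LaurentSeries ℂ) c) =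
    algebraMap ℂ (LaurentSeries ℂ) (σ c)
  exact coeffMap_algebraMap _ c

/-- `j` as an element of `O_N`. -/
def jO : ODed.ON N := S24.RamSum.tB ℂ (ODed.jCF N)

@[simp]
theorem algebraMap_jO : algebraMap (ODed.ON N) ↥(K.FC N) (jO N) = ODed.jCF N := rfl

@[simp]
theorem coe_jO : (((jO N : ODed.ON N) : ↥(K.FC N)) : LaurentSeries ℂ) = K.jC := rfl

/-- `hτj`: the action fixes `j`. -/
theorem sigO_jO (σ : ℂ ≃+* ℂ) : sigO N σ (jO N) = jO N := by
  apply Subtype.ext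
  apply Subtype.ext
  change coeffMap (σ : ℂ →+* ℂ) K.jC = K.jC
  exact SigmaFix.coeffMap_jC _

/-- `hj`: `j` is not a constant. -/
theorem jO_ne_algebraMap [NeZero N] (c : ℂ) : jO N ≠ algebraMap ℂ (ODed.ON N) c := by
  intro h
  have h2 : ODed.jCF N = algebraMap ℂ ↥(K.FC N) c :=
    congrArg (algebraMap (ODed.ON N) ↥(K.FC N)) h
  exact ODed.transcendental_jCF N (h2 ▸ isAlgebraic_algebraMap c)

/-- `hEs`: `JOrd.jE` is invariant under `σ`. -/
theorem jE_sigma (σ : ℂ ≃+* ℂ) (c : ℂ) : JOrd.jE (σ c) = JOrd.jE c :=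
  JOrd.jE_map (σ : ℂ →+* ℂ) c

/-- The inclusion `O_N → F_ℂ` as a `ℂ`-algebra map. -/
def inclON : ODed.ON N →ₐ[ℂ] ↥(K.FC N) :=
  { (algebraMap (ODed.ON N) ↥(K.FC N)) with
    commutes' := fun _ => rfl }

end Fermat.Agent.S29.PPAut
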