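/-
S29 block [PS] — PSB.lean (helper25).  Mathlib-only, Defs-independent.

**From a quadratic relation to a two-dimensional representation.**
`F` an algebraically closed field, `G` a group, `d : G →* Fˣ` a character, `V ≠ 0` a
finite-dimensional representation `π` of `G` over `F` such that for every `g`

    (R)   π g + d(g) • π g⁻¹ = t(g) • 1        on `V`.

Then there is a representation `ρ : G →* M₂(F)` with `tr ρ(g) = t(g)`, `det ρ(g) = d(g)` (so
`charpoly ρ(g) = X² − t(g) X + d(g)`) for EVERY `g`, and `ρ(g) = 1` whenever `π g = 1` and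
`d(g) = 1`.

Proof (elementary; no Burnside, no group algebra; every characteristic).
(i)   `U` := a minimal nonzero `π`-stable subspace; then `span {π(h) u} = U` for `u ≠ 0`.
(ii)  KEY IDENTITY (from (R) at `g`, `h`, `gh`):
        `X Y + Y X = t(g) Y + t(h) X + (t(gh) − t(g) t(h))`,  `X = π g`, `Y = π h`.
(iii) if `X = π g` is not a scalar on `U`, write `X² − t(g) X + d(g) = (X − a)(X − b)`; for
      `u ≠ 0` with `X u = a u`, (ii) gives `(X − b)(π(h) u) ∈ F u`, hence `(X − b) U ⊆ F u`.
      So `im (X − b)` (`≠ 0`, `⊆ ker (X − a)`) is a line, and `ker (X − b)` is a line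
      (each of its nonzero vectors spans `im (X − a) ≠ 0`): `dim U = 2`.
(iv)  `dim U = 2`: `ρ` := the matrix of `π|U`; Cayley–Hamilton minus (R) gives
      `(tr − t) M = (det − d) 1`, so a non-scalar `M` has `tr = t`, `det = d`; a scalar
      `M = c` is compared with `π(g h) = c π(h)` for a non-scalar `π(h)`.
(v)   all `π g` scalar on `U`, `π g = ψ(g)`: `ρ := diag(ψ, d ψ⁻¹)`.
-/
import Mathlib

set_option autoImplicit false

namespace Fermat.Agent.S29.PSB

open Polynomial Module

section Core

variable {F : Type*} [Field F] {G : Type*} [Group G]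
variable {V : Type*} [AddCommGroup V] [Module F V]
variable (π : G →* Module.End F V) (d : G →* Fˣ) (t : G → F)

/-- (R) pointwise. -/
theorem rel_apply (hR : ∀ g, π g + (d g : F) • π g⁻¹ = t g • (1 : Module.End F V)) (g : G)
    (v : V) : π g v + (d g : F) • π g⁻¹ v = t g • v := by
  have h := congrArg (fun f : Module.End F V => f v) (hR g)
  simpa using h

theorem inv_apply_apply (g : G) (v : V) : π g⁻¹ (π g v) = v := by
  rw [← Module.End.mul_apply, ← map_mul, inv_mul_cancel, map_one, Module.End.one_apply]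

theorem apply_inv_apply (g : G) (v : V) : π g (π g⁻¹ v) = v := by
  rw [← Module.End.mul_apply, ← map_mul, mul_inv_cancel, map_one, Module.End.one_apply]

/-- The quadratic relation `X² − t X + d = 0` for `X = π g`. -/
theorem quad_apply (hR : ∀ g, π g + (d g : F) • π g⁻¹ = t g • (1 : Module.End F V)) (g : G)
    (v : V) : π g (π g v) + (d g : F) • v = t g • π g v := by
  have h := rel_apply π d t hR g (π g v)
  rw [inv_apply_apply] at h
  exact h

/-- **Key identity** (pointwise): `X Y + Y X = t(g) Y + t(h) X + (t(gh) − t(g) t(h))`. -/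
theorem key_identity (hR : ∀ g, π g + (d g : F) • π g⁻¹ = t g • (1 : Module.End F V))
    (g h : G) (v : V) :
    π g (π h v) + π h (π g v) =
      t g • π h v + t h • π g v + (t (g * h) - t g * t h) • v := by
  -- (R) at `g * h`, evaluated at `π h (π g v)` … we use the form at `w := π h⁻¹ (π g⁻¹ ·)`
  have hgh := rel_apply π d t hR (g * h) v
  rw [map_mul, mul_inv_rev, map_mul, map_mul] at hgh
  simp only [Module.End.mul_apply, Units.val_mul] at hgh
  -- hgh : π g (π h v) + (d g * d h) • π h⁻¹ (π g⁻¹ v) = t (g * h) • v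
  have hg := rel_apply π d t hR g v
  -- (d g) • π g⁻¹ v = t g • v - π g v
  have hg' : (d g : F) • π g⁻¹ v = t g • v - π g v := by
    rw [← hg]; abel
  have hh := rel_apply π d t hR h ((d g : F) • π g⁻¹ v)
  -- π h (dg • π g⁻¹ v) + d h • π h⁻¹ (dg • π g⁻¹ v) = t h • dg • π g⁻¹ v
  have e1 : ((d g : F) * (d h : F)) • π h⁻¹ (π g⁻¹ v) =
      (d h : F) • π h⁻¹ ((d g : F) • π g⁻¹ v) := by
    rw [map_smul, smul_smul, mul_comm]
  rw [e1] at hgh
  have e2 : (d h : F) • π h⁻¹ ((d g : F) • π g⁻¹ v) =
      t h • ((d g : F) • π g⁻¹ v) - π h ((d g : F) • π g⁻¹ v) := by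
    rw [← hh]; abel
  rw [e2, hg', map_sub, map_smul, smul_sub, smul_smul] at hgh
  -- hgh : π g (π h v) + (t h * t g) • v - t h • π g v - (t g • π h v - π h (π g v)) = t (g*h) • v
  have : π g (π h v) + π h (π g v) =
      t (g * h) • v - (t h * t g) • v + t h • π g v + t g • π h v := by
    rw [← hgh]; abel
  rw [this, sub_smul, mul_comm (t g) (t h)]
  abel

/-- If `π g u = a • u` and `a + b = t g`, then `(π g − b)(π h u) ∈ F u`. -/
theorem sub_apply_orbit (hR : ∀ g, π g + (d g : F) • π g⁻¹ = t g • (1 : Module.End F V))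
    (g : G) (a b : F) (hab : a + b = t g) (u : V) (hu : π g u = a • u) (h : G) :
    π g (π h u) - b • π h u = (t h * a + (t (g * h) - t g * t h)) • u := by
  have key := key_identity π d t hR g h u
  rw [hu, map_smul] at key
  have : π g (π h u) = t g • π h u + t h • a • u + (t (g * h) - t g * t h) • u - a • π h u := by
    rw [← key]; abel
  rw [this, ← hab, add_smul, add_smul, smul_smul]
  abel

/-- `(π g − b) V ⊆ F u` for a nonzero eigenvector `u` of `π g` with eigenvalue `a`,
`a + b = t g`, when `V` is generated by the orbit of `u`. -/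
theorem range_sub_le_span (hR : ∀ g, π g + (d g : F) • π g⁻¹ = t g • (1 : Module.End F V))
    (g : G) (a b : F) (hab : a + b = t g) (u : V) (hu : π g u = a • u)
    (hcyc : Submodule.span F (Set.range fun h : G => π h u) = ⊤) :
    LinearMap.range (π g - b • (1 : Module.End F V)) ≤ Submodule.span F {u} := by
  rw [LinearMap.range_le_iff_comap, eq_top_iff, ← hcyc, Submodule.span_le]
  rintro _ ⟨h, rfl⟩
  change (π g - b • (1 : Module.End F V)) (π h u) ∈ Submodule.span F {u}
  rw [LinearMap.sub_apply, LinearMap.smul_apply, Module.End.one_apply,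
    sub_apply_orbit π d t hR g a b hab u hu h]
  exact Submodule.smul_mem _ _ (Submodule.mem_span_singleton_self u)

/-- A nonzero submodule contained in a line has `finrank` one. -/
theorem finrank_eq_one_of_le_span {S : Submodule F V} (hS : S ≠ ⊥) {u : V}
    (hle : S ≤ Submodule.span F {u}) : Module.finrank F S = 1 := by
  have hu : u ≠ 0 := by
    rintro rfl
    apply hS
    rw [eq_bot_iff]
    intro x hx
    have := hle hx
    rw [Submodule.span_singleton_eq_bot.mpr rfl] at this
    exact this
  have h1 : Module.finrank F S ≤ 1 := by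
    have := Submodule.finrank_mono hle
    rwa [finrank_span_singleton hu] at this
  have h2 : 0 < Module.finrank F S := by
    have : Module.Finite F S :=
      Module.Finite.of_injective (Submodule.inclusion hle) (Submodule.inclusion_injective hle)
    rw [Module.finrank_pos_iff]
    exact (Submodule.nontrivial_iff_ne_bot).mpr hS
  omega

/-- **Dimension two.**  If `V` is generated by the orbit of each of its nonzero vectors and
some `π g` is not a scalar, with `X² − t(g) X + d(g) = (X − a)(X − b)`, then `dim V = 2`. -/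
theorem finrank_eq_two [FiniteDimensional F V]
    (hR : ∀ g, π g + (d g : F) • π g⁻¹ = t g • (1 : Module.End F V))
    (hcyc : ∀ u : V, u ≠ 0 → Submodule.span F (Set.range fun h : G => π h u) = ⊤)
    (g : G) (a b : F) (hab : a + b = t g) (hprod : a * b = (d g : F))
    (hns : ¬ ∃ c : F, π g = c • (1 : Module.End F V)) : Module.finrank F V = 2 := by
  set A : Module.End F V := π g - a • (1 : Module.End F V) with hA
  set B : Module.End F V := π g - b • (1 : Module.End F V) with hB
  have hA0 : A ≠ 0 := fun h => hns ⟨a, sub_eq_zero.mp h⟩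
  have hB0 : B ≠ 0 := fun h => hns ⟨b, sub_eq_zero.mp h⟩
  -- `A (B v) = 0` and `B (A v) = 0`
  have hquad : ∀ v : V, π g (π g v) - (a + b) • π g v + (a * b) • v = 0 := by
    intro v
    have := quad_apply π d t hR g v
    rw [hab, hprod, ← this]
    abel
  have hAB : ∀ v : V, A (B v) = 0 := by
    intro v
    have := hquad v
    simp only [hA, hB, LinearMap.sub_apply, LinearMap.smul_apply, Module.End.one_apply,
      map_sub, map_smul]
    linear_combination (norm := module) this
  have hBA : ∀ v : V, B (A v) = 0 := by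
    intro v
    have := hquad v
    simp only [hA, hB, LinearMap.sub_apply, LinearMap.smul_apply, Module.End.one_apply,
      map_sub, map_smul]
    linear_combination (norm := module) this
  -- eigenvectors
  have heigA : ∀ v : V, A v = 0 → π g v = a • v := by
    intro v hv
    simp only [hA, LinearMap.sub_apply, LinearMap.smul_apply, Module.End.one_apply] at hv
    exact sub_eq_zero.mp hv
  have heigB : ∀ v : V, B v = 0 → π g v = b • v := by
    intro v hv
    simp only [hB, LinearMap.sub_apply, LinearMap.smul_apply, Module.End.one_apply] at hv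
    exact sub_eq_zero.mp hv
  -- nonzero vectors in the ranges
  obtain ⟨v₁, hv₁⟩ : ∃ v, B v ≠ 0 := by
    by_contra hcon
    exact hB0 (LinearMap.ext fun v => by_contra fun h => hcon ⟨v, h⟩)
  obtain ⟨v₂, hv₂⟩ : ∃ v, A v ≠ 0 := by
    by_contra hcon
    exact hA0 (LinearMap.ext fun v => by_contra fun h => hcon ⟨v, h⟩)
  -- `range B` is a line
  have hrB : Module.finrank F (LinearMap.range B) = 1 := by
    refine finrank_eq_one_of_le_span (u := B v₁) ?_ ?_
    · intro h
      apply hv₁
      have : B v₁ ∈ LinearMap.range B := LinearMap.mem_range_self B v₁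
      rw [h] at this
      exact this
    · exact range_sub_le_span π d t hR g a b hab (B v₁) (heigA _ (hAB v₁)) (hcyc _ hv₁)
  -- `ker B` is a line
  have hkB : Module.finrank F (LinearMap.ker B) = 1 := by
    refine finrank_eq_one_of_le_span (u := A v₂) ?_ ?_
    · intro h
      apply hv₂
      have : A v₂ ∈ LinearMap.ker B := LinearMap.mem_ker.mpr (hBA v₂)
      rw [h] at this
      exact this
    · intro u hu
      rw [LinearMap.mem_ker] at hu
      by_cases hu0 : u = 0
      · rw [hu0]; exact Submodule.zero_mem _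
      have hle := range_sub_le_span π d t hR g b a (by rw [add_comm]; exact hab) u
        (heigB u hu) (hcyc u hu0)
      have hmem : A v₂ ∈ Submodule.span F {u} := hle (LinearMap.mem_range_self A v₂)
      obtain ⟨c, hc⟩ := Submodule.mem_span_singleton.mp hmem
      have hc0 : c ≠ 0 := by
        rintro rfl
        rw [zero_smul] at hc
        exact hv₂ hc.symm
      rw [Submodule.mem_span_singleton]
      refine ⟨c⁻¹, ?_⟩
      rw [← hc, smul_smul, inv_mul_cancel₀ hc0, one_smul]
  have := LinearMap.finrank_range_add_finrank_ker B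
  omega

end Core

section Matrix2

variable {F : Type*} [Field F]

/-- Cayley–Hamilton for `2 × 2` matrices. -/
theorem cayley_two (M : Matrix (Fin 2) (Fin 2) F) :
    M * M + M.det • (1 : Matrix (Fin 2) (Fin 2) F) = M.trace • M := by
  ext i j
  fin_cases i <;> fin_cases j <;>
    simp [Matrix.mul_apply, Fin.sum_univ_two, Matrix.trace_fin_two, Matrix.det_fin_two] <;> ring

/-- A `2 × 2` matrix with `M² + d = t M` which is not a scalar has trace `t` and
determinant `d`. -/
theorem trace_det_of_quad (M : Matrix (Fin 2) (Fin 2) F) (t d : F)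
    (h : M * M + d • (1 : Matrix (Fin 2) (Fin 2) F) = t • M)
    (hns : ¬ ∃ c : F, M = c • (1 : Matrix (Fin 2) (Fin 2) F)) : M.trace = t ∧ M.det = d := by
  have hc := cayley_two M
  have hsub : (M.trace - t) • M = (M.det - d) • (1 : Matrix (Fin 2) (Fin 2) F) := by
    rw [sub_smul, sub_smul, ← hc, ← h]; abel
  have ht : M.trace = t := by
    by_contra hne
    have hne' : M.trace - t ≠ 0 := sub_ne_zero.mpr hne
    apply hns
    refine ⟨(M.trace - t)⁻¹ * (M.det - d), ?_⟩
    rw [← smul_smul, ← hsub, smul_smul, inv_mul_cancel₀ hne', one_smul]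
  refine ⟨ht, ?_⟩
  rw [ht, sub_self, zero_smul] at hsub
  have h00 := congrFun (congrFun hsub 0) 0
  simp only [Matrix.zero_apply, Matrix.smul_apply, Matrix.one_apply_eq, smul_eq_mul,
    mul_one] at h00
  exact sub_eq_zero.mp h00.symm

variable {G : Type*} [Group G] {V : Type*} [AddCommGroup V] [Module F V]
variable (π : G →* Module.End F V) (d : G →* Fˣ) (t : G → F)

/-- **The two-dimensional case**: the matrix of `π` in a basis. -/
theorem exists_of_finrank_two
    (hR : ∀ g, π g + (d g : F) • π g⁻¹ = t g • (1 : Module.End F V))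
    (hfin : Module.finrank F V = 2)
    (hns : ∃ g, ¬ ∃ c : F, π g = c • (1 : Module.End F V)) :
    ∃ ρ : G →* Matrix (Fin 2) (Fin 2) F, (∀ g, (ρ g).trace = t g) ∧
      (∀ g, (ρ g).det = (d g : F)) ∧ (∀ g, π g = 1 → ρ g = 1) := by
  have : Module.Finite F V := Module.finite_of_finrank_pos (by omega)
  let b : Basis (Fin 2) F V := Module.finBasisOfFinrankEq F V hfin
  let e : Module.End F V ≃ₐ[F] Matrix (Fin 2) (Fin 2) F := LinearMap.toMatrixAlgEquiv b
  let ρ : G →* Matrix (Fin 2) (Fin 2) F :=
    (e.toAlgHom.toRingHom.toMonoidHom).comp π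
  have hρ : ∀ g, ρ g = e (π g) := fun g => rfl
  have hrel : ∀ g, ρ g * ρ g + (d g : F) • (1 : Matrix (Fin 2) (Fin 2) F) = t g • ρ g := by
    intro g
    have h1 : π g * π g + (d g : F) • (1 : Module.End F V) = t g • π g := by
      ext v
      simpa using quad_apply π d t hR g v
    have h2 := congrArg e h1
    rw [map_add, map_mul, map_smul, map_smul, map_one] at h2
    exact h2
  have hsc : ∀ g (c : F), ρ g = c • (1 : Matrix (Fin 2) (Fin 2) F) →
      π g = c • (1 : Module.End F V) := by
    intro g c h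
    apply e.injective
    rw [map_smul, map_one]
    exact h
  have hns' : ∀ g, (¬ ∃ c : F, π g = c • (1 : Module.End F V)) →
      ¬ ∃ c : F, ρ g = c • (1 : Matrix (Fin 2) (Fin 2) F) := by
    rintro g h ⟨c, hc⟩
    exact h ⟨c, hsc g c hc⟩
  have hnon : ∀ g, (¬ ∃ c : F, ρ g = c • (1 : Matrix (Fin 2) (Fin 2) F)) →
      (ρ g).trace = t g ∧ (ρ g).det = (d g : F) :=
    fun g h => trace_det_of_quad (ρ g) (t g) (d g) (hrel g) h
  obtain ⟨h₀, hh₀⟩ := hns
  have hh₀' := hns' h₀ hh₀
  have key : ∀ g, (ρ g).trace = t g ∧ (ρ g).det = (d g : F) := by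
    intro g
    by_cases hg : ∃ c : F, ρ g = c • (1 : Matrix (Fin 2) (Fin 2) F)
    · obtain ⟨c, hc⟩ := hg
      have hc0 : c ≠ 0 := by
        rintro rfl
        have h1 : ρ g * ρ g⁻¹ = 1 := by rw [← map_mul, mul_inv_cancel, map_one]
        rw [hc, zero_smul, zero_mul] at h1
        exact zero_ne_one h1
      have hgh : ρ (g * h₀) = c • ρ h₀ := by rw [map_mul, hc, smul_mul_assoc, one_mul]
      have hnsgh : ¬ ∃ c' : F, ρ (g * h₀) = c' • (1 : Matrix (Fin 2) (Fin 2) F) := by
        rintro ⟨c', hc'⟩
        apply hh₀'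
        refine ⟨c⁻¹ * c', ?_⟩
        rw [← smul_smul, ← hc', hgh, smul_smul, inv_mul_cancel₀ hc0, one_smul]
      have h1 := (hnon (g * h₀) hnsgh).2
      have h2 := (hnon h₀ hh₀').2
      rw [hgh, Matrix.det_smul, h2, Fintype.card_fin, map_mul, Units.val_mul] at h1
      have hd0 : (d h₀ : F) ≠ 0 := (d h₀).ne_zero
      have hcd : c ^ 2 = (d g : F) := mul_right_cancel₀ hd0 h1
      have hr := hrel g
      rw [hc] at hr
      have hr00 := congrFun (congrFun hr 0) 0
      simp only [Matrix.add_apply, Matrix.mul_apply, Matrix.smul_apply, Matrix.one_apply,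
        smul_eq_mul, Fin.sum_univ_two] at hr00
      simp only [if_true, mul_one, Fin.isValue, zero_ne_one, if_false, mul_zero] at hr00
      have htg : t g = 2 * c := by
        have h3 : c * (t g - 2 * c) = 0 := by
          rw [← hcd] at hr00
          linear_combination -hr00
        rcases mul_eq_zero.mp h3 with h | h
        · exact absurd h hc0
        · exact sub_eq_zero.mp h
      constructor
      · rw [hc, Matrix.trace_smul, Matrix.trace_one, Fintype.card_fin, htg]
        simp [mul_comm]
      · rw [hc, Matrix.det_smul, Matrix.det_one, Fintype.card_fin, mul_one, hcd]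
    · exact hnon g hg
  refine ⟨ρ, fun g => (key g).1, fun g => (key g).2, ?_⟩
  intro g hg
  rw [hρ, hg, map_one]

/-- **The scalar case**: `π g = ψ(g)`, `ρ := diag(ψ, d ψ⁻¹)`. -/
theorem exists_of_scalar [Nontrivial V]
    (hR : ∀ g, π g + (d g : F) • π g⁻¹ = t g • (1 : Module.End F V))
    (hs : ∀ g, ∃ c : F, π g = c • (1 : Module.End F V)) :
    ∃ ρ : G →* Matrix (Fin 2) (Fin 2) F, (∀ g, (ρ g).trace = t g) ∧
      (∀ g, (ρ g).det = (d g : F)) ∧ (∀ g, π g = 1 → d g = 1 → ρ g = 1) := by
  choose ψ hψ using hs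
  obtain ⟨v, hv⟩ := exists_ne (0 : V)
  have hinj : ∀ c c' : F, c • (1 : Module.End F V) = c' • (1 : Module.End F V) → c = c' := by
    intro c c' h
    have h' := congrArg (fun f : Module.End F V => f v) h
    simp only [LinearMap.smul_apply, Module.End.one_apply] at h'
    exact smul_left_injective F hv h'
  have hψ1 : ψ 1 = 1 := by
    apply hinj
    rw [← hψ, map_one, one_smul]
  have hψmul : ∀ g h, ψ (g * h) = ψ g * ψ h := by
    intro g h
    apply hinj
    rw [← hψ, map_mul, hψ g, hψ h, smul_mul_smul_comm, mul_one]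
  have hψinv : ∀ g, ψ g⁻¹ = (ψ g)⁻¹ := by
    intro g
    have h := hψmul g g⁻¹
    rw [mul_inv_cancel, hψ1] at h
    exact eq_inv_of_mul_eq_one_right h.symm
  have hψ0 : ∀ g, ψ g ≠ 0 := by
    intro g h0
    have h := hψmul g g⁻¹
    rw [mul_inv_cancel, hψ1, h0, zero_mul] at h
    exact one_ne_zero h
  have htr : ∀ g, ψ g + (d g : F) * (ψ g)⁻¹ = t g := by
    intro g
    apply hinj
    rw [← hR g, hψ g, hψ g⁻¹, hψinv, add_smul, smul_smul]
  let ρ : G →* Matrix (Fin 2) (Fin 2) F :=
    { toFun := fun g => Matrix.diagonal ![ψ g, (d g : F) * (ψ g)⁻¹]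
      map_one' := by
        rw [← Matrix.diagonal_one]
        congr 1
        ext i
        fin_cases i <;> simp [hψ1]
      map_mul' := by
        intro g h
        rw [Matrix.diagonal_mul_diagonal]
        congr 1
        ext i
        fin_cases i
        · simp [hψmul]
        · simp only [hψmul, map_mul, Units.val_mul, mul_inv_rev, Fin.mk_one, Fin.isValue,
            Matrix.cons_val_one, Matrix.cons_val_fin_one]
          ring }
  have hρ : ∀ g, ρ g = Matrix.diagonal ![ψ g, (d g : F) * (ψ g)⁻¹] := fun g => rfl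
  refine ⟨ρ, ?_, ?_, ?_⟩
  · intro g
    rw [hρ, Matrix.trace_diagonal, Fin.sum_univ_two]
    simpa using htr g
  · intro g
    rw [hρ, Matrix.det_diagonal, Fin.prod_univ_two]
    simp only [Fin.isValue, Matrix.cons_val_zero, Matrix.cons_val_one, Matrix.cons_val_fin_one]
    rw [mul_comm, mul_assoc, inv_mul_cancel₀ (hψ0 g), mul_one]
  · intro g hg hd
    have h1 : ψ g = 1 := by
      apply hinj
      rw [← hψ, hg, one_smul]
    rw [hρ, h1, hd, ← Matrix.diagonal_one]
    congr 1
    ext i
    fin_cases i <;> simp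

end Matrix2

section Main

variable {F : Type*} [Field F] {G : Type*} [Group G]
variable {V : Type*} [AddCommGroup V] [Module F V]

/-- A minimal nonzero stable subspace. -/
theorem exists_minimal_invariant [FiniteDimensional F V] [Nontrivial V]
    (π : G →* Module.End F V) :
    ∃ W : Submodule F V, W ≠ ⊥ ∧ (∀ g, ∀ w ∈ W, π g w ∈ W) ∧
      ∀ W' : Submodule F V, W' ≠ ⊥ → (∀ g, ∀ w ∈ W', π g w ∈ W') → W' ≤ W → W' = W := by
  let S : Set (Submodule F V) := {W | W ≠ ⊥ ∧ ∀ g, ∀ w ∈ W, π g w ∈ W}
  have hne : S.Nonempty := ⟨⊤, top_ne_bot, fun _ _ _ => Submodule.mem_top⟩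
  obtain ⟨W, hW, hmin⟩ := (wellFounded_lt (α := Submodule F V)).has_min S hne
  refine ⟨W, hW.1, hW.2, fun W' h0 hinv hle => ?_⟩
  exact eq_of_le_of_not_lt hle (hmin W' ⟨h0, hinv⟩)

/-- The restriction of a representation to a stable subspace. -/
def restrictRep (π : G →* Module.End F V) (W : Submodule F V)
    (hinv : ∀ g, ∀ w ∈ W, π g w ∈ W) : G →* Module.End F W where
  toFun g := (π g).restrict (hinv g)
  map_one' := by
    ext w
    simp
  map_mul' g h := by
    ext w
    simp

theorem restrictRep_apply (π : G →* Module.End F V) (W : Submodule F V)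
    (hinv : ∀ g, ∀ w ∈ W, π g w ∈ W) (g : G) (w : W) :
    ((restrictRep π W hinv g) w : V) = π g (w : V) := rfl

/-- **[PS], matrix form.**  A nonzero finite-dimensional representation `π` of `G` over an
algebraically closed field with `π g + d(g) • π g⁻¹ = t(g)` for all `g` gives a `2 × 2` matrix
representation `ρ` with `tr ρ(g) = t(g)`, `det ρ(g) = d(g)`,
`charpoly ρ(g) = X² − t(g) X + d(g)` for every `g`, trivial at every `g` with `π g = 1` and
`d g = 1`. -/
theorem exists_matrix_rep [IsAlgClosed F] [FiniteDimensional F V] [Nontrivial V]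
    (π : G →* Module.End F V) (d : G →* Fˣ) (t : G → F)
    (hR : ∀ g, π g + (d g : F) • π g⁻¹ = t g • (1 : Module.End F V)) :
    ∃ ρ : G →* Matrix (Fin 2) (Fin 2) F, (∀ g, (ρ g).trace = t g) ∧
      (∀ g, (ρ g).det = (d g : F)) ∧
      (∀ g, (ρ g).charpoly = X ^ 2 - C (t g) * X + C (d g : F)) ∧
      (∀ g, π g = 1 → d g = 1 → ρ g = 1) := by
  obtain ⟨W, hW0, hinv, hmin⟩ := exists_minimal_invariant π
  set πW : G →* Module.End F W := restrictRep π W hinv with hπW
  have hRW : ∀ g, πW g + (d g : F) • πW g⁻¹ = t g • (1 : Module.End F W) := by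
    intro g
    ext w
    have := rel_apply π d t hR g (w : V)
    simpa [hπW, restrictRep_apply] using this
  have hone : ∀ g, π g = 1 → πW g = 1 := by
    intro g hg
    ext w
    simp [hπW, restrictRep_apply, hg]
  have : Nontrivial W := (Submodule.nontrivial_iff_ne_bot).mpr hW0
  -- it suffices to produce trace, det and triviality
  suffices h : ∃ ρ : G →* Matrix (Fin 2) (Fin 2) F, (∀ g, (ρ g).trace = t g) ∧
      (∀ g, (ρ g).det = (d g : F)) ∧ (∀ g, πW g = 1 → d g = 1 → ρ g = 1) by
    obtain ⟨ρ, h1, h2, h3⟩ := h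
    refine ⟨ρ, h1, h2, fun g => ?_, fun g hg hd => h3 g (hone g hg) hd⟩
    rw [Matrix.charpoly_fin_two, h1, h2]
  by_cases hs : ∀ g, ∃ c : F, πW g = c • (1 : Module.End F W)
  · exact exists_of_scalar πW d t hRW hs
  · obtain ⟨g₀, hg₀⟩ := not_forall.mp hs
    -- the orbit of a nonzero vector spans `W`
    have hcyc : ∀ u : W, u ≠ 0 → Submodule.span F (Set.range fun h : G => πW h u) = ⊤ := by
      intro u hu
      set T : Submodule F W := Submodule.span F (Set.range fun h : G => πW h u) with hT
      have huT : u ∈ T := by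
        refine Submodule.subset_span ⟨1, ?_⟩
        simp
      have hTinv : ∀ g, ∀ y ∈ T, πW g y ∈ T := by
        intro g y hy
        refine Submodule.span_induction (p := fun y _ => πW g y ∈ T) ?_ ?_ ?_ ?_ hy
        · rintro _ ⟨h, rfl⟩
          refine Submodule.subset_span ⟨g * h, ?_⟩
          simp
        · simp
        · intro x y _ _ hx hy
          rw [map_add]
          exact Submodule.add_mem _ hx hy
        · intro c x _ hx
          rw [map_smul]
          exact Submodule.smul_mem _ c hx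
      have hmap : T.map W.subtype = W := by
        refine hmin _ ?_ ?_ (Submodule.map_subtype_le W T)
        · intro h0
          apply hu
          have : (u : V) ∈ T.map W.subtype := ⟨u, huT, rfl⟩
          rw [h0, Submodule.mem_bot] at this
          exact Subtype.ext this
        · rintro g _ ⟨y, hy, rfl⟩
          exact ⟨πW g y, hTinv g y hy, rfl⟩
      rw [eq_top_iff]
      intro y _
      have hy : (y : V) ∈ T.map W.subtype := by rw [hmap]; exact y.2
      obtain ⟨y', hy', hyy'⟩ := hy
      have : y' = y := Subtype.ext hyy'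
      rw [← this]
      exact hy'
    -- split the quadratic
    obtain ⟨a, ha⟩ : ∃ a : F, a * a - t g₀ * a + (d g₀ : F) = 0 := by
      have hdeg : (C (1 : F) * X ^ 2 + C (-t g₀) * X + C (d g₀ : F)).degree ≠ 0 := by
        rw [degree_quadratic one_ne_zero]
        norm_num
      obtain ⟨a, ha⟩ := IsAlgClosed.exists_root _ hdeg
      refine ⟨a, ?_⟩
      rw [IsRoot.def] at ha
      simp only [eval_add, eval_mul, eval_C, eval_pow, eval_X] at ha
      linear_combination ha
    have hfin : Module.finrank F W = 2 :=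
      finrank_eq_two πW d t hRW hcyc g₀ a (t g₀ - a) (by ring) (by linear_combination -ha) hg₀
    obtain ⟨ρ, h1, h2, h3⟩ := exists_of_finrank_two πW d t hRW hfin ⟨g₀, hg₀⟩
    exact ⟨ρ, h1, h2, fun g hg _ => h3 g hg⟩

/-- **[PS], linear-map form** (what `ResidualGaloisRep` consumes): the representation on
`Fin 2 → F`. -/
theorem exists_linear_rep [IsAlgClosed F] [FiniteDimensional F V] [Nontrivial V]
    (π : G →* Module.End F V) (d : G →* Fˣ) (t : G → F)
    (hR : ∀ g, π g + (d g : F) • π g⁻¹ = t g • (1 : Module.End F V)) :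
    ∃ ρ : G →* Module.End F (Fin 2 → F),
      (∀ g, LinearMap.charpoly (ρ g) = X ^ 2 - C (t g) * X + C (d g : F)) ∧
      (∀ g, LinearMap.trace F (Fin 2 → F) (ρ g) = t g) ∧
      (∀ g, LinearMap.det (ρ g) = (d g : F)) ∧
      (∀ g, π g = 1 → d g = 1 → ρ g = 1) := by
  obtain ⟨ρ, h1, h2, h3, h4⟩ := exists_matrix_rep π d t hR
  let e : Matrix (Fin 2) (Fin 2) F ≃ₐ[F] Module.End F (Fin 2 → F) := Matrix.toLinAlgEquiv'
  refine ⟨(e.toAlgHom.toRingHom.toMonoidHom).comp ρ, ?_, ?_, ?_, ?_⟩
  · intro g
    change LinearMap.charpoly (Matrix.toLin' (ρ g)) = _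
    rw [Matrix.charpoly_toLin', h3]
  · intro g
    change LinearMap.trace F (Fin 2 → F) (Matrix.toLin' (ρ g)) = _
    rw [Matrix.trace_toLin'_eq, h1]
  · intro g
    change LinearMap.det (Matrix.toLin' (ρ g)) = _
    rw [LinearMap.det_toLin', h2]
  · intro g hg hd
    change e (ρ g) = 1
    rw [h4 g hg hd, map_one]

/-- The scalar `c` in `π g + d(g) • π g⁻¹ = c • 1` is unique (`V ≠ 0`). -/
theorem rel_unique [Nontrivial V] (π : G →* Module.End F V) (d : G →* Fˣ) {g : G} {c c' : F}
    (h : π g + (d g : F) • π g⁻¹ = c • (1 : Module.End F V))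
    (h' : π g + (d g : F) • π g⁻¹ = c' • (1 : Module.End F V)) : c = c' := by
  obtain ⟨v, hv⟩ := exists_ne (0 : V)
  have h2 := congrArg (fun f : Module.End F V => f v) (h.symm.trans h')
  simp only [LinearMap.smul_apply, Module.End.one_apply] at h2
  exact smul_left_injective F hv h2

/-- **[PS], existential form** (the relation (R) with an unspecified scalar at each `g`):
the charpoly / trace clauses hold for EVERY scalar witnessing (R) at `g`. -/
theorem exists_matrix_rep_of_exists [IsAlgClosed F] [FiniteDimensional F V] [Nontrivial V]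
    (π : G →* Module.End F V) (d : G →* Fˣ)
    (hR : ∀ g, ∃ c : F, π g + (d g : F) • π g⁻¹ = c • (1 : Module.End F V)) :
    ∃ ρ : G →* Matrix (Fin 2) (Fin 2) F,
      (∀ g (c : F), π g + (d g : F) • π g⁻¹ = c • (1 : Module.End F V) →
        (ρ g).trace = c ∧ (ρ g).charpoly = X ^ 2 - C c * X + C (d g : F)) ∧
      (∀ g, (ρ g).det = (d g : F)) ∧
      (∀ g, π g = 1 → d g = 1 → ρ g = 1) := by
  choose t ht using hR
  obtain ⟨ρ, h1, h2, h3, h4⟩ := exists_matrix_rep π d t ht
  refine ⟨ρ, fun g c hc => ?_, h2, h4⟩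
  have : t g = c := rel_unique π d (ht g) hc
  rw [← this]
  exact ⟨h1 g, h3 g⟩

/-- **[PS], existential linear-map form.** -/
theorem exists_linear_rep_of_exists [IsAlgClosed F] [FiniteDimensional F V] [Nontrivial V]
    (π : G →* Module.End F V) (d : G →* Fˣ)
    (hR : ∀ g, ∃ c : F, π g + (d g : F) • π g⁻¹ = c • (1 : Module.End F V)) :
    ∃ ρ : G →* Module.End F (Fin 2 → F),
      (∀ g (c : F), π g + (d g : F) • π g⁻¹ = c • (1 : Module.End F V) →
        LinearMap.trace F (Fin 2 → F) (ρ g) = c ∧
        LinearMap.charpoly (ρ g) = X ^ 2 - C c * X + C (d g : F)) ∧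
      (∀ g, LinearMap.det (ρ g) = (d g : F)) ∧
      (∀ g, π g = 1 → d g = 1 → ρ g = 1) := by
  choose t ht using hR
  obtain ⟨ρ, h1, h2, h3, h4⟩ := exists_linear_rep π d t ht
  refine ⟨ρ, fun g c hc => ?_, h3, h4⟩
  have : t g = c := rel_unique π d (ht g) hc
  rw [← this]
  exact ⟨h2 g, h1 g⟩

/-- (R) from the quadratic relation `X² + d = t X`, `X = π g`. -/
theorem rel_of_quad (π : G →* Module.End F V) (d : G →* Fˣ) (g : G) (c : F)
    (h : π g * π g + (d g : F) • (1 : Module.End F V) = c • π g) :
    π g + (d g : F) • π g⁻¹ = c • (1 : Module.End F V) := by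
  have hinv : π g * π g⁻¹ = 1 := by rw [← map_mul, mul_inv_cancel, map_one]
  have h2 := congrArg (fun f : Module.End F V => f * π g⁻¹) h
  simp only [add_mul, mul_assoc, hinv, mul_one, smul_mul_assoc, one_mul] at h2
  exact h2

/-- **Lucas step**: the relation (R) passes from `g` to its powers. -/
theorem exists_rel_pow (π : G →* Module.End F V) (d : G →* Fˣ) (g : G) (a : F)
    (h : π g + (d g : F) • π g⁻¹ = a • (1 : Module.End F V)) (j : ℕ) :
    ∃ c : F, π (g ^ j) + (d (g ^ j) : F) • π (g ^ j)⁻¹ = c • (1 : Module.End F V) := by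
  have hXX' : π g * π g⁻¹ = 1 := by rw [← map_mul, mul_inv_cancel, map_one]
  have hX'X : π g⁻¹ * π g = 1 := by rw [← map_mul, inv_mul_cancel, map_one]
  -- `S j := X^j + u^j X'^j`
  have hform : ∀ j : ℕ, π (g ^ j) + (d (g ^ j) : F) • π (g ^ j)⁻¹ =
      π g ^ j + ((d g : F) ^ j) • π g⁻¹ ^ j := by
    intro j
    rw [map_pow, map_pow, Units.val_pow_eq_pow_val, ← inv_pow, map_pow]
  suffices hS : ∀ j : ℕ, (∃ c : F, π g ^ j + ((d g : F) ^ j) • π g⁻¹ ^ j =
      c • (1 : Module.End F V)) ∧
      ∃ c : F, π g ^ (j + 1) + ((d g : F) ^ (j + 1)) • π g⁻¹ ^ (j + 1) =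
        c • (1 : Module.End F V) by
    rw [hform]
    exact (hS j).1
  intro j
  induction j with
  | zero =>
    refine ⟨⟨2, ?_⟩, ⟨a, ?_⟩⟩
    · rw [pow_zero, pow_zero, pow_zero, one_smul, two_smul]
    · rw [zero_add, pow_one, pow_one, pow_one]
      exact h
  | succ j ih =>
    obtain ⟨⟨c₀, h₀⟩, ⟨c₁, h₁⟩⟩ := ih
    refine ⟨⟨c₁, h₁⟩, ⟨a * c₁ - (d g : F) * c₀, ?_⟩⟩
    -- `(X + u X') (X^(j+1) + u^(j+1) X'^(j+1)) = S (j+2) + u S j`
    have hprod : (π g + (d g : F) • π g⁻¹) *
        (π g ^ (j + 1) + ((d g : F) ^ (j + 1)) • π g⁻¹ ^ (j + 1)) =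
        (π g ^ (j + 1 + 1) + ((d g : F) ^ (j + 1 + 1)) • π g⁻¹ ^ (j + 1 + 1)) +
          (d g : F) • (π g ^ j + ((d g : F) ^ j) • π g⁻¹ ^ j) := by
      have e1 : π g * π g⁻¹ ^ (j + 1) = π g⁻¹ ^ j := by
        rw [pow_succ', ← mul_assoc, hXX', one_mul]
      have e2 : π g⁻¹ * π g ^ (j + 1) = π g ^ j := by
        rw [pow_succ', ← mul_assoc, hX'X, one_mul]
      rw [add_mul, mul_add, mul_add, ← pow_succ', mul_smul_comm, e1, smul_mul_assoc, e2,
        smul_mul_smul_comm, ← pow_succ', ← pow_succ', smul_add, smul_smul, ← pow_succ']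
      abel
    rw [h, h₁, h₀, smul_mul_smul_comm, mul_one] at hprod
    have : π g ^ (j + 1 + 1) + ((d g : F) ^ (j + 1 + 1)) • π g⁻¹ ^ (j + 1 + 1) =
        (a * c₁) • (1 : Module.End F V) - (d g : F) • c₀ • (1 : Module.End F V) := by
      rw [hprod]; abel
    rw [this, smul_smul, sub_smul]

end Main

end Fermat.Agent.S29.PSB
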