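import Mathlib

/-!
# S29, block [K], leaf (K4-core): holomorphic `p`-th roots on convex domains

If `f` is holomorphic on a convex open set `U ⊆ ℂ`, not identically zero, and all its orders of
vanishing on `U` are divisible by `p`, then `f = u ^ p` for a holomorphic `u` on `U`.

Route: local roots from the order hypothesis, uniqueness of a root normalised at a base point on a
connected open set, continuation along segments through convex open neighbourhoods (intersections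
of convex sets are convex, hence connected: no monodromy), glue.
-/

set_option autoImplicit false

namespace Fermat.Agent.S29.PthRootB

open Set Filter Topology Metric

/-- Two continuous functions with the same `p`-th power near `z₀` and the same nonzero value at
`z₀` agree near `z₀`. -/
theorem eventuallyEq_of_pow_eq {p : ℕ} (hp : p ≠ 0) {u v : ℂ → ℂ} {z₀ : ℂ}
    (hu : ContinuousAt u z₀) (hv : ContinuousAt v z₀)
    (h : ∀ᶠ z in 𝓝 z₀, u z ^ p = v z ^ p) (h₀ : u z₀ = v z₀) (hne : u z₀ ≠ 0) :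
    ∀ᶠ z in 𝓝 z₀, u z = v z := by
  have hS : ContinuousAt (fun z => ∑ i ∈ Finset.range p, u z ^ i * v z ^ (p - 1 - i)) z₀ := by
    refine tendsto_finsetSum _ fun i _ => ?_
    exact (hu.pow i).mul (hv.pow (p - 1 - i))
  have hS0 : (∑ i ∈ Finset.range p, u z₀ ^ i * v z₀ ^ (p - 1 - i)) ≠ 0 := by
    rw [← h₀]
    have hterm : ∀ i ∈ Finset.range p, u z₀ ^ i * u z₀ ^ (p - 1 - i) = u z₀ ^ (p - 1) := by
      intro i hi
      rw [← pow_add]
      congr 1
      have := Finset.mem_range.mp hi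
      omega
    rw [Finset.sum_congr rfl hterm, Finset.sum_const, Finset.card_range, nsmul_eq_mul]
    exact mul_ne_zero (Nat.cast_ne_zero.mpr hp) (pow_ne_zero _ hne)
  filter_upwards [h, hS.eventually_ne hS0] with z hz hSz
  have hgeom := geom_sum₂_mul (u z) (v z) p
  rw [hz, sub_self] at hgeom
  exact sub_eq_zero.mp ((mul_eq_zero.mp hgeom).resolve_left hSz)

/-- **Uniqueness.** On a connected open set, two holomorphic functions with the same `p`-th power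
and the same nonzero value at one point coincide. -/
theorem eqOn_of_pow_eq {W : Set ℂ} (hW : IsOpen W) (hWc : IsPreconnected W) {p : ℕ} (hp : p ≠ 0)
    {u v : ℂ → ℂ} (hu : DifferentiableOn ℂ u W) (hv : DifferentiableOn ℂ v W)
    (h : ∀ z ∈ W, u z ^ p = v z ^ p) {z₀ : ℂ} (hz₀ : z₀ ∈ W) (h₀ : u z₀ = v z₀)
    (hne : u z₀ ≠ 0) : Set.EqOn u v W := by
  have hua := hu.analyticOnNhd hW
  have hva := hv.analyticOnNhd hW
  refine hua.eqOn_of_preconnected_of_eventuallyEq hva hWc hz₀ ?_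
  exact eventuallyEq_of_pow_eq hp (hua z₀ hz₀).continuousAt (hva z₀ hz₀).continuousAt
    (Filter.eventually_of_mem (hW.mem_nhds hz₀) h) h₀ hne

/-- Two roots of the same function on a connected open set differ by a `p`-th root of unity. -/
theorem exists_const_mul_of_pow_eq {W : Set ℂ} (hW : IsOpen W) (hWc : IsPreconnected W) {p : ℕ}
    (hp : p ≠ 0) {u v : ℂ → ℂ} (hu : DifferentiableOn ℂ u W) (hv : DifferentiableOn ℂ v W)
    (h : ∀ z ∈ W, u z ^ p = v z ^ p) {z₀ : ℂ} (hz₀ : z₀ ∈ W) (hne : u z₀ ≠ 0) :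
    ∃ ζ : ℂ, ζ ^ p = 1 ∧ ∀ z ∈ W, v z = ζ * u z := by
  have hv0 : v z₀ ≠ 0 := by
    intro hv0
    have := h z₀ hz₀
    rw [hv0, zero_pow hp] at this
    exact hne (pow_eq_zero_iff hp |>.mp this)
  refine ⟨v z₀ / u z₀, ?_, ?_⟩
  · rw [div_pow, h z₀ hz₀, div_self (pow_ne_zero _ hv0)]
  · have hζp : (v z₀ / u z₀) ^ p = 1 := by
      rw [div_pow, h z₀ hz₀, div_self (pow_ne_zero _ hv0)]
    have key : Set.EqOn v (fun z => v z₀ / u z₀ * u z) W := by
      refine eqOn_of_pow_eq hW hWc hp hv (hu.const_mul _) ?_ hz₀ ?_ hv0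
      · intro z hz
        rw [mul_pow, hζp, one_mul, h z hz]
      · rw [div_mul_cancel₀ _ hne]
    exact fun z hz => key hz

/-- **Local roots.** -/
theorem exists_local_root {p : ℕ} (hp : p ≠ 0) {f : ℂ → ℂ} {z : ℂ} (hf : AnalyticAt ℂ f z)
    {m : ℕ} (hm : analyticOrderAt f z = ((p * m : ℕ) : ℕ∞)) :
    ∃ r : ℂ → ℂ, AnalyticAt ℂ r z ∧ ∀ᶠ w in 𝓝 z, r w ^ p = f w := by
  obtain ⟨g, hg, hg0, hfg⟩ := (hf.analyticOrderAt_eq_natCast).mp hm
  obtain ⟨c, hc⟩ : ∃ c : ℂ, c ^ p = g z :=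
    IsAlgClosed.exists_pow_nat_eq (g z) (Nat.pos_of_ne_zero hp)
  have hpC : (p : ℂ) ≠ 0 := Nat.cast_ne_zero.mpr hp
  have hq : AnalyticAt ℂ (fun w => g w / g z) z := hg.div analyticAt_const hg0
  have hq1 : g z / g z ∈ Complex.slitPlane := by
    rw [div_self hg0]
    exact Complex.one_mem_slitPlane
  have hlog : AnalyticAt ℂ (fun w => Complex.log (g w / g z)) z := hq.clog hq1
  have hexp : AnalyticAt ℂ (fun w => Complex.exp (Complex.log (g w / g z) / p)) z :=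
    (hlog.div analyticAt_const hpC).cexp'
  refine ⟨fun w => (w - z) ^ m * (c * Complex.exp (Complex.log (g w / g z) / p)), ?_, ?_⟩
  · exact ((analyticAt_id.sub analyticAt_const).pow m).mul (analyticAt_const.mul hexp)
  · have hne : ∀ᶠ w in 𝓝 z, g w ≠ 0 := hg.continuousAt.eventually_ne hg0
    filter_upwards [hfg, hne] with w hw hgw
    rw [hw, mul_pow, mul_pow, ← pow_mul, ← Complex.exp_nat_mul, mul_div_cancel₀ _ hpC,
      Complex.exp_log (div_ne_zero hgw hg0), hc, mul_div_cancel₀ _ hg0, smul_eq_mul,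
      mul_comm m p]

/-- Local roots on balls inside `U`. -/
theorem exists_ball_root {U : Set ℂ} (hU : IsOpen U) {p : ℕ} (hp : p ≠ 0) {f : ℂ → ℂ}
    (hf : DifferentiableOn ℂ f U)
    (hord : ∀ z ∈ U, ∃ m : ℕ, analyticOrderAt f z = ((p * m : ℕ) : ℕ∞)) {z : ℂ} (hz : z ∈ U) :
    ∃ δ > 0, ball z δ ⊆ U ∧ ∃ r : ℂ → ℂ, DifferentiableOn ℂ r (ball z δ) ∧
      ∀ w ∈ ball z δ, r w ^ p = f w := by
  obtain ⟨m, hm⟩ := hord z hz
  obtain ⟨r, hr, hrp⟩ := exists_local_root hp (hf.analyticAt (hU.mem_nhds hz)) hm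
  have hev : ∀ᶠ w in 𝓝 z, w ∈ U ∧ AnalyticAt ℂ r w ∧ r w ^ p = f w :=
    (hU.eventually_mem hz).and (hr.eventually_analyticAt.and hrp)
  obtain ⟨δ, hδ, hball⟩ := Metric.eventually_nhds_iff_ball.mp hev
  refine ⟨δ, hδ, fun w hw => (hball w hw).1, r, fun w hw => ?_, fun w hw => (hball w hw).2.2⟩
  exact (hball w hw).2.1.differentiableAt.differentiableWithinAt

/-- `f` does not vanish identically on any nonempty open subset of `U`. -/
theorem exists_ne_zero_of_open {U : Set ℂ} {p : ℕ} {f : ℂ → ℂ}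
    (hord : ∀ z ∈ U, ∃ m : ℕ, analyticOrderAt f z = ((p * m : ℕ) : ℕ∞)) {O : Set ℂ}
    (hO : IsOpen O) (hOU : O ⊆ U) (hne : O.Nonempty) : ∃ w ∈ O, f w ≠ 0 := by
  obtain ⟨z, hz⟩ := hne
  obtain ⟨m, hm⟩ := hord z (hOU hz)
  have hnt : analyticOrderAt f z ≠ ⊤ := by
    rw [hm]
    exact ENat.natCast_ne_top _
  have hfreq : ∃ᶠ w in 𝓝 z, f w ≠ 0 := by
    intro h
    apply hnt
    rw [analyticOrderAt_eq_top]
    filter_upwards [h] with w hw
    exact not_not.mp hw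
  obtain ⟨w, hw, hwO⟩ := (hfreq.and_eventually (hO.eventually_mem hz)).exists
  exact ⟨w, hwO, hw⟩

/-- A root of `f`, normalised by the value `v₀` at `z₀`, exists on a convex open neighbourhood
of the segment `[z₀, z]`. -/
def Good (U : Set ℂ) (p : ℕ) (f : ℂ → ℂ) (z₀ v₀ z : ℂ) : Prop :=
  ∃ N : Set ℂ, IsOpen N ∧ Convex ℝ N ∧ segment ℝ z₀ z ⊆ N ∧ N ⊆ U ∧
    ∃ V : ℂ → ℂ, DifferentiableOn ℂ V N ∧ (∀ w ∈ N, V w ^ p = f w) ∧ V z₀ = v₀

/-- **Extension step.** -/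
theorem good_of_good_of_ball {U : Set ℂ} {p : ℕ} (hp : p ≠ 0) {f : ℂ → ℂ}
    (hord : ∀ z ∈ U, ∃ m : ℕ, analyticOrderAt f z = ((p * m : ℕ) : ℕ∞))
    {z₀ v₀ z₁ z₂ c : ℂ} {δ : ℝ} (hB : ball c δ ⊆ U) {r : ℂ → ℂ}
    (hr : DifferentiableOn ℂ r (ball c δ)) (hrp : ∀ w ∈ ball c δ, r w ^ p = f w)
    (h₁ : Good U p f z₀ v₀ z₁) (hz₁ : z₁ ∈ ball c δ) (hz₂ : z₂ ∈ ball c δ)
    (hseg : segment ℝ z₀ z₂ ⊆ segment ℝ z₀ z₁ ∪ segment ℝ z₁ z₂) : Good U p f z₀ v₀ z₂ := by
  obtain ⟨N, hNo, hNc, hsegN, hNU, V, hV, hVp, hV0⟩ := h₁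
  have hz₁N : z₁ ∈ N := hsegN (right_mem_segment ℝ z₀ z₁)
  have hz₀N : z₀ ∈ N := hsegN (left_mem_segment ℝ z₀ z₁)
  have hIo : IsOpen (N ∩ ball c δ) := hNo.inter isOpen_ball
  have hIc : IsPreconnected (N ∩ ball c δ) := (hNc.inter (convex_ball c δ)).isPreconnected
  obtain ⟨w₀, hw₀, hfw₀⟩ := exists_ne_zero_of_open hord hIo
    (fun w hw => hNU hw.1) ⟨z₁, hz₁N, hz₁⟩
  have hVw₀ : V w₀ ≠ 0 := by
    intro h0
    apply hfw₀
    rw [← hVp w₀ hw₀.1, h0, zero_pow hp]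
  obtain ⟨ζ, hζ, hζV⟩ := exists_const_mul_of_pow_eq hIo hIc hp
    (hV.mono inter_subset_left) (hr.mono inter_subset_right)
    (fun w hw => by rw [hVp w hw.1, hrp w hw.2]) hw₀ hVw₀
  -- hζV : ∀ w ∈ N ∩ ball, r w = ζ * V w ; so V w = ζ⁻¹ * r w
  have hζ0 : ζ ≠ 0 := by
    intro h0
    rw [h0, zero_pow hp] at hζ
    exact zero_ne_one hζ
  classical
  let V' : ℂ → ℂ := fun w => if w ∈ N then V w else ζ⁻¹ * r w
  have hV'N : ∀ w ∈ N, V' w = V w := fun w hw => if_pos hw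
  have hV'B : ∀ w ∈ ball c δ, V' w = ζ⁻¹ * r w := by
    intro w hw
    by_cases hwN : w ∈ N
    · rw [hV'N w hwN, hζV w ⟨hwN, hw⟩, inv_mul_cancel_left₀ hζ0]
    · exact if_neg hwN
  have hζinv : (ζ⁻¹) ^ p = 1 := by rw [inv_pow, hζ, inv_one]
  have hV'd : DifferentiableOn ℂ V' (N ∪ ball c δ) := by
    intro w hw
    refine DifferentiableAt.differentiableWithinAt ?_
    rcases hw with hw | hw
    · have h1 : DifferentiableAt ℂ V w := (hV w hw).differentiableAt (hNo.mem_nhds hw)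
      refine h1.congr_of_eventuallyEq ?_
      filter_upwards [hNo.mem_nhds hw] with x hx using hV'N x hx
    · have h1 : DifferentiableAt ℂ (fun x => ζ⁻¹ * r x) w :=
        ((hr w hw).differentiableAt (isOpen_ball.mem_nhds hw)).const_mul _
      refine h1.congr_of_eventuallyEq ?_
      filter_upwards [isOpen_ball.mem_nhds hw] with x hx using hV'B x hx
  have hV'p : ∀ w ∈ N ∪ ball c δ, V' w ^ p = f w := by
    intro w hw
    rcases hw with hw | hw
    · rw [hV'N w hw, hVp w hw]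
    · rw [hV'B w hw, mul_pow, hζinv, one_mul, hrp w hw]
  have hsub : segment ℝ z₀ z₂ ⊆ N ∪ ball c δ := by
    refine hseg.trans (union_subset_union hsegN ?_)
    exact (convex_ball c δ).segment_subset hz₁ hz₂
  have hcomp : IsCompact (segment ℝ z₀ z₂) := by
    rw [segment_eq_image_lineMap]
    exact isCompact_Icc.image (AffineMap.lineMap_continuous)
  obtain ⟨η, hη, hthick⟩ := hcomp.exists_thickening_subset_open (hNo.union isOpen_ball) hsub
  refine ⟨thickening η (segment ℝ z₀ z₂), isOpen_thickening, (convex_segment z₀ z₂).thickening η,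
    self_subset_thickening hη _, ?_, V', hV'd.mono hthick, fun w hw => hV'p w (hthick hw), ?_⟩
  · refine hthick.trans (union_subset hNU hB)
  · rw [hV'N z₀ hz₀N, hV0]

/-- **Continuation along segments.** -/
theorem good_of_mem {U : Set ℂ} (hU : IsOpen U) (hconv : Convex ℝ U) {p : ℕ} (hp : p ≠ 0)
    {f : ℂ → ℂ} (hf : DifferentiableOn ℂ f U)
    (hord : ∀ z ∈ U, ∃ m : ℕ, analyticOrderAt f z = ((p * m : ℕ) : ℕ∞))
    {z₀ v₀ : ℂ} (hz₀ : z₀ ∈ U) (hv₀ : v₀ ^ p = f z₀) (hfz₀ : f z₀ ≠ 0) {z : ℂ} (hz : z ∈ U) :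
    Good U p f z₀ v₀ z := by
  let γ : ℝ →ᵃ[ℝ] ℂ := AffineMap.lineMap z₀ z
  have hγc : Continuous γ := AffineMap.lineMap_continuous
  have hγU : ∀ t ∈ Icc (0 : ℝ) 1, γ t ∈ U := by
    intro t ht
    have : γ t ∈ segment ℝ z₀ z := by
      rw [segment_eq_image_lineMap]
      exact ⟨t, ht, rfl⟩
    exact hconv.segment_subset hz₀ hz this
  have hsegγ : ∀ a b : ℝ, segment ℝ (γ a) (γ b) = γ '' uIcc a b := by
    intro a b
    rw [← segment_eq_uIcc, image_segment]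
  have hγ0 : γ 0 = z₀ := AffineMap.lineMap_apply_zero z₀ z
  have hγ1 : γ 1 = z := AffineMap.lineMap_apply_one z₀ z
  have hseg : ∀ t₁ t₂ : ℝ,
      segment ℝ z₀ (γ t₂) ⊆ segment ℝ z₀ (γ t₁) ∪ segment ℝ (γ t₁) (γ t₂) := by
    intro t₁ t₂
    rw [← hγ0, hsegγ, hsegγ, hsegγ, ← image_union]
    exact image_mono uIcc_subset_uIcc_union_uIcc
  -- the extension step along `γ`
  have hext : ∀ s ∈ Icc (0 : ℝ) 1, ∃ O : Set ℝ, IsOpen O ∧ s ∈ O ∧
      ∀ t₁ ∈ O, Good U p f z₀ v₀ (γ t₁) → ∀ t₂ ∈ O, Good U p f z₀ v₀ (γ t₂) := by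
    intro s hs
    obtain ⟨δ, hδ, hB, r, hr, hrp⟩ := exists_ball_root hU hp hf hord (hγU s hs)
    refine ⟨γ ⁻¹' ball (γ s) δ, isOpen_ball.preimage hγc, mem_ball_self hδ, ?_⟩
    intro t₁ ht₁ hg t₂ ht₂
    exact good_of_good_of_ball hp hord hB hr hrp hg ht₁ ht₂ (hseg t₁ t₂)
  let S : Set ℝ := {t | Good U p f z₀ v₀ (γ t)}
  have h1 : (1 : ℝ) ∈ S := by
    refine IsClosed.mem_of_ge_of_forall_exists_gt (a := (0 : ℝ)) (b := 1) (s := S) ?_ ?_
      zero_le_one ?_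
    · -- closedness
      refine isClosed_of_closure_subset fun t ht => ?_
      have ht01 : t ∈ Icc (0 : ℝ) 1 := closure_minimal inter_subset_right isClosed_Icc ht
      obtain ⟨O, hO, htO, hOext⟩ := hext t ht01
      obtain ⟨t₁, ht₁O, ht₁S, -⟩ := mem_closure_iff.mp ht O hO htO
      exact ⟨hOext t₁ ht₁O ht₁S t htO, ht01⟩
    · -- base point
      obtain ⟨δ, hδ, hB, r, hr, hrp⟩ := exists_ball_root hU hp hf hord hz₀
      have hr0 : r z₀ ≠ 0 := by
        intro h0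
        apply hfz₀
        rw [← hrp z₀ (mem_ball_self hδ), h0, zero_pow hp]
      have hv0 : v₀ ≠ 0 := by
        intro h0
        apply hfz₀
        rw [← hv₀, h0, zero_pow hp]
      have hζ : (v₀ / r z₀) ^ p = 1 := by
        rw [div_pow, hv₀, hrp z₀ (mem_ball_self hδ), div_self hfz₀]
      refine ⟨ball z₀ δ, isOpen_ball, convex_ball z₀ δ, ?_, hB, fun w => v₀ / r z₀ * r w,
        hr.const_mul _, fun w hw => ?_, ?_⟩
      · rw [hγ0, segment_same]
        exact singleton_subset_iff.mpr (mem_ball_self hδ)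
      · rw [mul_pow, hζ, one_mul, hrp w hw]
      · exact div_mul_cancel₀ _ hr0
    · -- no maximal point
      rintro x ⟨hxS, hx0, hx1⟩
      obtain ⟨O, hO, hxO, hOext⟩ := hext x ⟨hx0, hx1.le⟩
      obtain ⟨ε, hε, hεO⟩ := Metric.isOpen_iff.mp hO x hxO
      refine ⟨min (x + ε / 2) 1, ?_, lt_min (by linarith) hx1, min_le_right _ _⟩
      refine hOext x hxO hxS _ (hεO ?_)
      rw [Real.ball_eq_Ioo]
      constructor
      · have : x < min (x + ε / 2) 1 := lt_min (by linarith) hx1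
        linarith
      · have : min (x + ε / 2) 1 ≤ x + ε / 2 := min_le_left _ _
        linarith
  have := h1
  simp only [S, mem_ofPred_eq, hγ1] at this
  exact this

/-- **Holomorphic `p`-th roots on convex domains.** -/
theorem exists_differentiableOn_pow_eq_of_convex {U : Set ℂ} (hU : IsOpen U)
    (hconv : Convex ℝ U) (p : ℕ) (hp : p ≠ 0) {f : ℂ → ℂ} (hf : DifferentiableOn ℂ f U)
    (hne : ∃ z ∈ U, f z ≠ 0)
    (hord : ∀ z ∈ U, ∃ m : ℕ, analyticOrderAt f z = ((p * m : ℕ) : ℕ∞)) :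
    ∃ u : ℂ → ℂ, DifferentiableOn ℂ u U ∧ ∀ z ∈ U, u z ^ p = f z := by
  obtain ⟨z₀, hz₀, hfz₀⟩ := hne
  obtain ⟨v₀, hv₀⟩ : ∃ v₀ : ℂ, v₀ ^ p = f z₀ :=
    IsAlgClosed.exists_pow_nat_eq (f z₀) (Nat.pos_of_ne_zero hp)
  have hv0 : v₀ ≠ 0 := by
    intro h0
    apply hfz₀
    rw [← hv₀, h0, zero_pow hp]
  have hgood : ∀ z : ℂ, ∀ hz : z ∈ U, Good U p f z₀ v₀ z :=
    fun z hz => good_of_mem hU hconv hp hf hord hz₀ hv₀ hfz₀ hz
  choose N hNo hNc hsegN hNU V hV hVp hV0 using hgood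
  classical
  let u : ℂ → ℂ := fun z => if hz : z ∈ U then V z hz z else 0
  have hu : ∀ (z : ℂ) (hz : z ∈ U), ∀ z' ∈ N z hz, u z' = V z hz z' := by
    intro z hz z' hz'
    have hz'U : z' ∈ U := hNU z hz hz'
    have huz' : u z' = V z' hz'U z' := dif_pos hz'U
    rw [huz']
    have hIo : IsOpen (N z' hz'U ∩ N z hz) := (hNo z' hz'U).inter (hNo z hz)
    have hIc : IsPreconnected (N z' hz'U ∩ N z hz) :=
      ((hNc z' hz'U).inter (hNc z hz)).isPreconnected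
    have hz₀I : z₀ ∈ N z' hz'U ∩ N z hz :=
      ⟨hsegN z' hz'U (left_mem_segment ℝ z₀ z'), hsegN z hz (left_mem_segment ℝ z₀ z)⟩
    have key : Set.EqOn (V z' hz'U) (V z hz) (N z' hz'U ∩ N z hz) := by
      refine eqOn_of_pow_eq hIo hIc hp ((hV z' hz'U).mono inter_subset_left)
        ((hV z hz).mono inter_subset_right) ?_ hz₀I ?_ ?_
      · intro w hw
        rw [hVp z' hz'U w hw.1, hVp z hz w hw.2]
      · rw [hV0 z' hz'U, hV0 z hz]
      · rw [hV0 z' hz'U]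
        exact hv0
    exact key ⟨hsegN z' hz'U (right_mem_segment ℝ z₀ z'), hz'⟩
  refine ⟨u, fun z hz => ?_, fun z hz => ?_⟩
  · have hzN : z ∈ N z hz := hsegN z hz (right_mem_segment ℝ z₀ z)
    have h1 : DifferentiableAt ℂ (V z hz) z :=
      (hV z hz z hzN).differentiableAt ((hNo z hz).mem_nhds hzN)
    refine (h1.congr_of_eventuallyEq ?_).differentiableWithinAt
    filter_upwards [(hNo z hz).mem_nhds hzN] with x hx using hu z hz x hx
  · have hzN : z ∈ N z hz := hsegN z hz (right_mem_segment ℝ z₀ z)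
    rw [hu z hz z hzN, hVp z hz z hzN]

/-- **Holomorphic `p`-th roots on the upper half plane.** -/
theorem exists_differentiableOn_pow_eq (p : ℕ) (hp : p ≠ 0) {f : ℂ → ℂ}
    (hf : DifferentiableOn ℂ f {z : ℂ | 0 < z.im}) (hne : ∃ z : ℂ, 0 < z.im ∧ f z ≠ 0)
    (hord : ∀ z : ℂ, 0 < z.im → ∃ m : ℕ, analyticOrderAt f z = ((p * m : ℕ) : ℕ∞)) :
    ∃ u : ℂ → ℂ, DifferentiableOn ℂ u {z : ℂ | 0 < z.im} ∧ ∀ z : ℂ, 0 < z.im → u z ^ p = f z :=
  exists_differentiableOn_pow_eq_of_convex (isOpen_lt continuous_const Complex.continuous_im)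
    (convex_halfSpace_im_gt 0) p hp hf hne hord

end Fermat.Agent.S29.PthRootB
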