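/-
S29 route, block [K] (K5d) — PthRootSeries.lean (helper83).

`p`-th roots of series are rational up to a constant.  For fields `K ⊆ L` with `p` invertible
in `L`:

* `coeff_mem_of_pow_mem` : a power series `U` over `L` with constant coefficient `1` whose
  `p`-th power has all coefficients in a subfield `R` has all coefficients in `R`;
* `exists_C_mul_mem_range_of_pow` : a nonzero Laurent series `h` over `L` whose `p`-th power
  has coefficients in `K` is, up to a nonzero constant of `L`, a Laurent series over `K`.

No `IsAlgClosed`, no characteristic zero: only `(p : L) ≠ 0`.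
-/
import Mathlib
import Fermat.Prelude.Def_ModularCurve_LaurentCoeff

set_option autoImplicit false

noncomputable section

namespace Fermat.Agent.S29.PthRootSeries

open ModularCurve

section PowerSeries

open PowerSeries

variable {L : Type*} [Field L]

/-- Power series with coefficients in a subfield are closed under powers. -/
theorem coeff_pow_mem (R : Subfield L) (A : PowerSeries L) (hA : ∀ m, coeff m A ∈ R) (n : ℕ) :
    ∀ m, coeff m (A ^ n) ∈ R := by
  have h : A = PowerSeries.map R.subtype (PowerSeries.mk fun m => (⟨coeff m A, hA m⟩ : R)) := by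
    ext m
    simp
  intro m
  rw [h, ← map_pow, PowerSeries.coeff_map]
  exact Subtype.property _

/-- **`p`-th roots of power series**: if `U` has constant coefficient `1` and `U ^ p` has all
coefficients in the subfield `R`, with `p` invertible, then `U` has all coefficients in `R`. -/
theorem coeff_mem_of_pow_mem (R : Subfield L) (p : ℕ) (hp : (p : L) ≠ 0) (U : PowerSeries L)
    (h0 : constantCoeff U = 1) (hU : ∀ m, coeff m (U ^ p) ∈ R) : ∀ m, coeff m U ∈ R := by
  intro m
  induction m using Nat.strong_induction_on with
  | _ m ih =>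
    rcases Nat.eq_zero_or_pos m with rfl | hm
    · rw [coeff_zero_eq_constantCoeff_apply, h0]
      exact R.one_mem
    · set A : PowerSeries L := ((trunc m U : Polynomial L) : PowerSeries L) with hA
      have hAc : ∀ i, coeff i A = if i < m then coeff i U else 0 := by
        intro i
        rw [hA, Polynomial.coeff_coe, coeff_trunc]
      have hAR : ∀ i, coeff i A ∈ R := by
        intro i
        rw [hAc]
        split_ifs with h
        · exact ih i h
        · exact R.zero_mem
      set B : PowerSeries L := U - A with hB
      have hBX : (X : PowerSeries L) ^ m ∣ B := by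
        rw [X_pow_dvd_iff]
        intro i hi
        rw [hB, map_sub, hAc, if_pos hi, sub_self]
      obtain ⟨V, hV⟩ := hBX
      have hV0 : constantCoeff V = coeff m U := by
        have h1 : coeff m B = constantCoeff V := by
          rw [hV, coeff_X_pow_mul', if_pos le_rfl, Nat.sub_self, coeff_zero_eq_constantCoeff_apply]
        rw [← h1, hB, map_sub, hAc, if_neg (lt_irrefl m), sub_zero]
      have hA0 : constantCoeff A = 1 := by
        rw [← coeff_zero_eq_constantCoeff_apply, hAc, if_pos hm, coeff_zero_eq_constantCoeff_apply,
          h0]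
      obtain ⟨k, hk⟩ := Polynomial.powAddExpansion A B p
      have hUAB : U = A + B := by
        rw [hB]
        ring
      have e1 : (p : PowerSeries L) * A ^ (p - 1) * B = X ^ m * ((p : PowerSeries L) * A ^ (p - 1) * V) := by
        rw [hV]
        ring
      have e2 : k * B ^ 2 = X ^ (2 * m) * (k * V ^ 2) := by
        rw [hV]
        ring
      have c1 : coeff m (X ^ m * ((p : PowerSeries L) * A ^ (p - 1) * V)) =
          (p : L) * coeff m U := by
        rw [coeff_X_pow_mul', if_pos le_rfl, Nat.sub_self, coeff_zero_eq_constantCoeff_apply,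
          RingHom.map_mul, RingHom.map_mul, RingHom.map_pow, hA0, one_pow, mul_one, hV0,
          map_natCast]
      have c2 : coeff m (X ^ (2 * m) * (k * V ^ 2)) = 0 := by
        rw [coeff_X_pow_mul', if_neg (by omega)]
      have key : coeff m (U ^ p) = coeff m (A ^ p) + (p : L) * coeff m U := by
        have h3 : U ^ p = A ^ p + X ^ m * ((p : PowerSeries L) * A ^ (p - 1) * V) +
            X ^ (2 * m) * (k * V ^ 2) := by
          rw [← e1, ← e2, ← hk, ← hUAB]
        rw [h3, map_add, map_add, c1, c2, add_zero]
      have hsol : coeff m U = (coeff m (U ^ p) - coeff m (A ^ p)) * (p : L)⁻¹ := by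
        rw [key]
        field_simp
        ring
      rw [hsol]
      exact R.mul_mem (R.sub_mem (hU m) (coeff_pow_mem R A hAR p m))
        (R.inv_mem (natCast_mem R p))

end PowerSeries

section Laurent

variable {K L : Type*} [Field K] [Field L] [Algebra K L]

/-- A Laurent series over `L` comes from `K` iff all its coefficients do. -/
theorem mem_range_coeffMap_of_coeff (x : LaurentSeries L)
    (h : ∀ n : ℤ, x.coeff n ∈ Set.range (algebraMap K L)) :
    x ∈ Set.range (coeffMap (algebraMap K L)) := by
  choose g hg using h
  have hsupp : Function.support g = Function.support x.coeff := by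
    ext n
    simp only [Function.mem_support, ne_eq]
    rw [← hg n]
    exact (map_eq_zero_iff _ (algebraMap K L).injective).not.symm
  refine ⟨⟨g, ?_⟩, ?_⟩
  · rw [hsupp]
    exact x.isPWO_support
  · ext n
    exact hg n

/-- **`p`-th roots of Laurent series are rational up to a constant.**  If `h ≠ 0` is a Laurent
series over `L` whose `p`-th power has coefficients in `K` (with `p` invertible in `L`), then
`c * h` has coefficients in `K` for a nonzero constant `c ∈ L` (the inverse of the leading
coefficient of `h`). -/
theorem exists_C_mul_mem_range_of_pow (p : ℕ) (hp : (p : L) ≠ 0) (h : LaurentSeries L)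
    (hh : h ≠ 0) (hpow : h ^ p ∈ Set.range (coeffMap (algebraMap K L))) :
    ∃ c : L, c ≠ 0 ∧ HahnSeries.C c * h ∈ Set.range (coeffMap (algebraMap K L)) := by
  set R : Subfield L := (algebraMap K L).fieldRange with hR
  have hRmem : ∀ x : L, x ∈ R ↔ x ∈ Set.range (algebraMap K L) := fun x => Iff.rfl
  set P : PowerSeries L := h.powerSeriesPart with hPdef
  have hP : (HahnSeries.single h.order (1 : L) : LaurentSeries L) *
      HahnSeries.ofPowerSeries ℤ L P = h := LaurentSeries.single_order_mul_powerSeriesPart h
  set a : L := PowerSeries.constantCoeff P with ha_def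
  have ha_eq : a = h.coeff h.order := by
    rw [ha_def, ← PowerSeries.coeff_zero_eq_constantCoeff_apply, hPdef,
      LaurentSeries.powerSeriesPart_coeff]
    simp
  have ha : a ≠ 0 := by
    rw [ha_eq]
    exact HahnSeries.coeff_order_eq_zero.not.2 hh
  -- the `p`-th power
  have hpw : h ^ p = (HahnSeries.single (p • h.order) (1 : L) : LaurentSeries L) *
      HahnSeries.ofPowerSeries ℤ L (P ^ p) := by
    calc h ^ p = ((HahnSeries.single h.order (1 : L) : LaurentSeries L) *
          HahnSeries.ofPowerSeries ℤ L P) ^ p := by rw [hP]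
      _ = _ := by rw [mul_pow, HahnSeries.single_pow, one_pow, map_pow]
  have hPp : ∀ m, PowerSeries.coeff m (P ^ p) ∈ R := by
    intro m
    obtain ⟨y, hy⟩ := hpow
    have h1 : (h ^ p).coeff ((m : ℤ) + p • h.order) = PowerSeries.coeff m (P ^ p) := by
      rw [hpw, HahnSeries.coeff_single_mul_add, one_mul]
      exact LaurentSeries.coeff_coe_powerSeries _ _
    rw [← h1, ← hy, hRmem]
    exact ⟨y.coeff _, rfl⟩
  -- normalise
  set U : PowerSeries L := PowerSeries.C a⁻¹ * P with hUdef
  have hU0 : PowerSeries.constantCoeff U = 1 := by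
    rw [hUdef, map_mul, PowerSeries.constantCoeff_C, ← ha_def, inv_mul_cancel₀ ha]
  have hap : a ^ p ∈ R := by
    have h1 := hPp 0
    rwa [PowerSeries.coeff_zero_eq_constantCoeff_apply, map_pow, ← ha_def] at h1
  have hUp : ∀ m, PowerSeries.coeff m (U ^ p) ∈ R := by
    intro m
    rw [hUdef, mul_pow, ← map_pow, PowerSeries.coeff_C_mul, inv_pow]
    exact R.mul_mem (R.inv_mem hap) (hPp m)
  have hUR := coeff_mem_of_pow_mem R p hp U hU0 hUp
  refine ⟨a⁻¹, inv_ne_zero ha, mem_range_coeffMap_of_coeff _ fun n => ?_⟩
  rw [HahnSeries.C_mul_eq_smul, HahnSeries.coeff_smul, smul_eq_mul, ← hRmem]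
  by_cases hn : n < h.order
  · rw [HahnSeries.coeff_eq_zero_of_lt_order hn, mul_zero]
    exact R.zero_mem
  · obtain ⟨m, hm⟩ := Int.eq_ofNat_of_zero_le (sub_nonneg.mpr (not_lt.mp hn))
    have hn' : n = h.order + m := by omega
    have h2 := hUR m
    rw [hUdef, PowerSeries.coeff_C_mul, hPdef, LaurentSeries.powerSeriesPart_coeff, ← hn'] at h2
    exact h2

/-- Variant: a `p`-th root `y` (over `L`) of a series with coefficients in `K`. -/
theorem exists_C_mul_mem_range_of_pow_eq (p : ℕ) (hp : (p : L) ≠ 0) (x : LaurentSeries K)
    (y : LaurentSeries L) (hy : y ≠ 0) (hxy : y ^ p = coeffMap (algebraMap K L) x) :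
    ∃ (c : L) (z : LaurentSeries K), c ≠ 0 ∧ coeffMap (algebraMap K L) z = HahnSeries.C c * y := by
  obtain ⟨c, hc, z, hz⟩ := exists_C_mul_mem_range_of_pow (K := K) p hp y hy ⟨x, hxy.symm⟩
  exact ⟨c, z, hc, hz⟩

end Laurent

end Fermat.Agent.S29.PthRootSeries
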