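import Mathlib
import Fermat.Agent.S29.R2Defs
import Fermat.Agent.S29.OAn
import Fermat.Agent.S29.FracOrd

/-!
# S29 block [K], row [R2Model]: the analytic model of `O_N` (hypothesis form)

OWNER: helper15 (only the owner edits this file).

`FormHyp N` says that every element of `O_N` is the `q`-expansion of `G / Δ ^ m` for a modular
form `G` of weight `12 m` on `Γ₀(N)` (this is `K1IntConv ∘ IntAlg`; it is discharged in
`R2ModelTop.lean`).  From it, and from `F_ℂ = Frac O_N`, we build the model `modelOf : R2.Model N`: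

* `realR h : O_N →ₐ[ℂ] OAn.Ran N` is the inverse of the `q`-expansion map `OAn.Psi`;
* `nu h z : F_ℂ → ℤ` is the extension to the fraction field of the order of vanishing at `z`
  (`FracOrd.exists_fracOrd`).
-/

set_option autoImplicit false

namespace Fermat.Agent.S29.R2Model

open UpperHalfPlane ModularForm CongruenceSubgroup ModularCurve
open scoped MatrixGroups ModularForm Manifold
open Fermat.Agent.S29 Fermat.Agent.LevelOne

/-- Every element of `O_N` is the `q`-expansion of `G / Δ ^ m`, `G` a form of weight `12 m`. -/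
def FormHyp (N : ℕ) : Prop :=
  ∀ x : ↥(R2.ON N), ∃ (m : ℕ) (G : ℍ → ℂ), G ∈ S20.MF N (12 * (m : ℤ)) ∧
    ((x : ↥(K.FC N)) : LaurentSeries ℂ) * K.DeltaC ^ m = K.qx G

variable {N : ℕ} [NeZero N]

/-- The inclusion of `O_N` into `ℂ((q))`. -/
noncomputable def incl (N : ℕ) : ↥(R2.ON N) →ₐ[ℂ] LaurentSeries ℂ :=
  (K.FC N).val.comp (R2.ON N).val

@[simp] theorem incl_apply (x : ↥(R2.ON N)) :
    incl N x = ((x : ↥(K.FC N)) : LaurentSeries ℂ) := rfl

theorem incl_injective : Function.Injective (incl N) := fun _ _ h =>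
  Subtype.ext (Subtype.ext h)

theorem mem_range_Psi (h : FormHyp N) (x : ↥(R2.ON N)) : incl N x ∈ (OAn.Psi N).range := by
  obtain ⟨m, G, hG, hx⟩ := h x
  obtain ⟨f, hf, -⟩ := OAn.exists_Psi_eq hG hx
  exact ⟨f, hf⟩

/-- The realisation of `O_N` inside the ring `OAn.Ran N` of holomorphic `Γ₀(N)`-invariant
functions with at most poles at the cusps. -/
noncomputable def realR (h : FormHyp N) : ↥(R2.ON N) →ₐ[ℂ] ↥(OAn.Ran N) :=
  ((AlgEquiv.ofInjective (OAn.Psi N) OAn.Psi_injective).symm :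
      ↥(OAn.Psi N).range →ₐ[ℂ] ↥(OAn.Ran N)).comp
    ((incl N).codRestrict (OAn.Psi N).range (mem_range_Psi h))

theorem Psi_realR (h : FormHyp N) (x : ↥(R2.ON N)) :
    OAn.Psi N (realR h x) = ((x : ↥(K.FC N)) : LaurentSeries ℂ) := by
  have h1 := (AlgEquiv.ofInjective (OAn.Psi N) OAn.Psi_injective).apply_symm_apply
    ((incl N).codRestrict (OAn.Psi N).range (mem_range_Psi h) x)
  exact congrArg Subtype.val h1

theorem realR_injective (h : FormHyp N) : Function.Injective (realR h) := by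
  intro x y hxy
  have h1 := congrArg (OAn.Psi N) hxy
  rw [Psi_realR, Psi_realR] at h1
  exact Subtype.ext (Subtype.ext h1)

theorem realR_ne_zero (h : FormHyp N) {a : ↥(R2.ON N)} (ha : a ≠ 0) : realR h a ≠ 0 := by
  intro h0
  exact ha (realR_injective h (h0.trans (map_zero _).symm))

theorem realR_jO (h : FormHyp N) : realR h (R2.jO N) = OAn.jR N := by
  apply OAn.Psi_injective
  rw [Psi_realR, OAn.Psi_jR]
  rfl

theorem realR_spec (h : FormHyp N) (x : ↥(R2.ON N)) (m : ℕ) (G : ℍ → ℂ)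
    (hG : G ∈ S20.MF N (12 * (m : ℤ)))
    (hx : ((x : ↥(K.FC N)) : LaurentSeries ℂ) * K.DeltaC ^ m = K.qx G) (z : ℍ) :
    ((realR h x : ↥(OAn.Ran N)) : ℍ → ℂ) z * ModularForm.discriminant z ^ m = G z := by
  obtain ⟨f, hf, hfz⟩ := OAn.exists_Psi_eq hG hx
  have e : f = realR h x := OAn.Psi_injective (hf.trans (Psi_realR h x).symm)
  rw [← e]
  exact hfz z

/-- The order of vanishing at `z` of the function attached to an element of `O_N`. -/
noncomputable def ordO (h : FormHyp N) (z : ℍ) (a : ↥(R2.ON N)) : ℕ := OAn.ordR z (realR h a)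

theorem ordO_mul (h : FormHyp N) (z : ℍ) (a b : ↥(R2.ON N)) (ha : a ≠ 0) (hb : b ≠ 0) :
    ordO h z (a * b) = ordO h z a + ordO h z b := by
  unfold ordO
  rw [map_mul]
  exact OAn.ordR_mul z (realR_ne_zero h ha) (realR_ne_zero h hb)

theorem exists_nu [IsFractionRing ↥(R2.ON N) ↥(K.FC N)] (h : FormHyp N) (z : ℍ) :
    ∃ ν : ↥(K.FC N) → ℤ, (∀ x y : ↥(K.FC N), x ≠ 0 → y ≠ 0 → ν (x * y) = ν x + ν y) ∧
      ∀ a : ↥(R2.ON N), a ≠ 0 → ν (algebraMap ↥(R2.ON N) ↥(K.FC N) a) = (ordO h z a : ℤ) :=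
  FracOrd.exists_fracOrd (F := ↥(K.FC N)) (ordO h z) (ordO_mul h z)

/-- The order at `z` on the fraction field `F_ℂ`. -/
noncomputable def nu [IsFractionRing ↥(R2.ON N) ↥(K.FC N)] (h : FormHyp N) (z : ℍ) :
    ↥(K.FC N) → ℤ := Classical.choose (exists_nu h z)

theorem nu_mul [IsFractionRing ↥(R2.ON N) ↥(K.FC N)] (h : FormHyp N) (z : ℍ)
    (x y : ↥(K.FC N)) (hx : x ≠ 0) (hy : y ≠ 0) : nu h z (x * y) = nu h z x + nu h z y :=
  (Classical.choose_spec (exists_nu h z)).1 x y hx hy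

theorem nu_algebraMap [IsFractionRing ↥(R2.ON N) ↥(K.FC N)] (h : FormHyp N) (z : ℍ)
    (a : ↥(R2.ON N)) (ha : a ≠ 0) :
    nu h z (algebraMap ↥(R2.ON N) ↥(K.FC N) a) = (ordO h z a : ℤ) :=
  (Classical.choose_spec (exists_nu h z)).2 a ha

/-- **The analytic model of `O_N`**, from `FormHyp N` and `F_ℂ = Frac O_N`. -/
noncomputable def modelOf [IsFractionRing ↥(R2.ON N) ↥(K.FC N)] (h : FormHyp N) : R2.Model N where
  real := (OAn.Ran N).val.comp (realR h)
  real_injective := fun x y hxy => realR_injective h (Subtype.ext hxy)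
  real_jO := by
    show ((realR h (R2.jO N) : ↥(OAn.Ran N)) : ℍ → ℂ) = jFun
    rw [realR_jO]
    rfl
  real_mdiff := fun x => OAn.mdiff_of_mem_Ran (realR h x).2
  real_inv := fun x _ hγ z => OAn.apply_smul_of_mem_Ran (realR h x) hγ z
  real_bdd := fun x => OAn.bdd_of_mem_Ran (realR h x)
  exists_form := h
  real_spec := fun x m G hG hx z => realR_spec h x m G hG hx z
  nu := nu h
  nu_mul := nu_mul h
  nu_algebraMap := fun z a ha =>
    ⟨ordO h z a, nu_algebraMap h z a ha, (OAn.cast_ordR z (realR_ne_zero h ha)).symm⟩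

theorem modelOf_real [IsFractionRing ↥(R2.ON N) ↥(K.FC N)] (h : FormHyp N) (x : ↥(R2.ON N)) :
    (modelOf h).real x = ((realR h x : ↥(OAn.Ran N)) : ℍ → ℂ) := rfl

/-- The `q`-expansion of the function attached to `x ∈ O_N` is `x`. -/
theorem Psi_modelOf_real [IsFractionRing ↥(R2.ON N) ↥(K.FC N)] (h : FormHyp N)
    (x : ↥(R2.ON N)) :
    ∃ f : ↥(OAn.Ran N), (f : ℍ → ℂ) = (modelOf h).real x ∧
      OAn.Psi N f = ((x : ↥(K.FC N)) : LaurentSeries ℂ) :=
  ⟨realR h x, rfl, Psi_realR h x⟩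

theorem nonempty_model [IsFractionRing ↥(R2.ON N) ↥(K.FC N)] (h : FormHyp N) :
    Nonempty (R2.Model N) := ⟨modelOf h⟩

end Fermat.Agent.S29.R2Model
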