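import Mathlib
import Fermat.Agent.S29.R2Model
import Fermat.Agent.S29.IntAlg
import Fermat.Agent.S29.ODedR2
import Fermat.Agent.S29.K1IntConvFC

/-!
# S29 block [K], row [R2Model]: the analytic model of `O_N` (closed form)

OWNER: helper15 (only the owner edits this file).

`formHyp N` discharges the hypothesis of `R2Model.modelOf` from the landed leaves
`K.exists_form_of_isIntegral` (K1IntConv) and `IntAlg.exists_isIntegral_inv_pow`; the fraction
field instance is `ODedR2`.  `model N : R2.Model N` is the resulting analytic model of `O_N`.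
-/

set_option autoImplicit false

namespace Fermat.Agent.S29.R2Model

open UpperHalfPlane ModularForm CongruenceSubgroup ModularCurve
open scoped MatrixGroups ModularForm Manifold
open Fermat.Agent.S29 Fermat.Agent.LevelOne

/-- Every element of `O_N` is the `q`-expansion of `G / Δ ^ m` for a modular form `G` of weight
`12 m` on `Γ₀(N)`. -/
theorem formHyp (N : ℕ) [NeZero N] : FormHyp N := by
  intro x
  have h1 := (R2.mem_ON_iff N x).mp x.2
  obtain ⟨m, hm⟩ := IntAlg.exists_isIntegral_inv_pow (k := ℂ) K.jC
    ((x : ↥(K.FC N)) : LaurentSeries ℂ) K1IntConv.jC_ne_zero h1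
  obtain ⟨G, hG, hx⟩ := K.exists_form_of_isIntegral m (x : ↥(K.FC N)).2 h1 hm
  exact ⟨m, G, hG, hx⟩

/-- **The analytic model of `O_N`.** -/
noncomputable def model (N : ℕ) [NeZero N] : R2.Model N := modelOf (formHyp N)

theorem nonempty_model_top (N : ℕ) [NeZero N] : Nonempty (R2.Model N) := ⟨model N⟩

/-- The `q`-expansion of the function attached to `x ∈ O_N` is `x`: there is a modular form `G`
of weight `12 m` with `real x · Δ ^ m = G` and `x · DeltaC ^ m = qx G`. -/
theorem model_real_form (N : ℕ) [NeZero N] (x : ↥(R2.ON N)) :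
    ∃ (m : ℕ) (G : ℍ → ℂ), G ∈ S20.MF N (12 * (m : ℤ)) ∧
      ((x : ↥(K.FC N)) : LaurentSeries ℂ) * K.DeltaC ^ m = K.qx G ∧
      ∀ z : ℍ, (model N).real x z * ModularForm.discriminant z ^ m = G z := by
  obtain ⟨m, G, hG, hx⟩ := (model N).exists_form x
  exact ⟨m, G, hG, hx, (model N).real_spec x m G hG hx⟩

end Fermat.Agent.S29.R2Model
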