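/-
S29 block [K], [KPInv] route A (order transport), rows (P3a)–(P3e) — R2Sigma.lean (helper73,
dealt by helper1).

THE `Aut(ℂ)`-ACTION ON THE FUNCTION FIELD `F_ℂ = K.FC N` OF `X₀(N)` OVER `ℂ` AND ON ITS PLACES.

`g σ := arithmeticGalois (modularFunctionFieldFull N) σ : SemilinearAut ℂ ↥(K.FC N)` is the
coefficientwise action of `σ : ℂ ≃ₐ[ℚ] ℂ` (Prelude `Def_ModularCurve_ArithmeticGalois` at
`L := ℂ`).

* `coe_smul`            : `(g σ • y : ℂ((q))) = coeffMap σ y`;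
* `smul_jF`             : `g σ • j = j`;
* `smul_sub_algebraMap` : `g σ • (j - c) = j - σ c`;
* `ord_inv_smul`        : `ord_{(g σ)⁻¹ • Q₁} y = ord_{Q₁} (g σ • y)`;
* `jF_mem_inv_smul`     : `j` regular at `Q₁` ⟹ `j` regular at `(g σ)⁻¹ • Q₁`.
-/
import Mathlib
import Fermat.Prelude.Def_ModularCurve_ArithmeticGalois
import Fermat.Agent.S29.KDefs
import Fermat.Agent.S29.TaylorMer

set_option autoImplicit false

noncomputable section

namespace Fermat.Agent.S29.R2Sigma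

open AlgebraicCurve ModularCurve HahnSeries
open scoped Pointwise

/-- (P3e) The action of `σ` on `F_ℂ` is the coefficientwise action on `q`-series. -/
theorem coe_smul (N : ℕ) [NeZero N] (σ : ℂ ≃ₐ[ℚ] ℂ) (y : ↥(K.FC N)) :
    ((arithmeticGalois (modularFunctionFieldFull N) σ • y : ↥(K.FC N)) : LaurentSeries ℂ)
      = coeffMap (σ : ℂ →+* ℂ) (y : LaurentSeries ℂ) :=
  rfl

/-- (P3b) `σ` fixes the coordinate `j`. -/
theorem smul_jF (N : ℕ) [NeZero N] (σ : ℂ ≃ₐ[ℚ] ℂ) :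
    arithmeticGalois (modularFunctionFieldFull N) σ • TaylorMer.jF N = TaylorMer.jF N := by
  apply Subtype.ext
  rw [coe_smul]
  show coeffMap (σ : ℂ →+* ℂ) (coeffEmb ℂ jq) = coeffEmb ℂ jq
  exact coeffMap_coeffEmb σ jq

/-- The action of `σ` on constants. -/
theorem smul_algebraMap (N : ℕ) [NeZero N] (σ : ℂ ≃ₐ[ℚ] ℂ) (c : ℂ) :
    arithmeticGalois (modularFunctionFieldFull N) σ • algebraMap ℂ ↥(K.FC N) c
      = algebraMap ℂ ↥(K.FC N) (σ c) :=
  SemilinearAut.smul_algebraMap (arithmeticGalois (modularFunctionFieldFull N) σ) c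

/-- (P3d) `σ • (j - c) = j - σ c`. -/
theorem smul_sub_algebraMap (N : ℕ) [NeZero N] (σ : ℂ ≃ₐ[ℚ] ℂ) (c : ℂ) :
    arithmeticGalois (modularFunctionFieldFull N) σ
        • (TaylorMer.jF N - algebraMap ℂ ↥(K.FC N) c)
      = TaylorMer.jF N - algebraMap ℂ ↥(K.FC N) (σ c) := by
  rw [smul_sub, smul_jF, smul_algebraMap]

/-- (P3a) Orders at the transported place. -/
theorem ord_inv_smul (N : ℕ) [NeZero N] (σ : ℂ ≃ₐ[ℚ] ℂ) (Q1 : Place ℂ ↥(K.FC N))
    (y : ↥(K.FC N)) :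
    ((arithmeticGalois (modularFunctionFieldFull N) σ)⁻¹ • Q1).ord y
      = Q1.ord (arithmeticGalois (modularFunctionFieldFull N) σ • y) := by
  have h := SemilinearAut.ord_smul (arithmeticGalois (modularFunctionFieldFull N) σ)⁻¹ Q1
    (arithmeticGalois (modularFunctionFieldFull N) σ • y)
  rw [inv_smul_smul] at h
  exact h

/-- Membership in the valuation ring of the transported place. -/
theorem mem_inv_smul_iff (N : ℕ) [NeZero N] (σ : ℂ ≃ₐ[ℚ] ℂ) (Q1 : Place ℂ ↥(K.FC N))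
    (y : ↥(K.FC N)) :
    y ∈ ((arithmeticGalois (modularFunctionFieldFull N) σ)⁻¹ • Q1).toValuationSubring
      ↔ arithmeticGalois (modularFunctionFieldFull N) σ • y ∈ Q1.toValuationSubring := by
  rw [SemilinearAut.smul_toValuationSubring,
    ValuationSubring.mem_pointwise_smul_iff_inv_smul_mem, inv_inv]

/-- (P3c) If `j` is regular at `Q₁`, it is regular at `σ⁻¹ • Q₁`. -/
theorem jF_mem_inv_smul (N : ℕ) [NeZero N] (σ : ℂ ≃ₐ[ℚ] ℂ) (Q1 : Place ℂ ↥(K.FC N))
    (h : TaylorMer.jF N ∈ Q1.toValuationSubring) :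
    TaylorMer.jF N
      ∈ ((arithmeticGalois (modularFunctionFieldFull N) σ)⁻¹ • Q1).toValuationSubring := by
  rw [mem_inv_smul_iff, smul_jF]
  exact h

/-- A nonzero element is a nonunit of a valuation subring iff its inverse is not in it. -/
theorem mem_nonunits_iff_inv_notMem {F : Type*} [Field F] (V : ValuationSubring F) {x : F}
    (hx : x ≠ 0) : x ∈ V.nonunits ↔ x⁻¹ ∉ V := by
  rw [ValuationSubring.mem_nonunits_iff, ← ValuationSubring.valuation_le_one_iff, map_inv₀,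
    not_le]
  have h0 : V.valuation x ≠ 0 := (map_ne_zero _).mpr hx
  rw [one_lt_inv₀ (zero_lt_iff.mpr h0)]

/-- Generic form: nonunits at the transported place `g⁻¹ • Q`. -/
theorem mem_nonunits_inv_smul_iff_gen {k F : Type*} [Field k] [Field F] [Algebra k F]
    (g : SemilinearAut k F) (Q : Place k F) (y : F) :
    y ∈ (g⁻¹ • Q).toValuationSubring.nonunits ↔ g • y ∈ Q.toValuationSubring.nonunits := by
  by_cases hy : y = 0
  · subst hy
    rw [smul_zero]
    simp only [ValuationSubring.mem_nonunits_iff, map_zero]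
    exact ⟨fun _ => zero_lt_one, fun _ => zero_lt_one⟩
  · have hgy : g • y ≠ 0 := by
      intro h0
      apply hy
      have h1 := congrArg (fun x => g⁻¹ • x) h0
      simpa using h1
    rw [mem_nonunits_iff_inv_notMem _ hy, mem_nonunits_iff_inv_notMem _ hgy,
      SemilinearAut.smul_toValuationSubring,
      ValuationSubring.mem_pointwise_smul_iff_inv_smul_mem, inv_inv, smul_inv'']

/-- Nonunits at the transported place. -/
theorem mem_nonunits_inv_smul_iff (N : ℕ) [NeZero N] (σ : ℂ ≃ₐ[ℚ] ℂ)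
    (Q1 : Place ℂ ↥(K.FC N)) (y : ↥(K.FC N)) :
    y ∈ ((arithmeticGalois (modularFunctionFieldFull N) σ)⁻¹ • Q1).toValuationSubring.nonunits
      ↔ arithmeticGalois (modularFunctionFieldFull N) σ • y
          ∈ Q1.toValuationSubring.nonunits :=
  mem_nonunits_inv_smul_iff_gen _ Q1 y

/-- `j - c` is a nonunit at `σ⁻¹ • Q₁` iff `j - σ c` is a nonunit at `Q₁`. -/
theorem jF_sub_mem_nonunits_inv_smul_iff (N : ℕ) [NeZero N] (σ : ℂ ≃ₐ[ℚ] ℂ)
    (Q1 : Place ℂ ↥(K.FC N)) (c : ℂ) :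
    TaylorMer.jF N - algebraMap ℂ ↥(K.FC N) c
        ∈ ((arithmeticGalois (modularFunctionFieldFull N) σ)⁻¹ • Q1).toValuationSubring.nonunits
      ↔ TaylorMer.jF N - algebraMap ℂ ↥(K.FC N) (σ c) ∈ Q1.toValuationSubring.nonunits := by
  rw [mem_nonunits_inv_smul_iff, smul_sub_algebraMap]

/-- Orders of `j - c` at the transported place. -/
theorem ord_inv_smul_jF_sub (N : ℕ) [NeZero N] (σ : ℂ ≃ₐ[ℚ] ℂ) (Q1 : Place ℂ ↥(K.FC N))
    (c : ℂ) :
    ((arithmeticGalois (modularFunctionFieldFull N) σ)⁻¹ • Q1).ord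
        (TaylorMer.jF N - algebraMap ℂ ↥(K.FC N) c)
      = Q1.ord (TaylorMer.jF N - algebraMap ℂ ↥(K.FC N) (σ c)) := by
  rw [ord_inv_smul, smul_sub_algebraMap]

end Fermat.Agent.S29.R2Sigma
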