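/-
S29 block [K], (WE) chain, row [R2b-inst] (B copy; helper2) — R2bFun.lean.

MODEL-AGNOSTIC form of "every maximal ideal of `O_N` is the kernel of a point evaluation":
`O` is ANY `ℂ`-algebra with a family of `ℂ`-points `ev z : O →ₐ[ℂ] ℂ` (`z : ℍ`) such that
the functions `z ↦ ev z x` are holomorphic, `Γ₀(N)`-invariant, of moderate growth at all cusps,
separate the elements of `O`, and `ev z J = jFun z` for some `J : O`.

* `exists_normPoly`  : the coset norm polynomial `∏_q (X - H ∘ g_q⁻¹) ∈ ℂ[j][X]`;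
* `isIntegral_of_ev` : `O` is integral over `ℂ[J]`;
* `exists_eq_ker_of_sub_mem`, `exists_eq_ker`, `exists_ker_eq_asIdeal` : every maximal ideal of
  `O` is `ker (ev z)` (free base point form / plain form / `hsurj` form for height one primes).
-/
import Mathlib
import Fermat.Agent.LevelOne.PolyInJ
import Fermat.Agent.LevelOne.JSurj
import Fermat.Agent.S20.Sym
import Fermat.Agent.S29.MaxEval

set_option autoImplicit false

namespace Fermat.Agent.S29.R2bFun

open UpperHalfPlane ModularForm CongruenceSubgroup Polynomial Fermat.Agent.LevelOne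
open scoped MatrixGroups ModularForm Manifold

/-- `H` is holomorphic on `ℍ`, `Γ₀(N)`-invariant, and has at most a pole of some order `m`
(in `q`) at every cusp: `Δ ^ m * (H ∘ g)` is bounded at `i∞` for every `g ∈ SL(2, ℤ)`. -/
def IsMod (N : ℕ) (H : ℍ → ℂ) : Prop :=
  MDiff H ∧ (∀ γ ∈ Gamma0 N, ∀ z : ℍ, H (γ • z) = H z) ∧
    ∃ m : ℕ, ∀ g : SL(2, ℤ),
      IsBoundedAtImInfty (fun z : ℍ => ModularForm.discriminant z ^ m * H (g • z))

variable {N : ℕ}

theorem isInv_zero {H : ℍ → ℂ} (hinv : ∀ γ ∈ Gamma0 N, ∀ z : ℍ, H (γ • z) = H z) :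
    S20.IsInv N 0 H := by
  intro γ hγ
  funext z
  rw [SL_slash_apply, hinv γ hγ]
  simp

theorem cj_zero_apply (H : ℍ → ℂ) (q : S20.Q N) (z : ℍ) :
    S20.cj N 0 H q z = H ((Quotient.out q)⁻¹ • z) := by
  unfold S20.cj
  rw [SL_slash_apply]
  simp

/-- The elementary symmetric functions of the conjugates of a function of moderate growth are
polynomials in `j`. -/
theorem exists_poly_esymQ [NeZero N] {H : ℍ → ℂ} (hH : IsMod N H) (k : ℕ) :
    ∃ p : Polynomial ℂ, ∀ z : ℍ, S20.esymQ N 0 H k z = p.eval (jFun z) := by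
  obtain ⟨hd, hinv, m, hb⟩ := hH
  have hi : S20.IsInv N 0 H := isInv_zero hinv
  have h1 : MDiff (S20.esymQ N 0 H k) := by
    rw [S20.Sym.esymQ_eq_sum]
    exact MDifferentiable.sum fun s _ => MDifferentiable.prod fun q _ => S20.mdiff_cj hd q
  have h2 : ∀ (γ : SL(2, ℤ)) (z : ℍ), S20.esymQ N 0 H k (γ • z) = S20.esymQ N 0 H k z := by
    intro γ z
    rw [S20.Sym.esymQ_smul_apply hi]
    simp
  have h3 : IsBoundedAtImInfty
      (fun z : ℍ => ModularForm.discriminant z ^ (m * k) * S20.esymQ N 0 H k z) := by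
    have e : (fun z : ℍ => ModularForm.discriminant z ^ (m * k) * S20.esymQ N 0 H k z) =
        ∑ s ∈ Finset.powersetCard k (Finset.univ : Finset (S20.Q N)),
          ∏ q ∈ s, fun z : ℍ => ModularForm.discriminant z ^ m * H ((Quotient.out q)⁻¹ • z) := by
      funext z
      rw [S20.Sym.esymQ_eq_sum]
      simp only [Finset.sum_apply, Finset.prod_apply, Finset.mul_sum]
      refine Finset.sum_congr rfl fun s hs => ?_
      rw [Finset.prod_mul_distrib, Finset.prod_const, (Finset.mem_powersetCard.mp hs).2,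
        ← pow_mul]
      congr 1
      exact Finset.prod_congr rfl fun q _ => cj_zero_apply H q z
    rw [e]
    refine (Filter.boundedFilterSubalgebra ℂ atImInfty).sum_mem fun s _ => ?_
    exact prod_mem (S := Filter.boundedFilterSubalgebra ℂ atImInfty) fun q _ => hb _
  obtain ⟨p, -, hp⟩ := exists_polynomial_of_invariant h1 h2 (m * k) h3
  exact ⟨p, hp⟩

/-- The coset norm polynomial of a function of moderate growth: a monic polynomial of degree
`μ = [SL(2, ℤ) : Γ₀(N)]` with coefficients in `ℂ[j]` whose specialisation at `j = jFun z` is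
`∏_q (X - H (g_q⁻¹ • z))`. -/
theorem exists_normPoly [NeZero N] {H : ℍ → ℂ} (hH : IsMod N H) :
    ∃ P : Polynomial (Polynomial ℂ), P.Monic ∧ P.natDegree = Nat.card (S20.Q N) ∧
      ∀ z : ℍ, P.map (Polynomial.evalRingHom (jFun z)) =
        ∏ q : S20.Q N, (X - C (H ((Quotient.out q)⁻¹ • z))) := by
  classical
  choose p hp using fun k => exists_poly_esymQ hH k
  set μ : ℕ := Fintype.card (S20.Q N) with hμ
  set R : Polynomial (Polynomial ℂ) :=
    ∑ k ∈ Finset.range μ, (-1) ^ (k + 1) * (C (p (k + 1)) * X ^ (μ - (k + 1))) with hR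
  have hdeg : R.degree < (μ : WithBot ℕ) := by
    refine lt_of_le_of_lt (Polynomial.degree_sum_le _ _)
      ((Finset.sup_lt_iff (WithBot.bot_lt_coe μ)).mpr ?_)
    intro k hk
    have hk' : k < μ := Finset.mem_range.mp hk
    have h1 : ((-1 : Polynomial (Polynomial ℂ)) ^ (k + 1) *
        (C (p (k + 1)) * X ^ (μ - (k + 1)))).degree ≤ ((μ - (k + 1) : ℕ) : WithBot ℕ) := by
      have h2 : (-1 : Polynomial (Polynomial ℂ)) ^ (k + 1) * (C (p (k + 1)) * X ^ (μ - (k + 1)))
          = C ((-1) ^ (k + 1) * p (k + 1)) * X ^ (μ - (k + 1)) := by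
        rw [C_mul, C_pow, C_neg, C_1, mul_assoc]
      rw [h2]
      exact Polynomial.degree_C_mul_X_pow_le _ _
    refine lt_of_le_of_lt h1 ?_
    have h4 : μ - (k + 1) < μ := by omega
    exact WithBot.coe_lt_coe.mpr h4
  refine ⟨X ^ μ + R, Polynomial.monic_X_pow_add hdeg, ?_, fun z => ?_⟩
  · rw [Polynomial.natDegree_add_eq_left_of_degree_lt (by rwa [Polynomial.degree_X_pow]),
      Polynomial.natDegree_X_pow, hμ, Nat.card_eq_fintype_card]
  · set s : Multiset ℂ := Finset.univ.val.map fun q : S20.Q N => S20.cj N 0 H q z with hs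
    have hcard : Multiset.card s = μ := by
      rw [hs, Multiset.card_map]
      rfl
    have h1 : (s.map fun t => X - C t).prod =
        ∏ q : S20.Q N, (X - C (H ((Quotient.out q)⁻¹ • z))) := by
      rw [hs, Multiset.map_map, Finset.prod_eq_multiset_prod]
      congr 1
      refine Multiset.map_congr rfl fun q _ => ?_
      simp only [Function.comp_apply]
      rw [cj_zero_apply]
    rw [← h1, Multiset.prod_X_sub_X_eq_sum_esymm, hcard, Finset.sum_range_succ',
      Polynomial.map_add, Polynomial.map_pow, Polynomial.map_X, hR, Polynomial.map_sum]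
    have h0 : s.esymm 0 = 1 := by simp [Multiset.esymm]
    rw [h0]
    simp only [pow_zero, C_1, one_mul, Nat.sub_zero]
    rw [add_comm]
    congr 1
    refine Finset.sum_congr rfl fun k _ => ?_
    rw [Polynomial.map_mul, Polynomial.map_pow, Polynomial.map_neg, Polynomial.map_one,
      Polynomial.map_mul, Polynomial.map_C, Polynomial.map_pow, Polynomial.map_X]
    congr 3
    rw [Polynomial.coe_evalRingHom, ← hp (k + 1) z]
    rfl

variable {O : Type*} [CommRing O] [Algebra ℂ O]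

/-- The norm polynomial of `x : O`, transported to `O`, kills `x`. -/
theorem exists_normPoly_ev [NeZero N] (ev : ℍ → O →ₐ[ℂ] ℂ)
    (hinj : ∀ x : O, (∀ z, ev z x = 0) → x = 0)
    (hmod : ∀ x : O, IsMod N (fun z => ev z x))
    (J : O) (hJ : ∀ z, ev z J = jFun z) (x : O) :
    ∃ P : Polynomial (Polynomial ℂ), P.Monic ∧
      P.eval₂ ((Polynomial.aeval J : Polynomial ℂ →ₐ[ℂ] O) : Polynomial ℂ →+* O) x = 0 ∧
      ∀ z : ℍ, (P.coeff 0).eval (jFun z) =
        ∏ q : S20.Q N, (-(ev ((Quotient.out q)⁻¹ • z) x)) := by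
  classical
  obtain ⟨P, hmonic, -, hP⟩ := exists_normPoly (hmod x)
  have hcomp : ∀ z : ℍ, ((ev z : O →ₐ[ℂ] ℂ) : O →+* ℂ).comp
      ((Polynomial.aeval J : Polynomial ℂ →ₐ[ℂ] O) : Polynomial ℂ →+* O) =
      Polynomial.evalRingHom (jFun z) := by
    intro z
    refine RingHom.ext fun c => ?_
    show ev z (Polynomial.aeval J c) = c.eval (jFun z)
    rw [← Polynomial.aeval_algHom_apply, hJ, Polynomial.coe_aeval_eq_eval]
  refine ⟨P, hmonic, ?_, fun z => ?_⟩
  · apply hinj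
    intro z
    have h1 := Polynomial.hom_eval₂ P
      ((Polynomial.aeval J : Polynomial ℂ →ₐ[ℂ] O) : Polynomial ℂ →+* O)
      ((ev z : O →ₐ[ℂ] ℂ) : O →+* ℂ) x
    rw [hcomp z] at h1
    have h2 : ev z (Polynomial.eval₂
        ((Polynomial.aeval J : Polynomial ℂ →ₐ[ℂ] O) : Polynomial ℂ →+* O) x P) =
        Polynomial.eval (ev z x) (P.map (Polynomial.evalRingHom (jFun z))) := by
      rw [Polynomial.eval_map]
      exact h1
    rw [h2, hP z, Polynomial.eval_prod]
    refine Finset.prod_eq_zero (Finset.mem_univ ((1 : SL(2, ℤ)) : S20.Q N)) ?_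
    have hmem : (Quotient.out ((1 : SL(2, ℤ)) : S20.Q N))⁻¹ ∈ Gamma0 N := by
      obtain ⟨h, hh⟩ := QuotientGroup.mk_out_eq_mul (Gamma0 N) (1 : SL(2, ℤ))
      have h1 : Quotient.out ((1 : SL(2, ℤ)) : S20.Q N) = 1 * h := hh
      rw [h1, one_mul]
      exact inv_mem h.2
    have h3 : ev ((Quotient.out ((1 : SL(2, ℤ)) : S20.Q N))⁻¹ • z) x = ev z x :=
      (hmod x).2.1 _ hmem z
    simp only [Polynomial.eval_sub, Polynomial.eval_X, Polynomial.eval_C]
    rw [h3, sub_self]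
  · have h1 : (P.coeff 0).eval (jFun z) = (P.map (Polynomial.evalRingHom (jFun z))).coeff 0 := by
      rw [Polynomial.coeff_map, Polynomial.coe_evalRingHom]
    rw [h1, hP z, Polynomial.coeff_zero_eq_eval_zero, Polynomial.eval_prod]
    refine Finset.prod_congr rfl fun q _ => ?_
    simp

/-- Integrality over `ℂ[J]`. -/
theorem isIntegral_of_ev [NeZero N] (ev : ℍ → O →ₐ[ℂ] ℂ)
    (hinj : ∀ x : O, (∀ z, ev z x = 0) → x = 0)
    (hmod : ∀ x : O, IsMod N (fun z => ev z x))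
    (J : O) (hJ : ∀ z, ev z J = jFun z) (x : O) :
    IsIntegral (Algebra.adjoin ℂ {J}) x := by
  obtain ⟨P, hmonic, hP, -⟩ := exists_normPoly_ev ev hinj hmod J hJ x
  let Jₐ : Algebra.adjoin ℂ {J} := ⟨J, Algebra.subset_adjoin (Set.mem_singleton J)⟩
  let φ : Polynomial ℂ →+* Algebra.adjoin ℂ {J} :=
    ((Polynomial.aeval Jₐ : Polynomial ℂ →ₐ[ℂ] Algebra.adjoin ℂ {J}) :
      Polynomial ℂ →+* Algebra.adjoin ℂ {J})
  have hφ : (algebraMap (Algebra.adjoin ℂ {J}) O).comp φ =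
      ((Polynomial.aeval J : Polynomial ℂ →ₐ[ℂ] O) : Polynomial ℂ →+* O) := by
    refine RingHom.ext fun c => ?_
    show ((Polynomial.aeval Jₐ c : Algebra.adjoin ℂ {J}) : O) = Polynomial.aeval J c
    exact Polynomial.aeval_subalgebra_coe c _ Jₐ
  refine ⟨P.map φ, hmonic.map φ, ?_⟩
  rw [Polynomial.eval₂_map, hφ]
  exact hP

/-- **[R2b-inst], free base point form.** Every maximal ideal of `O` containing `J - j(z₁)` is
the kernel of the evaluation at a point of the `SL(2, ℤ)`-orbit of `z₁`. -/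
theorem exists_eq_ker_of_sub_mem [NeZero N] (ev : ℍ → O →ₐ[ℂ] ℂ)
    (hinj : ∀ x : O, (∀ z, ev z x = 0) → x = 0)
    (hmod : ∀ x : O, IsMod N (fun z => ev z x))
    (J : O) (hJ : ∀ z, ev z J = jFun z)
    (𝔪 : Ideal O) [𝔪.IsMaximal] (z₁ : ℍ) (hz₁ : J - algebraMap ℂ O (jFun z₁) ∈ 𝔪) :
    ∃ g : SL(2, ℤ), 𝔪 = RingHom.ker (ev (g • z₁) : O →+* ℂ) := by
  obtain ⟨q, hq⟩ := MaxEval.exists_eq_ker_of_sub_mem (ι := S20.Q N) J (jFun z₁)
    (fun q => ev ((Quotient.out q)⁻¹ • z₁)) (fun h hh => by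
      obtain ⟨P, -, hP, hc⟩ := exists_normPoly_ev ev hinj hmod J hJ h
      refine ⟨P.coeff 0, -(P.divX.eval₂
        ((Polynomial.aeval J : Polynomial ℂ →ₐ[ℂ] O) : Polynomial ℂ →+* O) h), ?_, ?_⟩
      · have h1 := congrArg (fun Q : Polynomial (Polynomial ℂ) =>
          Q.eval₂ ((Polynomial.aeval J : Polynomial ℂ →ₐ[ℂ] O) : Polynomial ℂ →+* O) h)
          (Polynomial.divX_mul_X_add P)
        simp only [Polynomial.eval₂_add, Polynomial.eval₂_mul, Polynomial.eval₂_X,
          Polynomial.eval₂_C] at h1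
        rw [hP] at h1
        have h2 : ((Polynomial.aeval J : Polynomial ℂ →ₐ[ℂ] O) : Polynomial ℂ →+* O) (P.coeff 0)
            = Polynomial.aeval J (P.coeff 0) := rfl
        rw [h2] at h1
        linear_combination h1
      · rw [hc z₁]
        exact Finset.prod_ne_zero_iff.mpr fun q _ => neg_ne_zero.mpr (hh q)) 𝔪 hz₁
  exact ⟨(Quotient.out q)⁻¹, hq⟩

/-- **[R2b-inst].** Every maximal ideal of `O` is the kernel of a point evaluation. -/
theorem exists_eq_ker [NeZero N] (ev : ℍ → O →ₐ[ℂ] ℂ)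
    (hinj : ∀ x : O, (∀ z, ev z x = 0) → x = 0)
    (hmod : ∀ x : O, IsMod N (fun z => ev z x))
    (J : O) (hJ : ∀ z, ev z J = jFun z)
    (𝔪 : Ideal O) [𝔪.IsMaximal] :
    ∃ z : ℍ, 𝔪 = RingHom.ker (ev z : O →+* ℂ) := by
  obtain ⟨j₀, hj₀⟩ := MaxEval.exists_sub_mem_of_isMaximal J
    (isIntegral_of_ev ev hinj hmod J hJ) 𝔪
  obtain ⟨z₁, rfl⟩ := jFun_surjective j₀
  obtain ⟨g, hg⟩ := exists_eq_ker_of_sub_mem ev hinj hmod J hJ 𝔪 z₁ hj₀
  exact ⟨g • z₁, hg⟩

/-- **[R2b-inst], `hsurj` shape of `MaxEvalB` / `PStar`.** Every height one prime of `O`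
containing `J - j₀` is the kernel of the evaluation at a point `z` with `j(z) = j₀`. -/
theorem exists_ker_eq_asIdeal [NeZero N] [IsDedekindDomain O] (ev : ℍ → O →ₐ[ℂ] ℂ)
    (hinj : ∀ x : O, (∀ z, ev z x = 0) → x = 0)
    (hmod : ∀ x : O, IsMod N (fun z => ev z x))
    (J : O) (hJ : ∀ z, ev z J = jFun z)
    (w : IsDedekindDomain.HeightOneSpectrum O) (j₀ : ℂ)
    (hj₀ : J - algebraMap ℂ O j₀ ∈ w.asIdeal) :
    ∃ z : ℍ, ev z J = j₀ ∧ RingHom.ker (ev z).toRingHom = w.asIdeal := by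
  have := w.isMaximal
  obtain ⟨z₁, rfl⟩ := jFun_surjective j₀
  obtain ⟨g, hg⟩ := exists_eq_ker_of_sub_mem ev hinj hmod J hJ w.asIdeal z₁ hj₀
  exact ⟨g • z₁, by rw [hJ, jFun_smul], hg.symm⟩

end Fermat.Agent.S29.R2bFun
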