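/-
S29 block [K], row [R2b-inst] (helper76) — R2bInst.lean.

"Every maximal ideal of `𝒪_N` is the kernel of the evaluation at a point of `ℍ`", in the
MODEL-AGNOSTIC form: `O` is any `ℂ`-algebra with a realisation `real : O →ₐ[ℂ] (ℍ → ℂ)` by
functions on the upper half plane which are invariant under a finite-index subgroup `Γ` of
`SL(2, ℤ)`, `J : O` is the element realised by the `j`-function.  The file feeds helper95's
abstract `MaxEval` (M0)/(M1) with the coset family `z ↦ (out q)⁻¹ • z₁`, `q : SL(2, ℤ) ⧸ Γ`.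

* `evAt real z : O →ₐ[ℂ] ℂ`            evaluation of the realisation at `z`;
* `exists_smul_eq_ker`                 FREE BASE POINT form: `𝔪` maximal, `J - j(z₁) ∈ 𝔪`
                                       ⟹ `∃ g : SL(2, ℤ), 𝔪 = ker (evAt real (g • z₁))`;
* `exists_eq_ker`                      `𝔪` maximal ⟹ `∃ z, J - j(z) ∈ 𝔪 ∧ 𝔪 = ker (evAt real z)`;
* `hnorm_of_cosetPoly`                 the norm hypothesis from the coset polynomial
                                       `P(j(z))(X) = ∏_q (X - real h ((out q)⁻¹ • z))`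
                                       (the shape of `CuspBound.exists_monic_of_bounded`);
* `exists_smul_eq_ker_of_cosetPoly`, `exists_eq_ker_of_cosetPoly`   the same with that input.
-/
import Mathlib
import Fermat.Agent.S29.MaxEval
import Fermat.Agent.LevelOne.JDef
import Fermat.Agent.LevelOne.JSurj

set_option autoImplicit false

namespace Fermat.Agent.S29.R2bInst

open UpperHalfPlane Polynomial
open scoped MatrixGroups

variable {O : Type*} [CommRing O] [Algebra ℂ O]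

/-- Evaluation of the realisation at a point of the upper half plane. -/
noncomputable def evAt (real : O →ₐ[ℂ] (ℍ → ℂ)) (z : ℍ) : O →ₐ[ℂ] ℂ :=
  (Pi.evalAlgHom ℂ (fun _ : ℍ => ℂ) z).comp real

@[simp] theorem evAt_apply (real : O →ₐ[ℂ] (ℍ → ℂ)) (z : ℍ) (h : O) :
    evAt real z h = real h z := rfl

theorem mem_ker_evAt (real : O →ₐ[ℂ] (ℍ → ℂ)) (z : ℍ) (h : O) :
    h ∈ RingHom.ker (evAt real z : O →+* ℂ) ↔ real h z = 0 := by
  rw [RingHom.mem_ker]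
  rfl

/-- The kernel of an evaluation is a maximal ideal. -/
theorem ker_evAt_isMaximal (real : O →ₐ[ℂ] (ℍ → ℂ)) (z : ℍ) :
    (RingHom.ker (evAt real z : O →+* ℂ)).IsMaximal :=
  RingHom.ker_isMaximal_of_surjective _ (fun c => ⟨algebraMap ℂ O c, by simp⟩)

/-- Invariance under `Γ` makes the evaluation at `(out q)⁻¹ • z` the evaluation at `g • z` for
every `g` with `g⁻¹ ∈ q`. -/
theorem real_out_inv_smul (Γ : Subgroup SL(2, ℤ)) (real : O →ₐ[ℂ] (ℍ → ℂ))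
    (hinv : ∀ γ ∈ Γ, ∀ (h : O) (z : ℍ), real h (γ • z) = real h z)
    (h : O) (g : SL(2, ℤ)) (z : ℍ) :
    real h ((Quotient.out (QuotientGroup.mk g⁻¹ : SL(2, ℤ) ⧸ Γ))⁻¹ • z) = real h (g • z) := by
  obtain ⟨γ, hγ⟩ := QuotientGroup.mk_out_eq_mul Γ g⁻¹
  rw [hγ, mul_inv_rev, inv_inv, mul_smul]
  exact hinv _ (Γ.inv_mem γ.2) h _

/-- **[R2b-inst], free base point form.**  If `J - j(z₁)` lies in the maximal ideal `𝔪`, then
`𝔪` is the kernel of the evaluation at a point of the `SL(2, ℤ)`-orbit of `z₁`. -/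
theorem exists_smul_eq_ker (Γ : Subgroup SL(2, ℤ)) [Γ.FiniteIndex] (J : O)
    (real : O →ₐ[ℂ] (ℍ → ℂ))
    (hinv : ∀ γ ∈ Γ, ∀ (h : O) (z : ℍ), real h (γ • z) = real h z)
    (z₁ : ℍ)
    (hnorm : ∀ h : O, (∀ g : SL(2, ℤ), real h (g • z₁) ≠ 0) →
      ∃ (P : ℂ[X]) (b : O), aeval J P = h * b ∧ P.eval (LevelOne.jFun z₁) ≠ 0)
    (𝔪 : Ideal O) [𝔪.IsMaximal] (hz₁ : J - algebraMap ℂ O (LevelOne.jFun z₁) ∈ 𝔪) :
    ∃ g : SL(2, ℤ), 𝔪 = RingHom.ker (evAt real (g • z₁) : O →+* ℂ) := by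
  have : Finite (SL(2, ℤ) ⧸ Γ) := Subgroup.finite_quotient_of_finiteIndex
  obtain ⟨q, hq⟩ := MaxEval.exists_eq_ker_of_sub_mem J (LevelOne.jFun z₁)
    (fun q : SL(2, ℤ) ⧸ Γ => evAt real ((Quotient.out q)⁻¹ • z₁))
    (fun h hh => hnorm h fun g => by
      have h1 := hh (QuotientGroup.mk g⁻¹ : SL(2, ℤ) ⧸ Γ)
      rwa [evAt_apply, real_out_inv_smul Γ real hinv h g z₁] at h1) 𝔪 hz₁
  exact ⟨(Quotient.out q)⁻¹, hq⟩

/-- **[R2b-inst].**  Every maximal ideal of `O` is the kernel of the evaluation at some `z : ℍ`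
(and `J - j(z)` lies in it). -/
theorem exists_eq_ker (Γ : Subgroup SL(2, ℤ)) [Γ.FiniteIndex] (J : O)
    (hint : ∀ x : O, IsIntegral (Algebra.adjoin ℂ {J}) x)
    (real : O →ₐ[ℂ] (ℍ → ℂ))
    (hinv : ∀ γ ∈ Γ, ∀ (h : O) (z : ℍ), real h (γ • z) = real h z)
    (hnorm : ∀ (z₁ : ℍ) (h : O), (∀ g : SL(2, ℤ), real h (g • z₁) ≠ 0) →
      ∃ (P : ℂ[X]) (b : O), aeval J P = h * b ∧ P.eval (LevelOne.jFun z₁) ≠ 0)
    (𝔪 : Ideal O) [𝔪.IsMaximal] :
    ∃ z : ℍ, J - algebraMap ℂ O (LevelOne.jFun z) ∈ 𝔪 ∧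
      𝔪 = RingHom.ker (evAt real z : O →+* ℂ) := by
  obtain ⟨j₀, hj₀⟩ := MaxEval.exists_sub_mem_of_isMaximal J hint 𝔪
  obtain ⟨z₁, rfl⟩ := LevelOne.jFun_surjective j₀
  obtain ⟨g, hg⟩ := exists_smul_eq_ker Γ J real hinv z₁ (hnorm z₁) 𝔪 hj₀
  exact ⟨g • z₁, by rwa [LevelOne.jFun_smul], hg⟩

/-! ### The norm hypothesis from the coset polynomial -/

/-- Evaluating `P(J)(h)` through the realisation: the value at `z` is `P(j(z))(real h z)`. -/
theorem real_eval_map (J : O) (real : O →ₐ[ℂ] (ℍ → ℂ))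
    (hJ : ∀ z : ℍ, real J z = LevelOne.jFun z) (P : Polynomial (Polynomial ℂ)) (h : O) (z : ℍ) :
    real ((P.map ((aeval J : ℂ[X] →ₐ[ℂ] O) : ℂ[X] →+* O)).eval h) z =
      (P.map (Polynomial.evalRingHom (LevelOne.jFun z))).eval (real h z) := by
  have hcomp : ((evAt real z : O →ₐ[ℂ] ℂ) : O →+* ℂ).comp
      ((aeval J : ℂ[X] →ₐ[ℂ] O) : ℂ[X] →+* O) = Polynomial.evalRingHom (LevelOne.jFun z) := by
    apply Polynomial.ringHom_ext
    · intro c
      simp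
    · simp [hJ z]
  have h1 : real ((P.map ((aeval J : ℂ[X] →ₐ[ℂ] O) : ℂ[X] →+* O)).eval h) z =
      ((evAt real z : O →ₐ[ℂ] ℂ) : O →+* ℂ)
        ((P.map ((aeval J : ℂ[X] →ₐ[ℂ] O) : ℂ[X] →+* O)).eval h) := rfl
  rw [h1, Polynomial.eval_map, Polynomial.hom_eval₂, hcomp, Polynomial.eval_map]
  rfl

/-- **The norm hypothesis of `MaxEval` (M1) from the coset polynomial.**  If
`P(j(z))(X) = ∏_q (X - real h ((out q)⁻¹ • z))` for all `z` and the realisation of `h` does not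
vanish on the orbit of `z₁`, then `P₀ := P.coeff 0` satisfies `P₀(J) = h * b` with `b ∈ O` and
`P₀(j(z₁)) ≠ 0`. -/
theorem hnorm_of_cosetPoly (Γ : Subgroup SL(2, ℤ)) [Fintype (SL(2, ℤ) ⧸ Γ)] (J : O)
    (real : O →ₐ[ℂ] (ℍ → ℂ))
    (hJ : ∀ z : ℍ, real J z = LevelOne.jFun z) (hinj : Function.Injective real)
    (hinv : ∀ γ ∈ Γ, ∀ (h : O) (z : ℍ), real h (γ • z) = real h z)
    (h : O) (P : Polynomial (Polynomial ℂ))
    (hP : ∀ z : ℍ, P.map (Polynomial.evalRingHom (LevelOne.jFun z)) =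
      ∏ q : SL(2, ℤ) ⧸ Γ, (X - C (real h ((Quotient.out q)⁻¹ • z))))
    (z₁ : ℍ) (hz₁ : ∀ g : SL(2, ℤ), real h (g • z₁) ≠ 0) :
    ∃ (P₀ : ℂ[X]) (b : O), aeval J P₀ = h * b ∧ P₀.eval (LevelOne.jFun z₁) ≠ 0 := by
  classical
  set φ : ℂ[X] →+* O := ((aeval J : ℂ[X] →ₐ[ℂ] O) : ℂ[X] →+* O) with hφ
  -- `P(J)(h) = 0`
  have hroot : (P.map φ).eval h = 0 := by
    apply hinj
    rw [map_zero]
    funext z
    rw [real_eval_map J real hJ P h z, hP z, Polynomial.eval_prod]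
    have h1 : real h ((Quotient.out (QuotientGroup.mk (1 : SL(2, ℤ))⁻¹ : SL(2, ℤ) ⧸ Γ))⁻¹ • z) =
        real h z := by
      rw [real_out_inv_smul Γ real hinv h 1 z, one_smul]
    refine Finset.prod_eq_zero (Finset.mem_univ
      (QuotientGroup.mk (1 : SL(2, ℤ))⁻¹ : SL(2, ℤ) ⧸ Γ)) ?_
    rw [Polynomial.eval_sub, Polynomial.eval_X, Polynomial.eval_C, h1, sub_self]
  -- split off the constant term
  have hsplit : (P.map φ).eval h = ((P.divX).map φ).eval h * h + φ (P.coeff 0) := by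
    conv_lhs => rw [← Polynomial.divX_mul_X_add P]
    simp [Polynomial.eval_add, Polynomial.eval_mul]
  refine ⟨P.coeff 0, -((P.divX).map φ).eval h, ?_, ?_⟩
  · have h2 : φ (P.coeff 0) = -(((P.divX).map φ).eval h * h) := by
      rw [hroot] at hsplit
      exact eq_neg_of_add_eq_zero_right hsplit.symm
    show φ (P.coeff 0) = _
    rw [h2]
    ring
  · have h3 : (P.coeff 0).eval (LevelOne.jFun z₁) =
        (P.map (Polynomial.evalRingHom (LevelOne.jFun z₁))).coeff 0 := by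
      rw [Polynomial.coeff_map]
      rfl
    rw [h3, hP z₁, Polynomial.coeff_zero_eq_eval_zero, Polynomial.eval_prod]
    refine Finset.prod_ne_zero_iff.mpr fun q _ => ?_
    rw [Polynomial.eval_sub, Polynomial.eval_X, Polynomial.eval_C, zero_sub, neg_ne_zero]
    exact hz₁ _

/-- **[R2b-inst], free base point form, from the coset polynomials.** -/
theorem exists_smul_eq_ker_of_cosetPoly (Γ : Subgroup SL(2, ℤ)) [Γ.FiniteIndex]
    [Fintype (SL(2, ℤ) ⧸ Γ)] (J : O)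
    (real : O →ₐ[ℂ] (ℍ → ℂ))
    (hJ : ∀ z : ℍ, real J z = LevelOne.jFun z) (hinj : Function.Injective real)
    (hinv : ∀ γ ∈ Γ, ∀ (h : O) (z : ℍ), real h (γ • z) = real h z)
    (hpoly : ∀ h : O, ∃ P : Polynomial (Polynomial ℂ), ∀ z : ℍ,
      P.map (Polynomial.evalRingHom (LevelOne.jFun z)) =
        ∏ q : SL(2, ℤ) ⧸ Γ, (X - C (real h ((Quotient.out q)⁻¹ • z))))
    (𝔪 : Ideal O) [𝔪.IsMaximal] (z₁ : ℍ)
    (hz₁ : J - algebraMap ℂ O (LevelOne.jFun z₁) ∈ 𝔪) :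
    ∃ g : SL(2, ℤ), 𝔪 = RingHom.ker (evAt real (g • z₁) : O →+* ℂ) :=
  exists_smul_eq_ker Γ J real hinv z₁
    (fun h hh => by
      obtain ⟨P, hP⟩ := hpoly h
      exact hnorm_of_cosetPoly Γ J real hJ hinj hinv h P hP z₁ hh) 𝔪 hz₁

/-- **[R2b-inst] from the coset polynomials.** -/
theorem exists_eq_ker_of_cosetPoly (Γ : Subgroup SL(2, ℤ)) [Γ.FiniteIndex]
    [Fintype (SL(2, ℤ) ⧸ Γ)] (J : O)
    (hint : ∀ x : O, IsIntegral (Algebra.adjoin ℂ {J}) x)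
    (real : O →ₐ[ℂ] (ℍ → ℂ))
    (hJ : ∀ z : ℍ, real J z = LevelOne.jFun z) (hinj : Function.Injective real)
    (hinv : ∀ γ ∈ Γ, ∀ (h : O) (z : ℍ), real h (γ • z) = real h z)
    (hpoly : ∀ h : O, ∃ P : Polynomial (Polynomial ℂ), ∀ z : ℍ,
      P.map (Polynomial.evalRingHom (LevelOne.jFun z)) =
        ∏ q : SL(2, ℤ) ⧸ Γ, (X - C (real h ((Quotient.out q)⁻¹ • z))))
    (𝔪 : Ideal O) [𝔪.IsMaximal] :
    ∃ z : ℍ, J - algebraMap ℂ O (LevelOne.jFun z) ∈ 𝔪 ∧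
      𝔪 = RingHom.ker (evAt real z : O →+* ℂ) :=
  exists_eq_ker Γ J hint real hinv
    (fun z₁ h hh => by
      obtain ⟨P, hP⟩ := hpoly h
      exact hnorm_of_cosetPoly Γ J real hJ hinj hinv h P hP z₁ hh) 𝔪

end Fermat.Agent.S29.R2bInst
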