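/-
S29 block [K], row [R2b-inst] (helper76) — R2bO.lean: the CONCRETE instantiation for helper15's
analytic model `M : R2.Model N` of `O_N = integralClosure ℂ[j] F_ℂ` (`R2Defs.lean`).

Every maximal ideal of `O_N` is the kernel of the evaluation `M.ev z` at a point `z : ℍ`
(free-base-point form, plain form, and the `HeightOneSpectrum` forms `hsurj` consumed by
`PStar` / `MaxEvalB`), together with the side facts `hne`, `hj` of those consumers.
Inputs: `R2bFun` (helper2: the coset norm polynomial, model-agnostic) and `R2Defs`.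
-/
import Mathlib
import Fermat.Agent.S29.R2Defs
import Fermat.Agent.S29.R2bFun

set_option autoImplicit false

namespace Fermat.Agent.S29.R2bO

open UpperHalfPlane Polynomial IsDedekindDomain
open scoped MatrixGroups
open Fermat.Agent.S29 Fermat.Agent.LevelOne

variable {N : ℕ} [NeZero N] (M : R2.Model N)

/-- The realisation of an element of `O_N` is of moderate growth (`R2bFun.IsMod`). -/
theorem isMod (a : ↥(R2.ON N)) : R2bFun.IsMod N (fun z => M.ev z a) :=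
  ⟨M.real_mdiff a, fun γ hγ z => M.real_inv a γ hγ z, M.real_bdd a⟩

/-- An element of `O_N` vanishing at every point is zero. -/
theorem eq_zero_of_ev (a : ↥(R2.ON N)) (h : ∀ z, M.ev z a = 0) : a = 0 :=
  (M.real_eq_zero_iff a).mp (funext h)

include M in
/-- `O_N` is integral over `ℂ[j]` (in the `MaxEval` shape). -/
theorem isIntegral (a : ↥(R2.ON N)) : IsIntegral (Algebra.adjoin ℂ {R2.jO N}) a :=
  R2bFun.isIntegral_of_ev M.ev (eq_zero_of_ev M) (isMod M) (R2.jO N) M.ev_jO a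

/-- **[R2b-inst], free base point form**: a maximal ideal of `O_N` containing `j - j(z₁)` is the
kernel of the evaluation at a point of the `SL(2, ℤ)`-orbit of `z₁`. -/
theorem exists_smul_eq_ker (𝔪 : Ideal ↥(R2.ON N)) [𝔪.IsMaximal] (z₁ : ℍ)
    (hz₁ : R2.jO N - algebraMap ℂ ↥(R2.ON N) (jFun z₁) ∈ 𝔪) :
    ∃ g : SL(2, ℤ), 𝔪 = RingHom.ker (M.ev (g • z₁) : ↥(R2.ON N) →+* ℂ) :=
  R2bFun.exists_eq_ker_of_sub_mem M.ev (eq_zero_of_ev M) (isMod M) (R2.jO N) M.ev_jO 𝔪 z₁ hz₁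

/-- **[R2b-inst]**: every maximal ideal of `O_N` is the kernel of an evaluation. -/
theorem exists_eq_ker (𝔪 : Ideal ↥(R2.ON N)) [𝔪.IsMaximal] :
    ∃ z : ℍ, 𝔪 = RingHom.ker (M.ev z : ↥(R2.ON N) →+* ℂ) :=
  R2bFun.exists_eq_ker M.ev (eq_zero_of_ev M) (isMod M) (R2.jO N) M.ev_jO 𝔪

/-- The value of `j` at a point whose evaluation kernel contains `j - j₀` is `j₀`. -/
theorem jFun_eq_of_sub_mem_ker (z : ℍ) (j₀ : ℂ)
    (h : R2.jO N - algebraMap ℂ ↥(R2.ON N) j₀ ∈ RingHom.ker (M.ev z : ↥(R2.ON N) →+* ℂ)) :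
    jFun z = j₀ := by
  rw [RingHom.mem_ker] at h
  have h1 : M.ev z (R2.jO N - algebraMap ℂ ↥(R2.ON N) j₀) = jFun z - j₀ := by
    rw [map_sub, M.ev_jO, AlgHom.commutes]
    rfl
  have h2 : jFun z - j₀ = 0 := h1 ▸ h
  exact sub_eq_zero.mp h2

/-- **`hsurj` of `PStar`** (`PStar.pStar_of_forall_dvd`, `pStar_iff_forall_dvd`, `forall_dvd_map`),
with the value of `j` at the point. -/
theorem exists_ker_eq_asIdeal [IsDedekindDomain ↥(R2.ON N)]
    (w : HeightOneSpectrum ↥(R2.ON N)) (j₀ : ℂ)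
    (hj₀ : R2.jO N - algebraMap ℂ ↥(R2.ON N) j₀ ∈ w.asIdeal) :
    ∃ z : ℍ, M.ev z (R2.jO N) = j₀ ∧ RingHom.ker (M.ev z).toRingHom = w.asIdeal :=
  R2bFun.exists_ker_eq_asIdeal M.ev (eq_zero_of_ev M) (isMod M) (R2.jO N) M.ev_jO w j₀ hj₀

/-- **`hsurj` of `PStar`, verbatim.** -/
theorem hsurj_pStar [IsDedekindDomain ↥(R2.ON N)] :
    ∀ (w : HeightOneSpectrum ↥(R2.ON N)) (j₀ : ℂ),
      R2.jO N - algebraMap ℂ ↥(R2.ON N) j₀ ∈ w.asIdeal →
      ∃ z, RingHom.ker (M.ev z).toRingHom = w.asIdeal := fun w j₀ hj₀ => by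
  obtain ⟨z, -, hz⟩ := exists_ker_eq_asIdeal M w j₀ hj₀
  exact ⟨z, hz⟩

/-- **`hsurj` of `MaxEvalB`, verbatim**: every height-one prime of `O_N` is an evaluation
kernel. -/
theorem hsurj [IsDedekindDomain ↥(R2.ON N)] :
    ∀ w : HeightOneSpectrum ↥(R2.ON N), ∃ z, RingHom.ker (M.ev z).toRingHom = w.asIdeal :=
  fun w => by
    have := w.isMaximal
    obtain ⟨z, hz⟩ := exists_eq_ker M w.asIdeal
    exact ⟨z, hz.symm⟩

include M in
/-- `j` is not a constant of `O_N` (**`hj` of `PStar`**). -/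
theorem jO_ne_algebraMap (c : ℂ) : R2.jO N ≠ algebraMap ℂ ↥(R2.ON N) c := by
  intro h
  obtain ⟨z, hz⟩ := jFun_surjective (c + 1)
  have h1 : M.ev z (R2.jO N) = c := by
    rw [h, AlgHom.commutes]
    rfl
  rw [M.ev_jO, hz] at h1
  exact one_ne_zero (add_left_cancel (a := c) (by rw [h1, add_zero]))

/-- The evaluation kernels are nonzero (**`hne` of `PStar`**): they contain `j - j(z) ≠ 0`. -/
theorem ker_ev_ne_bot (z : ℍ) : RingHom.ker (M.ev z).toRingHom ≠ ⊥ := by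
  intro h
  have hmem : R2.jO N - algebraMap ℂ ↥(R2.ON N) (jFun z) ∈ RingHom.ker (M.ev z).toRingHom := by
    rw [RingHom.mem_ker]
    show M.ev z (R2.jO N - algebraMap ℂ ↥(R2.ON N) (jFun z)) = 0
    rw [map_sub, M.ev_jO, AlgHom.commutes]
    exact sub_self _
  rw [h, Ideal.mem_bot, sub_eq_zero] at hmem
  exact jO_ne_algebraMap M (jFun z) hmem

end Fermat.Agent.S29.R2bO
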