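/-
S29 / RamRoot (owner helper45): the embedding index is the stabiliser order, and `p`-th roots of
the local expansions force `p ∣ ord_v f`.

Setting = the one of `S24.card_places_eq_card_orbits_of_coeff` (a family of embeddings
`ι x : F →+* C((s))`, `x ∈ X`, `|X| = Σ_{v | t} ord_v t`, on which `g` acts through the rotation
`s ↦ ζ s`, `ζ` a primitive `e₀`-th root of unity, `e₀ = ord_s (ι x t)`).

EXPORTS
* `index_mul_minimalPeriod` : if `ι x` induces the place `v` with index `r`, then
  `r * (minimal period of x under g) = e₀`;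
* `dvd_ord_of_exists_root` : if every `ι x f` has a `p`-th root in `C((s))` which is invariant
  under the rotations `s ↦ ζ^m s` for the `m` with `g ^ m • x = x`, then `p ∣ ord_v f` for every
  place `v` over `t = 0`.
-/
import Mathlib
import Fermat.Agent.S24.EmbDefs
import Fermat.Agent.S24.EmbOrbit
import Fermat.Agent.S24.EmbCore

set_option autoImplicit false

namespace Fermat.Agent.S29.RamRoot

open AlgebraicCurve Fermat.Agent.S24

variable {K F C : Type*} [Field K] [Field F] [Algebra K F] [Field C] [CharZero C]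

/-- The embedding index is the order of the stabiliser: `r * |⟨g⟩ x| = e₀`. -/
theorem index_mul_minimalPeriod
    (hres : ∀ (v : Place K F) (b : F), 0 ≤ v.ord b →
      ∃ a : K, b = algebraMap K F a ∨ 0 < v.ord (b - algebraMap K F a))
    (t : F)
    {X : Type*} [Finite X]
    (ι : X → F →+* LaurentSeries C) (hinj : Function.Injective ι)
    (hK : ∀ (x : X) (a : K), ∃ c : C, ι x (algebraMap K F a) = HahnSeries.C c)
    (hK' : ∀ (x y : X) (a : K), ι x (algebraMap K F a) = ι y (algebraMap K F a))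
    (ht' : ∀ x y : X, ι x t = ι y t)
    (e₀ : ℕ) (he₀ : 0 < e₀) (hord : ∀ x : X, (ι x t).order = e₀)
    {G : Type*} [Group G] [MulAction G X] (g : G) (ζ : C) (hζ : IsPrimitiveRoot ζ e₀)
    (hg : ∀ (x : X) (f : F) (k : ℤ), (ι (g • x) f).coeff k = ζ ^ k * (ι x f).coeff k)
    (x : X) (v : Place K F) (r : ℕ) (h : EmbInduces (ι x) v r) :
    r * Function.minimalPeriod (g • ·) x = e₀ := by
  classical
  cases nonempty_fintype X
  have hζ0 : ζ ≠ 0 := hζ.ne_zero he₀.ne'
  have hord' : ∀ x : X, 0 < (ι x t).order := fun x => by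
    rw [hord x]; exact_mod_cast he₀
  obtain ⟨pl, rr, hpl⟩ := EmbCore.exists_induced (K := K) t ι hK hord'
  have ht0 : ∀ p : {v : Place K F // 0 < v.ord t}, t ≠ 0 := fun p =>
    EmbDefs.ne_zero_of_ord_ne_zero p.1 p.2.ne'
  -- iterate the coefficient relation
  have hiter : ∀ (m : ℕ) (x : X) (f : F) (k : ℤ),
      (ι (g ^ m • x) f).coeff k = ζ ^ ((m : ℤ) * k) * (ι x f).coeff k := by
    intro m
    induction m with
    | zero => intro x f k; simp
    | succ m ih =>
      intro x f k
      rw [pow_succ', mul_smul, hg, ih]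
      rw [← mul_assoc, ← zpow_add₀ hζ0]
      congr 2
      push_cast
      ring
  have hε : ∀ (x : X) (f : F), (ι (g • x) f).order = (ι x f).order := by
    intro x f
    rcases eq_or_ne f 0 with rfl | hf
    · simp
    have h1 : ι x f ≠ 0 := (map_ne_zero (ι x)).mpr hf
    have h2 : ι (g • x) f ≠ 0 := (map_ne_zero (ι (g • x))).mpr hf
    have hsupp : (ι (g • x) f).support = (ι x f).support := by
      ext k
      simp only [HahnSeries.mem_support, hg x f k, ne_eq, mul_eq_zero, zpow_ne_zero k hζ0,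
        false_or]
    rw [HahnSeries.order_of_ne h2, HahnSeries.order_of_ne h1]
    congr 1
  have key := embOrbit_orbit_eq_fiber g pl (fun p => (p.1.ord t).toNat) rr e₀ he₀ ?_ ?_ ?_ ?_ x
  · -- conclude
    have h1 : (pl x).1 = v := (hpl x).place_eq h
    have h2 : rr x = r := by
      have h3 : EmbInduces (ι x) v (rr x) := h1 ▸ hpl x
      exact h3.index_eq h
    have h4 : rr x * ((pl x).1.ord t).toNat = e₀ := by
      have h1' := (hpl x).order_eq (ht0 (pl x))
      rw [hord x] at h1'
      have h2' := (pl x).2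
      have h3 : (((pl x).1.ord t).toNat : ℤ) = (pl x).1.ord t := by omega
      have h5 : ((rr x * ((pl x).1.ord t).toNat : ℕ) : ℤ) = (e₀ : ℤ) := by
        push_cast
        rw [h3, ← h1']
      exact_mod_cast h5
    have h5 : Function.minimalPeriod (g • ·) x
        = Nat.card (MulAction.orbit (Subgroup.zpowers g) x) := by
      rw [MulAction.minimalPeriod_eq_card, Nat.card_eq_fintype_card]
    rw [h5, ← key.2, ← h2]
    exact h4
  · -- hinv
    intro x
    have h1 : EmbInduces (ι (g • x)) (pl x).1 (rr x) :=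
      ⟨(hpl x).pos, fun f hf => by rw [hε x f, (hpl x).order_eq hf]⟩
    exact Subtype.ext ((hpl (g • x)).place_eq h1)
  · -- hfib
    intro p S hS
    have h := card_emb_le p.1 (hres p.1) t p.2 ι hinj hK' ht' S
      (fun x hx => ⟨rr x, by simpa [hS x hx] using hpl x⟩)
    show S.card ≤ (p.1.ord t).toNat
    omega
  · -- hre
    intro x
    have h1 := (hpl x).order_eq (ht0 (pl x))
    rw [hord x] at h1
    have h2 := (pl x).2
    show rr x * ((pl x).1.ord t).toNat = e₀
    have h3 : (((pl x).1.ord t).toNat : ℤ) = (pl x).1.ord t := by omega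
    have h4 : ((rr x * ((pl x).1.ord t).toNat : ℕ) : ℤ) = (e₀ : ℤ) := by
      push_cast
      rw [h3, ← h1]
    exact_mod_cast h4
  · -- hper
    intro x m hm
    obtain ⟨π, hπ⟩ := EmbDefs.exists_ord_eq_one (pl x).1
    have hπ0 : π ≠ 0 := EmbDefs.ne_zero_of_ord_ne_zero _ (by rw [hπ]; exact one_ne_zero)
    have h1 : (e₀ : ℤ) ∣ (m : ℤ) * (ι x π).order := by
      have h1 : ι x π ≠ 0 := (map_ne_zero (ι x)).mpr hπ0
      have h2 : (ι x π).coeff (ι x π).order ≠ 0 := by
        rwa [ne_eq, HahnSeries.coeff_order_eq_zero]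
      have h3 := hiter m x π (ι x π).order
      rw [hm] at h3
      have h4 : ζ ^ ((m : ℤ) * (ι x π).order) = 1 := by
        have h5 : (ζ ^ ((m : ℤ) * (ι x π).order) - 1) * (ι x π).coeff (ι x π).order = 0 := by
          rw [sub_mul, one_mul, ← h3, sub_self]
        rcases mul_eq_zero.mp h5 with h6 | h6
        · exact sub_eq_zero.mp h6
        · exact absurd h6 h2
      exact (hζ.zpow_eq_one_iff_dvd _).mp h4
    rw [(hpl x).order_eq hπ0, hπ, mul_one] at h1
    exact_mod_cast h1

/-- If every local expansion `ι x f` has a `p`-th root `η ∈ C((s))` which is invariant under the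
rotations by the stabiliser of `x`, then `p ∣ ord_v f` at every place `v` over `t = 0`. -/
theorem dvd_ord_of_exists_root
    (hres : ∀ (v : Place K F) (b : F), 0 ≤ v.ord b →
      ∃ a : K, b = algebraMap K F a ∨ 0 < v.ord (b - algebraMap K F a))
    (t : F) (n : ℕ)
    (hfin : {v : Place K F | 0 < v.ord t}.Finite)
    (hsum : ∑ᶠ v ∈ {v : Place K F | 0 < v.ord t}, v.ord t = (n : ℤ))
    {X : Type*} [Finite X] (hX : Nat.card X = n)
    (ι : X → F →+* LaurentSeries C) (hinj : Function.Injective ι)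
    (hK : ∀ (x : X) (a : K), ∃ c : C, ι x (algebraMap K F a) = HahnSeries.C c)
    (hK' : ∀ (x y : X) (a : K), ι x (algebraMap K F a) = ι y (algebraMap K F a))
    (ht' : ∀ x y : X, ι x t = ι y t)
    (e₀ : ℕ) (he₀ : 0 < e₀) (hord : ∀ x : X, (ι x t).order = e₀)
    {G : Type*} [Group G] [MulAction G X] (g : G) (ζ : C) (hζ : IsPrimitiveRoot ζ e₀)
    (hg : ∀ (x : X) (f : F) (k : ℤ), (ι (g • x) f).coeff k = ζ ^ k * (ι x f).coeff k)
    (p : ℕ) (f : F) (hf : f ≠ 0)
    (hroot : ∀ x : X, ∃ η : LaurentSeries C, η ^ p = ι x f ∧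
      ∀ m : ℕ, g ^ m • x = x → ∀ k : ℤ, η.coeff k = (ζ ^ m) ^ k * η.coeff k)
    (v : Place K F) (hv : 0 < v.ord t) :
    (p : ℤ) ∣ v.ord f := by
  have hζ0 : ζ ≠ 0 := hζ.ne_zero he₀.ne'
  obtain ⟨x, r, hxr⟩ := exists_emb_induces hres t n hfin hsum hX ι hinj hK hK' ht'
    (fun x => by rw [hord x]; exact_mod_cast he₀) v hv
  have hrm := index_mul_minimalPeriod hres t ι hinj hK hK' ht' e₀ he₀ hord g ζ hζ hg x v r hxr
  set m := Function.minimalPeriod (g • ·) x with hm
  have hfix : g ^ m • x = x := MulAction.pow_smul_eq_iff_minimalPeriod_dvd.2 dvd_rfl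
  have hmpos : 0 < m := by
    rcases Nat.eq_zero_or_pos m with h0 | h0
    · rw [h0, mul_zero] at hrm; omega
    · exact h0
  have hrpos : 0 < r := hxr.pos
  obtain ⟨η, hη, htw⟩ := hroot x
  have hιf : ι x f ≠ 0 := (map_ne_zero (ι x)).mpr hf
  have h1 : (ι x f).order = (r : ℤ) * v.ord f := hxr.order_eq hf
  rcases Nat.eq_zero_or_pos p with hp0 | hppos
  · -- `p = 0`: then `ι x f = 1`
    subst hp0
    rw [pow_zero] at hη
    rw [← hη, HahnSeries.order_one] at h1
    have h2 : v.ord f = 0 := by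
      have hr' : (r : ℤ) ≠ 0 := by exact_mod_cast hrpos.ne'
      rcases mul_eq_zero.mp h1.symm with h3 | h3
      · exact absurd h3 hr'
      · exact h3
    rw [h2]
    exact dvd_zero _
  have hη0 : η ≠ 0 := by
    rintro rfl
    rw [zero_pow hppos.ne'] at hη
    exact hιf hη.symm
  have h2 : (ι x f).order = (p : ℤ) * η.order := by
    rw [← hη, HahnSeries.order_pow, nsmul_eq_mul]
  -- `r ∣ ord η`
  have h3 : (r : ℤ) ∣ η.order := by
    have hc : η.coeff η.order ≠ 0 := by
      rwa [ne_eq, HahnSeries.coeff_order_eq_zero]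
    have h4 := htw m hfix η.order
    have h5 : (ζ ^ m) ^ η.order = 1 := by
      have h6 : ((ζ ^ m) ^ η.order - 1) * η.coeff η.order = 0 := by
        rw [sub_mul, one_mul, ← h4, sub_self]
      rcases mul_eq_zero.mp h6 with h7 | h7
      · exact sub_eq_zero.mp h7
      · exact absurd h7 hc
    have h6 : ζ ^ ((m : ℤ) * η.order) = 1 := by
      rw [zpow_mul, zpow_natCast]
      exact h5
    have h7 : (e₀ : ℤ) ∣ (m : ℤ) * η.order := (hζ.zpow_eq_one_iff_dvd _).mp h6
    have h8 : ((r * m : ℕ) : ℤ) ∣ (m : ℤ) * η.order := by rw [hrm]; exact h7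
    have h9 : (m : ℤ) * (r : ℤ) ∣ (m : ℤ) * η.order := by
      have : ((r * m : ℕ) : ℤ) = (m : ℤ) * (r : ℤ) := by push_cast; ring
      rw [← this]; exact h8
    exact (mul_dvd_mul_iff_left (by exact_mod_cast hmpos.ne')).mp h9
  obtain ⟨c, hc⟩ := h3
  refine ⟨c, ?_⟩
  have h4 : (r : ℤ) * v.ord f = (r : ℤ) * ((p : ℤ) * c) := by
    rw [← h1, h2, hc]; ring
  exact mul_left_cancel₀ (by exact_mod_cast hrpos.ne') h4

end Fermat.Agent.S29.RamRoot
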