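/-
S29 / RamRootFN (owner helper45): `p ∣ ord_P f` at EVERY place `P` of `F̄_N = modularFunctionFieldBar N`
from `p`-th roots of the local expansions of `f` (Taylor expansions at the points of `ℍ`,
`q_N`-expansions at the cusp) which are invariant under the stabiliser rotations.

The local expansions are the LANDED S24 families
* `iotaT N z₀ q = (S24.taylorInput N z₀).embFam q`  (Taylor expansion at `z₀` of `f ∘ g⁻¹`, `q = g Γ₀(N)`),
* `iotaC N q    = (S24.AnEmbCusp.cuspInput N).embFam q`       (`q_N`-expansion of `f ∘ g⁻¹`).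

EXPORT: `dvd_ord_of_local_roots`.  No hypothesis on `p` (`p = 2, 3`, `p ∣ N` are all covered): the
roots `η` need not lie in the image of the function field, they only have to be invariant under
the rotations attached to the elements of the stabiliser that fix the coset `q`.
-/
import Mathlib
import Fermat.Agent.S18.RamChar0
import Fermat.Agent.S29.RamRoot

set_option autoImplicit false

noncomputable section

namespace Fermat.Agent.S29.RamRootFN

open AlgebraicCurve IntermediateField ModularCurve UpperHalfPlane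
open Fermat.Agent.S24 Fermat.Agent.LevelOne
open scoped MatrixGroups Real

/-- The Taylor-side family of embeddings of S24 (expansion at `z₀`). -/
def iotaT (N : ℕ) [NeZero N] (z₀ : ℍ) (q : QN N) : FN N →+* LaurentSeries ℂ :=
  ((taylorInput N z₀).embFam q : FN N →+* LaurentSeries ℂ)

/-- The cusp-side family of embeddings of S24 (`q_N`-expansion at `∞`). -/
def iotaC (N : ℕ) [NeZero N] (q : QN N) : FN N →+* LaurentSeries ℂ :=
  ((AnEmbCusp.cuspInput N).embFam q : FN N →+* LaurentSeries ℂ)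

theorem iotaT_apply (N : ℕ) [NeZero N] (z₀ : ℍ) (q : QN N) (x : FN N) :
    iotaT N z₀ q x = (taylorInput N z₀).embFam q x := rfl

theorem iotaC_apply (N : ℕ) [NeZero N] (q : QN N) (x : FN N) :
    iotaC N q x = (AnEmbCusp.cuspInput N).embFam q x := rfl

/-! ### the multiplier is a character of the stabiliser -/

theorem fix_eq (ε : SL(2, ℤ)) (z₀ : ℍ) (h : ε • z₀ = z₀) :
    ((ε 0 0 : ℤ) : ℂ) * (z₀ : ℂ) + ((ε 0 1 : ℤ) : ℂ)
      = (z₀ : ℂ) * (((ε 1 0 : ℤ) : ℂ) * (z₀ : ℂ) + ((ε 1 1 : ℤ) : ℂ)) := by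
  have h1 := UpperHalfPlane.coe_specialLinearGroup_apply ε z₀
  rw [h] at h1
  have hden : ((algebraMap ℤ ℝ (ε 1 0) : ℝ) : ℂ) * (z₀ : ℂ) + ((algebraMap ℤ ℝ (ε 1 1) : ℝ) : ℂ) ≠ 0 := by
    intro h0
    rw [h0, div_zero] at h1
    have := z₀.im_pos
    rw [← UpperHalfPlane.coe_im, h1] at this
    simp at this
  rw [eq_div_iff hden] at h1
  simp only [algebraMap_int_eq, Int.coe_castRingHom, Complex.ofReal_intCast] at h1
  rw [← h1]

theorem fixMult_mul (ε₁ ε₂ : SL(2, ℤ)) (z₀ : ℍ) (h₂ : ε₂ • z₀ = z₀) :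
    fixMult (ε₁ * ε₂) z₀ = fixMult ε₁ z₀ * fixMult ε₂ z₀ := by
  have h := fix_eq ε₂ z₀ h₂
  have e10 : ((ε₁ * ε₂) 1 0 : ℤ) = ε₁ 1 0 * ε₂ 0 0 + ε₁ 1 1 * ε₂ 1 0 := by
    rw [Matrix.SpecialLinearGroup.coe_mul, Matrix.mul_apply, Fin.sum_univ_two]
  have e11 : ((ε₁ * ε₂) 1 1 : ℤ) = ε₁ 1 0 * ε₂ 0 1 + ε₁ 1 1 * ε₂ 1 1 := by
    rw [Matrix.SpecialLinearGroup.coe_mul, Matrix.mul_apply, Fin.sum_univ_two]
  rw [fixMult, fixMult, fixMult, e10, e11, ← mul_pow]
  congr 1
  push_cast
  linear_combination ((ε₁ 1 0 : ℤ) : ℂ) * h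

theorem pow_smul_fix (ε : SL(2, ℤ)) (z₀ : ℍ) (h : ε • z₀ = z₀) (m : ℕ) : ε ^ m • z₀ = z₀ := by
  induction m with
  | zero => simp
  | succ m ih => rw [pow_succ, mul_smul, h, ih]

theorem fixMult_pow (ε : SL(2, ℤ)) (z₀ : ℍ) (h : ε • z₀ = z₀) (m : ℕ) :
    fixMult (ε ^ m) z₀ = fixMult ε z₀ ^ m := by
  induction m with
  | zero => simp [fixMult]
  | succ m ih => rw [pow_succ, fixMult_mul _ _ _ h, ih, pow_succ]

/-! ### the Taylor side -/

/-- Taylor side: over `j = a = j(z₀)`, with `e` the vanishing order of `j - j(z₀)` at `z₀` and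
`ε` a generator of the stabiliser with primitive multiplier. -/
theorem dvd_ord_taylor (N : ℕ) [NeZero N] (z₀ : ℍ) (a : Kb) (hz : jFun z₀ = embC a) (e : ℕ)
    (he : 0 < e)
    (hord : (taylorAt z₀ jFun - PowerSeries.C (jFun z₀)).order = e)
    (ε : SL(2, ℤ)) (hε : ε • z₀ = z₀) (hζ : IsPrimitiveRoot (fixMult ε z₀) e)
    (p : ℕ) (f : FN N) (hf : f ≠ 0)
    (hroot : ∀ q : QN N, ∃ η : LaurentSeries ℂ, η ^ p = iotaT N z₀ q f ∧
      ∀ ε' : SL(2, ℤ), ε' • z₀ = z₀ → ε' • q = q →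
        ∀ k : ℤ, η.coeff k = fixMult ε' z₀ ^ k * η.coeff k)
    (v : Place Kb (FN N)) (hv : 0 < v.ord (jF N - algebraMap Kb (FN N) a)) :
    (p : ℤ) ∣ v.ord f := by
  have hF := Fermat.Agent.S18.RamChar0.isFF1 N
  have ht := ModAssemblyGen.transcendental_sub_algebraMap (transcendental_jF N) a
  have hφ : ∀ (q : QN N) (b : Kb),
      iotaT N z₀ q (algebraMap Kb (FN N) b) = HahnSeries.C (embC b) :=
    fun q b => (taylorInput N z₀).embFam_algebraMap q b
  have hj : ∀ q : QN N, iotaT N z₀ q (jF N)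
      = HahnSeries.ofPowerSeries ℤ ℂ (taylorAt z₀ jFun) := by
    intro q
    show (taylorInput N z₀).embFam q (jF N) = _
    rw [(taylorInput N z₀).embFam_jF q (taylorInput N z₀).jFun_mem]
    rfl
  have hT : ∀ q : QN N, iotaT N z₀ q (jF N - algebraMap Kb (FN N) a)
      = HahnSeries.ofPowerSeries ℤ ℂ (taylorAt z₀ jFun - PowerSeries.C (jFun z₀)) := by
    intro q
    rw [map_sub, hj, hφ, map_sub, HahnSeries.ofPowerSeries_C, hz]
  refine RamRoot.dvd_ord_of_exists_root (fun v b hb => exists_residue hF v hb)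
    (jF N - algebraMap Kb (FN N) a) (Module.finrank Kb⟮jF N - algebraMap Kb (FN N) a⟯ (FN N))
    (finite_ord_pos hF ht) (sum_ord_pos hF ht) (Fermat.Agent.S18.RamChar0.card_QN_sub N a)
    (iotaT N z₀) ?_ (fun x b => ⟨embC b, hφ x b⟩) (fun x y b => by rw [hφ x b, hφ y b])
    (fun x y => by rw [hT x, hT y]) e he
    (fun x => by rw [hT x]; exact AnRoots.order_ofPowerSeries_of_order_eq hord)
    ε (fixMult ε z₀) hζ ?_ p f hf ?_ v hv
  · intro q q' h
    apply (taylorInput N z₀).embFam_injective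
    exact AlgHom.coe_ringHom_injective h
  · intro q x n
    exact (taylorInput N z₀).embFam_smul ε (fixMult ε z₀) (fixMult_ne_zero z₀ ε hε)
      (fun f hf hf' n => taylorLaurent_trans_coeff z₀ ε hε f hf hf' n) q x n
  · intro q
    obtain ⟨η, hη, htw⟩ := hroot q
    refine ⟨η, hη, fun m hm k => ?_⟩
    rw [← fixMult_pow ε z₀ hε m]
    exact htw (ε ^ m) (pow_smul_fix ε z₀ hε m) hm k

/-! ### the cusp side -/

theorem dvd_ord_cusp (N : ℕ) [NeZero N] (p : ℕ) (f : FN N) (hf : f ≠ 0)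
    (hroot : ∀ q : QN N, ∃ η : LaurentSeries ℂ, η ^ p = iotaC N q f ∧
      ∀ m : ℕ, ModularGroup.T ^ m • q = q →
        ∀ k : ℤ, η.coeff k = (Complex.exp (-2 * π * Complex.I / N) ^ m) ^ k * η.coeff k)
    (v : Place Kb (FN N)) (hv : 0 < v.ord (jF N)⁻¹) :
    (p : ℤ) ∣ v.ord f := by
  have hF := Fermat.Agent.S18.RamChar0.isFF1 N
  have ht := ModAssemblyGen.transcendental_inv (transcendental_jF N)
  have hφ : ∀ (q : QN N) (b : Kb),
      iotaC N q (algebraMap Kb (FN N) b) = HahnSeries.C (embC b) :=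
    fun q b => (AnEmbCusp.cuspInput N).embFam_algebraMap q b
  have hT : ∀ q : QN N, iotaC N q (jF N)⁻¹ = (cuspHom N ⟨jFun, jFun_mem_merSub N⟩)⁻¹ := by
    intro q
    change (AnEmbCusp.cuspInput N).embFam q (jF N)⁻¹ = _
    rw [map_inv₀, (AnEmbCusp.cuspInput N).embFam_jF q (jFun_mem_merSub N)]
    rfl
  refine RamRoot.dvd_ord_of_exists_root (fun v b hb => exists_residue hF v hb)
    (jF N)⁻¹ (Module.finrank Kb⟮(jF N)⁻¹⟯ (FN N))
    (finite_ord_pos hF ht) (sum_ord_pos hF ht) (Fermat.Agent.S18.RamChar0.card_QN_inv N)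
    (iotaC N) ?_ (fun x b => ⟨embC b, hφ x b⟩) (fun x y b => by rw [hφ x b, hφ y b])
    (fun x y => by rw [hT x, hT y]) N (Nat.pos_of_ne_zero (NeZero.ne N))
    (fun x => by rw [hT x]; exact order_cuspHom_jFun_inv N)
    ModularGroup.T (Complex.exp (-2 * π * Complex.I / N)) (isPrimitiveRoot_exp_neg N) ?_ p f hf
    hroot v hv
  · intro q q' h
    apply (AnEmbCusp.cuspInput N).embFam_injective
    apply AlgHom.coe_ringHom_injective
    exact h
  · intro q x n
    exact (AnEmbCusp.cuspInput N).embFam_smul ModularGroup.T _ (Complex.exp_ne_zero _)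
      (AnEmbCusp.cuspInput_twist N) q x n

/-! ### all places -/

/-- **(R5b)** If all local expansions of `f ∈ F̄_N` have stabiliser-invariant `p`-th roots, then
`p ∣ ord_P f` at every place `P` of `F̄_N`. -/
theorem dvd_ord_of_local_roots (N : ℕ) [NeZero N] (p : ℕ) (f : FN N) (hf : f ≠ 0)
    (hT : ∀ (z₀ : ℍ) (q : QN N), ∃ η : LaurentSeries ℂ, η ^ p = iotaT N z₀ q f ∧
      ∀ ε : SL(2, ℤ), ε • z₀ = z₀ → ε • q = q →
        ∀ k : ℤ, η.coeff k = fixMult ε z₀ ^ k * η.coeff k)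
    (hC : ∀ q : QN N, ∃ η : LaurentSeries ℂ, η ^ p = iotaC N q f ∧
      ∀ m : ℕ, ModularGroup.T ^ m • q = q →
        ∀ k : ℤ, η.coeff k = (Complex.exp (-2 * π * Complex.I / N) ^ m) ^ k * η.coeff k)
    (P : Place Kb (FN N)) : (p : ℤ) ∣ P.ord f := by
  have hF := Fermat.Agent.S18.RamChar0.isFF1 N
  by_cases h : 0 ≤ P.ord (jF N)
  · obtain ⟨a, ha | ha⟩ := exists_residue hF P h
    · exfalso
      apply transcendental_jF N
      rw [ha]
      exact isAlgebraic_algebraMap a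
    · by_cases h0 : a = 0
      · subst h0
        refine dvd_ord_taylor N ellRho 0 ?_ 3 (by norm_num) ?_ _ ST_smul_ellRho
          isPrimitiveRoot_fixMult_ST_ellRho p f hf (hT ellRho) P ha
        · rw [jFun_ellRho, map_zero]
        · rw [jFun_ellRho, map_zero, sub_zero, order_taylorAt jFun_mdifferentiable ellRho,
            analyticOrderAt_jFun_ellRho]
          rfl
      · by_cases h1 : a = 1728
        · subst h1
          refine dvd_ord_taylor N ellI 1728 ?_ 2 (by norm_num) ?_ _ S_smul_ellI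
            isPrimitiveRoot_fixMult_S_ellI p f hf (hT ellI) P ha
          · rw [jFun_ellI, ringHom_eq_1728]
          · rw [order_taylorAt_sub jFun_mdifferentiable ellI, jFun_ellI,
              analyticOrderAt_jFun_ellI]
            rfl
        · obtain ⟨z₀, hz⟩ := jFun_surjective_B (embC a)
          obtain ⟨hne0, hne1⟩ := jFun_generic_of_eq embC h0 h1 hz
          refine dvd_ord_taylor N z₀ a hz 1 one_pos ?_ 1 (one_smul _ _) ?_ p f hf (hT z₀) P ha
          · rw [order_taylorAt_sub jFun_mdifferentiable z₀,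
              analyticOrderAt_jFun_generic z₀ hne0 hne1, Nat.cast_one]
          · rw [AnDatum.fixMult_one]
            exact IsPrimitiveRoot.one
  · refine dvd_ord_cusp N p f hf hC P ?_
    rw [P.ord_inv]
    omega

end Fermat.Agent.S29.RamRootFN
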