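/-
S29 block [K] — RootCharQ.lean (helper57): `q`-expansion form of (C3) of `RootChar.lean`
(requested by helper16, (WE) ruling #1).

* `tendsto_mul_exp_of_order`: a `1`-periodic holomorphic function `G` on `ℍ`, bounded at `i∞`,
  whose `q`-expansion has order `M`, satisfies `G z · q ^ (-M) → c ≠ 0` at `i∞`.
* `periodic_of_pow_mem_niceSub` (C3'): if `F` is holomorphic on `ℍ`, `F ^ p` is `1`-periodic and
  bounded at `i∞` and the order of its `q`-expansion is divisible by `p`, then `F` is
  `1`-periodic.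
-/
import Mathlib
import Fermat.Agent.S23.Basic
import Fermat.Agent.S29.RootChar

set_option autoImplicit false

noncomputable section

namespace Fermat.Agent.S29.RootCharQ

open UpperHalfPlane ModularForm Filter Topology
open scoped MatrixGroups Manifold Real

/-- Elements of `niceSub` are `1`-periodic. -/
theorem vadd_eq_of_mem_niceSub {G : ℍ → ℂ} (hG : G ∈ Fermat.Agent.S23.niceSub) (z : ℍ) :
    G ((1 : ℝ) +ᵥ z) = G z := by
  have h1 := hG.1 (z : ℂ)
  simp only [Function.comp_apply] at h1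
  have h2 : ofComplex ((z : ℂ) + 1) = (1 : ℝ) +ᵥ z := by
    have him : 0 < ((z : ℂ) + 1).im := by
      simpa using z.im_pos
    apply UpperHalfPlane.ext
    rw [ofComplex_apply_of_im_pos him, coe_vadd]
    push_cast
    ring
  rw [h2, ofComplex_apply] at h1
  exact h1

/-- The leading term of the `q`-expansion: if the `q`-expansion of `G ∈ niceSub` has order `M`,
then `G z · e^{-2πiMz}` tends to a nonzero limit at `i∞`. -/
theorem tendsto_mul_exp_of_order {G : ℍ → ℂ} (hG : G ∈ Fermat.Agent.S23.niceSub) {M : ℕ}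
    (hM : (qExpansion 1 G).order = (M : ℕ∞)) :
    ∃ c : ℂ, c ≠ 0 ∧ Tendsto (fun z : ℍ => G z *
      Complex.exp (-(2 * π * Complex.I * (M : ℂ) * z))) atImInfty (𝓝 c) := by
  have han : AnalyticAt ℂ (cuspFunction 1 G) 0 :=
    Fermat.Agent.S23.analyticAt_cuspFunction_of_mem_niceSub hG
  -- the analytic order of the cusp function at `0` is `M`
  have hlow : ∀ i < M, iteratedDeriv i (cuspFunction 1 G) 0 = 0 := by
    intro i hi
    have h1 : (qExpansion 1 G).coeff i = 0 := by
      apply PowerSeries.coeff_of_lt_order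
      rw [hM]
      exact_mod_cast hi
    rw [qExpansion_coeff] at h1
    rcases mul_eq_zero.mp h1 with h2 | h2
    · exact absurd (inv_eq_zero.mp h2) (Nat.cast_ne_zero.mpr (Nat.factorial_ne_zero i))
    · exact h2
  have hM' : iteratedDeriv M (cuspFunction 1 G) 0 ≠ 0 := by
    have h0 : qExpansion 1 G ≠ 0 := by
      intro h
      rw [h, PowerSeries.order_zero] at hM
      exact ENat.top_ne_natCast M hM
    have h1 := PowerSeries.coeff_order h0
    rw [hM, ENat.toNat_natCast, qExpansion_coeff] at h1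
    exact right_ne_zero_of_mul h1
  have hord : analyticOrderAt (cuspFunction 1 G) 0 = (M : ℕ∞) := by
    apply le_antisymm
    · by_contra hcon
      rw [not_le] at hcon
      have h2 : ((M + 1 : ℕ) : ℕ∞) ≤ analyticOrderAt (cuspFunction 1 G) 0 := by
        exact_mod_cast Order.add_one_le_of_lt hcon
      rw [natCast_le_analyticOrderAt_iff_iteratedDeriv_eq_zero han] at h2
      exact hM' (h2 M (Nat.lt_succ_self M))
    · rw [natCast_le_analyticOrderAt_iff_iteratedDeriv_eq_zero han]
      exact hlow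
  obtain ⟨g₁, hg₁an, hg₁0, hg₁⟩ := (han.analyticOrderAt_eq_natCast).mp hord
  refine ⟨g₁ 0, hg₁0, ?_⟩
  have hq : Tendsto (fun z : ℍ => Function.Periodic.qParam 1 z) atImInfty (𝓝 0) :=
    qParam_tendsto_atImInfty one_pos
  have hlim : Tendsto (fun z : ℍ => g₁ (Function.Periodic.qParam 1 z)) atImInfty (𝓝 (g₁ 0)) :=
    hg₁an.continuousAt.tendsto.comp hq
  refine hlim.congr' ?_
  filter_upwards [hq.eventually hg₁] with z hz
  have h1 : G z = cuspFunction 1 G (Function.Periodic.qParam 1 z) :=
    (eq_cuspFunction z one_ne_zero hG.1).symm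
  rw [h1, hz, sub_zero, smul_eq_mul]
  have h2 : Function.Periodic.qParam 1 (z : ℂ) ^ M *
      Complex.exp (-(2 * π * Complex.I * (M : ℂ) * z)) = 1 := by
    rw [Function.Periodic.qParam, ← Complex.exp_nat_mul, ← Complex.exp_add]
    have : (M : ℂ) * (2 * π * Complex.I * (z : ℂ) / (1 : ℝ)) +
        -(2 * π * Complex.I * (M : ℂ) * z) = 0 := by
      push_cast
      ring
    rw [this, Complex.exp_zero]
  rw [mul_right_comm, h2, one_mul]

/-- **(C3')** `q`-expansion form of (C3): if `F` is holomorphic on `ℍ`, `F ^ p` is `1`-periodic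
and bounded at `i∞`, and the order of the `q`-expansion of `F ^ p` is divisible by `p`, then `F`
is `1`-periodic. -/
theorem periodic_of_pow_mem_niceSub {p : ℕ} (hp : p ≠ 0) {F : ℍ → ℂ} (hF : MDiff F)
    (hG : F ^ p ∈ Fermat.Agent.S23.niceSub)
    (hord : ∃ m : ℕ, (qExpansion 1 (F ^ p)).order = ((p * m : ℕ) : ℕ∞)) :
    ∀ z : ℍ, F ((1 : ℝ) +ᵥ z) = F z := by
  obtain ⟨m, hm⟩ := hord
  obtain ⟨c, hc, hlim⟩ := tendsto_mul_exp_of_order hG hm
  refine RootChar.periodic_of_pow_eq hp hF (fun z => ?_) (m : ℤ) hc ?_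
  · have := vadd_eq_of_mem_niceSub hG z
    simpa only [Pi.pow_apply] using this
  · refine hlim.congr (fun z => ?_)
    simp only [Pi.pow_apply]
    push_cast
    rfl

/-- (C3'), with the (redundant) nonvanishing hypothesis, in the shape requested by the (WE)
owner. -/
theorem periodic_of_qExpansion_order {p : ℕ} (hp : p ≠ 0) {F : ℍ → ℂ} (hF : MDiff F)
    (hG : F ^ p ∈ Fermat.Agent.S23.niceSub) (_hG0 : F ^ p ≠ 0)
    (hord : ∃ m : ℕ, (qExpansion 1 (F ^ p)).order = ((p * m : ℕ) : ℕ∞)) :
    ∀ z : ℍ, F ((1 : ℝ) +ᵥ z) = F z :=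
  periodic_of_pow_mem_niceSub hp hF hG hord

end Fermat.Agent.S29.RootCharQ
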