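/-
S29 / S42, block [K], leaf (Θ-abs), part 1 (owner: helper28).

The generic `p`-th-root class ("Kummer class") of a function `f` whose divisor is divisible
by `p`:  `rootClass p f = [(1/p) · div f] ∈ Pic⁰(F)`, for an arbitrary function field `F / K`
in the sense of the prelude (`AlgebraicCurve.Place`, `Divisor`, `Pic0`).

* `PDiv K p f`            — `f ≠ 0` and `p ∣ ord_v f` at every place `v`;
* `rootClass p f`         — the class (a total function; `0` if there is no root divisor);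
* `rootClass_eq_mk`       — `rootClass p f = Pic0.mk D` for ANY `D` of degree `0` with `p·D = div f`;
* `rootClass_mul`, `rootClass_pow_self`, `nsmul_rootClass`, `rootClass_eq_zero_iff`;
* `exists_theta`          — the abstract assembly: a relation `R u f` ("`f` is the `p`-th power of
  a witness of `u`") which is total, multiplicative and unique up to `p`-th powers defines an
  additive map `θ : U →+ Pic0 K F` with `p • θ u = 0`.
-/
import Mathlib
import Fermat.Prelude.Def_AlgebraicCurve_DivisorClassGroup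

set_option autoImplicit false

noncomputable section

namespace Fermat.Agent.S29.RootClass

open AlgebraicCurve

variable {K F : Type*} [Field K] [Field F] [Algebra K F]

/-- `v.ord (f ^ n) = n * v.ord f` for natural exponents. -/
theorem ord_pow (v : Place K F) (f : F) (n : ℕ) : v.ord (f ^ n) = (n : ℤ) * v.ord f := by
  rw [← zpow_natCast, v.ord_zpow]

variable (K) in
/-- `div f ∈ p · Div`: `f ≠ 0` and `p` divides the order of `f` at every place. -/
def PDiv (p : ℕ) (f : F) : Prop := f ≠ 0 ∧ ∀ v : Place K F, (p : ℤ) ∣ v.ord f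

theorem PDiv.ne_zero {p : ℕ} {f : F} (h : PDiv K p f) : f ≠ 0 := h.1

theorem PDiv.mul {p : ℕ} {f g : F} (hf : PDiv K p f) (hg : PDiv K p g) : PDiv K p (f * g) :=
  ⟨mul_ne_zero hf.1 hg.1, fun v => by
    rw [v.ord_mul hf.1 hg.1]
    exact dvd_add (hf.2 v) (hg.2 v)⟩

theorem PDiv.inv {p : ℕ} {f : F} (hf : PDiv K p f) : PDiv K p f⁻¹ :=
  ⟨inv_ne_zero hf.1, fun v => by
    rw [v.ord_inv]
    exact (dvd_neg).mpr (hf.2 v)⟩

theorem PDiv.one (p : ℕ) : PDiv K p (1 : F) :=
  ⟨one_ne_zero, fun v => by simp⟩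

theorem PDiv.pow_self (p : ℕ) {h : F} (hh : h ≠ 0) : PDiv K p (h ^ p) :=
  ⟨pow_ne_zero p hh, fun v => by
    rw [ord_pow]
    exact dvd_mul_right _ _⟩

/-- A divisor of degree `0` with `p · D = div f`. -/
def IsRootDiv (p : ℕ) (f : F) (D : Divisor.degZero (K := K) (F := F)) : Prop :=
  ∀ v : Place K F, (p : ℤ) * (D : Divisor K F) v = v.ord f

theorem IsRootDiv.unique {p : ℕ} (hp : p ≠ 0) {f : F} {D D' : Divisor.degZero (K := K) (F := F)}
    (h : IsRootDiv p f D) (h' : IsRootDiv p f D') : D = D' := by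
  apply Subtype.ext
  apply Finsupp.ext
  intro v
  have hp' : (p : ℤ) ≠ 0 := Int.natCast_ne_zero.mpr hp
  exact mul_left_cancel₀ hp' ((h v).trans (h' v).symm)

theorem IsRootDiv.add {p : ℕ} {f g : F} (hf0 : f ≠ 0) (hg0 : g ≠ 0)
    {D E : Divisor.degZero (K := K) (F := F)}
    (hD : IsRootDiv p f D) (hE : IsRootDiv p g E) : IsRootDiv p (f * g) (D + E) := by
  intro v
  rw [v.ord_mul hf0 hg0, ← hD v, ← hE v, AddSubgroup.coe_add, Finsupp.add_apply, mul_add]

/-- Under `HasPrincipalDivisors`, a function with `PDiv` has a root divisor. -/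
theorem exists_isRootDiv [HasPrincipalDivisors K F] {p : ℕ} (hp : p ≠ 0) {f : F}
    (hf : PDiv K p f) : ∃ D : Divisor.degZero (K := K) (F := F), IsRootDiv p f D := by
  obtain ⟨D, hD, hdeg⟩ := HasPrincipalDivisors.exists_divisor (K := K) f hf.1
  have hp' : (p : ℤ) ≠ 0 := Int.natCast_ne_zero.mpr hp
  set E : Divisor K F := Finsupp.mapRange (fun n : ℤ => n / (p : ℤ)) (by simp) D with hE
  have hEv : ∀ v : Place K F, (p : ℤ) * E v = v.ord f := by
    intro v
    rw [hE, Finsupp.mapRange_apply, hD v]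
    exact Int.mul_ediv_cancel' (hf.2 v)
  have hpE : p • E = D := by
    apply Finsupp.ext
    intro v
    rw [Finsupp.smul_apply, nsmul_eq_mul, hEv v, hD v]
  have hdegE : Divisor.degree E = 0 := by
    have h1 : (p : ℤ) * Divisor.degree E = 0 := by
      rw [← nsmul_eq_mul, ← map_nsmul, hpE, hdeg]
    exact (mul_eq_zero.mp h1).resolve_left hp'
  exact ⟨⟨E, hdegE⟩, hEv⟩

open Classical in
/-- The `p`-th-root class `[(1/p) · div f]` (`0` if `p = 0` or there is no root divisor). -/
def rootClass (p : ℕ) (f : F) : Pic0 K F :=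
  if h : ∃ D : Divisor.degZero (K := K) (F := F), IsRootDiv p f D then Pic0.mk h.choose else 0

/-- **(RC1)** `rootClass p f = [D]` for any `D` of degree zero with `p · D = div f`. -/
theorem rootClass_eq_mk {p : ℕ} (hp : p ≠ 0) {f : F}
    (D : Divisor.degZero (K := K) (F := F))
    (hD : ∀ v : Place K F, (p : ℤ) * (D : Divisor K F) v = v.ord f) :
    rootClass p f = Pic0.mk D := by
  have h : ∃ D : Divisor.degZero (K := K) (F := F), IsRootDiv p f D := ⟨D, hD⟩
  rw [rootClass, dif_pos h]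
  exact congrArg Pic0.mk (IsRootDiv.unique hp h.choose_spec hD)

theorem mk_eq_zero_iff (D : Divisor.degZero (K := K) (F := F)) :
    Pic0.mk D = 0 ↔ ∃ h : F, h ≠ 0 ∧ ∀ v : Place K F, (D : Divisor K F) v = v.ord h := by
  rw [Pic0.mk, QuotientAddGroup.eq_zero_iff, AddSubgroup.mem_addSubgroupOf, Divisor.mem_principal]
  rfl

variable [HasPrincipalDivisors K F]

/-- **(RC2)** multiplicativity. -/
theorem rootClass_mul {p : ℕ} (hp : p ≠ 0) {f g : F} (hf : PDiv K p f) (hg : PDiv K p g) :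
    rootClass (K := K) p (f * g) = rootClass p f + rootClass p g := by
  obtain ⟨D, hD⟩ := exists_isRootDiv hp hf
  obtain ⟨E, hE⟩ := exists_isRootDiv hp hg
  rw [rootClass_eq_mk hp D hD, rootClass_eq_mk hp E hE,
    rootClass_eq_mk hp (D + E) (IsRootDiv.add hf.1 hg.1 hD hE), Pic0.mk_add]

/-- **(RC4)** the class vanishes iff `div f = p · div h` for some `h`. -/
theorem rootClass_eq_zero_iff {p : ℕ} (hp : p ≠ 0) {f : F} (hf : PDiv K p f) :
    rootClass (K := K) p f = 0 ↔
      ∃ h : F, h ≠ 0 ∧ ∀ v : Place K F, v.ord f = (p : ℤ) * v.ord h := by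
  obtain ⟨D, hD⟩ := exists_isRootDiv hp hf
  have hp' : (p : ℤ) ≠ 0 := Int.natCast_ne_zero.mpr hp
  rw [rootClass_eq_mk hp D hD, mk_eq_zero_iff]
  constructor
  · rintro ⟨h, hh, hv⟩
    exact ⟨h, hh, fun v => by rw [← hD v, hv v]⟩
  · rintro ⟨h, hh, hv⟩
    exact ⟨h, hh, fun v => mul_left_cancel₀ hp' ((hD v).trans (hv v))⟩

/-- **(RC3a)** `p`-th powers have trivial class. -/
theorem rootClass_pow_self {p : ℕ} (hp : p ≠ 0) {h : F} (hh : h ≠ 0) :
    rootClass (K := K) p (h ^ p) = 0 :=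
  (rootClass_eq_zero_iff hp (PDiv.pow_self p hh)).mpr ⟨h, hh, fun v => ord_pow v h p⟩

/-- **(RC3b)** the class is `p`-torsion. -/
theorem nsmul_rootClass {p : ℕ} (hp : p ≠ 0) {f : F} (hf : PDiv K p f) :
    p • rootClass (K := K) p f = 0 := by
  obtain ⟨D, hD⟩ := exists_isRootDiv hp hf
  rw [rootClass_eq_mk hp D hD]
  have h1 : p • Pic0.mk D = Pic0.mk (p • D) := rfl
  rw [h1, mk_eq_zero_iff]
  refine ⟨f, hf.1, fun v => ?_⟩
  rw [AddSubgroup.coe_nsmul, Finsupp.smul_apply, nsmul_eq_mul]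
  exact hD v

/-- the class only depends on `f` up to `p`-th powers. -/
theorem rootClass_mul_pow_self {p : ℕ} (hp : p ≠ 0) {f h : F} (hf : PDiv K p f) (hh : h ≠ 0) :
    rootClass (K := K) p (f * h ^ p) = rootClass p f := by
  rw [rootClass_mul hp hf (PDiv.pow_self p hh), rootClass_pow_self hp hh, add_zero]

/-- **(RC5)** the abstract assembly of `θ`. -/
theorem exists_theta {U : Type*} [AddCommGroup U] {p : ℕ} (hp : p ≠ 0) (R : U → F → Prop)
    (hE : ∀ u, ∃ f, R u f) (hP : ∀ u f, R u f → PDiv K p f)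
    (hM : ∀ u u' f f', R u f → R u' f' → R (u + u') (f * f'))
    (hW : ∀ u f f', R u f → R u f' → ∃ h : F, h ≠ 0 ∧ f' = f * h ^ p) :
    ∃ θ : U →+ Pic0 K F, (∀ u f, R u f → θ u = rootClass p f) ∧ ∀ u, p • θ u = 0 := by
  choose w hw using hE
  have key : ∀ u f, R u f → rootClass (K := K) p (w u) = rootClass p f := by
    intro u f hf
    obtain ⟨h, hh, rfl⟩ := hW u (w u) f (hw u) hf
    exact (rootClass_mul_pow_self hp (hP u _ (hw u)) hh).symm
  refine ⟨AddMonoidHom.mk' (fun u => rootClass p (w u)) (fun u u' => ?_), key, fun u => ?_⟩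
  · rw [key (u + u') (w u * w u') (hM u u' _ _ (hw u) (hw u')),
      rootClass_mul hp (hP u _ (hw u)) (hP u' _ (hw u'))]
  · exact nsmul_rootClass hp (hP u _ (hw u))

end Fermat.Agent.S29.RootClass
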