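/-
S29 route, blocks [ES-use] — SpecCore.lean (helper80): the hypothesis-FREE block deliverables

* `inertiaStatement : InertiaStatement N p`
* `esStatement      : ESStatement N p`

from `specCoreStatement` (`S29/SpecCoreS37.lean`: the `hcomm`-free S37 core datum, landed S37
closure) and `ESGH.lean`.  (`ghStatement`, `flStatement` are in `ESGH.lean`.)
-/
import Fermat.Agent.S29.SpecCoreS37
import Fermat.Agent.S29.ESGH

set_option autoImplicit false

open ModularCurve AlgebraicCurve

namespace Fermat.Agent.S29

variable (N p : ℕ) [NeZero N]

/-- **[ES-use] (I)**, unconditionally. -/
theorem inertiaStatement : InertiaStatement N p :=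
  inertiaStatement_of_specCore N p (specCoreStatement N p)

/-- **[ES-use] (II)**, unconditionally. -/
theorem esStatement : ESStatement N p :=
  esStatement_of_specCore N p (specCoreStatement N p)

end Fermat.Agent.S29
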