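import Fermat.Agent.S29.SplitAlg
import Fermat.Agent.S29.UnifTaylor

/-!
# S29 block [K], route [KSplit] (helper4): the backward half of `SplitNorm` (helper114)

If `F ∈ ℂ[j][Y]` is monic and satisfies the splitting condition `SplitAlg.SplitP p F`, then every
holomorphic function `Y` on the upper half plane with `F(j, Y) = 0` pointwise has, at every point
`z₀`, an analytic order divisible by `p`.

Proof: the uniformised Taylor homomorphism `τ` at `z₀` (`UnifTaylor.exists_unifTaylor`) restricts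
on `ℂ[j]` to `SplitAlg.iota (j z₀)`, so `τ Y` is a root of `F^{iota (j z₀)}` in `ℂ⟦s⟧`; by
`SplitAlg.dvd_order_of_root` its order is a multiple of `p`, and `τ` computes analytic orders.
-/

set_option autoImplicit false

namespace Fermat.Agent.S29.SplitBwd

open Polynomial UpperHalfPlane
open scoped Manifold
open Fermat.Agent.LevelOne Fermat.Agent.S24

noncomputable section

/-- `j` as an element of `holSub`. -/
def jH : holSub := ⟨jFun, jFun_mdifferentiable⟩

/-- `ℂ[j] → holSub`, `j ↦ jFun`. -/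
def aevalJ : ℂ[X] →+* holSub := (Polynomial.aeval jH : ℂ[X] →ₐ[ℂ] holSub).toRingHom

/-- Evaluation at a point as a ring hom on `holSub`. -/
def evalAt (z : ℍ) : holSub →+* ℂ :=
  (Pi.evalRingHom (fun _ : ℍ => ℂ) z).comp ((holSub.val : holSub →ₐ[ℂ] ℍ → ℂ) : holSub →+* ℍ → ℂ)

@[simp] theorem evalAt_apply (z : ℍ) (f : holSub) : evalAt z f = (f : ℍ → ℂ) z := rfl

theorem evalAt_comp_aevalJ (z : ℍ) : (evalAt z).comp aevalJ = Polynomial.evalRingHom (jFun z) := by
  apply Polynomial.ringHom_ext
  · intro a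
    simp only [RingHom.comp_apply, aevalJ, AlgHom.toRingHom_eq_coe, RingHom.coe_coe, aeval_C,
      evalAt_apply, coe_evalRingHom, eval_C]
    rfl
  · simp only [RingHom.comp_apply, aevalJ, AlgHom.toRingHom_eq_coe, RingHom.coe_coe, aeval_X,
      evalAt_apply, coe_evalRingHom, eval_X]
    rfl

/-- Transport of an evaluation along a ring hom out of `holSub`. -/
theorem map_eval_map_aevalJ {T : Type*} [CommRing T] (g : holSub →+* T) (F : ℂ[X][X])
    (y : holSub) : g ((F.map aevalJ).eval y) = (F.map (g.comp aevalJ)).eval (g y) := by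
  rw [Polynomial.eval_map, Polynomial.hom_eval₂, Polynomial.eval_map]

/-- A pointwise root is a root in `holSub`. -/
theorem eval_map_aevalJ_eq_zero {F : ℂ[X][X]} {Y : ℍ → ℂ} (hY : Y ∈ holSub)
    (hroot : ∀ z : ℍ, (F.map (Polynomial.evalRingHom (jFun z))).eval (Y z) = 0) :
    (F.map aevalJ).eval (⟨Y, hY⟩ : holSub) = 0 := by
  apply Subtype.ext
  funext z
  have h1 := map_eval_map_aevalJ (evalAt z) F (⟨Y, hY⟩ : holSub)
  rw [evalAt_comp_aevalJ] at h1
  exact h1.trans (hroot z)

/-- **Backward direction of `Split_p`, function level.**  If `F ∈ ℂ[j][Y]` is monic with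
`SplitP p F` and the holomorphic function `Y` is a pointwise root of `F(j, ·)`, then the analytic
order of `Y` at every point of the upper half plane is a multiple of `p`. -/
theorem exists_order_eq_of_root (p : ℕ) (hp : 0 < p) {F : ℂ[X][X]} (hF : F.Monic)
    (hS : SplitAlg.SplitP p F) {Y : ℍ → ℂ} (hY : MDiff Y)
    (hroot : ∀ z : ℍ, (F.map (Polynomial.evalRingHom (jFun z))).eval (Y z) = 0) (z₀ : ℍ) :
    ∃ k : ℕ∞, analyticOrderAt (fun w : ℂ => Y (ofComplex w)) (z₀ : ℂ) = p * k := by
  have hY' : Y ∈ holSub := hY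
  obtain ⟨τ, hτj, hτord⟩ := UnifTaylor.exists_unifTaylor z₀
  have hφ : (τ : holSub →+* PowerSeries ℂ).comp aevalJ = SplitAlg.iota (jFun z₀) := by
    apply SplitAlg.eq_iota
    · intro a
      simp only [RingHom.comp_apply, aevalJ, AlgHom.toRingHom_eq_coe, RingHom.coe_coe, aeval_C,
        AlgHom.commutes]
      rfl
    · simp only [RingHom.comp_apply, aevalJ, AlgHom.toRingHom_eq_coe, RingHom.coe_coe, aeval_X]
      exact hτj
  have h0 := eval_map_aevalJ_eq_zero hY' hroot
  have h1 : (F.map (SplitAlg.iota (jFun z₀))).eval (τ (⟨Y, hY'⟩ : holSub)) = 0 := by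
    have h2 := map_eval_map_aevalJ (τ : holSub →+* PowerSeries ℂ) F (⟨Y, hY'⟩ : holSub)
    rw [hφ, h0, map_zero] at h2
    exact h2.symm
  obtain ⟨k, hk⟩ := SplitAlg.dvd_order_of_root p hp hF hS (jFun z₀) _ h1
  refine ⟨k, ?_⟩
  rw [← hk, hτord]

end

end Fermat.Agent.S29.SplitBwd
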