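/-
S29 route (helper74 #1728/#1729; lead #1814 (R4)), block (K5) — StabFin.lean (helper50).
Mathlib-only (+ the landed `S29/EchelonLaurent` for the Laurent-series corollaries).

**Stabilisers have finite index.**  A group `G` acts on a vector space `M` over an infinite
field `K` by additive, "semilinear" maps `φ σ` (`φ σ (c • m) = s σ c • φ σ m`).  Let
`V : ι → Submodule K M` be a finite family of subspaces meeting pairwise in `0` such that every
`φ σ` maps every vector of every `V i` into some `V j`.  Then (a vector space over an infinite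
field is not a finite union of proper subspaces) every `φ σ` maps each `V i` into a single
`V j`, `G` permutes the nonzero `V i`, and a finite-index (normal) subgroup of `G` stabilises
every `V i`.

Corollaries for `M = K((q))`, `G = Aut (K / k)` acting coefficientwise
(`ModularCurve.coeffMap`): combined with the echelon descent, every finite-dimensional member
of the family is spanned by series with coefficients in `k`.
-/
import Mathlib
import Fermat.Prelude.Def_ModularCurve_LaurentCoeff
import Fermat.Agent.S29.EchelonLaurent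

set_option autoImplicit false

noncomputable section

namespace Fermat.Agent.S29.StabFin

section Abstract

variable {G K M ι : Type*} [Group G] [DivisionRing K] [Infinite K] [AddCommGroup M] [Module K M]
  [Finite ι]

/-- The preimage of a subspace under an additive semilinear map, as a subspace. -/
def pre (f : M → M) (t : K → K) (hadd : ∀ m m', f (m + m') = f m + f m')
    (hsmul : ∀ (c : K) m, f (c • m) = t c • f m) (U : Submodule K M) : Submodule K M where
  carrier := {m | f m ∈ U}
  add_mem' := by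
    intro a b ha hb
    show f (a + b) ∈ U
    rw [hadd]
    exact U.add_mem ha hb
  zero_mem' := by
    show f 0 ∈ U
    have h : f 0 = 0 := by
      have h1 := hadd 0 0
      rw [add_zero] at h1
      exact left_eq_add.mp h1
    rw [h]
    exact U.zero_mem
  smul_mem' := by
    intro c a ha
    show f (c • a) ∈ U
    rw [hsmul]
    exact U.smul_mem _ ha

/-- **One target.**  If an additive semilinear map sends every vector of a subspace `W` into
the union of finitely many subspaces `V j`, it sends `W` into one of them. -/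
theorem exists_forall_mem_of_forall_exists_mem [Nonempty ι] (f : M → M) (t : K → K)
    (hadd : ∀ m m', f (m + m') = f m + f m') (hsmul : ∀ (c : K) m, f (c • m) = t c • f m)
    (V : ι → Submodule K M) (W : Submodule K M) (h : ∀ w ∈ W, ∃ j, f w ∈ V j) :
    ∃ j, ∀ w ∈ W, f w ∈ V j := by
  let p : ι → Subspace K W := fun j => (pre f t hadd hsmul (V j)).comap W.subtype
  have hcov : ⋃ j, (p j : Set W) = Set.univ := by
    rw [Set.eq_univ_iff_forall]
    intro w
    obtain ⟨j, hj⟩ := h w w.2
    exact Set.mem_iUnion.2 ⟨j, hj⟩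
  obtain ⟨j, hj⟩ := Subspace.exists_eq_top_of_iUnion_eq_univ hcov
  refine ⟨j, fun w hw => ?_⟩
  have : (⟨w, hw⟩ : W) ∈ p j := by
    rw [hj]
    exact Submodule.mem_top
  exact this

/-- **Stabilisers have finite index.** -/
theorem exists_finiteIndex_forall_mem (φ : G → M → M) (s : G → K → K)
    (hone : ∀ m, φ 1 m = m) (hmul : ∀ σ τ m, φ (σ * τ) m = φ σ (φ τ m))
    (hadd : ∀ σ m m', φ σ (m + m') = φ σ m + φ σ m')
    (hsmul : ∀ σ (c : K) m, φ σ (c • m) = s σ c • φ σ m)
    (V : ι → Submodule K M) (hV : ∀ i j, i ≠ j → V i ⊓ V j = ⊥)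
    (hmap : ∀ σ i, ∀ w ∈ V i, ∃ j, φ σ w ∈ V j) :
    ∃ 𝒜 : Subgroup G, 𝒜.Normal ∧ 𝒜.FiniteIndex ∧ ∀ σ ∈ 𝒜, ∀ i, ∀ w ∈ V i, φ σ w ∈ V i := by
  classical
  have hzero : ∀ σ, φ σ 0 = 0 := by
    intro σ
    have h1 := hadd σ 0 0
    rw [add_zero] at h1
    exact left_eq_add.mp h1
  have hinj : ∀ σ m, φ σ m = 0 → m = 0 := by
    intro σ m hm
    have h1 := hmul σ⁻¹ σ m
    rw [inv_mul_cancel, hone, hm, hzero] at h1
    exact h1
  -- the nonzero members of the family
  let I' := {i : ι // V i ≠ ⊥}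
  have key : ∀ (σ : G) (i : I'), ∃! j : I', ∀ w ∈ V i.1, φ σ w ∈ V j.1 := by
    intro σ i
    have : Nonempty ι := ⟨i.1⟩
    obtain ⟨j, hj⟩ := exists_forall_mem_of_forall_exists_mem (φ σ) (s σ) (hadd σ) (hsmul σ) V
      (V i.1) (hmap σ i.1)
    obtain ⟨w, hwV, hw0⟩ := (Submodule.ne_bot_iff _).1 i.2
    have hj0 : V j ≠ ⊥ := by
      intro h0
      have h1 := hj w hwV
      rw [h0, Submodule.mem_bot] at h1
      exact hw0 (hinj σ w h1)
    refine ⟨⟨j, hj0⟩, hj, ?_⟩
    intro j' hj'
    by_contra hne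
    have hne' : j'.1 ≠ j := fun h => hne (Subtype.ext h)
    have h1 : φ σ w ∈ V j'.1 ⊓ V j := ⟨hj' w hwV, hj w hwV⟩
    rw [hV _ _ hne', Submodule.mem_bot] at h1
    exact hw0 (hinj σ w h1)
  choose π hπ hπu using key
  have hπ1 : ∀ i, π 1 i = i := fun i =>
    ((hπu 1 i) i (fun w hw => by rw [hone]; exact hw)).symm
  have hπmul : ∀ σ τ i, π (σ * τ) i = π σ (π τ i) := fun σ τ i =>
    ((hπu (σ * τ) i) (π σ (π τ i)) (fun w hw => by
      rw [hmul]
      exact hπ σ _ _ (hπ τ i w hw))).symm
  let act : MulAction G I' :=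
    { smul := π
      one_smul := hπ1
      mul_smul := hπmul }
  let f : G →* Equiv.Perm I' := MulAction.toPermHom G I'
  have : Finite I' := Subtype.finite
  refine ⟨f.ker, inferInstance, inferInstance, ?_⟩
  intro σ hσ i w hw
  by_cases hi : V i = ⊥
  · rw [hi, Submodule.mem_bot] at hw
    rw [hw, hzero]
    exact (V i).zero_mem
  · have h1 : f σ ⟨i, hi⟩ = ⟨i, hi⟩ := by
      rw [MonoidHom.mem_ker] at hσ
      rw [hσ]
      rfl
    have h2 : π σ ⟨i, hi⟩ = ⟨i, hi⟩ := h1
    have h3 := hπ σ ⟨i, hi⟩ w hw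
    rw [h2] at h3
    exact h3

end Abstract

section Laurent

open ModularCurve

variable {k K : Type*} [Field k] [Field K] [Algebra k K] {ι : Type*} [Finite ι]

/-- **Stabilisers have finite index** (Laurent series, coefficientwise action of
`Aut (K / k)`). -/
theorem exists_finiteIndex_coeffMap_mem [Infinite K]
    (V : ι → Submodule K (LaurentSeries K)) (hV : ∀ i j, i ≠ j → V i ⊓ V j = ⊥)
    (hmap : ∀ (σ : K ≃ₐ[k] K) (i : ι), ∀ w ∈ V i,
      ∃ j, coeffMap ((σ : K ≃ₐ[k] K) : K →+* K) w ∈ V j) :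
    ∃ 𝒜 : Subgroup (K ≃ₐ[k] K), 𝒜.Normal ∧ 𝒜.FiniteIndex ∧
      ∀ σ ∈ 𝒜, ∀ i, ∀ w ∈ V i, coeffMap ((σ : K ≃ₐ[k] K) : K →+* K) w ∈ V i := by
  refine exists_finiteIndex_forall_mem (G := K ≃ₐ[k] K) (K := K) (M := LaurentSeries K)
    (fun σ w => coeffMap ((σ : K ≃ₐ[k] K) : K →+* K) w) (fun σ c => σ c) ?_ ?_ ?_ ?_ V hV hmap
  · intro m
    ext n
    simp
  · intro σ τ m
    ext n
    simp [AlgEquiv.mul_apply]
  · intro σ m m'
    exact map_add _ _ _
  · intro σ c m
    ext n
    simp

/-- **Descent for a permuted family** (spanning form): every finite-dimensional member of a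
finite family of subspaces of `K((q))`, pairwise meeting in `0` and permuted (vectorwise) by
the coefficientwise action of `Aut (K / k)`, is spanned by series with coefficients in `k`. -/
theorem exists_span_coeffMap_of_family [IsAlgClosed k] [IsAlgClosed K]
    (V : ι → Submodule K (LaurentSeries K)) (hV : ∀ i j, i ≠ j → V i ⊓ V j = ⊥)
    (hmap : ∀ (σ : K ≃ₐ[k] K) (i : ι), ∀ w ∈ V i,
      ∃ j, coeffMap ((σ : K ≃ₐ[k] K) : K →+* K) w ∈ V j)
    (i : ι) [FiniteDimensional K (V i)] :
    ∃ s : Set (LaurentSeries k), s.Finite ∧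
      Submodule.span K (coeffMap (algebraMap k K) '' s) = V i := by
  obtain ⟨𝒜, -, h𝒜, hstab⟩ := exists_finiteIndex_coeffMap_mem V hV hmap
  exact EchelonLaurent.exists_span_coeffMap 𝒜 (V i) fun σ hσ w hw => hstab σ hσ i w hw

/-- **Descent for a permuted family** (a nonzero vector with coefficients in `k`). -/
theorem exists_ne_zero_coeffMap_mem_of_family [IsAlgClosed k] [IsAlgClosed K]
    (V : ι → Submodule K (LaurentSeries K)) (hV : ∀ i j, i ≠ j → V i ⊓ V j = ⊥)
    (hmap : ∀ (σ : K ≃ₐ[k] K) (i : ι), ∀ w ∈ V i,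
      ∃ j, coeffMap ((σ : K ≃ₐ[k] K) : K →+* K) w ∈ V j)
    (i : ι) [FiniteDimensional K (V i)] (h0 : V i ≠ ⊥) :
    ∃ y : LaurentSeries k, y ≠ 0 ∧ coeffMap (algebraMap k K) y ∈ V i := by
  obtain ⟨𝒜, -, h𝒜, hstab⟩ := exists_finiteIndex_coeffMap_mem V hV hmap
  exact EchelonLaurent.exists_ne_zero_coeffMap_mem 𝒜 (V i) h0
    fun σ hσ w hw => hstab σ hσ i w hw

/-- **Descent for a permuted family** (basis form). -/
theorem exists_basis_coeffMap_of_family [IsAlgClosed k] [IsAlgClosed K]
    (V : ι → Submodule K (LaurentSeries K)) (hV : ∀ i j, i ≠ j → V i ⊓ V j = ⊥)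
    (hmap : ∀ (σ : K ≃ₐ[k] K) (i : ι), ∀ w ∈ V i,
      ∃ j, coeffMap ((σ : K ≃ₐ[k] K) : K →+* K) w ∈ V j)
    (i : ι) [FiniteDimensional K (V i)] :
    ∃ b : Fin (Module.finrank K (V i)) → LaurentSeries k,
      LinearIndependent K (fun j => coeffMap (algebraMap k K) (b j)) ∧
      Submodule.span K (Set.range fun j => coeffMap (algebraMap k K) (b j)) = V i := by
  obtain ⟨𝒜, -, h𝒜, hstab⟩ := exists_finiteIndex_coeffMap_mem V hV hmap
  exact EchelonLaurent.exists_basis_coeffMap 𝒜 (V i) fun σ hσ w hw => hstab σ hσ i w hw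

end Laurent

end Fermat.Agent.S29.StabFin
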