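/-
S29 block [K] — Sturm.lean (helper46): STURM BOUND VIA THE NORM TO LEVEL ONE
(finite-dimensionality of spaces of holomorphic forms with a `p`-torsion character, without
Riemann–Roch).  Mathlib only.

* `eq_zero_of_isBoundedAtImInfty_div_discriminant_pow` : a modular form `G` of weight `k` for an
  arithmetic group `𝒢` with `G / Δ ^ m` bounded at `i∞` and `k · [SL₂(ℤ) : 𝒢] < 12 m` vanishes.
* `eq_zero_of_pow` : the same for a function `F` with `F ^ p` a modular form.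
-/
import Mathlib

set_option autoImplicit false

open UpperHalfPlane ModularForm Filter Asymptotics
open scoped ModularForm MatrixGroups Manifold Topology

namespace Fermat.Agent.S29.Sturm

noncomputable section

local notation "Δ" => ModularForm.discriminant

/-- `Δ ^ m` is slash-invariant of weight `12 m` under `SL(2, ℤ)`. -/
theorem discriminant_pow_slash (m : ℕ) (γ : SL(2, ℤ)) :
    (fun z : ℍ => Δ z ^ m) ∣[(12 * (m : ℤ))] γ = fun z : ℍ => Δ z ^ m := by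
  induction m with
  | zero =>
    have h := is_invariant_one γ
    have h1 : (fun z : ℍ => Δ z ^ 0) = (1 : ℍ → ℂ) := by
      funext z
      simp
    rw [h1]
    simpa using h
  | succ m ih =>
    have hγ : (γ : GL (Fin 2) ℝ) ∈ 𝒮ℒ := ⟨γ, rfl⟩
    have hΔ : (Δ : ℍ → ℂ) ∣[(12 : ℤ)] γ = Δ := by
      have h := SlashInvariantForm.slash_action_eqn CuspForm.discriminant _ hγ
      rw [SL_slash]
      exact h
    have hmul := mul_slash_SL2 (12 * (m : ℤ)) 12 γ (fun z : ℍ => Δ z ^ m) Δ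
    rw [ih, hΔ] at hmul
    have he : (fun z : ℍ => Δ z ^ (m + 1)) = (fun z : ℍ => Δ z ^ m) * Δ := by
      funext z
      simp [pow_succ]
    rw [he]
    have hw : (12 * ((m + 1 : ℕ) : ℤ)) = 12 * (m : ℤ) + 12 := by push_cast; ring
    rw [hw]
    exact hmul

/-- `Δ ^ m` is holomorphic. -/
theorem discriminant_pow_mdiff (m : ℕ) : MDiff (fun z : ℍ => Δ z ^ m) := by
  have h : MDiff (Δ : ℍ → ℂ) := CuspForm.discriminant.holo'
  exact h.pow m

/-- Slash-invariance of `f / Δ ^ m` for a level-one form `f`. -/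
theorem div_discriminant_pow_slash {k : ℤ} (f : ModularForm 𝒮ℒ k) (m : ℕ) (γ : SL(2, ℤ)) :
    (fun z : ℍ => f z / Δ z ^ m) ∣[k - 12 * (m : ℤ)] γ = fun z : ℍ => f z / Δ z ^ m := by
  have hγ : (γ : GL (Fin 2) ℝ) ∈ 𝒮ℒ := ⟨γ, rfl⟩
  have hf : (⇑f : ℍ → ℂ) ∣[k] γ = ⇑f := by
    have h := SlashInvariantForm.slash_action_eqn f _ hγ
    rw [SL_slash]
    exact h
  have h := div_slash_SL2 k (12 * (m : ℤ)) γ (⇑f) (fun z : ℍ => Δ z ^ m)
  rw [discriminant_pow_slash, hf] at h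
  exact h

/-- A level-one modular form `f` with `f / Δ ^ m` bounded at `i∞`, divided by `Δ ^ m`. -/
def divPow {k : ℤ} (f : ModularForm 𝒮ℒ k) (m : ℕ)
    (hb : IsBoundedAtImInfty (fun z : ℍ => f z / Δ z ^ m)) : ModularForm 𝒮ℒ (k - 12 * (m : ℤ)) where
  toFun z := f z / Δ z ^ m
  slash_action_eq' := fun _ ⟨γ, hγ⟩ ↦ hγ ▸ div_discriminant_pow_slash f m γ
  holo' := f.holo'.div (discriminant_pow_mdiff m) fun z => pow_ne_zero m (discriminant_ne_zero z)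
  bdd_at_cusps' {c} hc := by
    rw [Subgroup.IsArithmetic.isCusp_iff_isCusp_SL2Z] at hc
    rw [OnePoint.isBoundedAt_iff_forall_SL2Z hc]
    intro γ _
    rw [div_discriminant_pow_slash f m γ]
    exact hb

theorem divPow_apply {k : ℤ} (f : ModularForm 𝒮ℒ k) (m : ℕ)
    (hb : IsBoundedAtImInfty (fun z : ℍ => f z / Δ z ^ m)) (z : ℍ) :
    divPow f m hb z = f z / Δ z ^ m := rfl

/-- **Sturm, level one, growth form**: a level-one form of weight `k < 12 m` with `f / Δ ^ m`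
bounded at `i∞` vanishes. -/
theorem levelOne_eq_zero_of_isBoundedAtImInfty_div {k : ℤ} (f : ModularForm 𝒮ℒ k) (m : ℕ)
    (hm : k < 12 * (m : ℤ)) (hb : IsBoundedAtImInfty (fun z : ℍ => f z / Δ z ^ m)) : f = 0 := by
  have h0 := ModularFormClass.levelOne_neg_weight_eq_zero (k := k - 12 * (m : ℤ)) (by omega)
    (divPow f m hb)
  ext z
  have hz := congrFun h0 z
  rw [divPow_apply, Pi.zero_apply, div_eq_zero_iff] at hz
  rcases hz with hz | hz
  · simpa using hz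
  · exact absurd hz (pow_ne_zero m (discriminant_ne_zero z))

section Norm

variable {𝒢 : Subgroup (GL (Fin 2) ℝ)} [𝒢.IsArithmetic] {k : ℤ}

/-- Every `SL(2, ℤ)`-translate of a modular form for an arithmetic group is bounded at `i∞`. -/
theorem isBoundedAtImInfty_quotientFunc (G : ModularForm 𝒢 k)
    (q : 𝒮ℒ ⧸ 𝒢.subgroupOf 𝒮ℒ) :
    IsBoundedAtImInfty (SlashInvariantForm.quotientFunc G q) := by
  induction q using Quotient.inductionOn with
  | h r =>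
    rw [SlashInvariantForm.quotientFunc_mk]
    obtain ⟨γ, hγ⟩ : ∃ γ : SL(2, ℤ), Matrix.SpecialLinearGroup.mapGL ℝ γ = r.val⁻¹ := by
      obtain ⟨γ, hγ⟩ := r.2
      exact ⟨γ⁻¹, by rw [map_inv, hγ]⟩
    have hc : IsCusp (r.val⁻¹ • (OnePoint.infty : OnePoint ℝ)) 𝒢 := by
      rw [Subgroup.IsArithmetic.isCusp_iff_isCusp_SL2Z, isCusp_SL2Z_iff']
      exact ⟨γ, by rw [hγ]⟩
    exact G.bdd_at_cusps' hc r.val⁻¹ rfl

/-- **Sturm bound via the norm to level one.**  A modular form `G` of weight `k` for an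
arithmetic group `𝒢` such that `G / Δ ^ m` is bounded at `i∞`, where
`k · [SL₂(ℤ) : 𝒢 ∩ SL₂(ℤ)] < 12 m`, vanishes. -/
theorem eq_zero_of_isBoundedAtImInfty_div_discriminant_pow (G : ModularForm 𝒢 k) (m : ℕ)
    (hm : k * (Nat.card (𝒮ℒ ⧸ 𝒢.subgroupOf 𝒮ℒ) : ℤ) < 12 * (m : ℤ))
    (hb : IsBoundedAtImInfty (fun z : ℍ => G z / Δ z ^ m)) : G = 0 := by
  classical
  have hN : ModularForm.norm 𝒮ℒ G = 0 := by
    refine levelOne_eq_zero_of_isBoundedAtImInfty_div _ m hm ?_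
    let _ := Fintype.ofFinite (𝒮ℒ ⧸ 𝒢.subgroupOf 𝒮ℒ)
    have hcoe : ∀ z : ℍ, ModularForm.norm 𝒮ℒ G z =
        ∏ q : 𝒮ℒ ⧸ 𝒢.subgroupOf 𝒮ℒ, SlashInvariantForm.quotientFunc G q z := by
      intro z
      rw [ModularForm.coe_norm]
      simp only [Finset.prod_apply]
    have hone : SlashInvariantForm.quotientFunc G
        (⟦(1 : 𝒮ℒ)⟧ : 𝒮ℒ ⧸ 𝒢.subgroupOf 𝒮ℒ) = ⇑G := by
      rw [SlashInvariantForm.quotientFunc_mk]
      simp
    have hfun : (fun z : ℍ => ModularForm.norm 𝒮ℒ G z / Δ z ^ m) =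
        (fun z : ℍ => G z / Δ z ^ m) *
          fun z : ℍ => ∏ q ∈ (Finset.univ.erase (⟦(1 : 𝒮ℒ)⟧ : 𝒮ℒ ⧸ 𝒢.subgroupOf 𝒮ℒ)),
            SlashInvariantForm.quotientFunc G q z := by
      funext z
      have hsplit : ∏ q : 𝒮ℒ ⧸ 𝒢.subgroupOf 𝒮ℒ, SlashInvariantForm.quotientFunc G q z =
          SlashInvariantForm.quotientFunc G (⟦(1 : 𝒮ℒ)⟧ : 𝒮ℒ ⧸ 𝒢.subgroupOf 𝒮ℒ) z *
            ∏ q ∈ (Finset.univ.erase (⟦(1 : 𝒮ℒ)⟧ : 𝒮ℒ ⧸ 𝒢.subgroupOf 𝒮ℒ)),
              SlashInvariantForm.quotientFunc G q z :=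
        (Finset.mul_prod_erase Finset.univ
          (fun q : 𝒮ℒ ⧸ 𝒢.subgroupOf 𝒮ℒ => SlashInvariantForm.quotientFunc G q z)
          (Finset.mem_univ _)).symm
      rw [hcoe z, hsplit, hone, Pi.mul_apply]
      ring
    rw [hfun]
    refine BoundedAtFilter.mul hb ?_
    have h1 : (1 : ℍ → ℝ) = fun _ : ℍ =>
        ∏ _q ∈ (Finset.univ.erase (⟦(1 : 𝒮ℒ)⟧ : 𝒮ℒ ⧸ 𝒢.subgroupOf 𝒮ℒ)), (1 : ℝ) := by
      funext z
      simp
    unfold BoundedAtFilter
    rw [h1]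
    exact IsBigO.finsetProd fun q _ => isBoundedAtImInfty_quotientFunc G q
  have h0 := (ModularForm.norm_eq_zero_iff (ℋ := 𝒮ℒ) G).mp hN
  ext z
  simpa using congrFun h0 z

/-- **Sturm, character form.**  If `F ^ p` is a modular form of weight `k` for the arithmetic
group `𝒢` (e.g. `F` is a holomorphic form with a `p`-torsion character) and `F / Δ ^ m` is bounded
at `i∞` with `k · [SL₂(ℤ) : 𝒢 ∩ SL₂(ℤ)] < 12 p m`, then `F = 0`. -/
theorem eq_zero_of_pow (p : ℕ) (hp : 0 < p) {F : ℍ → ℂ} (G : ModularForm 𝒢 k)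
    (hG : ∀ z : ℍ, G z = F z ^ p) (m : ℕ)
    (hm : k * (Nat.card (𝒮ℒ ⧸ 𝒢.subgroupOf 𝒮ℒ) : ℤ) < 12 * ((p * m : ℕ) : ℤ))
    (hb : IsBoundedAtImInfty (fun z : ℍ => F z / Δ z ^ m)) : F = 0 := by
  have hb' : IsBoundedAtImInfty (fun z : ℍ => G z / Δ z ^ (p * m)) := by
    have hpow : (fun z : ℍ => G z / Δ z ^ (p * m)) = (fun z : ℍ => F z / Δ z ^ m) ^ p := by
      funext z
      rw [Pi.pow_apply, hG z, div_pow, ← pow_mul, mul_comm m p]
    rw [hpow]
    have h : (fun z : ℍ => (F z / Δ z ^ m) ^ p) =O[atImInfty]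
        fun z : ℍ => ((1 : ℍ → ℝ) z) ^ p := IsBigO.pow hb p
    simp only [Pi.one_apply, one_pow] at h
    exact h
  have h0 := eq_zero_of_isBoundedAtImInfty_div_discriminant_pow G (p * m) hm hb'
  funext z
  have hz : F z ^ p = 0 := by
    rw [← hG z, h0]
    rfl
  simpa using (pow_eq_zero_iff hp.ne').mp hz

end Norm

section QExp

/-- **Vanishing `q`-coefficients give vanishing at `i∞`.**  If the first `m` coefficients of the
`q`-expansion of a `1`-periodic holomorphic function `F`, bounded at `i∞`, vanish, then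
`F / Δ ^ m` is bounded at `i∞`. -/
theorem isBoundedAtImInfty_div_discriminant_pow {F : ℍ → ℂ}
    (hper : Function.Periodic (F ∘ ofComplex) ((1 : ℝ) : ℂ)) (hF : MDiff F)
    (hb : IsBoundedAtImInfty F) (m : ℕ)
    (h0 : ∀ n < m, (qExpansion 1 F).coeff n = 0) :
    IsBoundedAtImInfty (fun z : ℍ => F z / Δ z ^ m) := by
  set a : ℕ → ℂ := fun n => (qExpansion 1 F).coeff n with ha
  set r₀ : ℝ := Real.exp (-2 * Real.pi) with hr₀
  have hr₀pos : 0 < r₀ := Real.exp_pos _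
  have hqnorm : ∀ τ : ℍ, ‖Function.Periodic.qParam 1 (τ : ℂ)‖ = Real.exp (-2 * Real.pi * τ.im) := by
    intro τ
    simp [Function.Periodic.qParam, Complex.norm_exp]
  have hsum : ∀ τ : ℍ, HasSum (fun n : ℕ => a n • Function.Periodic.qParam 1 (τ : ℂ) ^ n) (F τ) :=
    fun τ => hasSum_qExpansion one_pos hper hF hb τ
  -- absolute convergence at `τ = i`
  have hI : ‖Function.Periodic.qParam 1 ((UpperHalfPlane.I : ℍ) : ℂ)‖ = r₀ := by
    rw [hqnorm]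
    simp [hr₀]
  have hsummable : Summable fun n : ℕ => ‖a n‖ * r₀ ^ n := by
    have h := (hsum UpperHalfPlane.I).summable.norm
    refine h.congr fun n => ?_
    rw [norm_smul, norm_pow, hI]
  set C : ℝ := ∑' n : ℕ, ‖a n‖ * r₀ ^ n with hC
  -- the bound `‖F τ‖ ≤ C r₀⁻ᵐ ‖q‖ᵐ` for `im τ ≥ 1`
  have hbound : ∀ τ : ℍ, 1 ≤ τ.im →
      ‖F τ‖ ≤ C * (r₀⁻¹) ^ m * ‖(Real.exp (-2 * Real.pi * τ.im)) ^ m‖ := by
    intro τ hτ
    set q : ℂ := Function.Periodic.qParam 1 (τ : ℂ) with hq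
    have hqn : ‖q‖ = Real.exp (-2 * Real.pi * τ.im) := hqnorm τ
    have hqle : ‖q‖ ≤ r₀ := by
      rw [hqn, hr₀]
      apply Real.exp_le_exp.mpr
      nlinarith [Real.pi_pos]
    have hq0 : 0 ≤ ‖q‖ := norm_nonneg q
    have hterm : ∀ n : ℕ, ‖a n • q ^ n‖ ≤ ‖q‖ ^ m * (r₀⁻¹) ^ m * (‖a n‖ * r₀ ^ n) := by
      intro n
      rcases lt_or_ge n m with hn | hn
      · rw [show a n = 0 from h0 n hn, zero_smul, norm_zero, zero_mul, mul_zero]
      · obtain ⟨d, rfl⟩ := Nat.exists_eq_add_of_le hn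
        rw [norm_smul, norm_pow, pow_add, pow_add]
        have h1 : ‖q‖ ^ d ≤ r₀ ^ d := pow_le_pow_left₀ hq0 hqle d
        have h2 : (r₀⁻¹) ^ m * r₀ ^ m = 1 := by
          rw [← mul_pow, inv_mul_cancel₀ hr₀pos.ne', one_pow]
        calc ‖a (m + d)‖ * (‖q‖ ^ m * ‖q‖ ^ d)
            ≤ ‖a (m + d)‖ * (‖q‖ ^ m * r₀ ^ d) := by
              apply mul_le_mul_of_nonneg_left _ (norm_nonneg _)
              exact mul_le_mul_of_nonneg_left h1 (pow_nonneg hq0 m)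
          _ = ‖q‖ ^ m * ((r₀⁻¹) ^ m * r₀ ^ m) * (‖a (m + d)‖ * r₀ ^ d) := by
              rw [h2]; ring
          _ = ‖q‖ ^ m * (r₀⁻¹) ^ m * (‖a (m + d)‖ * (r₀ ^ m * r₀ ^ d)) := by ring
    have hs := hsum τ
    have hsn : Summable fun n : ℕ => ‖a n • q ^ n‖ := hs.summable.norm
    have hle : ‖F τ‖ ≤ ∑' n : ℕ, ‖a n • q ^ n‖ := by
      rw [← hs.tsum_eq]
      exact norm_tsum_le_tsum_norm hsn
    have hle2 : ∑' n : ℕ, ‖a n • q ^ n‖ ≤ ∑' n : ℕ, ‖q‖ ^ m * (r₀⁻¹) ^ m * (‖a n‖ * r₀ ^ n) :=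
      hsn.tsum_le_tsum hterm (hsummable.mul_left _)
    rw [tsum_mul_left] at hle2
    have hexp : ‖(Real.exp (-2 * Real.pi * τ.im)) ^ m‖ = ‖q‖ ^ m := by
      rw [hqn, Real.norm_of_nonneg (pow_nonneg (Real.exp_pos _).le m)]
    rw [hexp]
    calc ‖F τ‖ ≤ ‖q‖ ^ m * (r₀⁻¹) ^ m * C := hle.trans hle2
      _ = C * (r₀⁻¹) ^ m * ‖q‖ ^ m := by ring
  have hO1 : F =O[atImInfty] fun τ : ℍ => (Real.exp (-2 * Real.pi * τ.im)) ^ m := by
    refine IsBigO.of_bound (C * (r₀⁻¹) ^ m) ?_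
    rw [atImInfty, Filter.eventually_comap]
    filter_upwards [Filter.eventually_ge_atTop (1 : ℝ)] with y hy τ hτ
    exact hbound τ (hτ ▸ hy)
  have hO2 : (fun τ : ℍ => (Real.exp (-2 * Real.pi * τ.im)) ^ m) =O[atImInfty]
      fun τ : ℍ => Δ τ ^ m := exp_isBigO_discriminant.pow m
  have hO : F =O[atImInfty] fun τ : ℍ => Δ τ ^ m := hO1.trans hO2
  exact (div_isBoundedUnder_of_isBigO hO).isBigO_one ℝ

/-- Periodicity in the form used by Mathlib's `q`-expansion API, from invariance under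
`z ↦ z + 1` on the upper half plane. -/
theorem periodic_comp_ofComplex_of_vadd {F : ℍ → ℂ} (h : ∀ z : ℍ, F ((1 : ℝ) +ᵥ z) = F z) :
    Function.Periodic (F ∘ ofComplex) ((1 : ℝ) : ℂ) := by
  intro w
  by_cases hw : 0 < w.im
  · have hw' : 0 < (w + ((1 : ℝ) : ℂ)).im := by simpa using hw
    simp only [Function.comp_apply, ofComplex_apply_of_im_pos hw', ofComplex_apply_of_im_pos hw]
    rw [← h ⟨w, hw⟩]
    congr 1
    apply UpperHalfPlane.ext
    simp [add_comm]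
  · have hw0 : w.im ≤ 0 := not_lt.mp hw
    have hw' : (w + ((1 : ℝ) : ℂ)).im ≤ 0 := by simpa using hw0
    simp only [Function.comp_apply, ofComplex_apply_of_im_nonpos hw',
      ofComplex_apply_of_im_nonpos hw0]

end QExp

section Consumer

variable {𝒢 : Subgroup (GL (Fin 2) ℝ)} [𝒢.IsArithmetic] {k : ℤ}

/-- **Sturm, `q`-expansion + character form.**  A `1`-periodic holomorphic function `F`, bounded
at `i∞`, such that `F ^ p` is a modular form of weight `k` for the arithmetic group `𝒢`, vanishes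
as soon as its first `m` `q`-coefficients vanish, where `k · [SL₂(ℤ) : 𝒢 ∩ SL₂(ℤ)] < 12 p m`. -/
theorem eq_zero_of_coeff_eq_zero (p : ℕ) (hp : 0 < p) {F : ℍ → ℂ}
    (hper : Function.Periodic (F ∘ ofComplex) ((1 : ℝ) : ℂ)) (hF : MDiff F)
    (hb : IsBoundedAtImInfty F) (G : ModularForm 𝒢 k) (hG : ∀ z : ℍ, G z = F z ^ p) (m : ℕ)
    (hm : k * (Nat.card (𝒮ℒ ⧸ 𝒢.subgroupOf 𝒮ℒ) : ℤ) < 12 * ((p * m : ℕ) : ℤ))
    (h0 : ∀ n < m, (qExpansion 1 F).coeff n = 0) : F = 0 :=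
  eq_zero_of_pow p hp G hG m hm (isBoundedAtImInfty_div_discriminant_pow hper hF hb m h0)

/-- The Sturm number used below: any `m` with `k · [SL₂(ℤ) : 𝒢 ∩ SL₂(ℤ)] < 12 p m`. -/
def sturmNat (𝒢 : Subgroup (GL (Fin 2) ℝ)) (k : ℤ) : ℕ :=
  (k * (Nat.card (𝒮ℒ ⧸ 𝒢.subgroupOf 𝒮ℒ) : ℤ)).toNat + 1

omit [𝒢.IsArithmetic] in
theorem lt_sturmNat (p : ℕ) (hp : 0 < p) :
    k * (Nat.card (𝒮ℒ ⧸ 𝒢.subgroupOf 𝒮ℒ) : ℤ) < 12 * ((p * sturmNat 𝒢 k : ℕ) : ℤ) := by
  have h1 : k * (Nat.card (𝒮ℒ ⧸ 𝒢.subgroupOf 𝒮ℒ) : ℤ) ≤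
      ((k * (Nat.card (𝒮ℒ ⧸ 𝒢.subgroupOf 𝒮ℒ) : ℤ)).toNat : ℤ) := Int.self_le_toNat _
  have h2 : (1 : ℤ) ≤ (p : ℤ) := by exact_mod_cast hp
  have h3 : (0 : ℤ) ≤ ((k * (Nat.card (𝒮ℒ ⧸ 𝒢.subgroupOf 𝒮ℒ) : ℤ)).toNat : ℤ) :=
    Int.natCast_nonneg _
  unfold sturmNat
  push_cast
  nlinarith

/-- **Finite-dimensionality without Riemann–Roch.**  A `ℂ`-vector space `W` of functions on the
upper half plane all of whose elements `F` are `1`-periodic, holomorphic, bounded at `i∞`, and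
have `F ^ p` equal to a modular form of weight `k` for the (fixed) arithmetic group `𝒢`, is
finite-dimensional: the first `sturmNat 𝒢 k` `q`-coefficients form an injective linear map. -/
theorem finiteDimensional_of_forall_pow (p : ℕ) (hp : 0 < p) (W : Submodule ℂ (ℍ → ℂ))
    (hW : ∀ F ∈ W, Function.Periodic (F ∘ ofComplex) ((1 : ℝ) : ℂ) ∧ MDiff F ∧
      IsBoundedAtImInfty F ∧ ∃ G : ModularForm 𝒢 k, ∀ z : ℍ, G z = F z ^ p) :
    FiniteDimensional ℂ W := by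
  have han : ∀ F ∈ W, AnalyticAt ℂ (cuspFunction 1 F) 0 := fun F hFW =>
    analyticAt_cuspFunction_zero one_pos (hW F hFW).1 (hW F hFW).2.1 (hW F hFW).2.2.1
  let Φ : W →ₗ[ℂ] (Fin (sturmNat 𝒢 k) → ℂ) :=
    { toFun := fun F n => (qExpansion 1 (F : ℍ → ℂ)).coeff (n : ℕ)
      map_add' := fun F F' => by
        funext n
        rw [Submodule.coe_add, qExpansion_add (han F F.2) (han F' F'.2)]
        simp
      map_smul' := fun c F => by
        funext n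
        rw [Submodule.coe_smul, qExpansion_smul (han F F.2) c]
        simp }
  have hinj : Function.Injective Φ := by
    rw [← LinearMap.ker_eq_bot, LinearMap.ker_eq_bot']
    intro F hΦ
    obtain ⟨hper, hF, hb, G, hG⟩ := hW F F.2
    apply Subtype.ext
    refine eq_zero_of_coeff_eq_zero p hp hper hF hb G hG (sturmNat 𝒢 k) (lt_sturmNat p hp) ?_
    intro n hn
    exact congrFun hΦ ⟨n, hn⟩
  exact FiniteDimensional.of_injective Φ hinj

end Consumer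

end

end Fermat.Agent.S29.Sturm
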