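/-
S29 — Top29B.lean (helper78; B copy of [Top29], A = helper90 `S29/Top29.lean`).

`top29Statement : Plan.Top29Statement`: the frozen S29 statement from the core statement
`CoreAt N p` (`N ≠ 0`).  For `φ : ℤ̄ →+* k` with `char k = p` the kernel `𝔪 = ker φ` is a maximal
ideal, `𝔽 := ℤ̄ ⧸ 𝔪` is an algebraically closed field of characteristic `p`, the core gives a
matrix representation over `𝔽` for `ψ := mk`, and we map its matrices along `𝔽 → k`.
The level-zero case is vacuous (trivial representation).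
-/
import Mathlib
import Fermat.Agent.S29.Plan

set_option autoImplicit false

open Polynomial CongruenceSubgroup

namespace Fermat.Agent.S29.Top29B

open Fermat.Agent.S29

/-- The kernel of a ring homomorphism from `ℤ̄` to a field of characteristic `p` is maximal. -/
theorem ker_isMaximal {p : ℕ} (hp : p.Prime) {k : Type} [Field k] [CharP k p] (φ : Zb →+* k) :
    (RingHom.ker φ).IsMaximal := by
  have hker : (RingHom.ker φ).IsPrime := RingHom.ker_isPrime φ
  have hintg : Algebra.IsIntegral ℤ Zb := inferInstance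
  apply Ideal.isMaximal_of_isIntegral_of_isMaximal_comap (R := ℤ) (RingHom.ker φ)
  have hprime : ((RingHom.ker φ).comap (algebraMap ℤ Zb)).IsPrime := Ideal.comap_isPrime _ _
  have hne : (RingHom.ker φ).comap (algebraMap ℤ Zb) ≠ ⊥ := by
    intro h
    have h1 : (p : ℤ) ∈ (RingHom.ker φ).comap (algebraMap ℤ Zb) := by
      rw [Ideal.mem_comap, RingHom.mem_ker, map_natCast, map_natCast]
      exact CharP.cast_eq_zero k p
    rw [h, Ideal.mem_bot] at h1
    exact hp.ne_zero (by exact_mod_cast h1)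
  exact hprime.isMaximal hne

/-- Every monic polynomial of positive degree over `ℤ̄` has a root in `ℤ̄`. -/
theorem exists_root_Zb (Q : Zb[X]) (hQ : Q.Monic) (hdeg : Q.degree ≠ 0) :
    ∃ z : Zb, Q.eval z = 0 := by
  have hdeg' : (Q.map (algebraMap Zb ℂ)).degree ≠ 0 := by
    rwa [Polynomial.degree_map_eq_of_injective (FaithfulSMul.algebraMap_injective Zb ℂ)]
  obtain ⟨z, hz⟩ := IsAlgClosed.exists_root (Q.map (algebraMap Zb ℂ)) hdeg'
  have hz' : Polynomial.eval₂ (algebraMap Zb ℂ) z Q = 0 := by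
    rwa [Polynomial.IsRoot, Polynomial.eval_map] at hz
  have hint : IsIntegral Zb z := ⟨Q, hQ, hz'⟩
  have hintZ : IsIntegral ℤ z := isIntegral_trans z hint
  refine ⟨⟨z, hintZ⟩, ?_⟩
  apply FaithfulSMul.algebraMap_injective Zb ℂ
  rw [map_zero, ← Polynomial.eval₂_at_apply, ← hz']
  rfl

/-- `ℤ̄ ⧸ 𝔪` is algebraically closed. -/
theorem isAlgClosed_quotient (𝔪 : Ideal Zb) [h𝔪 : 𝔪.IsMaximal] :
    @IsAlgClosed (Zb ⧸ 𝔪) (Ideal.Quotient.field 𝔪) := by
  let _ : Field (Zb ⧸ 𝔪) := Ideal.Quotient.field 𝔪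
  apply IsAlgClosed.of_exists_root
  intro q hq hirr
  have hlift : q ∈ Polynomial.lifts (Ideal.Quotient.mk 𝔪) := by
    rw [Polynomial.mem_lifts]
    exact Polynomial.map_surjective _ Ideal.Quotient.mk_surjective q
  obtain ⟨Q, hQmap, hQdeg, hQm⟩ := Polynomial.lifts_and_degree_eq_and_monic hlift hq
  have hdeg : Q.degree ≠ 0 := by
    rw [hQdeg]
    exact (Polynomial.degree_pos_of_irreducible hirr).ne'
  obtain ⟨z, hz⟩ := exists_root_Zb Q hQm hdeg
  refine ⟨Ideal.Quotient.mk 𝔪 z, ?_⟩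
  rw [← hQmap, Polynomial.eval_map, Polynomial.eval₂_at_apply, hz, map_zero]

/-- **[Top29]** (B copy). -/
theorem top29Statement : Plan.Top29Statement := by
  intro hcore N g hg p hp k _ _ φ
  by_cases hN : N = 0
  · subst hN
    refine ⟨{ V := Fin 2 → k
              finrank_eq := by simp
              ρ := 1
              factorsThroughFiniteLevel := ⟨⊥, inferInstance, fun σ _ => rfl⟩ }, ?_, ?_⟩
    · intro ℓ _ hℓN
      exact absurd (dvd_zero ℓ) hℓN
    · intro ℓ _ hℓN
      exact absurd (by rw [zero_mul]; exact dvd_zero ℓ) hℓN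
  · have hmax : (RingHom.ker φ).IsMaximal := ker_isMaximal hp φ
    let _ : Field (Zb ⧸ RingHom.ker φ) := Ideal.Quotient.field (RingHom.ker φ)
    have hAC : IsAlgClosed (Zb ⧸ RingHom.ker φ) := isAlgClosed_quotient (RingHom.ker φ)
    have hCharP : CharP (Zb ⧸ RingHom.ker φ) p := by
      refine (CharP.charP_iff_prime_eq_zero hp).mpr ?_
      have h1 : ((p : Zb) : Zb ⧸ RingHom.ker φ) = 0 := by
        rw [Ideal.Quotient.eq_zero_iff_mem, RingHom.mem_ker, map_natCast]
        exact CharP.cast_eq_zero k p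
      exact_mod_cast h1
    obtain ⟨ρ₀, hfin, hchar, hin⟩ :=
      hcore N p hN hp g hg (Zb ⧸ RingHom.ker φ) (Ideal.Quotient.mk (RingHom.ker φ))
    let ι : Zb ⧸ RingHom.ker φ →+* k := RingHom.kerLift φ
    have hι : ∀ a : Zb, ι (Ideal.Quotient.mk (RingHom.ker φ) a) = φ a := fun a =>
      RingHom.kerLift_mk φ a
    let ρk : GQ →* Module.End k (Fin 2 → k) :=
      { toFun := fun σ => Matrix.toLin' ((ρ₀ σ).map ι)
        map_one' := by
          rw [map_one, Matrix.map_one ι (map_zero ι) (map_one ι), Matrix.toLin'_one]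
          rfl
        map_mul' := fun a b => by
          rw [map_mul, Matrix.map_mul, Matrix.toLin'_mul]
          rfl }
    have hρk : ∀ σ, ρk σ = Matrix.toLin' ((ρ₀ σ).map ι) := fun σ => rfl
    have hone : ∀ σ, ρ₀ σ = 1 → ρk σ = 1 := by
      intro σ h
      rw [hρk, h, Matrix.map_one ι (map_zero ι) (map_one ι), Matrix.toLin'_one]
      rfl
    refine ⟨{ V := Fin 2 → k
              finrank_eq := by simp
              ρ := ρk
              factorsThroughFiniteLevel := ?_ }, ?_, ?_⟩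
    · obtain ⟨L, hL, h1⟩ := hfin
      exact ⟨L, hL, fun σ hσ => hone σ (h1 σ hσ)⟩
    · intro ℓ hℓ hℓN hℓk A hA σ hσ
      have hℓp : ℓ ≠ p := by
        rintro rfl
        exact hℓk (CharP.cast_eq_zero k ℓ)
      obtain ⟨a, ha, hcp⟩ := hchar ℓ hℓ hℓN hℓp A hA σ hσ
      refine ⟨a, ha, ?_⟩
      show LinearMap.charpoly (ρk σ) = _
      rw [hρk, Matrix.charpoly_toLin', Matrix.charpoly_map, hcp]
      simp only [Polynomial.map_add, Polynomial.map_sub, Polynomial.map_mul, Polynomial.map_pow,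
        Polynomial.map_X, Polynomial.map_C, hι, map_natCast, Polynomial.map_natCast]
    · intro ℓ hℓ hℓNp A hA σ hσ
      have hℓN : ¬ ℓ ∣ N := fun h => hℓNp (dvd_mul_of_dvd_left h p)
      have hℓp : ℓ ≠ p := by
        rintro rfl
        exact hℓNp (dvd_mul_left ℓ N)
      exact hone σ (hin ℓ hℓ hℓN hℓp A hA σ hσ)

end Fermat.Agent.S29.Top29B
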