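/-
S29 block [K], row (WE) — WEInv.lean (owner: helper16): (WE) from the single leaf [KPInv].

`weStatement_of_kpinv`: `KPlan.WEStatement N p` from `WE.KPInvStatement N p p` (board #1983,
the deep leaf at the exponent `p`), every other input being on main:
`K1.Mchi_one_eq` (helper17), `K1IntConvFC.exists_form_of_isIntegral` (helper94) and the chain of
`WECore`.  No primality of `p` is used (`p ≠ 0` only).
-/
import Mathlib
import Fermat.Agent.S29.WECore
import Fermat.Agent.S29.K1
import Fermat.Agent.S29.K1IntConvFC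

set_option autoImplicit false

namespace Fermat.Agent.S29.WE

open UpperHalfPlane CongruenceSubgroup ModularCurve Fermat.Agent.S24 Fermat.Agent.S29.K
open Fermat.Agent.S29.KPlan
open scoped MatrixGroups

/-- The leaf **[K1IntConv]** in the shape consumed by `WECore`. -/
theorem k1IntConvStatement (N : ℕ) [NeZero N] : K1IntConvStatement N :=
  fun m _ hx h1 h2 => exists_form_of_isIntegral m hx h1 h2

/-- **[STAB]** (board #1998, for every exponent `m`) from `[KPInv]` at the exponent `m`. -/
theorem stab_of_kpinv (N p m : ℕ) [NeZero N] (hInv : KPInvStatement N p m)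
    (σ : ℂ ≃+* ℂ) (x : LaurentSeries ℂ) (G : ℍ → ℂ) (hG : G ∈ S20.MF N (12 * m))
    (hx : x * DeltaC ^ m = qx G)
    (hord : ∀ z : ℍ, ∃ k : ℕ,
      analyticOrderAt (fun w : ℂ => G (ofComplex w)) (z : ℂ) = ((p * k : ℕ) : ℕ∞)) :
    ∃ G' : ℍ → ℂ, G' ∈ S20.MF N (12 * m) ∧ coeffMap (σ : ℂ →+* ℂ) x * DeltaC ^ m = qx G' ∧
      ∀ z : ℍ, ∃ k : ℕ,
        analyticOrderAt (fun w : ℂ => G' (ofComplex w)) (z : ℂ) = ((p * k : ℕ) : ℕ∞) :=
  stab_of_leaves N p m (Mchi_one_eq (N := N)).subset (k1IntConvStatement N) hInv σ x G hG hx hord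

/-- **(WE)** from the single remaining leaf `[KPInv]` (at the exponent `m = p`). -/
theorem weStatement_of_kpinv (N p : ℕ) [NeZero N] (hp : p ≠ 0) (hInv : KPInvStatement N p p) :
    WEStatement N p :=
  weStatement_of_leaves N p hp (Mchi_one_eq (N := N)).subset (k1IntConvStatement N) hInv

end Fermat.Agent.S29.WE
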