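/-
S29 block [K], leaf 1 — WE.lean (owner: helper16): **(WE)**, unconditional.

`weStatement (N p) [NeZero N] (hp : p ≠ 0) : KPlan.WEStatement N p`: for every `u ∈ Lpar N` there
is a nonzero `y ∈ ℚ̄((q))` whose base change to `ℂ` lies in the descent space `V(χ_u)`
(`χ_u = ζ_p^u`).  No primality of `p`.

Chain (all on main): `WEInv.weStatement_of_kpinv` (KDesc descent glue ∘ KSigma ∘ K3StabCore ∘
K1 / K1Int / K1IntConv ∘ SigmaFix ∘ K2Sub / K2Eis / K2Sturm / K2Sep) applied to the deep leaf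
`[KPInv]` = `KPInvNP.kpInv` (helper37, Newton polygon route).
-/
import Mathlib
import Fermat.Agent.S29.WEInv
import Fermat.Agent.S29.KPInvNP

set_option autoImplicit false

namespace Fermat.Agent.S29.WE

open UpperHalfPlane CongruenceSubgroup ModularCurve Fermat.Agent.S29.K
open Fermat.Agent.S29.KPlan
open scoped MatrixGroups

/-- The deep leaf **[KPInv]**, for every torsion order `p` and every exponent `m`. -/
theorem kpInvStatement (N p m : ℕ) [NeZero N] : KPInvStatement N p m :=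
  fun σ G G' hG hG' hG0 hq hord => KPInvNP.kpInv N p σ m G G' hG hG' hG0 hq hord

/-- **[STAB]** (board #1998), unconditional, for every `p` and `m`. -/
theorem coeffMap_root_form (N p m : ℕ) [NeZero N] (σ : ℂ ≃+* ℂ) {x : LaurentSeries ℂ}
    {G : ℍ → ℂ} (hG : G ∈ S20.MF N (12 * m)) (hx : x * DeltaC ^ m = qx G)
    (hord : ∀ z : ℍ, ∃ k : ℕ,
      analyticOrderAt (fun w : ℂ => G (ofComplex w)) (z : ℂ) = ((p * k : ℕ) : ℕ∞)) :
    ∃ G' : ℍ → ℂ, G' ∈ S20.MF N (12 * m) ∧ coeffMap (σ : ℂ →+* ℂ) x * DeltaC ^ m = qx G' ∧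
      ∀ z : ℍ, ∃ k : ℕ,
        analyticOrderAt (fun w : ℂ => G' (ofComplex w)) (z : ℂ) = ((p * k : ℕ) : ℕ∞) :=
  stab_of_kpinv N p m (kpInvStatement N p m) σ x G hG hx hord

/-- **(WE)**: a nonzero `ℚ̄`-rational element of the descent space `V(χ_u)`, for every
`u ∈ Lpar N` and every torsion order `p ≠ 0`. -/
theorem weStatement (N p : ℕ) [NeZero N] (hp : p ≠ 0) : WEStatement N p :=
  weStatement_of_kpinv N p hp (kpInvStatement N p p)

end Fermat.Agent.S29.WE
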