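/-
S29 block [K], leaf 2 of the master table (owner: helper53): **(WQ)** = [K-Q].
For an existence-type witness `y ∈ ℚ̄((q))` (`y · Δ` is the `q`-expansion of a weight `12` form `F`
with multiplier `χ_u`, `u` parabolic), the function `f = y ^ p ∈ F̄_N` has all its orders divisible
by `p`, at every place of `F̄_N / ℚ̄`.  Adapter on `DivP.dvd_ord_taylor` / `DivP.dvd_ord_cusp` with
`w := F / Δ`.  Valid for EVERY `p : ℕ` (no primality, no `p ≠ 0`).
-/
import Mathlib
import Fermat.Agent.S29.DivP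
import Fermat.Agent.S29.KPlanDefs
import Fermat.Agent.S29.KBasic
import Fermat.Agent.S24.AnBridge
import Fermat.Agent.S24.Bridge
import Fermat.Agent.S24.EmbFormal
import Fermat.Agent.LevelOne.JDef

set_option autoImplicit false

noncomputable section

namespace Fermat.Agent.S29.WQ

open UpperHalfPlane ModularCurve AlgebraicCurve CongruenceSubgroup Fermat.Agent.S24
  Fermat.Agent.LevelOne Fermat.Agent.S29.K
open scoped MatrixGroups ModularForm Manifold

local notation "Δ" => ModularForm.discriminant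

/-- Every nonzero element of `F̄_N` is a quotient of polynomials in the generators. -/
theorem exists_frac (N : ℕ) [NeZero N] (f : FN N) (hf : f ≠ 0) :
    ∃ a b : MvPolynomial ↥N.divisors Kb, MvPolynomial.aeval (genFam N) b ≠ 0 ∧
      f * MvPolynomial.aeval (genFam N) b = MvPolynomial.aeval (genFam N) a := by
  have hmem : f ∈ IntermediateField.adjoin Kb (Set.range (genFam N)) := by
    rw [adjoin_genFam_eq_top]
    trivial
  rw [IntermediateField.mem_adjoin_range_iff] at hmem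
  obtain ⟨a, b, hab⟩ := hmem
  have hb : MvPolynomial.aeval (genFam N) b ≠ 0 := by
    intro h0
    rw [h0, div_zero] at hab
    exact hf hab
  exact ⟨a, b, hb, by rw [hab, div_mul_cancel₀ _ hb]⟩

/-- The underlying Laurent series of a polynomial in the generators. -/
theorem coe_aeval_genFam (N : ℕ) [NeZero N] (P : MvPolynomial ↥N.divisors Kb) :
    ((MvPolynomial.aeval (genFam N) P : FN N) : LaurentSeries Kb)
      = MvPolynomial.aeval (JFam N) P := by
  have h := MvPolynomial.comp_aeval_apply (genFam N)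
    ((ModularCurve.modularFunctionFieldBar N).val) P
  exact h

/-- The trace of a conjugate of a power of `T` is `2`. -/
theorem trace_conj_T_zpow (g : SL(2, ℤ)) (n : ℤ) :
    ((g * ModularGroup.T ^ n * g⁻¹ : SL(2, ℤ)) : Matrix (Fin 2) (Fin 2) ℤ).trace = 2 := by
  rw [Matrix.SpecialLinearGroup.coe_mul, Matrix.SpecialLinearGroup.coe_mul,
    Matrix.trace_mul_comm, ← Matrix.mul_assoc, ← Matrix.SpecialLinearGroup.coe_mul,
    inv_mul_cancel, Matrix.SpecialLinearGroup.coe_one, Matrix.one_mul, ModularGroup.coe_T_zpow]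
  simp [Matrix.trace_fin_two]

/-- **Formal ⇒ analytic.**  If `y · Δ` is the `q`-expansion of `F` and `f = y ^ p` in `F̄_N`, then
`F / Δ` is an analytic `p`-th root of `f`. -/
theorem isPthRoot_of_qx (N p : ℕ) [NeZero N] (F : ℍ → ℂ) (hF : F ∈ S23.niceSub)
    (y : LaurentSeries Kb) (hy : coeffMap embC y * DeltaC = qx F)
    (f : FN N) (hf : f ≠ 0) (hfy : (f : LaurentSeries Kb) = y ^ p) :
    DivP.IsPthRoot N p (fun z => F z / Δ z) f := by
  obtain ⟨a, b, hb, hfab⟩ := exists_frac N f hf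
  refine ⟨a, b, hb, hfab, fun z => ?_⟩
  have hJ : AnBridge.JRel := jRel
  obtain ⟨ma, Fa, hFa, hFa'⟩ := AnBridge.exists_clear (N := N) hJ (MvPolynomial.map embC a)
  obtain ⟨mb, Fb, hFb, hFb'⟩ := AnBridge.exists_clear (N := N) hJ (MvPolynomial.map embC b)
  -- the formal identity over `ℂ`
  have h1 : coeffMap embC y ^ p * MvPolynomial.aeval (AnBridge.GN N) (MvPolynomial.map embC b)
      = MvPolynomial.aeval (AnBridge.GN N) (MvPolynomial.map embC a) := by
    have h2 : (f : LaurentSeries Kb) * ((MvPolynomial.aeval (genFam N) b : FN N) : LaurentSeries Kb)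
        = ((MvPolynomial.aeval (genFam N) a : FN N) : LaurentSeries Kb) :=
      congrArg (fun x : FN N => (x : LaurentSeries Kb)) hfab
    rw [coe_aeval_genFam, coe_aeval_genFam, hfy] at h2
    have h3 := congrArg (coeffMap embC) h2
    rw [map_mul, map_pow, AnBridge.coeffMap_aeval_JFam, AnBridge.coeffMap_aeval_JFam] at h3
    exact h3
  have hΔn : (Δ : ℍ → ℂ) ∈ S23.niceSub := AnBridge.discriminant_mem_niceSub
  have hPhiF : AnBridge.Phi ⟨F, hF⟩ = coeffMap embC y * AnBridge.Phi ⟨Δ, hΔn⟩ := by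
    rw [← qx_eq_Phi hF, ← qx_eq_Phi hΔn, ← hy]
    rfl
  have key : (⟨F, hF⟩ : S23.niceSub) ^ p * AnBridge.DN N ^ ma * Fb
      = (⟨Δ, hΔn⟩ : S23.niceSub) ^ p * AnBridge.DN N ^ mb * Fa := by
    apply AnBridge.Phi_injective
    simp only [map_mul, map_pow]
    rw [hPhiF, ← hFa', ← hFb', ← h1]
    ring
  have hz : F z ^ p * (AnBridge.DN N : ℍ → ℂ) z ^ ma * (Fb : ℍ → ℂ) z
      = Δ z ^ p * (AnBridge.DN N : ℍ → ℂ) z ^ mb * (Fa : ℍ → ℂ) z :=
    congrArg (fun G : S23.niceSub => (G : ℍ → ℂ) z) key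
  rw [← hFa z, ← hFb z, AnBridge.aeval_jAtFam_map, AnBridge.aeval_jAtFam_map] at hz
  have hD := AnBridge.DN_apply_ne_zero N z
  have hΔz : Δ z ≠ 0 := ModularForm.discriminant_ne_zero z
  have h4 : (AnBridge.DN N : ℍ → ℂ) z ^ (ma + mb) *
      (F z ^ p * MvPolynomial.aeval (jAtFam N) b z)
      = (AnBridge.DN N : ℍ → ℂ) z ^ (ma + mb) *
        (Δ z ^ p * MvPolynomial.aeval (jAtFam N) a z) := by
    rw [pow_add]
    linear_combination hz
  have h5 := mul_left_cancel₀ (pow_ne_zero _ hD) h4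
  rw [div_pow, div_mul_eq_mul_div, div_eq_iff (pow_ne_zero _ hΔz), h5]
  ring

/-- The weight zero function `F / Δ` transforms with the multiplier of `F`. -/
theorem div_discriminant_smul {N : ℕ} {χ : ↥(Gamma0 N) →* ℂˣ} {F : ℍ → ℂ}
    (hF : F ∈ MFchi N 12 χ) (γ : ↥(Gamma0 N)) (z : ℍ) :
    F ((γ : SL(2, ℤ)) • z) / Δ ((γ : SL(2, ℤ)) • z) = ((χ γ : ℂˣ) : ℂ) * (F z / Δ z) := by
  have hd : denom (γ : SL(2, ℤ)) z ≠ 0 := denom_ne_zero _ z
  have hΔz : Δ z ≠ 0 := ModularForm.discriminant_ne_zero z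
  rw [apply_smul_of_mem_MFchi hF γ z, discriminant_apply_smul]
  field_simp

/-- `F / Δ` is holomorphic. -/
theorem mdiff_div_discriminant {F : ℍ → ℂ} (hF : MDiff F) : MDiff (fun z => F z / Δ z) := by
  have hΔ : MDiff (ModularForm.discriminant) := ModularFormClass.holo CuspForm.discriminant
  rw [UpperHalfPlane.mdifferentiable_iff] at hF hΔ ⊢
  have h : DifferentiableOn ℂ
      (fun w : ℂ => (F ∘ ofComplex) w / (ModularForm.discriminant ∘ ofComplex) w)
      {w | 0 < w.im} :=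
    hF.div hΔ (fun w _ => ModularForm.discriminant_ne_zero _)
  exact h

/-- Growth at the cusps of `F / Δ`: `Δ · ((F / Δ) ∘ g) = F ∣[12] g`. -/
theorem discriminant_mul_div_smul (F : ℍ → ℂ) (g : SL(2, ℤ)) :
    (fun z : ℍ => Δ z ^ 1 * (F (g • z) / Δ (g • z))) = F ∣[(12 : ℤ)] g := by
  funext z
  have hd : denom g z ≠ 0 := denom_ne_zero _ z
  have hΔz : Δ z ≠ 0 := ModularForm.discriminant_ne_zero z
  rw [ModularForm.SL_slash_apply, discriminant_apply_smul, zpow_neg]
  field_simp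

/-- The fixed point equation `a z + b = z (c z + d)`. -/
theorem fixedPoint_eq (γ : SL(2, ℤ)) (z₀ : ℍ) (h : γ • z₀ = z₀) :
    ((γ 0 0 : ℤ) : ℂ) * (z₀ : ℂ) + ((γ 0 1 : ℤ) : ℂ)
      = (z₀ : ℂ) * (((γ 1 0 : ℤ) : ℂ) * (z₀ : ℂ) + ((γ 1 1 : ℤ) : ℂ)) := by
  have h1 := UpperHalfPlane.coe_specialLinearGroup_apply γ z₀
  rw [h] at h1
  have hden : ((algebraMap ℤ ℝ (γ 1 0) : ℝ) : ℂ) * (z₀ : ℂ)
      + ((algebraMap ℤ ℝ (γ 1 1) : ℝ) : ℂ) ≠ 0 := by
    intro h0
    rw [h0, div_zero] at h1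
    have := z₀.im_pos
    rw [← UpperHalfPlane.coe_im, h1] at this
    simp at this
  rw [eq_div_iff hden] at h1
  simp only [algebraMap_int_eq, Int.coe_castRingHom, Complex.ofReal_intCast] at h1
  rw [← h1]

/-- **[EllFix]** An element of `SL(2, ℤ)` fixing a point of the upper half plane has order dividing
`12`. -/
theorem pow_twelve_eq_one_of_fixed (γ : SL(2, ℤ)) (z₀ : ℍ) (h : γ • z₀ = z₀) : γ ^ 12 = 1 := by
  have hfix := fixedPoint_eq γ z₀ h
  have hdet : γ 0 0 * γ 1 1 - γ 0 1 * γ 1 0 = 1 := by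
    have := γ.det_coe
    rw [Matrix.det_fin_two] at this
    exact this
  have hy : 0 < z₀.im := z₀.im_pos
  have him := congrArg Complex.im hfix
  have hre := congrArg Complex.re hfix
  simp only [Complex.add_im, Complex.mul_im, Complex.intCast_im, Complex.intCast_re,
    Complex.add_re, Complex.mul_re, UpperHalfPlane.coe_im, UpperHalfPlane.coe_re, zero_mul,
    add_zero, sub_zero] at him hre
  have h1 : ((γ 0 0 : ℤ) : ℝ) = 2 * (γ 1 0 : ℤ) * z₀.re + (γ 1 1 : ℤ) := by
    have h0 : z₀.im * (((γ 0 0 : ℤ) : ℝ) - (2 * (γ 1 0 : ℤ) * z₀.re + (γ 1 1 : ℤ))) = 0 := by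
      linear_combination him
    rcases mul_eq_zero.mp h0 with h0 | h0
    · exact absurd h0 hy.ne'
    · linarith
  have h2 : ((γ 0 1 : ℤ) : ℝ) = -(γ 1 0 : ℤ) * (z₀.re ^ 2 + z₀.im ^ 2) := by
    linear_combination hre - z₀.re * h1
  have hdetR : ((γ 0 0 : ℤ) : ℝ) * (γ 1 1 : ℤ) - (γ 0 1 : ℤ) * (γ 1 0 : ℤ) = 1 := by
    exact_mod_cast hdet
  -- trace identity
  have htr : (((γ 0 0 + γ 1 1 : ℤ) : ℝ)) ^ 2 = 4 - 4 * ((γ 1 0 : ℤ) : ℝ) ^ 2 * z₀.im ^ 2 := by
    push_cast
    rw [h2] at hdetR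
    rw [h1] at hdetR ⊢
    linear_combination 4 * hdetR
  -- Cayley–Hamilton
  have hM : (γ : Matrix (Fin 2) (Fin 2) ℤ) * (γ : Matrix (Fin 2) (Fin 2) ℤ)
      = (γ 0 0 + γ 1 1) • (γ : Matrix (Fin 2) (Fin 2) ℤ) - 1 := by
    rw [← Matrix.ext_iff]
    simp only [Fin.forall_fin_two, Matrix.mul_apply, Fin.sum_univ_two, Matrix.sub_apply,
      Matrix.smul_apply, Matrix.one_apply, smul_eq_mul]
    refine ⟨⟨?_, ?_⟩, ?_, ?_⟩
    · simp only [if_true]
      linear_combination -hdet
    · simp only [Fin.isValue, zero_ne_one, if_false]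
      ring
    · simp only [Fin.isValue, one_ne_zero, if_false]
      ring
    · simp only [if_true]
      linear_combination -hdet
  have hpow : ((γ ^ 12 : SL(2, ℤ)) : Matrix (Fin 2) (Fin 2) ℤ) = 1 := by
    rw [Matrix.SpecialLinearGroup.coe_pow]
    by_cases hc : γ 1 0 = 0
    · -- `γ = ±1`
      have hb : γ 0 1 = 0 := by
        have : ((γ 0 1 : ℤ) : ℝ) = 0 := by rw [h2, hc]; simp
        exact_mod_cast this
      have had : γ 0 0 = γ 1 1 := by
        have : ((γ 0 0 : ℤ) : ℝ) = (γ 1 1 : ℤ) := by rw [h1, hc]; simp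
        exact_mod_cast this
      have hsq : (γ : Matrix (Fin 2) (Fin 2) ℤ) * (γ : Matrix (Fin 2) (Fin 2) ℤ) = 1 := by
        rw [hb, hc, had] at hdet
        rw [← Matrix.ext_iff]
        simp only [Fin.forall_fin_two, Matrix.mul_apply, Fin.sum_univ_two, Matrix.one_apply,
          hb, hc, had]
        refine ⟨⟨?_, ?_⟩, ?_, ?_⟩
        · simp only [if_true]
          linear_combination hdet
        · simp only [Fin.isValue, zero_ne_one, if_false]
          ring
        · simp only [Fin.isValue, one_ne_zero, if_false]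
          ring
        · simp only [if_true]
          linear_combination hdet
      rw [show (12 : ℕ) = 2 * 6 from rfl, pow_mul, pow_two, hsq, one_pow]
    · have hc2 : (1 : ℝ) ≤ ((γ 1 0 : ℤ) : ℝ) ^ 2 := by
        have : (1 : ℤ) ≤ (γ 1 0) ^ 2 := by
          have := sq_nonneg (γ 1 0)
          have h0 : (γ 1 0) ^ 2 ≠ 0 := pow_ne_zero 2 hc
          omega
        exact_mod_cast this
      have hlt : (((γ 0 0 + γ 1 1 : ℤ) : ℝ)) ^ 2 < 4 := by
        rw [htr]
        have : 0 < ((γ 1 0 : ℤ) : ℝ) ^ 2 * z₀.im ^ 2 := by positivity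
        linarith
      have hlt' : (γ 0 0 + γ 1 1) ^ 2 < 4 := by exact_mod_cast hlt
      have hlo : -2 < γ 0 0 + γ 1 1 := by nlinarith
      have hhi : γ 0 0 + γ 1 1 < 2 := by nlinarith
      set t := γ 0 0 + γ 1 1 with ht
      set M := (γ : Matrix (Fin 2) (Fin 2) ℤ) with hMdef
      have ht' : t = -1 ∨ t = 0 ∨ t = 1 := by omega
      rcases ht' with ht' | ht' | ht'
      · rw [ht'] at hM
        have h3 : M ^ 3 = 1 := by
          rw [pow_succ, pow_two, hM]
          have : (-1 • M - 1) * M = -(M * M) - M := by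
            rw [sub_mul, neg_one_smul, neg_mul, one_mul]
          rw [this, hM]
          simp
        rw [show (12 : ℕ) = 3 * 4 from rfl, pow_mul, h3, one_pow]
      · rw [ht'] at hM
        have h2' : M ^ 2 = -1 := by
          rw [pow_two, hM]
          simp
        rw [show (12 : ℕ) = 2 * 6 from rfl, pow_mul, h2']
        norm_num
      · rw [ht'] at hM
        have h3 : M ^ 3 = -1 := by
          rw [pow_succ, pow_two, hM]
          have : ((1 : ℤ) • M - 1) * M = M * M - M := by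
            rw [sub_mul, one_smul, one_mul]
          rw [this, hM]
          simp
        rw [show (12 : ℕ) = 3 * 4 from rfl, pow_mul, h3]
        norm_num
  exact Subtype.ext hpow

/-- Elements of `Γ₀(N)` fixing a point of the upper half plane are killed by `χ_u`. -/
theorem chiU_eq_one_of_fixed {N : ℕ} (p : ℕ) (u : Additive (Gamma0 N) →+ ℤ) (γ : ↥(Gamma0 N))
    (z₀ : ℍ) (h : (γ : SL(2, ℤ)) • z₀ = z₀) : KPlan.chiU p u γ = 1 := by
  refine KPlan.chiU_eq_one_of_pow_eq_one p u γ (n := 12) (by norm_num) ?_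
  apply Subtype.ext
  rw [Subgroup.coe_pow, pow_twelve_eq_one_of_fixed (γ : SL(2, ℤ)) z₀ h]
  rfl

/-- `DivP.dvd_ord` for an arbitrary exponent `p` (no primality): if `f ∈ F̄_N` is analytically the
`p`-th power of a holomorphic function `w` on the upper half plane which is invariant under the
parabolic and elliptic elements of `Γ₀(N)` and of moderate growth at every cusp, then
`p ∣ ord_P f` at every place `P` of `F̄_N / ℚ̄`. -/
theorem dvd_ord_any (N : ℕ) [NeZero N] (p : ℕ) (f : FN N) (hf : f ≠ 0) (w : ℍ → ℂ) (hw : MDiff w)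
    (hwf : DivP.IsPthRoot N p w f)
    (hpar : ∀ (g : SL(2, ℤ)) (n : ℤ),
      g * ModularGroup.T ^ n * g⁻¹ ∈ CongruenceSubgroup.Gamma0 N →
      ∀ z : ℍ, w ((g * ModularGroup.T ^ n * g⁻¹) • z) = w z)
    (hell : ∀ γ : SL(2, ℤ), γ ∈ CongruenceSubgroup.Gamma0 N → ∀ z₀ : ℍ, γ • z₀ = z₀ →
      ∀ z : ℍ, w (γ • z) = w z)
    (hgrow : ∀ g : SL(2, ℤ), ∃ m : ℕ,
      IsBoundedAtImInfty (fun z : ℍ => Δ z ^ m * w (g • z)))
    (P : Place Kb (FN N)) : (p : ℤ) ∣ P.ord f := by
  have hFF : IsFF1 Kb (FN N) := ⟨jF N, transcendental_jF N, finiteDimensional_jF N⟩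
  by_cases hj : P.ord (jF N) < 0
  · have hP : 0 < P.ord (jF N)⁻¹ := by
      rw [P.ord_inv]
      omega
    exact DivP.dvd_ord_cusp p f hf w hw hwf hpar hgrow P hP
  · obtain ⟨a, ha | ha⟩ := exists_residue hFF P (not_lt.mp hj)
    · exact absurd (ha ▸ isAlgebraic_algebraMap a) (transcendental_jF N)
    · by_cases h0 : a = 0
      · subst h0
        refine DivP.dvd_ord_taylor ellRho 0 ?_ 3 (by norm_num) ?_ _ ST_smul_ellRho
          isPrimitiveRoot_fixMult_ST_ellRho p f hf w hw hwf hell P ha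
        · rw [jFun_ellRho, map_zero]
        · rw [jFun_ellRho, map_zero, sub_zero, order_taylorAt jFun_mdifferentiable ellRho,
            analyticOrderAt_jFun_ellRho]
          rfl
      · by_cases h1 : a = 1728
        · subst h1
          refine DivP.dvd_ord_taylor ellI 1728 ?_ 2 (by norm_num) ?_ _ S_smul_ellI
            isPrimitiveRoot_fixMult_S_ellI p f hf w hw hwf hell P ha
          · rw [jFun_ellI, ringHom_eq_1728]
          · rw [order_taylorAt_sub jFun_mdifferentiable ellI, jFun_ellI,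
              analyticOrderAt_jFun_ellI]
            rfl
        · obtain ⟨z₀, hz⟩ := jFun_surjective_B (embC a)
          obtain ⟨hne0, hne1⟩ := jFun_generic_of_eq embC h0 h1 hz
          refine DivP.dvd_ord_taylor z₀ a hz 1 one_pos ?_ 1 (one_smul _ _) ?_ p f hf w hw hwf
            hell P ha
          · rw [order_taylorAt_sub jFun_mdifferentiable z₀,
              analyticOrderAt_jFun_generic z₀ hne0 hne1, Nat.cast_one]
          · rw [AnDatum.fixMult_one]
            exact IsPrimitiveRoot.one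

/-- **(WQ)** for EVERY exponent `p : ℕ`: for `u ∈ Lpar N` and a witness `y ∈ ℚ̄((q))` with
`y · Δ` the `q`-expansion of a weight `12` form with multiplier `χ_u`, every order of
`f = y ^ p ∈ F̄_N` is divisible by `p`. -/
theorem wqStatement_any (N p : ℕ) [NeZero N] : KPlan.WQStatement N p := by
  intro u y hy hyV f hfy P
  obtain ⟨F, hF, hyF⟩ := hyV
  have hT := KPlan.chiU_TG p u
  have hFn : F ∈ S23.niceSub := mem_niceSub_of_mem_MFchi hT hF
  have hf0 : f ≠ 0 := by
    intro h0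
    rw [h0] at hfy
    exact pow_ne_zero p hy hfy.symm
  have hχ : ∀ (γ : SL(2, ℤ)) (hγ : γ ∈ Gamma0 N) (z : ℍ),
      F (γ • z) / Δ (γ • z)
        = ((KPlan.chiU p (u : Additive (Gamma0 N) →+ ℤ) ⟨γ, hγ⟩ : ℂˣ) : ℂ) * (F z / Δ z) :=
    fun γ hγ z => div_discriminant_smul hF ⟨γ, hγ⟩ z
  refine dvd_ord_any N p f hf0 (fun z => F z / Δ z) (mdiff_div_discriminant hF.1)
    (isPthRoot_of_qx N p F hFn y hyF f hf0 hfy) ?_ ?_ ?_ P
  · intro g n hmem z
    have h1 := hχ _ hmem z
    rw [KPlan.chiU_eq_one_of_trace p u ⟨_, hmem⟩ (by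
      show ((g * ModularGroup.T ^ n * g⁻¹ : SL(2, ℤ)) : Matrix (Fin 2) (Fin 2) ℤ).trace ^ 2 = 4
      rw [trace_conj_T_zpow]
      norm_num)] at h1
    simpa using h1
  · intro γ hγ z₀ hz₀ z
    have h1 := hχ γ hγ z
    rw [chiU_eq_one_of_fixed p (u : Additive (Gamma0 N) →+ ℤ) ⟨γ, hγ⟩ z₀ hz₀] at h1
    simpa using h1
  · intro g
    refine ⟨1, ?_⟩
    rw [discriminant_mul_div_smul]
    exact isBoundedAtImInfty_slash_of_mem_MFchi hF g

/-- **(WQ)**, leaf 2 of the [K] master table, in the binder form of `KPlan.kStatement_of_leaves`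
(the hypothesis `p ≠ 0` is not used). -/
theorem wqStatement (N p : ℕ) [NeZero N] (_hp : p ≠ 0) : KPlan.WQStatement N p :=
  wqStatement_any N p

end Fermat.Agent.S29.WQ
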